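/-
S55 package E4 (class field theory, p-part): wave-1 interfaces.
Owner-planner: helper62.  Plan: NOTES/plan/S55_E4.md.

Every `Stmt_*` below is a standalone classical theorem.  A package is DONE when
`theorem … : Stmt_X := …` is landed sorry-free (own file `Fermat/Agent/S55/CFT/H<seat>_*.lean`).
-/
import Mathlib

set_option autoImplicit false

open CategoryTheory groupCohomology

namespace Fermat.Agent.S55.CFT

/-! ### Island TN: Tate's theorem (pure algebra on Mathlib's `groupCohomology`) -/

/-- Restriction of a representation to a subgroup. -/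
noncomputable abbrev resSub {G : Type} [Group G] (A : Rep ℤ G) (H : Subgroup G) : Rep ℤ H :=
  Rep.res H.subtype A

/-- The restriction map `Hⁿ(G, A) → Hⁿ(H, A)`. -/
noncomputable abbrev resMap {G : Type} [Group G] (A : Rep ℤ G) (H : Subgroup G) (n : ℕ) :
    groupCohomology A n →ₗ[ℤ] groupCohomology (resSub A H) n :=
  (groupCohomology.map H.subtype (𝟙 (resSub A H)) n).hom

/-- **TN-1** (twin vanishing; Serre, Local Fields IX §5 Thm 8): if `H¹(H, A) = H²(H, A) = 0`
for every subgroup `H` of the finite group `G`, then `Hⁿ(H, A) = 0` for all `n ≥ 1` and all `H`. -/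
def Stmt_TwinVanishing : Prop :=
  ∀ (G : Type) [Group G] [Finite G] (A : Rep ℤ G),
    (∀ H : Subgroup G, Subsingleton (groupCohomology (resSub A H) 1)) →
    (∀ H : Subgroup G, Subsingleton (groupCohomology (resSub A H) 2)) →
    ∀ (H : Subgroup G) (n : ℕ), 0 < n → Subsingleton (groupCohomology (resSub A H) n)

/-- **TN-2** (Tate; Serre, Local Fields IX §8 Thm 13, degree 3 only): if `H¹(H, C) = 0` and
`H²(H, C)` is cyclic of order `|H|`, generated by the restriction of a fixed class `γ`, for
every subgroup `H` of the finite group `G`, then `H³(H, C) = 0` for every `H`. -/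
def Stmt_TateH3 : Prop :=
  ∀ (G : Type) [Group G] [Finite G] (C : Rep ℤ G) (γ : groupCohomology C 2),
    (∀ H : Subgroup G, Subsingleton (groupCohomology (resSub C H) 1)) →
    (∀ H : Subgroup G, Nat.card (groupCohomology (resSub C H) 2) = Nat.card H ∧
      ∀ x : groupCohomology (resSub C H) 2, ∃ n : ℤ, x = n • resMap C H 2 γ) →
    ∀ H : Subgroup G, Subsingleton (groupCohomology (resSub C H) 3)

/-! ### Island LOC: local fields (finite extensions of `ℚ_q`, abstract) -/

/-- The subgroup of norms `N_{E/F}(Eˣ) ≤ Fˣ`. -/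
noncomputable abbrev normSubgroup (F E : Type) [Field F] [Field E] [Algebra F E] : Subgroup Fˣ :=
  (Units.map (Algebra.norm F : E →* F)).range

/-- **LOC-3** (local norm index; Serre, Local Fields XIII §4 / Cassels–Fröhlich VI §1.4):
for a Galois extension `E/F` of prime degree `ℓ` of finite extensions of `ℚ_q`,
`[Fˣ : N_{E/F} Eˣ] = ℓ`. -/
def Stmt_LocalNormIndex : Prop :=
  ∀ (q : ℕ) [Fact q.Prime] (F E : Type) [Field F] [Field E] [Algebra ℚ_[q] F]
    [FiniteDimensional ℚ_[q] F] [Algebra F E] [FiniteDimensional F E] [IsGalois F E] (ℓ : ℕ),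
    ℓ.Prime → Module.finrank F E = ℓ → (normSubgroup F E).index = ℓ

/-- **LOC-1a** (finiteness of `Fˣ/Fˣⁿ`): for a finite extension `F` of `ℚ_q` and `n ≥ 1` the
subgroup of `n`-th powers has finite index. -/
def Stmt_LocalPowIndexFinite : Prop :=
  ∀ (q : ℕ) [Fact q.Prime] (F : Type) [Field F] [Algebra ℚ_[q] F] [FiniteDimensional ℚ_[q] F]
    (n : ℕ), 0 < n → (powMonoidHom n : Fˣ →* Fˣ).range.index ≠ 0

/-- **LOC-1b** (size of `Fˣ/Fˣᵖ` when `μ_p ⊆ F`; Serre, Local Fields XIV §? / Neukirch II.5.8):
if `F` contains a primitive `p`-th root of unity, then `[Fˣ : Fˣᵖ] = p ^ (2 + [F : ℚ_q])` when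
`q = p`, and `= p ^ 2` when `q ≠ p`. -/
def Stmt_LocalPowIndex : Prop :=
  ∀ (q : ℕ) [Fact q.Prime] (F : Type) [Field F] [Algebra ℚ_[q] F] [FiniteDimensional ℚ_[q] F]
    (p : ℕ), p.Prime → (∃ ζ : F, IsPrimitiveRoot ζ p) →
    (powMonoidHom p : Fˣ →* Fˣ).range.index =
      if q = p then p ^ (2 + Module.finrank ℚ_[q] F) else p ^ 2

/-! ### Island GLB: S-units -/

open NumberField IsDedekindDomain in
/-- **GLB-1** (Dirichlet's S-unit theorem, in index form): for a number field `K` and a finite
set `S` of primes of `𝓞 K`, the group `U` of `S`-units is finitely generated and, for every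
prime `p`, `[U : Uᵖ] = p ^ (r + #S + t)` with `r = NumberField.Units.rank K` and `t = 1` if `K`
contains a primitive `p`-th root of unity, `t = 0` otherwise. -/
def Stmt_SUnitRank : Prop :=
  ∀ (K : Type) [Field K] [NumberField K] (S : Finset (HeightOneSpectrum (𝓞 K))),
    Group.FG ((S : Set (HeightOneSpectrum (𝓞 K))).unit K) ∧
    ∀ p : ℕ, p.Prime →
      ((∃ ζ : K, IsPrimitiveRoot ζ p) →
        (powMonoidHom p : ((S : Set (HeightOneSpectrum (𝓞 K))).unit K) →*
          ((S : Set (HeightOneSpectrum (𝓞 K))).unit K)).range.index =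
        p ^ (NumberField.Units.rank K + S.card + 1)) ∧
      ((¬ ∃ ζ : K, IsPrimitiveRoot ζ p) →
        (powMonoidHom p : ((S : Set (HeightOneSpectrum (𝓞 K))).unit K) →*
          ((S : Set (HeightOneSpectrum (𝓞 K))).unit K)).range.index =
        p ^ (NumberField.Units.rank K + S.card))

end Fermat.Agent.S55.CFT
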