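/-
S55 package E4, island LOC (local class field theory, p-part): interfaces.
Sub-coordinator: helper68.  Plan: NOTES/plan/S55_LOC.md (parent: NOTES/plan/S55_E4.md, helper62).

Local fields are ABSTRACT finite extensions `F` of `ℚ_[q]`
(`[Field F] [Algebra ℚ_[q] F] [FiniteDimensional ℚ_[q] F]`); the absolute value is the spectral
norm `nrm q F = spectralNorm ℚ_[q] F` (Mathlib), which is multiplicative, ultrametric, extends
the `q`-adic norm, is invariant under automorphisms and compatible with towers.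

Every `Stmt_*` below is a standalone classical theorem.  A package is DONE when
`theorem … : Stmt_X := …` is landed sorry-free (own file `Fermat/Agent/S55/CFT/LOC/H<seat>_*.lean`,
namespace `Fermat.Agent.S55.CFT.LOC.H<seat>`).
-/
import Fermat.Agent.S55.CFT.Defs

set_option autoImplicit false

open CategoryTheory groupCohomology

namespace Fermat.Agent.S55.CFT.LOC

/-- The `q`-adic absolute value of a finite extension `F` of `ℚ_q` (the spectral norm). -/
noncomputable def nrm (q : ℕ) [Fact q.Prime] (F : Type) [Field F] [Algebra ℚ_[q] F] (x : F) : ℝ :=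
  spectralNorm ℚ_[q] F x

/-- `E/F` is unramified: `E` and `F` have the same value group. -/
def IsUnram (q : ℕ) [Fact q.Prime] (F E : Type) [Field F] [Field E] [Algebra ℚ_[q] F]
    [Algebra ℚ_[q] E] : Prop :=
  ∀ y : E, ∃ x : F, nrm q E y = nrm q F x

/-! ### LOC-1: basic structure -/

/-- **LOC-1c** (discreteness): there is a uniformiser. -/
def Stmt_Uniformizer : Prop :=
  ∀ (q : ℕ) [Fact q.Prime] (F : Type) [Field F] [Algebra ℚ_[q] F] [FiniteDimensional ℚ_[q] F],
    ∃ π : F, 0 < nrm q F π ∧ nrm q F π < 1 ∧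
      ∀ x : F, x ≠ 0 → ∃ n : ℤ, nrm q F x = nrm q F π ^ n

/-- **LOC-1d** (finite residue rings): the integers modulo a ball are finite: for every
`r > 0` there is a finite set of integers such that every integer is `r`-close to one of them. -/
def Stmt_FiniteResidue : Prop :=
  ∀ (q : ℕ) [Fact q.Prime] (F : Type) [Field F] [Algebra ℚ_[q] F] [FiniteDimensional ℚ_[q] F]
    (r : ℝ), 0 < r →
    ∃ T : Finset F, (∀ t ∈ T, nrm q F t ≤ 1) ∧
      ∀ x : F, nrm q F x ≤ 1 → ∃ t ∈ T, nrm q F (x - t) ≤ r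

/-- **LOC-1e** (completeness, in the form of successive approximation): a sequence whose
consecutive differences tend to `0` geometrically has a limit, with the same error bound. -/
def Stmt_SuccApprox : Prop :=
  ∀ (q : ℕ) [Fact q.Prime] (F : Type) [Field F] [Algebra ℚ_[q] F] [FiniteDimensional ℚ_[q] F]
    (x : ℕ → F) (c ρ : ℝ), 0 ≤ c → 0 ≤ ρ → ρ < 1 →
    (∀ n, nrm q F (x (n + 1) - x n) ≤ c * ρ ^ n) →
    ∃ y : F, ∀ n, nrm q F (y - x n) ≤ c * ρ ^ n

/-- **LOC-1f** (equivalence of norms on a normal basis): the coordinates of `y` with respect to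
an `F`-basis of `E` are bounded by a constant times the absolute value of `y`. -/
def Stmt_CoordBound : Prop :=
  ∀ (q : ℕ) [Fact q.Prime] (F E : Type) [Field F] [Field E] [Algebra ℚ_[q] F]
    [FiniteDimensional ℚ_[q] F] [Algebra ℚ_[q] E] [Algebra F E] [IsScalarTower ℚ_[q] F E]
    [FiniteDimensional F E] (ι : Type) [Fintype ι] (b : Module.Basis ι F E),
    ∃ C : ℝ, 0 < C ∧ ∀ (y : E) (i : ι), nrm q F (b.repr y i) ≤ C * nrm q E y

/-! ### LOC-2: unramified extensions -/

/-- **LOC-2a** (existence of unramified extensions): for every `n ≥ 1` there is, inside the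
algebraic closure, an unramified cyclic Galois extension of `F` of degree `n`. -/
def Stmt_UnramExists : Prop :=
  ∀ (q : ℕ) [Fact q.Prime] (F : Type) [Field F] [Algebra ℚ_[q] F] [FiniteDimensional ℚ_[q] F]
    (n : ℕ), 0 < n →
    ∃ E : IntermediateField F (AlgebraicClosure F),
      FiniteDimensional F E ∧ IsGalois F E ∧ Module.finrank F E = n ∧ IsCyclic (E ≃ₐ[F] E) ∧
      IsUnram q F E

/-- **LOC-2b** (units are norms in unramified cyclic extensions). -/
def Stmt_UnramNormUnits : Prop :=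
  ∀ (q : ℕ) [Fact q.Prime] (F E : Type) [Field F] [Field E] [Algebra ℚ_[q] F]
    [FiniteDimensional ℚ_[q] F] [Algebra ℚ_[q] E] [Algebra F E] [IsScalarTower ℚ_[q] F E]
    [FiniteDimensional F E] [IsGalois F E],
    IsCyclic (E ≃ₐ[F] E) → IsUnram q F E →
    ∀ u : F, nrm q F u = 1 → ∃ w : E, nrm q E w = 1 ∧ Algebra.norm F w = u

/-- **LOC-1g** (`n`-th powers are open; Hensel): units close to `1` are `n`-th powers. -/
def Stmt_PowOpen : Prop :=
  ∀ (q : ℕ) [Fact q.Prime] (F : Type) [Field F] [Algebra ℚ_[q] F] [FiniteDimensional ℚ_[q] F]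
    (n : ℕ), 0 < n → ∃ r : ℝ, 0 < r ∧ ∀ u : F, nrm q F (u - 1) ≤ r → ∃ w : F, w ^ n = u

/-! ### LOC-3: the local norm index -/

/-- **LOC-3** (local norm index, cyclic extensions of any degree; Serre, Local Fields XIII §4,
Cassels–Fröhlich VI §1.4): `[Fˣ : N_{E/F} Eˣ] = [E : F]` for `E/F` cyclic.
(Implies `Stmt_LocalNormIndex` of `CFT/Defs.lean`.) -/
def Stmt_LocalNormIndexCyclic : Prop :=
  ∀ (q : ℕ) [Fact q.Prime] (F E : Type) [Field F] [Field E] [Algebra ℚ_[q] F]
    [FiniteDimensional ℚ_[q] F] [Algebra F E] [FiniteDimensional F E] [IsGalois F E],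
    IsCyclic (E ≃ₐ[F] E) → (normSubgroup F E).index = Module.finrank F E

/-- **LOC-3a** (the cohomologically trivial open subgroup; the heart of LOC-3).  For `E/F`
cyclic with generator `σ` there is `r > 0`, and a set `V` of units of `E` (`= 1 + Λ`, `Λ` a small
multiple of a normal basis lattice), which is a `σ`-stable subgroup containing all `u` with
`|u - 1| ≤ r`, all of whose elements are units (`|u| = 1`), such that
* every element of `V` fixed by `σ` is the norm of an element of `V` (`Ĥ⁰(V) = 0`),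
* every element of `V` of norm `1` is `σ w / w` with `w ∈ V` (`H¹(V) = 0`). -/
def Stmt_TrivialUnits : Prop :=
  ∀ (q : ℕ) [Fact q.Prime] (F E : Type) [Field F] [Field E] [Algebra ℚ_[q] F]
    [FiniteDimensional ℚ_[q] F] [Algebra ℚ_[q] E] [Algebra F E] [IsScalarTower ℚ_[q] F E]
    [FiniteDimensional F E] [IsGalois F E] (σ : E ≃ₐ[F] E),
    (∀ τ : E ≃ₐ[F] E, τ ∈ Subgroup.zpowers σ) →
    ∃ (r : ℝ) (V : Subgroup Eˣ), 0 < r ∧
      (∀ u : Eˣ, nrm q E ((u : E) - 1) ≤ r → u ∈ V) ∧
      (∀ u ∈ V, nrm q E (u : E) = 1) ∧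
      (∀ u ∈ V, Units.map (σ : E →* E) u ∈ V) ∧
      (∀ u ∈ V, σ (u : E) = u → ∃ w ∈ V, algebraMap F E (Algebra.norm F (w : E)) = u) ∧
      (∀ u ∈ V, Algebra.norm F (u : E) = 1 → ∃ w ∈ V, (u : E) = σ (w : E) / w)

/-! ### LOC-4: the local class formation on `p`-extensions -/

/-- The units of `E` as a `Gal(E/F)`-module. -/
noncomputable abbrev unitsRep (F E : Type) [Field F] [Field E] [Algebra F E] :
    Rep ℤ (E ≃ₐ[F] E) :=
  Rep.ofAlgebraAutOnUnits F E

/-- **LOC-4a** (cyclic case): `#H²(Gal(E/F), Eˣ) = [E : F]` for `E/F` cyclic.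
(Mathlib `FiniteCyclic` + LOC-3.) -/
def Stmt_LocalH2Cyclic : Prop :=
  ∀ (q : ℕ) [Fact q.Prime] (F E : Type) [Field F] [Field E] [Algebra ℚ_[q] F]
    [FiniteDimensional ℚ_[q] F] [Algebra F E] [FiniteDimensional F E] [IsGalois F E],
    IsCyclic (E ≃ₐ[F] E) →
    Nat.card (groupCohomology (unitsRep F E) 2) = Module.finrank F E

/-- **LOC-4b** (second inequality for `p`-extensions): `#H²(Gal(E/F), Eˣ) ≤ [E : F]` (finite and
at most the degree) when `Gal(E/F)` is a `p`-group.  (Induction, inflation–restriction in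
degree 2 = package ALG-2, Hilbert 90, LOC-4a.) -/
def Stmt_LocalH2Le : Prop :=
  ∀ (q : ℕ) [Fact q.Prime] (p : ℕ) [Fact p.Prime] (F E : Type) [Field F] [Field E]
    [Algebra ℚ_[q] F] [FiniteDimensional ℚ_[q] F] [Algebra F E] [FiniteDimensional F E]
    [IsGalois F E],
    IsPGroup p (E ≃ₐ[F] E) →
    Finite (groupCohomology (unitsRep F E) 2) ∧
      Nat.card (groupCohomology (unitsRep F E) 2) ≤ Module.finrank F E

/-- **LOC-4** (local class formation on `p`-extensions = hypothesis of Tate's theorem TN-2):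
for `E/F` Galois with `p`-group `G`, there is a class `γ ∈ H²(G, Eˣ)` such that for every
subgroup `H ≤ G`, `H²(H, Eˣ)` has order `|H|` and is generated by the restriction of `γ`. -/
def Stmt_LocalFundClass : Prop :=
  ∀ (q : ℕ) [Fact q.Prime] (p : ℕ) [Fact p.Prime] (F E : Type) [Field F] [Field E]
    [Algebra ℚ_[q] F] [FiniteDimensional ℚ_[q] F] [Algebra F E] [FiniteDimensional F E]
    [IsGalois F E],
    IsPGroup p (E ≃ₐ[F] E) →
    ∃ γ : groupCohomology (unitsRep F E) 2, ∀ H : Subgroup (E ≃ₐ[F] E),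
      Nat.card (groupCohomology (resSub (unitsRep F E) H) 2) = Nat.card H ∧
      ∀ x : groupCohomology (resSub (unitsRep F E) H) 2,
        ∃ n : ℤ, x = n • resMap (unitsRep F E) H 2 γ

/-- **LOC-4'** (consequence, with TN-2): `H³(Gal(E/F), Eˣ) = 0` for `p`-extensions. -/
def Stmt_LocalH3 : Prop :=
  ∀ (q : ℕ) [Fact q.Prime] (p : ℕ) [Fact p.Prime] (F E : Type) [Field F] [Field E]
    [Algebra ℚ_[q] F] [FiniteDimensional ℚ_[q] F] [Algebra F E] [FiniteDimensional F E]
    [IsGalois F E],
    IsPGroup p (E ≃ₐ[F] E) → Subsingleton (groupCohomology (unitsRep F E) 3)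

end Fermat.Agent.S55.CFT.LOC
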