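import Fermat.Agent.S55.CFT.H58_TwinCyclic

/-!
# CFT package TN-1 (twin vanishing), part 3 (helper58): induction

* `index_smul_eq_zero` : if `Hⁿ(S, A) = 0` then `Hⁿ(G, A)` is killed by the index of `S`
  (Shapiro + the maps `A → Fun(G ⧸ S, A) → A` whose composite is the index);
* `isZero_of_twinHyp_pgroup` : twin vanishing for finite `p`-groups (induction on the order,
  a normal subgroup of index `p`, periodicity);
* `isZero_of_twinHyp`, `twinVanishing_generic` : twin vanishing for finite groups.
-/

set_option autoImplicit false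
set_option linter.unusedSectionVars false

noncomputable section

namespace Fermat.Agent.S55.CFT.H58

open CategoryTheory CategoryTheory.Limits groupCohomology Rep

variable {k : Type} [CommRing k] {G : Type} [Group G]

/-! ## The index kills cohomology -/

lemma iotaF_tauF (A : Rep.{0} k G) (X : Type) [MulAction G X] [Fintype X] :
    iotaF A X ≫ tauF A X = Fintype.card X • 𝟙 A := by
  ext a
  exact tauF_iotaF A X a

lemma functor_map_nsmul (n : ℕ) {A B : Rep.{0} k G} (f : A ⟶ B) (m : ℕ) :
    (functor k G n).map (m • f) = m • (functor k G n).map f := by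
  show (HomologicalComplex.homologyFunctor _ _ n).map ((cochainsFunctor k G).map (m • f)) =
    m • (HomologicalComplex.homologyFunctor _ _ n).map ((cochainsFunctor k G).map f)
  rw [Functor.map_nsmul, Functor.map_nsmul]

/-- If `Hⁿ(S, A) = 0` then `Hⁿ(G, A)` is killed by the index of `S`. -/
lemma card_smul_eq_zero (A : Rep.{0} k G) (S : Subgroup G) [Fintype (G ⧸ S)] (n : ℕ)
    (h : IsZero (groupCohomology (res S.subtype A) n)) (x : groupCohomology A n) :
    Fintype.card (G ⧸ S) • x = 0 := by
  have h0 : IsZero (groupCohomology (FunObj A (G ⧸ S)) n) := isZero_funObj A S n h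
  have h1 : (functor k G n).map (iotaF A (G ⧸ S)) ≫ (functor k G n).map (tauF A (G ⧸ S)) =
      Fintype.card (G ⧸ S) • 𝟙 _ := by
    rw [← Functor.map_comp, iotaF_tauF, functor_map_nsmul, CategoryTheory.Functor.map_id]
  have h2 : (functor k G n).map (iotaF A (G ⧸ S)) = 0 := h0.eq_of_tgt _ _
  rw [h2, zero_comp] at h1
  have h3 := congrArg (fun f => f.hom x) h1
  exact h3.symm

lemma index_smul_eq_zero [Finite G] (A : Rep.{0} k G) (S : Subgroup G) (n : ℕ)
    (h : IsZero (groupCohomology (res S.subtype A) n)) (x : groupCohomology A n) :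
    S.index • x = 0 := by
  let _ : Fintype (G ⧸ S) := Fintype.ofFinite _
  have := card_smul_eq_zero A S n h x
  rwa [← Nat.card_eq_fintype_card, ← Subgroup.index_eq_card] at this

/-! ## The twin hypothesis -/

/-- The twin hypothesis, in homomorphism form: `H¹` and `H²` vanish on every group mapping
injectively to `G`. -/
def TwinHyp (A : Rep.{0} k G) : Prop :=
  ∀ (K : Type) [Group K] (φ : K →* G), Function.Injective φ →
    IsZero (groupCohomology (res φ A) 1) ∧ IsZero (groupCohomology (res φ A) 2)

lemma TwinHyp.res {A : Rep.{0} k G} (h : TwinHyp A) {K : Type} [Group K] (φ : K →* G)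
    (hφ : Function.Injective φ) : TwinHyp (res φ A) :=
  fun L _ ψ hψ => h L (φ.comp ψ) (hφ.comp hψ)

/-! ## `p`-groups -/

/-- Twin vanishing for finite `p`-groups. -/
theorem isZero_of_twinHyp_pgroup (p : ℕ) [Fact p.Prime] :
    ∀ (m : ℕ) (P : Type) [Group P] [Finite P], Nat.card P = m → IsPGroup p P →
      ∀ A : Rep.{0} k P, TwinHyp A → ∀ n, IsZero (groupCohomology A (n + 1)) := by
  intro m
  induction m using Nat.strong_induction_on with
  | _ m ih =>
    intro P _ _ hcard hP A hA
    have hp : p.Prime := Fact.out
    obtain ⟨e, he⟩ := (IsPGroup.iff_card (p := p) (G := P)).mp hP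
    rcases Nat.eq_zero_or_pos e with rfl | hepos
    · -- trivial group
      have : Subsingleton P := by
        rw [pow_zero] at he
        exact (Nat.card_eq_one_iff_unique.mp he).1
      intro n
      exact isZero_groupCohomology_succ_of_subsingleton A n
    · obtain ⟨e', rfl⟩ : ∃ e', e = e' + 1 := ⟨e - 1, by omega⟩
      -- a subgroup of index `p`
      obtain ⟨N, hN⟩ := Sylow.exists_subgroup_card_pow_prime (G := P) p (n := e')
        (by rw [he]; exact pow_dvd_pow p (Nat.le_succ e'))
      have hidx : N.index = p := by
        have h1 := N.card_mul_index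
        rw [hN, he, pow_succ] at h1
        exact Nat.eq_of_mul_eq_mul_left (pow_pos hp.pos e') h1
      have hnorm : N.Normal := by
        apply Subgroup.normal_of_index_eq_minFac_card
        rw [hidx, he, hp.pow_minFac (Nat.succ_ne_zero e')]
      have hcardQ : Nat.card (P ⧸ N) = p := by rw [← Subgroup.index_eq_card, hidx]
      have hcyc : IsCyclic (P ⧸ N) := isCyclic_of_prime_card hcardQ
      obtain ⟨c, hc⟩ := hcyc.exists_generator
      let _ : Fintype (P ⧸ N) := Fintype.ofFinite _
      -- induction hypothesis for `N`
      have hNzero : ∀ j, IsZero (groupCohomology (Rep.res N.subtype A) (j + 1)) := by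
        apply ih (p ^ e') (by rw [← hcard, he]; exact Nat.pow_lt_pow_right hp.one_lt (Nat.lt_succ_self e'))
          N hN (hP.to_subgroup N) (Rep.res N.subtype A)
        exact hA.res N.subtype N.subtype_injective
      have h12 := hA P (MonoidHom.id P) Function.injective_id
      -- two-step induction
      have key : ∀ n, IsZero (groupCohomology A (n + 1)) ∧ IsZero (groupCohomology A (n + 2)) := by
        intro n
        induction n with
        | zero => exact h12
        | succ n ihn =>
          refine ⟨ihn.2, ?_⟩
          exact isZero_add_two_of_cyclic A N c hc (n + 1) (hNzero (n + 1)) (hNzero (n + 2)) ihn.1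
      exact fun n => (key n).1

/-! ## General finite groups -/

/-- **Twin vanishing** (homomorphism form). -/
theorem isZero_of_twinHyp [Finite G] (A : Rep.{0} k G) (hA : TwinHyp A) (n : ℕ) :
    IsZero (groupCohomology A (n + 1)) := by
  have hx : ∀ x : groupCohomology A (n + 1), x = 0 := by
    intro x
    by_contra hne
    have hord : addOrderOf x ≠ 1 := fun h => hne (AddMonoid.addOrderOf_eq_one_iff.mp h)
    obtain ⟨p, hp, hpd⟩ := Nat.exists_prime_and_dvd hord
    have : Fact p.Prime := ⟨hp⟩
    let P : Sylow p G := default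
    have hPzero : IsZero (groupCohomology (Rep.res (P : Subgroup G).subtype A) (n + 1)) :=
      isZero_of_twinHyp_pgroup p _ ↥(P : Subgroup G) rfl P.isPGroup' _
        (hA.res _ (Subgroup.subtype_injective _)) n
    have h1 := index_smul_eq_zero A (P : Subgroup G) (n + 1) hPzero x
    have h2 : addOrderOf x ∣ (P : Subgroup G).index := addOrderOf_dvd_of_nsmul_eq_zero h1
    exact P.not_dvd_index (hpd.trans h2)
  have : Subsingleton (groupCohomology A (n + 1)) := ⟨fun a b => (hx a).trans (hx b).symm⟩
  exact ModuleCat.isZero_of_subsingleton _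

/-! ## From subgroups to injective homomorphisms -/

lemma isZero_res_of_range {K : Type} [Group K] (A : Rep.{0} k G) (ψ : K →* G)
    (hψ : Function.Injective ψ) (n : ℕ)
    (h : IsZero (groupCohomology (Rep.res ψ.range.subtype A) n)) :
    IsZero (groupCohomology (Rep.res ψ A) n) := by
  refine h.of_iso (mapIso (A := Rep.res ψ.range.subtype A) (B := Rep.res ψ A)
    (MonoidHom.ofInjective hψ) (LinearEquiv.refl k A.V) (fun g => ?_) n)
  ext a
  show (Rep.res ψ A).ρ g a = (Rep.res ψ.range.subtype A).ρ (MonoidHom.ofInjective hψ g) a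
  rfl

/-- The twin hypothesis in subgroup form implies the homomorphism form. -/
lemma twinHyp_of_subgroups (A : Rep.{0} k G)
    (h1 : ∀ H : Subgroup G, Subsingleton (groupCohomology (Rep.res H.subtype A) 1))
    (h2 : ∀ H : Subgroup G, Subsingleton (groupCohomology (Rep.res H.subtype A) 2)) :
    TwinHyp A := by
  intro K _ φ hφ
  have := h1 φ.range
  have := h2 φ.range
  exact ⟨isZero_res_of_range A φ hφ 1 (ModuleCat.isZero_of_subsingleton _),
    isZero_res_of_range A φ hφ 2 (ModuleCat.isZero_of_subsingleton _)⟩

/-- **Twin vanishing**, subgroup form, for a generic coefficient ring. -/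
theorem twinVanishing_generic [Finite G] (A : Rep.{0} k G)
    (h1 : ∀ H : Subgroup G, Subsingleton (groupCohomology (Rep.res H.subtype A) 1))
    (h2 : ∀ H : Subgroup G, Subsingleton (groupCohomology (Rep.res H.subtype A) 2))
    (H : Subgroup G) (n : ℕ) (hn : 0 < n) :
    Subsingleton (groupCohomology (Rep.res H.subtype A) n) := by
  obtain ⟨m, rfl⟩ : ∃ m, n = m + 1 := ⟨n - 1, by omega⟩
  have hA := twinHyp_of_subgroups A h1 h2
  exact ModuleCat.subsingleton_of_isZero
    (isZero_of_twinHyp (Rep.res H.subtype A) (hA.res H.subtype H.subtype_injective) m)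

end Fermat.Agent.S55.CFT.H58
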