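import Fermat.Agent.S55.CFT.Defs
import Fermat.Agent.S55.CFT.H58_TwinInd

/-!
# CFT package TN-1 (helper58): `Stmt_TwinVanishing`

If `H¹(H, A) = H²(H, A) = 0` for every subgroup `H` of the finite group `G`, then
`Hⁿ(H, A) = 0` for all `n ≥ 1` and all `H`.

Route (no inflation, no Tate cohomology): Sylow reduction by Shapiro and the index, then for a
`p`-group a normal subgroup `N` of index `p`; the exact sequence
`0 → A → Fun(G ⧸ N, A) → Fun(G ⧸ N, A) → A → 0` and Shapiro give `Hⁿ(G, A) = 0 → Hⁿ⁺²(G, A) = 0`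
once `H^j(N, A) = 0` for all `j ≥ 1` (induction on the order).
-/

set_option autoImplicit false

namespace Fermat.Agent.S55.CFT.H58

/-- **TN-1**: twin vanishing. -/
theorem stmt_TwinVanishing : Stmt_TwinVanishing := by
  intro G _ _ A h1 h2 H n hn
  exact twinVanishing_generic (k := ℤ) A h1 h2 H n hn

end Fermat.Agent.S55.CFT.H58
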