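import Fermat.Agent.S55.CFT.H13_Tate
import Fermat.Agent.S55.CFT.H58_Twin

/-!
# S55-E4 package TN-2 (helper13): Tate's theorem in degree 3, unconditional

`stmt_TateH3 : Stmt_TateH3`, from helper58's twin vanishing (TN-1) and the splitting module.
-/

set_option autoImplicit false

namespace Fermat.Agent.S55.CFT.H13

/-- **TN-2**: Tate's theorem, degree 3. -/
theorem stmt_TateH3 : Stmt_TateH3 := stmt_TateH3_of H58.stmt_TwinVanishing

end Fermat.Agent.S55.CFT.H13
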