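import Mathlib.RepresentationTheory.Homological.GroupCohomology.Functoriality

/-!
# S55-E4 package ALG-2 (helper24): inflation–restriction in degree 2

For a group `G`, a normal subgroup `S` and `A : Rep k G` with `H¹(S, A) = 0`, the sequence
`0 ⟶ H²(G ⧸ S, A^S) ⟶ H²(G, A) ⟶ H²(S, A)` is exact (`H2InfRes_mono`, `H2InfRes_exact`).

The proof is a direct cocycle computation (no dimension shifting): a 2-cocycle `f` whose
restriction to `S` is a coboundary is modified by coboundaries in three steps,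
* `stage1`: `f (s, t) = 0` for `s t ∈ S`;
* `stage2`: `f (s, y) = 0` for `s ∈ S`, `y ∈ G` (uses a set-theoretic section of `G → G ⧸ S`);
* `stage3`: moreover `f (x, s) = 0` for `x ∈ G`, `s ∈ S` (uses `H¹(S, A) = 0`);
and then (`stage4`) `f` is inflated from `G ⧸ S` with values in `A^S`.
-/

set_option autoImplicit false
set_option linter.unusedSectionVars false

universe u

open CategoryTheory groupCohomology Rep

namespace Fermat.Agent.S55.CFT.H24

noncomputable section

variable {k G : Type u} [CommRing k] [Group G] (A : Rep k G) (S : Subgroup G)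

/-- The 2-cocycle identity for a function `G × G → A`. -/
def IsCoc (f : G × G → A) : Prop :=
  ∀ g h j : G, f (g * h, j) + f (g, h) = A.ρ g (f (h, j)) + f (g, h * j)

/-- The coboundary of a 1-cochain, as a plain function. -/
def dB (b : G → A) : G × G → A := fun p => A.ρ p.1 (b p.2) - b (p.1 * p.2) + b p.1

variable {A}

theorem isCoc_iff (f : G × G → A) : IsCoc A f ↔ f ∈ cocycles₂ A :=
  (mem_cocycles₂_iff f).symm

theorem dB_eq (b : G → A) : dB A b = (d₁₂ A).hom b := rfl

theorem isCoc_dB (b : G → A) : IsCoc A (dB A b) :=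
  (isCoc_iff _).2 (d₁₂_apply_mem_cocycles₂ b)

theorem IsCoc.add {f f' : G × G → A} (hf : IsCoc A f) (hf' : IsCoc A f') : IsCoc A (f + f') :=
  (isCoc_iff _).2 ((cocycles₂ A).add_mem ((isCoc_iff _).1 hf) ((isCoc_iff _).1 hf'))

theorem dB_mem_coboundaries₂ (b : G → A) : dB A b ∈ coboundaries₂ A := ⟨b, rfl⟩

/-! ### A set-theoretic section of `G → G ⧸ S` -/

variable [S.Normal]

/-- The chosen representative of the coset of `g`. -/
def rep (g : G) : G := (QuotientGroup.mk g : G ⧸ S).out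

theorem rep_spec (g : G) : (rep S g)⁻¹ * g ∈ S := by
  have h : (QuotientGroup.mk (rep S g) : G ⧸ S) = QuotientGroup.mk g := Quotient.out_eq' _
  exact QuotientGroup.eq.mp h

theorem mul_rep_inv_mem (g : G) : g * (rep S g)⁻¹ ∈ S := by
  have h := Subgroup.Normal.conj_mem ‹S.Normal› _ (rep_spec S g) (rep S g)
  simpa [mul_assoc] using h

theorem rep_mul_left {n : G} (hn : n ∈ S) (g : G) : rep S (n * g) = rep S g := by
  unfold rep
  congr 1
  rw [QuotientGroup.eq]
  have h := Subgroup.Normal.conj_mem ‹S.Normal› _ (S.inv_mem hn) g⁻¹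
  simpa [mul_assoc] using h

theorem rep_mem {n : G} (hn : n ∈ S) : rep S n ∈ S := by
  have h := rep_spec S n
  have h2 : (rep S n)⁻¹ ∈ S := by
    have := S.mul_mem h (S.inv_mem hn)
    simpa [mul_assoc] using this
  simpa using S.inv_mem h2

/-! ### The three modifications -/

/-- Stage 2: make `f (s, y) = 0` for `s ∈ S`. -/
theorem stage2 {f : G × G → A} (hf : IsCoc A f) (h0 : ∀ s ∈ S, ∀ t ∈ S, f (s, t) = 0) :
    ∃ b : G → A, ∀ n ∈ S, ∀ y : G, (f + dB A b) (n, y) = 0 := by
  refine ⟨fun g => f (g * (rep S g)⁻¹, rep S g), fun n hn y => ?_⟩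
  have h1 := hf n (y * (rep S y)⁻¹) (rep S y)
  rw [h0 n hn _ (mul_rep_inv_mem S y), add_zero, inv_mul_cancel_right] at h1
  have h2 : f (n * (rep S n)⁻¹, rep S n) = 0 :=
    h0 _ (S.mul_mem hn (S.inv_mem (rep_mem S hn))) _ (rep_mem S hn)
  simp only [Pi.add_apply, dB, rep_mul_left S hn, h2, add_zero, mul_assoc]
  rw [h1]
  abel

/-- `H¹(S, A) = 0`, in terms of functions. -/
def H1Vanishes (A : Rep k G) (S : Subgroup G) : Prop :=
  ∀ c : S → A, (∀ s t : S, c (s * t) = A.ρ s (c t) + c s) → ∃ a : A, ∀ s : S, c s = A.ρ s a - a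

/-- If `f (n, y) = 0` for `n ∈ S` then `f (n * x, y) = n • f (x, y)`. -/
theorem smul_left_of_vanish {f : G × G → A} (hf : IsCoc A f)
    (h0 : ∀ n ∈ S, ∀ y : G, f (n, y) = 0) {n : G} (hn : n ∈ S) (x y : G) :
    f (n * x, y) = A.ρ n (f (x, y)) := by
  have h := hf n x y
  rwa [h0 n hn, h0 n hn, add_zero, add_zero] at h

/-- If `f (n, y) = 0` for `n ∈ S` then `f (x, n * y) = f (x * n, y) + f (x, n)`. -/
theorem mul_right_of_vanish {f : G × G → A} (hf : IsCoc A f)
    (h0 : ∀ n ∈ S, ∀ y : G, f (n, y) = 0) {n : G} (hn : n ∈ S) (x y : G) :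
    f (x, n * y) = f (x * n, y) + f (x, n) := by
  have h := hf x n y
  rw [h0 n hn, map_zero, zero_add] at h
  exact h.symm

/-- Stage 3: make moreover `f (x, m) = 0` for `m ∈ S`. -/
theorem stage3 (hH1 : H1Vanishes A S) {f : G × G → A} (hf : IsCoc A f)
    (h0 : ∀ n ∈ S, ∀ y : G, f (n, y) = 0) :
    ∃ b : G → A, (∀ n ∈ S, ∀ y : G, (f + dB A b) (n, y) = 0) ∧
      ∀ x : G, ∀ m ∈ S, (f + dB A b) (x, m) = 0 := by
  -- the cocycles `c_x`
  have hc : ∀ x : G, ∃ a : A, ∀ s : S, f (x, x⁻¹ * (s : G) * x) = A.ρ s a - a := by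
    intro x
    refine hH1 (fun s => f (x, x⁻¹ * (s : G) * x)) (fun s t => ?_)
    have hn : x⁻¹ * (s : G) * x ∈ S := by
      have := Subgroup.Normal.conj_mem ‹S.Normal› _ s.2 x⁻¹
      simpa using this
    have h1 := mul_right_of_vanish S hf h0 hn x (x⁻¹ * (t : G) * x)
    have h2 := smul_left_of_vanish S hf h0 s.2 x (x⁻¹ * (t : G) * x)
    have e1 : x⁻¹ * ((s * t : S) : G) * x = x⁻¹ * (s : G) * x * (x⁻¹ * (t : G) * x) := by
      simp [mul_assoc]
    have e2 : x * (x⁻¹ * (s : G) * x) = (s : G) * x := by simp [mul_assoc]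
    show f (x, x⁻¹ * ((s * t : S) : G) * x)
      = A.ρ s (f (x, x⁻¹ * (t : G) * x)) + f (x, x⁻¹ * (s : G) * x)
    rw [e1, h1, e2, h2]
  choose a ha using hc
  -- `a (rep 1)` is invariant
  set a₀ : A := a (rep S 1) with ha₀
  have hinv : ∀ n ∈ S, A.ρ n a₀ = a₀ := by
    intro n hn
    have h := ha (rep S 1) ⟨n, hn⟩
    rw [h0 _ (rep_mem S S.one_mem)] at h
    exact (sub_eq_zero.mp h.symm)
  -- the cochain `k`
  set kf : G → A := fun g => A.ρ (g * (rep S g)⁻¹) (a (rep S g)) - a₀ with hk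
  have hK1 : ∀ n ∈ S, ∀ g : G, kf (n * g) = A.ρ n (kf g) := by
    intro n hn g
    simp only [hk, rep_mul_left S hn, map_sub, hinv n hn, map_mul, Module.End.mul_apply]
  have hK2 : ∀ n ∈ S, kf n = 0 := by
    intro n hn
    have h1 : rep S n = rep S 1 := by
      have := rep_mul_left S hn 1
      rwa [mul_one] at this
    simp only [hk, h1]
    rw [hinv _ (S.mul_mem hn (S.inv_mem (rep_mem S S.one_mem))), sub_self]
  have hK3 : ∀ g : G, ∀ m ∈ S, f (g, m) = A.ρ (g * m * g⁻¹) (kf g) - kf g := by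
    intro g m hm
    set t := rep S g with ht
    have hn : g * t⁻¹ ∈ S := mul_rep_inv_mem S g
    have hs : t * m * t⁻¹ ∈ S := Subgroup.Normal.conj_mem ‹S.Normal› _ hm t
    have h1 := smul_left_of_vanish S hf h0 hn t m
    rw [inv_mul_cancel_right] at h1
    have h2 := ha t ⟨t * m * t⁻¹, hs⟩
    have e : t⁻¹ * (t * m * t⁻¹) * t = m := by simp [mul_assoc]
    simp only [e] at h2
    have hgm : g * m * g⁻¹ ∈ S := Subgroup.Normal.conj_mem ‹S.Normal› _ hm g
    rw [h1, h2, hk]
    simp only [map_sub, hinv _ hgm, ← Module.End.mul_apply, ← map_mul]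
    have e3 : g * m * g⁻¹ * (g * t⁻¹) = g * t⁻¹ * (t * m * t⁻¹) := by simp [mul_assoc]
    rw [e3]
    abel
  refine ⟨kf, fun n hn y => ?_, fun x m hm => ?_⟩
  · simp only [Pi.add_apply, dB, h0 n hn, hK1 n hn, hK2 n hn]
    abel
  · have e : x * m = x * m * x⁻¹ * x := by simp
    simp only [Pi.add_apply, dB, hK2 m hm, map_zero]
    rw [e, hK1 _ (Subgroup.Normal.conj_mem ‹S.Normal› _ hm x), hK3 x m hm]
    abel

/-- Stage 4: a cocycle vanishing on `S × G` and on `G × S` is inflated from `G ⧸ S`. -/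
theorem stage4 {f : G × G → A} (hf : IsCoc A f)
    (h1 : ∀ n ∈ S, ∀ y : G, f (n, y) = 0) (h2 : ∀ x : G, ∀ m ∈ S, f (x, m) = 0)
    (x y : G) {n : G} (hn : n ∈ S) :
    f (x, y * n) = f (x, y) ∧ f (x * n, y) = f (x, y) ∧ A.ρ n (f (x, y)) = f (x, y) := by
  have ha : ∀ (x y : G) {n : G}, n ∈ S → f (x, y * n) = f (x, y) := by
    intro x y n hn
    have h := hf x y n
    rw [h2 _ n hn, h2 _ n hn, map_zero, zero_add, zero_add] at h
    exact h.symm
  have hb : ∀ (x y : G) {n : G}, n ∈ S → f (x * n, y) = f (x, y) := by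
    intro x y n hn
    have h := mul_right_of_vanish S hf h1 hn x y
    rw [h2 _ n hn, add_zero] at h
    rw [← h]
    have e : n * y = y * (y⁻¹ * n * y) := by simp [mul_assoc]
    rw [e]
    refine ha x y ?_
    have := Subgroup.Normal.conj_mem ‹S.Normal› _ hn y⁻¹
    simpa using this
  refine ⟨ha x y hn, hb x y hn, ?_⟩
  rw [← smul_left_of_vanish S hf h1 hn]
  have e : n * x = x * (x⁻¹ * n * x) := by simp [mul_assoc]
  rw [e]
  refine hb x y ?_
  have := Subgroup.Normal.conj_mem ‹S.Normal› _ hn x⁻¹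
  simpa using this

/-! ### The short complex -/

variable (A)

/-- Inflation `H²(G ⧸ S, A^S) ⟶ H²(G, A)`. -/
abbrev inf₂ : groupCohomology (A.quotientToInvariants S) 2 ⟶ groupCohomology A 2 :=
  map (QuotientGroup.mk' S) (ofHom <| A.ρ.quotientToInvariants_lift S) 2

/-- Restriction `H²(G, A) ⟶ H²(S, A)`. -/
abbrev res₂ : groupCohomology A 2 ⟶ groupCohomology (res S.subtype A) 2 :=
  map S.subtype (𝟙 _) 2

theorem inf₂_H2π_apply (c : cocycles₂ (A.quotientToInvariants S)) (g h : G) :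
    (mapCocycles₂ (QuotientGroup.mk' S) (ofHom <| A.ρ.quotientToInvariants_lift S) c :
      cocycles₂ A) (g, h) = ((c (QuotientGroup.mk g, QuotientGroup.mk h) :
        (A.quotientToInvariants S)) : A) := rfl

theorem res₂_H2π_apply (f : cocycles₂ A) (s t : S) :
    (mapCocycles₂ S.subtype (𝟙 (res S.subtype A)) f : cocycles₂ (res S.subtype A)) (s, t)
      = f ((s : G), (t : G)) := rfl

theorem coe_ρ_mk (g : G) (a : A.quotientToInvariants S) :
    (((A.quotientToInvariants S).ρ (QuotientGroup.mk g) a : A.quotientToInvariants S) : A)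
      = A.ρ g (a : A) := rfl

theorem h1Vanishes_of_subsingleton
    (h : Subsingleton (groupCohomology (res S.subtype A) 1)) : H1Vanishes A S := by
  intro c hc
  have hmem : (c : S → (res S.subtype A)) ∈ cocycles₁ (res S.subtype A) :=
    (mem_cocycles₁_iff _).2 hc
  have h0 : H1π (res S.subtype A) ⟨c, hmem⟩ = 0 := Subsingleton.elim _ _
  rw [H1π_eq_zero_iff] at h0
  obtain ⟨a, ha⟩ := h0
  exact ⟨a, fun s => (congrFun ha s).symm⟩

/-- `res ∘ inf = 0` in degree 2, elementwise. -/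
theorem res₂_inf₂_apply (x : groupCohomology (A.quotientToInvariants S) 2) :
    res₂ A S (inf₂ A S x) = 0 := by
  induction x using H2_induction_on with | @h c =>
  simp only [H2π_comp_map_apply]
  rw [H2π_eq_zero_iff]
  refine ⟨fun _ => ((c (1, 1) : A.quotientToInvariants S) : A), ?_⟩
  funext ⟨s, t⟩
  have hs : (QuotientGroup.mk (s : G) : G ⧸ S) = 1 := (QuotientGroup.eq_one_iff _).2 s.2
  have ht : (QuotientGroup.mk (t : G) : G ⧸ S) = 1 := (QuotientGroup.eq_one_iff _).2 t.2
  have hinv := (c (1, 1) : A.quotientToInvariants S).2 s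
  show (res S.subtype A).ρ s _ - _ + _ = ((c (QuotientGroup.mk (s : G), QuotientGroup.mk (t : G)) :
    (A.quotientToInvariants S)) : A)
  rw [hs, ht]
  have h2 : (res S.subtype A).ρ s ((c (1, 1) : A.quotientToInvariants S) : A)
      = ((c (1, 1) : A.quotientToInvariants S) : A) := hinv
  rw [h2]
  abel

/-- `res ∘ inf = 0` in degree 2. -/
theorem inf₂_comp_res₂ : inf₂ A S ≫ res₂ A S = 0 := by
  ext x
  exact res₂_inf₂_apply A S x

/-- Exactness at `H²(G, A)`: a class whose restriction to `S` vanishes is inflated from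
`G ⧸ S`, provided `H¹(S, A) = 0`. -/
theorem exists_inf₂_eq_of_vanishes (hH1 : H1Vanishes A S) (x : groupCohomology A 2)
    (hx : res₂ A S x = 0) :
    ∃ y : groupCohomology (A.quotientToInvariants S) 2, inf₂ A S y = x := by
  induction x using H2_induction_on with | @h f =>
  simp only [H2π_comp_map_apply] at hx
  rw [H2π_eq_zero_iff] at hx
  obtain ⟨u, hu⟩ := hx
  have hu' : ∀ s t : S, A.ρ s (u t) - u (s * t) + u s = f ((s : G), (t : G)) :=
    fun s t => congrFun hu (s, t)
  have hf : IsCoc A f := (isCoc_iff _).2 f.2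
  -- stage 1
  classical
  set b₁ : G → A := fun g => if h : g ∈ S then -u ⟨g, h⟩ else 0 with hb₁
  have hf₁ : IsCoc A (⇑f + dB A b₁) := hf.add (isCoc_dB b₁)
  have h1 : ∀ s ∈ S, ∀ t ∈ S, (⇑f + dB A b₁) (s, t) = 0 := by
    intro s hs t ht
    have := hu' ⟨s, hs⟩ ⟨t, ht⟩
    simp only [Pi.add_apply, dB, hb₁, dif_pos hs, dif_pos ht, dif_pos (S.mul_mem hs ht), map_neg]
    rw [← this]
    simp only [MulMemClass.mk_mul_mk]
    abel
  -- stage 2
  obtain ⟨b₂, h2⟩ := stage2 S hf₁ h1
  have hf₂ : IsCoc A (⇑f + dB A b₁ + dB A b₂) := hf₁.add (isCoc_dB b₂)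
  -- stage 3
  obtain ⟨b₃, h3, h3'⟩ := stage3 S hH1 hf₂ h2
  have hf₃ : IsCoc A (⇑f + dB A b₁ + dB A b₂ + dB A b₃) := hf₂.add (isCoc_dB b₃)
  set f₃ : G × G → A := ⇑f + dB A b₁ + dB A b₂ + dB A b₃ with hf₃def
  -- stage 4
  have h4 := fun x y n (hn : n ∈ S) => stage4 S hf₃ h3 h3' x y hn
  -- the inflated cocycle
  let c : (G ⧸ S) × (G ⧸ S) → A.quotientToInvariants S := fun p =>
    Quotient.liftOn₂' p.1 p.2 (fun x y => ⟨f₃ (x, y), fun s => (h4 x y s s.2).2.2⟩)
      (fun x₁ y₁ x₂ y₂ hx hy => by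
        rw [QuotientGroup.leftRel_apply] at hx hy
        apply Subtype.ext
        show f₃ (x₁, y₁) = f₃ (x₂, y₂)
        have e1 : x₂ = x₁ * (x₁⁻¹ * x₂) := by simp
        have e2 : y₂ = y₁ * (y₁⁻¹ * y₂) := by simp
        rw [e1, e2, (h4 _ _ _ hy).1, (h4 _ _ _ hx).2.1])
  have hc : c ∈ cocycles₂ (A.quotientToInvariants S) := by
    rw [mem_cocycles₂_iff]
    intro g h j
    induction g using QuotientGroup.induction_on with | @H g =>
    induction h using QuotientGroup.induction_on with | @H h =>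
    induction j using QuotientGroup.induction_on with | @H j =>
    apply Subtype.ext
    exact hf₃ g h j
  refine ⟨H2π _ ⟨c, hc⟩, ?_⟩
  simp only [H2π_comp_map_apply]
  rw [H2π_eq_iff]
  have e : ⇑(mapCocycles₂ (QuotientGroup.mk' S) (ofHom <| A.ρ.quotientToInvariants_lift S)
      (⟨c, hc⟩ : cocycles₂ (A.quotientToInvariants S))) = f₃ := by
    funext ⟨g, h⟩
    rfl
  rw [e, hf₃def]
  have e2 : ⇑f + dB A b₁ + dB A b₂ + dB A b₃ - ⇑f = dB A b₁ + dB A b₂ + dB A b₃ := by abel
  rw [e2]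
  exact (coboundaries₂ A).add_mem ((coboundaries₂ A).add_mem (dB_mem_coboundaries₂ b₁)
    (dB_mem_coboundaries₂ b₂)) (dB_mem_coboundaries₂ b₃)

/-- Inflation is injective in degree 2 when `H¹(S, A) = 0`. -/
theorem inf₂_eq_zero_of_vanishes (hH1 : H1Vanishes A S)
    (x : groupCohomology (A.quotientToInvariants S) 2) (hx : inf₂ A S x = 0) : x = 0 := by
  induction x using H2_induction_on with | @h c =>
  simp only [H2π_comp_map_apply] at hx
  rw [H2π_eq_zero_iff] at hx
  obtain ⟨b, hb⟩ := hx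
  have hb' : ∀ g h : G, A.ρ g (b h) - b (g * h) + b g
      = ((c (QuotientGroup.mk g, QuotientGroup.mk h) : A.quotientToInvariants S) : A) :=
    fun g h => congrFun hb (g, h)
  -- the invariant element `a₀ = c (1, 1)`
  set a₀ : A.quotientToInvariants S := c (1, 1) with ha₀
  have hinv : ∀ n ∈ S, A.ρ n (a₀ : A) = (a₀ : A) := fun n hn => a₀.2 ⟨n, hn⟩
  have hmk : ∀ n ∈ S, (QuotientGroup.mk n : G ⧸ S) = 1 :=
    fun n hn => (QuotientGroup.eq_one_iff _).2 hn
  -- `b₁ = b - a₀` restricted to `S` is a cocycle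
  obtain ⟨a, ha⟩ := hH1 (fun s => b s - (a₀ : A)) (fun s t => by
    have h := hb' s t
    rw [hmk _ s.2, hmk _ t.2] at h
    show b ((s : G) * (t : G)) - (a₀ : A) = A.ρ s (b t - (a₀ : A)) + (b s - (a₀ : A))
    rw [map_sub, hinv _ s.2]
    rw [← ha₀] at h
    have h' : b ((s : G) * (t : G)) = A.ρ s (b t) + b s - (a₀ : A) := by
      rw [← h]; abel
    rw [h']
    abel)
  -- `b₂`
  set b₂ : G → A := fun g => b g - (a₀ : A) - (A.ρ g a - a) with hb₂
  have hb₂S : ∀ n ∈ S, b₂ n = 0 := by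
    intro n hn
    have := ha ⟨n, hn⟩
    simp only [hb₂]
    rw [sub_eq_zero]
    exact this
  -- `dB b₂ (g, h) = c (g, h) - g • a₀`
  have hd : ∀ g h : G, A.ρ g (b₂ h) - b₂ (g * h) + b₂ g
      = ((c (QuotientGroup.mk g, QuotientGroup.mk h) : A.quotientToInvariants S) : A)
        - A.ρ g (a₀ : A) := by
    intro g h
    rw [← hb' g h]
    simp only [hb₂, map_sub, map_mul, Module.End.mul_apply]
    abel
  -- `c₁ = c - d (const a₀)` is a normalised cocycle
  have hconst : (d₁₂ (A.quotientToInvariants S)).hom (fun _ => a₀) ∈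
      cocycles₂ (A.quotientToInvariants S) := d₁₂_apply_mem_cocycles₂ _
  set c₁ : cocycles₂ (A.quotientToInvariants S) := c - ⟨_, hconst⟩ with hc₁
  have hc₁_apply : ∀ g h : G,
      ((c₁ (QuotientGroup.mk g, QuotientGroup.mk h) : A.quotientToInvariants S) : A)
        = A.ρ g (b₂ h) - b₂ (g * h) + b₂ g := by
    intro g h
    rw [hd g h]
    show ((c (QuotientGroup.mk g, QuotientGroup.mk h) : A.quotientToInvariants S) : A)
      - (A.ρ g (a₀ : A) - (a₀ : A) + (a₀ : A)) = _
    abel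
  have hc₁_one : c₁ (1, 1) = 0 := by
    apply Subtype.ext
    have := hc₁_apply 1 1
    rw [QuotientGroup.mk_one] at this
    rw [this]
    simp [hb₂S 1 S.one_mem]
  have hc₁_fst : ∀ y : G ⧸ S, c₁ (1, y) = 0 := fun y => by
    rw [cocycles₂_map_one_fst, hc₁_one]
  have hc₁_snd : ∀ x : G ⧸ S, c₁ (x, 1) = 0 := fun x => by
    rw [cocycles₂_map_one_snd, hc₁_one, map_zero]
  -- consequences for `b₂`
  have hL : ∀ n ∈ S, ∀ x : G, b₂ (n * x) = A.ρ n (b₂ x) := by
    intro n hn x
    have h := hc₁_apply n x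
    rw [hmk n hn, hc₁_fst, hb₂S n hn, add_zero] at h
    exact (sub_eq_zero.mp h.symm).symm
  have hR : ∀ x : G, ∀ n ∈ S, b₂ (x * n) = b₂ x := by
    intro x n hn
    have h := hc₁_apply x n
    rw [hmk n hn, hc₁_snd, hb₂S n hn, map_zero, zero_sub] at h
    have h' : (0 : A) = -b₂ (x * n) + b₂ x := h
    rw [eq_comm, neg_add_eq_zero] at h'
    exact h'
  have hI : ∀ x : G, ∀ n ∈ S, A.ρ n (b₂ x) = b₂ x := by
    intro x n hn
    rw [← hL n hn]
    have e : n * x = x * (x⁻¹ * n * x) := by simp [mul_assoc]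
    rw [e]
    refine hR x _ ?_
    have := Subgroup.Normal.conj_mem ‹S.Normal› _ hn x⁻¹
    simpa using this
  -- the descended cochain
  let bbar : G ⧸ S → A.quotientToInvariants S := fun q =>
    Quotient.liftOn' q (fun x => ⟨b₂ x, fun s => hI x s s.2⟩) (fun x₁ x₂ hx => by
      rw [QuotientGroup.leftRel_apply] at hx
      apply Subtype.ext
      show b₂ x₁ = b₂ x₂
      have e1 : x₂ = x₁ * (x₁⁻¹ * x₂) := by simp
      rw [e1, hR _ _ hx])
  have hc₁_eq : (⇑c₁ : (G ⧸ S) × (G ⧸ S) → A.quotientToInvariants S)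
      = (d₁₂ (A.quotientToInvariants S)).hom bbar := by
    funext ⟨x, y⟩
    induction x using QuotientGroup.induction_on with | @H x =>
    induction y using QuotientGroup.induction_on with | @H y =>
    apply Subtype.ext
    rw [hc₁_apply x y]
    rfl
  rw [H2π_eq_zero_iff]
  have e : (⇑c : (G ⧸ S) × (G ⧸ S) → A.quotientToInvariants S)
      = ⇑c₁ + (d₁₂ (A.quotientToInvariants S)).hom (fun _ => a₀) := by
    funext p
    show c p = (c p - _) + _
    abel
  rw [e, hc₁_eq]
  exact (coboundaries₂ _).add_mem ⟨bbar, rfl⟩ ⟨_, rfl⟩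

/-! ### Packaged statements -/

/-- The short complex `H²(G ⧸ S, A^S) ⟶ H²(G, A) ⟶ H²(S, A)`. -/
@[simps X₁ X₂ X₃ f g]
def H2InfRes : ShortComplex (ModuleCat k) where
  X₁ := groupCohomology (A.quotientToInvariants S) 2
  X₂ := groupCohomology A 2
  X₃ := groupCohomology (res S.subtype A) 2
  f := inf₂ A S
  g := res₂ A S
  zero := inf₂_comp_res₂ A S

/-- **ALG-2**, injectivity: if `H¹(S, A) = 0` then inflation `H²(G ⧸ S, A^S) ⟶ H²(G, A)` is
injective. -/
theorem inf₂_injective (h : Subsingleton (groupCohomology (res S.subtype A) 1)) :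
    Function.Injective (inf₂ A S) := by
  rw [injective_iff_map_eq_zero]
  exact fun x hx => inf₂_eq_zero_of_vanishes A S (h1Vanishes_of_subsingleton A S h) x hx

/-- **ALG-2**, exactness in the middle: if `H¹(S, A) = 0` then the kernel of restriction
`H²(G, A) ⟶ H²(S, A)` is the image of inflation. -/
theorem res₂_eq_zero_iff (h : Subsingleton (groupCohomology (res S.subtype A) 1))
    (x : groupCohomology A 2) :
    res₂ A S x = 0 ↔ ∃ y : groupCohomology (A.quotientToInvariants S) 2, inf₂ A S y = x := by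
  constructor
  · exact exists_inf₂_eq_of_vanishes A S (h1Vanishes_of_subsingleton A S h) x
  · rintro ⟨y, rfl⟩
    exact res₂_inf₂_apply A S y

theorem H2InfRes_mono (h : Subsingleton (groupCohomology (res S.subtype A) 1)) :
    Mono (H2InfRes A S).f :=
  (ModuleCat.mono_iff_injective _).2 (inf₂_injective A S h)

theorem H2InfRes_exact (h : Subsingleton (groupCohomology (res S.subtype A) 1)) :
    (H2InfRes A S).Exact := by
  rw [ShortComplex.moduleCat_exact_iff_ker_sub_range]
  intro x hx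
  obtain ⟨y, hy⟩ := (res₂_eq_zero_iff A S h x).1 (LinearMap.mem_ker.1 hx)
  exact ⟨y, hy⟩

/-- **ALG-2**, counting form: if `H¹(S, A) = 0` and `H²(G ⧸ S, A^S)`, `H²(S, A)` are finite,
then `H²(G, A)` is finite and `#H²(G, A) ≤ #H²(G ⧸ S, A^S) * #H²(S, A)`. -/
theorem card_H2_le (h : Subsingleton (groupCohomology (res S.subtype A) 1))
    [Finite (groupCohomology (A.quotientToInvariants S) 2)]
    [Finite (groupCohomology (res S.subtype A) 2)] :
    Finite (groupCohomology A 2) ∧
      Nat.card (groupCohomology A 2) ≤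
        Nat.card (groupCohomology (A.quotientToInvariants S) 2) *
          Nat.card (groupCohomology (res S.subtype A) 2) := by
  classical
  -- a set-theoretic section of `res` on its range
  have hsec : ∀ z : groupCohomology (res S.subtype A) 2, ∃ x : groupCohomology A 2,
      (∃ x', res₂ A S x' = z) → res₂ A S x = z := by
    intro z
    by_cases hz : ∃ x', res₂ A S x' = z
    · obtain ⟨x', hx'⟩ := hz
      exact ⟨x', fun _ => hx'⟩
    · exact ⟨0, fun h' => absurd h' hz⟩
  choose σ hσ using hsec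
  have hdiff : ∀ x : groupCohomology A 2,
      ∃ y : groupCohomology (A.quotientToInvariants S) 2,
        inf₂ A S y = x - σ (res₂ A S x) := by
    intro x
    refine (res₂_eq_zero_iff A S h _).1 ?_
    rw [map_sub, hσ _ ⟨x, rfl⟩, sub_self]
  choose τ hτ using hdiff
  have hinj : Function.Injective
      (fun x : groupCohomology A 2 => (τ x, res₂ A S x)) := by
    intro x x' hxx'
    simp only [Prod.mk.injEq] at hxx'
    have h1 := hτ x
    have h2 := hτ x'
    rw [hxx'.1, hxx'.2] at h1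
    have h3 : x - σ (res₂ A S x') = x' - σ (res₂ A S x') := h1.symm.trans h2
    exact sub_left_injective h3
  have hfin : Finite (groupCohomology A 2) := Finite.of_injective _ hinj
  refine ⟨hfin, ?_⟩
  have := Nat.card_le_card_of_injective _ hinj
  rwa [Nat.card_prod] at this

end

end Fermat.Agent.S55.CFT.H24
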