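/-
S55 package E4, island GLB (global class field theory at finite level, p-part): the framework
of `T`-ideles and the exact statements of the packages.
Owner-planner: helper62.  Plan: NOTES/plan/S55_E4.md.

Setting: `L/K` a finite Galois extension of number fields with group `G = Gal(L/K)`, `T` a finite
set of rational primes.
* `SemiLocal L q = ℚ_q ⊗_ℚ L` (`= ∏_{w ∣ q} L_w`), a finite `ℚ_q`-algebra, `G` acting through `L`
  by `ℚ_q`-algebra automorphisms (`semiLocalEquiv`);
* `IdeleT L T = ∏_{q ∈ T} (ℚ_q ⊗ L)ˣ`, `repJ K L T` the `G`-module of `T`-ideles;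
* `TUnits L T = O_{L,T}ˣ`, `repE K L T`; `diagRep : repE ⟶ repJ`; `repC = J/E` (cokernel);
* `Admissible K L T p`: `L/K` Galois, unramified outside `T`, `p ∈ T`, `K` totally complex, and
  `Cl_T(F) = 1` for every intermediate field `F`.  Under these hypotheses `C_{L,T} = J_{L,T}/E_{L,T}`
  has the cohomology of the idele class group of `L` (the units outside `T` are cohomologically
  trivial) and `C_{L,T}^H = C_{L^H,T}` for every subgroup `H`.

Every `Stmt_*` below is a standalone classical theorem.  A package is DONE when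
`theorem … : Stmt_X := …` (or `hyps → Stmt_X`, hyps = other `Stmt_*`) is landed with a complete proof
(own file `Fermat/Agent/S55/CFT/H<seat>_*.lean`, namespace `Fermat.Agent.S55.CFT.H<seat>`).
-/
import Fermat.Agent.S55.CFT.Defs

set_option autoImplicit false

open NumberField TensorProduct CategoryTheory

noncomputable section
namespace Fermat.Agent.S55.CFT

theorem fact_primes (q : Nat.Primes) : Fact (q : ℕ).Prime := ⟨q.2⟩

abbrev Qp (q : Nat.Primes) : Type :=
  haveI := fact_primes q
  ℚ_[(q : ℕ)]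

instance instFieldQp (q : Nat.Primes) : Field (Qp q) := by unfold Qp; infer_instance

variable (K L : Type) [Field K] [Field L] [NumberField K] [NumberField L] [Algebra K L]

/-- The semilocal algebra `ℚ_q ⊗_ℚ L` (`= ∏_{w ∣ q} L_w`), a finite-dimensional `ℚ_q`-algebra. -/
abbrev SemiLocal (q : Nat.Primes) : Type := Qp q ⊗[ℚ] L

/-- The automorphism of `ℚ_q ⊗ L` induced by `σ ∈ Gal(L/K)`, a `ℚ_q`-algebra automorphism. -/
def semiLocalEquiv (q : Nat.Primes) (σ : L ≃ₐ[K] L) : SemiLocal L q ≃ₐ[Qp q] SemiLocal L q :=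
  Algebra.TensorProduct.congr AlgEquiv.refl (σ.restrictScalars ℚ)

@[simp] lemma semiLocalEquiv_tmul (q : Nat.Primes) (σ : L ≃ₐ[K] L) (a : Qp q) (b : L) :
    semiLocalEquiv K L q σ (a ⊗ₜ[ℚ] b) = a ⊗ₜ[ℚ] σ b := by
  simp [semiLocalEquiv]

lemma semiLocalEquiv_one (q : Nat.Primes) (x : SemiLocal L q) : semiLocalEquiv K L q 1 x = x := by
  induction x using TensorProduct.induction_on with
  | zero => simp
  | tmul a b => simp
  | add a b ha hb => simp [map_add, ha, hb]

lemma semiLocalEquiv_mul (q : Nat.Primes) (σ τ : L ≃ₐ[K] L) (x : SemiLocal L q) :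
    semiLocalEquiv K L q (σ * τ) x = semiLocalEquiv K L q σ (semiLocalEquiv K L q τ x) := by
  induction x using TensorProduct.induction_on with
  | zero => simp
  | tmul a b => simp
  | add a b ha hb => simp [map_add, ha, hb]

/-- The action of `Gal(L/K)` on `ℚ_q ⊗ L` (through the second factor), by `ℚ_q`-algebra
automorphisms. -/
instance semiLocalAction (q : Nat.Primes) : MulSemiringAction (L ≃ₐ[K] L) (SemiLocal L q) where
  smul σ x := semiLocalEquiv K L q σ x
  one_smul x := semiLocalEquiv_one K L q x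
  mul_smul σ τ x := semiLocalEquiv_mul K L q σ τ x
  smul_zero σ := map_zero (semiLocalEquiv K L q σ)
  smul_add σ x y := map_add (semiLocalEquiv K L q σ) x y
  smul_one σ := map_one (semiLocalEquiv K L q σ)
  smul_mul σ x y := map_mul (semiLocalEquiv K L q σ) x y

lemma semiLocal_smul_eq (q : Nat.Primes) (σ : L ≃ₐ[K] L) (x : SemiLocal L q) :
    σ • x = semiLocalEquiv K L q σ x := rfl

@[simp] lemma semiLocal_smul_tmul (q : Nat.Primes) (σ : L ≃ₐ[K] L) (a : Qp q) (b : L) :
    σ • (a ⊗ₜ[ℚ] b : SemiLocal L q) = a ⊗ₜ[ℚ] σ b :=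
  semiLocalEquiv_tmul K L q σ a b

/-- The action of `Gal(L/K)` on the units of `ℚ_q ⊗ L`. -/
instance semiLocalUnitsAction (q : Nat.Primes) :
    MulDistribMulAction (L ≃ₐ[K] L) (SemiLocal L q)ˣ where
  smul σ u := Units.map ((semiLocalEquiv K L q σ : SemiLocal L q →ₐ[Qp q] SemiLocal L q) :
    SemiLocal L q →* SemiLocal L q) u
  one_smul u := Units.ext (semiLocalEquiv_one K L q u)
  mul_smul σ τ u := Units.ext (semiLocalEquiv_mul K L q σ τ u)
  smul_mul σ u v := map_mul _ u v
  smul_one σ := map_one _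

lemma semiLocalUnits_smul_val (q : Nat.Primes) (σ : L ≃ₐ[K] L) (u : (SemiLocal L q)ˣ) :
    ((σ • u : (SemiLocal L q)ˣ) : SemiLocal L q) = σ • (u : SemiLocal L q) := rfl

/-- The `T`-ideles `J_{L,T} = ∏_{q ∈ T} (ℚ_q ⊗ L)ˣ`. -/
abbrev IdeleT (T : Finset Nat.Primes) : Type := ∀ q : T, (SemiLocal L q.1)ˣ

example (T : Finset Nat.Primes) : MulDistribMulAction (L ≃ₐ[K] L) (IdeleT L T) := inferInstance

abbrev repJ (T : Finset Nat.Primes) : Rep ℤ (L ≃ₐ[K] L) :=
  Rep.ofMulDistribMulAction (L ≃ₐ[K] L) (IdeleT L T)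

def prodT (T : Finset Nat.Primes) : ℕ := ∏ q ∈ T, (q : ℕ)

def TUnits (T : Finset Nat.Primes) : Subgroup Lˣ where
  carrier := {x | ∃ n : ℕ, IsIntegral ℤ ((prodT T : L) ^ n * (x : L)) ∧
    IsIntegral ℤ ((prodT T : L) ^ n * ((x⁻¹ : Lˣ) : L))}
  one_mem' := ⟨0, by simpa using isIntegral_one, by simpa using isIntegral_one⟩
  mul_mem' := by
    rintro x y ⟨n, h1, h2⟩ ⟨m, h3, h4⟩
    refine ⟨n + m, ?_, ?_⟩
    · have := h1.mul h3
      rw [pow_add, Units.val_mul, mul_mul_mul_comm]
      exact this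
    · have := h2.mul h4
      rw [pow_add, mul_inv, Units.val_mul, mul_mul_mul_comm]
      exact this
  inv_mem' := by
    rintro x ⟨n, h1, h2⟩
    exact ⟨n, h2, by simpa using h1⟩

omit [NumberField K] [NumberField L] in
lemma smul_mem_TUnits (T : Finset Nat.Primes) (σ : L ≃ₐ[K] L) {x : Lˣ} (hx : x ∈ TUnits L T) :
    σ • x ∈ TUnits L T := by
  obtain ⟨n, h1, h2⟩ := hx
  refine ⟨n, ?_, ?_⟩
  · have := h1.map (σ : L →ₐ[K] L).toRingHom.toIntAlgHom
    simpa using this
  · have := h2.map (σ : L →ₐ[K] L).toRingHom.toIntAlgHom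
    simpa using this


instance tUnitsAction (T : Finset Nat.Primes) :
    MulDistribMulAction (L ≃ₐ[K] L) (TUnits L T) where
  smul σ x := ⟨σ • (x : Lˣ), smul_mem_TUnits K L T σ x.2⟩
  one_smul x := Subtype.ext (one_smul _ (x : Lˣ))
  mul_smul σ τ x := Subtype.ext (mul_smul σ τ (x : Lˣ))
  smul_mul σ x y := Subtype.ext (smul_mul' σ (x : Lˣ) (y : Lˣ))
  smul_one σ := Subtype.ext (smul_one σ)

/-- The `T`-units `O_{L,T}ˣ` as a representation of `Gal(L/K)`. -/
abbrev repE (T : Finset Nat.Primes) : Rep ℤ (L ≃ₐ[K] L) :=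
  Rep.ofMulDistribMulAction (L ≃ₐ[K] L) (TUnits L T)

/-- The diagonal embedding `Lˣ → J_{L,T}`, `x ↦ (1 ⊗ x)_q`. -/
def diagIdele (T : Finset Nat.Primes) : Lˣ →* IdeleT L T where
  toFun x := fun q => Units.map
    ((Algebra.TensorProduct.includeRight : L →ₐ[ℚ] SemiLocal L q.1) : L →* SemiLocal L q.1) x
  map_one' := by funext q; simp
  map_mul' x y := by funext q; simp

lemma diagIdele_smul (T : Finset Nat.Primes) (σ : L ≃ₐ[K] L) (x : Lˣ) :
    diagIdele L T (σ • x) = σ • diagIdele L T x := by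
  funext q
  apply Units.ext
  change (1 : Qp q.1) ⊗ₜ[ℚ] (σ x : L) = semiLocalEquiv K L q.1 σ ((1 : Qp q.1) ⊗ₜ[ℚ] (x : L))
  simp

/-- The diagonal embedding of the `T`-units into the `T`-ideles, as a morphism of
representations. -/
def diagRep (T : Finset Nat.Primes) : repE K L T ⟶ repJ K L T :=
  Rep.ofHom (LinearMap.intertwiningMap_of_isIntertwiningMap _ _
    (((diagIdele L T).comp (TUnits L T).subtype).toAdditive.toIntLinearMap)
    (fun σ x => congrArg Additive.ofMul (diagIdele_smul K L T σ (Additive.toMul x : TUnits L T))))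

/-- The `T`-idele class module `C_{L,T} = J_{L,T} / O_{L,T}ˣ`. -/
abbrev repC (T : Finset Nat.Primes) : Rep ℤ (L ≃ₐ[K] L) := Limits.cokernel (diagRep K L T)


/-! ### Admissibility and the statements of the GLOBAL island -/

/-- The nonzero primes of `𝓞 K` above the primes in `T`. -/
def primesOverT (T : Finset Nat.Primes) : Set (Ideal (𝓞 K)) :=
  {v | v.IsPrime ∧ v ≠ ⊥ ∧ ∃ q ∈ T, (((q : ℕ) : ℤ) : 𝓞 K) ∈ v}

/-- `Cl_T(L) = 1`: every nonzero ideal of `𝓞 L` is, up to principal ideals, supported on the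
primes above `T`. -/
def ClTrivial (T : Finset Nat.Primes) : Prop :=
  ∀ I : Ideal (𝓞 L), I ≠ ⊥ → ∃ (a b : 𝓞 L) (J : Ideal (𝓞 L)) (n : ℕ), a ≠ 0 ∧ b ≠ 0 ∧
    J ∣ Ideal.span {((prodT T : ℤ) : 𝓞 L)} ^ n ∧ Ideal.span {a} * I = Ideal.span {b} * J

/-- `L/K` is unramified outside `T`. -/
def UnramifiedOutsideT (T : Finset Nat.Primes) : Prop :=
  ∀ P : Ideal (𝓞 L), P.IsPrime → P ≠ ⊥ → (∀ q ∈ T, (((q : ℕ) : ℤ) : 𝓞 L) ∉ P) →
    P.inertia (L ≃ₐ[K] L) = ⊥

/-- The standing hypotheses of the GLOBAL island on `(K, L, T, p)`: `L/K` finite Galois,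
`K` totally complex, `p ∈ T`, `L/K` unramified outside `T`, and `Cl_T(F) = 1` for every
intermediate field `F` of `L/K` (in particular for `K` and `L`). -/
structure Admissible (T : Finset Nat.Primes) (p : ℕ) : Prop where
  gal : IsGalois K L
  cplx : IsTotallyComplex K
  pmem : ∃ q ∈ T, (q : ℕ) = p
  unr : UnramifiedOutsideT K L T
  cl : ∀ (F : Type) [Field F] [NumberField F] [Algebra K F] [Algebra F L] [IsScalarTower K F L],
    ClTrivial F T

/-- The base change `ℚ_q ⊗ K → ℚ_q ⊗ L`, a `ℚ_q`-algebra map. -/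
def semiLocalMap (q : Nat.Primes) : SemiLocal K q →ₐ[Qp q] SemiLocal L q :=
  Algebra.TensorProduct.map (AlgHom.id (Qp q) (Qp q)) (algebraMap K L).toRatAlgHom

/-- The number of places of `K` above `T` which do not split in `L`, counted on the local side:
pairs `(q, 𝔪)`, `q ∈ T`, `𝔪` a maximal ideal of `ℚ_q ⊗ K`, with exactly one maximal ideal of
`ℚ_q ⊗ L` above `𝔪`. -/
def nonsplitCountLoc (T : Finset Nat.Primes) : ℕ :=
  Nat.card {x : (q : T) × MaximalSpectrum (SemiLocal K q.1) //
    ∃! 𝔐 : MaximalSpectrum (SemiLocal L x.1.1),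
      𝔐.asIdeal.comap (semiLocalMap K L x.1.1) = x.2.asIdeal}

/-- The number of primes of `K` above `T` which do not split in `L` (exactly one prime of `L`
above them). -/
def nonsplitCount (T : Finset Nat.Primes) : ℕ :=
  Nat.card {v : Ideal (𝓞 K) // v ∈ primesOverT K T ∧ (v.primesOver (𝓞 L)).ncard = 1}

/-- **GLB-0** (admissible sets exist): every finite set of primes can be enlarged to an
admissible one (finitely many intermediate fields, finite class groups, finitely many ramified
primes). -/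
def Stmt_AdmissibleExists : Prop :=
  ∀ (p : ℕ) (K L : Type) [Field K] [Field L] [NumberField K] [NumberField L] [Algebra K L]
    (T₀ : Finset Nat.Primes), p.Prime → IsGalois K L → IsTotallyComplex K →
    ∃ T : Finset Nat.Primes, T₀ ⊆ T ∧ Admissible K L T p

/-- **PL** (places): the maximal ideals of `ℚ_q ⊗ K` correspond to the primes of `𝓞 K` above `q`,
compatibly with `K ⊆ L`; here only the resulting equality of the two counts of nonsplit places. -/
def Stmt_Places : Prop :=
  ∀ (K L : Type) [Field K] [Field L] [NumberField K] [NumberField L] [Algebra K L]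
    (T : Finset Nat.Primes), nonsplitCountLoc K L T = nonsplitCount K L T

/-- **GLB-3a** (Shapiro + Hilbert 90 + local norm index LOC-3): for `L/K` cyclic of prime degree
`p`, `H¹(G, J_{L,T}) = 0` and `#H²(G, J_{L,T}) = p ^ #{places above T, nonsplit}` (local count).
No hypothesis on `T`. -/
def Stmt_JCyclic : Prop :=
  ∀ (p : ℕ) (K L : Type) [Field K] [Field L] [NumberField K] [NumberField L] [Algebra K L]
    (T : Finset Nat.Primes), p.Prime → Module.finrank K L = p → IsGalois K L →
    Subsingleton (groupCohomology (repJ K L T) 1) ∧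
      Nat.card (groupCohomology (repJ K L T) 2) = p ^ nonsplitCountLoc K L T

/-- **GLB-2** (Herbrand quotient of the `T`-units): for `L/K` cyclic of prime degree `p`, `K`
totally complex, `H¹` and `H²` of `O_{L,T}ˣ` are finite and
`p · #H²(G, O_{L,T}ˣ) = p ^ #{v ∣ T nonsplit} · #H¹(G, O_{L,T}ˣ)` (count on prime ideals).
No hypothesis on `T`. -/
def Stmt_EHerbrand : Prop :=
  ∀ (p : ℕ) (K L : Type) [Field K] [Field L] [NumberField K] [NumberField L] [Algebra K L]
    (T : Finset Nat.Primes), p.Prime → Module.finrank K L = p → IsGalois K L →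
    IsTotallyComplex K →
    Finite (groupCohomology (repE K L T) 1) ∧ Finite (groupCohomology (repE K L T) 2) ∧
      p * Nat.card (groupCohomology (repE K L T) 2) =
        p ^ nonsplitCount K L T * Nat.card (groupCohomology (repE K L T) 1)

/-- **FI** (first inequality): for `L/K` cyclic of prime degree `p`, `H¹` and `H²` of `C_{L,T}`
are finite and `#H²(G, C_{L,T}) = p · #H¹(G, C_{L,T})`. -/
def Stmt_FI : Prop :=
  ∀ (p : ℕ) (K L : Type) [Field K] [Field L] [NumberField K] [NumberField L] [Algebra K L]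
    (T : Finset Nat.Primes), p.Prime → Module.finrank K L = p → Admissible K L T p →
    Finite (groupCohomology (repC K L T) 1) ∧ Finite (groupCohomology (repC K L T) 2) ∧
      Nat.card (groupCohomology (repC K L T) 2) = p * Nat.card (groupCohomology (repC K L T) 1)

/-- **SI'** (second inequality, idelic form): for `L/K` cyclic of prime degree `p`,
`#H²(G, C_{L,T}) ≤ p` (`H² = Ĥ⁰ = C_K / N C_L`). -/
def Stmt_SIidelic : Prop :=
  ∀ (p : ℕ) (K L : Type) [Field K] [Field L] [NumberField K] [NumberField L] [Algebra K L]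
    (T : Finset Nat.Primes), p.Prime → Module.finrank K L = p → Admissible K L T p →
    Finite (groupCohomology (repC K L T) 2) ∧ Nat.card (groupCohomology (repC K L T) 2) ≤ p

/-- **CF-cyc**: for `L/K` cyclic of prime degree `p`: `H¹(G, C_{L,T}) = 0`, `#H²(G, C_{L,T}) = p`. -/
def Stmt_CFcyc : Prop :=
  ∀ (p : ℕ) (K L : Type) [Field K] [Field L] [NumberField K] [NumberField L] [Algebra K L]
    (T : Finset Nat.Primes), p.Prime → Module.finrank K L = p → Admissible K L T p →
    Subsingleton (groupCohomology (repC K L T) 1) ∧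
      Nat.card (groupCohomology (repC K L T) 2) = p

/-- **CF-G** (class formation on `p`-extensions = hypothesis of Tate's theorem `Stmt_TateH3`):
for `L/K` Galois of degree `p ^ m` there is a fundamental class `γ ∈ H²(G, C_{L,T})` such that
for every subgroup `H`: `H¹(H, C) = 0`, `#H²(H, C) = #H`, and `H²(H, C)` is generated by
`res γ`. -/
def Stmt_CFp : Prop :=
  ∀ (p m : ℕ) (K L : Type) [Field K] [Field L] [NumberField K] [NumberField L] [Algebra K L]
    (T : Finset Nat.Primes), p.Prime → Module.finrank K L = p ^ m → Admissible K L T p →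
    ∃ γ : groupCohomology (repC K L T) 2,
      (∀ H : Subgroup (L ≃ₐ[K] L), Subsingleton (groupCohomology (resSub (repC K L T) H) 1)) ∧
      ∀ H : Subgroup (L ≃ₐ[K] L),
        Nat.card (groupCohomology (resSub (repC K L T) H) 2) = Nat.card H ∧
        ∀ x : groupCohomology (resSub (repC K L T) H) 2,
          ∃ n : ℤ, x = n • resMap (repC K L T) H 2 γ

end Fermat.Agent.S55.CFT
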