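/-
S55 package E4, island GLB, wave 2: from the cyclic layers to the class formation on
`p`-extensions (`Stmt_CFp`), by Tate's method with the CYCLOTOMIC symbol `θ` instead of local
invariants (no local class field theory beyond the local norm index is needed here).
Owner-planner: helper62.  Plan: NOTES/plan/S55_E4.md §2b.

* `baseIdele : J_{K,T} → J_{L,T}`, `normIdele y = ∏_σ σ y` (in `J_{L,T}`), `normLK : J_{L,T} → J_{K,T}`,
  `normGroup K L T = E_{K,T} · N_{L/K} J_{L,T} ≤ J_{K,T}`;
* `normToQ : J_{K,T} → ∏_{q ∈ T} ℚ_qˣ`, `thetaQ p M : ∏_{q ∈ T} ℚ_qˣ → (ℤ/p^M)ˣ`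
  (`q ≠ p`: `x ↦ q ^ v_q(x)`; `q = p`: `x ↦ (x / p ^ v_p(x))⁻¹`), `cycloTheta = thetaQ ∘ normToQ`:
  the Artin symbol of `K(ζ_{p^M})/K` on `T`-ideles, defined without any Galois theory.
-/
import Fermat.Agent.S55.CFT.Global

set_option autoImplicit false

open NumberField TensorProduct CategoryTheory

noncomputable section

namespace Fermat.Agent.S55.CFT

variable (K L : Type) [Field K] [Field L] [NumberField K] [NumberField L] [Algebra K L]

/-! ### Base change and norm on `T`-ideles -/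

/-- The base change `J_{K,T} → J_{L,T}`. -/
def baseIdele (T : Finset Nat.Primes) : IdeleT K T →* IdeleT L T where
  toFun x := fun q => Units.map ((semiLocalMap K L q.1 : SemiLocal K q.1 →* SemiLocal L q.1)) (x q)
  map_one' := by funext q; simp
  map_mul' x y := by funext q; simp

/-- The norm `N_{L/K} : J_{L,T} → J_{L,T}`, `y ↦ ∏_{σ ∈ Gal(L/K)} σ y` (its values are
`Gal(L/K)`-invariant, i.e. lie in the image of `J_{K,T}` when `L/K` is Galois). -/
def normIdele (T : Finset Nat.Primes) [Fintype (L ≃ₐ[K] L)] : IdeleT L T →* IdeleT L T where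
  toFun y := ∏ σ : L ≃ₐ[K] L, σ • y
  map_one' := by simp
  map_mul' x y := by simp [smul_mul', Finset.prod_mul_distrib]

/-- The norm `N_{L/K} : J_{L,T} → J_{K,T}`, componentwise the norm of the `ℚ_q ⊗ K`-algebra
`ℚ_q ⊗ L` (free of rank `[L : K]`). -/
def normLK (T : Finset Nat.Primes) : IdeleT L T →* IdeleT K T where
  toFun y := fun q =>
    letI : Algebra (SemiLocal K q.1) (SemiLocal L q.1) := (semiLocalMap K L q.1).toRingHom.toAlgebra
    Units.map (Algebra.norm (SemiLocal K q.1) : SemiLocal L q.1 →* SemiLocal K q.1) (y q)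
  map_one' := by funext q; simp
  map_mul' x y := by funext q; simp

/-- The image of the `T`-units in the `T`-ideles. -/
def unitsInIdeles (T : Finset Nat.Primes) : Subgroup (IdeleT K T) :=
  (TUnits K T).map (diagIdele K T)

/-- The norm group `E_{K,T} · N_{L/K} J_{L,T} ≤ J_{K,T}`. -/
def normGroup (T : Finset Nat.Primes) : Subgroup (IdeleT K T) :=
  unitsInIdeles K T ⊔ (normLK K L T).range

/-! ### The cyclotomic symbol -/

/-- The norm `J_{K,T} → J_{ℚ,T} = ∏_{q ∈ T} ℚ_qˣ`. -/
def normToQ (T : Finset Nat.Primes) : IdeleT K T →* (∀ q : T, (Qp q.1)ˣ) where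
  toFun x := fun q => Units.map (Algebra.norm (Qp q.1) : SemiLocal K q.1 →* Qp q.1) (x q)
  map_one' := by funext q; simp
  map_mul' x y := by funext q; simp

/-- `q ≠ p`: the class of `q` in `(ℤ/p^M)ˣ`. -/
def primeUnit (p q : Nat.Primes) (M : ℕ) (h : q ≠ p) : (ZMod ((p : ℕ) ^ M))ˣ :=
  ZMod.unitOfCoprime (q : ℕ) (Nat.Coprime.pow_right M
    ((Nat.coprime_primes q.2 p.2).2 (fun e => h (Subtype.ext e))))

/-- The valuation `ℚ_qˣ → ℤ` as a homomorphism to `Multiplicative ℤ`. -/
def valHom (q : Nat.Primes) : (Qp q)ˣ →* Multiplicative ℤ :=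
  haveI := fact_primes q
  { toFun := fun x => Multiplicative.ofAdd (Padic.valuation (x : Qp q))
    map_one' := by simp
    map_mul' := fun x y => by
      simp only [Units.val_mul]
      rw [Padic.valuation_mul x.ne_zero y.ne_zero]
      rfl }

/-- The unit part `x ↦ x / p ^ v_p(x) ∈ ℤ_pˣ` of `x ∈ ℚ_pˣ`. -/
def unitPart (p : Nat.Primes) (x : (Qp p)ˣ) :
    haveI := fact_primes p
    ℤ_[(p : ℕ)]ˣ :=
  haveI := fact_primes p
  PadicInt.mkUnits (u := (x : Qp p) * ((p : ℕ) : Qp p) ^ (-(Padic.valuation (x : Qp p)))) (by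
    have hx : (x : Qp p) ≠ 0 := x.ne_zero
    have hp0 : ((p : ℕ) : ℝ) ≠ 0 := by exact_mod_cast p.2.ne_zero
    rw [norm_mul, norm_zpow, Padic.norm_p, Padic.norm_eq_zpow_neg_valuation hx, inv_zpow',
      neg_neg, ← zpow_add₀ hp0]
    simp)

/-- The local cyclotomic symbol at `q` on `ℚ_qˣ`, with values in `(ℤ/p^M)ˣ`:
`x ↦ q ^ v_q(x)` for `q ≠ p`, and `x ↦ (x / p ^ v_p(x))⁻¹ mod p^M` for `q = p`. -/
def thetaLoc (p : Nat.Primes) (M : ℕ) (q : Nat.Primes) (x : (Qp q)ˣ) : (ZMod ((p : ℕ) ^ M))ˣ :=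
  haveI := fact_primes p
  if h : q = p then
    (Units.map (PadicInt.toZModPow M : ℤ_[(p : ℕ)] →+* ZMod ((p : ℕ) ^ M)).toMonoidHom
      (unitPart p (h ▸ x)))⁻¹
  else
    haveI := fact_primes q
    primeUnit p q M h ^ (Padic.valuation (x : Qp q))

/-- The cyclotomic symbol on `ℚ`-ideles. -/
def thetaQ (p : Nat.Primes) (M : ℕ) (T : Finset Nat.Primes) (x : ∀ q : T, (Qp q.1)ˣ) :
    (ZMod ((p : ℕ) ^ M))ˣ :=
  ∏ q : T, thetaLoc p M q.1 (x q)

/-- The cyclotomic symbol on `T`-ideles of `K`: `θ_K = θ_ℚ ∘ N_{K/ℚ}`.  For `ζ_p ∈ K` this is the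
Artin symbol of `K(ζ_{p^M})/K` (Frobenius at `v ∤ p` is `N v`). -/
def cycloTheta (p : Nat.Primes) (M : ℕ) (T : Finset Nat.Primes) (x : IdeleT K T) :
    (ZMod ((p : ℕ) ^ M))ˣ :=
  thetaQ p M T (normToQ K T x)


/-! ### Admissibility for the cyclotomic auxiliary field -/

/-- `T` is admissible for `L(ζ_{p^M})/K` (model: `CyclotomicField (p ^ M) L`). -/
def AdmissibleCyc (T : Finset Nat.Primes) (p M : ℕ) [NeZero (p ^ M)] : Prop :=
  Admissible K (CyclotomicField (p ^ M) L) T p

/-- The standing hypotheses of wave 2 on `(K, L, T, p, m, M)`: `p` odd, `ζ_p ∈ K`,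
`[L : K] = p ^ m`, `[K(ζ_{p^M}) : K]` is divisible by `p ^ m`, and `T` is admissible for `L/K`,
for `L(ζ_{p^M})/K` and for `K(ζ_{p^M})/K`.  (Admissibility is monotone in `T`, so consumers get
all three from `Stmt_AdmissibleExists` applied three times.) -/
structure Hyp2 (T : Finset Nat.Primes) (p m M : ℕ) [NeZero (p ^ M)] : Prop where
  prime : p.Prime
  odd : p ≠ 2
  zeta : ∃ ζ : K, IsPrimitiveRoot ζ p
  deg : Module.finrank K L = p ^ m
  big : p ^ m ∣ Module.finrank K (CyclotomicField (p ^ M) K)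
  adm : Admissible K L T p
  admCyc : AdmissibleCyc K L T p M
  admCycK : Admissible K (CyclotomicField (p ^ M) K) T p

/-- **ADM-MONO** (admissibility is monotone in `T`). -/
def Stmt_AdmissibleMono : Prop :=
  ∀ (p : ℕ) (K L : Type) [Field K] [Field L] [NumberField K] [NumberField L] [Algebra K L]
    (T T' : Finset Nat.Primes), T ⊆ T' → Admissible K L T p → Admissible K L T' p

/-- **HYP2-EX** (the standing hypotheses can always be arranged): for a Galois extension `L/K` of
degree `p ^ m`, `p` odd, `ζ_p ∈ K`, every finite set `T₀` of primes and every `M₀` there are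
`M ≥ M₀` and `T ⊇ T₀` with `Hyp2 K L T p m M`.
(`K` is totally complex because `ζ_p ∈ K`; `[K(ζ_{p^M}) : K]` is a power of `p` which tends to
infinity; `Stmt_AdmissibleExists` three times and `Stmt_AdmissibleMono`.) -/
def Stmt_Hyp2Exists : Prop :=
  ∀ (p m : ℕ) (K L : Type) [Field K] [Field L] [NumberField K] [NumberField L] [Algebra K L]
    (T₀ : Finset Nat.Primes) (M₀ : ℕ), p.Prime → p ≠ 2 → (∃ ζ : K, IsPrimitiveRoot ζ p) →
    IsGalois K L → Module.finrank K L = p ^ m →
    ∃ (M : ℕ) (_ : NeZero (p ^ M)) (T : Finset Nat.Primes),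
      M₀ ≤ M ∧ T₀ ⊆ T ∧ Hyp2 K L T p m M

/-! ### Statements: descent, units, norm index -/

/-- **DESC** (Galois descent for `T`-ideles): for `L/K` Galois, `J_{K,T} → J_{L,T}` is injective
with image the `Gal(L/K)`-invariants, and `N_{L/K}` composed with it is `∏_σ σ`. -/
def Stmt_Descent : Prop :=
  ∀ (K L : Type) [Field K] [Field L] [NumberField K] [NumberField L] [Algebra K L]
    (T : Finset Nat.Primes), IsGalois K L →
    Function.Injective (baseIdele K L T) ∧
    (∀ y : IdeleT L T, (∀ σ : L ≃ₐ[K] L, σ • y = y) → ∃ x, baseIdele K L T x = y) ∧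
    ∀ y : IdeleT L T, ∃ _ : Fintype (L ≃ₐ[K] L),
      baseIdele K L T (normLK K L T y) = normIdele K L T y

/-- **NT** (transitivity of norms): `N_{K/ℚ} ∘ N_{L/K} = N_{L/ℚ}` on `T`-ideles. -/
def Stmt_NormTrans : Prop :=
  ∀ (K L : Type) [Field K] [Field L] [NumberField K] [NumberField L] [Algebra K L]
    (T : Finset Nat.Primes) (y : IdeleT L T), normToQ K T (normLK K L T y) = normToQ L T y

/-- **H1E** (`H¹` of the `T`-units vanishes): for admissible `(K, L, T)`,
`H¹(Gal(L/K), O_{L,T}ˣ) = 0`.  (`1 → E → Lˣ → I_T → 1`, Hilbert 90, `I_T^G = I_{K,T}` since `L/K`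
is unramified outside `T`, `Kˣ → I_{K,T}` onto since `Cl_T(K) = 1`.) -/
def Stmt_H1Units : Prop :=
  ∀ (p : ℕ) (K L : Type) [Field K] [Field L] [NumberField K] [NumberField L] [Algebra K L]
    (T : Finset Nat.Primes), Admissible K L T p →
    Subsingleton (groupCohomology (repE K L T) 1)

/-- **H2I** (`H²` of the class module is the norm index): for `L/K` cyclic, admissible,
`#H²(G, C_{L,T}) = [J_{K,T} : E_{K,T} N J_{L,T}]`.
(Cyclic: `H² ≅ C^G/N C`, helper12's `H12.card_even`; `C^G = J_K/E_K` by DESC + H1E.) -/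
def Stmt_H2Index : Prop :=
  ∀ (p : ℕ) (K L : Type) [Field K] [Field L] [NumberField K] [NumberField L] [Algebra K L]
    (T : Finset Nat.Primes), Admissible K L T p → IsCyclic (L ≃ₐ[K] L) →
    Nat.card (groupCohomology (repC K L T) 2) = (normGroup K L T).index

/-- **SI''** (second inequality, index form, any degree): for `L/K` Galois, admissible, the norm
group has finite index `≤ [L : K]`.  (From helper31's `Stmt_T2m`; see `Stmt_SIidelic`.) -/
def Stmt_SIindex : Prop :=
  ∀ (p : ℕ) (K L : Type) [Field K] [Field L] [NumberField K] [NumberField L] [Algebra K L]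
    (T : Finset Nat.Primes), Admissible K L T p →
    (normGroup K L T).index ≠ 0 ∧ (normGroup K L T).index ≤ Module.finrank K L

/-! ### Statements: the cyclotomic symbol -/

/-- **TH-1** (product formula): `θ_K` is trivial on the `T`-units, for `p ∈ T` and `K` totally
complex (the norm of a `T`-unit is a positive `T`-unit of `ℚ`). -/
def Stmt_ThetaUnits : Prop :=
  ∀ (p : Nat.Primes) (M : ℕ) (K : Type) [Field K] [NumberField K] (T : Finset Nat.Primes),
    p ∈ T → IsTotallyComplex K →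
    ∀ e ∈ TUnits K T, cycloTheta K p M T (diagIdele K T e) = 1

/-- **TH-2** (norms from a field containing `ζ_{p^M}`): if `L` contains a primitive `p^M`-th root
of unity, `p` odd, then `θ_L = 1`.  (Local: for `q ≠ p` the valuation of a norm from
`ℚ_q ⊗ ℚ(ζ_{p^M})` is divisible by the order of `q` mod `p^M`; for `q = p` the unit part of a norm
from `ℚ_p(ζ_{p^M})` is `≡ 1 mod p^M`.) -/
def Stmt_ThetaNorm : Prop :=
  ∀ (p : Nat.Primes) (M : ℕ) (L : Type) [Field L] [NumberField L] (T : Finset Nat.Primes),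
    (p : ℕ) ≠ 2 → (∃ ζ : L, IsPrimitiveRoot ζ ((p : ℕ) ^ M)) →
    ∀ y : IdeleT L T, cycloTheta L p M T y = 1

/-- **TH-3** (the symbol is onto the Galois group): for `L = K(ζ_{p^M})`, `T` admissible, the
image of `θ_K` on `J_{K,T}` has at least `[L : K]` elements.
(`Cl_T(K) = 1` and TH-1 for `T ∪ {q}`: `N v ∈ θ(J_{K,T})` for every prime `v ∉ T`; every element
of `Gal(L/K)` is a Frobenius, helper31's `stmt_FD_rel`.) -/
def Stmt_ThetaOnto : Prop :=
  ∀ (p : Nat.Primes) (M : ℕ) (K L : Type) [Field K] [Field L] [NumberField K] [NumberField L]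
    [Algebra K L] (T : Finset Nat.Primes), (p : ℕ) ≠ 2 →
    IsCyclotomicExtension {(p : ℕ) ^ M} K L → Admissible K L T p →
    Module.finrank K L ≤ Nat.card (Set.range (cycloTheta K p M T))

/-- **CYC** (reciprocity for `K(ζ_{p^M})/K`): for `L = K(ζ_{p^M})`, `T` admissible, an idele of
`K` is in the norm group iff its cyclotomic symbol is trivial.  Hence
`J_{K,T}/E_{K,T} N J_{L,T} ↪ (ℤ/p^M)ˣ` is cyclic of order `[L : K]`.
(`⟸` of the iff: TH-1, TH-2, NT; `⟹`: SI'' and TH-3, counting.) -/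
def Stmt_CycRec : Prop :=
  ∀ (p : Nat.Primes) (M : ℕ) (K L : Type) [Field K] [Field L] [NumberField K] [NumberField L]
    [Algebra K L] (T : Finset Nat.Primes), (p : ℕ) ≠ 2 →
    IsCyclotomicExtension {(p : ℕ) ^ M} K L → Admissible K L T p →
    ∀ x : IdeleT K T, x ∈ normGroup K L T ↔ cycloTheta K p M T x = 1

/-! ### Statements: the class formation -/

/-- **CF-ind** (induction from the cyclic layers): for an admissible `p`-extension and every
subgroup `H`: `H¹(H, C) = 0` and `#H²(H, C)` divides `#H`.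
(`Stmt_CFcyc`, inflation–restriction in degrees 1 and 2, `C^N = C_{L^N,T}` by DESC + H1E.) -/
def Stmt_CFind : Prop :=
  ∀ (p m : ℕ) (K L : Type) [Field K] [Field L] [NumberField K] [NumberField L] [Algebra K L]
    (T : Finset Nat.Primes), p.Prime → Module.finrank K L = p ^ m → Admissible K L T p →
    ∀ H : Subgroup (L ≃ₐ[K] L),
      Subsingleton (groupCohomology (resSub (repC K L T) H) 1) ∧
      Finite (groupCohomology (resSub (repC K L T) H) 2) ∧
      Nat.card (groupCohomology (resSub (repC K L T) H) 2) ∣ Nat.card H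

/-- **FUND** (a class of full order): under `Hyp2`, `H²(G, C_{L,T})` contains an element of order
`[L : K]`.  (Tate's argument: `L' = K(ζ_{p^M})`, `N = L L'`; a class `c'` of order `[L : K]` in
`H²(L'/K, C) = C_K/N C_{L'}` (CYC); its inflation to `N/K` restricts to `0` on `N/L` because
`θ_L(a) = θ_K(a)^{[L:K]}` for `a ∈ C_K` and CYC for `N/L`; inflation–restriction.) -/
def Stmt_FundExists : Prop :=
  ∀ (p m M : ℕ) [NeZero (p ^ M)] (K L : Type) [Field K] [Field L] [NumberField K] [NumberField L]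
    [Algebra K L] (T : Finset Nat.Primes), Hyp2 K L T p m M →
    ∃ γ : groupCohomology (repC K L T) 2, ∀ k : ℕ, k • γ = 0 → p ^ m ∣ k

/-- **COR** (corestriction): for a subgroup `H` of a finite group `G` there is
`cor : Hⁿ(H, A) → Hⁿ(G, A)` with `cor ∘ res = [G : H]`. -/
def Stmt_CorRes : Prop :=
  ∀ (G : Type) [Group G] [Finite G] (A : Rep ℤ G) (H : Subgroup G) (n : ℕ),
    ∃ cor : groupCohomology (resSub A H) n →ₗ[ℤ] groupCohomology A n,
      ∀ x : groupCohomology A n, cor (resMap A H n x) = H.index • x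

/-- **CF-G'** (class formation on `p`-extensions, the form that is used): under `Hyp2` there is
a fundamental class `γ` as in `Stmt_CFp`.  (CF-ind + FUND + COR.)  With `Stmt_TateH3` this gives
`H³(H, C_{L,T}) = 0` for all `H`. -/
def Stmt_CFp' : Prop :=
  ∀ (p m M : ℕ) [NeZero (p ^ M)] (K L : Type) [Field K] [Field L] [NumberField K] [NumberField L]
    [Algebra K L] (T : Finset Nat.Primes), Hyp2 K L T p m M →
    ∃ γ : groupCohomology (repC K L T) 2,
      (∀ H : Subgroup (L ≃ₐ[K] L), Subsingleton (groupCohomology (resSub (repC K L T) H) 1)) ∧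
      ∀ H : Subgroup (L ≃ₐ[K] L),
        Nat.card (groupCohomology (resSub (repC K L T) H) 2) = Nat.card H ∧
        ∀ x : groupCohomology (resSub (repC K L T) H) 2,
          ∃ n : ℤ, x = n • resMap (repC K L T) H 2 γ

end Fermat.Agent.S55.CFT
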