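/-
S55 package E4, island GLB, wave 3: the exports of the finite-level global theory to the
island GS, in `T`-free form (statements about `Hⁱ(Gal(L/K), Lˣ)`, `i = 2, 3`, and its local
components).  Owner-planner: helper62.  Plan: NOTES/plan/S55_E4.md §2c, NOTES/plan/S55_GS.md.

* `Place K` : a rational prime `q` and a maximal ideal of `ℚ_q ⊗ K` (a finite place of `K`);
* `LocAlg K L v = (ℚ_q ⊗ L)/𝔪_v (ℚ_q ⊗ L)` (`= K_v ⊗_K L = ∏_{w ∣ v} L_w`), with `Gal(L/K)` acting;
  `repJv K L v` its units as a `Gal(L/K)`-module (`Hⁿ(G, repJv) = Hⁿ(G_w, L_wˣ)` by Shapiro);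
* `repL K L = Lˣ`, `locRep K L v : repL ⟶ repJv`;
* for a tower `K ⊆ L ⊆ N` of Galois extensions: `infL`, `infJv` (inflation).
-/
import Fermat.Agent.S55.CFT.Defs_CF

set_option autoImplicit false

open NumberField TensorProduct CategoryTheory

noncomputable section

namespace Fermat.Agent.S55.CFT

variable (K L : Type) [Field K] [Field L] [NumberField K] [NumberField L] [Algebra K L]

/-- A finite place of `K`: a rational prime `q` and a maximal ideal of `ℚ_q ⊗ K`. -/
abbrev Place : Type := (q : Nat.Primes) × MaximalSpectrum (SemiLocal K q)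

/-- The ideal of `ℚ_q ⊗ L` generated by the maximal ideal `𝔪_v` of `ℚ_q ⊗ K`. -/
def placeIdeal (v : Place K) : Ideal (SemiLocal L v.1) :=
  v.2.asIdeal.map (semiLocalMap K L v.1)

/-- `(ℚ_q ⊗ L)/𝔪_v (ℚ_q ⊗ L) = K_v ⊗_K L = ∏_{w ∣ v} L_w`. -/
abbrev LocAlg (v : Place K) : Type := SemiLocal L v.1 ⧸ placeIdeal K L v

lemma semiLocalEquiv_semiLocalMap (q : Nat.Primes) (σ : L ≃ₐ[K] L) (x : SemiLocal K q) :
    semiLocalEquiv K L q σ (semiLocalMap K L q x) = semiLocalMap K L q x := by
  induction x using TensorProduct.induction_on with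
  | zero => simp
  | tmul a b => simp [semiLocalMap]
  | add a b ha hb => simp [map_add, ha, hb]

lemma placeIdeal_le_comap (v : Place K) (σ : L ≃ₐ[K] L) :
    placeIdeal K L v ≤ (placeIdeal K L v).comap (semiLocalEquiv K L v.1 σ : SemiLocal L v.1 →+*
      SemiLocal L v.1) := by
  rw [placeIdeal, Ideal.map_le_iff_le_comap]
  intro x hx
  rw [Ideal.mem_comap, Ideal.mem_comap]
  change semiLocalEquiv K L v.1 σ (semiLocalMap K L v.1 x) ∈ _
  rw [semiLocalEquiv_semiLocalMap]
  exact Ideal.mem_map_of_mem _ hx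

/-- The automorphism of `LocAlg K L v` induced by `σ ∈ Gal(L/K)`. -/
def locAlgMap (v : Place K) (σ : L ≃ₐ[K] L) : LocAlg K L v →+* LocAlg K L v :=
  Ideal.quotientMap (placeIdeal K L v)
    (semiLocalEquiv K L v.1 σ : SemiLocal L v.1 →+* SemiLocal L v.1) (placeIdeal_le_comap K L v σ)

lemma locAlgMap_mk (v : Place K) (σ : L ≃ₐ[K] L) (x : SemiLocal L v.1) :
    locAlgMap K L v σ (Ideal.Quotient.mk _ x) = Ideal.Quotient.mk _ (semiLocalEquiv K L v.1 σ x) :=
  rfl

instance locAlgAction (v : Place K) : MulSemiringAction (L ≃ₐ[K] L) (LocAlg K L v) where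
  smul σ x := locAlgMap K L v σ x
  one_smul x := by
    obtain ⟨y, rfl⟩ := Ideal.Quotient.mk_surjective x
    change locAlgMap K L v 1 _ = _
    rw [locAlgMap_mk, semiLocalEquiv_one]
  mul_smul σ τ x := by
    obtain ⟨y, rfl⟩ := Ideal.Quotient.mk_surjective x
    change locAlgMap K L v (σ * τ) _ = locAlgMap K L v σ (locAlgMap K L v τ _)
    rw [locAlgMap_mk, locAlgMap_mk, locAlgMap_mk, semiLocalEquiv_mul]
  smul_zero σ := map_zero (locAlgMap K L v σ)
  smul_add σ x y := map_add (locAlgMap K L v σ) x y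
  smul_one σ := map_one (locAlgMap K L v σ)
  smul_mul σ x y := map_mul (locAlgMap K L v σ) x y

instance locAlgUnitsAction (v : Place K) :
    MulDistribMulAction (L ≃ₐ[K] L) (LocAlg K L v)ˣ where
  smul σ u := Units.map (locAlgMap K L v σ : LocAlg K L v →* LocAlg K L v) u
  one_smul u := Units.ext (one_smul (L ≃ₐ[K] L) (u : LocAlg K L v))
  mul_smul σ τ u := Units.ext (mul_smul σ τ (u : LocAlg K L v))
  smul_mul σ u w := map_mul _ u w
  smul_one σ := map_one _

/-- The local component `∏_{w ∣ v} L_wˣ` at the place `v` of `K`, as a `Gal(L/K)`-module. -/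
abbrev repJv (v : Place K) : Rep ℤ (L ≃ₐ[K] L) :=
  Rep.ofMulDistribMulAction (L ≃ₐ[K] L) (LocAlg K L v)ˣ

/-- `Lˣ` as a `Gal(L/K)`-module. -/
abbrev repL : Rep ℤ (L ≃ₐ[K] L) :=
  Rep.ofMulDistribMulAction (L ≃ₐ[K] L) Lˣ

/-- `Lˣ → (K_v ⊗_K L)ˣ`. -/
def locHom (v : Place K) : Lˣ →* (LocAlg K L v)ˣ :=
  Units.map (((Ideal.Quotient.mk (placeIdeal K L v)).comp
    ((Algebra.TensorProduct.includeRight : L →ₐ[ℚ] SemiLocal L v.1) : L →+* SemiLocal L v.1) :
      L →+* LocAlg K L v) : L →* LocAlg K L v)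

lemma locHom_smul (v : Place K) (σ : L ≃ₐ[K] L) (x : Lˣ) :
    locHom K L v (σ • x) = σ • locHom K L v x := by
  apply Units.ext
  change Ideal.Quotient.mk _ ((1 : Qp v.1) ⊗ₜ[ℚ] (σ x : L)) =
    locAlgMap K L v σ (Ideal.Quotient.mk _ ((1 : Qp v.1) ⊗ₜ[ℚ] (x : L)))
  rw [locAlgMap_mk, semiLocalEquiv_tmul]

/-- The localisation `Lˣ → (K_v ⊗_K L)ˣ` as a morphism of `Gal(L/K)`-modules. -/
def locRep (v : Place K) : repL K L ⟶ repJv K L v :=
  Rep.ofHom (LinearMap.intertwiningMap_of_isIntertwiningMap _ _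
    ((locHom K L v).toAdditive.toIntLinearMap)
    (fun σ x => congrArg Additive.ofMul (locHom_smul K L v σ (Additive.toMul x : Lˣ))))

/-- The local component map `Hⁿ(G, Lˣ) → Hⁿ(G, (K_v ⊗_K L)ˣ)`. -/
def locMap (v : Place K) (n : ℕ) :
    groupCohomology (repL K L) n →ₗ[ℤ] groupCohomology (repJv K L v) n :=
  ((groupCohomology.functor ℤ (L ≃ₐ[K] L) n).map (locRep K L v)).hom


/-! ### Inflation in a tower `K ⊆ L ⊆ N` -/

section tower

variable (N : Type) [Field N] [NumberField N] [Algebra K N] [Algebra L N] [IsScalarTower K L N]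

lemma semiLocalMap_comp (q : Nat.Primes) (x : SemiLocal K q) :
    semiLocalMap L N q (semiLocalMap K L q x) = semiLocalMap K N q x := by
  induction x using TensorProduct.induction_on with
  | zero => simp
  | tmul a b => simp [semiLocalMap, ← IsScalarTower.algebraMap_apply]
  | add a b ha hb => simp [map_add, ha, hb]

lemma placeIdeal_le_comap_tower (v : Place K) :
    placeIdeal K L v ≤ (placeIdeal K N v).comap (semiLocalMap L N v.1 : SemiLocal L v.1 →+*
      SemiLocal N v.1) := by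
  rw [placeIdeal, Ideal.map_le_iff_le_comap]
  intro x hx
  rw [Ideal.mem_comap, Ideal.mem_comap]
  change semiLocalMap L N v.1 (semiLocalMap K L v.1 x) ∈ _
  rw [semiLocalMap_comp]
  exact Ideal.mem_map_of_mem _ hx

/-- `K_v ⊗_K L → K_v ⊗_K N`. -/
def locAlgTower (v : Place K) : LocAlg K L v →+* LocAlg K N v :=
  Ideal.quotientMap (placeIdeal K N v)
    (semiLocalMap L N v.1 : SemiLocal L v.1 →+* SemiLocal N v.1) (placeIdeal_le_comap_tower K L N v)

variable [Normal K L]

omit [NumberField K] [NumberField L] [NumberField N] in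
lemma algebraMap_units_smul (τ : N ≃ₐ[K] N) (x : Lˣ) :
    Units.map (algebraMap L N : L →* N) ((AlgEquiv.restrictNormalHom L τ) • x) =
      τ • Units.map (algebraMap L N : L →* N) x := by
  apply Units.ext
  exact AlgEquiv.restrictNormal_commutes τ L (x : L)

/-- Inflation `Lˣ → Nˣ` as a morphism of `Gal(N/K)`-modules. -/
def infRepL : Rep.res (AlgEquiv.restrictNormalHom (F := K) (K₁ := N) L) (repL K L) ⟶ repL K N :=
  Rep.ofHom (LinearMap.intertwiningMap_of_isIntertwiningMap _ _
    ((Units.map (algebraMap L N : L →* N)).toAdditive.toIntLinearMap)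
    (fun τ x => congrArg Additive.ofMul
      (algebraMap_units_smul K L N τ (Additive.toMul x : Lˣ))))

/-- Inflation `Hⁿ(Gal(L/K), Lˣ) → Hⁿ(Gal(N/K), Nˣ)`. -/
def infL (n : ℕ) : groupCohomology (repL K L) n →ₗ[ℤ] groupCohomology (repL K N) n :=
  (groupCohomology.map (AlgEquiv.restrictNormalHom (F := K) (K₁ := N) L) (infRepL K L N) n).hom

lemma locAlgTower_smul (v : Place K) (τ : N ≃ₐ[K] N) (x : LocAlg K L v) :
    locAlgTower K L N v ((AlgEquiv.restrictNormalHom L τ) • x) = τ • locAlgTower K L N v x := by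
  obtain ⟨y, rfl⟩ := Ideal.Quotient.mk_surjective x
  change Ideal.Quotient.mk _ (semiLocalMap L N v.1 (semiLocalEquiv K L v.1 _ y)) =
    Ideal.Quotient.mk _ (semiLocalEquiv K N v.1 τ (semiLocalMap L N v.1 y))
  congr 1
  induction y using TensorProduct.induction_on with
  | zero => simp
  | tmul a b =>
    simp only [semiLocalEquiv_tmul, semiLocalMap, Algebra.TensorProduct.map_tmul, AlgHom.coe_id,
      id_eq, RingHom.toRatAlgHom_apply]
    congr 1
    exact AlgEquiv.restrictNormal_commutes τ L b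
  | add a b ha hb => simp only [map_add, ha, hb]

/-- Inflation of the local components as a morphism of `Gal(N/K)`-modules. -/
def infRepJv (v : Place K) :
    Rep.res (AlgEquiv.restrictNormalHom (F := K) (K₁ := N) L) (repJv K L v) ⟶ repJv K N v :=
  Rep.ofHom (LinearMap.intertwiningMap_of_isIntertwiningMap _ _
    ((Units.map (locAlgTower K L N v : LocAlg K L v →* LocAlg K N v)).toAdditive.toIntLinearMap)
    (fun τ x => congrArg Additive.ofMul (Units.ext
      (locAlgTower_smul K L N v τ ((Additive.toMul x : (LocAlg K L v)ˣ) : LocAlg K L v)))))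

/-- Inflation `Hⁿ(Gal(L/K), (K_v ⊗ L)ˣ) → Hⁿ(Gal(N/K), (K_v ⊗ N)ˣ)`. -/
def infJv (v : Place K) (n : ℕ) :
    groupCohomology (repJv K L v) n →ₗ[ℤ] groupCohomology (repJv K N v) n :=
  (groupCohomology.map (AlgEquiv.restrictNormalHom (F := K) (K₁ := N) L) (infRepJv K L N v) n).hom

end tower

/-- Inflation to the cyclotomic extension `L(ζ_{p^M})` (model `CyclotomicField (p ^ M) L`, with
Mathlib's instances `Algebra K (CyclotomicField n L)`, `IsScalarTower K L (CyclotomicField n L)`). -/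
def infLCyc (p M : ℕ) [NeZero (p ^ M)] [Normal K L] (n : ℕ) :
    groupCohomology (repL K L) n →ₗ[ℤ] groupCohomology (repL K (CyclotomicField (p ^ M) L)) n :=
  infL K L (CyclotomicField (p ^ M) L) n

/-- Inflation of the local components to `L(ζ_{p^M})`. -/
def infJvCyc (p M : ℕ) [NeZero (p ^ M)] [Normal K L] (v : Place K) (n : ℕ) :
    groupCohomology (repJv K L v) n →ₗ[ℤ]
      groupCohomology (repJv K (CyclotomicField (p ^ M) L) v) n :=
  infJv K L (CyclotomicField (p ^ M) L) v n

/-! ### The exports -/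

/-- The standing hypotheses of the exports: `p` odd, `ζ_p ∈ K`, `L/K` Galois of degree `p ^ m`. -/
structure Hyp3 (p m : ℕ) : Prop where
  prime : p.Prime
  odd : p ≠ 2
  zeta : ∃ ζ : K, IsPrimitiveRoot ζ p
  gal : IsGalois K L
  deg : Module.finrank K L = p ^ m

/-- **BR-Hasse** (Hasse principle for `H²(Gal(L/K), Lˣ)`): a class which is locally trivial at
all finite places is trivial.  (`H¹(G, C_{L,T}) = 0` for an admissible `T`; outside `T` the
valuation.) -/
def Stmt_BrHasse : Prop :=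
  ∀ (p m : ℕ) (K L : Type) [Field K] [Field L] [NumberField K] [NumberField L] [Algebra K L],
    Hyp3 K L p m → ∀ x : groupCohomology (repL K L) 2,
      (∀ v : Place K, locMap K L v 2 x = 0) → x = 0

/-- **BR-One** (no class with exactly one nonzero local component). -/
def Stmt_BrOne : Prop :=
  ∀ (p m : ℕ) (K L : Type) [Field K] [Field L] [NumberField K] [NumberField L] [Algebra K L],
    Hyp3 K L p m → ∀ (x : groupCohomology (repL K L) 2) (v₀ : Place K),
      (∀ v : Place K, v ≠ v₀ → locMap K L v 2 x = 0) → locMap K L v₀ 2 x = 0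

/-- **BR-Two** (existence): for two places `v₁ ≠ v₂` and a local class `b` at `v₁` there is, over
`L(ζ_{p^M})` for a suitable `M`, a global class with `v₁`-component `inf b` and trivial components
outside `{v₁, v₂}`. -/
def Stmt_BrTwo : Prop :=
  ∀ (p m : ℕ) (K L : Type) [Field K] [Field L] [NumberField K] [NumberField L] [Algebra K L]
    (h : Hyp3 K L p m) (v₁ v₂ : Place K), v₁ ≠ v₂ → ∀ b : groupCohomology (repJv K L v₁) 2,
    haveI : Normal K L := h.gal.to_normal
    ∃ (M : ℕ) (_ : NeZero (p ^ M)),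
      ∃ x : groupCohomology (repL K (CyclotomicField (p ^ M) L)) 2,
        locMap K (CyclotomicField (p ^ M) L) v₁ 2 x = infJvCyc K L p M v₁ 2 b ∧
        ∀ v : Place K, v ≠ v₁ → v ≠ v₂ → locMap K (CyclotomicField (p ^ M) L) v 2 x = 0

/-- **BR-H3** (`H³` dies in the cyclotomic tower): for every `L` there is `M` such that the
inflation `H³(Gal(L/K), Lˣ) → H³(Gal(L(ζ_{p^M})/K), L(ζ_{p^M})ˣ)` is zero. -/
def Stmt_BrH3 : Prop :=
  ∀ (p m : ℕ) (K L : Type) [Field K] [Field L] [NumberField K] [NumberField L] [Algebra K L]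
    (h : Hyp3 K L p m),
    haveI : Normal K L := h.gal.to_normal
    ∃ (M : ℕ) (_ : NeZero (p ^ M)), ∀ x : groupCohomology (repL K L) 3, infLCyc K L p M 3 x = 0

end Fermat.Agent.S55.CFT
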