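/-
S55 package E4, island GLB, wave 3: the intermediate statements on the way to the exports
`Stmt_BrHasse`, `Stmt_BrOne`, `Stmt_BrTwo`, `Stmt_BrH3` of `Defs_BR.lean`.
Owner-planner: helper62.  Brief with the (checked) routes: NOTES/plan/S55_BR.md.

* `projRep : repJ K L T ⟶ repJv K L ⟨q, v⟩` (component of a `T`-idele at the place `v ∣ q`),
  `toC : repJ ⟶ repC`, `unitsToL : repE ⟶ repL`, and the induced maps on cohomology;
* `IsClassFormation K L T` : the conclusion of `Stmt_CFp'`;
* `InjAt K L T` : local–global injectivity (no class of `H²(G, J_{L,T})` which dies in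
  `H²(G, C_{L,T})` has exactly one nonzero local component);
* statements SLD, VAL (four parts), SHL, GoodT (= INJ in the form that is used), and the local
  input at the places above `p`, `Stmt_LocalThetaOnto`.
-/
import Fermat.Agent.S55.CFT.Defs_BR

set_option autoImplicit false

open NumberField TensorProduct CategoryTheory

noncomputable section

namespace Fermat.Agent.S55.CFT

variable (K L : Type) [Field K] [Field L] [NumberField K] [NumberField L] [Algebra K L]

/-! ### Components of `T`-ideles, the class module, the units -/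

/-- The component at the place `v ∣ q` of a `T`-idele of `L`:
`∏_{q ∈ T} (ℚ_q ⊗ L)ˣ → (ℚ_q ⊗ L)ˣ → ((ℚ_q ⊗ L)/𝔪_v)ˣ`. -/
def projIdele (T : Finset Nat.Primes) (q : T) (v : MaximalSpectrum (SemiLocal K q.1)) :
    IdeleT L T →* (LocAlg K L ⟨q.1, v⟩)ˣ :=
  (Units.map ((Ideal.Quotient.mk (placeIdeal K L ⟨q.1, v⟩) :
      SemiLocal L q.1 →+* LocAlg K L ⟨q.1, v⟩) : SemiLocal L q.1 →* LocAlg K L ⟨q.1, v⟩)).comp
    (Pi.evalMonoidHom (fun q : T => (SemiLocal L q.1)ˣ) q)

lemma projIdele_smul (T : Finset Nat.Primes) (q : T) (v : MaximalSpectrum (SemiLocal K q.1))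
    (σ : L ≃ₐ[K] L) (x : IdeleT L T) :
    projIdele K L T q v (σ • x) =
      Units.map (locAlgMap K L ⟨q.1, v⟩ σ : LocAlg K L ⟨q.1, v⟩ →* LocAlg K L ⟨q.1, v⟩)
        (projIdele K L T q v x) := by
  apply Units.ext
  rfl

/-- The component at `v` as a morphism of `Gal(L/K)`-modules. -/
def projRep (T : Finset Nat.Primes) (q : T) (v : MaximalSpectrum (SemiLocal K q.1)) :
    repJ K L T ⟶ repJv K L ⟨q.1, v⟩ :=
  Rep.ofHom (LinearMap.intertwiningMap_of_isIntertwiningMap _ _
    ((projIdele K L T q v).toAdditive.toIntLinearMap)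
    (fun σ x => congrArg Additive.ofMul
      (projIdele_smul K L T q v σ (Additive.toMul x : IdeleT L T))))

/-- The component map `Hⁿ(G, J_{L,T}) → Hⁿ(G, (K_v ⊗_K L)ˣ)`. -/
def projMap (T : Finset Nat.Primes) (q : T) (v : MaximalSpectrum (SemiLocal K q.1)) (n : ℕ) :
    groupCohomology (repJ K L T) n →ₗ[ℤ] groupCohomology (repJv K L ⟨q.1, v⟩) n :=
  ((groupCohomology.functor ℤ (L ≃ₐ[K] L) n).map (projRep K L T q v)).hom

/-- The projection `J_{L,T} → C_{L,T}`. -/
def toC (T : Finset Nat.Primes) : repJ K L T ⟶ repC K L T :=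
  Limits.cokernel.π (diagRep K L T)

/-- `Hⁿ(G, J_{L,T}) → Hⁿ(G, C_{L,T})`. -/
def toCMap (T : Finset Nat.Primes) (n : ℕ) :
    groupCohomology (repJ K L T) n →ₗ[ℤ] groupCohomology (repC K L T) n :=
  ((groupCohomology.functor ℤ (L ≃ₐ[K] L) n).map (toC K L T)).hom

/-- `Hⁿ(G, O_{L,T}ˣ) → Hⁿ(G, J_{L,T})`. -/
def diagMap (T : Finset Nat.Primes) (n : ℕ) :
    groupCohomology (repE K L T) n →ₗ[ℤ] groupCohomology (repJ K L T) n :=
  ((groupCohomology.functor ℤ (L ≃ₐ[K] L) n).map (diagRep K L T)).hom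

/-- The inclusion `O_{L,T}ˣ → Lˣ` as a morphism of `Gal(L/K)`-modules. -/
def unitsToL (T : Finset Nat.Primes) : repE K L T ⟶ repL K L :=
  Rep.ofHom (LinearMap.intertwiningMap_of_isIntertwiningMap _ _
    (((TUnits L T).subtype).toAdditive.toIntLinearMap)
    (fun _ _ => rfl))

/-- `Hⁿ(G, O_{L,T}ˣ) → Hⁿ(G, Lˣ)`. -/
def unitsMap (T : Finset Nat.Primes) (n : ℕ) :
    groupCohomology (repE K L T) n →ₗ[ℤ] groupCohomology (repL K L) n :=
  ((groupCohomology.functor ℤ (L ≃ₐ[K] L) n).map (unitsToL K L T)).hom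

/-! ### The two properties of `(K, L, T)` that the exports use -/

/-- The conclusion of `Stmt_CFp'`: `H¹(H, C) = 0` and `H²(H, C)` is cyclic of order `#H`,
generated by the restriction of one class `γ`, for every subgroup `H` of `Gal(L/K)`. -/
def IsClassFormation (T : Finset Nat.Primes) : Prop :=
  ∃ γ : groupCohomology (repC K L T) 2,
    (∀ H : Subgroup (L ≃ₐ[K] L), Subsingleton (groupCohomology (resSub (repC K L T) H) 1)) ∧
    ∀ H : Subgroup (L ≃ₐ[K] L),
      Nat.card (groupCohomology (resSub (repC K L T) H) 2) = Nat.card H ∧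
      ∀ x : groupCohomology (resSub (repC K L T) H) 2,
        ∃ n : ℤ, x = n • resMap (repC K L T) H 2 γ

/-- Local–global injectivity for `(K, L, T)`: a class of `H²(G, J_{L,T})` which dies in
`H²(G, C_{L,T})` and has at most one nonzero local component is locally trivial. -/
def InjAt (T : Finset Nat.Primes) : Prop :=
  ∀ x : groupCohomology (repJ K L T) 2, toCMap K L T 2 x = 0 →
    ∀ (q₀ : T) (v₀ : MaximalSpectrum (SemiLocal K q₀.1)),
      (∀ (q : T) (v : MaximalSpectrum (SemiLocal K q.1)),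
        (⟨q, v⟩ : (q : T) × MaximalSpectrum (SemiLocal K q.1)) ≠ ⟨q₀, v₀⟩ →
          projMap K L T q v 2 x = 0) →
      projMap K L T q₀ v₀ 2 x = 0

/-! ### Statements -/

/-- **SLD** (semi-local decomposition): `Hⁿ(G, J_{L,T}) = ∏_{v ∣ T} Hⁿ(G, (K_v ⊗_K L)ˣ)`; here:
the family of components is injective, and every single local class is the only nonzero
component of some class.  (`ℚ_q ⊗ L = ∏_{v ∣ q} (ℚ_q ⊗ L)/𝔪_v`, a `G`-equivariant decomposition:
`ℚ_q ⊗ K` is a finite product of fields.) -/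
def Stmt_SLD : Prop :=
  ∀ (K L : Type) [Field K] [Field L] [NumberField K] [NumberField L] [Algebra K L]
    (T : Finset Nat.Primes) (n : ℕ),
    (∀ x : groupCohomology (repJ K L T) n,
      (∀ (q : T) (v : MaximalSpectrum (SemiLocal K q.1)), projMap K L T q v n x = 0) → x = 0) ∧
    ∀ (q₀ : T) (v₀ : MaximalSpectrum (SemiLocal K q₀.1))
      (b : groupCohomology (repJv K L ⟨q₀.1, v₀⟩) n),
      ∃ x : groupCohomology (repJ K L T) n, projMap K L T q₀ v₀ n x = b ∧
        ∀ (q : T) (v : MaximalSpectrum (SemiLocal K q.1)),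
          (⟨q, v⟩ : (q : T) × MaximalSpectrum (SemiLocal K q.1)) ≠ ⟨q₀, v₀⟩ →
            projMap K L T q v n x = 0

/-- **VAL-b** (functoriality): the local component at `v ∣ T` of the image in `Hⁿ(G, Lˣ)` of a
class of `Hⁿ(G, O_{L,T}ˣ)` is the `v`-component of its image in `Hⁿ(G, J_{L,T})`. -/
def Stmt_LocUnits : Prop :=
  ∀ (K L : Type) [Field K] [Field L] [NumberField K] [NumberField L] [Algebra K L]
    (T : Finset Nat.Primes) (n : ℕ) (q : T) (v : MaximalSpectrum (SemiLocal K q.1))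
    (e : groupCohomology (repE K L T) n),
    locMap K L ⟨q.1, v⟩ n (unitsMap K L T n e) = projMap K L T q v n (diagMap K L T n e)

/-- **VAL-a** (valuation sequence, exactness): for admissible `T`, a class of `H²(G, Lˣ)` which
is locally trivial at all places outside `T` comes from `H²(G, O_{L,T}ˣ)`.
(`1 → O_{L,T}ˣ → Lˣ → I^T → 1`, `I^T` the divisors outside `T`, onto since `Cl_T(L) = 1`;
`H²(G, I^T) = ⊕_{v ∉ T} H²(G, ⊕_{w ∣ v} ℤ)` and the valuation `Lˣ → ⊕_{w ∣ v} ℤ` factors through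
`(K_v ⊗_K L)ˣ`.) -/
def Stmt_ValExact : Prop :=
  ∀ (p : ℕ) (K L : Type) [Field K] [Field L] [NumberField K] [NumberField L] [Algebra K L]
    (T : Finset Nat.Primes), Admissible K L T p →
    ∀ x : groupCohomology (repL K L) 2,
      (∀ v : Place K, v.1 ∉ T → locMap K L v 2 x = 0) →
      ∃ e : groupCohomology (repE K L T) 2, unitsMap K L T 2 e = x

/-- **VAL-c** (units at unramified places): for admissible `T`, the image of
`H²(G, O_{L,T}ˣ)` in `H²(G, Lˣ)` is locally trivial at all places outside `T`.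
(`H²(G_w, O_wˣ) = 0` for unramified `L_w/K_v`: the decomposition group is cyclic, units are
norms by LOC-2b.) -/
def Stmt_UnitsUnram : Prop :=
  ∀ (p : ℕ) (K L : Type) [Field K] [Field L] [NumberField K] [NumberField L] [Algebra K L]
    (T : Finset Nat.Primes), Admissible K L T p →
    ∀ (e : groupCohomology (repE K L T) 2) (v : Place K), v.1 ∉ T →
      locMap K L v 2 (unitsMap K L T 2 e) = 0

/-- **VAL-d** (`H³`): for admissible `T`, `H³(G, O_{L,T}ˣ) → H³(G, Lˣ)` is onto.
(`H³(G, I^T) = ⊕ H³(G_w, ℤ) = 0` because the decomposition groups outside `T` are cyclic.) -/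
def Stmt_ValH3 : Prop :=
  ∀ (p : ℕ) (K L : Type) [Field K] [Field L] [NumberField K] [NumberField L] [Algebra K L]
    (T : Finset Nat.Primes), Admissible K L T p →
    ∀ x : groupCohomology (repL K L) 3, ∃ e : groupCohomology (repE K L T) 3,
      unitsMap K L T 3 e = x

/-- **SHL** (Shapiro + local class field theory in semi-local form): for a Galois `p`-extension
`L/K` (`ζ_p ∈ K`) and every finite place `v` of `K`:
`H¹(G, (K_v ⊗_K L)ˣ) = 0`, `H²(G, (K_v ⊗_K L)ˣ)` is finite cyclic of order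
`[L : K] / #{places of L above v}` (the local degree), and `H³(G, (K_v ⊗_K L)ˣ) = 0`.
(`(K_v ⊗_K L)ˣ = Ind_{D_w}^G L_wˣ`; Hilbert 90; LOC-4; TN-2.) -/
def Stmt_SHL : Prop :=
  ∀ (p m : ℕ) (K L : Type) [Field K] [Field L] [NumberField K] [NumberField L] [Algebra K L],
    Hyp3 K L p m → ∀ v : Place K,
      Subsingleton (groupCohomology (repJv K L v) 1) ∧
      Finite (groupCohomology (repJv K L v) 2) ∧
      Nat.card (groupCohomology (repJv K L v) 2) * Nat.card (MaximalSpectrum (LocAlg K L v)) =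
        Module.finrank K L ∧
      (∃ g : groupCohomology (repJv K L v) 2,
        ∀ x : groupCohomology (repJv K L v) 2, ∃ n : ℤ, x = n • g) ∧
      Subsingleton (groupCohomology (repJv K L v) 3)

/-- **SHL-inf** (local inflation is injective in degree 2, Hilbert 90): for a tower
`K ⊆ L ⊆ N` of finite Galois extensions and every place `v` of `K`. -/
def Stmt_InfJvInj : Prop :=
  ∀ (K L N : Type) [Field K] [Field L] [Field N] [NumberField K] [NumberField L] [NumberField N]
    [Algebra K L] [Algebra K N] [Algebra L N] [IsScalarTower K L N] [Normal K L],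
    IsGalois K L → IsGalois K N → ∀ v : Place K,
      Function.Injective (infJv K L N v 2)

/-- **GoodT** (= INJ + CF-G' in the form that is used by the exports): for a Galois
`p`-extension `L/K` (`p` odd, `ζ_p ∈ K`), every finite set `T₀` of primes and every `M₀` there are
`M ≥ M₀` and `T ⊇ T₀` such that, with `N = L(ζ_{p^M})`: `Hyp2 K L T p m M`, and both `(K, L, T)`
and `(K, N, T)` are class formations with local–global injectivity.
(Route: NOTES/plan/S55_BR.md §2; the places above `p` need `Stmt_LocalThetaOnto`.) -/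
def Stmt_GoodT : Prop :=
  ∀ (p m : ℕ) (K L : Type) [Field K] [Field L] [NumberField K] [NumberField L] [Algebra K L]
    (_ : Hyp3 K L p m) (T₀ : Finset Nat.Primes) (M₀ : ℕ),
    ∃ (M : ℕ) (_ : NeZero (p ^ M)) (T : Finset Nat.Primes),
      M₀ ≤ M ∧ T₀ ⊆ T ∧ Hyp2 K L T p m M ∧
      IsClassFormation K L T ∧ InjAt K L T ∧
      IsClassFormation K (CyclotomicField (p ^ M) L) T ∧ InjAt K (CyclotomicField (p ^ M) L) T

/-- **The local input at the places above `p`** (island LOC): let `F` be a finite extension of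
`ℚ_p`, `p` odd, with `ζ_{p^c} ∈ F`, `c ≥ 1`, and `ζ_{p^{c+1}} ∉ F`.  Then the unit part of some norm
`N_{F/ℚ_p}(b)` is `≢ 1 mod p^{c+1}`.  (Equivalently: `N_{F/F₁} Fˣ ⊄ N_{E₀/F₁} E₀ˣ` for
`F₁ = ℚ_p(ζ_{p^c})`, `E₀ = F₁(ζ_{p^{c+1}})`: norm limitation.  Routes: NOTES/plan/S55_BR.md §3.) -/
def Stmt_LocalThetaOnto : Prop :=
  ∀ (p : Nat.Primes) (c : ℕ) (F : Type) [Field F] [Algebra (Qp p) F]
    [FiniteDimensional (Qp p) F], (p : ℕ) ≠ 2 → 1 ≤ c →
    (∃ ζ : F, IsPrimitiveRoot ζ ((p : ℕ) ^ c)) →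
    (¬ ∃ ζ : F, IsPrimitiveRoot ζ ((p : ℕ) ^ (c + 1))) →
    ∃ b : Fˣ, thetaLoc p (c + 1) p (Units.map (Algebra.norm (Qp p) : F →* Qp p) b) ≠ 1

end Fermat.Agent.S55.CFT
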