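/-
S55 package E4, island GLB, wave 3, part 2: the leaves of the route to `Stmt_BrOne` and
`Stmt_BrTwo` WITHOUT class formation, and of `Stmt_BrH3`.
Owner-planner: helper62.  Routes: NOTES/plan/S55_BR.md §5 (this file supersedes `Stmt_GoodT`).

Route to BR-One (`x ∈ H²(Gal(L/K), Lˣ)` with at most one nonzero local component, at `v₀`):
multiply `x` until the component has order `p`; `N = L(ζ_{p^M})`, `L' = K(ζ_{p^M}) ⊆ N` with `p`
dividing the local degree of `L'/K` at `v₀` (`Stmt_DegGrow`); `res_{N/L'} inf x` is locally trivial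
(`Stmt_LocSplit`), hence zero (`Stmt_BrHasse` for `N/L'`), hence `inf x = inf x'`,
`x' ∈ H²(Gal(L'/K), L'ˣ)` (`Stmt_InfResL`); `x' = cyc a`, `a ∈ Kˣ` (`Stmt_CycClass`), `a` is a local
norm at all `v ≠ v₀` (`Stmt_InfJvInj`); for an admissible `T` with `a ∈ O_{K,T}ˣ` the idele
`(a at v₀, 1 elsewhere)` is in `E_K · N J_{L'}` `= ker θ` (`Stmt_CycRec`), so `a` is a local norm at
`v₀` (`Stmt_THL`).
-/
import Fermat.Agent.S55.CFT.Defs_BR2

set_option autoImplicit false

open NumberField TensorProduct CategoryTheory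

noncomputable section

namespace Fermat.Agent.S55.CFT

/-! ### Restriction to `Gal(N/L)` and inflation of the units -/

section tower

variable (K L N : Type) [Field K] [Field L] [Field N] [NumberField K] [NumberField L]
  [NumberField N] [Algebra K L] [Algebra K N] [Algebra L N] [IsScalarTower K L N]

/-- The inclusion `Gal(N/L) → Gal(N/K)`. -/
abbrev galRes : (N ≃ₐ[L] N) →* (N ≃ₐ[K] N) := AlgEquiv.restrictScalarsHom K

/-- The identity of `Nˣ` as a morphism from the restriction of the `Gal(N/K)`-module `Nˣ` to the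
`Gal(N/L)`-module `Nˣ`. -/
def resRepL : Rep.res (galRes K L N) (repL K N) ⟶ repL L N :=
  Rep.ofHom (LinearMap.intertwiningMap_of_isIntertwiningMap _ _
    ((MonoidHom.id Nˣ).toAdditive.toIntLinearMap)
    (fun _ _ => rfl))

/-- Restriction `Hⁿ(Gal(N/K), Nˣ) → Hⁿ(Gal(N/L), Nˣ)`. -/
def resL (n : ℕ) : groupCohomology (repL K N) n →ₗ[ℤ] groupCohomology (repL L N) n :=
  (groupCohomology.map (galRes K L N) (resRepL K L N) n).hom

end tower

variable (K L : Type) [Field K] [Field L] [NumberField K] [NumberField L] [Algebra K L]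

/-- `β ∈ K_vˣ` is a local norm from `K_v ⊗_K L`: its image in `(K_v ⊗_K L)ˣ` is `∏_{σ ∈ G} σ y`.
(`K_v = (ℚ_q ⊗ K)/𝔪_v = LocAlg K K v`.) -/
def IsLocNorm (v : Place K) (β : (LocAlg K K v)ˣ) : Prop :=
  ∃ y : (LocAlg K L v)ˣ, ∏ᶠ σ : L ≃ₐ[K] L, σ • y =
    Units.map (locAlgTower K K L v : LocAlg K K v →* LocAlg K L v) β

/-! ### Statements -/

/-- **INF-RES** (inflation–restriction for `Nˣ`, Hilbert 90): for a tower `K ⊆ L ⊆ N` of finite
Galois extensions, a class of `H²(Gal(N/K), Nˣ)` which dies in `H²(Gal(N/L), Nˣ)` is inflated from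
`H²(Gal(L/K), Lˣ)`.  (helper24's `H24_InfRes2`, Mathlib `groupCohomology.H1ofAutOnUnitsUnique`.) -/
def Stmt_InfResL : Prop :=
  ∀ (K L N : Type) [Field K] [Field L] [Field N] [NumberField K] [NumberField L] [NumberField N]
    [Algebra K L] [Algebra K N] [Algebra L N] [IsScalarTower K L N] [Normal K L],
    IsGalois K L → IsGalois K N →
    ∀ x : groupCohomology (repL K N) 2, resL K L N 2 x = 0 →
      ∃ x' : groupCohomology (repL K L) 2, infL K L N 2 x' = x

/-- **LOC-SPLIT** (a local class of order `p` is split by a local degree divisible by `p`): for a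
tower `K ⊆ L ⊆ N`, `N/K` a Galois `p`-extension (`ζ_p ∈ K`), `L/K` Galois, `v` a place of `K` at
which the local degree of `L/K` is divisible by `p`, and `u` a place of `L` above `v`: if the
`v`-component of `x ∈ H²(Gal(N/K), Nˣ)` is killed by `p`, then the `u`-component of the
restriction of `x` to `Gal(N/L)` is zero.
(Local inflation–restriction; `H²` of the local extension is cyclic: `Stmt_SHL`.) -/
def Stmt_LocSplit : Prop :=
  ∀ (p m : ℕ) (K L N : Type) [Field K] [Field L] [Field N] [NumberField K] [NumberField L]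
    [NumberField N] [Algebra K L] [Algebra K N] [Algebra L N] [IsScalarTower K L N],
    Hyp3 K N p m → IsGalois K L →
    ∀ (q : Nat.Primes) (v : MaximalSpectrum (SemiLocal K q)) (u : MaximalSpectrum (SemiLocal L q)),
      u.asIdeal.comap (semiLocalMap K L q) = v.asIdeal →
      p * Nat.card (MaximalSpectrum (LocAlg K L ⟨q, v⟩)) ∣ Module.finrank K L →
      ∀ x : groupCohomology (repL K N) 2, p • locMap K N ⟨q, v⟩ 2 x = 0 →
        locMap L N ⟨q, u⟩ 2 (resL K L N 2 x) = 0

/-- **CYC-CLASS** (cyclic classes): for `L/K` Galois with cyclic group there are multiplicative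
surjections `cyc : Kˣ → H²(G, Lˣ)` and `cycv v : K_vˣ → H²(G, (K_v ⊗_K L)ˣ)` (classes of the cyclic
cocycles `c_a(σ^i, σ^j) = a^{⌊(i+j)/n⌋}`), compatible with localisation, and `cycv v β = 0` iff
`β` is a local norm.  (helper68 LOC-4d / helper13 `H13_FundCyc`; `(K_v ⊗_K L)^G = K_v`.) -/
def Stmt_CycClass : Prop :=
  ∀ (K L : Type) [Field K] [Field L] [NumberField K] [NumberField L] [Algebra K L],
    IsGalois K L → IsCyclic (L ≃ₐ[K] L) →
    ∃ (cyc : Kˣ → groupCohomology (repL K L) 2)
      (cycv : ∀ v : Place K, (LocAlg K K v)ˣ → groupCohomology (repJv K L v) 2),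
      (∀ a b, cyc (a * b) = cyc a + cyc b) ∧ Function.Surjective cyc ∧
      (∀ v : Place K, (∀ α β, cycv v (α * β) = cycv v α + cycv v β) ∧
        Function.Surjective (cycv v) ∧ ∀ β, cycv v β = 0 ↔ IsLocNorm K L v β) ∧
      ∀ (v : Place K) (a : Kˣ), locMap K L v 2 (cyc a) = cycv v (locHom K K v a)

/-- **THL** (the local cyclotomic symbol): `L = K(ζ_{p^M})`, `p` odd, `ζ_p ∈ K`, `v₀` a place of `K`
over `q₀ ∈ T`.  For ideles `x` of `K` supported at `v₀`:
(ker) `θ(x) = 1` implies that the `v₀`-component of `x` is a local norm from `K_{v₀} ⊗_K L`;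
(im)  every `t ∈ (ℤ/p^M)ˣ` with `t ^ d = 1`, `d` the local degree of `L/K` at `v₀`, is `θ(x)` for
some `x` supported at `v₀`.
(`v₀ ∤ p`: `θ(x) = (N v₀)^{v₀(x)}`, elementary; `v₀ ∣ p`: `Stmt_LocalThetaOnto`; local norms are in
the kernel by TH-2 + NT; the local norm index is `d` by LOC-3 / `Stmt_SHL`.) -/
def Stmt_THL : Prop :=
  ∀ (p : Nat.Primes) (M : ℕ) (K L : Type) [Field K] [Field L] [NumberField K] [NumberField L]
    [Algebra K L] (T : Finset Nat.Primes), (p : ℕ) ≠ 2 → (∃ ζ : K, IsPrimitiveRoot ζ (p : ℕ)) →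
    IsCyclotomicExtension {(p : ℕ) ^ M} K L →
    ∀ (q₀ : T) (v₀ : MaximalSpectrum (SemiLocal K q₀.1)),
      (∀ x : IdeleT K T,
        (∀ (q : T) (v : MaximalSpectrum (SemiLocal K q.1)),
          (⟨q, v⟩ : (q : T) × MaximalSpectrum (SemiLocal K q.1)) ≠ ⟨q₀, v₀⟩ →
            projIdele K K T q v x = 1) →
        cycloTheta K p M T x = 1 → IsLocNorm K L ⟨q₀.1, v₀⟩ (projIdele K K T q₀ v₀ x)) ∧
      ∀ (d : ℕ) (t : (ZMod ((p : ℕ) ^ M))ˣ),
        d * Nat.card (MaximalSpectrum (LocAlg K L ⟨q₀.1, v₀⟩)) = Module.finrank K L →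
        t ^ d = 1 →
        ∃ x : IdeleT K T,
          (∀ (q : T) (v : MaximalSpectrum (SemiLocal K q.1)),
            (⟨q, v⟩ : (q : T) × MaximalSpectrum (SemiLocal K q.1)) ≠ ⟨q₀, v₀⟩ →
              projIdele K K T q v x = 1) ∧
          cycloTheta K p M T x = t

/-- **DEG-GROW** (local degrees grow in the cyclotomic tower): for a place `v` of `K`
(`ζ_p ∈ K`) and every `k` there is `M₀` such that for `M ≥ M₀` the local degree of `K(ζ_{p^M})/K`
at `v` is divisible by `p ^ k`. -/
def Stmt_DegGrow : Prop :=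
  ∀ (p k : ℕ) (K : Type) [Field K] [NumberField K], p.Prime →
    (∃ ζ : K, IsPrimitiveRoot ζ p) → ∀ v : Place K, ∃ M₀ : ℕ, ∀ M : ℕ, M₀ ≤ M →
      ∀ (L : Type) [Field L] [NumberField L] [Algebra K L], IsCyclotomicExtension {p ^ M} K L →
        p ^ k * Nat.card (MaximalSpectrum (LocAlg K L v)) ∣ Module.finrank K L

/-- **LOC-INF-IMAGE**: `K ⊆ L ⊆ N` and `K ⊆ L' ⊆ N` towers of Galois `p`-extensions (`ζ_p ∈ K`);
if `[L : K]` divides the local degree of `L'/K` at `v`, every local class of `L/K` at `v` becomes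
in `N` the inflation of a local class of `L'/K`.  (`H²` of the local extension of `N/K` is cyclic
and local inflation is injective: `Stmt_SHL`, `Stmt_InfJvInj`.) -/
def Stmt_LocInfImage : Prop :=
  ∀ (p m : ℕ) (K L L' N : Type) [Field K] [Field L] [Field L'] [Field N] [NumberField K]
    [NumberField L] [NumberField L'] [NumberField N] [Algebra K L] [Algebra K L'] [Algebra K N]
    [Algebra L N] [Algebra L' N] [IsScalarTower K L N] [IsScalarTower K L' N] [Normal K L]
    [Normal K L'],
    Hyp3 K N p m → IsGalois K L → IsGalois K L' → ∀ v : Place K,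
      Module.finrank K L * Nat.card (MaximalSpectrum (LocAlg K L' v)) ∣ Module.finrank K L' →
      ∀ b : groupCohomology (repJv K L v) 2, ∃ b' : groupCohomology (repJv K L' v) 2,
        infJv K L N v 2 b = infJv K L' N v 2 b'

/-- **UNR-NORM** (units are norms at unramified places): for admissible `T`, a `T`-unit of `K` is a
local norm from `L` at every place outside `T`.  (LOC-2b.) -/
def Stmt_UnrNorm : Prop :=
  ∀ (p : ℕ) (K L : Type) [Field K] [Field L] [NumberField K] [NumberField L] [Algebra K L]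
    (T : Finset Nat.Primes), Admissible K L T p →
    ∀ e : Kˣ, e ∈ TUnits K T → ∀ v : Place K, v.1 ∉ T → IsLocNorm K L v (locHom K K v e)

/-! ### `H³` of the units -/

section towerE

variable (N : Type) [Field N] [NumberField N] [Algebra K N] [Algebra L N] [IsScalarTower K L N]

omit [NumberField K] [NumberField L] [NumberField N] [Algebra K L] [Algebra K N]
  [IsScalarTower K L N] in
lemma algebraMap_mem_TUnits (T : Finset Nat.Primes) {x : Lˣ} (hx : x ∈ TUnits L T) :
    Units.map (algebraMap L N : L →* N) x ∈ TUnits N T := by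
  obtain ⟨n, h1, h2⟩ := hx
  refine ⟨n, ?_, ?_⟩
  · have := h1.map (Algebra.ofId L N).toRingHom.toIntAlgHom
    simpa using this
  · have := h2.map (Algebra.ofId L N).toRingHom.toIntAlgHom
    simpa using this

/-- `O_{L,T}ˣ → O_{N,T}ˣ`. -/
def tUnitsMap (T : Finset Nat.Primes) : TUnits L T →* TUnits N T where
  toFun x := ⟨Units.map (algebraMap L N : L →* N) x, algebraMap_mem_TUnits L N T x.2⟩
  map_one' := by
    apply Subtype.ext
    simp
  map_mul' x y := by
    apply Subtype.ext
    simp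

variable [Normal K L]

/-- Inflation `O_{L,T}ˣ → O_{N,T}ˣ` as a morphism of `Gal(N/K)`-modules. -/
def infRepE (T : Finset Nat.Primes) :
    Rep.res (AlgEquiv.restrictNormalHom (F := K) (K₁ := N) L) (repE K L T) ⟶ repE K N T :=
  Rep.ofHom (LinearMap.intertwiningMap_of_isIntertwiningMap _ _
    ((tUnitsMap L N T).toAdditive.toIntLinearMap)
    (fun τ x => congrArg Additive.ofMul (Subtype.ext
      (algebraMap_units_smul K L N τ ((Additive.toMul x : TUnits L T) : Lˣ)))))

/-- Inflation `Hⁿ(Gal(L/K), O_{L,T}ˣ) → Hⁿ(Gal(N/K), O_{N,T}ˣ)`. -/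
def infE (T : Finset Nat.Primes) (n : ℕ) :
    groupCohomology (repE K L T) n →ₗ[ℤ] groupCohomology (repE K N T) n :=
  (groupCohomology.map (AlgEquiv.restrictNormalHom (F := K) (K₁ := N) L) (infRepE K L N T) n).hom

end towerE

/-- **H3-UNITS** (`H³` of the `T`-units dies in the cyclotomic tower): under `Hyp2 K L T p m M`,
inflation `H³(Gal(L/K), O_{L,T}ˣ) → H³(Gal(L(ζ_{p^M})/K), O_{L(ζ),T}ˣ)` is zero.
(`H³(G, J) = 0` (`Stmt_SHL`, `Stmt_SLD`), so every class is `δ c`, `c ∈ H²(G, C_L)`;
`c = n γ` (`Stmt_CFp'`); by the construction of `γ` in FUND, `inf γ` is the image of a cyclic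
cocycle with values in `J_N`, so `δ (inf γ) = 0`; naturality of `δ`.) -/
def Stmt_H3Units : Prop :=
  ∀ (p m M : ℕ) [NeZero (p ^ M)] (K L : Type) [Field K] [Field L] [NumberField K] [NumberField L]
    [Algebra K L] (T : Finset Nat.Primes) (h : Hyp2 K L T p m M),
    haveI : Normal K L := h.adm.gal.to_normal
    ∀ e : groupCohomology (repE K L T) 3, infE K L (CyclotomicField (p ^ M) L) T 3 e = 0

end Fermat.Agent.S55.CFT
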