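/-
S55 package E4, island GS, wave 2 (coordinator: helper24): LAYER A = the exports of the global
theory in GENERAL-GALOIS form (abstract number fields, language of `Defs_BR.lean`).
Plan: NOTES/plan/S55_GS.md §6.

The leaves `Stmt_GS_Hasse/One/Two/H3/DivBr/ResOnto` of `Defs_GS.lean` concern `G_S`, i.e. ARBITRARY
finite Galois extensions `L/K` unramified outside `S`, while `Stmt_BrHasse/One/Two/H3`
(`Defs_BR.lean`) are for `p`-extensions.  Layer A closes this gap inside the abstract language:
* Sylow: `K' = L^P`, `P` a `p`-Sylow subgroup of `Gal(L/K)`; `res` to `Gal(L/K')` is injective on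
  `p`-primary classes (`Stmt_CorRes`); `L/K'` is a `p`-extension;
* splitting: a `p`-primary class of `H²(Gal(L/K), Lˣ)` with finitely many nonzero local components
  becomes, in `N = L(ζ_{p^M})`, the inflation of a class of the CYCLIC `p`-extension
  `L' = K(ζ_{p^M})` of `K` (`Stmt_DegGrow`, local splitting, Hasse for `N/L'`, `Stmt_InfResL`).
Existence statements are in the form "for all `M ≥ M₀` and ALL models `N` of `L(ζ_{p^M})`", so that
the bridge to `ℚ̄` (Layer B, `Defs_GS3.lean`) can take `N` inside `ℚ̄`.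

Owners prove `theorem … : Stmt_X` or `hyps → Stmt_X` (hyps = statements of `Defs_BR*.lean`,
`Defs_CF.lean`, `Defs_LOC.lean`) in `Fermat/Agent/S55/CFT/GS/H<seat>_*.lean`.
-/
import Fermat.Agent.S55.CFT.Defs_BR3

set_option autoImplicit false

open NumberField TensorProduct CategoryTheory

noncomputable section

namespace Fermat.Agent.S55.CFT.GS

open Fermat.Agent.S55.CFT

/-- The standing hypotheses of Layer A: `p` odd, `ζ_p ∈ K`, `L/K` finite Galois (ANY group). -/
structure HypG (K L : Type) [Field K] [Field L] [NumberField K] [NumberField L] [Algebra K L]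
    (p : ℕ) : Prop where
  prime : p.Prime
  odd : p ≠ 2
  zeta : ∃ ζ : K, IsPrimitiveRoot ζ p
  gal : IsGalois K L

/-- **A-Hasse** (Hasse principle, general Galois, `p`-primary classes): a `p`-primary class of
`H²(Gal(L/K), Lˣ)` which is locally trivial at all finite places is trivial.
(`Stmt_BrHasse` for `L/L^P` + `Stmt_CorRes`; restriction commutes with localisation: for a place
`u` of `K' = L^P` over `v`, `LocAlg K' L u` is a `Gal(L/K')`-equivariant quotient of
`LocAlg K L v`.) -/
def Stmt_BrHasseG : Prop :=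
  ∀ (p : ℕ) (K L : Type) [Field K] [Field L] [NumberField K] [NumberField L] [Algebra K L],
    HypG K L p → ∀ (k : ℕ) (x : groupCohomology (repL K L) 2), ((p : ℤ) ^ k) • x = 0 →
      (∀ v : Place K, locMap K L v 2 x = 0) → x = 0

/-- **A-One** (weak reciprocity, general Galois): a `p`-primary class of `H²(Gal(L/K), Lˣ)` with at
most one nonzero local component is locally trivial.
(Reduce to `p x = 0` by induction on `k` with A-Hasse.  `M` with `p ∣` local degree of
`L' = K(ζ_{p^M})` at `v₀` (`Stmt_DegGrow`), `N = L(ζ_{p^M})`; `res_{N/L'} inf x` is locally trivial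
(at the places over `v₀` by local splitting: `LOC.Stmt_BrauerPTors` / `Stmt_LocSplit` in general
form; elsewhere by restriction), hence `0` (A-Hasse for `N/L'`), hence `inf x = inf x'`,
`x' ∈ H²(Gal(L'/K), L'ˣ)` (`Stmt_InfResL`); `L'/K` is a cyclic `p`-extension: `Stmt_BrOne`;
`Stmt_InfJvInj`.) -/
def Stmt_BrOneG : Prop :=
  ∀ (p : ℕ) (K L : Type) [Field K] [Field L] [NumberField K] [NumberField L] [Algebra K L],
    HypG K L p → ∀ (k : ℕ) (x : groupCohomology (repL K L) 2) (v₀ : Place K),
      ((p : ℤ) ^ k) • x = 0 →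
      (∀ v : Place K, v ≠ v₀ → locMap K L v 2 x = 0) → locMap K L v₀ 2 x = 0

/-- **A-Two** (existence): for two places `v₁ ≠ v₂` of `K` (`ζ_p ∈ K`) and all large `M`, every
model `N` of `K(ζ_{p^M})` carries a class `x ∈ H²(Gal(N/K), Nˣ)` with `p x = 0`, nonzero
`v₁`-component and zero components outside `{v₁, v₂}`.
(`Stmt_BrTwo` with `L = K(ζ_{p^{M₁}})`, `p ∣` local degree at `v₁` (`Stmt_DegGrow`), `b` of order
`p` (`Stmt_SHL`); `loc_{v₁} x = inf b ≠ 0` (`Stmt_InfJvInj`); `p x` is locally trivial outside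
`v₂`, hence everywhere (`Stmt_BrOne`), hence `0` (`Stmt_BrHasse`); larger `M`: inflate; other
models: transport along the isomorphism of cyclotomic extensions.) -/
def Stmt_BrTwoG : Prop :=
  ∀ (p : ℕ) (K : Type) [Field K] [NumberField K], p.Prime → p ≠ 2 →
    (∃ ζ : K, IsPrimitiveRoot ζ p) → ∀ v₁ v₂ : Place K, v₁ ≠ v₂ →
    ∃ M₀ : ℕ, ∀ M : ℕ, M₀ ≤ M → ∀ (N : Type) [Field N] [NumberField N] [Algebra K N],
      IsCyclotomicExtension {p ^ M} K N →
      ∃ x : groupCohomology (repL K N) 2, (p : ℤ) • x = 0 ∧ locMap K N v₁ 2 x ≠ 0 ∧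
        ∀ v : Place K, v ≠ v₁ → v ≠ v₂ → locMap K N v 2 x = 0

/-- **A-H3** (`H³` dies in the cyclotomic tower, general Galois, `p`-primary classes).
(`K' = L^P`; `Stmt_BrH3` for `L/K'` kills `res x` in `N = L(ζ_{p^M})`; `N/K'` is a `p`-extension
and `[K' : K]` is prime to `p`, so `res : H³(Gal(N/K), Nˣ) → H³(Gal(N/K'), Nˣ)` is injective on
`p`-primary classes (`Stmt_CorRes`); `res ∘ inf = inf ∘ res`.) -/
def Stmt_BrH3G : Prop :=
  ∀ (p : ℕ) (K L : Type) [Field K] [Field L] [NumberField K] [NumberField L] [Algebra K L]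
    (h : HypG K L p),
    haveI : Normal K L := h.gal.to_normal
    ∃ M₀ : ℕ, ∀ M : ℕ, M₀ ≤ M → ∀ (N : Type) [Field N] [NumberField N] [Algebra K N]
      [Algebra L N] [IsScalarTower K L N], IsGalois K N → IsCyclotomicExtension {p ^ M} L N →
      ∀ (k : ℕ) (x : groupCohomology (repL K L) 3), ((p : ℤ) ^ k) • x = 0 →
        infL K L N 3 x = 0

/-- **A-Div** (`H²` is `p`-divisible in the cyclotomic tower, general Galois): for every class
`x ∈ H²(Gal(L/K), Lˣ)` and all large `M`, `inf x = p z` in every model `N` of `L(ζ_{p^M})`.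
(The prime-to-`p` part of `x` is divisible by `p`.  `p`-primary part: it has finitely many nonzero
local components (`Stmt_AdmissibleExists` + `Stmt_UnitsUnram`); split it by `L' = K(ζ_{p^M})`
(as in A-One): `inf x = inf x'`, `x' ∈ H²(Gal(L'/K), L'ˣ)`, `L'/K` cyclic; then either the
inflation formula for cyclic cocycles (`inf_{L' → L''} cyc_{L'}(a) = [L'' : L'] cyc_{L''}(a)`), or:
local divisibility (`Stmt_SHL`, `Stmt_InfJvInj`, `Stmt_DegGrow`) + `Stmt_BrTwo` at each place with
nonzero component + `Stmt_BrOne` + `Stmt_BrHasse`.) -/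
def Stmt_BrDivG : Prop :=
  ∀ (p : ℕ) (K L : Type) [Field K] [Field L] [NumberField K] [NumberField L] [Algebra K L]
    (h : HypG K L p),
    haveI : Normal K L := h.gal.to_normal
    ∀ x : groupCohomology (repL K L) 2,
    ∃ M₀ : ℕ, ∀ M : ℕ, M₀ ≤ M → ∀ (N : Type) [Field N] [NumberField N] [Algebra K N]
      [Algebra L N] [IsScalarTower K L N], IsGalois K N → IsCyclotomicExtension {p ^ M} L N →
      ∃ z : groupCohomology (repL K N) 2, (p : ℤ) • z = infL K L N 2 x

end Fermat.Agent.S55.CFT.GS

end
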