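/-
S55 package E4, island GLB, wave 3: naturality of the local components.  Owner: helper56.

For a tower `K ⊆ L ⊆ N`:
* `locMap_infL`: `loc_v ∘ inf = inf_v ∘ loc_v` (inflation `L → N`);
* `locAlgRes`, `resRepJv`, `resJv`: for a place `u` of `L` above the place `v` of `K`, the
  projection `K_v ⊗_K N → L_u ⊗_L N` and the induced restriction
  `Hⁿ(Gal(N/K), (K_v ⊗ N)ˣ) → Hⁿ(Gal(N/L), (L_u ⊗ N)ˣ)`;
* `locMap_resL`: `loc_u ∘ res = res_{u ∣ v} ∘ loc_v`;
* `placeBelow`: the place of `K` below a place of `L`.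
-/
import Fermat.Agent.S55.CFT.Defs_BR3

set_option autoImplicit false
set_option linter.style.haveILetI false

open NumberField TensorProduct CategoryTheory

noncomputable section
namespace Fermat.Agent.S55.CFT.H56

open Fermat.Agent.S55.CFT groupCohomology

variable (K L N : Type) [Field K] [Field L] [Field N] [NumberField K] [NumberField L]
  [NumberField N] [Algebra K L] [Algebra K N] [Algebra L N] [IsScalarTower K L N]

/-! ### Inflation -/

section inflation

variable [Normal K L]

lemma infRepL_locRep (v : Place K) :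
    infRepL K L N ≫ locRep K N v =
      (Rep.resFunctor (AlgEquiv.restrictNormalHom (F := K) (K₁ := N) L)).map (locRep K L v) ≫
        infRepJv K L N v := by
  ext x
  apply congrArg Additive.ofMul
  apply Units.ext
  change Ideal.Quotient.mk _ ((1 : Qp v.1) ⊗ₜ[ℚ] (algebraMap L N ((Additive.toMul x : Lˣ) : L))) =
    locAlgTower K L N v (Ideal.Quotient.mk _ ((1 : Qp v.1) ⊗ₜ[ℚ] ((Additive.toMul x : Lˣ) : L)))
  change _ = Ideal.Quotient.mk _ (semiLocalMap L N v.1 ((1 : Qp v.1) ⊗ₜ[ℚ] _))
  simp [semiLocalMap]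

/-- `loc_v ∘ inf = inf_v ∘ loc_v`. -/
theorem locMap_infL (v : Place K) (n : ℕ) (x : groupCohomology (repL K L) n) :
    locMap K N v n (infL K L N n x) = infJv K L N v n (locMap K L v n x) := by
  have h1 := groupCohomology.map_comp (A := repL K L) (B := repL K N) (C := repJv K N v)
    (AlgEquiv.restrictNormalHom (F := K) (K₁ := N) L) (MonoidHom.id _)
    (infRepL K L N) (locRep K N v) n
  have h2 := groupCohomology.map_comp (A := repL K L) (B := repJv K L v) (C := repJv K N v)
    (MonoidHom.id _) (AlgEquiv.restrictNormalHom (F := K) (K₁ := N) L)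
    (locRep K L v) (infRepJv K L N v) n
  have h3 : groupCohomology.map
      ((AlgEquiv.restrictNormalHom (F := K) (K₁ := N) L).comp (MonoidHom.id _))
      ((Rep.resFunctor (MonoidHom.id _)).map (infRepL K L N) ≫ locRep K N v) n =
    groupCohomology.map
      ((MonoidHom.id _).comp (AlgEquiv.restrictNormalHom (F := K) (K₁ := N) L))
      ((Rep.resFunctor (AlgEquiv.restrictNormalHom (F := K) (K₁ := N) L)).map (locRep K L v) ≫
        infRepJv K L N v) n := by
    apply groupCohomology.map_congr rfl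
    have := infRepL_locRep K L N v
    exact congrArg (fun f => f.hom.toLinearMap) this
  rw [h1, h2] at h3
  have h4 := congrArg (fun f => f.hom x) h3
  exact h4

end inflation

/-! ### Restriction -/

section restriction

variable (q : Nat.Primes) (v : MaximalSpectrum (SemiLocal K q))
  (u : MaximalSpectrum (SemiLocal L q))

lemma placeIdeal_le_of_comap (h : u.asIdeal.comap (semiLocalMap K L q) = v.asIdeal) :
    placeIdeal K N ⟨q, v⟩ ≤ placeIdeal L N ⟨q, u⟩ := by
  rw [placeIdeal, Ideal.map_le_iff_le_comap]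
  intro x hx
  rw [Ideal.mem_comap]
  change semiLocalMap K N q x ∈ _
  rw [← semiLocalMap_comp K L N q x]
  apply Ideal.mem_map_of_mem
  change semiLocalMap K L q x ∈ u.asIdeal
  rw [← Ideal.mem_comap, h]
  exact hx

/-- The projection `K_v ⊗_K N → L_u ⊗_L N` for `u ∣ v`. -/
def locAlgRes (h : u.asIdeal.comap (semiLocalMap K L q) = v.asIdeal) :
    LocAlg K N ⟨q, v⟩ →+* LocAlg L N ⟨q, u⟩ :=
  Ideal.Quotient.factor (placeIdeal_le_of_comap K L N q v u h)

lemma locAlgRes_mk (h : u.asIdeal.comap (semiLocalMap K L q) = v.asIdeal) (x : SemiLocal N q) :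
    locAlgRes K L N q v u h (Ideal.Quotient.mk _ x) = Ideal.Quotient.mk _ x := rfl

lemma semiLocalEquiv_restrictScalars (τ : N ≃ₐ[L] N) (x : SemiLocal N q) :
    semiLocalEquiv K N q (galRes K L N τ) x = semiLocalEquiv L N q τ x := by
  induction x using TensorProduct.induction_on with
  | zero => simp
  | tmul a b =>
    rw [semiLocalEquiv_tmul, semiLocalEquiv_tmul]
    rfl
  | add a b ha hb => simp only [map_add, ha, hb]

lemma locAlgRes_smul (h : u.asIdeal.comap (semiLocalMap K L q) = v.asIdeal) (τ : N ≃ₐ[L] N)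
    (x : LocAlg K N ⟨q, v⟩) :
    locAlgRes K L N q v u h (locAlgMap K N ⟨q, v⟩ (galRes K L N τ) x) =
      locAlgMap L N ⟨q, u⟩ τ (locAlgRes K L N q v u h x) := by
  obtain ⟨y, rfl⟩ := Ideal.Quotient.mk_surjective x
  rw [locAlgMap_mk, locAlgRes_mk, locAlgRes_mk, locAlgMap_mk,
    semiLocalEquiv_restrictScalars K L N q τ y]

/-- Restriction of the local components as a morphism of `Gal(N/L)`-modules. -/
def resRepJv (h : u.asIdeal.comap (semiLocalMap K L q) = v.asIdeal) :
    Rep.res (galRes K L N) (repJv K N ⟨q, v⟩) ⟶ repJv L N ⟨q, u⟩ :=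
  Rep.ofHom (LinearMap.intertwiningMap_of_isIntertwiningMap _ _
    ((Units.map (locAlgRes K L N q v u h : LocAlg K N ⟨q, v⟩ →* LocAlg L N ⟨q, u⟩)).toAdditive.toIntLinearMap)
    (fun τ x => congrArg Additive.ofMul (Units.ext
      (locAlgRes_smul K L N q v u h τ
        ((Additive.toMul x : (LocAlg K N ⟨q, v⟩)ˣ) : LocAlg K N ⟨q, v⟩)))))

/-- Restriction `Hⁿ(Gal(N/K), (K_v ⊗ N)ˣ) → Hⁿ(Gal(N/L), (L_u ⊗ N)ˣ)` for `u ∣ v`. -/
def resJv (h : u.asIdeal.comap (semiLocalMap K L q) = v.asIdeal) (n : ℕ) :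
    groupCohomology (repJv K N ⟨q, v⟩) n →ₗ[ℤ] groupCohomology (repJv L N ⟨q, u⟩) n :=
  (groupCohomology.map (galRes K L N) (resRepJv K L N q v u h) n).hom

lemma resRepL_locRep (h : u.asIdeal.comap (semiLocalMap K L q) = v.asIdeal) :
    resRepL K L N ≫ locRep L N ⟨q, u⟩ =
      (Rep.resFunctor (galRes K L N)).map (locRep K N ⟨q, v⟩) ≫ resRepJv K L N q v u h := by
  ext x
  rfl

/-- `loc_u ∘ res = res_{u ∣ v} ∘ loc_v`. -/
theorem locMap_resL (h : u.asIdeal.comap (semiLocalMap K L q) = v.asIdeal) (n : ℕ)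
    (x : groupCohomology (repL K N) n) :
    locMap L N ⟨q, u⟩ n (resL K L N n x) = resJv K L N q v u h n (locMap K N ⟨q, v⟩ n x) := by
  have h1 := groupCohomology.map_comp (A := repL K N) (B := repL L N) (C := repJv L N ⟨q, u⟩)
    (galRes K L N) (MonoidHom.id _) (resRepL K L N) (locRep L N ⟨q, u⟩) n
  have h2 := groupCohomology.map_comp (A := repL K N) (B := repJv K N ⟨q, v⟩)
    (C := repJv L N ⟨q, u⟩) (MonoidHom.id _) (galRes K L N)
    (locRep K N ⟨q, v⟩) (resRepJv K L N q v u h) n
  have h3 : groupCohomology.map ((galRes K L N).comp (MonoidHom.id _))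
      ((Rep.resFunctor (MonoidHom.id _)).map (resRepL K L N) ≫ locRep L N ⟨q, u⟩) n =
    groupCohomology.map ((MonoidHom.id _).comp (galRes K L N))
      ((Rep.resFunctor (galRes K L N)).map (locRep K N ⟨q, v⟩) ≫ resRepJv K L N q v u h) n := by
    apply groupCohomology.map_congr rfl
    have := resRepL_locRep K L N q v u h
    exact congrArg (fun f => f.hom.toLinearMap) this
  rw [h1, h2] at h3
  have h4 := congrArg (fun f => f.hom x) h3
  exact h4

/-- A class which is trivial at `v` restricts to a class which is trivial at every `u ∣ v`. -/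
theorem locMap_resL_eq_zero (h : u.asIdeal.comap (semiLocalMap K L q) = v.asIdeal) (n : ℕ)
    (x : groupCohomology (repL K N) n) (hx : locMap K N ⟨q, v⟩ n x = 0) :
    locMap L N ⟨q, u⟩ n (resL K L N n x) = 0 := by
  rw [locMap_resL K L N q v u h, hx, map_zero]

end restriction

/-! ### The place below -/

instance semiLocal_isArtinianRing (q : Nat.Primes) : IsArtinianRing (SemiLocal K q) :=
  IsArtinianRing.of_finite (Qp q) (SemiLocal K q)

/-- The place of `K` below a place of `L`. -/
def placeBelow (q : Nat.Primes) (u : MaximalSpectrum (SemiLocal L q)) :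
    MaximalSpectrum (SemiLocal K q) :=
  ⟨u.asIdeal.comap (semiLocalMap K L q),
    haveI : (u.asIdeal.comap (semiLocalMap K L q)).IsPrime :=
      Ideal.comap_isPrime (semiLocalMap K L q) u.asIdeal
    IsArtinianRing.isMaximal_of_isPrime _⟩

lemma placeBelow_asIdeal (q : Nat.Primes) (u : MaximalSpectrum (SemiLocal L q)) :
    u.asIdeal.comap (semiLocalMap K L q) = (placeBelow K L q u).asIdeal := rfl

end Fermat.Agent.S55.CFT.H56
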