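import Mathlib

/-!
# CFT package SHL-inf (helper58), part 2: Hilbert 90 for semi-local rings

Let a group `G` act on a commutative `ℚ`-algebra `B` with finitely many maximal ideals, `H` a
finite subgroup of `G` whose elements are pairwise distinct modulo every maximal ideal of `B`.
Then every 1-cocycle `H → Bˣ` is a coboundary.  (Poincaré series `∑ f(h) h(z)`; Dedekind's
independence of characters modulo each maximal ideal; a `ℚ`-vector space is not a finite union
of proper subspaces.)
-/

set_option autoImplicit false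
set_option linter.unusedSectionVars false

noncomputable section

namespace Fermat.Agent.S55.CFT.H58

section H90

variable {G : Type} [Group G] {B : Type} [CommRing B] [MulSemiringAction G B]
  (H : Subgroup G) [Finite H]

/-- The Poincaré series `z ↦ ∑_{h ∈ H} f(h) h(z)`. -/
def poincare [Fintype H] (f : G → B) : B →+ B :=
  ∑ h : H, (AddMonoidHom.mulLeft (f (h : G))).comp
    (MulSemiringAction.toRingHom G B (h : G) : B →+* B).toAddMonoidHom

lemma poincare_apply [Fintype H] (f : G → B) (z : B) :
    poincare H f z = ∑ h : H, f (h : G) * ((h : G) • z) := by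
  simp [poincare]

/-- Dedekind: the Poincaré series is not zero modulo a maximal ideal. -/
lemma exists_poincare_notMem [Fintype H] (f : G → B) (hu : ∀ h : H, IsUnit (f (h : G)))
    (P : Ideal B) (hP : P.IsMaximal)
    (hfaith : ∀ s t : H, (∀ c : B, (s : G) • c - (t : G) • c ∈ P) → s = t) :
    ∃ z : B, poincare H f z ∉ P := by
  classical
  by_contra hcon
  rw [not_exists] at hcon
  have hcon : ∀ z : B, poincare H f z ∈ P := fun z => not_not.1 (hcon z)
  let _ : Field (B ⧸ P) := Ideal.Quotient.field P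
  let χ : H → (B →* (B ⧸ P)) := fun h =>
    ((Ideal.Quotient.mk P).comp (MulSemiringAction.toRingHom G B (h : G)) : B →+* B ⧸ P)
  have hχ : Function.Injective χ := by
    intro s t hst
    apply hfaith
    intro c
    have h1 : χ s c = χ t c := by rw [hst]
    have h2 : Ideal.Quotient.mk P ((s : G) • c) = Ideal.Quotient.mk P ((t : G) • c) := h1
    exact Ideal.Quotient.eq.1 h2
  have hli : LinearIndependent (B ⧸ P) (fun h : H => (χ h : B → B ⧸ P)) :=
    LinearIndependent.comp (linearIndependent_monoidHom B (B ⧸ P)) χ hχ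
  have h0 := Fintype.linearIndependent_iff.1 hli
    (fun h => Ideal.Quotient.mk P (f (h : G))) (by
      funext z
      have h1 := hcon z
      rw [poincare_apply, ← Ideal.Quotient.eq_zero_iff_mem, map_sum] at h1
      simp only [Finset.sum_apply, Pi.smul_apply, smul_eq_mul, Pi.zero_apply]
      rw [← h1]
      refine Finset.sum_congr rfl (fun h _ => ?_)
      rw [map_mul]
      rfl) 1
  have h1 : IsUnit (Ideal.Quotient.mk P (f ((1 : H) : G))) := (hu 1).map _
  exact h1.ne_zero h0

variable [Algebra ℚ B] [Finite (MaximalSpectrum B)]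

/-- The Poincaré series takes a unit value. -/
lemma exists_isUnit_poincare [Fintype H] (f : G → B) (hu : ∀ h : H, IsUnit (f (h : G)))
    (hfaith : ∀ P : Ideal B, P.IsMaximal →
      ∀ s t : H, (∀ c : B, (s : G) • c - (t : G) • c ∈ P) → s = t) :
    ∃ z : B, IsUnit (poincare H f z) := by
  classical
  let W : MaximalSpectrum B → Submodule ℚ B := fun P =>
    (P.asIdeal.restrictScalars ℚ).comap (poincare H f).toRatLinearMap
  have hW : ∀ P, W P ≠ ⊤ := by
    intro P hP
    obtain ⟨z, hz⟩ := exists_poincare_notMem H f hu P.asIdeal P.isMaximal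
      (hfaith P.asIdeal P.isMaximal)
    have : z ∈ W P := by rw [hP]; trivial
    exact hz this
  have hne : ⋃ P, (W P : Set B) ≠ Set.univ := by
    intro hcov
    obtain ⟨P, hP⟩ := Subspace.exists_eq_top_of_iUnion_eq_univ hcov
    exact hW P hP
  obtain ⟨z, hz⟩ := (Set.ne_univ_iff_exists_notMem _).1 hne
  refine ⟨z, ?_⟩
  by_contra hnu
  obtain ⟨I, hI, hmem⟩ := exists_max_ideal_of_mem_nonunits hnu
  apply hz
  rw [Set.mem_iUnion]
  exact ⟨⟨I, hI⟩, hmem⟩

/-- **Hilbert 90 for semi-local rings**: a 1-cocycle on `H` with values in `Bˣ` is a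
coboundary. -/
theorem hilbert90_semilocal (f : G → Bˣ)
    (hf : ∀ s t : G, s ∈ H → t ∈ H → ((f (s * t) : Bˣ) : B) = s • ((f t : Bˣ) : B) * (f s : B))
    (hfaith : ∀ P : Ideal B, P.IsMaximal →
      ∀ s t : H, (∀ c : B, (s : G) • c - (t : G) • c ∈ P) → s = t) :
    ∃ β : Bˣ, ∀ s : G, s ∈ H → s • (β : B) = (f s : B) * (β : B) := by
  classical
  let _ : Fintype H := Fintype.ofFinite H
  obtain ⟨z, hz⟩ := exists_isUnit_poincare H (fun g => ((f g : Bˣ) : B)) (fun h => (f h).isUnit)
    hfaith
  obtain ⟨b, hb⟩ := hz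
  have key : ∀ s : G, s ∈ H → (f s : B) * (s • (b : B)) = (b : B) := by
    intro s hs
    rw [hb, poincare_apply, Finset.smul_sum, Finset.mul_sum]
    have e : ∀ h : H, (f s : B) * s • ((f (h : G) : B) * ((h : G) • z)) =
        (f (s * (h : G)) : B) * ((s * (h : G)) • z) := by
      intro h
      rw [smul_mul', hf s h hs h.2, mul_smul]
      ring
    rw [Finset.sum_congr rfl (fun h _ => e h)]
    exact Fintype.sum_bijective (fun h : H => (⟨s, hs⟩ : H) * h)
      (Group.mulLeft_bijective _) _ _ (fun h => rfl)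
  refine ⟨b⁻¹, fun s hs => ?_⟩
  have h1 := key s hs
  -- `s • b⁻¹ = (s • b)⁻¹`
  have h2 : s • ((b⁻¹ : Bˣ) : B) * (s • (b : B)) = 1 := by
    rw [← smul_mul', Units.inv_mul, smul_one]
  have h3 : IsUnit (s • (b : B)) := IsUnit.of_mul_eq_one _ (by rw [mul_comm]; exact h2)
  apply h3.mul_right_cancel
  rw [h2, mul_assoc, mul_comm ((b⁻¹ : Bˣ) : B), ← mul_assoc, h1, Units.mul_inv]

end H90

end Fermat.Agent.S55.CFT.H58
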