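import Mathlib

/-!
# CFT package SHL-inf (helper58), part 1: injectivity of inflation on `H²`, on cocycles

For a surjection `π : Γ ↠ Q`, `R : Rep ℤ Γ`, `A : Rep ℤ Q` and an equivariant embedding
`ι : A ↪ R` whose image is the group of `ker π`-invariants: if `H¹(ker π, R) = 0` (in terms of
functions), then a 2-cocycle of `Q` in `A` whose inflation is a coboundary is a coboundary.
-/

set_option autoImplicit false
set_option linter.unusedSectionVars false

noncomputable section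

namespace Fermat.Agent.S55.CFT.H58

open CategoryTheory groupCohomology Rep

theorem infInj_rep {Γ Q : Type} [Group Γ] [Group Q] (R : Rep.{0} ℤ Γ) (A : Rep.{0} ℤ Q)
    (π : Γ →* Q) (ι : A →+ R)
    (surj : Function.Surjective π) (inj : Function.Injective ι)
    (equiv : ∀ (g : Γ) (b : A), ι (A.ρ (π g) b) = R.ρ g (ι b))
    (image : ∀ a : R, (∀ n : Γ, π n = 1 → R.ρ n a = a) → ∃ b : A, ι b = a)
    (h1 : ∀ f : Γ → R, (∀ n n' : Γ, π n = 1 → π n' = 1 → f (n * n') = R.ρ n (f n') + f n) →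
      ∃ a : R, ∀ n : Γ, π n = 1 → R.ρ n a - a = f n)
    (c : Q × Q → A)
    (hc : ∀ g h j : Q, c (g * h, j) + c (g, h) = A.ρ g (c (h, j)) + c (g, h * j))
    (x : Γ → R)
    (hx : ∀ g h : Γ, ι (c (π g, π h)) = R.ρ g (x h) - x (g * h) + x g) :
    ∃ y : Q → A, ∀ q r : Q, c (q, r) = A.ρ q (y r) - y (q * r) + y q := by
  classical
  -- consequences of the cocycle identity
  have hc1 : ∀ q : Q, c (q, 1) = A.ρ q (c (1, 1)) := by
    intro q
    have h := hc q 1 1
    rw [mul_one, mul_one] at h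
    exact add_left_cancel (a := c (q, 1)) (by rw [h, add_comm])
  have hc2 : ∀ r : Q, c (1, r) = c (1, 1) := by
    intro r
    have h := hc 1 1 r
    rw [mul_one, one_mul, map_one] at h
    exact (add_left_cancel h).symm
  set a₀ : A := c (1, 1) with ha₀
  have hρa₀ : ∀ n : Γ, π n = 1 → R.ρ n (ι a₀) = ι a₀ := by
    intro n hn
    rw [← equiv, hn, map_one]
    rfl
  -- `x₁ = x - ι a₀` is a cocycle on `ker π`
  obtain ⟨r, hr⟩ := h1 (fun g => x g - ι a₀) (by
    intro n n' hn hn'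
    have h := hx n n'
    rw [hn, hn'] at h
    show x (n * n') - ι a₀ = R.ρ n (x n' - ι a₀) + (x n - ι a₀)
    rw [map_sub, hρa₀ n hn]
    have h' : ι a₀ = R.ρ n (x n') - x (n * n') + x n := h
    have e : x (n * n') = R.ρ n (x n') + x n - ι a₀ := by
      rw [h']; abel
    rw [e]; abel)
  -- `x₂ = x₁ - d⁰ r`
  set x₂ : Γ → R := fun g => x g - ι a₀ - (R.ρ g r - r) with hx₂
  have hx₂ker : ∀ n : Γ, π n = 1 → x₂ n = 0 := by
    intro n hn
    show x n - ι a₀ - (R.ρ n r - r) = 0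
    rw [hr n hn]
    exact sub_self _
  have hstar : ∀ g h : Γ, R.ρ g (x₂ h) - x₂ (g * h) + x₂ g =
      ι (c (π g, π h)) - R.ρ g (ι a₀) := by
    intro g h
    rw [hx g h]
    show R.ρ g (x h - ι a₀ - (R.ρ h r - r)) - (x (g * h) - ι a₀ - (R.ρ (g * h) r - r)) +
      (x g - ι a₀ - (R.ρ g r - r)) = _
    rw [map_mul]
    simp only [map_sub, Module.End.mul_apply]
    abel
  have hright : ∀ g n : Γ, π n = 1 → x₂ (g * n) = x₂ g := by
    intro g n hn
    have h := hstar g n
    rw [hx₂ker n hn, map_zero, hn, hc1, equiv, sub_self, zero_sub] at h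
    have h' : x₂ g - x₂ (g * n) = 0 := by rw [← h]; abel
    exact (sub_eq_zero.1 h').symm
  have hleft : ∀ n h : Γ, π n = 1 → R.ρ n (x₂ h) = x₂ h := by
    intro n h hn
    have h' := hstar n h
    rw [hx₂ker n hn, add_zero, hn, hc2, hρa₀ n hn, sub_self] at h'
    have e1 : R.ρ n (x₂ h) = x₂ (n * h) := sub_eq_zero.1 h'
    have e2 : n * h = h * (h⁻¹ * n * h) := by group
    have e3 : π (h⁻¹ * n * h) = 1 := by
      rw [map_mul, map_mul, hn, mul_one, map_inv, inv_mul_cancel]
    rw [e1, e2, hright h _ e3]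
  choose y₀ hy₀ using fun h : Γ => image (x₂ h) (fun n hn => hleft n h hn)
  let s : Q → Γ := Function.surjInv surj
  have hs : ∀ q, π (s q) = q := Function.surjInv_eq surj
  have hy : ∀ g : Γ, ι (y₀ (s (π g))) = x₂ g := by
    intro g
    rw [hy₀]
    have e1 : s (π g) = g * (g⁻¹ * s (π g)) := by group
    have e2 : π (g⁻¹ * s (π g)) = 1 := by
      rw [map_mul, map_inv, hs, inv_mul_cancel]
    rw [e1, hright g _ e2]
  refine ⟨fun q => y₀ (s q) + a₀, fun q r => ?_⟩
  obtain ⟨g, rfl⟩ := surj q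
  obtain ⟨g', rfl⟩ := surj r
  apply inj
  have h := hstar g g'
  rw [← hy g, ← hy g', ← hy (g * g'), map_mul π g g', ← equiv, ← equiv] at h
  have h2 : ι (c (π g, π g')) =
      ι (A.ρ (π g) (y₀ (s (π g')))) - ι (y₀ (s (π g * π g'))) + ι (y₀ (s (π g))) +
        ι (A.ρ (π g) a₀) := by
    rw [← sub_eq_iff_eq_add]
    exact h.symm
  rw [h2]
  simp only [map_add, map_sub]
  abel

end Fermat.Agent.S55.CFT.H58
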