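import Fermat.Agent.S55.CFT.H58_SHLLoc
import Fermat.Agent.S55.CFT.H58_H90
import Fermat.Agent.S55.CFT.H58_InfInj

/-!
# CFT package SHL-inf (helper58): `Stmt_InfJvInj`

For a tower `K ⊆ L ⊆ N` of finite Galois extensions of number fields and a place `v` of `K`, the
inflation `H²(Gal(L/K), (K_v ⊗_K L)ˣ) → H²(Gal(N/K), (K_v ⊗_K N)ˣ)` is injective.

Route: `infInj_rep` (inflation is injective on `H²` when `H¹(ker, -) = 0`), with
* `K_v ⊗_K L → K_v ⊗_K N` injective (idempotents),
* `(K_v ⊗_K N)^{Gal(N/L)} = K_v ⊗_K L` (trace),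
* `H¹(Gal(N/L), (K_v ⊗_K N)ˣ) = 0` (`hilbert90_semilocal`).
-/

set_option autoImplicit false
set_option linter.unusedSectionVars false

noncomputable section

namespace Fermat.Agent.S55.CFT.H58

open NumberField TensorProduct CategoryTheory groupCohomology

section Tower

variable (K L N : Type) [Field K] [Field L] [Field N] [NumberField K] [NumberField L]
  [NumberField N] [Algebra K L] [Algebra K N] [Algebra L N] [IsScalarTower K L N] (v : Place K)

lemma locAlgTower_mk (y : SemiLocal L v.1) :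
    locAlgTower K L N v (Ideal.Quotient.mk (placeIdeal K L v) y) =
      Ideal.Quotient.mk (placeIdeal K N v) (semiLocalMap L N v.1 y) := rfl

/-- `K_v ⊗_K L → K_v ⊗_K N` is injective. -/
theorem locAlgTower_injective : Function.Injective (locAlgTower K L N v) := by
  classical
  obtain ⟨q, w⟩ := v
  let _ : Fintype (MaximalSpectrum (SemiLocal K q)) := Fintype.ofFinite _
  rw [injective_iff_map_eq_zero]
  intro x hx
  obtain ⟨y, rfl⟩ := Ideal.Quotient.mk_surjective x
  rw [locAlgTower_mk, Ideal.Quotient.eq_zero_iff_mem, H80.placeIdeal_eq_span K N q w] at hx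
  obtain ⟨c, hc⟩ := Ideal.mem_span_singleton'.1 hx
  have hidemN : IsIdempotentElem (H80.wIdem K N q w) := (H80.wIdem_complete K N q).idem w
  have hwN : H80.wIdem K N q w = semiLocalMap L N q (H80.wIdem K L q w) :=
    (semiLocalMap_comp K L N q _).symm
  have h1 : semiLocalMap L N q (y * H80.wIdem K L q w) = 0 := by
    rw [map_mul, ← hwN]
    have h2 : semiLocalMap L N q y = c * (1 - H80.wIdem K N q w) := hc.symm
    rw [h2, mul_assoc, sub_mul, one_mul, hidemN.eq, sub_self, mul_zero]
  have h3 : y * H80.wIdem K L q w = 0 := by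
    apply H12.semiLocalMap_injective L N q
    rw [h1, map_zero]
  rw [Ideal.Quotient.eq_zero_iff_mem, H80.placeIdeal_eq_span K L q w,
    Ideal.mem_span_singleton']
  refine ⟨y, ?_⟩
  rw [mul_sub, mul_one, h3, sub_zero]

lemma semiLocalEquiv_restrictScalars (q : Nat.Primes) (σ : N ≃ₐ[L] N) (y : SemiLocal N q) :
    semiLocalEquiv K N q (AlgEquiv.restrictScalarsHom K σ) y = semiLocalEquiv L N q σ y := by
  induction y using TensorProduct.induction_on with
  | zero => simp
  | tmul a b =>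
    rw [semiLocalEquiv_tmul, semiLocalEquiv_tmul]
    rfl
  | add a b ha hb => simp only [map_add, ha, hb]

variable [Normal K L]

lemma restrictNormalHom_restrictScalars' (s : N ≃ₐ[L] N) :
    AlgEquiv.restrictNormalHom (F := K) (K₁ := N) L (AlgEquiv.restrictScalarsHom K s) = 1 := by
  ext x
  apply (algebraMap L N).injective
  have h1 := AlgEquiv.restrictNormal_commutes (AlgEquiv.restrictScalarsHom K s) L x
  exact h1.trans (s.commutes x)

/-- The `Gal(N/L)`-invariants of `K_v ⊗_K N` come from `K_v ⊗_K L`. -/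
theorem locAlgTower_exists_of_invariant [IsGalois L N] (x : LocAlg K N v)
    (hx : ∀ n : N ≃ₐ[K] N, AlgEquiv.restrictNormalHom (F := K) (K₁ := N) L n = 1 → n • x = x) :
    ∃ b : LocAlg K L v, locAlgTower K L N v b = x := by
  classical
  obtain ⟨y, rfl⟩ := Ideal.Quotient.mk_surjective x
  have hn : ((Module.finrank L N : ℕ) : Qp v.1) ≠ 0 := by
    exact_mod_cast (Module.finrank_pos (R := L) (M := N)).ne'
  refine ⟨Ideal.Quotient.mk (placeIdeal K L v)
    (algebraMap (Qp v.1) (SemiLocal L v.1) ((Module.finrank L N : ℕ) : Qp v.1)⁻¹ *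
    H12.semiLocalTrace L N v.1 y), ?_⟩
  rw [locAlgTower_mk, map_mul, H12.semiLocalMap_trace, map_mul, map_sum]
  have h1 : ∀ σ : N ≃ₐ[L] N, Ideal.Quotient.mk (placeIdeal K N v) (σ • y) =
      Ideal.Quotient.mk (placeIdeal K N v) y := fun σ => by
    have h2 := hx (AlgEquiv.restrictScalarsHom K σ) (restrictNormalHom_restrictScalars' K L N σ)
    rw [locAlg_smul_mk] at h2
    rw [← h2]
    congr 1
  rw [Finset.sum_congr rfl (fun σ _ => h1 σ), Finset.sum_const, Finset.card_univ,
    ← Nat.card_eq_fintype_card, IsGalois.card_aut_eq_finrank, AlgHom.commutes,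
    nsmul_eq_mul, ← mul_assoc]
  have h2 : Ideal.Quotient.mk (placeIdeal K N v)
      (algebraMap (Qp v.1) (SemiLocal N v.1) ((Module.finrank L N : ℕ) : Qp v.1)⁻¹) *
      ((Module.finrank L N : ℕ) : LocAlg K N v) = 1 := by
    rw [← map_natCast (Ideal.Quotient.mk (placeIdeal K N v)), ← map_mul,
      ← map_natCast (algebraMap (Qp v.1) (SemiLocal N v.1)), ← map_mul, inv_mul_cancel₀ hn,
      map_one, map_one]
  rw [h2, one_mul]

/-- `(K_v ⊗_K N)ˣ^{Gal(N/L)} = (K_v ⊗_K L)ˣ`. -/
theorem locAlgTower_units_of_invariant [IsGalois L N] (u : (LocAlg K N v)ˣ)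
    (hu : ∀ n : N ≃ₐ[K] N, AlgEquiv.restrictNormalHom (F := K) (K₁ := N) L n = 1 →
      n • (u : LocAlg K N v) = u) :
    ∃ b : (LocAlg K L v)ˣ, Units.map (locAlgTower K L N v : LocAlg K L v →* LocAlg K N v) b = u := by
  obtain ⟨b₀, hb₀⟩ := locAlgTower_exists_of_invariant K L N v (u : LocAlg K N v) hu
  have hinv : ∀ n : N ≃ₐ[K] N, AlgEquiv.restrictNormalHom (F := K) (K₁ := N) L n = 1 →
      n • ((u⁻¹ : (LocAlg K N v)ˣ) : LocAlg K N v) = ((u⁻¹ : (LocAlg K N v)ˣ) : LocAlg K N v) := by
    intro n hn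
    have h1 : n • u = u := Units.ext (hu n hn)
    have h2 : n • u⁻¹ = u⁻¹ := by rw [smul_inv', h1]
    exact congrArg (fun w : (LocAlg K N v)ˣ => (w : LocAlg K N v)) h2
  obtain ⟨b₁, hb₁⟩ := locAlgTower_exists_of_invariant K L N v _ hinv
  have h2 : b₀ * b₁ = 1 := by
    apply locAlgTower_injective K L N v
    rw [map_mul, hb₀, hb₁, map_one, Units.mul_inv]
  exact ⟨⟨b₀, b₁, h2, by rw [mul_comm]; exact h2⟩, Units.ext hb₀⟩

end Tower

section Faithful

variable (K L : Type) [Field K] [Field L] [NumberField K] [NumberField L] [Algebra K L]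
  (v : Place K)

theorem locAlg_faithful₂ (M : Ideal (LocAlg K L v)) (hM : M.IsMaximal)
    (s t : L ≃ₐ[K] L) (h : ∀ b : LocAlg K L v, s • b - t • b ∈ M) : s = t := by
  apply AlgEquiv.ext
  intro x
  by_contra hne
  have h1 := h (locIncl K L v x)
  rw [locIncl_smul, locIncl_smul, ← RingHom.map_sub] at h1
  have h2 : IsUnit (s x - t x) := IsUnit.mk0 _ (sub_ne_zero.2 hne)
  exact hM.ne_top (Ideal.eq_top_of_isUnit_mem M h1 (h2.map (locIncl K L v)))

instance locAlg_finite_maxSpec : Finite (MaximalSpectrum (LocAlg K L v)) := inferInstance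

/-- **Semi-local Hilbert 90**: for every subgroup `H` of `Gal(L/K)`, every 1-cocycle
`H → (K_v ⊗_K L)ˣ` is a coboundary. -/
theorem locAlg_hilbert90 (H : Subgroup (L ≃ₐ[K] L)) (f : (L ≃ₐ[K] L) → (LocAlg K L v)ˣ)
    (hf : ∀ s t : L ≃ₐ[K] L, s ∈ H → t ∈ H → f (s * t) = s • f t * f s) :
    ∃ β : (LocAlg K L v)ˣ, ∀ s : L ≃ₐ[K] L, s ∈ H → s • β = f s * β := by
  have : Finite H := inferInstance
  obtain ⟨β, hβ⟩ := hilbert90_semilocal (G := L ≃ₐ[K] L) (B := LocAlg K L v) H f
    (fun s t hs ht => by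
      rw [hf s t hs ht]
      rfl)
    (fun P hP s t h => Subtype.ext (locAlg_faithful₂ K L v P hP s t h))
  exact ⟨β, fun s hs => Units.ext (hβ s hs)⟩

end Faithful

section Final

/-- **SHL-inf**: local inflation is injective in degree 2. -/
theorem stmt_InfJvInj : Stmt_InfJvInj := by
  intro K L N _ _ _ _ _ _ _ _ _ _ _ hKL hKN v
  classical
  have hLN : IsGalois L N := IsGalois.tower_top_of_isGalois K L N
  let π : (N ≃ₐ[K] N) →* (L ≃ₐ[K] L) := AlgEquiv.restrictNormalHom (F := K) (K₁ := N) L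
  let ι : (repJv K L v) →+ (repJv K N v) :=
    (Units.map (locAlgTower K L N v : LocAlg K L v →* LocAlg K N v)).toAdditive
  have hι : ∀ b : repJv K L v, ι b = (infRepJv K L N v).hom b := fun b => rfl
  rw [injective_iff_map_eq_zero]
  intro x hx
  induction x using H2_induction_on with | @h c =>
  have e1 : infJv K L N v 2 (H2π (repJv K L v) c) =
      H2π (repJv K N v) (mapCocycles₂ π (infRepJv K L N v) c) :=
    H2π_comp_map_apply π (infRepJv K L N v) c
  rw [e1, H2π_eq_zero_iff] at hx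
  obtain ⟨u, hu⟩ := hx
  have hu' : ∀ g h : N ≃ₐ[K] N, ι (c (π g, π h)) =
      (repJv K N v).ρ g (u h) - u (g * h) + u g := fun g h => (congrFun hu (g, h)).symm
  have hc : ∀ g h j : L ≃ₐ[K] L, c (g * h, j) + c (g, h) =
      (repJv K L v).ρ g (c (h, j)) + c (g, h * j) :=
    (mem_cocycles₂_iff (A := repJv K L v) c).1 c.2
  obtain ⟨y, hy⟩ := infInj_rep (repJv K N v) (repJv K L v) π ι
    (AlgEquiv.restrictNormalHom_surjective N)
    (fun a b hab => by
      have h1 : Units.map (locAlgTower K L N v : LocAlg K L v →* LocAlg K N v) a.toMul =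
          Units.map (locAlgTower K L N v : LocAlg K L v →* LocAlg K N v) b.toMul := hab
      have h2 : a.toMul = b.toMul :=
        Units.map_injective (f := (locAlgTower K L N v : LocAlg K L v →* LocAlg K N v))
          (locAlgTower_injective K L N v) h1
      exact h2)
    (fun g b => congrArg Additive.ofMul (Units.ext
      (locAlgTower_smul K L N v g ((Additive.toMul b : (LocAlg K L v)ˣ) : LocAlg K L v))))
    (fun a ha => by
      obtain ⟨b, hb⟩ := locAlgTower_units_of_invariant K L N v (Additive.toMul a)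
        (fun n hn => congrArg (fun w : (LocAlg K N v)ˣ => (w : LocAlg K N v))
          (congrArg Additive.toMul (ha n hn)))
      exact ⟨Additive.ofMul b, congrArg Additive.ofMul hb⟩)
    (fun f hf => by
      obtain ⟨β, hβ⟩ := locAlg_hilbert90 K N v π.ker (fun g => Additive.toMul (f g))
        (fun s t hs ht => congrArg Additive.toMul
          (hf s t (MonoidHom.mem_ker.1 hs) (MonoidHom.mem_ker.1 ht)))
      refine ⟨Additive.ofMul β, fun n hn => ?_⟩
      have h1 := hβ n (MonoidHom.mem_ker.2 hn)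
      exact sub_eq_of_eq_add (congrArg Additive.ofMul h1))
    c hc u hu'
  rw [H2π_eq_zero_iff]
  exact ⟨y, funext fun ⟨q, r⟩ => (hy q r).symm⟩

end Final

end Fermat.Agent.S55.CFT.H58
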