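import Fermat.Agent.S55.CFT.H58_SHLLoc

/-!
# CFT package SHL (helper58): `Stmt_SHL`

Semi-local Hilbert 90 + LOC-4: for `L/K` Galois of degree `p ^ m` and a place `v` of `K`,
`H¹(G, (K_v ⊗_K L)ˣ) = 0`, `H²(G, (K_v ⊗_K L)ˣ)` is finite cyclic of order
`[L : K] / #{places of L above v}`, and `H³(G, (K_v ⊗_K L)ˣ) = 0`.  Unconditional.
-/

set_option autoImplicit false
set_option linter.unusedSectionVars false

noncomputable section

namespace Fermat.Agent.S55.CFT.H58

open NumberField TensorProduct CategoryTheory groupCohomology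

section Bridge

variable (Γ : Type) [Group Γ] (R : Type) [CommRing R] [MulSemiringAction Γ R]
  [MulDistribMulAction Γ Rˣ]

/-- `Hⁿ(Γ, Rˣ)` for any action on `Rˣ` compatible with the action on `R`, in terms of
`unitsRepOf`. -/
def unitsBridge (h : ∀ (g : Γ) (u : Rˣ), ((g • u : Rˣ) : R) = g • (u : R)) (n : ℕ) :
    groupCohomology (Rep.ofMulDistribMulAction Γ Rˣ) n ≅ groupCohomology (unitsRepOf Γ R) n :=
  mapIso (B := Rep.ofMulDistribMulAction Γ Rˣ) (A := unitsRepOf Γ R)
    (MulEquiv.refl Γ) (LinearEquiv.refl ℤ (Additive Rˣ)) (fun g =>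
      LinearMap.ext (fun a => congrArg Additive.ofMul (Units.ext (h g a.toMul)))) n

end Bridge

section Final

variable (K L : Type) [Field K] [Field L] [NumberField K] [NumberField L] [Algebra K L]
  (v : Place K)

/-- `Hⁿ(G, repJv K L v)` in terms of `unitsRepOf`. -/
def repJvIso (n : ℕ) :
    groupCohomology (repJv K L v) n ≅
      groupCohomology (unitsRepOf (L ≃ₐ[K] L) (LocAlg K L v)) n :=
  unitsBridge (L ≃ₐ[K] L) (LocAlg K L v) (fun _ _ => rfl) n

theorem stmt_SHL : Stmt_SHL := by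
  intro p m K L _ _ _ _ _ h v
  obtain ⟨h1, h2, h3, ⟨g, hg⟩, h5⟩ := shl_place K L v p m h
  have e : ∀ n : ℕ, groupCohomology (repJv K L v) n ≃ₗ[ℤ]
      groupCohomology (unitsRepOf (L ≃ₐ[K] L) (LocAlg K L v)) n := fun n =>
    (repJvIso K L v n).toLinearEquiv
  refine ⟨(e 1).toEquiv.subsingleton, Finite.of_equiv _ (e 2).toEquiv.symm, ?_, ?_,
    (e 3).toEquiv.subsingleton⟩
  · rw [Nat.card_congr (e 2).toEquiv]
    exact h3
  · refine ⟨(e 2).symm g, fun x => ?_⟩
    obtain ⟨n, hn⟩ := hg (e 2 x)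
    refine ⟨n, ?_⟩
    rw [← map_zsmul, ← hn, LinearEquiv.symm_apply_apply]

end Final

end Fermat.Agent.S55.CFT.H58
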