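/-
S55 / E4 / CFT, leaf DEG (helper96), part 2: elementary arithmetic.

* `pow_prime_pow_modEq_one`: `x ≡ 1 mod p` implies `x ^ (p ^ j) ≡ 1 mod p ^ (j + 1)`;
* `le_orderOf_of_pow_le`: the order of `q` modulo `m` is at least `N` when `q ^ N ≤ m`.
-/
import Mathlib

set_option autoImplicit false

namespace Fermat.Agent.S55.CFT.H96

/-- `(1 + t) ^ n = 1 + n t + t² g` (integers). -/
theorem exists_one_add_pow_int (t : ℤ) (n : ℕ) :
    ∃ g : ℤ, (1 + t) ^ n = 1 + n * t + t ^ 2 * g := by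
  induction n with
  | zero => exact ⟨0, by simp⟩
  | succ n ih =>
    obtain ⟨g, hg⟩ := ih
    refine ⟨n + g + t * g, ?_⟩
    rw [pow_succ, hg]
    push_cast
    ring

/-- `x ≡ 1 mod p` implies `x ^ (p ^ j) ≡ 1 mod p ^ (j + 1)`. -/
theorem pow_prime_pow_modEq_one (p : ℕ) (x : ℤ) (hx : (p : ℤ) ∣ x - 1) (j : ℕ) :
    ((p : ℤ) ^ (j + 1)) ∣ x ^ (p ^ j) - 1 := by
  induction j with
  | zero => simpa using hx
  | succ j ih =>
    obtain ⟨t, ht⟩ := ih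
    have hxt : x ^ (p ^ j) = 1 + (p : ℤ) ^ (j + 1) * t := by linarith
    obtain ⟨g, hg⟩ := exists_one_add_pow_int ((p : ℤ) ^ (j + 1) * t) p
    have e1 : x ^ (p ^ (j + 1)) = (x ^ (p ^ j)) ^ p := by
      rw [← pow_mul, pow_succ]
    rw [e1, hxt, hg]
    refine ⟨t + (p : ℤ) ^ j * t ^ 2 * g, ?_⟩
    ring

/-- The same in `ZMod (p ^ (j + 1))`. -/
theorem zmod_pow_prime_pow_eq_one (p : ℕ) (j : ℕ) (a : ℕ) (ha : a ≡ 1 [MOD p]) :
    ((a : ZMod (p ^ (j + 1))) ^ (p ^ j)) = 1 := by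
  have h1 : (p : ℤ) ∣ (a : ℤ) - 1 := by
    have := (Nat.modEq_iff_dvd.mp ha.symm)
    simpa using this
  have h2 := pow_prime_pow_modEq_one p (a : ℤ) h1 j
  have h3 : (((a : ℤ) ^ (p ^ j) - 1 : ℤ) : ZMod (p ^ (j + 1))) = 0 := by
    rw [ZMod.intCast_zmod_eq_zero_iff_dvd]
    exact_mod_cast h2
  push_cast at h3
  exact sub_eq_zero.mp h3

/-- If `q ^ N ≤ m` (and `2 ≤ q`, `q` prime to `m`), the order of `q` modulo `m` is at least `N`. -/
theorem le_orderOf_of_pow_le (q m N : ℕ) (hq : 2 ≤ q) (hcop : Nat.Coprime q m)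
    (h : q ^ N ≤ m) : N ≤ orderOf (q : ZMod m) := by
  have hm : 0 < m := lt_of_lt_of_le (pow_pos (by omega) N) h
  have : NeZero m := ⟨hm.ne'⟩
  have ho : orderOf (q : ZMod m) = orderOf (ZMod.unitOfCoprime q hcop) := by
    rw [← orderOf_units, ZMod.coe_unitOfCoprime]
  have hpos : 0 < orderOf (q : ZMod m) := by
    rw [ho]
    exact orderOf_pos _
  by_contra hlt
  push Not at hlt
  have h1 : ((q : ZMod m)) ^ orderOf (q : ZMod m) = 1 := pow_orderOf_eq_one _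
  have h2 : ((q ^ orderOf (q : ZMod m) : ℕ) : ZMod m) = ((1 : ℕ) : ZMod m) := by
    push_cast
    exact h1
  rw [ZMod.natCast_eq_natCast_iff] at h2
  have h3 : m ∣ q ^ orderOf (q : ZMod m) - 1 := (Nat.modEq_iff_dvd' (Nat.one_le_pow _ _ (by omega))).mp h2.symm
  have h4 : 1 < q ^ orderOf (q : ZMod m) := Nat.one_lt_pow hpos.ne' (by omega)
  have h5 : m ≤ q ^ orderOf (q : ZMod m) - 1 := Nat.le_of_dvd (by omega) h3
  have h6 : q ^ orderOf (q : ZMod m) < q ^ N := Nat.pow_lt_pow_right (by omega) hlt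
  omega

end Fermat.Agent.S55.CFT.H96
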