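/-
S55 / E4 / CFT, leaf DEG (helper96), part 4: bounds for `e · f`.

* `ef_le_finrank`: `e(𝔭/q) f(𝔭/q) ≤ [K : ℚ]`;
* `le_ef_of_primitiveRoot`: if `L` contains a primitive `p ^ (M + 1)`-th root of unity and `M` is
  large, then `e(𝔓/q) f(𝔓/q) ≥ N` (through the cyclotomic field `ℚ(ζ) ⊆ L`).
-/
import Fermat.Agent.S55.CFT.H96_DegElem

set_option autoImplicit false

open NumberField

namespace Fermat.Agent.S55.CFT.H96

/-- `e f ≤ n`. -/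
theorem ef_le_finrank (K : Type) [Field K] [NumberField K] (q : ℕ) [Fact q.Prime]
    (𝔭 : Ideal (𝓞 K)) [h1 : 𝔭.IsPrime] [h2 : 𝔭.LiesOver (Ideal.span {(q : ℤ)})] :
    𝔭.ramificationIdx ℤ * 𝔭.inertiaDeg ℤ ≤ Module.finrank ℚ K := by
  classical
  have hq : (Ideal.span {(q : ℤ)}).IsPrime :=
    (Int.ideal_span_isMaximal_of_prime q).isPrime
  have hfin : Fintype ((Ideal.span {(q : ℤ)}).primesOver (𝓞 K)) :=
    (Algebra.QuasiFinite.finite_primesOver (Ideal.span {(q : ℤ)})).fintype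
  have hsum := Ideal.sum_ramification_inertia_eq_finrank (Ideal.span {(q : ℤ)}) (𝓞 K)
  rw [RingOfIntegers.rank] at hsum
  rw [← hsum]
  exact Finset.single_le_sum
    (f := fun P : (Ideal.span {(q : ℤ)}).primesOver (𝓞 K) =>
      P.1.ramificationIdx ℤ * P.1.inertiaDeg ℤ)
    (fun _ _ => Nat.zero_le _) (Finset.mem_univ ⟨𝔭, h1, h2⟩)

/-- A lower bound for `e f` in a number field containing a primitive `p ^ (M + 1)`-th root of
unity. -/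
theorem le_ef_of_primitiveRoot (p M q N : ℕ) (hp : p.Prime) [hq : Fact q.Prime]
    (L : Type) [Field L] [NumberField L] {ζ : L} (hζ : IsPrimitiveRoot ζ (p ^ (M + 1)))
    (hM : q * N + N ≤ M)
    (𝔓 : Ideal (𝓞 L)) [h1 : 𝔓.IsPrime] [h2 : 𝔓.LiesOver (Ideal.span {(q : ℤ)})] :
    N ≤ 𝔓.ramificationIdx ℤ * 𝔓.inertiaDeg ℤ := by
  have hne : NeZero (p ^ (M + 1)) := ⟨(pow_pos hp.pos _).ne'⟩
  have hC : IsCyclotomicExtension {p ^ (M + 1)} ℚ (IntermediateField.adjoin ℚ {ζ}) :=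
    hζ.intermediateField_adjoin_isCyclotomicExtension ℚ
  set C := IntermediateField.adjoin ℚ {ζ} with hCdef
  set 𝔮 : Ideal (𝓞 C) := 𝔓.under (𝓞 C) with h𝔮
  have h𝔮p : 𝔮.IsPrime := Ideal.IsPrime.under (𝓞 C) 𝔓
  have h𝔓𝔮 : 𝔓.LiesOver 𝔮 := Ideal.over_under 𝔓
  have h𝔮q : 𝔮.LiesOver (Ideal.span {(q : ℤ)}) := Ideal.LiesOver.tower_bot 𝔓 𝔮 _
  have te : 𝔓.ramificationIdx ℤ = 𝔮.ramificationIdx ℤ * 𝔓.ramificationIdx (𝓞 C) :=
    Ideal.ramificationIdx_tower 𝔮 𝔓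
  have tf : 𝔓.inertiaDeg ℤ = 𝔮.inertiaDeg ℤ * 𝔓.inertiaDeg (𝓞 C) :=
    Ideal.inertiaDeg_tower 𝔮 𝔓
  have pe : 0 < 𝔓.ramificationIdx (𝓞 C) := 𝔓.ramificationIdx_pos (𝓞 C)
  have pf : 0 < 𝔓.inertiaDeg (𝓞 C) := 𝔓.inertiaDeg_pos (𝓞 C)
  have pe' : 0 < 𝔮.ramificationIdx ℤ := 𝔮.ramificationIdx_pos ℤ
  have pf' : 0 < 𝔮.inertiaDeg ℤ := 𝔮.inertiaDeg_pos ℤ
  have key : N ≤ 𝔮.ramificationIdx ℤ * 𝔮.inertiaDeg ℤ := by
    by_cases hqp : q = p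
    · subst hqp
      have he := IsCyclotomicExtension.Rat.ramificationIdx_eq_of_prime_pow q M C 𝔮
      have h3 : N < 2 ^ M := lt_of_le_of_lt (by nlinarith) (Nat.lt_two_pow_self (n := M))
      have h4 : 2 ^ M ≤ q ^ M := Nat.pow_le_pow_left hp.two_le M
      have h5 : q ^ M ≤ q ^ M * (q - 1) := Nat.le_mul_of_pos_right _ (by have := hp.two_le; omega)
      calc N ≤ 𝔮.ramificationIdx ℤ := by rw [he]; omega
        _ ≤ 𝔮.ramificationIdx ℤ * 𝔮.inertiaDeg ℤ := Nat.le_mul_of_pos_right _ pf'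
    · have hndvd : ¬ q ∣ p ^ (M + 1) := by
        intro hd
        exact hqp ((Nat.prime_dvd_prime_iff_eq hq.out hp).mp (hq.out.dvd_of_dvd_pow hd))
      have hf := IsCyclotomicExtension.Rat.inertiaDeg_eq_of_not_dvd q C 𝔮 hndvd
      have hcop : Nat.Coprime q (p ^ (M + 1)) :=
        (Nat.Prime.coprime_iff_not_dvd hq.out).mpr hndvd
      have hpow : q ^ N ≤ p ^ (M + 1) := by
        calc q ^ N ≤ (2 ^ q) ^ N := Nat.pow_le_pow_left (Nat.lt_two_pow_self).le N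
          _ = 2 ^ (q * N) := by rw [← pow_mul]
          _ ≤ p ^ (q * N) := Nat.pow_le_pow_left hp.two_le _
          _ ≤ p ^ (M + 1) := Nat.pow_le_pow_right hp.pos (by omega)
      have ho := le_orderOf_of_pow_le q (p ^ (M + 1)) N hq.out.two_le hcop hpow
      calc N ≤ 𝔮.inertiaDeg ℤ := by rw [hf]; exact ho
        _ ≤ 𝔮.ramificationIdx ℤ * 𝔮.inertiaDeg ℤ := Nat.le_mul_of_pos_left _ pe'
  rw [te, tf]
  calc N ≤ 𝔮.ramificationIdx ℤ * 𝔮.inertiaDeg ℤ := key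
    _ ≤ (𝔮.ramificationIdx ℤ * 𝔮.inertiaDeg ℤ) * (𝔓.ramificationIdx (𝓞 C) * 𝔓.inertiaDeg (𝓞 C)) :=
        Nat.le_mul_of_pos_right _ (Nat.mul_pos pe pf)
    _ = _ := by ring

end Fermat.Agent.S55.CFT.H96
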