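/-
S55 package E4, island GLB, package PL (places), part 1: abstract commutative algebra.
Owner: helper80.

* `maximal_unique_of_finite_domain`: a domain, module-finite over a complete Noetherian local ring,
  has only one maximal ideal.
* `prime_unique_below`: in a Noetherian ring, if the maximal ideal `𝔪` is "locally principal",
  there is at most one prime strictly below `𝔪`.
* `exists_prime_below`: existence of a prime below `𝔪` avoiding a non-zero-divisor.
-/
import Mathlib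
import Fermat.Prelude.Thm_Algebra_finite_maximalSpectrum_and_bijective_localization_of_module_finite

set_option autoImplicit false

namespace Fermat.Agent.S55.CFT.H80

open IsLocalRing

/-- A domain which is module-finite over a complete Noetherian local ring has at most one maximal
ideal. -/
theorem maximal_unique_of_finite_domain {O : Type} [CommRing O] [IsLocalRing O]
    [IsNoetherianRing O] [IsAdicComplete (maximalIdeal O) O] (D : Type) [CommRing D] [IsDomain D]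
    [Algebra O D] [Module.Finite O D] (𝔫₁ 𝔫₂ : Ideal D) (h₁ : 𝔫₁.IsMaximal) (h₂ : 𝔫₂.IsMaximal) :
    𝔫₁ = 𝔫₂ := by
  classical
  obtain ⟨-, hbij, -, -⟩ :=
    Algebra.finite_maximalSpectrum_and_bijective_localization_of_module_finite (𝒪 := O) D
  by_contra hne
  set M₁ : MaximalSpectrum D := ⟨𝔫₁, h₁⟩ with hM₁
  set M₂ : MaximalSpectrum D := ⟨𝔫₂, h₂⟩ with hM₂
  have hM : M₁ ≠ M₂ := fun h => hne (congrArg MaximalSpectrum.asIdeal h)
  obtain ⟨a, ha⟩ := hbij.2 (Pi.single M₁ 1)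
  obtain ⟨b, hb⟩ := hbij.2 (Pi.single M₂ 1)
  have hab : a * b = 0 := by
    apply hbij.1
    rw [map_mul, ha, hb, map_zero]
    funext I
    by_cases hI : I = M₁
    · subst hI
      simp [hM]
    · simp [hI]
  rcases mul_eq_zero.mp hab with h | h
  · have := congrFun ha M₁
    rw [h, map_zero] at this
    simp at this
  · have := congrFun hb M₂
    rw [h, map_zero] at this
    simp at this


/-- In a Noetherian ring, if the prime `𝔪` is principal up to an element `s ∉ 𝔪`, then every prime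
strictly below `𝔪` is the kernel of the localization map at `𝔪`. -/
theorem prime_below_eq_ker {R : Type*} [CommRing R] [IsNoetherianRing R] (𝔪 : Ideal R)
    [h𝔪 : 𝔪.IsPrime] (π s : R) (hs : s ∉ 𝔪) (hπ : π ∈ 𝔪)
    (h : ∀ x ∈ 𝔪, s * x ∈ Ideal.span {π}) (P : Ideal R) [hP : P.IsPrime] (hle : P ≤ 𝔪)
    (hne : P ≠ 𝔪) : P = RingHom.ker (algebraMap R (Localization.AtPrime 𝔪)) := by
  have hdisj : Disjoint (𝔪.primeCompl : Set R) (P : Set R) := by
    rw [Set.disjoint_left]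
    intro x hx hxP
    exact hx (hle hxP)
  have hπP : π ∉ P := by
    intro hπP
    apply hne
    apply le_antisymm hle
    intro x hx
    have h1 : s * x ∈ P := (Ideal.span_singleton_le_iff_mem (I := P)).mpr hπP (h x hx)
    exact (hP.mem_or_mem h1).resolve_left (fun hsP => hs (hle hsP))
  set P' := P.map (algebraMap R (Localization.AtPrime 𝔪)) with hP'
  have hcomap : P'.comap (algebraMap R (Localization.AtPrime 𝔪)) = P :=
    IsLocalization.under_map_of_isPrime_disjoint 𝔪.primeCompl (Localization.AtPrime 𝔪) hP hdisj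
  have hP'bot : P' = ⊥ := by
    apply Submodule.eq_bot_of_le_smul_of_le_jacobson_bot
      (maximalIdeal (Localization.AtPrime 𝔪)) P' (IsNoetherian.noetherian P') ?_
      (IsLocalRing.maximalIdeal_le_jacobson ⊥)
    rw [Ideal.smul_eq_mul]
    apply Ideal.map_le_iff_le_comap.mpr
    intro x hx
    obtain ⟨y, hy⟩ := Ideal.mem_span_singleton'.mp (h x (hle hx))
    have hyP : y ∈ P := by
      have h2 : y * π ∈ P := by
        rw [hy]
        exact P.mul_mem_left s hx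
      exact (hP.mem_or_mem h2).resolve_right hπP
    have hsu : IsUnit (algebraMap R (Localization.AtPrime 𝔪) s) :=
      IsLocalization.map_units (Localization.AtPrime 𝔪) (⟨s, hs⟩ : 𝔪.primeCompl)
    obtain ⟨u, hu⟩ := hsu
    have hx' : algebraMap R (Localization.AtPrime 𝔪) x =
        algebraMap R (Localization.AtPrime 𝔪) π *
          (↑u⁻¹ * algebraMap R (Localization.AtPrime 𝔪) y) := by
      have h3 := congrArg (algebraMap R (Localization.AtPrime 𝔪)) hy
      rw [map_mul, map_mul, ← hu] at h3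
      calc algebraMap R (Localization.AtPrime 𝔪) x
          = ↑u⁻¹ * (↑u * algebraMap R (Localization.AtPrime 𝔪) x) := by
            rw [← mul_assoc, Units.inv_mul, one_mul]
        _ = ↑u⁻¹ * (algebraMap R (Localization.AtPrime 𝔪) y *
              algebraMap R (Localization.AtPrime 𝔪) π) := by rw [h3]
        _ = _ := by ring
    rw [Ideal.mem_comap, hx']
    refine Ideal.mul_mem_mul ?_ (Ideal.mul_mem_left _ _ (Ideal.mem_map_of_mem _ hyP))
    rw [← Localization.AtPrime.map_eq_maximalIdeal]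
    exact Ideal.mem_map_of_mem _ hπ
  rw [← hcomap, hP'bot]
  rfl

/-- Uniqueness of the prime strictly below a "locally principal" prime `𝔪`. -/
theorem prime_unique_below {R : Type*} [CommRing R] [IsNoetherianRing R] (𝔪 : Ideal R)
    [h𝔪 : 𝔪.IsPrime] (π s : R) (hs : s ∉ 𝔪) (hπ : π ∈ 𝔪)
    (h : ∀ x ∈ 𝔪, s * x ∈ Ideal.span {π}) (P₁ P₂ : Ideal R) [hP₁ : P₁.IsPrime]
    [hP₂ : P₂.IsPrime] (hle₁ : P₁ ≤ 𝔪) (hne₁ : P₁ ≠ 𝔪) (hle₂ : P₂ ≤ 𝔪) (hne₂ : P₂ ≠ 𝔪) :
    P₁ = P₂ :=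
  (prime_below_eq_ker 𝔪 π s hs hπ h P₁ hle₁ hne₁).trans
    (prime_below_eq_ker 𝔪 π s hs hπ h P₂ hle₂ hne₂).symm

/-- Existence of a prime below a given prime avoiding a given non-zero-divisor. -/
theorem exists_prime_below {R : Type*} [CommRing R] (𝔪 : Ideal R) [h𝔪 : 𝔪.IsPrime] (ϖ : R)
    (hϖ : ∀ x : R, ϖ * x = 0 → x = 0) : ∃ P : Ideal R, P.IsPrime ∧ P ≤ 𝔪 ∧ ϖ ∉ P := by
  have hpow : ∀ (n : ℕ) (x : R), ϖ ^ n * x = 0 → x = 0 := by
    intro n
    induction n with
    | zero => intro x hx; simpa using hx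
    | succ n ih =>
      intro x hx
      apply ih
      apply hϖ
      rw [← mul_assoc, ← pow_succ']
      exact hx
  have hdisj : Disjoint (((⊥ : Ideal R) : Set R)) (𝔪.primeCompl ⊔ Submonoid.powers ϖ : Submonoid R) := by
    rw [Set.disjoint_left]
    intro x hx hxS
    have hx0 : x = 0 := by simpa using hx
    subst hx0
    obtain ⟨y, hy, z, hz, hyz⟩ := Submonoid.mem_sup.mp hxS
    obtain ⟨n, rfl⟩ := Submonoid.mem_powers_iff _ _ |>.mp hz
    have hy0 : y = 0 := hpow n y (by rw [mul_comm]; exact hyz)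
    exact hy (hy0 ▸ 𝔪.zero_mem)
  obtain ⟨P, hP, -, hPd⟩ := Ideal.exists_le_prime_disjoint ⊥ _ hdisj
  refine ⟨P, hP, ?_, ?_⟩
  · intro x hx
    by_contra hxm
    exact Set.disjoint_left.mp hPd hx (Submonoid.mem_sup_left (show x ∈ 𝔪.primeCompl from hxm))
  · intro hϖP
    exact Set.disjoint_left.mp hPd hϖP (Submonoid.mem_sup_right (Submonoid.mem_powers ϖ))

section Corr

variable {S R : Type*} [CommRing S] [CommRing R] (φ : S →+* R) (q : S)

/-- If `S/q → R/q` is bijective (`h4` injectivity, `h5` surjectivity), an ideal `v ∋ q` of `S` is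
recovered from the ideal it generates in `R`. -/
theorem comap_map_of_mem (h4 : ∀ x : S, φ x ∈ Ideal.span {φ q} → x ∈ Ideal.span {q})
    (h5 : ∀ r : R, ∃ y : S, r - φ y ∈ Ideal.span {φ q}) (v : Ideal S) (hq : q ∈ v) :
    (v.map φ).comap φ = v := by
  apply le_antisymm _ Ideal.le_comap_map
  have key : ∀ r ∈ v.map φ, ∃ y ∈ v, r - φ y ∈ Ideal.span {φ q} := by
    intro r hr
    refine Submodule.span_induction (p := fun r _ => ∃ y ∈ v, r - φ y ∈ Ideal.span {φ q})
      ?_ ?_ ?_ ?_ hr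
    · rintro _ ⟨g, hg, rfl⟩
      exact ⟨g, hg, by simp⟩
    · exact ⟨0, v.zero_mem, by simp⟩
    · rintro a b - - ⟨y, hy, hya⟩ ⟨z, hz, hzb⟩
      refine ⟨y + z, v.add_mem hy hz, ?_⟩
      have : a + b - φ (y + z) = (a - φ y) + (b - φ z) := by rw [map_add]; ring
      rw [this]
      exact Ideal.add_mem _ hya hzb
    · rintro a b - ⟨y, hy, hyb⟩
      obtain ⟨a', ha'⟩ := h5 a
      refine ⟨a' * y, v.mul_mem_left a' hy, ?_⟩
      have : a • b - φ (a' * y) = a * (b - φ y) + (a - φ a') * φ y := by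
        rw [map_mul, smul_eq_mul]; ring
      rw [this]
      exact Ideal.add_mem _ (Ideal.mul_mem_left _ _ hyb) (Ideal.mul_mem_right _ _ ha')
  intro x hx
  obtain ⟨y, hy, hxy⟩ := key (φ x) hx
  rw [← map_sub] at hxy
  have h1 : x - y ∈ v := (Ideal.span_singleton_le_iff_mem (I := v)).mpr hq (h4 _ hxy)
  have : x = (x - y) + y := by ring
  rw [this]
  exact v.add_mem h1 hy

theorem map_comap_of_mem (h5 : ∀ r : R, ∃ y : S, r - φ y ∈ Ideal.span {φ q}) (𝔪 : Ideal R)
    (hq : φ q ∈ 𝔪) : (𝔪.comap φ).map φ = 𝔪 := by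
  apply le_antisymm Ideal.map_comap_le
  intro r hr
  obtain ⟨y, hy⟩ := h5 r
  have hspan : Ideal.span {φ q} ≤ 𝔪 := (Ideal.span_singleton_le_iff_mem (I := 𝔪)).mpr hq
  have hy𝔪 : φ y ∈ 𝔪 := by
    have : φ y = r - (r - φ y) := by ring
    rw [this]
    exact 𝔪.sub_mem hr (hspan hy)
  have hspan' : Ideal.span {φ q} ≤ (𝔪.comap φ).map φ :=
    (Ideal.span_singleton_le_iff_mem (I := (𝔪.comap φ).map φ)).mpr
      (Ideal.mem_map_of_mem φ (show q ∈ 𝔪.comap φ from hq))
  have : r = φ y + (r - φ y) := by ring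
  rw [this]
  exact Ideal.add_mem _ (Ideal.mem_map_of_mem φ (show y ∈ 𝔪.comap φ from hy𝔪)) (hspan' hy)

/-- The ideal generated by a maximal ideal `v ∋ q` is maximal. -/
theorem map_isMaximal_of_mem (h4 : ∀ x : S, φ x ∈ Ideal.span {φ q} → x ∈ Ideal.span {q})
    (h5 : ∀ r : R, ∃ y : S, r - φ y ∈ Ideal.span {φ q})
    (hmax : ∀ 𝔪 : Ideal R, 𝔪.IsMaximal → φ q ∈ 𝔪) (v : Ideal S) (hv : v.IsMaximal)
    (hq : q ∈ v) : (v.map φ).IsMaximal := by
  have hne : v.map φ ≠ ⊤ := by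
    intro htop
    have h1 := comap_map_of_mem φ q h4 h5 v hq
    rw [htop, Ideal.comap_top] at h1
    exact hv.ne_top h1.symm
  obtain ⟨𝔪, h𝔪, hle⟩ := Ideal.exists_le_maximal _ hne
  have h2 : v ≤ 𝔪.comap φ := Ideal.map_le_iff_le_comap.mp hle
  have h3 : v = 𝔪.comap φ := hv.eq_of_le (Ideal.comap_ne_top φ h𝔪.ne_top) h2
  have h4' : v.map φ = 𝔪 := by
    rw [h3]
    exact map_comap_of_mem φ q h5 𝔪 (hmax 𝔪 h𝔪)
  rw [h4']
  exact h𝔪

end Corr

/-- In a Dedekind domain, a nonzero prime is principal up to an element outside it. -/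
theorem exists_uniformizer_mul {S : Type*} [CommRing S] [IsDedekindDomain S] (v : Ideal S)
    [hv : v.IsPrime] (hv0 : v ≠ ⊥) :
    ∃ π ∈ v, ∃ s, s ∉ v ∧ ∀ g ∈ v, s * g ∈ Ideal.span {π} := by
  obtain ⟨π, hπ1, hπ2⟩ := Ideal.exists_mem_pow_notMem_pow_succ v hv0 hv.ne_top 1
  rw [pow_one] at hπ1
  have hle : Ideal.span {π} ≤ v := (Ideal.span_singleton_le_iff_mem (I := v)).mpr hπ1
  obtain ⟨J, hJ⟩ := Ideal.dvd_iff_le.mpr hle
  have hJv : ¬ J ≤ v := by
    intro h
    apply hπ2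
    have h1 : π ∈ v * J := hJ ▸ Ideal.mem_span_singleton_self π
    have h2 : v * J ≤ v ^ (1 + 1) := by
      rw [pow_succ, pow_one]
      exact Ideal.mul_mono_right h
    exact h2 h1
  obtain ⟨s, hsJ, hsv⟩ := SetLike.not_le_iff_exists.mp hJv
  refine ⟨π, hπ1, s, hsv, fun g hg => ?_⟩
  have h3 : g * s ∈ v * J := Ideal.mul_mem_mul hg hsJ
  rw [hJ, mul_comm s g]
  exact h3

section Assembly

/-- Every maximal ideal of a module-finite algebra over a local ring contains the image of the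
maximal ideal. -/
theorem algebraMap_mem_of_isMaximal {O : Type} [CommRing O] [IsLocalRing O]
    {R : Type} [CommRing R] [Algebra O R] [Module.Finite O R] (ϖ : O) (hϖ : ϖ ∈ maximalIdeal O) (𝔫 : Ideal R)
    (h𝔫 : 𝔫.IsMaximal) : algebraMap O R ϖ ∈ 𝔫 := by
  have h1 : (𝔫.comap (algebraMap O R)).IsMaximal :=
    Ideal.isMaximal_comap_of_isIntegral_of_isMaximal 𝔫
  have h2 := IsLocalRing.eq_maximalIdeal h1
  have : ϖ ∈ 𝔫.comap (algebraMap O R) := h2 ▸ hϖ
  exact this

/-- Over a complete local ring, a prime of a module-finite algebra lies in a unique maximal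
ideal. -/
theorem maximal_unique_over (O : Type) [CommRing O] [IsLocalRing O] [IsNoetherianRing O]
    [IsAdicComplete (maximalIdeal O) O]
    {R : Type} [CommRing R] [Algebra O R] [Module.Finite O R] (P : Ideal R) [hP : P.IsPrime] (𝔫₁ 𝔫₂ : Ideal R)
    (h₁ : 𝔫₁.IsMaximal) (h₂ : 𝔫₂.IsMaximal) (hle₁ : P ≤ 𝔫₁) (hle₂ : P ≤ 𝔫₂) : 𝔫₁ = 𝔫₂ := by
  have : Module.Finite O (R ⧸ P) :=
    Module.Finite.of_surjective (Ideal.Quotient.mkₐ O P).toLinearMap
      (Ideal.Quotient.mkₐ_surjective O P)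
  have hsurj : Function.Surjective (Ideal.Quotient.mk P) := Ideal.Quotient.mk_surjective
  have hk₁ : RingHom.ker (Ideal.Quotient.mk P) ≤ 𝔫₁ := by rwa [Ideal.mk_ker]
  have hk₂ : RingHom.ker (Ideal.Quotient.mk P) ≤ 𝔫₂ := by rwa [Ideal.mk_ker]
  have hm₁ := Ideal.IsMaximal.map_of_surjective_of_ker_le hsurj hk₁
  have hm₂ := Ideal.IsMaximal.map_of_surjective_of_ker_le hsurj hk₂
  have heq := maximal_unique_of_finite_domain (O := O) (R ⧸ P) _ _ hm₁ hm₂
  have h3 := congrArg (Ideal.comap (Ideal.Quotient.mk P)) heq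
  rw [Ideal.comap_map_of_surjective _ hsurj, Ideal.comap_map_of_surjective _ hsurj] at h3
  have hb : Ideal.comap (Ideal.Quotient.mk P) ⊥ = P := by
    rw [← RingHom.ker_eq_comap_bot, Ideal.mk_ker]
  rw [hb, sup_eq_left.mpr hle₁, sup_eq_left.mpr hle₂] at h3
  exact h3

theorem eq_jacobson_of_le (O : Type) [CommRing O] [IsLocalRing O] [IsNoetherianRing O]
    [IsAdicComplete (maximalIdeal O) O]
    {R : Type} [CommRing R] [Algebra O R] [Module.Finite O R] (P : Ideal R) [hP : P.IsPrime] (𝔫 : Ideal R) (h𝔫 : 𝔫.IsMaximal)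
    (hle : P ≤ 𝔫) : 𝔫 = P.jacobson := by
  apply le_antisymm
  · unfold Ideal.jacobson
    apply le_sInf
    rintro J ⟨hPJ, hJ⟩
    exact (maximal_unique_over O P 𝔫 J h𝔫 hJ hle hPJ).le
  · exact sInf_le ⟨hle, h𝔫⟩

theorem jacobson_isMaximal_of_isPrime (O : Type) [CommRing O] [IsLocalRing O]
    [IsNoetherianRing O] [IsAdicComplete (maximalIdeal O) O]
    {R : Type} [CommRing R] [Algebra O R] [Module.Finite O R] (P : Ideal R) [hP : P.IsPrime] : P.jacobson.IsMaximal := by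
  obtain ⟨𝔫, h𝔫, hle⟩ := Ideal.exists_le_maximal P hP.ne_top
  rw [← eq_jacobson_of_le O P 𝔫 h𝔫 hle]
  exact h𝔫

/-- The place of `S` attached to an ideal of `A`: the trace on `S` of the (unique) maximal ideal
of `R` containing the trace of `𝔐` on `R`. -/
def placeIdeal {R A S : Type} [CommRing R] [CommRing A] [Algebra R A] [CommRing S]
    (φ : S →+* R) (𝔐 : Ideal A) : Ideal S :=
  ((𝔐.comap (algebraMap R A)).jacobson).comap φ

/-- The hypotheses of the abstract place correspondence. -/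
structure PlaceHyp {O R : Type} [CommRing O] [IsLocalRing O] [CommRing R] [Algebra O R]
    (ϖ : O) (A : Type) [CommRing A] [Algebra R A] {S : Type} [CommRing S] (φ : S →+* R)
    (q : S) : Prop where
  mem_max : ϖ ∈ maximalIdeal O
  loc : IsLocalization.Away (algebraMap O R ϖ) A
  inj : Function.Injective (algebraMap R A)
  q_ne : q ≠ 0
  map_q : φ q = algebraMap O R ϖ
  h4 : ∀ x : S, φ x ∈ Ideal.span {φ q} → x ∈ Ideal.span {q}
  h5 : ∀ r : R, ∃ y : S, r - φ y ∈ Ideal.span {φ q}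

variable {O : Type} [CommRing O] [IsLocalRing O] [IsNoetherianRing O]
  [IsAdicComplete (maximalIdeal O) O]
  {R : Type} [CommRing R] [Algebra O R] [Module.Finite O R]
  {A : Type} [CommRing A] [Algebra R A] {S : Type} [CommRing S]
  {ϖ : O} {φ : S →+* R} {q : S}

omit [IsNoetherianRing O] [IsAdicComplete (maximalIdeal O) O] in
theorem PlaceHyp.mem_of_isMaximal (H : PlaceHyp ϖ A φ q) (𝔫 : Ideal R) (h𝔫 : 𝔫.IsMaximal) :
    φ q ∈ 𝔫 := by
  rw [H.map_q]
  exact algebraMap_mem_of_isMaximal ϖ H.mem_max 𝔫 h𝔫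

omit [IsLocalRing O] [IsNoetherianRing O] [IsAdicComplete (maximalIdeal O) O]
  [Module.Finite O R] in
theorem PlaceHyp.not_mem_comap [IsLocalRing O] (H : PlaceHyp ϖ A φ q) (𝔐 : Ideal A)
    (h𝔐 : 𝔐 ≠ ⊤) : φ q ∉ 𝔐.comap (algebraMap R A) := by
  intro h
  have := H.loc
  have hu : IsUnit (algebraMap R A (algebraMap O R ϖ)) :=
    IsLocalization.Away.algebraMap_isUnit (algebraMap O R ϖ)
  rw [H.map_q] at h
  exact h𝔐 (Ideal.eq_top_of_isUnit_mem _ h hu)

theorem PlaceHyp.placeIdeal_isPrime (_H : PlaceHyp ϖ A φ q) (𝔐 : Ideal A) [h𝔐 : 𝔐.IsPrime] :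
    (placeIdeal φ 𝔐).IsPrime := by
  have := jacobson_isMaximal_of_isPrime O (𝔐.comap (algebraMap R A))
  unfold placeIdeal
  infer_instance

theorem PlaceHyp.mem_placeIdeal (H : PlaceHyp ϖ A φ q) (𝔐 : Ideal A) [h𝔐 : 𝔐.IsPrime] :
    q ∈ placeIdeal φ 𝔐 :=
  H.mem_of_isMaximal _ (jacobson_isMaximal_of_isPrime O (𝔐.comap (algebraMap R A)))

theorem PlaceHyp.placeIdeal_injective [IsDedekindDomain S] (H : PlaceHyp ϖ A φ q)
    (𝔐₁ 𝔐₂ : Ideal A) [h₁ : 𝔐₁.IsPrime] [h₂ : 𝔐₂.IsPrime]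
    (h : placeIdeal φ 𝔐₁ = placeIdeal φ 𝔐₂) : 𝔐₁ = 𝔐₂ := by
  have : IsNoetherianRing R := IsNoetherianRing.of_finite O R
  set P₁ := 𝔐₁.comap (algebraMap R A) with hP₁
  set P₂ := 𝔐₂.comap (algebraMap R A) with hP₂
  have hm₁ := jacobson_isMaximal_of_isPrime O P₁
  have hm₂ := jacobson_isMaximal_of_isPrime O P₂
  have hq₁ := H.mem_of_isMaximal _ hm₁
  have hq₂ := H.mem_of_isMaximal _ hm₂
  have h𝔫 : P₁.jacobson = P₂.jacobson := by
    rw [← map_comap_of_mem φ q H.h5 _ hq₁, ← map_comap_of_mem φ q H.h5 _ hq₂]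
    exact congrArg (Ideal.map φ) h
  set v := placeIdeal φ 𝔐₁ with hv
  have hvp : v.IsPrime := H.placeIdeal_isPrime 𝔐₁
  have hqv : q ∈ v := H.mem_placeIdeal 𝔐₁
  have hv0 : v ≠ ⊥ := by
    intro h0
    rw [h0] at hqv
    exact H.q_ne (by simpa using hqv)
  obtain ⟨π, hπ, s, hs, hsπ⟩ := exists_uniformizer_mul v hv0
  have h𝔫v : P₁.jacobson = v.map φ := (map_comap_of_mem φ q H.h5 _ hq₁).symm
  have hkey : ∀ x ∈ P₁.jacobson, φ s * x ∈ Ideal.span {φ π} := by
    intro x hx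
    have h1 : φ s * x ∈ Ideal.span {φ s} * v.map φ :=
      Ideal.mul_mem_mul (Ideal.mem_span_singleton_self _) (h𝔫v ▸ hx)
    have h2 : Ideal.span {φ s} * v.map φ ≤ Ideal.span {φ π} := by
      have e1 : Ideal.span {φ s} = (Ideal.span {s}).map φ := by
        rw [Ideal.map_span, Set.image_singleton]
      have e2 : Ideal.span {φ π} = (Ideal.span {π}).map φ := by
        rw [Ideal.map_span, Set.image_singleton]
      rw [e1, e2, ← Ideal.map_mul]
      apply Ideal.map_mono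
      rw [Ideal.span_singleton_mul_le_iff]
      intro g hg
      exact hsπ g hg
    exact h2 h1
  have hne₁ : P₁ ≠ P₁.jacobson := fun he => H.not_mem_comap 𝔐₁ h₁.ne_top (by rw [← hP₁, he]; exact hq₁)
  have hne₂ : P₂ ≠ P₁.jacobson := fun he => H.not_mem_comap 𝔐₂ h₂.ne_top (by rw [← hP₂, he]; exact hq₁)
  have hPP : P₁ = P₂ :=
    prime_unique_below (P₁.jacobson) (h𝔪 := hm₁.isPrime) (φ π) (φ s) hs hπ hkey P₁ P₂
      Ideal.le_jacobson hne₁ (h𝔫 ▸ Ideal.le_jacobson) hne₂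
  have := H.loc
  rw [← IsLocalization.map_under (Submonoid.powers (algebraMap O R ϖ)) A 𝔐₁,
    ← IsLocalization.map_under (Submonoid.powers (algebraMap O R ϖ)) A 𝔐₂]
  exact congrArg (Ideal.map (algebraMap R A)) hPP

theorem PlaceHyp.placeIdeal_surjective [IsDedekindDomain S] (H : PlaceHyp ϖ A φ q)
    (v : Ideal S) [hv : v.IsPrime] (hq : q ∈ v) :
    ∃ 𝔐 : Ideal A, 𝔐.IsPrime ∧ placeIdeal φ 𝔐 = v := by
  have hv0 : v ≠ ⊥ := by
    intro h0
    rw [h0] at hq
    exact H.q_ne (by simpa using hq)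
  have hvm : v.IsMaximal := Ideal.IsPrime.isMaximal hv hv0
  have h𝔫 : (v.map φ).IsMaximal :=
    map_isMaximal_of_mem φ q H.h4 H.h5 (fun 𝔪 h𝔪 => H.mem_of_isMaximal 𝔪 h𝔪) v hvm hq
  have hnzd : ∀ x : R, algebraMap O R ϖ * x = 0 → x = 0 := by
    intro x hx
    have := H.loc
    have hu : IsUnit (algebraMap R A (algebraMap O R ϖ)) :=
      IsLocalization.Away.algebraMap_isUnit (algebraMap O R ϖ)
    apply H.inj
    rw [map_zero]
    have h1 := congrArg (algebraMap R A) hx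
    rw [map_mul, map_zero] at h1
    exact (hu.mul_right_eq_zero).mp h1
  obtain ⟨P, hP, hle, hϖP⟩ := exists_prime_below (v.map φ) (h𝔪 := h𝔫.isPrime)
    (algebraMap O R ϖ) hnzd
  have hdisj : Disjoint ((Submonoid.powers (algebraMap O R ϖ) : Submonoid R) : Set R)
      (P : Set R) := by
    rw [Set.disjoint_left]
    rintro x ⟨n, rfl⟩ hxP
    exact hϖP (hP.mem_of_pow_mem n hxP)
  have := H.loc
  refine ⟨P.map (algebraMap R A), IsLocalization.isPrime_of_isPrime_disjoint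
    (Submonoid.powers (algebraMap O R ϖ)) A P hP hdisj, ?_⟩
  unfold placeIdeal
  have h1 : (P.map (algebraMap R A)).comap (algebraMap R A) = P :=
    IsLocalization.under_map_of_isPrime_disjoint (Submonoid.powers (algebraMap O R ϖ)) A hP hdisj
  rw [h1, ← eq_jacobson_of_le O P (v.map φ) h𝔫 hle]
  exact comap_map_of_mem φ q H.h4 H.h5 v hq

/-- Functoriality of the place map. -/
theorem placeIdeal_comap {R₂ A₂ S₂ : Type} [CommRing R₂] [Algebra O R₂] [Module.Finite O R₂]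
    [CommRing A₂] [Algebra R₂ A₂] [CommRing S₂] (φ₂ : S₂ →+* R₂)
    (ψ : R →+* R₂) (hψ : ψ.IsIntegral) (α : A →+* A₂) (ι : S →+* S₂)
    (hα : α.comp (algebraMap R A) = (algebraMap R₂ A₂).comp ψ)
    (hι : ψ.comp φ = φ₂.comp ι) (𝔐 : Ideal A₂) [h𝔐 : 𝔐.IsPrime] :
    placeIdeal φ (𝔐.comap α) = (placeIdeal φ₂ 𝔐).comap ι := by
  unfold placeIdeal
  set P₂ := 𝔐.comap (algebraMap R₂ A₂) with hP₂
  have hm₂ := jacobson_isMaximal_of_isPrime O P₂
  have hP₁ : (𝔐.comap α).comap (algebraMap R A) = P₂.comap ψ := by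
    rw [Ideal.comap_comap, hα, ← Ideal.comap_comap]
  rw [hP₁]
  have hmax : (P₂.jacobson.comap ψ).IsMaximal :=
    Ideal.isMaximal_comap_of_isIntegral_of_isMaximal' ψ hψ P₂.jacobson
  have hle : P₂.comap ψ ≤ P₂.jacobson.comap ψ := Ideal.comap_mono Ideal.le_jacobson
  rw [← eq_jacobson_of_le O (P₂.comap ψ) _ hmax hle, Ideal.comap_comap, Ideal.comap_comap, hι]

end Assembly

end Fermat.Agent.S55.CFT.H80
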