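/-
S55 package E4, island GLB, package PL (places), part 2: the integral subalgebra
`R' = ℤ_p · 𝓞_K ⊆ ℚ_p ⊗ K` and the verification of the hypotheses of the abstract place
correspondence (`H80_PlacesAbs`).
Owner: helper80.
-/
import Mathlib
import Fermat.Agent.S55.CFT.H80_PlacesAbs

set_option autoImplicit false

open NumberField TensorProduct Module

noncomputable section

namespace Fermat.Agent.S55.CFT.H80

variable (p : ℕ) [hp : Fact p.Prime] (K : Type) [Field K] [NumberField K]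

/-- The map `𝓞 K → ℚ_p ⊗ K`, `x ↦ 1 ⊗ x`. -/
def incl : 𝓞 K →+* ℚ_[p] ⊗[ℚ] K :=
  (Algebra.TensorProduct.includeRight : K →ₐ[ℚ] ℚ_[p] ⊗[ℚ] K).toRingHom.comp (algebraMap (𝓞 K) K)

lemma incl_apply (x : 𝓞 K) : incl p K x = (1 : ℚ_[p]) ⊗ₜ[ℚ] (x : K) := rfl

/-- The `ℤ_p`-subalgebra of `ℚ_p ⊗ K` generated by `𝓞 K`. -/
def intSub : Subalgebra ℤ_[p] (ℚ_[p] ⊗[ℚ] K) :=
  Algebra.adjoin ℤ_[p] (Set.range (incl p K))

/-- The `ℚ_p`-basis `1 ⊗ b_i` of `ℚ_p ⊗ K`, `b_i` an integral basis. -/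
def tBasis : Basis (Free.ChooseBasisIndex ℤ (𝓞 K)) ℚ_[p] (ℚ_[p] ⊗[ℚ] K) :=
  Algebra.TensorProduct.basis ℚ_[p] (integralBasis K)

lemma tBasis_apply (i : Free.ChooseBasisIndex ℤ (𝓞 K)) :
    tBasis p K i = incl p K (RingOfIntegers.basis K i) := by
  rw [tBasis, Algebra.TensorProduct.basis_apply, integralBasis_apply, incl_apply]

lemma tBasis_repr_incl (x : 𝓞 K) (i : Free.ChooseBasisIndex ℤ (𝓞 K)) :
    (tBasis p K).repr (incl p K x) i = (((RingOfIntegers.basis K).repr x i : ℤ) : ℚ_[p]) := by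
  rw [tBasis, incl_apply, Algebra.TensorProduct.basis_repr_tmul]
  simp [integralBasis_repr_apply]

lemma intSub_toSubmodule :
    Subalgebra.toSubmodule (intSub p K) = Submodule.span ℤ_[p] (Set.range (incl p K)) := by
  rw [intSub, Algebra.adjoin_eq_span]
  congr 1
  have h : Set.range (incl p K) =
      (MonoidHom.mrange (incl p K : 𝓞 K →* ℚ_[p] ⊗[ℚ] K) : Set _) := by
    ext x
    simp
  rw [h, Submonoid.closure_eq]

lemma incl_mem (x : 𝓞 K) : incl p K x ∈ intSub p K :=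
  Algebra.subset_adjoin ⟨x, rfl⟩

lemma coe_smul_eq (c : ℤ_[p]) (a : ℚ_[p] ⊗[ℚ] K) : c • a = (c : ℚ_[p]) • a := rfl

/-- Membership in `intSub` in terms of coordinates: all coordinates are `p`-adic integers. -/
theorem mem_intSub_iff (a : ℚ_[p] ⊗[ℚ] K) :
    a ∈ intSub p K ↔ ∀ i, ‖(tBasis p K).repr a i‖ ≤ 1 := by
  constructor
  · intro ha
    have ha' : a ∈ Submodule.span ℤ_[p] (Set.range (incl p K)) := by
      rw [← intSub_toSubmodule]
      exact ha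
    refine Submodule.span_induction (p := fun a _ => ∀ i, ‖(tBasis p K).repr a i‖ ≤ 1)
      ?_ ?_ ?_ ?_ ha'
    · rintro _ ⟨x, rfl⟩ i
      rw [tBasis_repr_incl]
      exact Padic.norm_int_le_one _
    · intro i
      simp
    · intro a b _ _ ha hb i
      rw [map_add, Finsupp.add_apply]
      exact (Padic.nonarchimedean _ _).trans (max_le (ha i) (hb i))
    · intro c a _ ha i
      rw [coe_smul_eq, map_smul, Finsupp.smul_apply, smul_eq_mul, norm_mul]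
      exact mul_le_one₀ (PadicInt.norm_le_one c) (norm_nonneg _) (ha i)
  · intro h
    rw [← (tBasis p K).sum_repr a]
    apply Subalgebra.sum_mem
    intro i _
    let c : ℤ_[p] := ⟨(tBasis p K).repr a i, h i⟩
    have : (tBasis p K).repr a i • tBasis p K i = c • tBasis p K i := rfl
    rw [this]
    apply Subalgebra.smul_mem
    rw [tBasis_apply]
    exact incl_mem p K _


lemma one_lt_p_real : (1 : ℝ) < (p : ℝ) := by exact_mod_cast hp.1.one_lt

lemma p_ne_zero_padic : (p : ℚ_[p]) ≠ 0 := by exact_mod_cast hp.1.ne_zero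

/-- Every element of `ℚ_p ⊗ K` is `p^{-N}` times an element of `intSub`. -/
theorem exists_pow_smul_mem (a : ℚ_[p] ⊗[ℚ] K) : ∃ N : ℕ, (p : ℚ_[p]) ^ N • a ∈ intSub p K := by
  obtain ⟨N, hN⟩ := pow_unbounded_of_one_lt (∑ i, ‖(tBasis p K).repr a i‖) (one_lt_p_real p)
  refine ⟨N, ?_⟩
  rw [mem_intSub_iff]
  intro i
  rw [map_smul, Finsupp.smul_apply, smul_eq_mul, norm_mul, Padic.norm_p_pow]
  have h1 : ‖(tBasis p K).repr a i‖ ≤ (p : ℝ) ^ N :=
    (Finset.single_le_sum (f := fun i => ‖(tBasis p K).repr a i‖)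
      (fun j _ => norm_nonneg _) (Finset.mem_univ i)).trans hN.le
  have hpos : (0 : ℝ) < (p : ℝ) ^ N := pow_pos (by linarith [one_lt_p_real p]) N
  rw [zpow_neg, zpow_natCast, inv_mul_le_iff₀ hpos, mul_one]
  exact h1

/-- Surjectivity of `𝓞 K / p → intSub / p`. -/
theorem exists_sub_incl_eq (r : ℚ_[p] ⊗[ℚ] K) (hr : r ∈ intSub p K) :
    ∃ y : 𝓞 K, ∃ r' ∈ intSub p K, r - incl p K y = (p : ℚ_[p]) • r' := by
  classical
  rw [mem_intSub_iff] at hr
  have hex : ∀ i, ∃ n : ℕ, ∃ d : ℤ_[p], (tBasis p K).repr r i - (n : ℚ_[p]) = p * (d : ℚ_[p]) := by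
    intro i
    let c : ℤ_[p] := ⟨(tBasis p K).repr r i, hr i⟩
    have hc : (c : ℚ_[p]) = (tBasis p K).repr r i := rfl
    obtain ⟨n, -, hn⟩ := PadicInt.exists_mem_range (p := p) (x := c)
    rw [PadicInt.maximalIdeal_eq_span_p, Ideal.mem_span_singleton'] at hn
    obtain ⟨d, hd⟩ := hn
    refine ⟨n, d, ?_⟩
    rw [← hc]
    have h1 : ((d * (p : ℤ_[p]) : ℤ_[p]) : ℚ_[p]) = ((c - (n : ℤ_[p]) : ℤ_[p]) : ℚ_[p]) := by
      rw [hd]
    push_cast at h1
    rw [← h1, mul_comm]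
  choose n d hnd using hex
  set y : 𝓞 K := ∑ i, (n i : ℤ) • RingOfIntegers.basis K i with hy
  have hyrepr : ∀ i, (tBasis p K).repr (incl p K y) i = (n i : ℚ_[p]) := by
    intro i
    rw [tBasis_repr_incl, hy, Basis.repr_sum_self]
    simp
  refine ⟨y, (p : ℚ_[p])⁻¹ • (r - incl p K y), ?_, ?_⟩
  · rw [mem_intSub_iff]
    intro i
    rw [map_smul, map_sub, Finsupp.smul_apply, Finsupp.sub_apply, hyrepr, hnd, smul_eq_mul,
      ← mul_assoc, inv_mul_cancel₀ (p_ne_zero_padic p), one_mul]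
    exact PadicInt.norm_le_one _
  · rw [smul_smul, mul_inv_cancel₀ (p_ne_zero_padic p), one_smul]

/-- Injectivity of `𝓞 K / p → intSub / p`. -/
theorem dvd_of_incl_eq (x : 𝓞 K) (r' : ℚ_[p] ⊗[ℚ] K) (hr' : r' ∈ intSub p K)
    (h : incl p K x = (p : ℚ_[p]) • r') : ∃ y : 𝓞 K, x = (p : 𝓞 K) * y := by
  classical
  rw [mem_intSub_iff] at hr'
  have hdvd : ∀ i, (p : ℤ) ∣ (RingOfIntegers.basis K).repr x i := by
    intro i
    have h1 := congrArg (fun z => (tBasis p K).repr z i) h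
    simp only [tBasis_repr_incl, map_smul, Finsupp.smul_apply, smul_eq_mul] at h1
    have h2 : ‖(((RingOfIntegers.basis K).repr x i : ℤ) : ℚ_[p])‖ ≤ (p : ℝ) ^ (-(1 : ℕ) : ℤ) := by
      rw [h1, norm_mul, Padic.norm_p]
      have : (p : ℝ) ^ (-(1 : ℕ) : ℤ) = (p : ℝ)⁻¹ := by simp
      rw [this]
      have hpos : (0 : ℝ) ≤ (p : ℝ)⁻¹ := inv_nonneg.mpr (by linarith [one_lt_p_real p])
      calc (p : ℝ)⁻¹ * ‖(tBasis p K).repr r' i‖ ≤ (p : ℝ)⁻¹ * 1 :=
            mul_le_mul_of_nonneg_left (hr' i) hpos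
        _ = (p : ℝ)⁻¹ := mul_one _
    have h3 := (Padic.norm_int_le_pow_iff_dvd _ 1).mp h2
    simpa using h3
  choose k hk using hdvd
  refine ⟨∑ i, k i • RingOfIntegers.basis K i, ?_⟩
  conv_lhs => rw [← (RingOfIntegers.basis K).sum_repr x]
  rw [Finset.mul_sum]
  apply Finset.sum_congr rfl
  intro i _
  rw [hk i, mul_smul, zsmul_eq_mul]
  simp


/-- The map `𝓞 K → intSub`. -/
def intMap : 𝓞 K →+* intSub p K := (incl p K).codRestrict (intSub p K) (incl_mem p K)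

lemma intMap_coe (x : 𝓞 K) : ((intMap p K x : intSub p K) : ℚ_[p] ⊗[ℚ] K) = incl p K x := rfl

lemma intSub_toSubmodule_eq_span :
    Subalgebra.toSubmodule (intSub p K) = Submodule.span ℤ_[p] (Set.range (tBasis p K)) := by
  apply le_antisymm
  · intro a ha
    have h := (mem_intSub_iff p K a).mp ha
    rw [← (tBasis p K).sum_repr a]
    apply Submodule.sum_mem
    intro i _
    let c : ℤ_[p] := ⟨(tBasis p K).repr a i, h i⟩
    have : (tBasis p K).repr a i • tBasis p K i = c • tBasis p K i := rfl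
    rw [this]
    exact Submodule.smul_mem _ _ (Submodule.subset_span ⟨i, rfl⟩)
  · rw [Submodule.span_le]
    rintro _ ⟨i, rfl⟩
    rw [tBasis_apply]
    exact incl_mem p K _

instance intSub_finite : Module.Finite ℤ_[p] (intSub p K) := by
  have h : (Subalgebra.toSubmodule (intSub p K)).FG := by
    rw [intSub_toSubmodule_eq_span]
    exact Submodule.fg_span (Set.finite_range _)
  exact Module.Finite.iff_fg.mpr h

lemma algebraMap_intSub_p :
    ((algebraMap ℤ_[p] (intSub p K) (p : ℤ_[p]) : intSub p K) : ℚ_[p] ⊗[ℚ] K) =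
      (p : ℚ_[p]) • (1 : ℚ_[p] ⊗[ℚ] K) := by
  rw [map_natCast]
  simp [Algebra.smul_def]

theorem intSub_isLocalization :
    IsLocalization.Away (algebraMap ℤ_[p] (intSub p K) (p : ℤ_[p])) (ℚ_[p] ⊗[ℚ] K) := by
  have hunit : IsUnit ((p : ℚ_[p]) • (1 : ℚ_[p] ⊗[ℚ] K)) := by
    rw [← Algebra.algebraMap_eq_smul_one]
    exact (IsUnit.mk0 _ (p_ne_zero_padic p)).map (algebraMap ℚ_[p] (ℚ_[p] ⊗[ℚ] K))
  rw [IsLocalization.Away, isLocalization_iff]
  refine ⟨?_, ?_, ?_⟩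
  · rintro ⟨_, n, rfl⟩
    rw [map_pow]
    apply IsUnit.pow
    change IsUnit ((algebraMap ℤ_[p] (intSub p K) (p : ℤ_[p]) : intSub p K) : ℚ_[p] ⊗[ℚ] K)
    rw [algebraMap_intSub_p]
    exact hunit
  · intro a
    obtain ⟨N, hN⟩ := exists_pow_smul_mem p K a
    refine ⟨(⟨_, hN⟩, ⟨_, N, rfl⟩), ?_⟩
    change a * ((algebraMap ℤ_[p] (intSub p K) (p : ℤ_[p]) ^ N : intSub p K) : ℚ_[p] ⊗[ℚ] K) =
      (p : ℚ_[p]) ^ N • a
    rw [Subalgebra.coe_pow, algebraMap_intSub_p, smul_pow, one_pow, mul_smul_comm, mul_one]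
  · intro x y hxy
    refine ⟨1, ?_⟩
    have : x = y := Subtype.ext hxy
    rw [this]

theorem placeHyp : PlaceHyp (p : ℤ_[p]) (ℚ_[p] ⊗[ℚ] K) (intMap p K) (p : 𝓞 K) where
  mem_max := by
    rw [PadicInt.maximalIdeal_eq_span_p]
    exact Ideal.mem_span_singleton_self _
  loc := intSub_isLocalization p K
  inj := Subtype.val_injective
  q_ne := by exact_mod_cast hp.1.ne_zero
  map_q := by rw [map_natCast, map_natCast]
  h4 := by
    intro x hx
    rw [Ideal.mem_span_singleton'] at hx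
    obtain ⟨r', hr'⟩ := hx
    have h1 : incl p K x = (p : ℚ_[p]) • (r' : ℚ_[p] ⊗[ℚ] K) := by
      have h2 := congrArg (fun z : intSub p K => (z : ℚ_[p] ⊗[ℚ] K)) hr'
      simp only [Subalgebra.coe_mul, intMap_coe] at h2
      rw [← h2, map_natCast, Algebra.smul_def, map_natCast, mul_comm]
    obtain ⟨y, hy⟩ := dvd_of_incl_eq p K x r' r'.2 h1
    rw [Ideal.mem_span_singleton']
    exact ⟨y, by rw [hy, mul_comm]⟩
  h5 := by
    intro r
    obtain ⟨y, r', hr', h⟩ := exists_sub_incl_eq p K r r.2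
    refine ⟨y, ?_⟩
    rw [Ideal.mem_span_singleton']
    refine ⟨⟨r', hr'⟩, ?_⟩
    apply Subtype.ext
    simp only [Subalgebra.coe_mul, Subalgebra.coe_sub, intMap_coe]
    rw [h, map_natCast, Algebra.smul_def, map_natCast, mul_comm]


/-! ### The place of `𝓞 K` attached to a prime of `ℚ_p ⊗ K` -/

/-- The place of `K` (a prime of `𝓞 K` above `p`) attached to an ideal of `ℚ_p ⊗ K`. -/
def placeOf (𝔐 : Ideal (ℚ_[p] ⊗[ℚ] K)) : Ideal (𝓞 K) := placeIdeal (intMap p K) 𝔐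

theorem placeOf_isPrime (𝔐 : Ideal (ℚ_[p] ⊗[ℚ] K)) [𝔐.IsPrime] : (placeOf p K 𝔐).IsPrime :=
  (placeHyp p K).placeIdeal_isPrime 𝔐

theorem mem_placeOf (𝔐 : Ideal (ℚ_[p] ⊗[ℚ] K)) [𝔐.IsPrime] : (p : 𝓞 K) ∈ placeOf p K 𝔐 :=
  (placeHyp p K).mem_placeIdeal 𝔐

theorem placeOf_injective (𝔐₁ 𝔐₂ : Ideal (ℚ_[p] ⊗[ℚ] K)) [𝔐₁.IsPrime] [𝔐₂.IsPrime]
    (h : placeOf p K 𝔐₁ = placeOf p K 𝔐₂) : 𝔐₁ = 𝔐₂ :=
  (placeHyp p K).placeIdeal_injective 𝔐₁ 𝔐₂ h

instance semiLocal_isArtinianRing : IsArtinianRing (ℚ_[p] ⊗[ℚ] K) :=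
  IsArtinianRing.of_finite ℚ_[p] _

theorem placeOf_surjective (v : Ideal (𝓞 K)) [v.IsPrime] (hv : (p : 𝓞 K) ∈ v) :
    ∃ 𝔐 : Ideal (ℚ_[p] ⊗[ℚ] K), 𝔐.IsMaximal ∧ placeOf p K 𝔐 = v := by
  obtain ⟨𝔐, h𝔐, h⟩ := (placeHyp p K).placeIdeal_surjective v hv
  exact ⟨𝔐, IsArtinianRing.isMaximal_of_isPrime 𝔐, h⟩

/-! ### Functoriality in `K ⊆ L` -/

variable (L : Type) [Field L] [NumberField L] [Algebra K L]

/-- The base change `ℚ_p ⊗ K → ℚ_p ⊗ L`. -/
def baseMap : ℚ_[p] ⊗[ℚ] K →ₐ[ℚ_[p]] ℚ_[p] ⊗[ℚ] L :=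
  Algebra.TensorProduct.map (AlgHom.id ℚ_[p] ℚ_[p]) (algebraMap K L).toRatAlgHom

lemma baseMap_incl (x : 𝓞 K) :
    baseMap p K L (incl p K x) = incl p L (algebraMap (𝓞 K) (𝓞 L) x) := by
  rw [incl_apply, incl_apply, baseMap, Algebra.TensorProduct.map_tmul]
  rfl

lemma baseMap_mem (r : ℚ_[p] ⊗[ℚ] K) (hr : r ∈ intSub p K) : baseMap p K L r ∈ intSub p L := by
  have hr' : r ∈ Submodule.span ℤ_[p] (Set.range (incl p K)) := by
    rw [← intSub_toSubmodule]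
    exact hr
  refine Submodule.span_induction (p := fun r _ => baseMap p K L r ∈ intSub p L)
    ?_ ?_ ?_ ?_ hr'
  · rintro _ ⟨x, rfl⟩
    rw [baseMap_incl]
    exact incl_mem p L _
  · rw [map_zero]
    exact Subalgebra.zero_mem _
  · intro a b _ _ ha hb
    rw [map_add]
    exact Subalgebra.add_mem _ ha hb
  · intro c a _ ha
    rw [coe_smul_eq, map_smul, ← coe_smul_eq]
    exact Subalgebra.smul_mem _ ha c

/-- The restriction `intSub p K → intSub p L` of the base change map. -/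
def intBase : intSub p K →+* intSub p L :=
  ((baseMap p K L).toRingHom.comp (intSub p K).val.toRingHom).codRestrict (intSub p L)
    (fun r => baseMap_mem p K L r r.2)

lemma intBase_coe (r : intSub p K) :
    ((intBase p K L r : intSub p L) : ℚ_[p] ⊗[ℚ] L) = baseMap p K L r := rfl

lemma intBase_isIntegral : (intBase p K L).IsIntegral := by
  apply RingHom.IsIntegral.tower_top (algebraMap ℤ_[p] (intSub p K)) (intBase p K L)
  have h : (intBase p K L).comp (algebraMap ℤ_[p] (intSub p K)) =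
      algebraMap ℤ_[p] (intSub p L) := by
    ext c
    rw [RingHom.comp_apply, intBase_coe]
    change baseMap p K L (algebraMap ℤ_[p] (ℚ_[p] ⊗[ℚ] K) c) = algebraMap ℤ_[p] (ℚ_[p] ⊗[ℚ] L) c
    rw [IsScalarTower.algebraMap_apply ℤ_[p] ℚ_[p] (ℚ_[p] ⊗[ℚ] K),
      IsScalarTower.algebraMap_apply ℤ_[p] ℚ_[p] (ℚ_[p] ⊗[ℚ] L), AlgHom.commutes]
  rw [h]
  exact algebraMap_isIntegral_iff.mpr inferInstance

/-- Functoriality of the place map: the place of `comap 𝔐` is the trace on `𝓞 K` of the place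
of `𝔐`. -/
theorem placeOf_comap (𝔐 : Ideal (ℚ_[p] ⊗[ℚ] L)) [𝔐.IsPrime] :
    placeOf p K (𝔐.comap (baseMap p K L)) =
      (placeOf p L 𝔐).comap (algebraMap (𝓞 K) (𝓞 L)) := by
  have h := placeIdeal_comap (O := ℤ_[p]) (φ := intMap p K) (intMap p L) (intBase p K L)
    (intBase_isIntegral p K L) (baseMap p K L).toRingHom (algebraMap (𝓞 K) (𝓞 L))
    (by ext r; rfl)
    (by
      ext x
      change baseMap p K L (incl p K x) = incl p L (algebraMap (𝓞 K) (𝓞 L) x)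
      exact baseMap_incl p K L x) 𝔐
  exact h

end Fermat.Agent.S55.CFT.H80
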