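/-
S55 package E4, island GLB, package PL (places), part 3: `Stmt_Places`.
The maximal ideals of `ℚ_q ⊗ K` correspond to the primes of `𝓞 K` above `q`, compatibly with
`K ⊆ L`; the two counts of nonsplit places agree.
Owner: helper80.
-/
import Mathlib
import Fermat.Agent.S55.CFT.Global
import Fermat.Agent.S55.CFT.H80_PlacesInt

set_option autoImplicit false

open NumberField TensorProduct Module

noncomputable section

namespace Fermat.Agent.S55.CFT.H80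

section Generic

variable (p : ℕ) [hp : Fact p.Prime] (K L : Type) [Field K] [NumberField K] [Field L]
  [NumberField L] [Algebra K L]

omit [NumberField K] [NumberField L] in
lemma algebraMap_natCast_mem (v : Ideal (𝓞 K)) (w : Ideal (𝓞 L)) [hw : w.LiesOver v] (n : ℕ) :
    (n : 𝓞 K) ∈ v ↔ (n : 𝓞 L) ∈ w := by
  rw [Ideal.mem_of_liesOver w v, map_natCast]

/-- The place of `𝔐` lies over the place of `comap 𝔐`. -/
lemma placeOf_liesOver (𝔪 : Ideal (ℚ_[p] ⊗[ℚ] K)) (𝔐 : Ideal (ℚ_[p] ⊗[ℚ] L)) [𝔐.IsPrime]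
    (h : 𝔐.comap (baseMap p K L) = 𝔪) : (placeOf p L 𝔐).LiesOver (placeOf p K 𝔪) := by
  constructor
  rw [← h, placeOf_comap]

/-- Every prime of `𝓞 L` over the place of `𝔪` is the place of a maximal ideal over `𝔪`. -/
lemma exists_over_of_liesOver (𝔪 : Ideal (ℚ_[p] ⊗[ℚ] K)) [𝔪.IsPrime] (w : Ideal (𝓞 L))
    [hw : w.IsPrime] [hwv : w.LiesOver (placeOf p K 𝔪)] :
    ∃ 𝔐 : Ideal (ℚ_[p] ⊗[ℚ] L), 𝔐.IsMaximal ∧ 𝔐.comap (baseMap p K L) = 𝔪 ∧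
      placeOf p L 𝔐 = w := by
  have hpw : (p : 𝓞 L) ∈ w :=
    (algebraMap_natCast_mem K L (placeOf p K 𝔪) w p).mp (mem_placeOf p K 𝔪)
  obtain ⟨𝔐, h𝔐, h⟩ := placeOf_surjective p L w hpw
  refine ⟨𝔐, h𝔐, ?_, h⟩
  have := h𝔐.isPrime
  apply placeOf_injective p K
  rw [placeOf_comap, h]
  exact (hwv.over).symm

theorem existsUnique_iff_ncard (𝔪 : MaximalSpectrum (ℚ_[p] ⊗[ℚ] K)) :
    (∃! 𝔐 : MaximalSpectrum (ℚ_[p] ⊗[ℚ] L),
      𝔐.asIdeal.comap (baseMap p K L) = 𝔪.asIdeal) ↔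
      ((placeOf p K 𝔪.asIdeal).primesOver (𝓞 L)).ncard = 1 := by
  have := 𝔪.isMaximal.isPrime
  rw [Set.ncard_eq_one]
  constructor
  · rintro ⟨𝔐₀, h₀, huniq⟩
    have := 𝔐₀.isMaximal.isPrime
    refine ⟨placeOf p L 𝔐₀.asIdeal, ?_⟩
    ext w
    simp only [Set.mem_singleton_iff]
    constructor
    · rintro ⟨hw, hwv⟩
      obtain ⟨𝔐, h𝔐, hc, hpl⟩ := exists_over_of_liesOver p K L 𝔪.asIdeal w
      have := huniq ⟨𝔐, h𝔐⟩ hc
      rw [← hpl, ← this]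
    · rintro rfl
      exact ⟨placeOf_isPrime p L _, placeOf_liesOver p K L _ _ h₀⟩
  · rintro ⟨w₀, hw₀⟩
    have hmem : w₀ ∈ (placeOf p K 𝔪.asIdeal).primesOver (𝓞 L) := by
      rw [hw₀]
      exact Set.mem_singleton _
    obtain ⟨hw, hwv⟩ := hmem
    obtain ⟨𝔐₀, h𝔐₀, hc₀, hpl₀⟩ := exists_over_of_liesOver p K L 𝔪.asIdeal w₀
    refine ⟨⟨𝔐₀, h𝔐₀⟩, hc₀, ?_⟩
    intro 𝔐 hc
    have := 𝔐.isMaximal.isPrime
    have := h𝔐₀.isPrime
    have h1 : placeOf p L 𝔐.asIdeal ∈ (placeOf p K 𝔪.asIdeal).primesOver (𝓞 L) :=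
      ⟨placeOf_isPrime p L _, placeOf_liesOver p K L _ _ hc⟩
    rw [hw₀, Set.mem_singleton_iff] at h1
    apply MaximalSpectrum.ext
    apply placeOf_injective p L
    rw [h1, hpl₀]

end Generic

section Primes

variable (K L : Type) [Field K] [NumberField K] [Field L] [NumberField L] [Algebra K L]

/-- The place of `K` attached to a maximal ideal of `ℚ_q ⊗ K`. -/
def placeQ (q : Nat.Primes) (𝔪 : MaximalSpectrum (SemiLocal K q)) : Ideal (𝓞 K) :=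
  haveI := fact_primes q
  placeOf (q : ℕ) K 𝔪.asIdeal

lemma placeQ_isPrime (q : Nat.Primes) (𝔪 : MaximalSpectrum (SemiLocal K q)) :
    (placeQ K q 𝔪).IsPrime := by
  have := fact_primes q
  have : Ideal.IsPrime (𝔪.asIdeal : Ideal (ℚ_[(q : ℕ)] ⊗[ℚ] K)) := 𝔪.isMaximal.isPrime
  exact placeOf_isPrime (q : ℕ) K 𝔪.asIdeal

lemma placeQ_mem (q : Nat.Primes) (𝔪 : MaximalSpectrum (SemiLocal K q)) :
    ((q : ℕ) : 𝓞 K) ∈ placeQ K q 𝔪 := by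
  have := fact_primes q
  have : Ideal.IsPrime (𝔪.asIdeal : Ideal (ℚ_[(q : ℕ)] ⊗[ℚ] K)) := 𝔪.isMaximal.isPrime
  exact mem_placeOf (q : ℕ) K 𝔪.asIdeal

lemma placeQ_ne_bot (q : Nat.Primes) (𝔪 : MaximalSpectrum (SemiLocal K q)) :
    placeQ K q 𝔪 ≠ ⊥ := by
  intro h
  have h1 := placeQ_mem K q 𝔪
  rw [h, Ideal.mem_bot] at h1
  exact q.2.ne_zero (by exact_mod_cast h1)

lemma placeQ_injective (q : Nat.Primes) (𝔪 𝔪' : MaximalSpectrum (SemiLocal K q))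
    (h : placeQ K q 𝔪 = placeQ K q 𝔪') : 𝔪 = 𝔪' := by
  have := fact_primes q
  have : Ideal.IsPrime (𝔪.asIdeal : Ideal (ℚ_[(q : ℕ)] ⊗[ℚ] K)) := 𝔪.isMaximal.isPrime
  have : Ideal.IsPrime (𝔪'.asIdeal : Ideal (ℚ_[(q : ℕ)] ⊗[ℚ] K)) := 𝔪'.isMaximal.isPrime
  apply MaximalSpectrum.ext
  exact placeOf_injective (q : ℕ) K 𝔪.asIdeal 𝔪'.asIdeal h

lemma placeQ_surjective (q : Nat.Primes) (v : Ideal (𝓞 K)) (hv : v.IsPrime)
    (hq : ((q : ℕ) : 𝓞 K) ∈ v) : ∃ 𝔪 : MaximalSpectrum (SemiLocal K q), placeQ K q 𝔪 = v := by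
  have := fact_primes q
  obtain ⟨𝔐, h𝔐, h⟩ := placeOf_surjective (q : ℕ) K v hq
  exact ⟨⟨𝔐, h𝔐⟩, h⟩

lemma placeQ_nonsplit (q : Nat.Primes) (𝔪 : MaximalSpectrum (SemiLocal K q)) :
    (∃! 𝔐 : MaximalSpectrum (SemiLocal L q),
      𝔐.asIdeal.comap (semiLocalMap K L q) = 𝔪.asIdeal) ↔
      ((placeQ K q 𝔪).primesOver (𝓞 L)).ncard = 1 := by
  have := fact_primes q
  exact existsUnique_iff_ncard (q : ℕ) K L 𝔪

omit [NumberField K] in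
lemma prime_unique_of_mem (v : Ideal (𝓞 K)) (hv : v.IsPrime) (q q' : Nat.Primes)
    (h : ((q : ℕ) : 𝓞 K) ∈ v) (h' : ((q' : ℕ) : 𝓞 K) ∈ v) : q = q' := by
  by_contra hne
  have hcop : Nat.Coprime q q' :=
    (Nat.coprime_primes q.2 q'.2).mpr (fun h => hne (Subtype.ext h))
  obtain ⟨a, b, hab⟩ := Nat.Coprime.isCoprime hcop
  have h1 := congrArg (Int.cast : ℤ → 𝓞 K) hab
  push_cast at h1
  have h2 : (1 : 𝓞 K) ∈ v := by
    rw [← h1]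
    exact v.add_mem (v.mul_mem_left _ h) (v.mul_mem_left _ h')
  exact hv.ne_top ((Ideal.eq_top_iff_one v).mpr h2)

end Primes

/-- **PL** (places): the local and the global counts of nonsplit places above `T` agree. -/
theorem stmt_Places : Stmt_Places := by
  intro K L _ _ _ _ _ T
  unfold nonsplitCountLoc nonsplitCount
  let f : {x : (q : T) × MaximalSpectrum (SemiLocal K q.1) //
      ∃! 𝔐 : MaximalSpectrum (SemiLocal L x.1.1),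
        𝔐.asIdeal.comap (semiLocalMap K L x.1.1) = x.2.asIdeal} →
      {v : Ideal (𝓞 K) // v ∈ primesOverT K T ∧ (v.primesOver (𝓞 L)).ncard = 1} :=
    fun x => ⟨placeQ K x.1.1.1 x.1.2,
      ⟨placeQ_isPrime K _ _, placeQ_ne_bot K _ _, x.1.1.1, x.1.1.2, by
        have := placeQ_mem K x.1.1.1 x.1.2
        simpa using this⟩,
      (placeQ_nonsplit K L _ _).mp x.2⟩
  refine Nat.card_eq_of_bijective f ⟨?_, ?_⟩
  · rintro ⟨⟨⟨q, hq⟩, 𝔪⟩, h⟩ ⟨⟨⟨q', hq'⟩, 𝔪'⟩, h'⟩ hff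
    have hv : placeQ K q 𝔪 = placeQ K q' 𝔪' := congrArg Subtype.val hff
    have hqq : q = q' :=
      prime_unique_of_mem K (placeQ K q 𝔪) (placeQ_isPrime K q 𝔪) q q' (placeQ_mem K q 𝔪)
        (hv ▸ placeQ_mem K q' 𝔪')
    subst hqq
    have h𝔪 : 𝔪 = 𝔪' := placeQ_injective K q 𝔪 𝔪' hv
    subst h𝔪
    rfl
  · rintro ⟨v, ⟨hvp, hv0, q, hqT, hqv⟩, hn⟩
    have hqv' : ((q : ℕ) : 𝓞 K) ∈ v := by simpa using hqv
    obtain ⟨𝔪, h𝔪⟩ := placeQ_surjective K q v hvp hqv'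
    refine ⟨⟨⟨⟨q, hqT⟩, 𝔪⟩, (placeQ_nonsplit K L q 𝔪).mpr (by rw [h𝔪]; exact hn)⟩, ?_⟩
    exact Subtype.ext h𝔪

end Fermat.Agent.S55.CFT.H80
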