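/-
S55 / E4 / CFT, leaf DEG (helper96), part 1: the number of maximal ideals of
`LocAlg K L v = (ℚ_q ⊗ L)/𝔪_v (ℚ_q ⊗ L)` is the number of primes of `𝓞 L` above the prime
`placeQ K q 𝔪_v` of `𝓞 K`.
-/
import Fermat.Agent.S55.CFT.Defs_BR
import Fermat.Agent.S55.CFT.H80_Places

set_option autoImplicit false

open NumberField TensorProduct

noncomputable section

namespace Fermat.Agent.S55.CFT.H96

open Fermat.Agent.S55.CFT Fermat.Agent.S55.CFT.H80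

variable (K L : Type) [Field K] [Field L] [NumberField K] [NumberField L] [Algebra K L]

/-- A maximal ideal of `ℚ_q ⊗ L` containing `𝔪 (ℚ_q ⊗ L)` lies over `𝔪`. -/
theorem comap_eq_of_placeIdeal_le (q : Nat.Primes) (𝔪 : MaximalSpectrum (SemiLocal K q))
    (𝔑 : Ideal (SemiLocal L q)) (h𝔑 : 𝔑.IsMaximal) (hle : placeIdeal K L ⟨q, 𝔪⟩ ≤ 𝔑) :
    𝔑.comap (semiLocalMap K L q) = 𝔪.asIdeal := by
  have h1 : 𝔪.asIdeal ≤ 𝔑.comap (semiLocalMap K L q) := Ideal.map_le_iff_le_comap.mp hle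
  have h2 : 𝔑.comap (semiLocalMap K L q) ≠ ⊤ :=
    (Ideal.comap_isPrime (semiLocalMap K L q) 𝔑 (H := h𝔑.isPrime)).ne_top
  exact (𝔪.isMaximal.eq_of_le h2 h1).symm

theorem placeIdeal_le_of_comap_eq (q : Nat.Primes) (𝔪 : MaximalSpectrum (SemiLocal K q))
    (𝔑 : Ideal (SemiLocal L q)) (h : 𝔑.comap (semiLocalMap K L q) = 𝔪.asIdeal) :
    placeIdeal K L ⟨q, 𝔪⟩ ≤ 𝔑 := by
  show 𝔪.asIdeal.map (semiLocalMap K L q) ≤ 𝔑
  rw [Ideal.map_le_iff_le_comap, h]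

/-- The maximal ideal of `ℚ_q ⊗ L` under a maximal ideal of `LocAlg K L v`. -/
def liftMax (v : Place K) (𝔑 : MaximalSpectrum (LocAlg K L v)) :
    MaximalSpectrum (SemiLocal L v.1) :=
  ⟨𝔑.asIdeal.comap (Ideal.Quotient.mk (placeIdeal K L v)),
    Ideal.comap_isMaximal_of_surjective _ Ideal.Quotient.mk_surjective (K := 𝔑.asIdeal)
      (H := 𝔑.isMaximal)⟩

theorem placeIdeal_le_liftMax (v : Place K) (𝔑 : MaximalSpectrum (LocAlg K L v)) :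
    placeIdeal K L v ≤ (liftMax K L v 𝔑).asIdeal := by
  intro x hx
  show Ideal.Quotient.mk (placeIdeal K L v) x ∈ 𝔑.asIdeal
  rw [Ideal.Quotient.eq_zero_iff_mem.mpr hx]
  exact 𝔑.asIdeal.zero_mem

theorem liftMax_injective (v : Place K) : Function.Injective (liftMax K L v) := by
  intro 𝔑 𝔑' h
  apply MaximalSpectrum.ext
  have h1 : 𝔑.asIdeal.comap (Ideal.Quotient.mk (placeIdeal K L v))
      = 𝔑'.asIdeal.comap (Ideal.Quotient.mk (placeIdeal K L v)) :=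
    congrArg MaximalSpectrum.asIdeal h
  exact Ideal.comap_injective_of_surjective _ Ideal.Quotient.mk_surjective h1

theorem exists_liftMax_eq (v : Place K) (𝔐 : MaximalSpectrum (SemiLocal L v.1))
    (h : placeIdeal K L v ≤ 𝔐.asIdeal) : ∃ 𝔑, liftMax K L v 𝔑 = 𝔐 := by
  have hker : RingHom.ker (Ideal.Quotient.mk (placeIdeal K L v)) ≤ 𝔐.asIdeal := by
    rw [Ideal.mk_ker]
    exact h
  have hmax : (𝔐.asIdeal.map (Ideal.Quotient.mk (placeIdeal K L v))).IsMaximal :=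
    Ideal.map_eq_top_or_isMaximal_of_surjective _ Ideal.Quotient.mk_surjective 𝔐.isMaximal
      |>.resolve_left (by
        intro htop
        have h1 := Ideal.comap_map_of_surjective (Ideal.Quotient.mk (placeIdeal K L v))
          Ideal.Quotient.mk_surjective 𝔐.asIdeal
        rw [htop, Ideal.comap_top] at h1
        have h2 : 𝔐.asIdeal ⊔ Ideal.comap (Ideal.Quotient.mk (placeIdeal K L v)) ⊥ = 𝔐.asIdeal := by
          rw [sup_eq_left]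
          exact hker
        rw [h2] at h1
        exact 𝔐.isMaximal.ne_top h1.symm)
  refine ⟨⟨_, hmax⟩, ?_⟩
  apply MaximalSpectrum.ext
  show (𝔐.asIdeal.map (Ideal.Quotient.mk (placeIdeal K L v))).comap
    (Ideal.Quotient.mk (placeIdeal K L v)) = 𝔐.asIdeal
  rw [Ideal.comap_map_of_surjective _ Ideal.Quotient.mk_surjective, sup_eq_left]
  exact hker

/-- The number of maximal ideals of `LocAlg K L v` is the number of primes of `𝓞 L` above the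
prime of `v`. -/
theorem card_maxSpec_locAlg (q : Nat.Primes) (𝔪 : MaximalSpectrum (SemiLocal K q)) :
    Nat.card (MaximalSpectrum (LocAlg K L ⟨q, 𝔪⟩))
      = ((placeQ K q 𝔪).primesOver (𝓞 L)).ncard := by
  have := fact_primes q
  have hmp : Ideal.IsPrime (𝔪.asIdeal : Ideal (ℚ_[(q : ℕ)] ⊗[ℚ] K)) := 𝔪.isMaximal.isPrime
  rw [← Nat.card_coe_set_eq]
  let f : MaximalSpectrum (LocAlg K L ⟨q, 𝔪⟩) → (placeQ K q 𝔪).primesOver (𝓞 L) := fun 𝔑 =>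
    ⟨placeQ L q (liftMax K L ⟨q, 𝔪⟩ 𝔑), placeQ_isPrime L q _, by
      have hp : Ideal.IsPrime ((liftMax K L ⟨q, 𝔪⟩ 𝔑).asIdeal : Ideal (ℚ_[(q : ℕ)] ⊗[ℚ] L)) :=
        (liftMax K L ⟨q, 𝔪⟩ 𝔑).isMaximal.isPrime
      exact placeOf_liesOver (q : ℕ) K L 𝔪.asIdeal (liftMax K L ⟨q, 𝔪⟩ 𝔑).asIdeal
        (comap_eq_of_placeIdeal_le K L q 𝔪 _ (liftMax K L ⟨q, 𝔪⟩ 𝔑).isMaximal
          (placeIdeal_le_liftMax K L ⟨q, 𝔪⟩ 𝔑))⟩
  refine Nat.card_eq_of_bijective f ⟨?_, ?_⟩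
  · intro 𝔑 𝔑' h
    have h1 : placeQ L q (liftMax K L ⟨q, 𝔪⟩ 𝔑) = placeQ L q (liftMax K L ⟨q, 𝔪⟩ 𝔑') :=
      congrArg Subtype.val h
    exact liftMax_injective K L ⟨q, 𝔪⟩ (placeQ_injective L q _ _ h1)
  · rintro ⟨w, hw, hwv⟩
    have hwv' : w.LiesOver (placeOf (q : ℕ) K 𝔪.asIdeal) := hwv
    obtain ⟨𝔐, h𝔐, hcomap, hpl⟩ := exists_over_of_liesOver (q : ℕ) K L 𝔪.asIdeal w
    obtain ⟨𝔑, h𝔑⟩ := exists_liftMax_eq K L ⟨q, 𝔪⟩ ⟨𝔐, h𝔐⟩
      (placeIdeal_le_of_comap_eq K L q 𝔪 𝔐 hcomap)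
    refine ⟨𝔑, Subtype.ext ?_⟩
    show placeQ L q (liftMax K L ⟨q, 𝔪⟩ 𝔑) = w
    rw [h𝔑]
    exact hpl

end Fermat.Agent.S55.CFT.H96
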