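/-
S55 / E4 / CFT, leaf DEG (helper96), part 3: if `ζ_p ∈ K` then `[K(ζ_{p^(M+1)}) : K]` is a power
of `p`.
-/
import Fermat.Agent.S55.CFT.H96_DegElem

set_option autoImplicit false

namespace Fermat.Agent.S55.CFT.H96

/-- If `K` contains a primitive `p`-th root of unity and `L = K(ζ_{p^(M+1)})`, every automorphism of
`L/K` is killed by `p ^ M`. -/
theorem aut_pow_eq_one (p M : ℕ) (hp : p.Prime) (K L : Type) [Field K] [Field L] [Algebra K L]
    [IsCyclotomicExtension {p ^ (M + 1)} K L] (hζK : ∃ ζ : K, IsPrimitiveRoot ζ p)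
    [NeZero (p ^ (M + 1))] {ζ : L} (hζ : IsPrimitiveRoot ζ (p ^ (M + 1)))
    (σ : L ≃ₐ[K] L) : σ ^ (p ^ M) = 1 := by
  obtain ⟨ζK, hζK⟩ := hζK
  have hnp : NeZero p := ⟨hp.ne_zero⟩
  have hζ' : IsPrimitiveRoot (ζ ^ (p ^ M)) p :=
    hζ.pow (pow_pos hp.pos _) (pow_succ p M)
  have hζK' : IsPrimitiveRoot (algebraMap K L ζK) p :=
    hζK.map_of_injective (algebraMap K L).injective
  obtain ⟨i, -, hi⟩ := hζK'.eq_pow_of_pow_eq_one hζ'.pow_eq_one
  have hfix : σ (ζ ^ (p ^ M)) = ζ ^ (p ^ M) := by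
    rw [← hi, map_pow, AlgEquiv.commutes]
  have hspec := hζ.autToPow_spec K σ
  set a : ℕ := ((hζ.autToPow K σ : (ZMod (p ^ (M + 1)))ˣ) : ZMod (p ^ (M + 1))).val with ha
  have h1 : (ζ ^ (p ^ M)) ^ a = ζ ^ (p ^ M) := by
    rw [← pow_mul, mul_comm, pow_mul, hspec, ← map_pow, hfix]
  have hne1 : ζ ^ (p ^ M) ≠ 1 := hζ'.ne_one hp.one_lt
  have ha0 : a ≠ 0 := by
    intro h0
    rw [h0, pow_zero] at h1
    exact hne1 h1.symm
  have h2 : (ζ ^ (p ^ M)) ^ (a - 1) = 1 := by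
    have h3 : (ζ ^ (p ^ M)) ^ (a - 1) * ζ ^ (p ^ M) = 1 * ζ ^ (p ^ M) := by
      rw [← pow_succ, Nat.sub_add_cancel (Nat.one_le_iff_ne_zero.mpr ha0), one_mul]
      exact h1
    exact mul_right_cancel₀ (hζ'.ne_zero hp.ne_zero) h3
  have h4 : p ∣ a - 1 := (hζ'.pow_eq_one_iff_dvd _).mp h2
  have h5 : a ≡ 1 [MOD p] := ((Nat.modEq_iff_dvd' (Nat.one_le_iff_ne_zero.mpr ha0)).mpr h4).symm
  have h6 := zmod_pow_prime_pow_eq_one p M a h5
  have h7 : (hζ.autToPow K σ) ^ (p ^ M) = 1 := by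
    apply Units.ext
    rw [Units.val_pow_eq_pow_val, Units.val_one, ← h6, ha, ZMod.natCast_zmod_val]
  apply hζ.autToPow_injective K
  rw [map_pow, map_one]
  exact h7

/-- If `K` contains a primitive `p`-th root of unity, the degree of `K(ζ_{p^(M+1)})/K` is a power
of `p`. -/
theorem finrank_eq_prime_pow (p M : ℕ) (hp : p.Prime) (K L : Type) [Field K] [Field L]
    [CharZero K] [Algebra K L] [IsCyclotomicExtension {p ^ (M + 1)} K L]
    (hζK : ∃ ζ : K, IsPrimitiveRoot ζ p) : ∃ a : ℕ, Module.finrank K L = p ^ a := by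
  have hne : NeZero (p ^ (M + 1)) := ⟨(pow_pos hp.pos _).ne'⟩
  have hgal : IsGalois K L := IsCyclotomicExtension.isGalois {p ^ (M + 1)} K L
  have hfd : FiniteDimensional K L := IsCyclotomicExtension.finiteDimensional {p ^ (M + 1)} K L
  have hζ := IsCyclotomicExtension.zeta_spec (p ^ (M + 1)) K L
  have hpg : IsPGroup p (L ≃ₐ[K] L) := fun σ => ⟨M, aut_pow_eq_one p M hp K L hζK hζ σ⟩
  have : Fact p.Prime := ⟨hp⟩
  obtain ⟨a, ha⟩ := (IsPGroup.iff_card).mp hpg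
  exact ⟨a, by rw [← ha, IsGalois.card_aut_eq_finrank]⟩

end Fermat.Agent.S55.CFT.H96
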