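/-
S55 / E4 / CFT, leaf DEG (helper96): local degrees grow in the `p`-cyclotomic tower.

`stmt_DegGrow : Stmt_DegGrow`, with `M₀ = q N + N + 1`, `N = p ^ k [K : ℚ]`.
Route: the number `g` of maximal ideals of `LocAlg K L v` is the number of primes of `𝓞 L` above
the prime `𝔭` of `v` (`card_maxSpec_locAlg`); `g e f = [L : K]` (Galois), `[L : K]` is a power of
`p` (`finrank_eq_prime_pow`), and `e f ≥ p ^ k` by comparison with `ℚ(ζ_{p^M})`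
(`le_ef_of_primitiveRoot`, `ef_le_finrank`).
-/
import Fermat.Agent.S55.CFT.Defs_BR3
import Fermat.Agent.S55.CFT.H96_DegCount
import Fermat.Agent.S55.CFT.H96_DegPGroup
import Fermat.Agent.S55.CFT.H96_DegBound

set_option autoImplicit false

open NumberField TensorProduct

noncomputable section

namespace Fermat.Agent.S55.CFT.H96

open Fermat.Agent.S55.CFT Fermat.Agent.S55.CFT.H80

/-- The prime of a place of `K` over `q` lies over `q`. -/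
theorem placeQ_liesOver (K : Type) [Field K] [NumberField K] (q : Nat.Primes)
    (𝔪 : MaximalSpectrum (SemiLocal K q)) :
    (placeQ K q 𝔪).LiesOver (Ideal.span {(((q : ℕ) : ℤ))}) := by
  have hp := placeQ_isPrime K q 𝔪
  have hqf : Fact ((q : ℕ)).Prime := ⟨q.2⟩
  constructor
  refine Ideal.IsMaximal.eq_of_le (Int.ideal_span_isMaximal_of_prime (q : ℕ))
    Ideal.IsPrime.ne_top' ?_
  rw [Ideal.span_singleton_le_iff_mem, Ideal.mem_comap, algebraMap_int_eq, map_natCast]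
  exact placeQ_mem K q 𝔪

/-- **DEG-GROW**. -/
theorem stmt_DegGrow : Stmt_DegGrow := by
  intro p k K _ _ hp hζK v
  obtain ⟨q, 𝔪⟩ := v
  have hqf : Fact ((q : ℕ)).Prime := ⟨q.2⟩
  have hnK : 0 < Module.finrank ℚ K := Module.finrank_pos
  refine ⟨(q : ℕ) * (p ^ k * Module.finrank ℚ K) + p ^ k * Module.finrank ℚ K + 1,
    fun M hM L _ _ _ hcyc => ?_⟩
  obtain ⟨M', rfl⟩ : ∃ M', M = M' + 1 := ⟨M - 1, by omega⟩
  have hM' : (q : ℕ) * (p ^ k * Module.finrank ℚ K) + p ^ k * Module.finrank ℚ K ≤ M' := by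
    omega
  rw [card_maxSpec_locAlg K L q 𝔪]
  have h𝔭 : (placeQ K q 𝔪).IsPrime := placeQ_isPrime K q 𝔪
  have h𝔭q : (placeQ K q 𝔪).LiesOver (Ideal.span {(((q : ℕ) : ℤ))}) := placeQ_liesOver K q 𝔪
  have hne : NeZero (p ^ (M' + 1)) := ⟨(pow_pos hp.pos _).ne'⟩
  have hgal : IsGalois K L := IsCyclotomicExtension.isGalois {p ^ (M' + 1)} K L
  have hfund := Ideal.ncard_primesOver_mul_ramificationIdxIn_mul_inertiaDegIn (placeQ K q 𝔪)
    (𝓞 L) (L ≃ₐ[K] L)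
  rw [IsGalois.card_aut_eq_finrank] at hfund
  obtain ⟨⟨𝔓, h𝔓p, h𝔓o⟩⟩ := (placeQ K q 𝔪).nonempty_primesOver (S := 𝓞 L)
  rw [Ideal.ramificationIdxIn_eq_ramificationIdx (placeQ K q 𝔪) 𝔓 (L ≃ₐ[K] L),
    Ideal.inertiaDegIn_eq_inertiaDeg (placeQ K q 𝔪) 𝔓 (L ≃ₐ[K] L)] at hfund
  have h𝔓q : 𝔓.LiesOver (Ideal.span {(((q : ℕ) : ℤ))}) :=
    Ideal.LiesOver.trans 𝔓 (placeQ K q 𝔪) _
  have te : 𝔓.ramificationIdx ℤ
      = (placeQ K q 𝔪).ramificationIdx ℤ * 𝔓.ramificationIdx (𝓞 K) :=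
    Ideal.ramificationIdx_tower (placeQ K q 𝔪) 𝔓
  have tf : 𝔓.inertiaDeg ℤ = (placeQ K q 𝔪).inertiaDeg ℤ * 𝔓.inertiaDeg (𝓞 K) :=
    Ideal.inertiaDeg_tower (placeQ K q 𝔪) 𝔓
  have hle := ef_le_finrank K (q : ℕ) (placeQ K q 𝔪)
  have hζ := IsCyclotomicExtension.zeta_spec (p ^ (M' + 1)) K L
  have hge := le_ef_of_primitiveRoot p M' (q : ℕ) (p ^ k * Module.finrank ℚ K) hp L hζ hM' 𝔓
  have hpk : p ^ k ≤ 𝔓.ramificationIdx (𝓞 K) * 𝔓.inertiaDeg (𝓞 K) := by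
    rw [te, tf] at hge
    have h1 : p ^ k * Module.finrank ℚ K
        ≤ Module.finrank ℚ K * (𝔓.ramificationIdx (𝓞 K) * 𝔓.inertiaDeg (𝓞 K)) := by
      calc p ^ k * Module.finrank ℚ K
          ≤ (placeQ K q 𝔪).ramificationIdx ℤ * 𝔓.ramificationIdx (𝓞 K)
            * ((placeQ K q 𝔪).inertiaDeg ℤ * 𝔓.inertiaDeg (𝓞 K)) := hge
        _ = ((placeQ K q 𝔪).ramificationIdx ℤ * (placeQ K q 𝔪).inertiaDeg ℤ)
            * (𝔓.ramificationIdx (𝓞 K) * 𝔓.inertiaDeg (𝓞 K)) := by ring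
        _ ≤ Module.finrank ℚ K * (𝔓.ramificationIdx (𝓞 K) * 𝔓.inertiaDeg (𝓞 K)) :=
            Nat.mul_le_mul_right _ hle
    rw [mul_comm (p ^ k)] at h1
    exact Nat.le_of_mul_le_mul_left h1 hnK
  obtain ⟨a, ha⟩ := finrank_eq_prime_pow p M' hp K L hζK
  have hdvd : 𝔓.ramificationIdx (𝓞 K) * 𝔓.inertiaDeg (𝓞 K) ∣ p ^ a :=
    ⟨((placeQ K q 𝔪).primesOver (𝓞 L)).ncard, by rw [← ha, ← hfund]; ring⟩
  obtain ⟨b, -, hef⟩ := (Nat.dvd_prime_pow hp).mp hdvd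
  have hkb : k ≤ b := by
    by_contra hlt
    push Not at hlt
    have : p ^ b < p ^ k := Nat.pow_lt_pow_right hp.one_lt hlt
    omega
  rw [← hfund, mul_comm (p ^ k)]
  exact Nat.mul_dvd_mul_left _ (hef ▸ pow_dvd_pow p hkb)

end Fermat.Agent.S55.CFT.H96
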