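/-
S55 package E4, island GS (cohomology of `G_S`): interfaces.
Coordinator: helper24.  Plan: NOTES/plan/S55_GS.md (§5 "GS route and packages").

TARGETS (consumed by PT-LIN, helper48): `Top.Stmt_I2`, `Top.Stmt_I3`, `Top.Stmt_I4`
(`Fermat/Agent/S55/Top/Defs_PT.lean`).

FRAMEWORK.  Everything is written with explicit cochains on `G_K = K.fixingSubgroup ≤ G_ℚ`
(as in `Top/Defs.lean`), with values either in `𝔽_p = ZMod p` (additive, trivial action: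
`tOne`, `tTwo`, `tThree`) or in `ℚ̄ˣ` (multiplicative, Galois action: `mOne`, `mTwo`).  Inflation is
invisible in this language.  The coefficient groups are
* `Ω = K_S`        : `InOm S x`   (`x` lies in a finite extension of `ℚ` unramified outside `S`);
* `U = O_Sˣ(Ω)`    : `IsSUnit S u` (`u ∈ Ω`, a unit at every place of `ℚ̄` outside `S`);
* `W = (Ωˣ)ᵖ`      : `InW S p x`  (`x = tᵖ` with `t ∈ Ωˣ`);
* `μ_p`            : `ζ ^ (a : ZMod p).val` for a fixed primitive `p`-th root of unity `ζ ∈ K`.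

LEAVES (each a standalone statement; owners prove `theorem … : Stmt_GS_X` or
`hyps → Stmt_GS_X` in `Fermat/Agent/S55/CFT/GS/H<seat>_*.lean`, namespace
`Fermat.Agent.S55.CFT.GS.H<seat>`):
  `Stmt_GS_H90`, `Stmt_GS_Hasse`, `Stmt_GS_One`, `Stmt_GS_Two`, `Stmt_GS_UnitRank`,
  `Stmt_GS_ClassDim`, `Stmt_GS_H3`, `Stmt_GS_DivBr`, `Stmt_GS_ResOnto`.
ASSEMBLIES (cochain algebra + linear algebra only):
  `Stmt_GS_AsmLift2 : DivBr → ResOnto → Lift2`,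
  `Stmt_GS_AsmI2 : H3 → Lift2 → I2`,
  `Stmt_GS_AsmI3 : H90 → Hasse → One → UnitRank → ClassDim → I1 → I3`,
  `Stmt_GS_AsmI4 : One → Two → I1 → I4`.
-/
import Fermat.Agent.S55.Top.Defs_PT

set_option autoImplicit false

open CategoryTheory Module groupCohomology ExtCitation

noncomputable section

namespace Fermat.Agent.S55.CFT.GS

open Fermat.Agent.S55 Fermat.Agent.S55.Top

local notation "Qb" => AlgebraicClosure ℚ

/-! ### Coefficients -/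

/-- `x ∈ Ω = K_S`: `x` lies in a finite extension of `ℚ` unramified outside `S`. -/
def InOm (S : Finset Nat.Primes) (x : Qb) : Prop :=
  ∃ F : IntermediateField ℚ Qb, F.IsUnramifiedOutside S ∧ x ∈ F

/-- `u ∈ U = O_Sˣ(Ω)`: `u ∈ Ω` and `u` is a unit at every place of `ℚ̄` over a prime outside
`S`. -/
def IsSUnit (S : Finset Nat.Primes) (u : Qbˣ) : Prop :=
  InOm S (u : Qb) ∧ ∀ q : Nat.Primes, q ∉ S → ∀ A : ValuationSubring Qb,
    A.LiesOverPrime (q : ℕ) → A.valuation (u : Qb) = 1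

/-- `x ∈ W = (Ωˣ)ᵖ`. -/
def InW (S : Finset Nat.Primes) (p : ℕ) (x : Qbˣ) : Prop :=
  ∃ t : Qbˣ, InOm S (t : Qb) ∧ t ^ p = x

/-! ### Multiplicative differentials -/

section mult

variable {Δ : Type} [Group Δ] {X : Type} [CommGroup X] [MulDistribMulAction Δ X]

/-- `d¹` (multiplicative): `(d b)(g, h) = g b(h) · b(g h)⁻¹ · b(g)`. -/
def mOne (b : Δ → X) : Δ × Δ → X := fun t => t.1 • b t.2 / b (t.1 * t.2) * b t.1

/-- `d²` (multiplicative):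
`(d a)(g, h, k) = g a(h, k) · a(g h, k)⁻¹ · a(g, h k) · a(g, h)⁻¹`. -/
def mTwo (a : Δ × Δ → X) : Δ × Δ × Δ → X :=
  fun t => t.1 • a (t.2.1, t.2.2) / a (t.1 * t.2.1, t.2.2) * a (t.1, t.2.1 * t.2.2) /
    a (t.1, t.2.1)

end mult

/-! ### Subgroups of `ℚ̄ˣ` attached to a base field `K` -/

section groups

variable (S : Finset Nat.Primes) (p : ℕ) (K : IntermediateField ℚ Qb)

/-- `Kˣ` inside `ℚ̄ˣ`. -/
def Kx : Set Qbˣ := {a | (a : Qb) ∈ K}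

/-- `U_K = O_{K,S}ˣ`: the `S`-units of `K`. -/
def UK : Set Qbˣ := {u | (u : Qb) ∈ K ∧ IsSUnit S u}

/-- `V_S = Kˣ ∩ W`: the elements of `Kˣ` with a `p`-th root in `Ω`. -/
def VS : Set Qbˣ := {a | (a : Qb) ∈ K ∧ InW S p a}

/-- `U_K · Kˣᵖ`. -/
def UKP : Set Qbˣ := {a | ∃ u b : Qbˣ, u ∈ UK S K ∧ (b : Qb) ∈ K ∧ a = u * b ^ p}

/-- `T = {t ∈ Ωˣ : g t / t ∈ W for all g ∈ G_K}` (the elements whose class in `Ωˣ/W` is
`G_K`-invariant). -/
def TK : Set Qbˣ := {t | InOm S (t : Qb) ∧ ∀ g : ↥K.fixingSubgroup, InW S p (g • t / t)}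

/-- `Kˣ · W`. -/
def KW : Set Qbˣ := {x | ∃ c s : Qbˣ, (c : Qb) ∈ K ∧ InOm S (s : Qb) ∧ x = c * s ^ p}

end groups

/-! ### The leaves -/

/-- **GS-H90** (Hilbert 90 at level `S`): a level-`S` 1-cocycle of `G_K` with values in `Ωˣ` is
`g ↦ g t / t` with `t ∈ Ωˣ`.  (Mathlib's Hilbert 90 for the finite Galois extension cut out by
the level and the values.) -/
def Stmt_GS_H90 : Prop :=
  ∀ (S : Finset Nat.Primes) (K : IntermediateField ℚ Qb), K.IsUnramifiedOutside S →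
    ∀ b : ↥K.fixingSubgroup → Qbˣ, IsLevK₁ S K b → (∀ g, InOm S (b g : Qb)) → mOne b = 1 →
      ∃ t : Qbˣ, InOm S (t : Qb) ∧ ∀ g, b g = g • t / t

/-- **GS-Hasse** (Hasse principle for `μ_p`-classes): a level-`S` 2-cocycle `a` of `G_K` with
values in `𝔽_p` which is locally a coboundary at every place of `K` over `S` becomes, as the
`μ_p`-valued cocycle `ζ^a`, the coboundary of a level-`S` 1-cochain with values in `Ωˣ`.
(BR-Hasse + Sylow; the local components outside `S` vanish because `ζ^a` is unit valued and the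
level is unramified there.) -/
def Stmt_GS_Hasse : Prop :=
  ∀ (p : ℕ) [Fact p.Prime], p ≠ 2 → ∀ (S : Finset Nat.Primes), pPrime p ∈ S →
    ∀ K : IntermediateField ℚ Qb, IsBaseField S p K → ∀ 𝔓 : PlaceSys S K,
    ∀ ζ : Qbˣ, (ζ : Qb) ∈ K → IsPrimitiveRoot ζ p →
    ∀ a : ↥K.fixingSubgroup × ↥K.fixingSubgroup → ZMod p, IsZ2K S K a →
      (∀ (q : ↥S) (w : 𝔓.W q), 𝔓.res₂ q w a ∈ B2w (ZMod p) 𝔓 q w) →
      ∃ b : ↥K.fixingSubgroup → Qbˣ, IsLevK₁ S K b ∧ (∀ g, InOm S (b g : Qb)) ∧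
        ∀ g h, ζ ^ (a (g, h)).val = mOne b (g, h)

/-- **GS-One** (reciprocity, weak form): a level-`S` 2-cocycle of `G_K` with values in `𝔽_p`
which is locally a coboundary at all places of `K` over `S` but one, is locally a coboundary at
that place too.  (BR-One for cyclic `p`-extensions + splitting by a cyclotomic extension +
BR-Hasse.) -/
def Stmt_GS_One : Prop :=
  ∀ (p : ℕ) [Fact p.Prime], p ≠ 2 → ∀ (S : Finset Nat.Primes), pPrime p ∈ S →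
    ∀ K : IntermediateField ℚ Qb, IsBaseField S p K → ∀ 𝔓 : PlaceSys S K,
    ∀ a : ↥K.fixingSubgroup × ↥K.fixingSubgroup → ZMod p, IsZ2K S K a →
    ∀ (q₀ : ↥S) (w₀ : 𝔓.W q₀),
      (∀ (q : ↥S) (w : 𝔓.W q), (⟨q, w⟩ : Σ q : ↥S, 𝔓.W q) ≠ ⟨q₀, w₀⟩ →
        𝔓.res₂ q w a ∈ B2w (ZMod p) 𝔓 q w) →
      𝔓.res₂ q₀ w₀ a ∈ B2w (ZMod p) 𝔓 q₀ w₀

/-- **GS-Two** (existence): for two different places `w₁ ≠ w₂` of `K` over `S` there is a
level-`S` 2-cocycle of `G_K` with values in `𝔽_p` which is not a coboundary at `w₁` and is a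
coboundary at every place over `S` different from `w₁`, `w₂`.
(BR-Two + lifting of `p`-torsion classes of `H²(G_S, Ωˣ)` unramified outside `S` to `μ_p`.) -/
def Stmt_GS_Two : Prop :=
  ∀ (p : ℕ) [Fact p.Prime], p ≠ 2 → ∀ (S : Finset Nat.Primes), pPrime p ∈ S →
    ∀ K : IntermediateField ℚ Qb, IsBaseField S p K → ∀ 𝔓 : PlaceSys S K,
    ∀ (q₁ : ↥S) (w₁ : 𝔓.W q₁) (q₂ : ↥S) (w₂ : 𝔓.W q₂),
      (⟨q₁, w₁⟩ : Σ q : ↥S, 𝔓.W q) ≠ ⟨q₂, w₂⟩ →
      ∃ a : ↥K.fixingSubgroup × ↥K.fixingSubgroup → ZMod p, IsZ2K S K a ∧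
        𝔓.res₂ q₁ w₁ a ∉ B2w (ZMod p) 𝔓 q₁ w₁ ∧
        ∀ (q : ↥S) (w : 𝔓.W q), (⟨q, w⟩ : Σ q : ↥S, 𝔓.W q) ≠ ⟨q₁, w₁⟩ →
          (⟨q, w⟩ : Σ q : ↥S, 𝔓.W q) ≠ ⟨q₂, w₂⟩ → 𝔓.res₂ q w a ∈ B2w (ZMod p) 𝔓 q w

/-- **GS-UnitRank** (Dirichlet): `[U_K : U_Kᵖ] = p ^ n` with `2 n = [K : ℚ] + 2 #V`
(`K` is totally complex, `ζ_p ∈ K`; `#V = nPl 𝔓` = number of places of `K` over `S`;
`n = r₂ + #V = (rank of the units) + #V + 1`).
Stated with a subgroup `H` of `ℚ̄ˣ` with underlying set `U_K`.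
(helper12's `H12.stmt_SUnitRank` + places.) -/
def Stmt_GS_UnitRank : Prop :=
  ∀ (p : ℕ) [Fact p.Prime], p ≠ 2 → ∀ (S : Finset Nat.Primes), pPrime p ∈ S →
    ∀ K : IntermediateField ℚ Qb, IsBaseField S p K → ∀ 𝔓 : PlaceSys S K,
    ∃ (H : Subgroup Qbˣ) (n : ℕ), (H : Set Qbˣ) = UK S K ∧
      (powMonoidHom p : ↥H →* ↥H).range.index = p ^ n ∧
      2 * n = Module.finrank ℚ ↥K + 2 * nPl 𝔓

/-- **GS-ClassDim** (finiteness of the class group, in Kummer form):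
`[T : Kˣ W] ≤ [V_S : U_K Kˣᵖ] < ∞`.
(`V_S / U_K Kˣᵖ ≅ Cl_S(K)[p]` and `T / Kˣ W ↪ Cl_S(K)/p`, via the divisor map and the Kummer
criterion: `x ∈ Ωˣ` is a `p`-th power in `Ω` iff `p ∣ ord_A(x)` for all places `A` outside `S`.)
Stated with subgroups `V T` of `ℚ̄ˣ` with the given underlying sets. -/
def Stmt_GS_ClassDim : Prop :=
  ∀ (p : ℕ) [Fact p.Prime], p ≠ 2 → ∀ (S : Finset Nat.Primes), pPrime p ∈ S →
    ∀ K : IntermediateField ℚ Qb, IsBaseField S p K →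
    ∃ V V' T T' : Subgroup Qbˣ,
      (V : Set Qbˣ) = VS S p K ∧ (V' : Set Qbˣ) = UKP S p K ∧
      (T : Set Qbˣ) = TK S p K ∧ (T' : Set Qbˣ) = KW S p K ∧
      V'.relIndex V ≠ 0 ∧ T'.relIndex T ≠ 0 ∧ T'.relIndex T ≤ V'.relIndex V

/-- **GS-H3** (`H³` with values in `Ωˣ` dies): a level-`S` 3-cocycle of `G_K` with values in
`𝔽_p` becomes, as the `μ_p`-valued cocycle `ζ^x`, the coboundary of a level-`S` 2-cochain with
values in `Ωˣ`.  (BR-H3 + Sylow.) -/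
def Stmt_GS_H3 : Prop :=
  ∀ (p : ℕ) [Fact p.Prime], p ≠ 2 → ∀ (S : Finset Nat.Primes), pPrime p ∈ S →
    ∀ K : IntermediateField ℚ Qb, IsBaseField S p K →
    ∀ ζ : Qbˣ, (ζ : Qb) ∈ K → IsPrimitiveRoot ζ p →
    ∀ x : ↥K.fixingSubgroup × ↥K.fixingSubgroup × ↥K.fixingSubgroup → ZMod p,
      tThree x = 0 → IsLevK₃ S K x →
      ∃ y : ↥K.fixingSubgroup × ↥K.fixingSubgroup → Qbˣ, IsLevK₂ S K y ∧
        (∀ t, InOm S (y t : Qb)) ∧ ∀ t, ζ ^ (x t).val = mTwo y t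

/-- **GS-DivBr** (`H²(G_S, Ωˣ)` is `p`-divisible): every level-`S` 2-cocycle `c` of `G_K` with
values in `Ωˣ` is `zᵖ · d b` with `z` a level-`S` 2-cocycle and `b` a level-`S` 1-cochain, both
with values in `Ωˣ`.
(The prime-to-`p` part is trivially `p`-divisible; the `p`-part is split by a cyclic cyclotomic
`p`-extension, and there BR-One, BR-Two, BR-Hasse and local divisibility apply.) -/
def Stmt_GS_DivBr : Prop :=
  ∀ (p : ℕ) [Fact p.Prime], p ≠ 2 → ∀ (S : Finset Nat.Primes), pPrime p ∈ S →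
    ∀ K : IntermediateField ℚ Qb, IsBaseField S p K →
    ∀ c : ↥K.fixingSubgroup × ↥K.fixingSubgroup → Qbˣ, IsLevK₂ S K c →
      (∀ t, InOm S (c t : Qb)) → mTwo c = 1 →
      ∃ (z : ↥K.fixingSubgroup × ↥K.fixingSubgroup → Qbˣ) (b : ↥K.fixingSubgroup → Qbˣ),
        IsLevK₂ S K z ∧ (∀ t, InOm S (z t : Qb)) ∧ mTwo z = 1 ∧
        IsLevK₁ S K b ∧ (∀ g, InOm S (b g : Qb)) ∧
        ∀ t, c t = z t ^ p * mOne b t

/-- **GS-ResOnto** (the residue map `H²(G_S, Ωˣ)[p] → H¹(G_S, Ωˣ/W)` is onto): for every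
level-`S` 1-cochain `b` with values in `Ωˣ` whose coboundary has values in `W` there are a
level-`S` 2-cocycle `z'` with values in `Ωˣ`, a level-`S` 1-cochain `b''` with values in `Ωˣ` and
`t ∈ Ωˣ` such that `z'ᵖ = d b''` and `b(g) / (b''(g) · g t / t) ∈ W` for all `g`.
(`H¹(G_S, Ωˣ/W) = ⊕_{v ∉ S} Hom(G_v, 𝔽_p)` by the divisor map (Shapiro by hand + capitulation);
BR-Two with `v₁ ∉ S`, `v₂ ∣ S` realises every residue.) -/
def Stmt_GS_ResOnto : Prop :=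
  ∀ (p : ℕ) [Fact p.Prime], p ≠ 2 → ∀ (S : Finset Nat.Primes), pPrime p ∈ S →
    ∀ K : IntermediateField ℚ Qb, IsBaseField S p K →
    ∀ b : ↥K.fixingSubgroup → Qbˣ, IsLevK₁ S K b → (∀ g, InOm S (b g : Qb)) →
      (∀ t, InW S p (mOne b t)) →
      ∃ (z' : ↥K.fixingSubgroup × ↥K.fixingSubgroup → Qbˣ) (b'' : ↥K.fixingSubgroup → Qbˣ)
        (t : Qbˣ),
        IsLevK₂ S K z' ∧ (∀ u, InOm S (z' u : Qb)) ∧ mTwo z' = 1 ∧
        IsLevK₁ S K b'' ∧ (∀ g, InOm S (b'' g : Qb)) ∧ InOm S (t : Qb) ∧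
        (∀ u, z' u ^ p = mOne b'' u) ∧
        ∀ g, InW S p (b g / (b'' g * (g • t / t)))

/-- **GS-Lift2** (`H²(G_S, Ωˣ) → H²(G_S, W)`, `x ↦ xᵖ`, is onto): every level-`S` 2-cocycle
with values in `W = (Ωˣ)ᵖ` is `zᵖ · d b` with `z` a level-`S` 2-cocycle with values in `Ωˣ` and
`b` a level-`S` 1-cochain with values in `W`.  (Formal from `DivBr` and `ResOnto`.) -/
def Stmt_GS_Lift2 : Prop :=
  ∀ (p : ℕ) [Fact p.Prime], p ≠ 2 → ∀ (S : Finset Nat.Primes), pPrime p ∈ S →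
    ∀ K : IntermediateField ℚ Qb, IsBaseField S p K →
    ∀ w : ↥K.fixingSubgroup × ↥K.fixingSubgroup → Qbˣ, IsLevK₂ S K w →
      (∀ t, InW S p (w t)) → mTwo w = 1 →
      ∃ (z : ↥K.fixingSubgroup × ↥K.fixingSubgroup → Qbˣ) (b : ↥K.fixingSubgroup → Qbˣ),
        IsLevK₂ S K z ∧ (∀ t, InOm S (z t : Qb)) ∧ mTwo z = 1 ∧
        IsLevK₁ S K b ∧ (∀ g, InW S p (b g)) ∧
        ∀ t, w t = z t ^ p * mOne b t

/-! ### The assemblies -/

/-- **GS-AsmLift2**: `Lift2` from `DivBr` and `ResOnto` (cochain algebra). -/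
def Stmt_GS_AsmLift2 : Prop := Stmt_GS_DivBr → Stmt_GS_ResOnto → Stmt_GS_Lift2

/-- **GS-AsmI2**: `I2` from `H3` and `Lift2` (cochain algebra). -/
def Stmt_GS_AsmI2 : Prop := Stmt_GS_H3 → Stmt_GS_Lift2 → Stmt_I2

/-- **GS-AsmI3**: `I3` from the Kummer sequence. -/
def Stmt_GS_AsmI3 : Prop :=
  Stmt_GS_H90 → Stmt_GS_Hasse → Stmt_GS_One → Stmt_GS_UnitRank → Stmt_GS_ClassDim → Stmt_I1 →
    Stmt_I3

/-- **GS-AsmI4**: `I4` from `One`, `Two` and `dim H²(K_w) = 1`. -/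
def Stmt_GS_AsmI4 : Prop := Stmt_GS_One → Stmt_GS_Two → Stmt_I1 → Stmt_I4

end Fermat.Agent.S55.CFT.GS

end
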