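/-
S55 package E4, island GS, wave 2 (coordinator: helper24): LAYER C = the Brauer-form statements
and the residue calculus INSIDE `ℚ̄` (explicit cochains on `G_K`), from which the leaves
`Stmt_GS_Hasse`, `Stmt_GS_One`, `Stmt_GS_Two`, `Stmt_GS_ResOnto` of `Defs_GS.lean` follow by cochain
algebra (assemblies `GS/H24_Asm*.lean`, helper24).  Plan: NOTES/plan/S55_GS.md §6.

OBJECTS.
* `PTorsData S p K c b` : a `p`-torsion class of `H²(G_S, Ωˣ)`: a level-`S` 2-cocycle `c` and a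
  level-`S` 1-cochain `b`, both with values in `Ωˣ`, with `cᵖ = d b`.
* `LocTrivS 𝔓 q w c` : `c` is locally trivial at the place `w ∣ q ∈ S` of `K`: the restriction of
  `c` to `Γ_w`, with values mapped to `ℚ̄_q` by `j_w = ι_q ∘ σ_w`, is the coboundary of a level
  constant 1-cochain with values in `ℚ̄_qˣ`.
* `OrdIs A q x k` : `ord_A(x) = k` (`|x|_A = |q|_A ^ k`; same as `H6.IsOrd`).
* `ResTrivAt p K A q b` : the residue of the class at the place `A` of `ℚ̄` over `q ∉ S` vanishes: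
  `p ∣ ord_A(b(g))` for all `g` in the decomposition group `{g ∈ G_K : g A = A}`.
  (The residue `g ↦ ord_A(b(g)) mod p` is a homomorphism on the decomposition group; it is the
  image of the local component under `H²(D, N_Aˣ) ≅ H²(D, ℤ) ⊇ H¹(D, ℤ/p)`.)

LEAVES.  Brauer forms (Layer B proves them from Layer A, `Defs_GS2.lean`):
  `Stmt_GSB_Hasse`, `Stmt_GSB_One`, `Stmt_GSB_TwoIn`, `Stmt_GSB_TwoOut`.
Local Kummer theory (island LOC): `Stmt_GS_LocKum`.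
Residue calculus: `Stmt_RES_Sh1` (abstract), `Stmt_RES_Cap`, `Stmt_RES_Cyc`.
-/
import Fermat.Agent.S55.CFT.Defs_GS

set_option autoImplicit false

open CategoryTheory Module groupCohomology ExtCitation

open scoped Pointwise

noncomputable section

namespace Fermat.Agent.S55.CFT.GS

open Fermat.Agent.S55 Fermat.Agent.S55.Top

local notation "Qb" => AlgebraicClosure ℚ

/-! ### Objects -/

/-- A `p`-torsion class of `H²(G_S, Ωˣ)`: `c ∈ Z²_S(G_K, Ωˣ)`, `b ∈ C¹_S(G_K, Ωˣ)`, `cᵖ = d b`. -/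
structure PTorsData (S : Finset Nat.Primes) (p : ℕ) (K : IntermediateField ℚ Qb)
    (c : ↥K.fixingSubgroup × ↥K.fixingSubgroup → Qbˣ) (b : ↥K.fixingSubgroup → Qbˣ) : Prop where
  levc : IsLevK₂ S K c
  omc : ∀ t, InOm S (c t : Qb)
  coc : mTwo c = 1
  levb : IsLevK₁ S K b
  omb : ∀ g, InOm S (b g : Qb)
  pow : ∀ t, c t ^ p = mOne b t

/-- The element `h` of the local group, as an automorphism of `ℚ̄_q`. -/
def glAut (q : Nat.Primes) (h : Gl q) :
    haveI : Fact ((q : ℕ)).Prime := ⟨q.2⟩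
    PadicAlgCl (q : ℕ) ≃ₐ[ℚ_[(q : ℕ)]] PadicAlgCl (q : ℕ) := h

/-- `c` is locally trivial at the place `w ∣ q` of `K` (`q ∈ S`). -/
def LocTrivS {S : Finset Nat.Primes} {K : IntermediateField ℚ Qb} (𝔓 : PlaceSys S K)
    (q : ↥S) (w : 𝔓.W q) (c : ↥K.fixingSubgroup × ↥K.fixingSubgroup → Qbˣ) : Prop :=
  haveI : Fact ((q.1 : ℕ)).Prime := ⟨q.1.2⟩
  ∃ β : 𝔓.Γw q w → PadicAlgCl (q.1 : ℕ), (∀ h, β h ≠ 0) ∧ IsLevelConstant₁ (𝔓.rw q w) β ∧
    ∀ h₁ h₂ : 𝔓.Γw q w,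
      padicEmbedding (q.1 : ℕ)
          (𝔓.σ q w ((c (𝔓.ρw q w h₁, 𝔓.ρw q w h₂) : Qbˣ) : Qb)) * β (h₁ * h₂) =
        glAut q.1 (h₁ : Gl q.1) (β h₂) * β h₁

/-- `ord_A(x) = k`, i.e. `|x|_A = |q|_A ^ k` (`A` a place of `ℚ̄` over `q`). -/
def OrdIs (A : ValuationSubring Qb) (q : ℕ) (x : Qb) (k : ℤ) : Prop :=
  A.valuation x = A.valuation (q : Qb) ^ k

/-- The residue at the place `A` (over `q ∉ S`) vanishes. -/
def ResTrivAt (p : ℕ) (K : IntermediateField ℚ Qb) (A : ValuationSubring Qb) (q : ℕ)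
    (b : ↥K.fixingSubgroup → Qbˣ) : Prop :=
  ∀ g : ↥K.fixingSubgroup, (g : GQ) • A = A → ∃ k : ℤ, OrdIs A q (b g : Qb) ((p : ℤ) * k)

/-! ### Brauer forms (Layer B: from Layer A by the bridge) -/

/-- **GSB-Hasse**: a `p`-torsion class of `H²(G_S, Ωˣ)` which is locally trivial at all places of
`K` over `S` and has zero residues outside `S` is trivial (at its own level, hence in `G_S`). -/
def Stmt_GSB_Hasse : Prop :=
  ∀ (p : ℕ) [Fact p.Prime], p ≠ 2 → ∀ (S : Finset Nat.Primes), pPrime p ∈ S →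
    ∀ K : IntermediateField ℚ Qb, IsBaseField S p K → ∀ 𝔓 : PlaceSys S K,
    ∀ (c : ↥K.fixingSubgroup × ↥K.fixingSubgroup → Qbˣ) (b : ↥K.fixingSubgroup → Qbˣ),
      PTorsData S p K c b →
      (∀ (q : ↥S) (w : 𝔓.W q), LocTrivS 𝔓 q w c) →
      (∀ q : Nat.Primes, q ∉ S → ∀ A : ValuationSubring Qb, A.LiesOverPrime (q : ℕ) →
        ResTrivAt p K A (q : ℕ) b) →
      ∃ b' : ↥K.fixingSubgroup → Qbˣ, IsLevK₁ S K b' ∧ (∀ g, InOm S (b' g : Qb)) ∧
        ∀ t, c t = mOne b' t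

/-- **GSB-One**: a `p`-torsion class of `H²(G_S, Ωˣ)` with zero residues outside `S` which is
locally trivial at all places over `S` but one, is locally trivial at that place too. -/
def Stmt_GSB_One : Prop :=
  ∀ (p : ℕ) [Fact p.Prime], p ≠ 2 → ∀ (S : Finset Nat.Primes), pPrime p ∈ S →
    ∀ K : IntermediateField ℚ Qb, IsBaseField S p K → ∀ 𝔓 : PlaceSys S K,
    ∀ (c : ↥K.fixingSubgroup × ↥K.fixingSubgroup → Qbˣ) (b : ↥K.fixingSubgroup → Qbˣ),
      PTorsData S p K c b → ∀ (q₀ : ↥S) (w₀ : 𝔓.W q₀),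
      (∀ (q : ↥S) (w : 𝔓.W q), (⟨q, w⟩ : Σ q : ↥S, 𝔓.W q) ≠ ⟨q₀, w₀⟩ → LocTrivS 𝔓 q w c) →
      (∀ q : Nat.Primes, q ∉ S → ∀ A : ValuationSubring Qb, A.LiesOverPrime (q : ℕ) →
        ResTrivAt p K A (q : ℕ) b) →
      LocTrivS 𝔓 q₀ w₀ c

/-- **GSB-TwoIn**: for two places `w₁ ≠ w₂` of `K` over `S` there is a `p`-torsion class of
`H²(G_S, Ωˣ)` with zero residues outside `S`, not locally trivial at `w₁`, and locally trivial at
all places over `S` different from `w₁`, `w₂`. -/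
def Stmt_GSB_TwoIn : Prop :=
  ∀ (p : ℕ) [Fact p.Prime], p ≠ 2 → ∀ (S : Finset Nat.Primes), pPrime p ∈ S →
    ∀ K : IntermediateField ℚ Qb, IsBaseField S p K → ∀ 𝔓 : PlaceSys S K,
    ∀ (q₁ : ↥S) (w₁ : 𝔓.W q₁) (q₂ : ↥S) (w₂ : 𝔓.W q₂),
      (⟨q₁, w₁⟩ : Σ q : ↥S, 𝔓.W q) ≠ ⟨q₂, w₂⟩ →
      ∃ (c : ↥K.fixingSubgroup × ↥K.fixingSubgroup → Qbˣ) (b : ↥K.fixingSubgroup → Qbˣ),
        PTorsData S p K c b ∧ ¬ LocTrivS 𝔓 q₁ w₁ c ∧
        (∀ (q : ↥S) (w : 𝔓.W q), (⟨q, w⟩ : Σ q : ↥S, 𝔓.W q) ≠ ⟨q₁, w₁⟩ →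
          (⟨q, w⟩ : Σ q : ↥S, 𝔓.W q) ≠ ⟨q₂, w₂⟩ → LocTrivS 𝔓 q w c) ∧
        ∀ q : Nat.Primes, q ∉ S → ∀ A : ValuationSubring Qb, A.LiesOverPrime (q : ℕ) →
          ResTrivAt p K A (q : ℕ) b

/-- **GSB-TwoOut**: for a place `A₁` of `ℚ̄` over `q₁ ∉ S` there is a `p`-torsion class of
`H²(G_S, Ωˣ)` with nonzero residue at `A₁` and zero residues at all places outside `S` which are
not conjugate to `A₁` under `G_K`.  (A-Two with `v₁ = A₁ ∩ K` and `v₂` a place over `p`.) -/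
def Stmt_GSB_TwoOut : Prop :=
  ∀ (p : ℕ) [Fact p.Prime], p ≠ 2 → ∀ (S : Finset Nat.Primes), pPrime p ∈ S →
    ∀ K : IntermediateField ℚ Qb, IsBaseField S p K →
    ∀ (q₁ : Nat.Primes), q₁ ∉ S → ∀ A₁ : ValuationSubring Qb, A₁.LiesOverPrime (q₁ : ℕ) →
      ∃ (c : ↥K.fixingSubgroup × ↥K.fixingSubgroup → Qbˣ) (b : ↥K.fixingSubgroup → Qbˣ),
        PTorsData S p K c b ∧ ¬ ResTrivAt p K A₁ (q₁ : ℕ) b ∧
        ∀ q : Nat.Primes, q ∉ S → ∀ A : ValuationSubring Qb, A.LiesOverPrime (q : ℕ) →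
          (∀ g : ↥K.fixingSubgroup, (g : GQ) • A₁ ≠ A) → ResTrivAt p K A (q : ℕ) b

/-! ### Local Kummer theory (island LOC) -/

/-- **GS-LocKum** (`H²(K_w, μ_p) → H²(K_w, ℚ̄_qˣ)` is injective): if the `μ_p`-valued cocycle
`ζ^a` is locally trivial at `w` (coboundary of a level constant cochain with values in `ℚ̄_qˣ`),
then `a` is locally the coboundary of a level constant cochain with values in `𝔽_p`.
(`ζ^a = d β` on `Γ_w`; `βᵖ` is a level constant 1-cocycle, so `βᵖ = (h ↦ h t / t)` by Hilbert 90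
for a finite Galois extension of `K_w`; `s = t^{1/p}`; `β(h) / (h s / s) = ζ^{g(h)}`, `a = d g`;
level constancy of `g` in the number field sense: `LOC.Stmt_L5_Krasner`.) -/
def Stmt_GS_LocKum : Prop :=
  ∀ (p : ℕ) [Fact p.Prime], p ≠ 2 → ∀ (S : Finset Nat.Primes), pPrime p ∈ S →
    ∀ K : IntermediateField ℚ Qb, IsBaseField S p K → ∀ 𝔓 : PlaceSys S K,
    ∀ ζ : Qbˣ, (ζ : Qb) ∈ K → IsPrimitiveRoot ζ p →
    ∀ a : ↥K.fixingSubgroup × ↥K.fixingSubgroup → ZMod p, IsZ2K S K a →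
    ∀ (q : ↥S) (w : 𝔓.W q),
      LocTrivS 𝔓 q w (fun t => ζ ^ (a t).val) → 𝔓.res₂ q w a ∈ B2w (ZMod p) 𝔓 q w

/-! ### Residue calculus -/

/-- **RES-Sh1** (Shapiro in degree 1, abstract): a 1-cocycle of `G` with values in the functions
on a `G`-set `X` (action `(g φ)(x) = φ(g⁻¹ x)`) which vanishes on the stabilisers is the coboundary
of a function `φ`; `φ` is invariant under every `s` with `r(g s) = r(g)` for all `g`, and vanishes
at `x` if `r` vanishes on the orbit of `x`. -/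
def Stmt_RES_Sh1 : Prop :=
  ∀ (G X M : Type) [Group G] [MulAction G X] [AddCommGroup M] (r : G → X → M),
    (∀ g h x, r (g * h) x = r h (g⁻¹ • x) + r g x) → (∀ g x, g • x = x → r g x = 0) →
    ∃ φ : X → M, (∀ g x, r g x = φ (g⁻¹ • x) - φ x) ∧
      (∀ s : G, (∀ g, r (g * s) = r g) → ∀ x, φ (s • x) = φ x) ∧
      ∀ x, (∀ (g h : G), r g (h • x) = 0) → φ x = 0

/-- **RES-Cap** (`p`-capitulation: every divisor outside `S` is principal in `Ω` modulo `p`):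
a function `φ` on the places of `ℚ̄` with values in `𝔽_p`, of level `F` (unramified outside `S`)
and supported over finitely many primes, is `A ↦ ord_A(t) mod p` on the places outside `S` for
some `t ∈ Ωˣ`.
(Divisor `D` of `F` with `D ≡ φ mod p`; `h = pᵃ m` the class number of `F`, `D^h = (α)`;
`α^{1/pᵃ} ∈ Ω` by the Kummer criterion `H6.inOm_of_pow`; `t = (α^{1/pᵃ})^{m'}`, `m m' ≡ 1 mod p`.) -/
def Stmt_RES_Cap : Prop :=
  ∀ (p : ℕ) [Fact p.Prime] (S : Finset Nat.Primes), pPrime p ∈ S →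
    ∀ (φ : ValuationSubring Qb → ZMod p) (F : IntermediateField ℚ Qb),
      F.IsUnramifiedOutside S →
      (∀ s : GQ, s ∈ F.fixingSubgroup → ∀ A : ValuationSubring Qb, φ (s • A) = φ A) →
      {q : Nat.Primes | ∃ A : ValuationSubring Qb, A.LiesOverPrime (q : ℕ) ∧ φ A ≠ 0}.Finite →
      ∃ t : Qbˣ, InOm S (t : Qb) ∧ ∀ q : Nat.Primes, q ∉ S → ∀ A : ValuationSubring Qb,
        A.LiesOverPrime (q : ℕ) → ∃ k : ℤ, OrdIs A (q : ℕ) (t : Qb) k ∧ (k : ZMod p) = φ A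

/-- **RES-Cyc** (decomposition groups outside `S` are cyclic modulo every level): for a place `A`
of `ℚ̄` over `q ∉ S` and a level field `F` there is `g₀` in the decomposition group
`D = {g ∈ G_K : g A = A}` such that every `g ∈ D` is `g₀ⁿ s` with `s ∈ G_F`.
(The image of `D` in `Gal(F'/K)`, `F'` the normal closure of `F K`, acts faithfully on the residue
field of `A ∩ F'` because the inertia group fixes `F'`; automorphism groups of finite fields are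
cyclic.) -/
def Stmt_RES_Cyc : Prop :=
  ∀ (S : Finset Nat.Primes) (K F : IntermediateField ℚ Qb), K.IsUnramifiedOutside S →
    F.IsUnramifiedOutside S → ∀ q : Nat.Primes, q ∉ S → ∀ A : ValuationSubring Qb,
    A.LiesOverPrime (q : ℕ) →
    ∃ g₀ : ↥K.fixingSubgroup, (g₀ : GQ) • A = A ∧
      ∀ g : ↥K.fixingSubgroup, (g : GQ) • A = A →
        ∃ (n : ℕ) (s : ↥K.fixingSubgroup), (s : GQ) ∈ F.fixingSubgroup ∧ g = g₀ ^ n * s

/-! ### The assemblies (helper24) -/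

/-- `Hasse` from its Brauer form. -/
def Stmt_GS_AsmHasse : Prop := Stmt_GSB_Hasse → Stmt_GS_Hasse

/-- `One` from its Brauer form and local Kummer theory. -/
def Stmt_GS_AsmOne : Prop := Stmt_GSB_One → Stmt_GS_LocKum → Stmt_GS_One

/-- `Two` from its Brauer form, the residue calculus (lifting to `μ_p`) and local Kummer
theory. -/
def Stmt_GS_AsmTwo : Prop :=
  Stmt_GSB_TwoIn → Stmt_RES_Sh1 → Stmt_RES_Cap → Stmt_GS_LocKum → Stmt_GS_Two

/-- `ResOnto` from the classes with one nonzero residue and the residue calculus. -/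
def Stmt_GS_AsmResOnto : Prop :=
  Stmt_GSB_TwoOut → Stmt_RES_Sh1 → Stmt_RES_Cap → Stmt_RES_Cyc → Stmt_GS_ResOnto

end Fermat.Agent.S55.CFT.GS

end
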