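/-
S55 package E4, island GS, wave 2 (coordinator: helper24): LAYER B = the BRIDGE from the abstract
general-Galois statements of Layer A (`Defs_GS2.lean`: number fields as types, Mathlib
`groupCohomology`, local components `locMap`) to the Brauer forms inside `ℚ̄` of Layer C
(`Defs_GS3.lean`: explicit cochains on `G_K`) and to the leaves `Stmt_GS_H3`, `Stmt_GS_DivBr`.
Plan: NOTES/plan/S55_GS.md §6.

For a level field `N` (`K ≤ N`, `N/ℚ` finite Galois, unramified outside `S`) the abstract fields are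
`↥K` and `↥(H6.NK hKN)` (`GS/H6_H90.lean`); `Gal(N/K)` is a quotient of `G_K`
(`AlgEquiv.restrictNormalHom`), and a level-`N`, `N`-valued cochain on `G_K` is the same as a cochain
on `Gal(N/K)` with values in `Nˣ`.  Inflation is invisible on the `G_K`-side.  The bridge has
* REAL: cocycles ↔ classes in degrees 2 and 3 (`groupCohomology.H2π`, `cocycles₂`,
  `inhomogeneousCochains`), `x = 0 ↔ c = d b`, additivity, inflation, cyclotomic models
  `N(ζ_{p^M}) ⊆ ℚ̄` (unramified outside `S ∋ p`: `H24.inOm_root`);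
* LOC-S: for `(q, w)` of a place system the place `v(q, w)` of `↥K` = kernel of
  `ℚ_q ⊗ K → ℚ̄_q`, `a ⊗ x ↦ a · ι_q(σ_w x)`; `locMap v(q,w) [c] = 0 ↔ LocTrivS 𝔓 q w c`
  (`⟹`: project `LocAlg` to `ℚ̄_q`; `⟸`: Shapiro (`groupCohomology.coindIso`) + local inflation is
  injective); `w ↦ v(q, w)` is a bijection onto the places over `q`;
* LOC-OUT: for a place `A` of `ℚ̄` over `q ∉ S` the place `v(A)` of `↥K`;
  `locMap v(A) [c] = 0 ↔ ResTrivAt p K A q b` (`cᵖ = d b`) (`⟹`: valuation on `LocAlg`;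
  `⟸`: Shapiro + `H²(D, units) = 0` for unramified extensions (LOC-2b) + `D` cyclic).
The owner of a bridge package states and hands out these sub-leaves in `GS/H<seat>_Bri*.lean`.
-/
import Fermat.Agent.S55.CFT.Defs_GS2
import Fermat.Agent.S55.CFT.Defs_GS3

set_option autoImplicit false

noncomputable section

namespace Fermat.Agent.S55.CFT.GS

/-- **BRI-Hasse**. -/
def Stmt_GS_BriHasse : Prop := Stmt_BrHasseG → Stmt_GSB_Hasse

/-- **BRI-One**. -/
def Stmt_GS_BriOne : Prop := Stmt_BrOneG → Stmt_GSB_One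

/-- **BRI-TwoIn** (`v₁ = v(q₁, w₁)`, `v₂ = v(q₂, w₂)`). -/
def Stmt_GS_BriTwoIn : Prop := Stmt_BrTwoG → Stmt_GSB_TwoIn

/-- **BRI-TwoOut** (`v₁ = v(A₁)`, `v₂` a place over `p`). -/
def Stmt_GS_BriTwoOut : Prop := Stmt_BrTwoG → Stmt_GSB_TwoOut

/-- **BRI-H3** (no local conditions; degree 3). -/
def Stmt_GS_BriH3 : Prop := Stmt_BrH3G → Stmt_GS_H3

/-- **BRI-Div** (no local conditions). -/
def Stmt_GS_BriDiv : Prop := Stmt_BrDivG → Stmt_GS_DivBr

end Fermat.Agent.S55.CFT.GS

end
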