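import Fermat.Agent.S55.CFT.H58_Cor
import Fermat.Agent.S55.CFT.Defs_CF

/-!
# CFT package COR (helper58): `Stmt_CorRes`

Corestriction `cor : Hⁿ(H, A) → Hⁿ(G, A)` with `cor ∘ res = [G : H]`, for a subgroup `H` of a
finite group `G`.
-/

set_option autoImplicit false

noncomputable section

namespace Fermat.Agent.S55.CFT.H58

open CategoryTheory groupCohomology

/-- **COR**: corestriction with `cor ∘ res = [G : H]`. -/
theorem stmt_CorRes : Stmt_CorRes := by
  intro G _ _ A H n
  let _ : Fintype (G ⧸ H) := Fintype.ofFinite _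
  obtain ⟨cor, hcor⟩ := exists_cor (k := ℤ) H n A
  refine ⟨cor.hom, fun x => ?_⟩
  have h := congrArg (fun f => f.hom x) hcor
  rw [← Nat.card_eq_fintype_card, ← Subgroup.index_eq_card] at h
  exact h

end Fermat.Agent.S55.CFT.H58

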