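import Fermat.Agent.S55.CFT.Global

/-!
# S55 / E4 (CFT lane), package GLB-0 (helper56): admissible sets of primes exist

`stmt_AdmissibleExists : Stmt_AdmissibleExists`: for `L/K` Galois, `K` totally complex, every
finite set `T₀` of primes is contained in an admissible `T`:

* `p ∈ T`;
* `L/K` unramified outside `T`: for `σ ≠ 1` pick `x ∈ 𝓞 L` with `σ x ≠ x` and put the prime factors
  of `N(σ x - x)` into `T`;
* `Cl_T(F) = 1` for every intermediate field: put the prime factors of the norms of representatives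
  of all ideal classes of all `F' : IntermediateField K L` into `T`, and transport along `F ≅ F'`.
-/

set_option autoImplicit false
set_option linter.style.haveILetI false
set_option linter.unusedSectionVars false

open NumberField
open scoped nonZeroDivisors

noncomputable section
namespace Fermat.Agent.S55.CFT.H56

/-! ### Arithmetic of natural numbers and prime ideals -/

/-- The set of prime factors of `n`, as a finite set of `Nat.Primes`. -/
def primesOf (n : ℕ) : Finset Nat.Primes := Finset.subtype Nat.Prime n.primeFactors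

lemma mem_primesOf_iff {n : ℕ} {q : Nat.Primes} :
    q ∈ primesOf n ↔ (q : ℕ) ∈ n.primeFactors :=
  Finset.mem_subtype (p := Nat.Prime) (s := n.primeFactors) (a := q)

lemma mem_primesOf {n : ℕ} (hn : n ≠ 0) {q : ℕ} (hq : q.Prime) (hqn : q ∣ n) :
    (⟨q, hq⟩ : Nat.Primes) ∈ primesOf n :=
  mem_primesOf_iff.mpr (Nat.mem_primeFactors.mpr ⟨hq, hqn, hn⟩)

/-- A natural number `n ≠ 0` lying in a prime ideal has a prime factor lying in it. -/
lemma exists_prime_mem_of_natCast_mem {R : Type*} [CommRing R] (P : Ideal R) (hP : P.IsPrime) :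
    ∀ n : ℕ, n ≠ 0 → (n : R) ∈ P → ∃ q : ℕ, q.Prime ∧ q ∣ n ∧ (q : R) ∈ P := by
  intro n
  induction n using Nat.strong_induction_on with
  | _ n ih =>
    intro hn hmem
    by_cases h1 : n = 1
    · subst h1
      exfalso
      apply hP.ne_top
      rw [Ideal.eq_top_iff_one]
      simpa using hmem
    · obtain ⟨q, hq, hqn⟩ := Nat.exists_prime_and_dvd h1
      obtain ⟨m, rfl⟩ := hqn
      rw [Nat.cast_mul] at hmem
      rcases hP.mem_or_mem hmem with h | h
      · exact ⟨q, hq, dvd_mul_right _ _, h⟩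
      · have hm0 : m ≠ 0 := by
          rintro rfl
          simp at hn
        have hlt : m < q * m := by
          have := hq.two_le
          have := Nat.pos_of_ne_zero hm0
          nlinarith
        obtain ⟨q', hq', hq'm, hq'P⟩ := ih m hlt hm0 h
        exact ⟨q', hq', dvd_mul_of_dvd_right hq'm _, hq'P⟩

lemma prime_dvd_prodT {T : Finset Nat.Primes} {q : Nat.Primes} (hq : q ∈ T) :
    (q : ℕ) ∣ prodT T :=
  Finset.dvd_prod_of_mem (fun q : Nat.Primes => (q : ℕ)) hq

/-- A number all of whose prime factors are in `T` divides a power of `prodT T`. -/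
lemma dvd_prodT_pow (T : Finset Nat.Primes) :
    ∀ n : ℕ, n ≠ 0 → primesOf n ⊆ T → ∃ e : ℕ, n ∣ prodT T ^ e := by
  intro n
  induction n using Nat.strong_induction_on with
  | _ n ih =>
    intro hn hsub
    by_cases h1 : n = 1
    · exact ⟨0, by rw [h1]; exact one_dvd _⟩
    · obtain ⟨q, hq, hqn⟩ := Nat.exists_prime_and_dvd h1
      have hqT : (⟨q, hq⟩ : Nat.Primes) ∈ T := hsub (mem_primesOf hn hq hqn)
      obtain ⟨m, rfl⟩ := hqn
      have hm0 : m ≠ 0 := by
        rintro rfl
        simp at hn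
      have hlt : m < q * m := by
        have := hq.two_le
        have := Nat.pos_of_ne_zero hm0
        nlinarith
      have hsub' : primesOf m ⊆ T := by
        intro r hr
        apply hsub
        rw [mem_primesOf_iff, Nat.mem_primeFactors] at hr ⊢
        exact ⟨hr.1, dvd_mul_of_dvd_right hr.2.1 _, hn⟩
      obtain ⟨e, he⟩ := ih m hlt hm0 hsub'
      refine ⟨e + 1, ?_⟩
      rw [pow_succ, mul_comm (prodT T ^ e)]
      exact mul_dvd_mul (prime_dvd_prodT hqT) he

/-! ### Unramified outside `T` -/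

section Ram

variable (K L : Type) [Field K] [Field L] [NumberField K] [NumberField L] [Algebra K L]

lemma exists_smul_ne (σ : L ≃ₐ[K] L) (hσ : σ ≠ 1) : ∃ x : 𝓞 L, σ • x ≠ x := by
  by_contra hcon
  have hall : ∀ x : 𝓞 L, σ (x : L) = (x : L) := by
    intro x
    by_contra hx
    exact hcon ⟨x, fun h => hx (congrArg (fun z : 𝓞 L => (z : L)) h)⟩
  apply hσ
  ext y
  obtain ⟨a, b, -, rfl⟩ := IsFractionRing.div_surjective (𝓞 L) y
  rw [map_div₀]
  show σ (a : L) / σ (b : L) = _
  rw [hall a, hall b]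
  rfl

/-- For `σ ≠ 1` the norm of some `σ x - x ≠ 0`. -/
def ramNum (σ : L ≃ₐ[K] L) : ℕ := by
  classical
  exact if h : σ = 1 then 1 else
    Ideal.absNorm (Ideal.span {σ • (exists_smul_ne K L σ h).choose - (exists_smul_ne K L σ h).choose})

lemma ramNum_ne_zero (σ : L ≃ₐ[K] L) : ramNum K L σ ≠ 0 := by
  classical
  unfold ramNum
  split_ifs with h
  · exact one_ne_zero
  · rw [Ne, Ideal.absNorm_eq_zero_iff, Ideal.span_singleton_eq_bot, sub_eq_zero]
    exact (exists_smul_ne K L σ h).choose_spec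

lemma ramNum_mem (σ : L ≃ₐ[K] L) (hσ : σ ≠ 1) (P : Ideal (𝓞 L))
    (h : σ ∈ P.inertia (L ≃ₐ[K] L)) : ((ramNum K L σ : ℕ) : 𝓞 L) ∈ P := by
  classical
  unfold ramNum
  rw [dif_neg hσ]
  have h1 := h (exists_smul_ne K L σ hσ).choose
  have h2 : Ideal.span {σ • (exists_smul_ne K L σ hσ).choose - (exists_smul_ne K L σ hσ).choose}
      ≤ P := (Ideal.span_singleton_le_iff_mem P).mpr h1
  exact h2 (Ideal.absNorm_mem _)

open scoped Classical in
/-- The primes which may ramify. -/
def ramSet : Finset Nat.Primes :=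
  (Finset.univ : Finset (L ≃ₐ[K] L)).biUnion fun σ => primesOf (ramNum K L σ)

open scoped Classical in
lemma mem_ramSet {q : Nat.Primes} (σ : L ≃ₐ[K] L) (h : q ∈ primesOf (ramNum K L σ)) :
    q ∈ ramSet K L :=
  Finset.mem_biUnion.mpr ⟨σ, Finset.mem_univ _, h⟩

theorem unramifiedOutsideT_of_ramSet_subset (T : Finset Nat.Primes) (hT : ramSet K L ⊆ T) :
    UnramifiedOutsideT K L T := by
  classical
  intro P hP _ hPT
  rw [Subgroup.eq_bot_iff_forall]
  intro σ hσ
  by_contra hne
  have hmem := ramNum_mem K L σ hne P hσ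
  obtain ⟨q, hq, hqn, hqP⟩ := exists_prime_mem_of_natCast_mem P hP _ (ramNum_ne_zero K L σ) hmem
  have hqT : (⟨q, hq⟩ : Nat.Primes) ∈ T :=
    hT (mem_ramSet K L σ (mem_primesOf (ramNum_ne_zero K L σ) hq hqn))
  apply hPT ⟨q, hq⟩ hqT
  simpa using hqP

end Ram

/-! ### Trivial `T`-class group -/

section Cl

variable (F : Type) [Field F] [NumberField F]

/-- A representative of an ideal class. -/
def classRep (c : ClassGroup (𝓞 F)) : (Ideal (𝓞 F))⁰ :=
  (ClassGroup.mk0_surjective c).choose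

lemma mk0_classRep (c : ClassGroup (𝓞 F)) : ClassGroup.mk0 (classRep F c) = c :=
  (ClassGroup.mk0_surjective c).choose_spec

lemma absNorm_classRep_ne_zero (c : ClassGroup (𝓞 F)) :
    Ideal.absNorm (classRep F c : Ideal (𝓞 F)) ≠ 0 := by
  rw [Ne, Ideal.absNorm_eq_zero_iff]
  exact nonZeroDivisors.coe_ne_zero _

open scoped Classical in
/-- The primes dividing the norms of the chosen representatives of the ideal classes. -/
def clSet : Finset Nat.Primes :=
  (Finset.univ : Finset (ClassGroup (𝓞 F))).biUnion fun c =>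
    primesOf (Ideal.absNorm (classRep F c : Ideal (𝓞 F)))

open scoped Classical in
lemma mem_clSet {q : Nat.Primes} (c : ClassGroup (𝓞 F))
    (h : q ∈ primesOf (Ideal.absNorm (classRep F c : Ideal (𝓞 F)))) : q ∈ clSet F :=
  Finset.mem_biUnion.mpr ⟨c, Finset.mem_univ _, h⟩

theorem clTrivial_of_clSet_subset (T : Finset Nat.Primes) (hT : clSet F ⊆ T) :
    ClTrivial F T := by
  classical
  intro I hI
  have hI0 : I ∈ (Ideal (𝓞 F))⁰ := mem_nonZeroDivisors_of_ne_zero hI
  set c : ClassGroup (𝓞 F) := ClassGroup.mk0 ⟨I, hI0⟩ with hc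
  have hrep : ClassGroup.mk0 ⟨I, hI0⟩ = ClassGroup.mk0 (classRep F c) := (mk0_classRep F c).symm
  obtain ⟨a, b, ha, hb, hab⟩ := ClassGroup.mk0_eq_mk0_iff.mp hrep
  have hsub : primesOf (Ideal.absNorm (classRep F c : Ideal (𝓞 F))) ⊆ T := by
    intro q hq
    exact hT (mem_clSet F c hq)
  obtain ⟨e, he⟩ := dvd_prodT_pow T _ (absNorm_classRep_ne_zero F c) hsub
  refine ⟨a, b, (classRep F c : Ideal (𝓞 F)), e, ha, hb, ?_, hab⟩
  rw [Ideal.span_singleton_pow, Ideal.dvd_span_singleton]
  obtain ⟨m, hm⟩ := he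
  have h1 : (((prodT T : ℕ) : ℤ) : 𝓞 F) ^ e
      = ((Ideal.absNorm (classRep F c : Ideal (𝓞 F)) : ℕ) : 𝓞 F) * ((m : ℕ) : 𝓞 F) := by
    have := congrArg (fun z : ℕ => (z : 𝓞 F)) hm
    simpa using this
  rw [h1]
  exact Ideal.mul_mem_right _ _ (Ideal.absNorm_mem _)

end Cl


/-! ### Transport along an isomorphism of fields -/

section Transport

variable {F F' : Type} [Field F] [NumberField F] [Field F'] [NumberField F']

theorem clTrivial_of_ringEquiv (e : F ≃+* F') (T : Finset Nat.Primes) (h : ClTrivial F' T) :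
    ClTrivial F T := by
  classical
  set e' : 𝓞 F ≃+* 𝓞 F' := RingOfIntegers.mapRingEquiv e with he'
  intro I hI
  have hI' : I.map (e' : 𝓞 F →+* 𝓞 F') ≠ ⊥ := fun h0 =>
    hI ((Ideal.map_eq_bot_iff_of_injective (f := (e' : 𝓞 F →+* 𝓞 F')) e'.injective).mp h0)
  obtain ⟨a', b', J', n, ha', hb', hJ', hrel⟩ := h _ hI'
  have hback : ∀ X : Ideal (𝓞 F), (X.map (e' : 𝓞 F →+* 𝓞 F')).map (e'.symm : 𝓞 F' →+* 𝓞 F) = X :=
    fun X => Ideal.map_of_equiv e'
  have hspan : ∀ x : 𝓞 F', (Ideal.span {x}).map (e'.symm : 𝓞 F' →+* 𝓞 F)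
      = Ideal.span {e'.symm x} := by
    intro x
    rw [Ideal.map_span, Set.image_singleton]
    rfl
  refine ⟨e'.symm a', e'.symm b', J'.map (e'.symm : 𝓞 F' →+* 𝓞 F), n, ?_, ?_, ?_, ?_⟩
  · exact fun h0 => ha' ((map_eq_zero_iff _ e'.symm.injective).mp h0)
  · exact fun h0 => hb' ((map_eq_zero_iff _ e'.symm.injective).mp h0)
  · obtain ⟨Y', hY'⟩ := hJ'
    refine ⟨Y'.map (e'.symm : 𝓞 F' →+* 𝓞 F), ?_⟩
    rw [← Ideal.map_mul, ← hY', Ideal.map_pow, hspan]
    congr 2
    simp
  · have := congrArg (Ideal.map (e'.symm : 𝓞 F' →+* 𝓞 F)) hrel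
    rw [Ideal.map_mul, Ideal.map_mul, hspan, hspan, hback] at this
    exact this

end Transport

/-! ### The theorem -/

open scoped Classical in
/-- **GLB-0**: admissible sets of primes exist. -/
theorem stmt_AdmissibleExists : Stmt_AdmissibleExists := by
  intro p K L _ _ _ _ _ T₀ hp hgal hcplx
  haveI : Finite (IntermediateField K L) :=
    Field.finite_intermediateField_of_exists_primitive_element K L
      (Field.exists_primitive_element K L)
  haveI : Fintype (IntermediateField K L) := Fintype.ofFinite _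
  set Tcl : Finset Nat.Primes :=
    (Finset.univ : Finset (IntermediateField K L)).biUnion fun F' => clSet ↥F' with hTcl
  set T : Finset Nat.Primes := T₀ ∪ {⟨p, hp⟩} ∪ ramSet K L ∪ Tcl with hT
  have h0 : T₀ ⊆ T := fun q hq =>
    Finset.mem_union_left _ (Finset.mem_union_left _ (Finset.mem_union_left _ hq))
  have hpT : (⟨p, hp⟩ : Nat.Primes) ∈ T :=
    Finset.mem_union_left _ (Finset.mem_union_left _
      (Finset.mem_union_right _ (Finset.mem_singleton_self _)))
  have hram : ramSet K L ⊆ T := fun q hq =>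
    Finset.mem_union_left _ (Finset.mem_union_right _ hq)
  have hcl : ∀ F' : IntermediateField K L, clSet ↥F' ⊆ T := fun F' q hq =>
    Finset.mem_union_right _ (Finset.mem_biUnion.mpr ⟨F', Finset.mem_univ _, hq⟩)
  refine ⟨T, h0, ⟨hgal, hcplx, ⟨⟨p, hp⟩, hpT, rfl⟩,
    unramifiedOutsideT_of_ramSet_subset K L T hram, ?_⟩⟩
  intro F _ _ _ _ _
  let φ : F →ₐ[K] L := IsScalarTower.toAlgHom K F L
  let e : F ≃ₐ[K] φ.fieldRange := AlgEquiv.ofInjectiveField φ
  exact clTrivial_of_ringEquiv e.toRingEquiv T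
    (clTrivial_of_clSet_subset ↥φ.fieldRange T (hcl φ.fieldRange))

end Fermat.Agent.S55.CFT.H56
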