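/-
S55 package E4, island GLB, wave 2: ADM-MONO and HYP2-EX (the standing hypotheses `Hyp2` can
always be arranged).  Owner: helper56.

* `stmt_AdmissibleMono : Stmt_AdmissibleMono`;
* `finrank_cyclo_dvd`: if `ζ_p ∈ K` then `[K(ζ_{p^M}) : K] ∣ p^(M-1)` (the cyclotomic character
  lands in the kernel of `(ℤ/p^M)ˣ → (ℤ/p)ˣ`); `pow_dvd_finrank_cyclo`: `p^m ∣ [K(ζ_{p^M}) : K]`
  for `M ≥ m + [K : ℚ] + 1` (`φ(p^M) ≤ [K(ζ_{p^M}) : ℚ]`);
* `isGalois_cyclo`: `L(ζ_n)/K` is Galois if `L/K` is;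
* `stmt_Hyp2Exists : Stmt_Hyp2Exists`.
-/
import Fermat.Agent.S55.CFT.H56_Admissible
import Fermat.Agent.S55.CFT.Defs_CF

set_option autoImplicit false
set_option linter.style.haveILetI false

open NumberField TensorProduct

noncomputable section
namespace Fermat.Agent.S55.CFT.H56

open Fermat.Agent.S55.CFT

/-! ### Monotonicity -/

lemma prodT_dvd_of_subset {T T' : Finset Nat.Primes} (h : T ⊆ T') : prodT T ∣ prodT T' :=
  Finset.prod_dvd_prod_of_subset _ _ _ h

lemma clTrivial_mono (F : Type) [Field F] [NumberField F] {T T' : Finset Nat.Primes}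
    (hTT : T ⊆ T') (h : ClTrivial F T) : ClTrivial F T' := by
  intro I hI
  obtain ⟨a, b, J, n, ha, hb, hJ, hab⟩ := h I hI
  refine ⟨a, b, J, n, ha, hb, hJ.trans ?_, hab⟩
  apply pow_dvd_pow_of_dvd
  obtain ⟨c, hc⟩ := prodT_dvd_of_subset hTT
  refine ⟨Ideal.span {((c : ℤ) : 𝓞 F)}, ?_⟩
  rw [Ideal.span_singleton_mul_span_singleton, hc]
  push_cast
  rfl

/-- **ADM-MONO**. -/
theorem stmt_AdmissibleMono : Stmt_AdmissibleMono := by
  intro p K L _ _ _ _ _ T T' hTT h
  refine ⟨h.gal, h.cplx, ?_, ?_, ?_⟩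
  · obtain ⟨q, hq, hqp⟩ := h.pmem
    exact ⟨q, hTT hq, hqp⟩
  · intro P hP hP0 hT
    exact h.unr P hP hP0 (fun q hq => hT q (hTT hq))
  · intro F _ _ _ _ _
    exact clTrivial_mono F hTT (h.cl F)

/-! ### The degree of `K(ζ_{p^M})/K` -/

/-- The kernel of `(ℤ/p^M)ˣ → (ℤ/p)ˣ` has `p^(M-1)` elements. -/
lemma card_ker_unitsMap (p : ℕ) (hp : p.Prime) (M : ℕ) (hM : 0 < M) :
    Nat.card (ZMod.unitsMap (dvd_pow_self p hM.ne') : (ZMod (p ^ M))ˣ →* (ZMod p)ˣ).ker =
      p ^ (M - 1) := by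
  haveI : NeZero (p ^ M) := ⟨pow_ne_zero _ hp.ne_zero⟩
  haveI : NeZero p := ⟨hp.ne_zero⟩
  set f := (ZMod.unitsMap (dvd_pow_self p hM.ne') : (ZMod (p ^ M))ˣ →* (ZMod p)ˣ)
  have hsurj : Function.Surjective f := ZMod.unitsMap_surjective _
  have h1 : Nat.card f.ker * f.ker.index = Nat.card (ZMod (p ^ M))ˣ := Subgroup.card_mul_index _
  have h2 : f.ker.index = Nat.card (ZMod p)ˣ := by
    rw [Subgroup.index_ker, MonoidHom.range_eq_top.2 hsurj]
    exact Nat.card_congr Subgroup.topEquiv.toEquiv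
  have h3 : Nat.card (ZMod p)ˣ = p - 1 := by
    rw [Nat.card_eq_fintype_card, ZMod.card_units_eq_totient, Nat.totient_prime hp]
  have h4 : Nat.card (ZMod (p ^ M))ˣ = p ^ (M - 1) * (p - 1) := by
    rw [Nat.card_eq_fintype_card, ZMod.card_units_eq_totient, Nat.totient_prime_pow hp hM]
  rw [h2, h3, h4] at h1
  have hp1 : 0 < p - 1 := Nat.sub_pos_of_lt hp.one_lt
  exact Nat.eq_of_mul_eq_mul_right hp1 h1


/-- If `ζ_p ∈ K` then `[K(ζ_{p^M}) : K]` divides `p^(M-1)`. -/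
lemma finrank_cyclo_dvd (p : ℕ) (hp : p.Prime) (M : ℕ) (hM : 0 < M) (K N : Type) [Field K]
    [Field N] [NumberField K] [Algebra K N] [hcyc : IsCyclotomicExtension {p ^ M} K N]
    (hζ : ∃ ζ : K, IsPrimitiveRoot ζ p) : Module.finrank K N ∣ p ^ (M - 1) := by
  classical
  haveI : NeZero (p ^ M) := ⟨pow_ne_zero _ hp.ne_zero⟩
  haveI : NeZero p := ⟨hp.ne_zero⟩
  haveI : IsGalois K N := IsCyclotomicExtension.isGalois {p ^ M} K N
  haveI : FiniteDimensional K N := IsCyclotomicExtension.finiteDimensional {p ^ M} K N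
  obtain ⟨ζ0, hζ0⟩ := hζ
  obtain ⟨ζ, hζ⟩ := IsCyclotomicExtension.exists_isPrimitiveRoot K N
    (Set.mem_singleton (p ^ M)) (NeZero.ne _)
  set f := (ZMod.unitsMap (dvd_pow_self p hM.ne') : (ZMod (p ^ M))ˣ →* (ZMod p)ˣ) with hf
  -- the character lands in the kernel
  have hker : ∀ σ : N ≃ₐ[K] N, hζ.autToPow K σ ∈ f.ker := by
    intro σ
    set a : ℕ := ((hζ.autToPow K σ : (ZMod (p ^ M))ˣ) : ZMod (p ^ M)).val with ha
    have hspec : ζ ^ a = σ ζ := hζ.autToPow_spec K σ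
    have hpM : p ^ M = p ^ (M - 1) * p := by
      rw [← pow_succ, Nat.sub_add_cancel hM]
    have hη : IsPrimitiveRoot (ζ ^ (p ^ (M - 1))) p :=
      hζ.pow (Nat.pos_of_ne_zero (NeZero.ne _)) hpM
    -- `η` comes from `K`
    have hη0 : IsPrimitiveRoot (algebraMap K N ζ0) p :=
      hζ0.map_of_injective (algebraMap K N).injective
    obtain ⟨i, -, hi⟩ := hη0.eq_pow_of_pow_eq_one hη.pow_eq_one
    have hfix : σ (ζ ^ (p ^ (M - 1))) = ζ ^ (p ^ (M - 1)) := by
      rw [← hi, map_pow, σ.commutes]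
    rw [map_pow, ← hspec, ← pow_mul, mul_comm, pow_mul] at hfix
    -- `η ^ a = η`, so `a ≡ 1 mod p`
    have hmod : a ≡ 1 [MOD p] := by
      have h1 : (ζ ^ (p ^ (M - 1))) ^ a = (ζ ^ (p ^ (M - 1))) ^ 1 := by rw [hfix, pow_one]
      obtain ⟨u, hu⟩ := hη.isUnit hp.ne_zero
      have hupow : u ^ a = u ^ 1 := Units.ext (by simp [hu, hfix])
      have hord : orderOf u = p := by
        rw [← orderOf_units, hu]
        exact hη.eq_orderOf.symm
      have := pow_eq_pow_iff_modEq.1 hupow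
      rwa [hord] at this
    rw [MonoidHom.mem_ker]
    apply Units.ext
    rw [hf, ZMod.unitsMap_val, Units.val_one]
    have h2 : ((hζ.autToPow K σ : (ZMod (p ^ M))ˣ) : ZMod (p ^ M)) = (a : ZMod (p ^ M)) := by
      rw [ha, ZMod.natCast_val, ZMod.cast_id', id]
    rw [h2, ZMod.cast_natCast (dvd_pow_self p hM.ne')]
    have := (ZMod.natCast_eq_natCast_iff a 1 p).2 hmod
    simpa using this
  let g : (N ≃ₐ[K] N) →* f.ker := (hζ.autToPow K).codRestrict f.ker hker
  have hg : Function.Injective g := by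
    intro σ τ h
    apply IsPrimitiveRoot.autToPow_injective K hζ
    exact congrArg (fun z : f.ker => (z : (ZMod (p ^ M))ˣ)) h
  have := Subgroup.card_dvd_of_injective g hg
  rwa [card_ker_unitsMap p hp M hM, IsGalois.card_aut_eq_finrank] at this


/-- `φ(n) ≤ [N : ℚ]` if `N` contains a primitive `n`-th root of unity. -/
lemma totient_le_finrank (n : ℕ) [NeZero n] (K N : Type) [Field K] [Field N] [NumberField K]
    [NumberField N] [Algebra K N] {ζ : N} (hζ : IsPrimitiveRoot ζ n) :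
    n.totient ≤ Module.finrank ℚ K * Module.finrank K N := by
  have h1 : (minpoly ℚ ζ).natDegree = n.totient := by
    rw [← Polynomial.cyclotomic_eq_minpoly_rat hζ (Nat.pos_of_ne_zero (NeZero.ne n)),
      Polynomial.natDegree_cyclotomic]
  have h2 : (minpoly ℚ ζ).natDegree ≤ Module.finrank ℚ N := minpoly.natDegree_le ζ
  rw [h1, ← Module.finrank_mul_finrank ℚ K N] at h2
  exact h2

/-- For `M` large, `p ^ m` divides `[K(ζ_{p^M}) : K]` (if `ζ_p ∈ K`). -/
lemma pow_dvd_finrank_cyclo (p : ℕ) (hp : p.Prime) (m M : ℕ) (K : Type) [Field K]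
    [NumberField K] (hζ : ∃ ζ : K, IsPrimitiveRoot ζ p)
    (hM : m + Module.finrank ℚ K + 1 ≤ M) :
    p ^ m ∣ Module.finrank K (CyclotomicField (p ^ M) K) := by
  haveI : NeZero (p ^ M) := ⟨pow_ne_zero _ hp.ne_zero⟩
  have hM0 : 0 < M := by omega
  set d := Module.finrank ℚ K with hd
  set D := Module.finrank K (CyclotomicField (p ^ M) K) with hD
  have hdvd : D ∣ p ^ (M - 1) := finrank_cyclo_dvd p hp M hM0 K (CyclotomicField (p ^ M) K) hζ
  obtain ⟨j, hj, hDj⟩ := (Nat.dvd_prime_pow hp).1 hdvd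
  obtain ⟨ζ, hζ'⟩ := IsCyclotomicExtension.exists_isPrimitiveRoot K (CyclotomicField (p ^ M) K)
    (Set.mem_singleton (p ^ M)) (NeZero.ne _)
  have hlow := totient_le_finrank (p ^ M) K (CyclotomicField (p ^ M) K) hζ'
  rw [Nat.totient_prime_pow hp hM0, ← hD, hDj] at hlow
  rw [hDj]
  apply pow_dvd_pow
  by_contra hjm
  rw [not_le] at hjm
  have hp2 : 2 ≤ p := hp.two_le
  have h1 : p ^ (m + d) ≤ p ^ (M - 1) := Nat.pow_le_pow_right hp.pos (by omega)
  have h2 : p ^ (M - 1) ≤ p ^ (M - 1) * (p - 1) := Nat.le_mul_of_pos_right _ (by omega)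
  have h3 : d < p ^ d := Nat.lt_pow_self hp2
  have h5 : d * p ^ j < p ^ d * p ^ m := by
    have hpj : 0 < p ^ j := pow_pos hp.pos j
    calc d * p ^ j < p ^ d * p ^ j := Nat.mul_lt_mul_of_pos_right h3 hpj
      _ ≤ p ^ d * p ^ m := Nat.mul_le_mul_left _
          (Nat.pow_le_pow_right hp.pos hjm.le)
  have h6 : p ^ (m + d) = p ^ d * p ^ m := by rw [pow_add, mul_comm]
  have h7 : p ^ (m + d) ≤ d * p ^ j := h1.trans (h2.trans hlow)
  rw [h6] at h7
  exact absurd (h7.trans_lt h5) (lt_irrefl _)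


/-! ### `L(ζ_n)/K` is Galois -/

open Polynomial in
/-- If `L/K` is Galois then so is `L(ζ_n)/K`. -/
lemma isGalois_cyclo (K L : Type) [Field K] [Field L] [NumberField K] [NumberField L]
    [Algebra K L] [IsGalois K L] (n : ℕ) [NeZero n] : IsGalois K (CyclotomicField n L) := by
  classical
  obtain ⟨f, hf⟩ := Normal.exists_isSplittingField K L
  -- we may assume `f ≠ 0`
  obtain ⟨f, hf0, hf⟩ : ∃ f : K[X], f ≠ 0 ∧ IsSplittingField K L f := by
    by_cases h0 : f = 0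
    · subst h0
      refine ⟨1, one_ne_zero, ⟨by simp, ?_⟩⟩
      have := hf.adjoin_rootSet
      simpa [Polynomial.rootSet] using this
    · exact ⟨f, h0, hf⟩
  have hg0 : (X ^ n - 1 : K[X]) ≠ 0 := by
    have := Polynomial.X_pow_sub_C_ne_zero (NeZero.pos n) (1 : K)
    simpa using this
  haveI : IsSplittingField L (CyclotomicField n L) ((X ^ n - 1 : K[X]).map (algebraMap K L)) := by
    have := IsCyclotomicExtension.isSplittingField_X_pow_sub_one n L (CyclotomicField n L)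
    simpa using this
  haveI := hf
  have hsp : IsSplittingField K (CyclotomicField n L) (f * (X ^ n - 1)) :=
    IsSplittingField.mul (F := K) (K := L) (L := CyclotomicField n L) f (X ^ n - 1) hf0 hg0
  haveI : Normal K (CyclotomicField n L) := Normal.of_isSplittingField (f * (X ^ n - 1))
  exact ⟨⟩


/-! ### HYP2-EX -/

/-- A number field containing a primitive `p`-th root of unity, `p` an odd prime, is totally
complex. -/
lemma isTotallyComplex_of_primitiveRoot (p : ℕ) (hp : p.Prime) (hp2 : p ≠ 2) (K : Type)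
    [Field K] [NumberField K] (hζ : ∃ ζ : K, IsPrimitiveRoot ζ p) : IsTotallyComplex K := by
  obtain ⟨ζ, hζ⟩ := hζ
  have h3 : 2 < p := lt_of_le_of_ne hp.two_le (Ne.symm hp2)
  exact nrRealPlaces_eq_zero_iff.mp
    (NumberField.InfinitePlace.IsPrimitiveRoot.nrRealPlaces_eq_zero_of_two_lt h3 hζ)

/-- **HYP2-EX**. -/
theorem stmt_Hyp2Exists : Stmt_Hyp2Exists := by
  intro p m K L _ _ _ _ _ T₀ M₀ hp hp2 hζ hgal hdeg
  haveI := hgal
  set M := M₀ + (m + Module.finrank ℚ K + 1) with hM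
  haveI hne : NeZero (p ^ M) := ⟨pow_ne_zero _ hp.ne_zero⟩
  have hcplx : IsTotallyComplex K := isTotallyComplex_of_primitiveRoot p hp hp2 K hζ
  haveI hgalN : IsGalois K (CyclotomicField (p ^ M) L) := isGalois_cyclo K L (p ^ M)
  haveI hgalK : IsGalois K (CyclotomicField (p ^ M) K) :=
    IsCyclotomicExtension.isGalois {p ^ M} K (CyclotomicField (p ^ M) K)
  obtain ⟨T1, hT1, hadm1⟩ := stmt_AdmissibleExists p K L T₀ hp hgal hcplx
  obtain ⟨T2, hT2, hadm2⟩ :=
    stmt_AdmissibleExists p K (CyclotomicField (p ^ M) L) T1 hp hgalN hcplx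
  obtain ⟨T3, hT3, hadm3⟩ :=
    stmt_AdmissibleExists p K (CyclotomicField (p ^ M) K) T2 hp hgalK hcplx
  refine ⟨M, hne, T3, Nat.le_add_right _ _, hT1.trans (hT2.trans hT3), ?_⟩
  exact
    { prime := hp
      odd := hp2
      zeta := hζ
      deg := hdeg
      big := pow_dvd_finrank_cyclo p hp m M K hζ (Nat.le_add_left _ _)
      adm := stmt_AdmissibleMono p K L T1 T3 (hT2.trans hT3) hadm1
      admCyc := stmt_AdmissibleMono p K (CyclotomicField (p ^ M) L) T2 T3 hT3 hadm2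
      admCycK := hadm3 }

end Fermat.Agent.S55.CFT.H56
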