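import Mathlib

/-!
# S55-E4 package FUND (helper13), part 1: the explicit 2-cocycles of a finite cyclic group

`Δ` a group with a generator `σ` of order `n` and discrete logarithm `e : Δ → ℕ` (`DLog`).
For an invariant element `a` of `B : Rep ℤ Δ`, `cyc n e a (g, h) = ((e g + e h) / n) • a` is a
2-cocycle (`cyc_mem_cocycles₂`), and it is a coboundary iff `a` is a norm
`∑_{i < n} σ^i b` (`cyc_mem_coboundaries₂_iff`).
-/

set_option autoImplicit false
set_option linter.unusedSectionVars false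
set_option linter.unusedVariables false
set_option linter.style.haveILetI false

noncomputable section

namespace Fermat.Agent.S55.CFT.H13

open CategoryTheory groupCohomology

/-- `σ` generates `Δ`, has order `n`, and `e` is the discrete logarithm with values in
`[0, n)`. -/
structure DLog (Δ : Type) [Group Δ] (σ : Δ) (n : ℕ) (e : Δ → ℕ) : Prop where
  pos : 0 < n
  lt : ∀ g, e g < n
  pow : ∀ g, σ ^ e g = g
  pow_n : σ ^ n = 1
  inj : ∀ i, i < n → e (σ ^ i) = i

namespace DLog

variable {Δ : Type} [Group Δ] {σ : Δ} {n : ℕ} {e : Δ → ℕ} (h : DLog Δ σ n e)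

include h

theorem pow_mod (x : ℕ) : σ ^ (x % n) = σ ^ x := by
  conv_rhs => rw [← Nat.div_add_mod x n, pow_add, pow_mul, h.pow_n, one_pow, one_mul]

theorem e_pow (x : ℕ) : e (σ ^ x) = x % n := by
  rw [← h.pow_mod x]
  exact h.inj _ (Nat.mod_lt _ h.pos)

theorem e_mul (g g' : Δ) : e (g * g') = (e g + e g') % n := by
  conv_lhs => rw [← h.pow g, ← h.pow g', ← pow_add]
  exact h.e_pow _

theorem e_one : e (1 : Δ) = 0 := by
  have := h.inj 0 h.pos
  rwa [pow_zero] at this

end DLog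

section Cyc

variable {Δ : Type} [Group Δ] (B : Rep.{0} ℤ Δ) {σ : Δ} (n : ℕ) (e : Δ → ℕ)

/-- The 2-cochain `(g, h) ↦ ⌊(e g + e h) / n⌋ a`. -/
def cyc (a : B.V) : Δ × Δ → B.V := fun p => ((e p.1 + e p.2) / n) • a

theorem cyc_apply (a : B.V) (g g' : Δ) : cyc B n e a (g, g') = ((e g + e g') / n) • a := rfl

variable {n e}

theorem div_add_div (hn : 0 < n) (x z : ℕ) : (x % n + z) / n + x / n = (x + z) / n := by
  have h1 : x + z = n * (x / n) + (x % n + z) := by
    have := Nat.div_add_mod x n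
    omega
  rw [h1, Nat.mul_add_div hn, add_comm]

theorem cyc_mem_cocycles₂ (h : DLog Δ σ n e) (a : B.V) (ha : ∀ g, B.ρ g a = a) :
    cyc B n e a ∈ cocycles₂ B := by
  rw [mem_cocycles₂_iff]
  intro g g' j
  rw [cyc_apply, cyc_apply, cyc_apply, cyc_apply, map_nsmul, ha, ← add_nsmul, ← add_nsmul,
    h.e_mul g g', h.e_mul g' j]
  congr 1
  have e1 := div_add_div h.pos (e g + e g') (e j)
  have e2 := div_add_div h.pos (e g' + e j) (e g)
  have e3 : (e g' + e j) % n + e g = e g + (e g' + e j) % n := add_comm _ _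
  have e4 : e g' + e j + e g = e g + e g' + e j := by ring
  rw [e3, e4] at e2
  omega

/-- The partial norms `F t = ∑_{k < t} σ^k b`. -/
def pnorm (σ : Δ) (b : B.V) (t : ℕ) : B.V := ∑ k ∈ Finset.range t, B.ρ (σ ^ k) b

theorem pnorm_zero (σ : Δ) (b : B.V) : pnorm B σ b 0 = 0 := by
  simp [pnorm]

theorem pnorm_add (σ : Δ) (b : B.V) (s t : ℕ) :
    pnorm B σ b (s + t) = pnorm B σ b s + B.ρ (σ ^ s) (pnorm B σ b t) := by
  unfold pnorm
  rw [Finset.sum_range_add, map_sum]
  congr 1
  apply Finset.sum_congr rfl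
  intro k _
  rw [pow_add, map_mul]
  rfl

theorem pnorm_mul (h : DLog Δ σ n e) (b : B.V) (q : ℕ) :
    pnorm B σ b (n * q) = q • pnorm B σ b n := by
  induction q with
  | zero => rw [Nat.mul_zero, pnorm_zero, zero_smul]
  | succ q ih =>
    rw [Nat.mul_succ, pnorm_add, ih, pow_mul, h.pow_n, one_pow, map_one, succ_nsmul]
    rfl

theorem pnorm_div_mod (h : DLog Δ σ n e) (b : B.V) (x : ℕ) :
    pnorm B σ b x = (x / n) • pnorm B σ b n + pnorm B σ b (x % n) := by
  conv_lhs => rw [← Nat.div_add_mod x n, pnorm_add, pnorm_mul B h, pow_mul, h.pow_n, one_pow,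
    map_one]
  rfl

/-- If `a` is a norm then `cyc a` is a coboundary. -/
theorem cyc_mem_coboundaries₂_of_norm (h : DLog Δ σ n e) (b : B.V) :
    cyc B n e (pnorm B σ b n) ∈ coboundaries₂ B := by
  refine ⟨fun g => pnorm B σ b (e g), ?_⟩
  funext p
  obtain ⟨g, g'⟩ := p
  show B.ρ g (pnorm B σ b (e g')) - pnorm B σ b (e (g * g')) + pnorm B σ b (e g) =
    ((e g + e g') / n) • pnorm B σ b n
  have h1 : pnorm B σ b (e g + e g') = pnorm B σ b (e g) + B.ρ g (pnorm B σ b (e g')) := by
    rw [pnorm_add, h.pow g]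
  have h2 := pnorm_div_mod B h b (e g + e g')
  rw [h.e_mul g g']
  rw [h1] at h2
  have h3 : B.ρ g (pnorm B σ b (e g')) =
      ((e g + e g') / n) • pnorm B σ b n + pnorm B σ b ((e g + e g') % n) - pnorm B σ b (e g) := by
    rw [← h2]; abel
  rw [h3]
  abel

/-- If `cyc a` is a coboundary then `a` is a norm. -/
theorem norm_of_cyc_mem_coboundaries₂ (h : DLog Δ σ n e) (a : B.V)
    (hc : cyc B n e a ∈ coboundaries₂ B) : ∃ b : B.V, a = pnorm B σ b n := by
  obtain ⟨u, hu⟩ := hc
  have hu' : ∀ g g' : Δ, B.ρ g (u g') - u (g * g') + u g = ((e g + e g') / n) • a := by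
    intro g g'
    exact congrFun hu (g, g')
  by_cases hn1 : n = 1
  · -- trivial group
    refine ⟨a, ?_⟩
    subst hn1
    unfold pnorm
    rw [Finset.sum_range_one, pow_zero, map_one]
    rfl
  have hn2 : 2 ≤ n := by have := h.pos; omega
  refine ⟨u σ, ?_⟩
  have he1 : e σ = 1 := by
    have := h.inj 1 (by omega)
    rwa [pow_one] at this
  -- `u (σ^(i+1)) = u (σ^i) + σ^i (u σ) - [i = n - 1] a`
  have key : ∀ i, i < n → u (σ ^ (i + 1)) =
      u (σ ^ i) + B.ρ (σ ^ i) (u σ) - ((i + 1) / n) • a := by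
    intro i hi
    have := hu' (σ ^ i) σ
    rw [h.inj i hi, he1, ← pow_succ] at this
    rw [← this]
    abel
  -- telescoping
  have tel : ∀ t, t ≤ n → u (σ ^ t) = u 1 + pnorm B σ (u σ) t - (t / n) • a := by
    intro t
    induction t with
    | zero =>
      intro _
      rw [pow_zero, pnorm_zero, Nat.zero_div, zero_smul]
      abel
    | succ t ih =>
      intro ht
      have ht' : t < n := ht
      rw [key t ht', ih (le_of_lt ht'), Nat.div_eq_of_lt ht', zero_smul]
      have : pnorm B σ (u σ) (t + 1) = pnorm B σ (u σ) t + B.ρ (σ ^ t) (u σ) := by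
        unfold pnorm
        rw [Finset.sum_range_succ]
      rw [this]
      abel
  have := tel n le_rfl
  rw [h.pow_n, Nat.div_self h.pos, one_smul] at this
  have h5 : u 1 + 0 = u 1 + (pnorm B σ (u σ) n - a) := by
    rw [add_zero, ← add_sub_assoc]
    exact this
  have h6 := add_left_cancel h5
  exact (sub_eq_zero.mp h6.symm).symm

theorem cyc_nsmul (a : B.V) (k : ℕ) : cyc B n e (k • a) = k • cyc B n e a := by
  funext p
  show ((e p.1 + e p.2) / n) • (k • a) = k • (((e p.1 + e p.2) / n) • a)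
  rw [smul_comm]

end Cyc

section Exists

variable {Δ : Type} [Group Δ] [Finite Δ]

/-- A generator of a finite group has a discrete logarithm. -/
theorem exists_dlog (σ : Δ) (hσ : ∀ x, x ∈ Subgroup.zpowers σ) :
    ∃ e : Δ → ℕ, DLog Δ σ (Nat.card Δ) e := by
  classical
  have hord : orderOf σ = Nat.card Δ := orderOf_eq_card_of_forall_mem_zpowers hσ
  have hex : ∀ g : Δ, ∃ i, i < Nat.card Δ ∧ σ ^ i = g := by
    intro g
    have := (mem_zpowers_iff_mem_range_orderOf (x := σ) (y := g)).mp (hσ g)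
    rw [Finset.mem_image] at this
    obtain ⟨i, hi, hig⟩ := this
    rw [Finset.mem_range, hord] at hi
    exact ⟨i, hi, hig⟩
  choose e he using hex
  refine ⟨e, Nat.card_pos, fun g => (he g).1, fun g => (he g).2, ?_, ?_⟩
  · rw [← hord]
    exact pow_orderOf_eq_one σ
  · intro i hi
    have h1 := (he (σ ^ i)).2
    have h2 := (he (σ ^ i)).1
    apply pow_injOn_Iio_orderOf (x := σ)
    · rw [Set.mem_Iio, hord]; exact h2
    · rw [Set.mem_Iio, hord]; exact hi
    · exact h1

theorem DLog.sum_eq {σ : Δ} {n : ℕ} {e : Δ → ℕ} (h : DLog Δ σ n e) [Fintype Δ]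
    {M : Type} [AddCommMonoid M] (f : Δ → M) :
    ∑ i ∈ Finset.range n, f (σ ^ i) = ∑ x : Δ, f x := by
  refine Finset.sum_bij' (fun i _ => σ ^ i) (fun x _ => e x) ?_ ?_ ?_ ?_ ?_
  · intro i _; exact Finset.mem_univ _
  · intro x _; exact Finset.mem_range.mpr (h.lt x)
  · intro i hi; exact h.inj i (Finset.mem_range.mp hi)
  · intro x _; exact h.pow x
  · intro i _; rfl

theorem DLog.card_eq {σ : Δ} {n : ℕ} {e : Δ → ℕ} (h : DLog Δ σ n e) : Nat.card Δ = n := by
  classical
  letI : Fintype Δ := Fintype.ofFinite Δ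
  have := h.sum_eq (fun _ => (1 : ℕ))
  simp only [Finset.sum_const, Finset.card_range, smul_eq_mul, mul_one, Finset.card_univ] at this
  rw [Nat.card_eq_fintype_card]
  exact this.symm

theorem pnorm_eq_sum {B : Rep.{0} ℤ Δ} {σ : Δ} {n : ℕ} {e : Δ → ℕ} (h : DLog Δ σ n e)
    [Fintype Δ] (b : B.V) : pnorm B σ b n = ∑ x : Δ, B.ρ x b :=
  h.sum_eq (fun x => B.ρ x b)

end Exists

end Fermat.Agent.S55.CFT.H13
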