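/-
S55 / E4 / CFT wave 3, leaf CYCL (helper19), part 1: the second cohomology of a finite cyclic
group by explicit cocycles.  Every class of `H²(Δ, B)` is the class of a cyclic cocycle
`cyc a`, `a` invariant (`exists_cycCl`); `a ↦ [cyc a]` is additive, natural, and its kernel is the
group of norms (with helper13's `H13_FundCyc`).
-/
import Fermat.Agent.S55.CFT.H13_FundCyc

set_option autoImplicit false
set_option linter.unusedSectionVars false
set_option linter.unusedVariables false

noncomputable section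

namespace Fermat.Agent.S55.CFT.H19

open CategoryTheory groupCohomology Fermat.Agent.S55.CFT.H13

section Abs

variable {Δ : Type} [Group Δ] (B : Rep.{0} ℤ Δ) {σ : Δ} {n : ℕ} {e : Δ → ℕ}

/-- The partial sums `S_t = ∑_{j < t} f (σ^j, σ)`. -/
def psum (f : Δ × Δ → B.V) (σ : Δ) (t : ℕ) : B.V := ∑ j ∈ Finset.range t, f (σ ^ j, σ)

theorem psum_zero (f : Δ × Δ → B.V) (σ : Δ) : psum B f σ 0 = 0 := by
  simp [psum]

theorem psum_succ (f : Δ × Δ → B.V) (σ : Δ) (t : ℕ) :
    psum B f σ (t + 1) = psum B f σ t + f (σ ^ t, σ) := by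
  unfold psum
  rw [Finset.sum_range_succ]

theorem psum_n_add (h : DLog Δ σ n e) (f : Δ × Δ → B.V) (t : ℕ) :
    psum B f σ (n + t) = psum B f σ n + psum B f σ t := by
  unfold psum
  rw [Finset.sum_range_add]
  congr 1
  apply Finset.sum_congr rfl
  intro j _
  rw [pow_add, h.pow_n, one_mul]

theorem psum_mul_add (h : DLog Δ σ n e) (f : Δ × Δ → B.V) (q r : ℕ) :
    psum B f σ (n * q + r) = q • psum B f σ n + psum B f σ r := by
  induction q with
  | zero => simp
  | succ q ih =>
    rw [Nat.mul_succ, add_comm (n * q) n, add_assoc, psum_n_add B h, ih, succ_nsmul]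
    abel

theorem psum_div_mod (h : DLog Δ σ n e) (f : Δ × Δ → B.V) (x : ℕ) :
    psum B f σ x = (x / n) • psum B f σ n + psum B f σ (x % n) := by
  conv_lhs => rw [← Nat.div_add_mod x n]
  exact psum_mul_add B h f _ _

/-- The basic identity: a 2-cocycle on powers of `σ`. -/
theorem cocycle_pow_pow (f : cocycles₂ B) (σ : Δ) (i m : ℕ) :
    f (σ ^ i, σ ^ m) = B.ρ (σ ^ i) (f (1, 1) - psum B f σ m) - (f (1, 1) - psum B f σ (i + m)) +
      (f (1, 1) - psum B f σ i) := by
  induction m with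
  | zero =>
    rw [pow_zero, cocycles₂_map_one_snd, psum_zero, sub_zero, add_zero]
    abel
  | succ m ih =>
    have hc := (mem_cocycles₂_iff f).1 f.2 (σ ^ i) (σ ^ m) σ
    rw [← pow_add, ← pow_succ] at hc
    have e1 : f (σ ^ i, σ ^ (m + 1)) =
        f (σ ^ (i + m), σ) + f (σ ^ i, σ ^ m) - B.ρ (σ ^ i) (f (σ ^ m, σ)) := by
      rw [hc]; abel
    rw [e1, ih, ← add_assoc i m 1, psum_succ B f σ (i + m), psum_succ B f σ m]
    simp only [map_sub, map_add]
    abel

/-- The invariant element attached to a cocycle. -/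
theorem psum_invariant (h : DLog Δ σ n e) (f : cocycles₂ B) (g : Δ) :
    B.ρ g (psum B f σ n) = psum B f σ n := by
  have h1 : B.ρ σ (psum B f σ n) = psum B f σ n := by
    have h2 := cocycle_pow_pow B f σ 1 n
    rw [h.pow_n, pow_one, cocycles₂_map_one_snd, add_comm 1 n, psum_succ, h.pow_n,
      psum_succ, psum_zero, pow_zero, zero_add] at h2
    simp only [map_sub] at h2
    have h3 : B.ρ σ (psum B f σ n) - psum B f σ n = 0 := by
      have := sub_eq_zero.2 h2
      rw [← this]
      abel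
    exact sub_eq_zero.1 h3
  have h2 : ∀ k : ℕ, B.ρ (σ ^ k) (psum B f σ n) = psum B f σ n := by
    intro k
    induction k with
    | zero => rw [pow_zero, map_one]; rfl
    | succ k ih =>
      rw [pow_succ, map_mul]
      show B.ρ (σ ^ k) (B.ρ σ (psum B f σ n)) = _
      rw [h1, ih]
  rw [← h.pow g]
  exact h2 _

/-- The class of the cyclic cocycle of an invariant element. -/
def cycCl (h : DLog Δ σ n e) (a : B.V) (ha : ∀ g, B.ρ g a = a) : groupCohomology B 2 :=
  H2π B ⟨cyc B n e a, cyc_mem_cocycles₂ B h a ha⟩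

/-- Every class of `H²` of a cyclic group is the class of a cyclic cocycle. -/
theorem exists_cycCl (h : DLog Δ σ n e) (x : groupCohomology B 2) :
    ∃ (a : B.V) (ha : ∀ g, B.ρ g a = a), x = cycCl B h a ha := by
  induction x using H2_induction_on with
  | h f =>
    refine ⟨psum B f σ n, psum_invariant B h f, ?_⟩
    unfold cycCl
    rw [H2π_eq_iff]
    refine ⟨fun g => f (1, 1) - psum B f σ (e g), ?_⟩
    funext p
    obtain ⟨g, g'⟩ := p
    show B.ρ g (f (1, 1) - psum B f σ (e g')) - (f (1, 1) - psum B f σ (e (g * g'))) +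
      (f (1, 1) - psum B f σ (e g)) = f (g, g') - ((e g + e g') / n) • psum B f σ n
    have h1 := cocycle_pow_pow B f σ (e g) (e g')
    rw [h.pow g, h.pow g'] at h1
    rw [h1, h.e_mul g g', psum_div_mod B h f (e g + e g')]
    abel

theorem cyc_add (a b : B.V) : cyc B n e (a + b) = cyc B n e a + cyc B n e b := by
  funext p
  show ((e p.1 + e p.2) / n) • (a + b) = ((e p.1 + e p.2) / n) • a + ((e p.1 + e p.2) / n) • b
  rw [smul_add]

theorem cycCl_add (h : DLog Δ σ n e) (a b : B.V) (ha : ∀ g, B.ρ g a = a)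
    (hb : ∀ g, B.ρ g b = b) (hab : ∀ g, B.ρ g (a + b) = a + b) :
    cycCl B h (a + b) hab = cycCl B h a ha + cycCl B h b hb := by
  unfold cycCl
  rw [← map_add]
  congr 1
  apply Subtype.ext
  exact cyc_add B a b

theorem cycCl_congr (h : DLog Δ σ n e) (a b : B.V) (ha : ∀ g, B.ρ g a = a)
    (hb : ∀ g, B.ρ g b = b) (hab : a = b) : cycCl B h a ha = cycCl B h b hb := by
  subst hab
  rfl

theorem cycCl_eq_zero_iff [Fintype Δ] (h : DLog Δ σ n e) (a : B.V) (ha : ∀ g, B.ρ g a = a) :
    cycCl B h a ha = 0 ↔ ∃ b : B.V, a = ∑ x : Δ, B.ρ x b := by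
  have : Finite Δ := Finite.of_fintype Δ
  unfold cycCl
  rw [H2π_eq_zero_iff]
  constructor
  · intro hc
    obtain ⟨b, hb⟩ := norm_of_cyc_mem_coboundaries₂ B h a hc
    exact ⟨b, by rw [hb, pnorm_eq_sum h]⟩
  · rintro ⟨b, hb⟩
    have := cyc_mem_coboundaries₂_of_norm B h b
    rw [pnorm_eq_sum h, ← hb] at this
    exact this

/-- Naturality of the cyclic classes. -/
theorem map_cycCl (A : Rep.{0} ℤ Δ) (φ : A ⟶ B) (h : DLog Δ σ n e) (a : A.V)
    (ha : ∀ g, A.ρ g a = a) (ha' : ∀ g, B.ρ g (φ.hom a) = φ.hom a) :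
    (groupCohomology.map (MonoidHom.id Δ) φ 2).hom (cycCl A h a ha) = cycCl B h (φ.hom a) ha' := by
  unfold cycCl
  have := H2π_comp_map_apply (MonoidHom.id Δ) φ ⟨cyc A n e a, cyc_mem_cocycles₂ A h a ha⟩
  refine this.trans ?_
  congr 1
  apply Subtype.ext
  funext p
  show φ.hom (((e p.1 + e p.2) / n) • a) = ((e p.1 + e p.2) / n) • φ.hom a
  rw [map_nsmul]

end Abs

end Fermat.Agent.S55.CFT.H19
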