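import Fermat.Agent.S55.CFT.Defs
import Fermat.Agent.S55.CFT.H24_InfRes2

/-!
# S55-E4 package ALG-2 (helper24): inflation–restriction in degree 2, in the notation of
`Fermat/Agent/S55/CFT/Defs.lean` (`resSub`, `resMap`, coefficients `ℤ`)

`Stmt_ALG2`: for a group `G`, a normal subgroup `N`, and `A : Rep ℤ G` with `H¹(N, A) = 0`:
* inflation `H²(G ⧸ N, A^N) → H²(G, A)` is injective,
* a class of `H²(G, A)` restricts to `0` on `N` iff it is inflated from `G ⧸ N`,
* if `H²(G ⧸ N, A^N)` and `H²(N, A)` are finite, so is `H²(G, A)`, and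
  `#H²(G, A) ≤ #H²(G ⧸ N, A^N) * #H²(N, A)`.
-/

set_option autoImplicit false

open CategoryTheory groupCohomology

namespace Fermat.Agent.S55.CFT

/-- The inflation map `H²(G ⧸ N, A^N) → H²(G, A)`. -/
noncomputable abbrev infMap₂ {G : Type} [Group G] (A : Rep ℤ G) (N : Subgroup G) [N.Normal] :
    groupCohomology (A.quotientToInvariants N) 2 →ₗ[ℤ] groupCohomology A 2 :=
  (H24.inf₂ A N).hom

/-- **ALG-2** (inflation–restriction in degree 2). -/
def Stmt_ALG2 : Prop :=
  ∀ (G : Type) [Group G] (A : Rep ℤ G) (N : Subgroup G) [N.Normal],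
    Subsingleton (groupCohomology (resSub A N) 1) →
    Function.Injective (infMap₂ A N) ∧
    (∀ x : groupCohomology A 2, resMap A N 2 x = 0 ↔ ∃ y, infMap₂ A N y = x) ∧
    (Finite (groupCohomology (A.quotientToInvariants N) 2) →
      Finite (groupCohomology (resSub A N) 2) →
      Finite (groupCohomology A 2) ∧
        Nat.card (groupCohomology A 2) ≤
          Nat.card (groupCohomology (A.quotientToInvariants N) 2) *
            Nat.card (groupCohomology (resSub A N) 2))

namespace H24

theorem stmt_ALG2 : Stmt_ALG2 := by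
  intro G _ A N _ h
  refine ⟨inf₂_injective A N h, fun x => res₂_eq_zero_iff A N h x, fun h1 h2 => ?_⟩
  exact card_H2_le A N h

end H24

end Fermat.Agent.S55.CFT
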