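import Fermat.Agent.S55.CFT.H13_FundSub
import Fermat.Agent.S55.CFT.H24_InfRes2Z

/-!
# S55-E4 package FUND (helper13), part 3: Tate's argument, abstract form

`Γ` a finite group, `A : Rep ℤ Γ`, `S`, `S'` normal subgroups with `S ⊓ S' = ⊥`, `Γ ⧸ S'` cyclic,
`H¹(S, A) = H¹(S', A) = 0`.  If `a ∈ A^Γ` is a norm from `S` and has order divisible by `P` modulo
the norms from `Γ ⧸ S'` on `A^{S'}`, then `H²(Γ ⧸ S, A^S)` contains a class of order divisible by
`P` (`fund_abstract`).
-/

set_option autoImplicit false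
set_option linter.unusedSectionVars false
set_option linter.unusedVariables false
set_option linter.style.haveILetI false

noncomputable section

namespace Fermat.Agent.S55.CFT.H13

open CategoryTheory groupCohomology Fermat.Agent.S55.CFT

section Generic

universe u

variable {k G : Type u} [CommRing k] [Group G] (A : Rep k G) (S S' : Subgroup G) [S'.Normal]

/-- The restriction to `S` of the inflation of a class of `G ⧸ S'`, on cocycles. -/
theorem res_inf_cocycle (c : cocycles₂ (A.quotientToInvariants S')) :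
    ∃ f : cocycles₂ (Rep.res S.subtype A),
      (H24.res₂ A S).hom ((H24.inf₂ A S').hom (H2π (A.quotientToInvariants S') c)) =
        H2π (Rep.res S.subtype A) f ∧
      ∀ s t : S, f (s, t) = ((c (QuotientGroup.mk (s : G), QuotientGroup.mk (t : G)) :
        (A.quotientToInvariants S')) : A.V) := by
  refine ⟨mapCocycles₂ S.subtype (𝟙 (Rep.res S.subtype A)) (mapCocycles₂ (QuotientGroup.mk' S')
        (Rep.ofHom <| A.ρ.quotientToInvariants_lift S') c), ?_, fun s t => rfl⟩
  have e1 : (H24.inf₂ A S').hom (H2π (A.quotientToInvariants S') c) =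
      H2π A (mapCocycles₂ (QuotientGroup.mk' S')
        (Rep.ofHom <| A.ρ.quotientToInvariants_lift S') c) :=
    H2π_comp_map_apply _ _ c
  rw [e1]
  exact H2π_comp_map_apply _ _ _

end Generic

variable {Γ : Type} [Group Γ] [Finite Γ] (A : Rep.{0} ℤ Γ) (S S' : Subgroup Γ)
  [S.Normal] [S'.Normal]

theorem fund_abstract (hcyc : IsCyclic (Γ ⧸ S')) (hint : S ⊓ S' = ⊥)
    (hS : Subsingleton (groupCohomology (resSub A S) 1))
    (hS' : Subsingleton (groupCohomology (resSub A S') 1))
    (a : A.V) (ha : ∀ g : Γ, A.ρ g a = a) (P : ℕ)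
    [Fintype (Γ ⧸ S')] [Fintype S]
    (h1 : ∀ k : ℕ, (∃ b : (A.quotientToInvariants S').V,
        k • a = ((∑ x : Γ ⧸ S', (A.quotientToInvariants S').ρ x b :
          (A.quotientToInvariants S').V) : A.V)) → P ∣ k)
    (h2 : ∃ b : A.V, a = ∑ s : S, A.ρ (s : Γ) b) :
    ∃ γ : groupCohomology (A.quotientToInvariants S) 2, ∀ k : ℕ, k • γ = 0 → P ∣ k := by
  classical
  obtain ⟨σ, hσ⟩ := IsCyclic.exists_generator (α := Γ ⧸ S')
  obtain ⟨e', he'⟩ := exists_dlog σ hσ
  obtain ⟨n', hn'⟩ : ∃ n', n' = Nat.card (Γ ⧸ S') := ⟨_, rfl⟩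
  rw [← hn'] at he'
  obtain ⟨B', hB'⟩ : ∃ B' : Rep.{0} ℤ (Γ ⧸ S'), B' = A.quotientToInvariants S' := ⟨_, rfl⟩
  subst hB'
  obtain ⟨a', ha'def⟩ : ∃ a' : (A.quotientToInvariants S').V, (a' : A.V) = a :=
    ⟨⟨a, fun s => ha s⟩, rfl⟩
  have ha' : ∀ x : Γ ⧸ S', (A.quotientToInvariants S').ρ x a' = a' := by
    intro x
    induction x using QuotientGroup.induction_on with
    | H g =>
      apply Subtype.ext
      show A.ρ g (a' : A.V) = (a' : A.V)
      rw [ha'def]
      exact ha g
  obtain ⟨c', hc'⟩ : ∃ c' : cocycles₂ (A.quotientToInvariants S'),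
      (c' : (Γ ⧸ S') × (Γ ⧸ S') → (A.quotientToInvariants S').V) =
        cyc (A.quotientToInvariants S') n' e' a' :=
    ⟨⟨_, cyc_mem_cocycles₂ (A.quotientToInvariants S') he' a' ha'⟩, rfl⟩
  obtain ⟨y, hy⟩ : ∃ y : groupCohomology (A.quotientToInvariants S') 2,
      y = H2π (A.quotientToInvariants S') c' := ⟨_, rfl⟩
  obtain ⟨x, hx⟩ : ∃ x : groupCohomology A 2, x = (H24.inf₂ A S').hom y := ⟨_, rfl⟩
  -- Step B: the restriction of `x` to `S` vanishes
  have hres : (H24.res₂ A S).hom x = 0 := by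
    obtain ⟨f, hf1, hf2⟩ := res_inf_cocycle A S S' c'
    rw [hx, hy, hf1]
    refine (H2π_eq_zero_iff _).mpr ?_
    -- the cyclic structure on `S`
    obtain ⟨π, hπdef⟩ : ∃ π : S →* Γ ⧸ S', π = (QuotientGroup.mk' S').comp S.subtype :=
      ⟨_, rfl⟩
    have hπ : Function.Injective π := by
      rw [injective_iff_map_eq_one]
      intro s hs
      rw [hπdef] at hs
      have h1 : (s : Γ) ∈ S' := (QuotientGroup.eq_one_iff (s : Γ)).mp hs
      have h2 : (s : Γ) ∈ S ⊓ S' := ⟨s.2, h1⟩
      rw [hint, Subgroup.mem_bot] at h2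
      exact Subtype.ext h2
    obtain ⟨τ, e'', d, he'', hd, hrel⟩ := exists_dlog_sub he' π hπ
    have hd0 : 0 < d := by
      rcases Nat.eq_zero_or_pos d with h0 | h0
      · rw [h0, zero_mul] at hd
        exact absurd hd he'.pos.ne'
      · exact h0
    obtain ⟨b₀, hb₀⟩ := h2
    have hnorm : a = pnorm (Rep.res S.subtype A) τ b₀ (Nat.card S) := by
      rw [pnorm_eq_sum (B := Rep.res S.subtype A) he'' b₀]
      exact hb₀
    have hcob := cyc_mem_coboundaries₂_of_norm (Rep.res S.subtype A) he'' b₀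
    rw [← hnorm] at hcob
    have hfun : (f : S × S → A.V) = cyc (Rep.res S.subtype A) (Nat.card S) e'' a := by
      funext q
      obtain ⟨s, t⟩ := q
      rw [hf2 s t]
      have h4 : c' (QuotientGroup.mk (s : Γ), QuotientGroup.mk (t : Γ)) =
          cyc (A.quotientToInvariants S') n' e' a'
            (QuotientGroup.mk (s : Γ), QuotientGroup.mk (t : Γ)) := congrFun hc' _
      rw [h4, cyc_apply, cyc_apply]
      have h5 : e' (QuotientGroup.mk (s : Γ)) = d * e'' s := by
        have := hrel s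
        rw [hπdef] at this
        exact this
      have h6 : e' (QuotientGroup.mk (t : Γ)) = d * e'' t := by
        have := hrel t
        rw [hπdef] at this
        exact this
      rw [h5, h6, hd, ← Nat.mul_add, Nat.mul_div_mul_left _ _ hd0]
      rw [Submodule.coe_smul_of_tower, ha'def]
    rw [hfun]
    exact hcob
  -- Step C: `x` is inflated from `Γ ⧸ S`
  obtain ⟨γ, hγ⟩ := (H24.res₂_eq_zero_iff A S hS x).mp hres
  refine ⟨γ, fun k hk => ?_⟩
  -- Step D: the order
  have hkx : k • x = 0 := by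
    have : (H24.inf₂ A S).hom (k • γ) = k • (H24.inf₂ A S).hom γ := map_nsmul _ _ _
    rw [hk, map_zero] at this
    rw [← hγ]
    exact this.symm
  have hky : k • y = 0 := by
    apply H24.inf₂_injective A S' hS'
    have : (H24.inf₂ A S').hom (k • y) = k • (H24.inf₂ A S').hom y := map_nsmul _ _ _
    rw [← hx, hkx] at this
    rw [map_zero]
    exact this
  have hkc : H2π (A.quotientToInvariants S') (k • c') = 0 := by
    have e : (H2π (A.quotientToInvariants S')).hom (k • c') =
        k • (H2π (A.quotientToInvariants S')).hom c' := map_nsmul _ _ _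
    have e2 : k • (H2π (A.quotientToInvariants S')).hom c' = 0 := by
      have e3 : (H2π (A.quotientToInvariants S')).hom c' = y := hy.symm
      rw [e3]
      exact hky
    exact e.trans e2
  rw [H2π_eq_zero_iff] at hkc
  have hkc' : cyc (A.quotientToInvariants S') n' e' (k • a') ∈
      coboundaries₂ (A.quotientToInvariants S') := by
    rw [cyc_nsmul, ← hc']
    exact hkc
  obtain ⟨b', hb'⟩ := norm_of_cyc_mem_coboundaries₂ (A.quotientToInvariants S') he' (k • a') hkc'
  apply h1 k
  refine ⟨b', ?_⟩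
  rw [← pnorm_eq_sum he' b', ← hb', Submodule.coe_smul_of_tower, ha'def]

end Fermat.Agent.S55.CFT.H13
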