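/-
S55 / E4 / CFT package FUND (helper13): cyclotomic Galois groups and arithmetic.
* `isPGroup_gal_cyclotomic`: `Gal(L(ζ_{p^M})/L)` is a `p`-group when `ζ_p ∈ L`;
* `exists_orderOf_eq_prime_pow`: a homomorphism to `(ℤ/p^M)ˣ` with large image has a value of
  order exactly `p ^ m`.
-/
import Mathlib

set_option autoImplicit false
set_option linter.style.haveILetI false

namespace Fermat.Agent.S55.CFT.H13

section PGroup
variable (L N : Type) [Field L] [Field N] [Algebra L N] (p M : ℕ) [NeZero (p ^ M)]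
  [IsCyclotomicExtension {p ^ M} L N]

theorem autToPow_sub_one_dvd (hp : p.Prime) (hz : ∃ ζ : L, IsPrimitiveRoot ζ p)
    {ζ : N} (hζ : IsPrimitiveRoot ζ (p ^ M)) (σ : N ≃ₐ[L] N) :
    (p : ZMod (p ^ M)) ∣ ((hζ.autToPow L σ : (ZMod (p ^ M))ˣ) : ZMod (p ^ M)) - 1 := by
  rcases Nat.eq_zero_or_pos M with hM | hM
  · subst hM
    have : Subsingleton (ZMod (p ^ 0)) := by
      rw [pow_zero]; infer_instance
    exact ⟨0, Subsingleton.elim _ _⟩
  obtain ⟨z, hzp⟩ := hz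
  set t : N := algebraMap L N z with ht
  have htp : IsPrimitiveRoot t p := hzp.map_of_injective (algebraMap L N).injective
  have hσt : σ t = t := σ.commutes z
  have htpow : t ^ (p ^ M) = 1 := by
    have h1 : t ^ p = 1 := htp.pow_eq_one
    obtain ⟨k, hk⟩ : p ∣ p ^ M := dvd_pow_self p hM.ne'
    rw [hk, pow_mul, h1, one_pow]
  obtain ⟨i, -, hi⟩ := hζ.eq_pow_of_pow_eq_one htpow
  set c : ZMod (p ^ M) := ((hζ.autToPow L σ : (ZMod (p ^ M))ˣ) : ZMod (p ^ M)) with hc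
  have hspec : ζ ^ c.val = σ ζ := hζ.autToPow_spec L σ
  have h2 : t ^ c.val = t := by
    rw [← hi, ← pow_mul, mul_comm, pow_mul, hspec, ← map_pow, hi, hσt]
  have ht0 : t ≠ 0 := htp.ne_zero hp.ne_zero
  have h5 : (p : ℤ) ∣ (c.val : ℤ) - 1 := by
    rw [← htp.zpow_eq_one_iff_dvd, zpow_sub₀ ht0, zpow_natCast, h2, zpow_one, div_self ht0]
  have h6 : ((p : ℤ) : ZMod (p ^ M)) ∣ (((c.val : ℤ) - 1 : ℤ) : ZMod (p ^ M)) :=
    (Int.castRingHom (ZMod (p ^ M))).map_dvd h5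
  simpa using h6

theorem autToPow_pow_eq_one (hp : p.Prime) (hz : ∃ ζ : L, IsPrimitiveRoot ζ p)
    {ζ : N} (hζ : IsPrimitiveRoot ζ (p ^ M)) (σ : N ≃ₐ[L] N) :
    (hζ.autToPow L σ) ^ (p ^ M) = 1 := by
  apply Units.ext
  rw [Units.val_pow_eq_pow_val, Units.val_one]
  have h := dvd_sub_pow_of_dvd_sub (autToPow_sub_one_dvd L N p M hp hz hζ σ) M
  have h0 : ((p : ZMod (p ^ M)) ^ (M + 1)) = 0 := by
    rw [pow_succ]
    have : ((p : ZMod (p ^ M)) ^ M) = 0 := by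
      have := ZMod.natCast_self (p ^ M)
      rwa [Nat.cast_pow] at this
    rw [this, zero_mul]
  rw [h0, zero_dvd_iff, one_pow, sub_eq_zero] at h
  exact h

include M in
theorem isPGroup_gal_cyclotomic (hp : p.Prime) (hz : ∃ ζ : L, IsPrimitiveRoot ζ p) :
    IsPGroup p (N ≃ₐ[L] N) := by
  have hζ := IsCyclotomicExtension.zeta_spec (p ^ M) L N
  intro σ
  refine ⟨M, ?_⟩
  apply hζ.autToPow_injective L
  rw [map_pow, map_one]
  exact autToPow_pow_eq_one L N p M hp hz hζ σ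

end PGroup



theorem prime_pow_dvd_of_dvd_totient (p M m n d : ℕ) (hp : p.Prime)
    (hn : n ∣ (p ^ M).totient) (hdn : d ≤ n) (hmd : p ^ m ∣ d) (hd0 : d ≠ 0) : p ^ m ∣ n := by
  have hn0 : n ≠ 0 := by
    intro h; rw [h] at hdn; exact hd0 (Nat.le_zero.1 hdn)
  obtain ⟨b, c, hc, hnbc⟩ := Nat.exists_eq_pow_mul_and_not_dvd hn0 p hp.ne_one
  have hφ : (p ^ M).totient ∣ p ^ M * (p - 1) := by
    rcases Nat.eq_zero_or_pos M with hM | hM
    · subst hM; simp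
    · rw [Nat.totient_prime_pow hp hM]
      exact Nat.mul_dvd_mul_right (pow_dvd_pow p (Nat.sub_le M 1)) _
  have hc1 : c ∣ p ^ M * (p - 1) := by
    refine Dvd.dvd.trans ?_ (hn.trans hφ)
    rw [hnbc]; exact dvd_mul_left c _
  have hcop : Nat.Coprime c (p ^ M) :=
    Nat.Coprime.pow_right M ((Nat.Prime.coprime_iff_not_dvd hp).2 hc).symm
  have hc2 : c ∣ p - 1 := hcop.dvd_of_dvd_mul_left hc1
  have hp1 : 0 < p - 1 := Nat.sub_pos_of_lt hp.one_lt
  have hc3 : c < p := lt_of_le_of_lt (Nat.le_of_dvd hp1 hc2) (Nat.sub_lt hp.pos Nat.one_pos)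
  have hpm : p ^ m ≤ d := Nat.le_of_dvd (Nat.pos_of_ne_zero hd0) hmd
  by_contra hcon
  have hbm : b < m := by
    by_contra hb
    rw [not_lt] at hb
    apply hcon
    rw [hnbc]
    exact Dvd.dvd.mul_right (pow_dvd_pow p hb) c
  have h1 : n < p ^ (b + 1) := by
    rw [hnbc, pow_succ]
    exact Nat.mul_lt_mul_of_pos_left hc3 (pow_pos hp.pos b)
  have h2 : p ^ (b + 1) ≤ p ^ m := Nat.pow_le_pow_right hp.pos hbm
  omega

theorem exists_orderOf_eq_prime_pow (p M m : ℕ) (hp : p.Prime) (hodd : p ≠ 2) [NeZero (p ^ M)]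
    {J : Type*} [Group J] (θ : J →* (ZMod (p ^ M))ˣ) (d : ℕ)
    (hd : d ≤ Nat.card (Set.range θ)) (hmd : p ^ m ∣ d) (hd0 : d ≠ 0) :
    ∃ x : J, orderOf (θ x) = p ^ m := by
  classical
  haveI : IsCyclic (ZMod (p ^ M))ˣ := ZMod.isCyclic_units_of_prime_pow p hp hodd M
  have hcardU : Nat.card (ZMod (p ^ M))ˣ = (p ^ M).totient := by
    rw [Nat.card_eq_fintype_card, ZMod.card_units_eq_totient]
  have hn : Nat.card θ.range ∣ (p ^ M).totient := by
    rw [← hcardU]; exact Subgroup.card_subgroup_dvd_card _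
  have hd' : d ≤ Nat.card θ.range := hd
  have hdvd := prime_pow_dvd_of_dvd_totient p M m _ d hp hn hd' hmd hd0
  obtain ⟨g, hg⟩ := IsCyclic.exists_ofOrder_eq_natCard (α := θ.range)
  obtain ⟨x₀, hx₀⟩ := g.2
  have hg' : orderOf (θ x₀) = Nat.card θ.range := by
    rw [← hg, hx₀, Subgroup.orderOf_coe]
  obtain ⟨k, hk⟩ := hdvd
  have hk0 : k ≠ 0 := by
    rintro rfl
    rw [mul_zero] at hk
    rw [hk] at hd'
    exact hd0 (Nat.le_zero.1 hd')
  refine ⟨x₀ ^ k, ?_⟩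
  rw [map_pow, orderOf_pow_of_dvd hk0 (by rw [hg', hk]; exact dvd_mul_left k _), hg', hk]
  exact Nat.mul_div_cancel _ (Nat.pos_of_ne_zero hk0)

end Fermat.Agent.S55.CFT.H13
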