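/-
S55 package E4, island GLB, wave 2, package NT (transitivity of norms on `T`-ideles):
`N_{K/ℚ} ∘ N_{L/K} = N_{L/ℚ}`.  Owner: helper56.

`ℚ_q ⊗ L` is free over `ℚ_q ⊗ K` (coordinates in a `K`-basis of `L`), so Mathlib's
`Algebra.norm_norm` applies to the tower `ℚ_q → ℚ_q ⊗ K → ℚ_q ⊗ L`.
-/
import Fermat.Agent.S55.CFT.Defs_CF

set_option autoImplicit false
set_option linter.style.haveILetI false

open NumberField TensorProduct

noncomputable section
namespace Fermat.Agent.S55.CFT.H56

open Fermat.Agent.S55.CFT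

variable (K L : Type) [Field K] [Field L] [NumberField K] [NumberField L] [Algebra K L]

/-- The `ℚ_q`-linear equivalence `ℚ_q ⊗ L ≃ (ι → ℚ_q ⊗ K)` attached to a `K`-basis of `L`. -/
def semiLocalCoord (q : Nat.Primes) {ι : Type} [Fintype ι] [DecidableEq ι]
    (b : Module.Basis ι K L) : SemiLocal L q ≃ₗ[Qp q] (ι → SemiLocal K q) :=
  (TensorProduct.AlgebraTensorModule.congr (LinearEquiv.refl (Qp q) (Qp q))
    (b.equivFun.restrictScalars ℚ)).trans
    (TensorProduct.piRight ℚ (Qp q) (Qp q) (fun _ : ι => K))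

lemma semiLocalCoord_tmul (q : Nat.Primes) {ι : Type} [Fintype ι] [DecidableEq ι]
    (b : Module.Basis ι K L) (y : Qp q) (l : L) (i : ι) :
    semiLocalCoord K L q b (y ⊗ₜ[ℚ] l) i = y ⊗ₜ[ℚ] (b.repr l i) := by
  simp [semiLocalCoord]

lemma semiLocalCoord_mul (q : Nat.Primes) {ι : Type} [Fintype ι] [DecidableEq ι]
    (b : Module.Basis ι K L) (s : SemiLocal K q) (a : SemiLocal L q) (i : ι) :
    semiLocalCoord K L q b (semiLocalMap K L q s * a) i = s * semiLocalCoord K L q b a i := by
  induction s using TensorProduct.induction_on with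
  | zero => simp
  | add s t hs ht => simp only [map_add, add_mul, Pi.add_apply, hs, ht]
  | tmul x k =>
    induction a using TensorProduct.induction_on with
    | zero => simp
    | add a c ha hc => simp only [map_add, mul_add, Pi.add_apply, ha, hc]
    | tmul y l =>
      have h1 : semiLocalMap K L q (x ⊗ₜ[ℚ] k) = x ⊗ₜ[ℚ] (algebraMap K L k) := by
        simp [semiLocalMap]
      rw [h1, Algebra.TensorProduct.tmul_mul_tmul, semiLocalCoord_tmul, semiLocalCoord_tmul,
        Algebra.TensorProduct.tmul_mul_tmul, ← Algebra.smul_def, map_smul]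
      simp

/-- `ℚ_q ⊗ L` is free over `ℚ_q ⊗ K` (for the algebra structure given by `semiLocalMap`). -/
lemma semiLocal_free (q : Nat.Primes) :
    letI : Algebra (SemiLocal K q) (SemiLocal L q) := (semiLocalMap K L q).toRingHom.toAlgebra
    Module.Free (SemiLocal K q) (SemiLocal L q) := by
  classical
  letI : Algebra (SemiLocal K q) (SemiLocal L q) := (semiLocalMap K L q).toRingHom.toAlgebra
  let b := Module.Free.chooseBasis K L
  let e : SemiLocal L q ≃ₗ[SemiLocal K q] (Module.Free.ChooseBasisIndex K L → SemiLocal K q) :=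
    { (semiLocalCoord K L q b) with
      map_smul' := fun s a => by
        funext i
        have := semiLocalCoord_mul K L q b s a i
        simpa [Algebra.smul_def, RingHom.algebraMap_toAlgebra] using this }
  exact Module.Free.of_equiv e.symm

/-- The tower `ℚ_q → ℚ_q ⊗ K → ℚ_q ⊗ L`. -/
lemma semiLocal_tower (q : Nat.Primes) :
    letI : Algebra (SemiLocal K q) (SemiLocal L q) := (semiLocalMap K L q).toRingHom.toAlgebra
    IsScalarTower (Qp q) (SemiLocal K q) (SemiLocal L q) := by
  letI : Algebra (SemiLocal K q) (SemiLocal L q) := (semiLocalMap K L q).toRingHom.toAlgebra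
  refine IsScalarTower.of_algebraMap_eq (fun x => ?_)
  exact ((semiLocalMap K L q).commutes x).symm

/-- Componentwise form of NT: `N_{(ℚ_q⊗K)/ℚ_q} (N_{(ℚ_q⊗L)/(ℚ_q⊗K)} a) = N_{(ℚ_q⊗L)/ℚ_q} a`. -/
lemma semiLocal_norm_norm (q : Nat.Primes) (a : SemiLocal L q) :
    letI : Algebra (SemiLocal K q) (SemiLocal L q) := (semiLocalMap K L q).toRingHom.toAlgebra
    Algebra.norm (Qp q) (Algebra.norm (SemiLocal K q) a) = Algebra.norm (Qp q) a := by
  letI : Algebra (SemiLocal K q) (SemiLocal L q) := (semiLocalMap K L q).toRingHom.toAlgebra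
  haveI := semiLocal_free K L q
  haveI := semiLocal_tower K L q
  exact Algebra.norm_norm

/-- **NT**: transitivity of norms on `T`-ideles. -/
theorem stmt_NormTrans : Stmt_NormTrans := by
  intro K L _ _ _ _ _ T y
  funext q
  apply Units.ext
  exact semiLocal_norm_norm K L q.1 (y q : SemiLocal L q.1)

end Fermat.Agent.S55.CFT.H56
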