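/-
S55 package E4, island GLB, wave 2, package TH-1 (product formula for the cyclotomic symbol):
`θ_K` is trivial on the `T`-units, for `p ∈ T` and `K` totally complex.  Owner: helper56.

* the local symbols `thetaLoc p M q` are homomorphisms (`thetaLocHom`), `thetaRat` is the symbol
  of `ℚ` on `ℚˣ`; it is trivial on the primes of `T` (`thetaRat_primeQ`), hence on the positive
  `T`-units of `ℚ` (`thetaRat_TUnit`);
* the norm of `K/ℚ` is `≥ 0` for `K` totally complex (`norm_nonneg_of_totallyComplex`);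
* the norm of `1 ⊗ x` over `ℚ_q` is the image of `N_{K/ℚ} x` (`norm_one_tmul`).
-/
import Fermat.Agent.S55.CFT.Defs_CF

set_option autoImplicit false
set_option linter.style.haveILetI false

open NumberField TensorProduct

noncomputable section
namespace Fermat.Agent.S55.CFT.H56

open Fermat.Agent.S55.CFT

/-! ### The local symbols are homomorphisms -/

lemma unitPart_val (p : Nat.Primes) (x : (Qp p)ˣ) :
    haveI := fact_primes p
    (((unitPart p x : ℤ_[(p : ℕ)]ˣ) : ℤ_[(p : ℕ)]) : ℚ_[(p : ℕ)]) =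
      (x : Qp p) * ((p : ℕ) : Qp p) ^ (-(Padic.valuation (x : Qp p))) := rfl

lemma unitPart_mul (p : Nat.Primes) (x y : (Qp p)ˣ) :
    unitPart p (x * y) = unitPart p x * unitPart p y := by
  haveI := fact_primes p
  apply Units.ext
  apply Subtype.ext
  have hp0 : (((p : ℕ) : Qp p)) ≠ 0 := by exact_mod_cast p.2.ne_zero
  change (((unitPart p (x * y) : ℤ_[(p : ℕ)]ˣ) : ℤ_[(p : ℕ)]) : ℚ_[(p : ℕ)]) =
    (((unitPart p x : ℤ_[(p : ℕ)]ˣ) : ℤ_[(p : ℕ)]) : ℚ_[(p : ℕ)]) *
    (((unitPart p y : ℤ_[(p : ℕ)]ˣ) : ℤ_[(p : ℕ)]) : ℚ_[(p : ℕ)])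
  rw [unitPart_val, unitPart_val, unitPart_val, Units.val_mul,
    Padic.valuation_mul x.ne_zero y.ne_zero, neg_add, zpow_add₀ hp0]
  ring

lemma thetaLoc_self (p : Nat.Primes) (M : ℕ) (x : (Qp p)ˣ) :
    haveI := fact_primes p
    thetaLoc p M p x =
      (Units.map (PadicInt.toZModPow M : ℤ_[(p : ℕ)] →+* ZMod ((p : ℕ) ^ M)).toMonoidHom
        (unitPart p x))⁻¹ := by
  simp [thetaLoc]

lemma thetaLoc_ne (p : Nat.Primes) (M : ℕ) (q : Nat.Primes) (h : q ≠ p) (x : (Qp q)ˣ) :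
    haveI := fact_primes q
    thetaLoc p M q x = primeUnit p q M h ^ (Padic.valuation (x : Qp q)) := by
  simp [thetaLoc, h]

lemma thetaLoc_mul (p : Nat.Primes) (M : ℕ) (q : Nat.Primes) (x y : (Qp q)ˣ) :
    thetaLoc p M q (x * y) = thetaLoc p M q x * thetaLoc p M q y := by
  haveI := fact_primes q
  by_cases h : q = p
  · subst h
    rw [thetaLoc_self, thetaLoc_self, thetaLoc_self, unitPart_mul, map_mul, mul_inv]
  · rw [thetaLoc_ne p M q h, thetaLoc_ne p M q h, thetaLoc_ne p M q h, Units.val_mul,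
      Padic.valuation_mul x.ne_zero y.ne_zero, zpow_add]

/-- The local symbol as a homomorphism. -/
def thetaLocHom (p : Nat.Primes) (M : ℕ) (q : Nat.Primes) : (Qp q)ˣ →* (ZMod ((p : ℕ) ^ M))ˣ where
  toFun := thetaLoc p M q
  map_one' := by
    have h := thetaLoc_mul p M q 1 1
    rw [mul_one] at h
    exact (left_eq_mul.mp h)
  map_mul' := thetaLoc_mul p M q

/-! ### The symbol on rational numbers -/

/-- `ℚˣ → ℚ_qˣ`. -/
def ratU (q : Nat.Primes) : ℚˣ →* (Qp q)ˣ := Units.map (algebraMap ℚ (Qp q)).toMonoidHom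

@[simp] lemma ratU_val (q : Nat.Primes) (r : ℚˣ) : ((ratU q r : (Qp q)ˣ) : Qp q) = ((r : ℚ) : Qp q) :=
  rfl

/-- A prime number as a unit of `ℚ`. -/
def primeQ (l : Nat.Primes) : ℚˣ := Units.mk0 ((l : ℕ) : ℚ) (by exact_mod_cast l.2.ne_zero)

@[simp] lemma primeQ_val (l : Nat.Primes) : ((primeQ l : ℚˣ) : ℚ) = ((l : ℕ) : ℚ) := rfl

/-- The symbol of `ℚ` for the set `T`, as a homomorphism `ℚˣ → (ℤ/p^M)ˣ`. -/
def thetaRat (p : Nat.Primes) (M : ℕ) (T : Finset Nat.Primes) : ℚˣ →* (ZMod ((p : ℕ) ^ M))ˣ :=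
  ∏ q ∈ T, (thetaLocHom p M q).comp (ratU q)

lemma thetaRat_apply (p : Nat.Primes) (M : ℕ) (T : Finset Nat.Primes) (r : ℚˣ) :
    thetaRat p M T r = ∏ q ∈ T, thetaLoc p M q (ratU q r) := by
  simp [thetaRat, thetaLocHom]

lemma thetaLoc_primeQ_ne (p : Nat.Primes) (M : ℕ) (q l : Nat.Primes) (h : q ≠ p) :
    thetaLoc p M q (ratU q (primeQ l)) = if q = l then primeUnit p q M h else 1 := by
  haveI := fact_primes q
  rw [thetaLoc_ne p M q h, ratU_val, primeQ_val, Rat.cast_natCast, Padic.valuation_natCast]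
  split_ifs with hql
  · subst hql
    rw [padicValNat_self]
    simp
  · have : padicValNat (q : ℕ) (l : ℕ) = 0 := by
      apply padicValNat.eq_zero_of_not_dvd
      intro hd
      exact hql (Subtype.ext ((Nat.prime_dvd_prime_iff_eq q.2 l.2).1 hd))
    rw [this]
    simp

lemma thetaLoc_primeQ_self (p : Nat.Primes) (M : ℕ) (l : Nat.Primes) :
    thetaLoc p M p (ratU p (primeQ l)) =
      if h : l = p then 1 else (primeUnit p l M h)⁻¹ := by
  haveI := fact_primes p
  rw [thetaLoc_self]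
  split_ifs with hl
  · subst hl
    rw [inv_eq_one]
    apply Units.ext
    have : (unitPart l (ratU l (primeQ l)) : ℤ_[(l : ℕ)]ˣ) = 1 := by
      apply Units.ext
      apply Subtype.ext
      change (((unitPart l (ratU l (primeQ l)) : ℤ_[(l : ℕ)]ˣ) : ℤ_[(l : ℕ)]) : ℚ_[(l : ℕ)]) = 1
      have hp0 : (((l : ℕ) : Qp l)) ≠ 0 := by exact_mod_cast l.2.ne_zero
      rw [unitPart_val, ratU_val, primeQ_val, Rat.cast_natCast, Padic.valuation_p, zpow_neg,
        zpow_one, mul_inv_cancel₀ hp0]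
    rw [this]
    simp
  · rw [inv_inj]
    apply Units.ext
    have : ((unitPart p (ratU p (primeQ l)) : ℤ_[(p : ℕ)]ˣ) : ℤ_[(p : ℕ)]) = ((l : ℕ) : ℤ_[(p : ℕ)]) := by
      apply Subtype.ext
      have hv : padicValNat (p : ℕ) (l : ℕ) = 0 := by
        apply padicValNat.eq_zero_of_not_dvd
        intro hd
        exact hl (Subtype.ext ((Nat.prime_dvd_prime_iff_eq p.2 l.2).1 hd)).symm
      rw [unitPart_val, ratU_val, primeQ_val, Rat.cast_natCast, Padic.valuation_natCast, hv]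
      simp
    change (PadicInt.toZModPow M) ((unitPart p (ratU p (primeQ l)) : ℤ_[(p : ℕ)]ˣ) : ℤ_[(p : ℕ)]) = _
    rw [this, map_natCast]
    rfl

/-! ### Positivity of the norm for totally complex fields -/

open ComplexConjugate in
lemma prod_conj_nonneg {ι : Type*} [DecidableEq ι] (c : ι → ι) (hc : ∀ i, c (c i) = i)
    (hne : ∀ i, c i ≠ i) (f : ι → ℂ) (hf : ∀ i, f (c i) = conj (f i)) :
    ∀ S : Finset ι, (∀ i ∈ S, c i ∈ S) → ∃ t : ℝ, 0 ≤ t ∧ ∏ i ∈ S, f i = (t : ℂ) := by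
  intro S
  induction S using Finset.strongInduction with
  | H S ih =>
    intro hS
    rcases S.eq_empty_or_nonempty with rfl | ⟨i, hi⟩
    · exact ⟨1, zero_le_one, by simp⟩
    · have hci : c i ∈ S.erase i := Finset.mem_erase.2 ⟨hne i, hS i hi⟩
      have hsub : (S.erase i).erase (c i) ⊂ S :=
        lt_of_le_of_lt (Finset.erase_subset _ _) (Finset.erase_ssubset hi)
      obtain ⟨t, ht, hprod⟩ := ih _ hsub (by
        intro j hj
        rw [Finset.mem_erase, Finset.mem_erase] at hj ⊢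
        obtain ⟨h1, h2, h3⟩ := hj
        refine ⟨?_, ?_, hS j h3⟩
        · intro h
          exact h2 (by rw [← hc j, ← hc i, h])
        · intro h
          exact h1 (by rw [← hc j, h]))
      refine ⟨Complex.normSq (f i) * t, mul_nonneg (Complex.normSq_nonneg _) ht, ?_⟩
      rw [← Finset.mul_prod_erase S f hi, ← Finset.mul_prod_erase _ f hci, hprod, hf,
        ← mul_assoc, Complex.mul_conj]
      push_cast
      rfl

lemma norm_nonneg_of_totallyComplex (K : Type) [Field K] [NumberField K] [IsTotallyComplex K]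
    (x : K) : 0 ≤ Algebra.norm ℚ x := by
  classical
  have h := Algebra.norm_eq_prod_embeddings ℚ ℂ x
  let cj : ℂ →ₐ[ℚ] ℂ := (Complex.conjAe.restrictScalars ℚ : ℂ ≃ₐ[ℚ] ℂ)
  have hcj : ∀ z : ℂ, cj z = (starRingEnd ℂ) z := fun z => rfl
  obtain ⟨t, ht, hprod⟩ := prod_conj_nonneg (ι := K →ₐ[ℚ] ℂ) (fun σ => cj.comp σ)
    (fun σ => by
      ext y
      simp [hcj])
    (fun σ hσ => by
      have hreal : ComplexEmbedding.IsReal (σ : K →+* ℂ) := by
        rw [ComplexEmbedding.isReal_iff]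
        ext y
        have := DFunLike.congr_fun hσ y
        simpa [hcj] using this
      exact IsTotallyComplex.complexEmbedding_not_isReal _ hreal)
    (fun σ => σ x) (fun σ => by simp [hcj]) Finset.univ (fun _ _ => Finset.mem_univ _)
  rw [hprod] at h
  have h2 : ((Algebra.norm ℚ x : ℚ) : ℝ) = t := by
    have : ((((Algebra.norm ℚ x : ℚ) : ℝ)) : ℂ) = (t : ℂ) := by
      rw [← h]
      simp
    exact_mod_cast this
  have h3 : (0 : ℝ) ≤ ((Algebra.norm ℚ x : ℚ) : ℝ) := h2 ▸ ht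
  exact_mod_cast h3

/-- The norm of `1 ⊗ x ∈ ℚ_q ⊗ K` over `ℚ_q` is the image of `N_{K/ℚ} x`. -/
lemma norm_one_tmul (K : Type) [Field K] [NumberField K] (q : Nat.Primes) (x : K) :
    Algebra.norm (Qp q) ((1 : Qp q) ⊗ₜ[ℚ] x : SemiLocal K q) =
      algebraMap ℚ (Qp q) (Algebra.norm ℚ x) := by
  rw [Algebra.norm_apply, Algebra.norm_apply, ← Algebra.baseChange_lmul, LinearMap.det_baseChange]

/-- An integral rational number is an integer. -/
lemma exists_int_of_isIntegral {r : ℚ} (h : IsIntegral ℤ r) : ∃ z : ℤ, (z : ℚ) = r := by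
  obtain ⟨z, hz⟩ := IsIntegrallyClosed.isIntegral_iff.1 h
  exact ⟨z, by simpa using hz⟩

/-- The norm of a `T`-unit: `P ^ N * N(e)` and `P ^ N * N(e)⁻¹` are integers. -/
lemma norm_TUnit (K : Type) [Field K] [NumberField K] (T : Finset Nat.Primes) (e : Kˣ)
    (he : e ∈ TUnits K T) :
    ∃ (N : ℕ) (A B : ℤ), ((prodT T : ℕ) : ℚ) ^ N * Algebra.norm ℚ (e : K) = A ∧
      ((prodT T : ℕ) : ℚ) ^ N * (Algebra.norm ℚ (e : K))⁻¹ = B := by
  obtain ⟨n, h1, h2⟩ := he
  have hP : ((prodT T : ℕ) : K) = algebraMap ℚ K ((prodT T : ℕ) : ℚ) := by simp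
  have key : ∀ y : K, IsIntegral ℤ (((prodT T : ℕ) : K) ^ n * y) →
      ∃ A : ℤ, ((prodT T : ℕ) : ℚ) ^ (n * Module.finrank ℚ K) * Algebra.norm ℚ y = A := by
    intro y hy
    obtain ⟨A, hA⟩ := exists_int_of_isIntegral (Algebra.isIntegral_norm ℚ hy)
    refine ⟨A, ?_⟩
    rw [hA, map_mul, map_pow, hP, Algebra.norm_algebraMap, ← pow_mul, mul_comm n]
  obtain ⟨A, hA⟩ := key _ h1
  obtain ⟨B, hB⟩ := key _ h2
  refine ⟨n * Module.finrank ℚ K, A, B, hA, ?_⟩
  rw [← hB]
  congr 1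
  symm
  apply eq_inv_of_mul_eq_one_left
  rw [← map_mul, ← Units.val_mul, inv_mul_cancel, Units.val_one, map_one]


/-! ### The product formula on `ℚ` -/

lemma thetaRat_primeQ (p : Nat.Primes) (M : ℕ) (T : Finset Nat.Primes) (hp : p ∈ T)
    (l : Nat.Primes) (hl : l ∈ T) : thetaRat p M T (primeQ l) = 1 := by
  classical
  rw [thetaRat_apply]
  by_cases h : l = p
  · subst h
    apply Finset.prod_eq_one
    intro q _
    by_cases hq' : q = l
    · subst hq'
      rw [thetaLoc_primeQ_self]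
      simp
    · rw [thetaLoc_primeQ_ne l M q l hq']
      simp [hq']
  · rw [Finset.prod_eq_mul l p h]
    · rw [thetaLoc_primeQ_ne p M l l h, thetaLoc_primeQ_self, if_pos rfl, dif_neg h,
        mul_inv_cancel]
    · intro q _ hq
      rw [thetaLoc_primeQ_ne p M q l hq.2, if_neg hq.1]
    · intro h'
      exact absurd hl h'
    · intro h'
      exact absurd hp h'

/-- A nonzero natural number as a unit of `ℚ`. -/
def natQ (a : ℕ) (ha : a ≠ 0) : ℚˣ := Units.mk0 (a : ℚ) (by exact_mod_cast ha)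

@[simp] lemma natQ_val (a : ℕ) (ha : a ≠ 0) : ((natQ a ha : ℚˣ) : ℚ) = (a : ℚ) := rfl

lemma natQ_prime_mul (l : Nat.Primes) (b : ℕ) (hb : b ≠ 0) (ha : (l : ℕ) * b ≠ 0) :
    natQ ((l : ℕ) * b) ha = primeQ l * natQ b hb := by
  apply Units.ext
  rw [Units.val_mul, natQ_val, natQ_val, primeQ_val]
  push_cast
  rfl

lemma thetaRat_natQ (p : Nat.Primes) (M : ℕ) (T : Finset Nat.Primes) (hp : p ∈ T) :
    ∀ (a : ℕ) (ha : a ≠ 0), (∀ l : Nat.Primes, (l : ℕ) ∣ a → l ∈ T) →
      thetaRat p M T (natQ a ha) = 1 := by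
  intro a
  induction a using Nat.strong_induction_on with
  | _ a ih =>
    intro ha hT
    by_cases h1 : a = 1
    · subst h1
      have : natQ 1 ha = 1 := Units.ext (by simp)
      rw [this, map_one]
    · obtain ⟨l, hl, b, rfl⟩ := Nat.exists_prime_and_dvd h1
      have hb : b ≠ 0 := fun h => ha (by rw [h, mul_zero])
      have hlt : b < l * b := by
        have := hl.one_lt
        nlinarith [Nat.pos_of_ne_zero hb]
      have hmul := natQ_prime_mul (⟨l, hl⟩ : Nat.Primes) b hb ha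
      rw [hmul, map_mul, thetaRat_primeQ p M T hp (⟨l, hl⟩ : Nat.Primes)
        (hT (⟨l, hl⟩ : Nat.Primes) (dvd_mul_right _ _)),
        ih b hlt hb (fun l' hl' => hT l' (Dvd.dvd.mul_left hl' _)), mul_one]

lemma prime_mem_of_dvd_prodT_pow (T : Finset Nat.Primes) (N : ℕ) (l : Nat.Primes)
    (h : (l : ℕ) ∣ prodT T ^ N) : l ∈ T := by
  have h1 : (l : ℕ) ∣ prodT T := l.2.dvd_of_dvd_pow h
  rw [prodT, l.2.prime.dvd_finsetProd_iff] at h1
  obtain ⟨q, hq, hd⟩ := h1
  have : l = q := Subtype.ext ((Nat.prime_dvd_prime_iff_eq l.2 q.2).1 hd)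
  rw [this]
  exact hq

lemma prodT_ne_zero (T : Finset Nat.Primes) : prodT T ≠ 0 := by
  rw [prodT]
  exact Finset.prod_ne_zero_iff.2 (fun q _ => q.2.ne_zero)

/-- The symbol of `ℚ` is trivial on positive `T`-units. -/
lemma thetaRat_TUnit (p : Nat.Primes) (M : ℕ) (T : Finset Nat.Primes) (hp : p ∈ T) (r : ℚˣ)
    (hr : 0 < (r : ℚ)) (N : ℕ) (A B : ℤ) (hA : ((prodT T : ℕ) : ℚ) ^ N * (r : ℚ) = A)
    (hB : ((prodT T : ℕ) : ℚ) ^ N * (r : ℚ)⁻¹ = B) : thetaRat p M T r = 1 := by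
  have hP0 : (0 : ℚ) < ((prodT T : ℕ) : ℚ) ^ N :=
    pow_pos (by exact_mod_cast Nat.pos_of_ne_zero (prodT_ne_zero T)) N
  have hApos : 0 < A := by
    have : (0 : ℚ) < (A : ℚ) := hA ▸ mul_pos hP0 hr
    exact_mod_cast this
  have hBpos : 0 < B := by
    have : (0 : ℚ) < (B : ℚ) := hB ▸ mul_pos hP0 (inv_pos.2 hr)
    exact_mod_cast this
  have hAB : A * B = ((prodT T : ℕ) : ℤ) ^ (2 * N) := by
    have : ((A * B : ℤ) : ℚ) = (((prodT T : ℕ) : ℤ) ^ (2 * N) : ℤ) := by
      push_cast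
      rw [← hA, ← hB]
      field_simp
      ring
    exact_mod_cast this
  obtain ⟨a, rfl⟩ := Int.eq_ofNat_of_zero_le hApos.le
  obtain ⟨b, rfl⟩ := Int.eq_ofNat_of_zero_le hBpos.le
  have hab : a * b = prodT T ^ (2 * N) := by exact_mod_cast hAB
  have ha0 : a ≠ 0 := by
    rintro rfl
    simp at hApos
  have hPN0 : prodT T ^ N ≠ 0 := pow_ne_zero _ (prodT_ne_zero T)
  have h1 : thetaRat p M T (natQ a ha0) = 1 :=
    thetaRat_natQ p M T hp a ha0 (fun l hl =>
      prime_mem_of_dvd_prodT_pow T (2 * N) l (hab ▸ Dvd.dvd.mul_right hl b))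
  have h2 : thetaRat p M T (natQ (prodT T ^ N) hPN0) = 1 :=
    thetaRat_natQ p M T hp _ hPN0 (fun l hl => prime_mem_of_dvd_prodT_pow T N l hl)
  have hmul : natQ (prodT T ^ N) hPN0 * r = natQ a ha0 := by
    apply Units.ext
    rw [Units.val_mul, natQ_val, natQ_val]
    push_cast
    rw [hA]
    simp
  have := congrArg (thetaRat p M T) hmul
  rw [map_mul, h1, h2, one_mul] at this
  exact this

/-! ### TH-1 -/

lemma normToQ_diag (K : Type) [Field K] [NumberField K] (T : Finset Nat.Primes) (e : Kˣ)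
    (q : T) :
    normToQ K T (diagIdele K T e) q = ratU q.1 (Units.map (Algebra.norm ℚ : K →* ℚ) e) := by
  apply Units.ext
  exact norm_one_tmul K q.1 (e : K)

/-- **TH-1** (product formula): the cyclotomic symbol is trivial on the `T`-units. -/
theorem stmt_ThetaUnits : Stmt_ThetaUnits := by
  intro p M K _ _ T hp hK e he
  haveI := hK
  obtain ⟨N, A, B, hA, hB⟩ := norm_TUnit K T e he
  have hr : 0 < Algebra.norm ℚ (e : K) :=
    lt_of_le_of_ne (norm_nonneg_of_totallyComplex K _)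
      (Ne.symm (Algebra.norm_ne_zero_iff.2 e.ne_zero))
  have key := thetaRat_TUnit p M T hp (Units.map (Algebra.norm ℚ : K →* ℚ) e) hr N A B hA hB
  rw [thetaRat_apply] at key
  rw [cycloTheta, thetaQ]
  rw [← key, ← Finset.prod_coe_sort T]
  refine Finset.prod_congr rfl (fun q _ => ?_)
  rw [normToQ_diag]

end Fermat.Agent.S55.CFT.H56
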