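/-
S55 package E4, island GLB, wave 2: small standalone lemmas on base change of `T`-ideles and
`T`-units, requested by helper13 for FUND (T2-T5).  Owner: helper56.

* `normLK_base` (T2): `N_{L/K} (base x) = x ^ [L : K]`; `normToQ_base`, `cycloTheta_base`:
  `θ_L (base x) = θ_K (x) ^ [L : K]`;
* `base_base` (T3): base change is transitive; `smul_base`: base-changed ideles are invariant;
* `admissible_up` (T4 = ADM-UP): `Admissible K N T p → Admissible F N T p` for `K ⊆ F ⊆ N`;
* `diagIdele_injective` (T5a), `map_mem_TUnits_iff` (T5b), `exists_TUnit_of_invariant` (T5c).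
-/
import Fermat.Agent.S55.CFT.H56_NormTrans
import Fermat.Agent.S55.CFT.H56_ThetaUnits

set_option autoImplicit false
set_option linter.style.haveILetI false

open NumberField TensorProduct

noncomputable section
namespace Fermat.Agent.S55.CFT.H56

open Fermat.Agent.S55.CFT

section Base

variable (K L : Type) [Field K] [Field L] [NumberField K] [NumberField L] [Algebra K L]

/-- A basis of `ℚ_q ⊗ L` over `ℚ_q ⊗ K` indexed by a `K`-basis of `L`. -/
lemma semiLocal_exists_basis (q : Nat.Primes) :
    letI : Algebra (SemiLocal K q) (SemiLocal L q) := (semiLocalMap K L q).toRingHom.toAlgebra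
    Nonempty (Module.Basis (Module.Free.ChooseBasisIndex K L) (SemiLocal K q) (SemiLocal L q)) := by
  classical
  letI : Algebra (SemiLocal K q) (SemiLocal L q) := (semiLocalMap K L q).toRingHom.toAlgebra
  let b := Module.Free.chooseBasis K L
  let e : SemiLocal L q ≃ₗ[SemiLocal K q] (Module.Free.ChooseBasisIndex K L → SemiLocal K q) :=
    { (semiLocalCoord K L q b) with
      map_smul' := fun s a => by
        funext i
        have := semiLocalCoord_mul K L q b s a i
        simpa [Algebra.smul_def, RingHom.algebraMap_toAlgebra] using this }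
  exact ⟨Module.Basis.ofEquivFun e⟩

/-- The norm of `ℚ_q ⊗ L` over `ℚ_q ⊗ K` on the image of `ℚ_q ⊗ K` is the `[L : K]`-th power. -/
lemma semiLocal_norm_map (q : Nat.Primes) (s : SemiLocal K q) :
    letI : Algebra (SemiLocal K q) (SemiLocal L q) := (semiLocalMap K L q).toRingHom.toAlgebra
    Algebra.norm (SemiLocal K q) (semiLocalMap K L q s) = s ^ Module.finrank K L := by
  letI : Algebra (SemiLocal K q) (SemiLocal L q) := (semiLocalMap K L q).toRingHom.toAlgebra
  obtain ⟨b⟩ := semiLocal_exists_basis K L q
  have h := Algebra.norm_algebraMap_of_basis b s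
  rw [← Module.finrank_eq_card_chooseBasisIndex] at h
  exact h

/-- **T2** (helper13): `N_{L/K}` of the base change of a `T`-idele of `K` is its `[L : K]`-th
power. -/
theorem normLK_base (T : Finset Nat.Primes) (x : IdeleT K T) :
    normLK K L T (baseIdele K L T x) = x ^ Module.finrank K L := by
  funext q
  apply Units.ext
  exact semiLocal_norm_map K L q.1 (x q : SemiLocal K q.1)

/-- `N_{L/ℚ} (base x) = N_{K/ℚ} (x) ^ [L : K]`. -/
theorem normToQ_base (T : Finset Nat.Primes) (x : IdeleT K T) :
    normToQ L T (baseIdele K L T x) = normToQ K T x ^ Module.finrank K L := by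
  rw [← stmt_NormTrans K L T, normLK_base, map_pow]

lemma thetaQ_pow (p : Nat.Primes) (M : ℕ) (T : Finset Nat.Primes) (y : ∀ q : T, (Qp q.1)ˣ)
    (d : ℕ) : thetaQ p M T (y ^ d) = thetaQ p M T y ^ d := by
  rw [thetaQ, thetaQ, ← Finset.prod_pow]
  refine Finset.prod_congr rfl (fun q _ => ?_)
  exact map_pow (thetaLocHom p M q.1) (y q) d

/-- The cyclotomic symbol of `L` on a base-changed idele of `K`: `θ_L(base x) = θ_K(x)^[L:K]`. -/
theorem cycloTheta_base (p : Nat.Primes) (M : ℕ) (T : Finset Nat.Primes) (x : IdeleT K T) :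
    cycloTheta L p M T (baseIdele K L T x) = cycloTheta K p M T x ^ Module.finrank K L := by
  rw [cycloTheta, cycloTheta, normToQ_base, thetaQ_pow]

/-- The cyclotomic symbol of `K` on a norm from `L` is the symbol of `L`:
`θ_K (N_{L/K} y) = θ_L (y)`. -/
theorem cycloTheta_normLK (p : Nat.Primes) (M : ℕ) (T : Finset Nat.Primes) (y : IdeleT L T) :
    cycloTheta K p M T (normLK K L T y) = cycloTheta L p M T y := by
  rw [cycloTheta, cycloTheta, stmt_NormTrans K L T y]

section Tower

variable (N : Type) [Field N] [NumberField N] [Algebra K N] [Algebra L N] [IsScalarTower K L N]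

lemma semiLocalMap_comp (q : Nat.Primes) (s : SemiLocal K q) :
    semiLocalMap L N q (semiLocalMap K L q s) = semiLocalMap K N q s := by
  induction s using TensorProduct.induction_on with
  | zero => simp
  | add s t hs ht => simp only [map_add, hs, ht]
  | tmul x k =>
    simp [semiLocalMap, ← IsScalarTower.algebraMap_apply]

/-- **T3** (helper13): base change is transitive. -/
theorem base_base (T : Finset Nat.Primes) (x : IdeleT K T) :
    baseIdele L N T (baseIdele K L T x) = baseIdele K N T x := by
  funext q
  apply Units.ext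
  exact semiLocalMap_comp K L N q.1 (x q : SemiLocal K q.1)

end Tower

lemma semiLocalEquiv_map (q : Nat.Primes) (g : L ≃ₐ[K] L) (s : SemiLocal K q) :
    semiLocalEquiv K L q g (semiLocalMap K L q s) = semiLocalMap K L q s := by
  induction s using TensorProduct.induction_on with
  | zero => simp
  | add s t hs ht => simp only [map_add, hs, ht]
  | tmul x k => simp [semiLocalMap]

/-- **T3** (helper13): base-changed ideles are Galois-invariant. -/
theorem smul_base (T : Finset Nat.Primes) (g : L ≃ₐ[K] L) (x : IdeleT K T) :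
    g • baseIdele K L T x = baseIdele K L T x := by
  funext q
  apply Units.ext
  exact semiLocalEquiv_map K L q.1 g (x q : SemiLocal K q.1)

end Base

/-- **T4 / ADM-UP** (helper13): admissibility passes from `N/K` to `N/F` for an intermediate
field `F`. -/
theorem admissible_up (K F N : Type) [Field K] [Field F] [Field N] [NumberField K]
    [NumberField F] [NumberField N] [Algebra K F] [Algebra F N] [Algebra K N]
    [IsScalarTower K F N] (T : Finset Nat.Primes) (p : ℕ) (h : Admissible K N T p) :
    Admissible F N T p := by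
  haveI := h.gal
  haveI := h.cplx
  refine ⟨IsGalois.tower_top_of_isGalois K F N, NumberField.isTotallyComplex_of_algebra K F,
    h.pmem, ?_, ?_⟩
  · intro P hP hP0 hT
    have hK := h.unr P hP hP0 hT
    rw [eq_bot_iff]
    intro σ hσ
    rw [Subgroup.mem_bot]
    have h1 : (σ.restrictScalars K : N ≃ₐ[K] N) ∈ P.inertia (N ≃ₐ[K] N) := by
      intro x
      exact hσ x
    rw [hK, Subgroup.mem_bot] at h1
    ext y
    have := DFunLike.congr_fun h1 y
    simpa using this
  · intro F' _ _ _ _ _
    letI : Algebra K F' := ((algebraMap F F').comp (algebraMap K F)).toAlgebra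
    haveI : IsScalarTower K F' N := IsScalarTower.of_algebraMap_eq (fun x => by
      rw [RingHom.algebraMap_toAlgebra, RingHom.comp_apply, ← IsScalarTower.algebraMap_apply,
        ← IsScalarTower.algebraMap_apply])
    exact h.cl F'

/-- `x ↦ 1 ⊗ x`, `L → ℚ_q ⊗ L`, is injective. -/
lemma includeRight_inj (L : Type) [Field L] [NumberField L] (q : Nat.Primes) :
    Function.Injective (Algebra.TensorProduct.includeRight : L →ₐ[ℚ] SemiLocal L q) :=
  Algebra.TensorProduct.includeRight_injective (algebraMap ℚ (Qp q)).injective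

/-- **T5a** (helper13): the diagonal embedding is injective for `T ≠ ∅`. -/
theorem diagIdele_injective (L : Type) [Field L] [NumberField L] (T : Finset Nat.Primes)
    (hT : T.Nonempty) : Function.Injective (diagIdele L T) := by
  obtain ⟨q, hq⟩ := hT
  intro x y h
  have h1 := congrFun h ⟨q, hq⟩
  have h2 := congrArg (fun u : (SemiLocal L q)ˣ => (u : SemiLocal L q)) h1
  exact Units.ext (includeRight_inj L q h2)

/-- **T5b** (helper13): a unit of `F` is a `T`-unit of `N` iff it is a `T`-unit of `F`. -/
theorem map_mem_TUnits_iff (F N : Type) [Field F] [Field N] [NumberField F] [NumberField N]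
    [Algebra F N] (T : Finset Nat.Primes) (x : Fˣ) :
    Units.map (algebraMap F N : F →* N) x ∈ TUnits N T ↔ x ∈ TUnits F T := by
  have hinj : Function.Injective (algebraMap F N) := (algebraMap F N).injective
  have key : ∀ (n : ℕ) (y : F), IsIntegral ℤ (((prodT T : ℕ) : N) ^ n * algebraMap F N y) ↔
      IsIntegral ℤ (((prodT T : ℕ) : F) ^ n * y) := by
    intro n y
    rw [← isIntegral_algebraMap_iff (R := ℤ) hinj, map_mul, map_pow, map_natCast]
  constructor
  · rintro ⟨n, h1, h2⟩
    refine ⟨n, (key n _).1 h1, (key n _).1 ?_⟩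
    have : ((Units.map (algebraMap F N : F →* N) x)⁻¹ : Nˣ) =
        Units.map (algebraMap F N : F →* N) x⁻¹ := by simp
    rw [this] at h2
    exact h2
  · rintro ⟨n, h1, h2⟩
    refine ⟨n, (key n _).2 h1, ?_⟩
    have : ((Units.map (algebraMap F N : F →* N) x)⁻¹ : Nˣ) =
        Units.map (algebraMap F N : F →* N) x⁻¹ := by simp
    rw [this]
    exact (key n _).2 h2

/-- **T5c** (helper13): the `Gal(N/F)`-invariant `T`-units of `N` are the `T`-units of `F`. -/
theorem exists_TUnit_of_invariant (F N : Type) [Field F] [Field N] [NumberField F]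
    [NumberField N] [Algebra F N] [IsGalois F N] (T : Finset Nat.Primes) (y : Nˣ)
    (hy : y ∈ TUnits N T) (hinv : ∀ g : N ≃ₐ[F] N, g • y = y) :
    ∃ x : Fˣ, x ∈ TUnits F T ∧ Units.map (algebraMap F N : F →* N) x = y := by
  have h1 : (y : N) ∈ Set.range (algebraMap F N) := by
    rw [IsGalois.mem_range_algebraMap_iff_fixed]
    intro g
    have := congrArg (fun u : Nˣ => (u : N)) (hinv g)
    exact this
  obtain ⟨x, hx⟩ := h1
  have hx0 : x ≠ 0 := by
    rintro rfl
    rw [map_zero] at hx
    exact y.ne_zero hx.symm
  have hxy : Units.map (algebraMap F N : F →* N) (Units.mk0 x hx0) = y := Units.ext hx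
  exact ⟨Units.mk0 x hx0, (map_mem_TUnits_iff F N T _).1 (hxy ▸ hy), hxy⟩

end Fermat.Agent.S55.CFT.H56
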