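import Fermat.Agent.S55.CFT.H12_H2Index
import Fermat.Agent.S55.CFT.H56_IdeleBase

set_option autoImplicit false
open NumberField TensorProduct

noncomputable section
namespace Fermat.Agent.S55.CFT.H13

open Fermat.Agent.S55.CFT

section Tower
variable (K F N : Type) [Field K] [Field F] [Field N] [Algebra K F] [Algebra F N] [Algebra K N]
  [IsScalarTower K F N]

/-- `Gal(N/F)` as a subgroup of `Gal(N/K)`: the kernel of the restriction to `F`. -/
def kerRes [Normal K F] : Subgroup (N ≃ₐ[K] N) := (AlgEquiv.restrictNormalHom (K₁ := N) F).ker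

instance kerRes_normal [Normal K F] : (kerRes K F N).Normal := by
  unfold kerRes; infer_instance

theorem mem_kerRes_iff [Normal K F] (σ : N ≃ₐ[K] N) :
    σ ∈ kerRes K F N ↔ ∀ f : F, σ (algebraMap F N f) = algebraMap F N f := by
  unfold kerRes
  rw [MonoidHom.mem_ker]
  constructor
  · intro h f
    have := AlgEquiv.restrictNormal_commutes σ F f
    rw [← this]
    have h2 : σ.restrictNormal F = 1 := h
    rw [h2]; rfl
  · intro h
    apply AlgEquiv.ext
    intro f
    apply (algebraMap F N).injective
    have := AlgEquiv.restrictNormal_commutes σ F f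
    change algebraMap F N (σ.restrictNormal F f) = algebraMap F N f
    rw [this, h]

theorem restrictScalars_mem_kerRes [Normal K F] (σ : N ≃ₐ[F] N) :
    σ.restrictScalars K ∈ kerRes K F N := by
  rw [mem_kerRes_iff]
  intro f
  exact σ.commutes f

/-- `Gal(N/F) ≃ ker(Gal(N/K) → Gal(F/K))`. -/
def kerResEquiv [Normal K F] : (N ≃ₐ[F] N) ≃ kerRes K F N where
  toFun σ := ⟨σ.restrictScalars K, restrictScalars_mem_kerRes K F N σ⟩
  invFun s := { (s : N ≃ₐ[K] N).toRingEquiv with
    commutes' := fun f => (mem_kerRes_iff K F N _).1 s.2 f }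
  left_inv σ := by ext x; rfl
  right_inv s := by apply Subtype.ext; ext x; rfl

@[simp] theorem kerResEquiv_coe [Normal K F] (σ : N ≃ₐ[F] N) :
    ((kerResEquiv K F N σ : kerRes K F N) : N ≃ₐ[K] N) = σ.restrictScalars K := rfl

/-- `Gal(N/K)/Gal(N/F) ≃ Gal(F/K)`. -/
def quotKerRes [Normal K F] [Normal K N] : ((N ≃ₐ[K] N) ⧸ kerRes K F N) ≃* (F ≃ₐ[K] F) :=
  QuotientGroup.quotientKerEquivOfSurjective (AlgEquiv.restrictNormalHom (K₁ := N) F)
    (AlgEquiv.restrictNormalHom_surjective N)

theorem quotKerRes_mk [Normal K F] [Normal K N] (σ : N ≃ₐ[K] N) :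
    quotKerRes K F N (QuotientGroup.mk σ) = AlgEquiv.restrictNormalHom F σ := rfl

end Tower

section Idele
variable (K F N : Type) [Field K] [Field F] [Field N] [NumberField K] [NumberField F]
  [NumberField N] [Algebra K F] [Algebra F N] [Algebra K N] [IsScalarTower K F N]
  (T : Finset Nat.Primes)

theorem smul_restrictScalars (σ : N ≃ₐ[F] N) (y : IdeleT N T) :
    (σ.restrictScalars K) • y = σ • y := by
  funext q
  apply Units.ext
  rfl

theorem smul_baseIdele_tower [Normal K F] (σ : N ≃ₐ[K] N) (w : IdeleT F T) :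
    σ • baseIdele F N T w = baseIdele F N T ((AlgEquiv.restrictNormalHom F σ) • w) := by
  funext q
  apply Units.ext
  rw [H12.smul_idele_apply_val, H12.baseIdele_apply_val, H12.baseIdele_apply_val,
    H12.smul_idele_apply_val]
  generalize ((w q : (SemiLocal F q.1)ˣ) : SemiLocal F q.1) = s
  induction s using TensorProduct.induction_on with
  | zero => simp
  | add s t hs ht => simp only [map_add, hs, ht]
  | tmul a b =>
    rw [H12.semiLocalMap_tmul, semiLocalEquiv_tmul, semiLocalEquiv_tmul, H12.semiLocalMap_tmul]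
    congr 1
    exact (AlgEquiv.restrictNormal_commutes σ F b).symm

end Idele

end Fermat.Agent.S55.CFT.H13
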