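/-
S55 / E4 / CFT package FUND (helper13): idele classes in a tower `K ⊆ F ⊆ N`.
-/
import Fermat.Agent.S55.CFT.H13_FundGal

set_option autoImplicit false
set_option linter.unusedSectionVars false
open NumberField TensorProduct CategoryTheory CategoryTheory.Limits

noncomputable section
namespace Fermat.Agent.S55.CFT.H13

open Fermat.Agent.S55.CFT

section Cls
variable (K L : Type) [Field K] [Field L] [NumberField K] [NumberField L] [Algebra K L]
  (T : Finset Nat.Primes)

theorem idClass_eq_cokerAdd (j : IdeleT L T) :
    H12.idClass K L T j = H12.cokerAdd (diagRep K L T) (Additive.ofMul j) := rfl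

theorem idClass_one : H12.idClass K L T 1 = 0 := by
  rw [idClass_eq_cokerAdd]
  exact map_zero _

theorem idClass_prod {ι : Type*} (s : Finset ι) (f : ι → IdeleT L T) :
    H12.idClass K L T (∏ i ∈ s, f i) = ∑ i ∈ s, H12.idClass K L T (f i) := by
  classical
  induction s using Finset.induction_on with
  | empty => simp [idClass_one]
  | insert a s ha ih => rw [Finset.prod_insert ha, Finset.sum_insert ha, H12.idClass_mul, ih]

theorem idClass_pow (j : IdeleT L T) (k : ℕ) :
    H12.idClass K L T (j ^ k) = k • H12.idClass K L T j := by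
  induction k with
  | zero => simp [idClass_one]
  | succ k ih => rw [pow_succ, H12.idClass_mul, ih, succ_nsmul]

end Cls

section TowerCls
variable (K F N : Type) [Field K] [Field F] [Field N] [NumberField K] [NumberField F]
  [NumberField N] [Algebra K F] [Algebra F N] [Algebra K N] [IsScalarTower K F N]
  (T : Finset Nat.Primes)

theorem idClass_eq_iff_tower (j j' : IdeleT N T) :
    H12.idClass K N T j = H12.idClass K N T j' ↔ H12.idClass F N T j = H12.idClass F N T j' := by
  rw [H12.idClass_eq_iff, H12.idClass_eq_iff]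

/-- `(C_N)^{Gal(N/F)}` is the image of `J_F`. -/
theorem exists_base_of_kerRes_invariant [Normal K F] [IsGalois F N]
    (hunr : UnramifiedOutsideT F N T) (hcl : ClTrivial F T) (hT : T.Nonempty)
    (b : (repC K N T).V) (hb : ∀ s ∈ kerRes K F N, (repC K N T).ρ s b = b) :
    ∃ w : IdeleT F T, H12.idClass K N T (baseIdele F N T w) = b := by
  obtain ⟨j, rfl⟩ := H12.idClass_surjective K N T b
  have hj : ∀ σ : N ≃ₐ[F] N, H12.idClass F N T (σ • j) = H12.idClass F N T j := by
    intro σ
    rw [← idClass_eq_iff_tower K F N T, ← smul_restrictScalars K F N T, H12.idClass_smul]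
    exact hb _ (restrictScalars_mem_kerRes K F N σ)
  obtain ⟨x, hx⟩ := H12.exists_base_of_idClass_invariant F N T hunr hcl hT j hj
  exact ⟨x, (idClass_eq_iff_tower K F N T _ _).2 hx⟩

/-- Injectivity of `C_F → C_N`, on ideles. -/
theorem exists_diag_of_base_eq_diag [IsGalois F N] (hT : T.Nonempty) (w : IdeleT F T)
    (e : TUnits N T) (he : diagIdele N T (e : Nˣ) = baseIdele F N T w) :
    ∃ e' : TUnits F T, w = diagIdele F T (e' : Fˣ) := by
  have hinj := H12.diagIdele_injective N T hT
  have hinv : ∀ σ : N ≃ₐ[F] N, σ • e = e := by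
    intro σ
    apply Subtype.ext
    apply hinj
    change diagIdele N T (σ • (e : Nˣ)) = diagIdele N T (e : Nˣ)
    rw [diagIdele_smul F N T, he, H12.smul_baseIdele]
  obtain ⟨e', he'⟩ := H12.exists_iotaT_of_invariant F N T e hinv
  refine ⟨e', ?_⟩
  apply H12.baseIdele_injective F N T
  rw [← he, H12.baseIdele_diagIdele, ← he']
  rfl

theorem idClass_base_eq_zero [IsGalois F N] (hT : T.Nonempty) (w : IdeleT F T)
    (h : H12.idClass K N T (baseIdele F N T w) = 0) :
    ∃ e' : TUnits F T, w = diagIdele F T (e' : Fˣ) := by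
  obtain ⟨e, he⟩ := H12.idClass_eq_zero K N T _ h
  exact exists_diag_of_base_eq_diag F N T hT w e he

end TowerCls

section TowerSum
variable (K F N : Type) [Field K] [Field F] [Field N] [NumberField K] [NumberField F]
  [NumberField N] [Algebra K F] [Algebra F N] [Algebra K N] [IsScalarTower K F N]
  (T : Finset Nat.Primes)

theorem coe_quot_ρ_idClass [IsGalois K F]
    (w : IdeleT F T) (b : ((repC K N T).quotientToInvariants (kerRes K F N)).V)
    (hb : (b : (repC K N T).V) = H12.idClass K N T (baseIdele F N T w))
    (x : (N ≃ₐ[K] N) ⧸ kerRes K F N) [IsGalois K N] :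
    ((((repC K N T).quotientToInvariants (kerRes K F N)).ρ x b :
        ((repC K N T).quotientToInvariants (kerRes K F N)).V) : (repC K N T).V) =
      H12.idClass K N T (baseIdele F N T ((quotKerRes K F N x) • w)) := by
  induction x using QuotientGroup.induction_on with
  | H σ =>
    rw [quotKerRes_mk]
    change (repC K N T).ρ σ (b : (repC K N T).V) = _
    rw [hb, ← H12.idClass_smul, smul_baseIdele_tower]

theorem coe_sum_quot_idClass [IsGalois K F] [IsGalois K N]
    [Fintype ((N ≃ₐ[K] N) ⧸ kerRes K F N)]
    (w : IdeleT F T) (b : ((repC K N T).quotientToInvariants (kerRes K F N)).V)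
    (hb : (b : (repC K N T).V) = H12.idClass K N T (baseIdele F N T w)) :
    ((∑ x : (N ≃ₐ[K] N) ⧸ kerRes K F N, ((repC K N T).quotientToInvariants (kerRes K F N)).ρ x b :
        ((repC K N T).quotientToInvariants (kerRes K F N)).V) : (repC K N T).V) =
      H12.idClass K N T (baseIdele K N T (normLK K F T w)) := by
  classical
  rw [← H56.base_base K F N T, H12.baseIdele_normLK K F T w, map_prod, idClass_prod]
  rw [AddSubmonoidClass.coe_finsetSum]
  refine Fintype.sum_equiv (quotKerRes K F N).toEquiv _ _ (fun x => ?_)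
  exact coe_quot_ρ_idClass K F N T w b hb x

end TowerSum

end Fermat.Agent.S55.CFT.H13
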