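import Fermat.Agent.S55.CFT.H12_SplitModule

/-!
# S55-E4 package TN-2 (Tate's theorem, degree 3), helper13: the two short exact sequences

`0 → C → C(γ) → I_G → 0` and `0 → I_G → Fun(G, ℤ) → ℤ → 0`, restricted to a subgroup `H`.
-/

set_option autoImplicit false
set_option linter.unusedSectionVars false
set_option linter.unusedVariables false
set_option linter.style.haveILetI false

noncomputable section

namespace Fermat.Agent.S55.CFT.H13

open CategoryTheory groupCohomology Limits Fermat.Agent.S55.CFT Fermat.Agent.S55.CFT.H12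

attribute [local instance 1100] Rep.hV2

section General

variable {Γ : Type} [Group Γ]

/-- An equivariant additive map is a morphism of `Rep ℤ Γ` (whatever the `ℤ`-module
structures are). -/
def mkHomZ {A B : Rep.{0} ℤ Γ} (f : A.V →+ B.V)
    (hf : ∀ (g : Γ) (x : A.V), f (A.ρ g x) = B.ρ g (f x)) : A ⟶ B :=
  Rep.ofHom ⟨{ toFun := f
               map_add' := f.map_add
               map_smul' := fun n x => by
                 have h := map_intCast_smul f ℤ ℤ n x
                 rw [Int.cast_id] at h
                 exact h },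
    fun g => by
      apply LinearMap.ext
      intro x
      exact hf g x⟩

theorem mkHomZ_apply {A B : Rep.{0} ℤ Γ} (f : A.V →+ B.V)
    (hf : ∀ (g : Γ) (x : A.V), f (A.ρ g x) = B.ρ g (f x)) (x : A.V) :
    (mkHomZ f hf).hom x = f x := rfl

end General

variable (G : Type) [Group G] [Fintype G]

/-- `Fun(G, ℤ)` as an object of `Rep ℤ G`. -/
abbrev funR : Rep.{0} ℤ G := Rep.of (funRep G)

/-- The augmentation ideal as an object of `Rep ℤ G`. -/
abbrev augR : Rep.{0} ℤ G := Rep.of (augRep G)

/-- The trivial representation `ℤ`. -/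
abbrev trivZ (Γ : Type) [Group Γ] : Rep.{0} ℤ Γ := Rep.trivial ℤ Γ ℤ

variable {G} (C : Rep.{0} ℤ G) (γ : cocycles₂ C)

/-- The splitting module as an object of `Rep ℤ G`. -/
abbrev splitR : Rep.{0} ℤ G := Rep.of (splitRep C γ)

variable (H : Subgroup G)

/-- The inclusion `C → C(γ)`, over `H`. -/
def splitInl : resSub C H ⟶ resSub (splitR C γ) H :=
  mkHomZ (A := resSub C H) (B := resSub (splitR C γ) H)
    (AddMonoidHom.inl C.V (augI G)) (fun g c => by
      refine Prod.ext ?_ ?_
      · show C.ρ (g : G) c = C.ρ (g : G) c + phi C γ (g : G) ((0 : augI G) : G → ℤ)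
        rw [Submodule.coe_zero, map_zero, add_zero]
      · show (0 : augI G) = augRep G (g : G) 0
        rw [map_zero])

/-- The projection `C(γ) → I_G`, over `H`. -/
def splitSnd : resSub (splitR C γ) H ⟶ resSub (augR G) H :=
  mkHomZ (A := resSub (splitR C γ) H) (B := resSub (augR G) H)
    (AddMonoidHom.snd C.V (augI G)) (fun g x => rfl)

theorem splitInl_apply (c : C.V) : (splitInl C γ H).hom c = (c, 0) := rfl

theorem splitSnd_apply (x : C.V × augI G) : (splitSnd C γ H).hom x = x.2 := rfl

/-- The sequence `0 → C → C(γ) → I_G → 0` over `H`. -/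
def seqA : ShortComplex (Rep.{0} ℤ H) where
  X₁ := resSub C H
  X₂ := resSub (splitR C γ) H
  X₃ := resSub (augR G) H
  f := splitInl C γ H
  g := splitSnd C γ H
  zero := by
    apply Rep.hom_ext
    apply Representation.IntertwiningMap.ext
    apply LinearMap.ext
    intro c
    rfl

theorem seqA_shortExact : (seqA C γ H).ShortExact where
  exact := (forget₂ (Rep.{0} ℤ H) (ModuleCat ℤ)).reflects_exact_of_faithful _ <|
    (ShortComplex.moduleCat_exact_iff _).2 fun x hx => by
      refine ⟨(x : C.V × augI G).1, ?_⟩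
      have h2 : (x : C.V × augI G).2 = 0 := hx
      exact Prod.ext rfl h2.symm
  mono_f := (Rep.mono_iff_injective _).2 fun a b h => congrArg Prod.fst h
  epi_g := (Rep.epi_iff_surjective _).2 fun x => ⟨((0 : C.V), x), rfl⟩

variable (G)

/-- The inclusion `I_G → Fun(G, ℤ)`, over `H`. -/
def augIncl : resSub (augR G) H ⟶ resSub (funR G) H :=
  mkHomZ (A := resSub (augR G) H) (B := resSub (funR G) H)
    (augI G).subtype.toAddMonoidHom (fun g x => rfl)

/-- The augmentation `Fun(G, ℤ) → ℤ`, over `H`. -/
def augMap : resSub (funR G) H ⟶ trivZ H :=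
  mkHomZ (A := resSub (funR G) H) (B := trivZ H)
    (aug G).toAddMonoidHom (fun g x => aug_funRep G (g : G) x)

theorem augIncl_apply (x : augI G) : (augIncl G H).hom x = (x : G → ℤ) := rfl

theorem augMap_apply (x : G → ℤ) : (augMap G H).hom x = aug G x := rfl

/-- The sequence `0 → I_G → Fun(G, ℤ) → ℤ → 0` over `H`. -/
def seqB : ShortComplex (Rep.{0} ℤ H) where
  X₁ := resSub (augR G) H
  X₂ := resSub (funR G) H
  X₃ := trivZ H
  f := augIncl G H
  g := augMap G H
  zero := by
    apply Rep.hom_ext
    apply Representation.IntertwiningMap.ext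
    apply LinearMap.ext
    intro x
    exact x.2

theorem aug_single (g : G) [DecidableEq G] : aug G (Pi.single g (1 : ℤ)) = 1 := by
  rw [aug_apply, Finset.sum_pi_single']
  simp

theorem seqB_shortExact : (seqB G H).ShortExact where
  exact := (forget₂ (Rep.{0} ℤ H) (ModuleCat ℤ)).reflects_exact_of_faithful _ <|
    (ShortComplex.moduleCat_exact_iff _).2 fun x hx => ⟨(⟨x, hx⟩ : augI G), rfl⟩
  mono_f := (Rep.mono_iff_injective _).2 fun a b h => Subtype.ext h
  epi_g := (Rep.epi_iff_surjective _).2 (by
    classical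
    intro (n : ℤ)
    refine ⟨(n • (Pi.single (1 : G) (1 : ℤ) : G → ℤ) : G → ℤ), ?_⟩
    show aug G (n • (Pi.single (1 : G) (1 : ℤ) : G → ℤ)) = n
    rw [map_smul, aug_single]
    exact mul_one _)

end Fermat.Agent.S55.CFT.H13
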