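/-
S55 / E4 / CFT package FUND (helper13): `H²(Gal(L/K), C_L) ≅ H²(Gal(N/K)/Gal(N/L), (C_N)^{Gal(N/L)})`
and transport of a class of full order.
-/
import Fermat.Agent.S55.CFT.H13_FundCls
import Fermat.Agent.S55.CFT.H13_TateSeq

set_option autoImplicit false
set_option linter.unusedSectionVars false
open NumberField TensorProduct CategoryTheory CategoryTheory.Limits

noncomputable section
namespace Fermat.Agent.S55.CFT.H13

open Fermat.Agent.S55.CFT

attribute [local instance 1100] Rep.hV2

section Abstract

/-- Transport of a class of full order along an isomorphism of pairs (group, module). -/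
theorem exists_class_transport_abstract {G H : Type} [Group G] [Group H] (e : G ≃* H)
    (A : Rep.{0} ℤ H) (B : Rep.{0} ℤ G) (Ψ : B ⟶ Rep.res e.toMonoidHom A)
    (hΨ : Function.Bijective Ψ.hom) (P : ℕ)
    (h : ∃ γ : groupCohomology A 2, ∀ k : ℕ, k • γ = 0 → P ∣ k) :
    ∃ γ : groupCohomology B 2, ∀ k : ℕ, k • γ = 0 → P ∣ k := by
  obtain ⟨γ, hγ⟩ := h
  obtain ⟨I, hI⟩ : ∃ I : groupCohomology B 2 ≅ groupCohomology A 2, I =
      groupCohomology.mapIso (A := A) (B := B) e
        (LinearEquiv.ofBijective Ψ.hom.toLinearMap hΨ)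
        (fun g => LinearMap.ext fun c => Rep.hom_comm_apply Ψ g c) 2 := ⟨_, rfl⟩
  refine ⟨I.inv.hom γ, ?_⟩
  intro k hk
  apply hγ k
  have h1 := congrArg I.hom.hom hk
  rw [map_nsmul, map_zero] at h1
  have h2 : I.hom.hom (I.inv.hom γ) = γ := by
    have := I.inv_hom_id
    exact congrArg (fun f => f.hom γ) this
  rw [h2] at h1
  exact h1

end Abstract

section Inv
variable (K L N : Type) [Field K] [Field L] [Field N] [NumberField K] [NumberField L]
  [NumberField N] [Algebra K L] [Algebra L N] [Algebra K N] [IsScalarTower K L N]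
  (T : Finset Nat.Primes) [IsGalois K L] [IsGalois K N]

/-- `(C_N)^{Gal(N/L)}` as a representation of `Gal(N/K)/Gal(N/L)`. -/
abbrev quotC : Rep.{0} ℤ ((N ≃ₐ[K] N) ⧸ kerRes K L N) :=
  (repC K N T).quotientToInvariants (kerRes K L N)

/-- `Gal(L/K) ≃ Gal(N/K)/Gal(N/L)`. -/
def galQuot : (L ≃ₐ[K] L) ≃* ((N ≃ₐ[K] N) ⧸ kerRes K L N) := (quotKerRes K L N).symm

theorem galQuot_restrict (σ : N ≃ₐ[K] N) :
    galQuot K L N (AlgEquiv.restrictNormalHom L σ) = QuotientGroup.mk σ := by
  unfold galQuot
  rw [MulEquiv.symm_apply_eq, quotKerRes_mk]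

theorem ρ_idClass_base_of_mem (j : IdeleT L T) (s : N ≃ₐ[K] N) (hs : s ∈ kerRes K L N) :
    (repC K N T).ρ s (H12.idClass K N T (baseIdele L N T j)) =
      H12.idClass K N T (baseIdele L N T j) := by
  rw [← H12.idClass_smul, smul_baseIdele_tower]
  have h1 : AlgEquiv.restrictNormalHom L s = 1 := hs
  rw [h1, one_smul]

/-- The additive map `J_L → (C_N)^{Gal(N/L)}`. -/
def baseClsAdd : Additive (IdeleT L T) →+ (quotC K L N T).V :=
  AddMonoidHom.codRestrict
    ((H12.cokerAdd (diagRep K N T)).comp
      (MonoidHom.toAdditive (baseIdele L N T) : Additive (IdeleT L T) →+ Additive (IdeleT N T)))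
    (Representation.invariants ((repC K N T).ρ.comp (kerRes K L N).subtype))
    (fun j => by
      rw [Representation.mem_invariants]
      intro s
      exact ρ_idClass_base_of_mem K L N T (Additive.toMul j) s.1 s.2)

theorem baseClsAdd_coe (j : Additive (IdeleT L T)) :
    ((baseClsAdd K L N T j : (quotC K L N T).V) : (repC K N T).V) =
      H12.idClass K N T (baseIdele L N T (Additive.toMul j)) := rfl

/-- The morphism `J_L → (C_N)^{Gal(N/L)}` of representations of `Gal(L/K)`. -/
def baseClsRep : repJ K L T ⟶ Rep.res (galQuot K L N).toMonoidHom (quotC K L N T) :=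
  mkHomZ (A := repJ K L T) (B := Rep.res (galQuot K L N).toMonoidHom (quotC K L N T))
    (baseClsAdd K L N T) (fun g j => by
      obtain ⟨σ, rfl⟩ := AlgEquiv.restrictNormalHom_surjective (F := K) (K₁ := L) N g
      apply Subtype.ext
      rw [Rep.coe_res_obj_ρ']
      change _ = (((quotC K L N T).ρ (galQuot K L N (AlgEquiv.restrictNormalHom L σ))
        (baseClsAdd K L N T j) : (quotC K L N T).V) : (repC K N T).V)
      rw [galQuot_restrict]
      change H12.idClass K N T (baseIdele L N T ((AlgEquiv.restrictNormalHom L σ) •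
        (Additive.toMul (j : Additive (IdeleT L T)) : IdeleT L T))) =
        (repC K N T).ρ σ (H12.idClass K N T (baseIdele L N T
          (Additive.toMul (j : Additive (IdeleT L T)) : IdeleT L T)))
      rw [← H12.idClass_smul, smul_baseIdele_tower])

theorem baseClsRep_apply (j : Additive (IdeleT L T)) :
    (baseClsRep K L N T).hom j = baseClsAdd K L N T j := rfl

theorem diag_baseClsRep : diagRep K L T ≫ baseClsRep K L N T = 0 := by
  refine Rep.hom_ext (DFunLike.ext _ _ fun e => ?_)
  apply Subtype.ext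
  change H12.idClass K N T (baseIdele L N T (diagIdele L T ((Additive.toMul e : TUnits L T) : Lˣ)))
    = 0
  rw [H12.baseIdele_diagIdele]
  exact H12.idClass_diag K N T (H12.iotaT L N T (Additive.toMul e))

/-- The map `C_L → (C_N)^{Gal(N/L)}`. -/
def clsMap : repC K L T ⟶ Rep.res (galQuot K L N).toMonoidHom (quotC K L N T) :=
  cokernel.desc (diagRep K L T) (baseClsRep K L N T) (diag_baseClsRep K L N T)

theorem clsMap_idClass (j : IdeleT L T) :
    (((clsMap K L N T).hom (H12.idClass K L T j) : (quotC K L N T).V) : (repC K N T).V) =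
      H12.idClass K N T (baseIdele L N T j) := by
  have h := cokernel.π_desc (diagRep K L T) (baseClsRep K L N T) (diag_baseClsRep K L N T)
  have h2 := congrArg (fun f => f.hom (Additive.ofMul j : Additive (IdeleT L T))) h
  have h3 : (clsMap K L N T).hom (H12.idClass K L T j) =
      (baseClsRep K L N T).hom (Additive.ofMul j : Additive (IdeleT L T)) := h2
  rw [h3]
  rfl

theorem clsMap_injective [IsGalois L N] (hT : T.Nonempty) :
    Function.Injective (clsMap K L N T).hom := by
  intro c c' h
  obtain ⟨j, rfl⟩ := H12.idClass_surjective K L T c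
  obtain ⟨j', rfl⟩ := H12.idClass_surjective K L T c'
  have h1 := congrArg (fun v : (quotC K L N T).V => (v : (repC K N T).V)) h
  have h2 : H12.idClass K N T (baseIdele L N T j) = H12.idClass K N T (baseIdele L N T j') := by
    rw [← clsMap_idClass, ← clsMap_idClass]
    exact h1
  have h3 : H12.idClass K N T (baseIdele L N T (j / j')) = 0 := by
    rw [map_div, H12.idClass_div, h2, sub_self]
  obtain ⟨e, he⟩ := idClass_base_eq_zero K L N T hT _ h3
  rw [H12.idClass_eq_iff]
  exact ⟨e, by rw [← he, mul_div_cancel]⟩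

theorem clsMap_surjective [IsGalois L N] (hunr : UnramifiedOutsideT L N T)
    (hcl : ClTrivial L T) (hT : T.Nonempty) :
    Function.Surjective (clsMap K L N T).hom := by
  intro b
  have hb : ∀ s ∈ kerRes K L N, (repC K N T).ρ s (b : (repC K N T).V) = (b : (repC K N T).V) := by
    intro s hs
    have := b.2
    rw [Representation.mem_invariants] at this
    exact this ⟨s, hs⟩
  obtain ⟨w, hw⟩ := exists_base_of_kerRes_invariant K L N T hunr hcl hT _ hb
  refine ⟨H12.idClass K L T w, ?_⟩
  apply Subtype.ext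
  rw [clsMap_idClass]
  exact hw

/-- Transport of a class of full order from `H²(Gal(N/K)/Gal(N/L), (C_N)^{Gal(N/L)})` to
`H²(Gal(L/K), C_L)`. -/
theorem exists_class_transport [IsGalois L N] (hunr : UnramifiedOutsideT L N T)
    (hcl : ClTrivial L T) (hT : T.Nonempty) (P : ℕ)
    (h : ∃ γ : groupCohomology (quotC K L N T) 2, ∀ k : ℕ, k • γ = 0 → P ∣ k) :
    ∃ γ : groupCohomology (repC K L T) 2, ∀ k : ℕ, k • γ = 0 → P ∣ k :=
  exists_class_transport_abstract (galQuot K L N) (quotC K L N T) (repC K L T)
    (clsMap K L N T) ⟨clsMap_injective K L N T hT, clsMap_surjective K L N T hunr hcl hT⟩ P h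

end Inv

end Fermat.Agent.S55.CFT.H13
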