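/-
S55 / E4 / CFT package FUND (helper13): the two norm conditions of `fund_abstract` for idele classes.
-/
import Fermat.Agent.S55.CFT.H13_FundCls

set_option autoImplicit false
set_option linter.unusedSectionVars false
open NumberField TensorProduct CategoryTheory CategoryTheory.Limits

noncomputable section
namespace Fermat.Agent.S55.CFT.H13

open Fermat.Agent.S55.CFT

attribute [local instance 1100] Rep.hV2

section Norm
variable (K F N : Type) [Field K] [Field F] [Field N] [NumberField K] [NumberField F]
  [NumberField N] [Algebra K F] [Algebra F N] [Algebra K N] [IsScalarTower K F N]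
  (T : Finset Nat.Primes)

/-- **h2**: if the base change of `x` to `F` is in the norm group of `N/F`, then the class of
`x` in `C_N` is a norm from `C_N` for `Gal(N/F)`. -/
theorem class_eq_norm_of_mem_normGroup [Normal K F] [IsGalois F N] (hT : T.Nonempty)
    [Fintype (kerRes K F N)] (x : IdeleT K T)
    (hx : baseIdele K F T x ∈ normGroup F N T) :
    ∃ b : (repC K N T).V, H12.idClass K N T (baseIdele K N T x) =
      ∑ s : kerRes K F N, (repC K N T).ρ (s : N ≃ₐ[K] N) b := by
  classical
  obtain ⟨j, hj⟩ := (H12.mem_normGroup_iff F N T hT _).1 hx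
  rw [H56.base_base K F N T, ← idClass_eq_iff_tower K F N T] at hj
  refine ⟨H12.idClass K N T j, ?_⟩
  rw [hj, idClass_prod]
  refine Fintype.sum_equiv (kerResEquiv K F N) _ _ (fun σ => ?_)
  rw [kerResEquiv_coe, ← H12.idClass_smul, smul_restrictScalars]

/-- **h1**: if `k • [x]` is a norm from `(C_N)^{Gal(N/F)}` for `Gal(F/K)`, then a symbol which
is trivial on `T`-units of `K` and on norms from `F` kills `x ^ k`. -/
theorem symbol_pow_eq_one_of_norm [IsGalois K F] [IsGalois K N] [IsGalois F N]
    (hunr : UnramifiedOutsideT F N T) (hcl : ClTrivial F T) (hT : T.Nonempty)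
    {U : Type*} [Group U] (θ : IdeleT K T →* U)
    (hθu : ∀ e ∈ TUnits K T, θ (diagIdele K T e) = 1)
    (hθn : ∀ w : IdeleT F T, θ (normLK K F T w) = 1)
    [Fintype ((N ≃ₐ[K] N) ⧸ kerRes K F N)] (x : IdeleT K T) (k : ℕ)
    (b : ((repC K N T).quotientToInvariants (kerRes K F N)).V)
    (hb : k • H12.idClass K N T (baseIdele K N T x) =
      ((∑ y : (N ≃ₐ[K] N) ⧸ kerRes K F N,
        ((repC K N T).quotientToInvariants (kerRes K F N)).ρ y b :
        ((repC K N T).quotientToInvariants (kerRes K F N)).V) : (repC K N T).V)) :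
    θ x ^ k = 1 := by
  have hbinv : ∀ s ∈ kerRes K F N,
      (repC K N T).ρ s (b : (repC K N T).V) = (b : (repC K N T).V) := by
    intro s hs
    have := b.2
    rw [Representation.mem_invariants] at this
    exact this ⟨s, hs⟩
  obtain ⟨w, hw⟩ := exists_base_of_kerRes_invariant K F N T hunr hcl hT _ hbinv
  rw [coe_sum_quot_idClass K F N T w b hw.symm, ← idClass_pow, ← map_pow] at hb
  have h0 : H12.idClass K N T (baseIdele K N T (x ^ k / normLK K F T w)) = 0 := by
    rw [map_div, H12.idClass_div, hb, sub_self]
  obtain ⟨e, he⟩ := idClass_base_eq_zero K K N T hT _ h0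
  have h1 : θ (x ^ k / normLK K F T w) = 1 := by
    rw [he]; exact hθu _ e.2
  rw [map_div, map_pow, hθn, div_one] at h1
  exact h1

end Norm

end Fermat.Agent.S55.CFT.H13
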