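/-
S55 package E4, island GLB, wave 2, package TH-3 (the cyclotomic symbol is onto the Galois group
of `K(ζ_{p^M})/K`).  Owner: helper56.

* `cycloThetaHom`: the cyclotomic symbol is a homomorphism (`cycloTheta_diag`: its value on a
  principal idele is `thetaRat` of the norm);
* `autToPow_frob`: the cyclotomic character of a Frobenius at a prime of norm `ℓ` is `ℓ`;
* `exists_idele_theta`: for a prime `v ∤ T` of norm `ℓ` (prime), `ℓ⁻¹` is a value of the symbol
  (`Cl_T(K) = 1`: `v = (π) ·` (ideal supported on `T`), and `N π = ℓ / (T`-number`)`);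
* every element of `Gal(L/K)` generates the same subgroup as such a Frobenius (helper31's
  `stmt_FD_rel`), and the cyclotomic character is injective.
-/
import Fermat.Agent.S55.CFT.H56_ThetaUnits
import Fermat.Agent.Lib.FrobDensity.H31_Rel

set_option autoImplicit false
set_option linter.style.haveILetI false

open NumberField TensorProduct

noncomputable section
namespace Fermat.Agent.S55.CFT.H56

open Fermat.Agent.S55.CFT

/-! ### The cyclotomic character of a Frobenius -/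

lemma absNorm_coprime_of_mem (L : Type) [Field L] [NumberField L] (Q : Ideal (𝓞 L)) [Q.IsPrime]
    (ℓ n : ℕ) (hℓ : ℓ.Prime) (hcop : ℓ.Coprime n) (hℓQ : ((ℓ : ℕ) : 𝓞 L) ∈ Q) :
    (Ideal.absNorm Q).Coprime n := by
  haveI : Q.LiesOver (Ideal.span {(ℓ : ℤ)}) := by
    constructor
    haveI : Fact ℓ.Prime := ⟨hℓ⟩
    have hmax : (Ideal.span {(ℓ : ℤ)}).IsMaximal := Int.ideal_span_isMaximal_of_prime ℓ
    have hle : Ideal.span {(ℓ : ℤ)} ≤ Q.under ℤ := by
      rw [Ideal.span_singleton_le_iff_mem, Ideal.under_def, Ideal.mem_comap]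
      simpa using hℓQ
    exact hmax.eq_of_le (Ideal.IsPrime.ne_top inferInstance) hle
  rw [Ideal.absNorm_eq_pow_inertiaDeg' Q hℓ]
  exact Nat.Coprime.pow_left _ hcop

/-- The cyclotomic character of a Frobenius at a prime of norm `ℓ` is `ℓ`. -/
lemma autToPow_frob (K L : Type) [Field K] [Field L] [NumberField K] [NumberField L]
    [Algebra K L] [IsGalois K L] (n : ℕ) [NeZero n] {ζ : L} (hζ : IsPrimitiveRoot ζ n)
    (Q : Ideal (𝓞 L)) [Q.IsPrime] (φ : L ≃ₐ[K] L) (ℓ : ℕ) (hℓ : ℓ.Prime)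
    (hcop : ℓ.Coprime n) (hℓQ : ((ℓ : ℕ) : 𝓞 L) ∈ Q)
    (hN : Ideal.absNorm (Q.under (𝓞 K)) = ℓ) (hφ : IsArithFrobAt (𝓞 K) φ Q) :
    ((hζ.autToPow K φ : (ZMod n)ˣ) : ZMod n) = (ℓ : ZMod n) := by
  classical
  set a : ℕ := ((hζ.autToPow K φ : (ZMod n)ˣ) : ZMod n).val with ha
  have hspec : ζ ^ a = φ ζ := hζ.autToPow_spec K φ
  have hζ' : IsPrimitiveRoot hζ.toInteger n := hζ.toInteger_isPrimitiveRoot
  -- the Frobenius congruence at `ζ`
  have hfrob : φ • hζ.toInteger - hζ.toInteger ^ ℓ ∈ Q := by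
    have h := hφ hζ.toInteger
    rw [← hN, Ideal.absNorm_apply, Submodule.cardQuot_apply]
    exact h
  have hsmul : φ • hζ.toInteger = hζ.toInteger ^ a := by
    apply RingOfIntegers.ext
    have h1 : ((hζ.toInteger : 𝓞 L) : L) = ζ := hζ.coe_toInteger
    change φ ((hζ.toInteger : 𝓞 L) : L) = ((hζ.toInteger ^ a : 𝓞 L) : L)
    rw [RingOfIntegers.coe_eq_algebraMap, RingOfIntegers.coe_eq_algebraMap, map_pow,
      ← RingOfIntegers.coe_eq_algebraMap, h1, hspec]
  rw [hsmul] at hfrob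
  have hQ1 : Ideal.absNorm Q ≠ 1 := by
    rw [Ne, Ideal.absNorm_eq_one_iff]
    exact Ideal.IsPrime.ne_top inferInstance
  have hQcop : (Ideal.absNorm Q).Coprime n := absNorm_coprime_of_mem L Q ℓ n hℓ hcop hℓQ
  have hinj := Ideal.rootsOfUnityMapQuot_injective (I := Q) n hQ1 hQcop
  -- the two roots of unity
  have hpow : hζ'.toRootsOfUnity ^ a = hζ'.toRootsOfUnity ^ ℓ := by
    apply hinj
    apply Units.ext
    rw [map_pow, map_pow]
    change (Ideal.Quotient.mk Q) (hζ.toInteger) ^ a = (Ideal.Quotient.mk Q) (hζ.toInteger) ^ ℓ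
    rw [← map_pow, ← map_pow, Ideal.Quotient.eq]
    exact hfrob
  have hpow' : hζ.toInteger ^ a = hζ.toInteger ^ ℓ := by
    have := congrArg (fun z : rootsOfUnity n (𝓞 L) => ((z : (𝓞 L)ˣ) : 𝓞 L)) hpow
    simpa using this
  obtain ⟨u, hu⟩ := hζ'.isUnit (NeZero.ne n)
  have hupow : u ^ a = u ^ ℓ := Units.ext (by simp [hu, hpow'])
  have hord : orderOf u = n := by
    rw [← orderOf_units, hu]
    exact hζ'.eq_orderOf.symm
  have hmod : a ≡ ℓ [MOD n] := by
    have := pow_eq_pow_iff_modEq.1 hupow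
    rwa [hord] at this
  have := (ZMod.natCast_eq_natCast_iff a ℓ n).2 hmod
  rw [← this, ha, ZMod.natCast_val, ZMod.cast_id', id]


/-! ### The symbol is a homomorphism -/

lemma cycloTheta_eq (K : Type) [Field K] [NumberField K] (p : Nat.Primes) (M : ℕ)
    (T : Finset Nat.Primes) (x : IdeleT K T) :
    cycloTheta K p M T x = ∏ q : T, thetaLoc p M q.1 (normToQ K T x q) := rfl

/-- The cyclotomic symbol as a homomorphism. -/
def cycloThetaHom (K : Type) [Field K] [NumberField K] (p : Nat.Primes) (M : ℕ)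
    (T : Finset Nat.Primes) : IdeleT K T →* (ZMod ((p : ℕ) ^ M))ˣ where
  toFun := cycloTheta K p M T
  map_one' := by
    rw [cycloTheta_eq]
    refine Finset.prod_eq_one (fun q _ => ?_)
    rw [map_one]
    exact (thetaLocHom p M q.1).map_one
  map_mul' x y := by
    rw [cycloTheta_eq, cycloTheta_eq, cycloTheta_eq, ← Finset.prod_mul_distrib]
    refine Finset.prod_congr rfl (fun q _ => ?_)
    rw [map_mul, Pi.mul_apply, thetaLoc_mul]

lemma cycloTheta_diag (K : Type) [Field K] [NumberField K] (p : Nat.Primes) (M : ℕ)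
    (T : Finset Nat.Primes) (e : Kˣ) :
    cycloTheta K p M T (diagIdele K T e) =
      thetaRat p M T (Units.map (Algebra.norm ℚ : K →* ℚ) e) := by
  rw [thetaRat_apply, cycloTheta_eq, ← Finset.prod_coe_sort T]
  refine Finset.prod_congr rfl (fun q _ => ?_)
  rw [normToQ_diag]

/-! ### The symbol of a prime outside `T` -/

lemma thetaRat_primeQ_notMem (p : Nat.Primes) (M : ℕ) (T : Finset Nat.Primes) (hp : p ∈ T)
    (l : Nat.Primes) (hl : l ∉ T) (h : l ≠ p) :
    thetaRat p M T (primeQ l) = (primeUnit p l M h)⁻¹ := by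
  classical
  rw [thetaRat_apply, Finset.prod_eq_single p]
  · rw [thetaLoc_primeQ_self, dif_neg h]
  · intro q hq hqp
    rw [thetaLoc_primeQ_ne p M q l hqp, if_neg]
    rintro rfl
    exact hl hq
  · intro h'
    exact absurd hp h'

lemma norm_pos_of_totallyComplex (K : Type) [Field K] [NumberField K] [IsTotallyComplex K]
    {x : K} (hx : x ≠ 0) : 0 < Algebra.norm ℚ x :=
  lt_of_le_of_ne (norm_nonneg_of_totallyComplex K x) (Ne.symm (Algebra.norm_ne_zero_iff.2 hx))

/-- For `K` totally complex, the norm of a nonzero integer `a` is `absNorm (a)`. -/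
lemma norm_eq_absNorm (K : Type) [Field K] [NumberField K] [IsTotallyComplex K]
    (a : 𝓞 K) (ha : a ≠ 0) :
    Algebra.norm ℚ (a : K) = ((Ideal.absNorm (Ideal.span {a}) : ℕ) : ℚ) := by
  have hpos : 0 < Algebra.norm ℚ (a : K) :=
    norm_pos_of_totallyComplex K (by simpa using ha)
  rw [Ideal.absNorm_span_singleton, ← Algebra.coe_norm_int] at *
  have hpos' : 0 < Algebra.norm ℤ a := by exact_mod_cast hpos
  rw [Nat.cast_natAbs, abs_of_pos hpos']

lemma absNorm_dvd_prodT_pow (K : Type) [Field K] [NumberField K] (T : Finset Nat.Primes)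
    (J : Ideal (𝓞 K)) (n : ℕ) (hJ : J ∣ Ideal.span {((prodT T : ℤ) : 𝓞 K)} ^ n) :
    Ideal.absNorm J ∣ prodT T ^ (Module.finrank ℚ K * n) := by
  have h := map_dvd Ideal.absNorm hJ
  rw [map_pow, Ideal.absNorm_span_singleton] at h
  have h2 : (Algebra.norm ℤ (((prodT T : ℤ) : 𝓞 K))).natAbs = prodT T ^ Module.finrank ℚ K := by
    have : (((prodT T : ℤ) : 𝓞 K)) = algebraMap ℤ (𝓞 K) (prodT T : ℤ) := by simp
    rw [this, Algebra.norm_algebraMap, Int.natAbs_pow, Int.natAbs_natCast,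
      RingOfIntegers.rank]
  rw [h2, ← pow_mul] at h
  exact h

/-- A prime `v ∤ T` of degree one and norm `ℓ`: the class of `ℓ⁻¹` is a value of the symbol. -/
lemma exists_idele_theta (p : Nat.Primes) (M : ℕ) (K : Type) [Field K] [NumberField K]
    [IsTotallyComplex K] (T : Finset Nat.Primes) (hp : p ∈ T) (hcl : ClTrivial K T)
    (v : Ideal (𝓞 K)) (hv0 : v ≠ ⊥) (l : Nat.Primes) (hl : l ∉ T) (h : l ≠ p)
    (hN : Ideal.absNorm v = (l : ℕ)) :
    ∃ x : IdeleT K T, cycloTheta K p M T x = (primeUnit p l M h)⁻¹ := by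
  obtain ⟨a, b, J, n, ha, hb, hJ, hab⟩ := hcl v hv0
  have h1 : Ideal.absNorm (Ideal.span {a}) * (l : ℕ) =
      Ideal.absNorm (Ideal.span {b}) * Ideal.absNorm J := by
    rw [← hN, ← map_mul, ← map_mul, hab]
  have h2 := absNorm_dvd_prodT_pow K T J n hJ
  have haK : (a : K) ≠ 0 := by simpa using ha
  have hbK : (b : K) ≠ 0 := by simpa using hb
  have hA0 : Ideal.absNorm (Ideal.span {a}) ≠ 0 := by
    rw [Ne, Ideal.absNorm_eq_zero_iff, Ideal.span_singleton_eq_bot]
    exact ha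
  have hJ0 : Ideal.absNorm J ≠ 0 := by
    intro h0
    rw [h0, zero_dvd_iff] at h2
    exact pow_ne_zero _ (prodT_ne_zero T) h2
  let π : Kˣ := Units.mk0 ((b : K) / (a : K)) (div_ne_zero hbK haK)
  have hπ : Algebra.norm ℚ (π : K) * ((Ideal.absNorm J : ℕ) : ℚ) = ((l : ℕ) : ℚ) := by
    have hmul : Algebra.norm ℚ (π : K) * Algebra.norm ℚ (a : K) = Algebra.norm ℚ (b : K) := by
      rw [← map_mul]
      congr 1
      change (b : K) / (a : K) * (a : K) = (b : K)
      field_simp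
    rw [norm_eq_absNorm K a ha, norm_eq_absNorm K b hb] at hmul
    have hA0' : ((Ideal.absNorm (Ideal.span {a}) : ℕ) : ℚ) ≠ 0 := by exact_mod_cast hA0
    have h1' : ((Ideal.absNorm (Ideal.span {a}) : ℕ) : ℚ) * ((l : ℕ) : ℚ) =
        ((Ideal.absNorm (Ideal.span {b}) : ℕ) : ℚ) * ((Ideal.absNorm J : ℕ) : ℚ) := by
      exact_mod_cast h1
    apply mul_left_cancel₀ hA0'
    rw [h1', ← hmul]
    ring
  refine ⟨diagIdele K T π, ?_⟩
  rw [cycloTheta_diag, ← thetaRat_primeQ_notMem p M T hp l hl h]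
  have hunit : Units.map (Algebra.norm ℚ : K →* ℚ) π * natQ (Ideal.absNorm J) hJ0 = primeQ l := by
    apply Units.ext
    exact hπ
  rw [← hunit, map_mul, thetaRat_natQ p M T hp _ hJ0 (fun l' hl' =>
    prime_mem_of_dvd_prodT_pow T _ l' (hl'.trans h2)), mul_one]

/-! ### TH-3 -/

/-- **TH-3**: the image of the cyclotomic symbol has at least `[K(ζ_{p^M}) : K]` elements. -/
theorem stmt_ThetaOnto : Stmt_ThetaOnto := by
  intro p M K L _ _ _ _ _ T _ hcyc hadm
  classical
  haveI := hadm.gal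
  haveI := hadm.cplx
  obtain ⟨q0, hq0T, hq0⟩ := hadm.pmem
  have hpT : p ∈ T := by
    have : q0 = p := Subtype.ext hq0
    rwa [← this]
  haveI : NeZero ((p : ℕ) ^ M) := ⟨pow_ne_zero _ p.2.ne_zero⟩
  haveI := hcyc
  obtain ⟨ζ, hζ⟩ := IsCyclotomicExtension.exists_isPrimitiveRoot K L
    (Set.mem_singleton ((p : ℕ) ^ M)) (NeZero.ne _)
  have hχinj : Function.Injective (hζ.autToPow K) := IsPrimitiveRoot.autToPow_injective K hζ
  have hcl : ClTrivial K T := hadm.cl K
  have key : ∀ g : L ≃ₐ[K] L, hζ.autToPow K g ∈ (cycloThetaHom K p M T).range := by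
    intro g
    obtain ⟨Q, φ, ℓ, hQ, hℓ, hℓT, hℓQ, -, -, hN, hφ, hgen⟩ :=
      Fermat.Agent.Lib.FrobDensity.stmt_FD_rel K L g (Finset.image (fun q : Nat.Primes => (q : ℕ)) T)
    haveI := hQ
    let l : Nat.Primes := ⟨ℓ, hℓ⟩
    have hlT : l ∉ T := fun h =>
      hℓT (Finset.mem_image_of_mem (fun q : Nat.Primes => (q : ℕ)) h)
    have hlp : l ≠ p := fun h => hlT (h ▸ hpT)
    have hcop : ℓ.Coprime ((p : ℕ) ^ M) :=
      Nat.Coprime.pow_right M ((Nat.coprime_primes hℓ p.2).2 (fun e => hlp (Subtype.ext e)))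
    have h1 : hζ.autToPow K φ = primeUnit p l M hlp := by
      apply Units.ext
      rw [autToPow_frob K L _ hζ Q φ ℓ hℓ hcop hℓQ hN hφ]
      rfl
    have hv0 : Q.under (𝓞 K) ≠ ⊥ := by
      intro h0
      rw [h0] at hN
      simp at hN
      exact hℓ.ne_zero hN.symm
    obtain ⟨x, hx⟩ := exists_idele_theta p M K T hpT hcl (Q.under (𝓞 K)) hv0 l hlT hlp hN
    have h2 : hζ.autToPow K φ ∈ (cycloThetaHom K p M T).range := by
      rw [h1, ← inv_mem_iff]
      exact ⟨x, hx⟩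
    have hg : g ∈ Subgroup.zpowers φ := hgen ▸ Subgroup.mem_zpowers g
    obtain ⟨k, rfl⟩ := Subgroup.mem_zpowers_iff.1 hg
    rw [map_zpow]
    exact Subgroup.zpow_mem _ h2 k
  rw [← IsGalois.card_aut_eq_finrank K L]
  refine Nat.card_le_card_of_injective
    (fun g => (⟨hζ.autToPow K g, key g⟩ : Set.range (cycloTheta K p M T))) ?_
  intro g g' hgg
  exact hχinj (congrArg Subtype.val hgg)

end Fermat.Agent.S55.CFT.H56
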