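/-
S55 / E4 / CFT package FUND (helper13): `Stmt_FundExists` from CF-ind, CYC and TH-2
(Tate: a class of order `[L : K]` in `H²(Gal(L/K), C_{L,T})`, by inflation from the cyclotomic
extension `K(ζ_{p^M})/K` inside `N = L(ζ_{p^M})` and restriction to `N/L`).
-/
import Fermat.Agent.S55.CFT.H13_FundNorm
import Fermat.Agent.S55.CFT.H13_FundInv
import Fermat.Agent.S55.CFT.H13_FundAlg
import Fermat.Agent.S55.CFT.H13_FundCyclo
import Fermat.Agent.S55.CFT.H56_ThetaOnto

set_option autoImplicit false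
set_option linter.unusedSectionVars false
set_option linter.style.haveILetI false
open NumberField TensorProduct CategoryTheory CategoryTheory.Limits

noncomputable section
namespace Fermat.Agent.S55.CFT.H13

open Fermat.Agent.S55.CFT

section Setup
variable (K L N : Type) [Field K] [Field L] [Field N] [NumberField K] [NumberField L]
  [NumberField N] [Algebra K L] [Algebra L N] [Algebra K N] [IsScalarTower K L N]

/-- `Gal(N/L) ∩ Gal(N/K(ζ)) = 1` when `N = L(ζ)`. -/
theorem kerRes_inf_eq_bot (n : ℕ) [NeZero n] [IsCyclotomicExtension {n} L N] [Normal K L]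
    {ζ : N} (hζ : IsPrimitiveRoot ζ n) (F : IntermediateField K N) [Normal K F] (hF : ζ ∈ F) :
    kerRes K L N ⊓ kerRes K F N = ⊥ := by
  rw [Subgroup.eq_bot_iff_forall]
  intro σ hσ
  obtain ⟨h1, h2⟩ := Subgroup.mem_inf.1 hσ
  have hσζ : σ ζ = ζ := (mem_kerRes_iff K F N σ).1 h2 ⟨ζ, hF⟩
  set σ' : N ≃ₐ[L] N := (kerResEquiv K L N).symm ⟨σ, h1⟩ with hσ'
  have hσ'x : ∀ x : N, σ' x = σ x := fun x => rfl
  have htop := IsCyclotomicExtension.adjoin_primitive_root_eq_top (A := L) (B := N) hζ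
  have heq : (σ' : N →ₐ[L] N) = AlgHom.id L N := by
    apply AlgHom.ext_of_adjoin_eq_top htop
    intro x hx
    rw [Set.mem_singleton_iff] at hx
    subst hx
    exact hσζ
  apply AlgEquiv.ext
  intro x
  have := congrArg (fun f : N →ₐ[L] N => f x) heq
  exact this

/-- `Gal(N/K)/Gal(N/K(ζ))` is cyclic. -/
theorem isCyclic_quot_kerRes (p M : ℕ) [NeZero (p ^ M)] (hp : p.Prime) (hodd : p ≠ 2)
    [IsGalois K N] {ζ : N} (hζ : IsPrimitiveRoot ζ (p ^ M)) :
    haveI : IsCyclotomicExtension {p ^ M} K ↥(IntermediateField.adjoin K {ζ}) :=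
      hζ.intermediateField_adjoin_isCyclotomicExtension K
    haveI : IsGalois K ↥(IntermediateField.adjoin K {ζ}) :=
      IsCyclotomicExtension.isGalois {p ^ M} K _
    IsCyclic ((N ≃ₐ[K] N) ⧸ kerRes K ↥(IntermediateField.adjoin K {ζ}) N) := by
  haveI : IsCyclotomicExtension {p ^ M} K ↥(IntermediateField.adjoin K {ζ}) :=
    hζ.intermediateField_adjoin_isCyclotomicExtension K
  haveI : IsGalois K ↥(IntermediateField.adjoin K {ζ}) :=
    IsCyclotomicExtension.isGalois {p ^ M} K _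
  haveI : IsCyclic (ZMod (p ^ M))ˣ := ZMod.isCyclic_units_of_prime_pow p hp hodd M
  have hmem : ζ ∈ IntermediateField.adjoin K {ζ} :=
    IntermediateField.mem_adjoin_simple_self K ζ
  have hζ' : IsPrimitiveRoot (⟨ζ, hmem⟩ : ↥(IntermediateField.adjoin K {ζ})) (p ^ M) := by
    have : IsPrimitiveRoot (algebraMap ↥(IntermediateField.adjoin K {ζ}) N ⟨ζ, hmem⟩) (p ^ M) := hζ
    exact this.of_map_of_injective (algebraMap ↥(IntermediateField.adjoin K {ζ}) N).injective
  haveI : IsCyclic (↥(IntermediateField.adjoin K {ζ}) ≃ₐ[K] ↥(IntermediateField.adjoin K {ζ})) :=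
    isCyclic_of_injective (hζ'.autToPow K) (hζ'.autToPow_injective K)
  exact (quotKerRes K ↥(IntermediateField.adjoin K {ζ}) N).isCyclic.2 inferInstance

/-- `[N : K]` is a power of `p`. -/
theorem finrank_tower_prime_pow (p m M : ℕ) [NeZero (p ^ M)] (hp : p.Prime)
    [IsCyclotomicExtension {p ^ M} L N] (hz : ∃ ζ : K, IsPrimitiveRoot ζ p)
    (hdeg : Module.finrank K L = p ^ m) :
    ∃ m' : ℕ, Module.finrank K N = p ^ m' := by
  haveI : Fact p.Prime := ⟨hp⟩
  haveI : IsGalois L N := IsCyclotomicExtension.isGalois {p ^ M} L N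
  have hzL : ∃ ζ : L, IsPrimitiveRoot ζ p := by
    obtain ⟨z, hz⟩ := hz
    exact ⟨algebraMap K L z, hz.map_of_injective (algebraMap K L).injective⟩
  have hpg := isPGroup_gal_cyclotomic L N p M hp hzL
  obtain ⟨k, hk⟩ := IsPGroup.iff_card.1 hpg
  rw [IsGalois.card_aut_eq_finrank] at hk
  refine ⟨m + k, ?_⟩
  rw [← Module.finrank_mul_finrank K L N, hdeg, hk, pow_add]

end Setup

attribute [local instance 1100] Rep.hV2

section Main
variable (K L N : Type) [Field K] [Field L] [Field N] [NumberField K] [NumberField L]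
  [NumberField N] [Algebra K L] [Algebra L N] [Algebra K N] [IsScalarTower K L N]

/-- **FUND**, for a model `N` of `L(ζ_{p^M})` and an idele `x` of `K` whose cyclotomic symbol has
order `p ^ m = [L : K]`. -/
theorem fund_of_tower (hCF : Stmt_CFind) (hCyc : Stmt_CycRec) (hTN : Stmt_ThetaNorm)
    (p : Nat.Primes) (m M : ℕ) [NeZero ((p : ℕ) ^ M)] [IsCyclotomicExtension {(p : ℕ) ^ M} L N]
    (T : Finset Nat.Primes)
    (hodd : (p : ℕ) ≠ 2) (hz : ∃ ζ : K, IsPrimitiveRoot ζ (p : ℕ))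
    (hdeg : Module.finrank K L = (p : ℕ) ^ m)
    (hadm : Admissible K L T p) (hadmN : Admissible K N T p)
    (x : IdeleT K T) (hx : orderOf (cycloTheta K p M T x) = (p : ℕ) ^ m) :
    ∃ γ : groupCohomology (repC K L T) 2, ∀ k : ℕ, k • γ = 0 → (p : ℕ) ^ m ∣ k := by
  classical
  have hp : (p : ℕ).Prime := p.2
  haveI : IsGalois K L := hadm.gal
  haveI : IsGalois K N := hadmN.gal
  haveI : IsGalois L N := IsGalois.tower_top_of_isGalois K L N
  obtain ⟨ζ, hζ⟩ : ∃ ζ : N, IsPrimitiveRoot ζ ((p : ℕ) ^ M) :=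
    ⟨_, IsCyclotomicExtension.zeta_spec ((p : ℕ) ^ M) L N⟩
  haveI hcycK : IsCyclotomicExtension {(p : ℕ) ^ M} K ↥(IntermediateField.adjoin K {ζ}) :=
    hζ.intermediateField_adjoin_isCyclotomicExtension K
  haveI : IsGalois K ↥(IntermediateField.adjoin K {ζ}) :=
    IsCyclotomicExtension.isGalois {(p : ℕ) ^ M} K _
  haveI : IsGalois ↥(IntermediateField.adjoin K {ζ}) N :=
    IsGalois.tower_top_of_isGalois K ↥(IntermediateField.adjoin K {ζ}) N
  have hmem : ζ ∈ IntermediateField.adjoin K {ζ} :=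
    IntermediateField.mem_adjoin_simple_self K ζ
  have hζ' : IsPrimitiveRoot (⟨ζ, hmem⟩ : ↥(IntermediateField.adjoin K {ζ})) ((p : ℕ) ^ M) := by
    have : IsPrimitiveRoot (algebraMap ↥(IntermediateField.adjoin K {ζ}) N ⟨ζ, hmem⟩)
        ((p : ℕ) ^ M) := hζ
    exact this.of_map_of_injective (algebraMap ↥(IntermediateField.adjoin K {ζ}) N).injective
  -- admissibility
  have hadmL : Admissible L N T p := H56.admissible_up K L N T p hadmN
  have hadmF : Admissible ↥(IntermediateField.adjoin K {ζ}) N T p :=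
    H56.admissible_up K ↥(IntermediateField.adjoin K {ζ}) N T p hadmN
  obtain ⟨q, hqT, hqp⟩ := hadm.pmem
  have hq : q = p := Subtype.ext hqp
  rw [hq] at hqT
  have hT : T.Nonempty := ⟨_, hqT⟩
  -- the symbol
  have hθu : ∀ e ∈ TUnits K T, H56.cycloThetaHom K p M T (diagIdele K T e) = 1 :=
    H56.stmt_ThetaUnits p M K T hqT hadm.cplx
  have hθn : ∀ w : IdeleT ↥(IntermediateField.adjoin K {ζ}) T,
      H56.cycloThetaHom K p M T (normLK K ↥(IntermediateField.adjoin K {ζ}) T w) = 1 := by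
    intro w
    exact (H56.cycloTheta_normLK K ↥(IntermediateField.adjoin K {ζ}) p M T w).trans
      (hTN p M ↥(IntermediateField.adjoin K {ζ}) T hodd ⟨_, hζ'⟩ w)
  -- the groups
  have hcyc : IsCyclic ((N ≃ₐ[K] N) ⧸ kerRes K ↥(IntermediateField.adjoin K {ζ}) N) :=
    isCyclic_quot_kerRes K N p M hp hodd hζ
  have hint : kerRes K L N ⊓ kerRes K ↥(IntermediateField.adjoin K {ζ}) N = ⊥ :=
    kerRes_inf_eq_bot K L N ((p : ℕ) ^ M) hζ _ hmem
  obtain ⟨m', hm'⟩ := finrank_tower_prime_pow K L N p m M hp hz hdeg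
  have hS := (hCF p m' K N T hp hm' hadmN (kerRes K L N)).1
  have hS' := (hCF p m' K N T hp hm' hadmN (kerRes K ↥(IntermediateField.adjoin K {ζ}) N)).1
  -- the class
  have ha : ∀ g : N ≃ₐ[K] N, (repC K N T).ρ g (H12.idClass K N T (baseIdele K N T x)) =
      H12.idClass K N T (baseIdele K N T x) := by
    intro g
    rw [← H12.idClass_smul, H12.smul_baseIdele]
  letI : Fintype ((N ≃ₐ[K] N) ⧸ kerRes K ↥(IntermediateField.adjoin K {ζ}) N) :=
    Fintype.ofFinite _
  letI : Fintype (kerRes K L N) := Fintype.ofFinite _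
  have h1 : ∀ k : ℕ, (∃ b : ((repC K N T).quotientToInvariants
        (kerRes K ↥(IntermediateField.adjoin K {ζ}) N)).V,
      k • H12.idClass K N T (baseIdele K N T x) =
        ((∑ y : (N ≃ₐ[K] N) ⧸ kerRes K ↥(IntermediateField.adjoin K {ζ}) N,
          ((repC K N T).quotientToInvariants
            (kerRes K ↥(IntermediateField.adjoin K {ζ}) N)).ρ y b :
          ((repC K N T).quotientToInvariants
            (kerRes K ↥(IntermediateField.adjoin K {ζ}) N)).V) : (repC K N T).V)) →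
      (p : ℕ) ^ m ∣ k := by
    rintro k ⟨b, hb⟩
    have h := symbol_pow_eq_one_of_norm K ↥(IntermediateField.adjoin K {ζ}) N T hadmF.unr
      (hadmF.cl _) hT (H56.cycloThetaHom K p M T) hθu hθn x k b hb
    rw [← hx]
    exact orderOf_dvd_of_pow_eq_one h
  have h2 : ∃ b : (repC K N T).V, H12.idClass K N T (baseIdele K N T x) =
      ∑ s : kerRes K L N, (repC K N T).ρ (s : N ≃ₐ[K] N) b := by
    apply class_eq_norm_of_mem_normGroup K L N T hT x
    refine (hCyc p M L N T hodd inferInstance hadmL _).2 ?_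
    rw [H56.cycloTheta_base K L p M T x, hdeg, ← hx]
    exact pow_orderOf_eq_one _
  have hfund := fund_abstract (repC K N T) (kerRes K L N)
    (kerRes K ↥(IntermediateField.adjoin K {ζ}) N) hcyc hint hS hS'
    (H12.idClass K N T (baseIdele K N T x)) ha ((p : ℕ) ^ m) h1 h2
  exact exists_class_transport K L N T hadmL.unr (hadmL.cl L) hT ((p : ℕ) ^ m) hfund

end Main

/-- **FUND** (`Stmt_FundExists`) from CF-ind, CYC and TH-2. -/
theorem stmt_FundExists_of (hCF : Stmt_CFind) (hCyc : Stmt_CycRec) (hTN : Stmt_ThetaNorm) :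
    Stmt_FundExists := by
  intro p m M _ K L _ _ _ _ _ T hyp
  have hp := hyp.prime
  have hd : Module.finrank K (CyclotomicField (p ^ M) K) ≤
      Nat.card (Set.range (H56.cycloThetaHom K ⟨p, hp⟩ M T)) :=
    H56.stmt_ThetaOnto ⟨p, hp⟩ M K (CyclotomicField (p ^ M) K) T hyp.odd inferInstance
      hyp.admCycK
  obtain ⟨x, hx⟩ := exists_orderOf_eq_prime_pow p M m hp hyp.odd
    (H56.cycloThetaHom K ⟨p, hp⟩ M T) _ hd hyp.big Module.finrank_pos.ne'
  exact fund_of_tower K L (CyclotomicField (p ^ M) L) hCF hCyc hTN ⟨p, hp⟩ m M T hyp.odd hyp.zeta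
    hyp.deg hyp.adm hyp.admCyc x hx

end Fermat.Agent.S55.CFT.H13
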