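/-
S55 package E4, island GLB, wave 2, package CYC (reciprocity for `K(ζ_{p^M})/K`): an idele of `K`
is in the norm group `E_{K,T} · N J_{L,T}` iff its cyclotomic symbol is trivial.  Owner: helper56.

`stmt_CycRec : Stmt_ThetaNorm → Stmt_SIindex → Stmt_CycRec` (TH-1, TH-3, NT are proved in
`H56_ThetaUnits`, `H56_ThetaOnto`, `H56_NormTrans`).

* `normGroup ≤ ker θ`: TH-1 on the units, TH-2 + NT on the norms;
* `[J : ker θ] = #range θ ≥ [L : K]` (TH-3) and `[J : normGroup] ≤ [L : K]` (SI''), so the two
  subgroups are equal.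
-/
import Fermat.Agent.S55.CFT.H56_ThetaOnto
import Fermat.Agent.S55.CFT.H56_IdeleBase

set_option autoImplicit false
set_option linter.style.haveILetI false

open NumberField TensorProduct

noncomputable section
namespace Fermat.Agent.S55.CFT.H56

open Fermat.Agent.S55.CFT

/-- The norm group is contained in the kernel of the cyclotomic symbol. -/
theorem normGroup_le_ker (h2 : Stmt_ThetaNorm) (p : Nat.Primes) (M : ℕ) (K L : Type) [Field K]
    [Field L] [NumberField K] [NumberField L] [Algebra K L] (T : Finset Nat.Primes)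
    (hp2 : (p : ℕ) ≠ 2) (hζ : ∃ ζ : L, IsPrimitiveRoot ζ ((p : ℕ) ^ M)) (hpT : p ∈ T)
    (hK : IsTotallyComplex K) :
    normGroup K L T ≤ (cycloThetaHom K p M T).ker := by
  rw [normGroup, sup_le_iff]
  constructor
  · rintro _ ⟨e, he, rfl⟩
    rw [MonoidHom.mem_ker]
    exact stmt_ThetaUnits p M K T hpT hK e he
  · rintro _ ⟨y, rfl⟩
    rw [MonoidHom.mem_ker]
    change cycloTheta K p M T (normLK K L T y) = 1
    rw [cycloTheta_normLK]
    exact h2 p M L T hp2 hζ y

/-- **CYC**: reciprocity for `K(ζ_{p^M})/K`. -/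
theorem stmt_CycRec (h2 : Stmt_ThetaNorm) (hSI : Stmt_SIindex) : Stmt_CycRec := by
  intro p M K L _ _ _ _ _ T hp2 hcyc hadm x
  classical
  haveI := hadm.gal
  obtain ⟨q0, hq0T, hq0⟩ := hadm.pmem
  have hpT : p ∈ T := by
    have : q0 = p := Subtype.ext hq0
    rwa [← this]
  haveI : NeZero ((p : ℕ) ^ M) := ⟨pow_ne_zero _ p.2.ne_zero⟩
  haveI := hcyc
  have hζ : ∃ ζ : L, IsPrimitiveRoot ζ ((p : ℕ) ^ M) :=
    IsCyclotomicExtension.exists_isPrimitiveRoot K L
      (Set.mem_singleton ((p : ℕ) ^ M)) (NeZero.ne _)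
  have hle := normGroup_le_ker h2 p M K L T hp2 hζ hpT hadm.cplx
  obtain ⟨hne, hub⟩ := hSI p K L T hadm
  have hlb := stmt_ThetaOnto p M K L T hp2 hcyc hadm
  have hker : (cycloThetaHom K p M T).ker.index = Nat.card (Set.range (cycloTheta K p M T)) :=
    Subgroup.index_ker (cycloThetaHom K p M T)
  have hmul := Subgroup.relIndex_mul_index hle
  have hkne : (cycloThetaHom K p M T).ker.index ≠ 0 := by
    intro h0
    rw [h0, mul_zero] at hmul
    exact hne hmul.symm
  have hrel : (normGroup K L T).relIndex (cycloThetaHom K p M T).ker = 1 := by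
    have h1 : (cycloThetaHom K p M T).ker.index ≤ (normGroup K L T).index :=
      Nat.le_of_dvd (Nat.pos_of_ne_zero hne) (Subgroup.index_dvd_of_le hle)
    have h3 : (normGroup K L T).index = (cycloThetaHom K p M T).ker.index := by
      apply le_antisymm _ h1
      rw [hker]
      exact hub.trans hlb
    rw [h3] at hmul
    exact Nat.eq_of_mul_eq_mul_right (Nat.pos_of_ne_zero hkne) (by rw [hmul, one_mul])
  have hge : (cycloThetaHom K p M T).ker ≤ normGroup K L T := Subgroup.relIndex_eq_one.1 hrel
  constructor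
  · intro hx
    exact hle hx
  · intro hx
    exact hge hx

/-- Under CYC, the norm group is the kernel of the cyclotomic symbol. -/
theorem normGroup_eq_ker (hcr : Stmt_CycRec) (p : Nat.Primes) (M : ℕ) (K L : Type) [Field K]
    [Field L] [NumberField K] [NumberField L] [Algebra K L] (T : Finset Nat.Primes)
    (hp2 : (p : ℕ) ≠ 2) (hcyc : IsCyclotomicExtension {(p : ℕ) ^ M} K L)
    (hadm : Admissible K L T p) : normGroup K L T = (cycloThetaHom K p M T).ker := by
  ext x
  rw [MonoidHom.mem_ker]
  exact hcr p M K L T hp2 hcyc hadm x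

/-- Under CYC and SI'', the norm index of `K(ζ_{p^M})/K` is `[L : K]`, and it is the number of
values of the cyclotomic symbol. -/
theorem normGroup_index_eq (hcr : Stmt_CycRec) (hSI : Stmt_SIindex) (p : Nat.Primes) (M : ℕ)
    (K L : Type) [Field K] [Field L] [NumberField K] [NumberField L] [Algebra K L]
    (T : Finset Nat.Primes) (hp2 : (p : ℕ) ≠ 2)
    (hcyc : IsCyclotomicExtension {(p : ℕ) ^ M} K L) (hadm : Admissible K L T p) :
    (normGroup K L T).index = Module.finrank K L ∧
      Nat.card (Set.range (cycloTheta K p M T)) = Module.finrank K L := by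
  have h1 := normGroup_eq_ker hcr p M K L T hp2 hcyc hadm
  have hker : (cycloThetaHom K p M T).ker.index = Nat.card (Set.range (cycloTheta K p M T)) :=
    Subgroup.index_ker (cycloThetaHom K p M T)
  obtain ⟨-, hub⟩ := hSI p K L T hadm
  have hlb := stmt_ThetaOnto p M K L T hp2 hcyc hadm
  rw [h1, hker] at hub
  exact ⟨by rw [h1, hker]; exact le_antisymm hub hlb, le_antisymm hub hlb⟩

end Fermat.Agent.S55.CFT.H56
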