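/-
S55 / E4 / CFT, package DESC (helper12), part 1: two abstract lemmas on norms.

* `algebraMap_norm_eq_prod_of_conj`: for a finite free `A`-algebra `B` with basis `β` indexed by
  `G` and ring endomorphisms `φ σ` (`σ : G`) of `B` over `A` such that the conjugate matrix
  `(φ σ (β τ))` is invertible: `algebraMap A B (N_{B/A} y) = ∏ σ, φ σ y`.
* `det_conj_ne_zero`: Dedekind; for a basis `b` of `L/K` indexed by `Gal(L/K)` the matrix
  `(σ (b τ))` has nonzero determinant.
-/
import Mathlib

set_option autoImplicit false

namespace Fermat.Agent.S55.CFT.H12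

open Module

/-- Norm as product of conjugates, for a finite free algebra with a family of endomorphisms whose
conjugate matrix on a basis is invertible. -/
theorem algebraMap_norm_eq_prod_of_conj {A B G : Type*} [CommRing A] [CommRing B] [Algebra A B]
    [Fintype G] [DecidableEq G] (β : Basis G A B) (φ : G → (B →+* B))
    (hφ : ∀ σ a, φ σ (algebraMap A B a) = algebraMap A B a)
    (hdet : IsUnit (Matrix.det (Matrix.of fun σ τ => φ σ (β τ)))) (y : B) :
    algebraMap A B (Algebra.norm A y) = ∏ σ, φ σ y := by
  set M : Matrix G G B := Matrix.of fun σ τ => φ σ (β τ) with hM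
  set Y : Matrix G G A := Algebra.leftMulMatrix β y with hY
  set D : Matrix G G B := Matrix.diagonal fun σ => φ σ y with hD
  have hmul : D * M = M * Y.map (algebraMap A B) := by
    ext σ j
    rw [hD, Matrix.diagonal_mul, Matrix.mul_apply]
    simp only [hM, Matrix.of_apply, Matrix.map_apply]
    rw [← map_mul]
    have h1 : y * β j = ∑ i, Y i j • β i := by
      rw [hY]
      simp_rw [Algebra.leftMulMatrix_eq_repr_mul]
      exact (β.sum_repr (y * β j)).symm
    rw [h1, map_sum]
    refine Finset.sum_congr rfl (fun i _ => ?_)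
    rw [Algebra.smul_def, map_mul, hφ, mul_comm]
  have hdetmul := congrArg Matrix.det hmul
  rw [Matrix.det_mul, Matrix.det_mul, mul_comm] at hdetmul
  have h2 : D.det = (Y.map (algebraMap A B)).det := hdet.mul_left_cancel hdetmul
  rw [Algebra.norm_eq_matrix_det β y, RingHom.map_det, ← hY]
  rw [show (algebraMap A B).mapMatrix Y = Y.map (algebraMap A B) from rfl, ← h2, hD,
    Matrix.det_diagonal]

/-- Dedekind: the conjugate matrix of a basis of a Galois extension is invertible. -/
theorem det_conj_ne_zero {K L : Type*} [Field K] [Field L] [Algebra K L] [FiniteDimensional K L]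
    [DecidableEq (L ≃ₐ[K] L)] [Fintype (L ≃ₐ[K] L)]
    (b : Basis (L ≃ₐ[K] L) K L) :
    Matrix.det (Matrix.of fun (σ τ : L ≃ₐ[K] L) => σ (b τ)) ≠ 0 := by
  intro h0
  obtain ⟨c, hc0, hc⟩ := Matrix.exists_vecMul_eq_zero_iff.mpr h0
  have hind : LinearIndependent L (fun (f : L ≃ₐ[K] L) => (f : L → L)) :=
    LinearIndependent.comp (ι' := L ≃ₐ[K] L)
      (linearIndependent_monoidHom L L) (fun f => f)
      (fun x y h => by ext; exact DFunLike.ext_iff.1 h _)
  have hsum : ∑ σ : L ≃ₐ[K] L, c σ • ((σ : L → L)) = 0 := by
    funext x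
    simp only [Finset.sum_apply, Pi.smul_apply, smul_eq_mul, Pi.zero_apply]
    rw [← b.sum_repr x]
    simp only [map_sum, map_smul, Finset.mul_sum]
    rw [Finset.sum_comm]
    refine Finset.sum_eq_zero (fun τ _ => ?_)
    have hτ := congrFun hc τ
    simp only [Matrix.vecMul, dotProduct, Matrix.of_apply, Pi.zero_apply] at hτ
    simp_rw [Algebra.smul_def, ← mul_assoc, mul_comm (c _) (algebraMap K L _), mul_assoc,
      ← Finset.mul_sum, hτ, mul_zero]
  have := Fintype.linearIndependent_iff.mp hind c hsum
  exact hc0 (funext this)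

end Fermat.Agent.S55.CFT.H12
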