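/-
S55 / E4 / CFT, package DESC (helper12), part 2: `Stmt_Descent`.

For `L/K` Galois and any finite set `T` of rational primes:
(a) `J_{K,T} → J_{L,T}` is injective (`ℚ_q` is flat over `ℚ`);
(b) its image is the group of `Gal(L/K)`-invariants (trace argument: for invariant `y`,
    `y = ι ([L:K]⁻¹ • Tr y)`, where `Tr = ℚ_q ⊗ Tr_{L/K}` and `ι ∘ Tr = ∑ σ`);
(c) `ι (N y) = ∏ σ, σ y`, where `N` is the norm of the `ℚ_q ⊗ K`-algebra `ℚ_q ⊗ L`
    (free with basis `1 ⊗ b τ`; matrix argument `algebraMap_norm_eq_prod_of_conj` with the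
    conjugate matrix `(1 ⊗ σ (b τ))`, invertible by Dedekind).

Reusable: `semiLocalMap_tmul`, `semiLocalMap_injective`, `semiLocalTrace`, `semiLocalMap_trace`,
`exists_of_invariant`, `semiLocalAlgebra`, `semiLocalBasis`, `semiLocalBasis_apply`,
`semiLocalEquiv_semiLocalMap`, `semiLocalMap_norm`, `exists_unit_of_invariant`.
-/
import Fermat.Agent.S55.CFT.Defs_CF
import Fermat.Agent.S55.CFT.H12_DescentNorm

set_option autoImplicit false
set_option linter.unusedSectionVars false

namespace Fermat.Agent.S55.CFT.H12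

open NumberField Module TensorProduct

section semilocal1

variable (K L : Type) [Field K] [Field L] [NumberField K] [NumberField L] [Algebra K L]
  (q : Nat.Primes)

theorem semiLocalMap_tmul (c : Qp q) (k : K) :
    semiLocalMap K L q (c ⊗ₜ[ℚ] k) = c ⊗ₜ[ℚ] (algebraMap K L k) := by
  simp [semiLocalMap]

theorem semiLocalMap_eq_lTensor (x : SemiLocal K q) :
    semiLocalMap K L q x =
      LinearMap.lTensor (Qp q) ((Algebra.linearMap K L).restrictScalars ℚ) x := by
  induction x using TensorProduct.induction_on with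
  | zero => simp
  | tmul c k => simp [semiLocalMap_tmul]
  | add a b ha hb => simp only [map_add, ha, hb]

theorem semiLocalMap_injective : Function.Injective (semiLocalMap K L q) := by
  have h : Function.Injective
      (LinearMap.lTensor (Qp q) ((Algebra.linearMap K L).restrictScalars ℚ)) :=
    Module.Flat.lTensor_preserves_injective_linearMap _ (algebraMap K L).injective
  intro x y hxy
  apply h
  rw [← semiLocalMap_eq_lTensor, ← semiLocalMap_eq_lTensor, hxy]

/-- The trace `ℚ_q ⊗ L → ℚ_q ⊗ K`. -/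
noncomputable def semiLocalTrace : SemiLocal L q →ₗ[ℚ] SemiLocal K q :=
  LinearMap.lTensor (Qp q) ((Algebra.trace K L).restrictScalars ℚ)

theorem semiLocalTrace_tmul (c : Qp q) (l : L) :
    semiLocalTrace K L q (c ⊗ₜ[ℚ] l) = c ⊗ₜ[ℚ] (Algebra.trace K L l) := by
  simp [semiLocalTrace]

theorem semiLocalMap_trace [IsGalois K L] (y : SemiLocal L q) :
    semiLocalMap K L q (semiLocalTrace K L q y) = ∑ σ : L ≃ₐ[K] L, σ • y := by
  induction y using TensorProduct.induction_on with
  | zero => simp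
  | tmul c l =>
    rw [semiLocalTrace_tmul, semiLocalMap_tmul, trace_eq_sum_automorphisms, TensorProduct.tmul_sum]
    refine Finset.sum_congr rfl (fun σ _ => ?_)
    rw [semiLocal_smul_tmul]
  | add a b ha hb =>
    simp only [map_add, ha, hb, smul_add, Finset.sum_add_distrib]

theorem exists_of_invariant [IsGalois K L] (y : SemiLocal L q)
    (hy : ∀ σ : L ≃ₐ[K] L, σ • y = y) : ∃ x : SemiLocal K q, semiLocalMap K L q x = y := by
  classical
  have hn : (Module.finrank K L : ℚ) ≠ 0 := by
    exact_mod_cast (Module.finrank_pos (R := K) (M := L)).ne'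
  refine ⟨(Module.finrank K L : ℚ)⁻¹ • semiLocalTrace K L q y, ?_⟩
  have h1 : semiLocalMap K L q ((Module.finrank K L : ℚ)⁻¹ • semiLocalTrace K L q y) =
      (Module.finrank K L : ℚ)⁻¹ • semiLocalMap K L q (semiLocalTrace K L q y) := by
    rw [semiLocalMap_eq_lTensor, semiLocalMap_eq_lTensor, map_smul]
  rw [h1, semiLocalMap_trace, Finset.sum_congr rfl (fun σ _ => hy σ), Finset.sum_const,
    Finset.card_univ, ← Nat.card_eq_fintype_card, IsGalois.card_aut_eq_finrank,
    ← Nat.cast_smul_eq_nsmul ℚ, smul_smul, inv_mul_cancel₀ hn, one_smul]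

end semilocal1

section semilocal2

variable (K L : Type) [Field K] [Field L] [NumberField K] [NumberField L] [Algebra K L]
  (q : Nat.Primes)

/-- The algebra structure of `ℚ_q ⊗ L` over `ℚ_q ⊗ K` (the one used in `normLK`). -/
@[reducible] noncomputable def semiLocalAlgebra : Algebra (SemiLocal K q) (SemiLocal L q) :=
  (semiLocalMap K L q).toRingHom.toAlgebra

attribute [local instance] semiLocalAlgebra

theorem semiLocal_algebraMap_apply (a : SemiLocal K q) :
    algebraMap (SemiLocal K q) (SemiLocal L q) a = semiLocalMap K L q a := rfl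

theorem semiLocal_smul_def (a : SemiLocal K q) (y : SemiLocal L q) :
    a • y = semiLocalMap K L q a * y := rfl

variable {K L} {ι : Type} [Fintype ι] [DecidableEq ι] (b : Basis ι K L)

/-- The coordinate maps of `ℚ_q ⊗ L` over `ℚ_q ⊗ K` attached to a basis of `L/K`. -/
noncomputable def semiLocalCoord (τ : ι) : SemiLocal L q →ₗ[ℚ] SemiLocal K q :=
  LinearMap.lTensor (Qp q) ((b.coord τ).restrictScalars ℚ)

theorem semiLocalCoord_tmul (τ : ι) (c : Qp q) (l : L) :
    semiLocalCoord q b τ (c ⊗ₜ[ℚ] l) = c ⊗ₜ[ℚ] (b.coord τ l) := by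
  simp [semiLocalCoord]

theorem semiLocalCoord_mul (τ : ι) (a : SemiLocal K q) (y : SemiLocal L q) :
    semiLocalCoord q b τ (semiLocalMap K L q a * y) = a * semiLocalCoord q b τ y := by
  induction a using TensorProduct.induction_on with
  | zero => simp
  | tmul c k =>
    induction y using TensorProduct.induction_on with
    | zero => simp
    | tmul c' l =>
      rw [semiLocalMap_tmul, Algebra.TensorProduct.tmul_mul_tmul, semiLocalCoord_tmul,
        semiLocalCoord_tmul, Algebra.TensorProduct.tmul_mul_tmul, ← Algebra.smul_def, map_smul,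
        smul_eq_mul]
    | add y₁ y₂ h₁ h₂ => rw [mul_add, map_add, h₁, h₂, map_add, mul_add]
  | add a₁ a₂ h₁ h₂ => rw [map_add, add_mul, map_add, h₁, h₂, add_mul]

theorem semiLocal_sum_coord (y : SemiLocal L q) :
    ∑ τ, semiLocalMap K L q (semiLocalCoord q b τ y) * ((1 : Qp q) ⊗ₜ[ℚ] b τ) = y := by
  induction y using TensorProduct.induction_on with
  | zero => simp
  | tmul c l =>
    simp_rw [semiLocalCoord_tmul, semiLocalMap_tmul, Algebra.TensorProduct.tmul_mul_tmul, mul_one,
      ← Algebra.smul_def, ← TensorProduct.tmul_sum]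
    congr 1
    exact b.sum_repr l
  | add y₁ y₂ h₁ h₂ =>
    simp_rw [map_add, add_mul, Finset.sum_add_distrib, h₁, h₂]

theorem semiLocalCoord_basis (τ τ' : ι) :
    semiLocalCoord q b τ ((1 : Qp q) ⊗ₜ[ℚ] b τ') = if τ = τ' then 1 else 0 := by
  rw [semiLocalCoord_tmul, Basis.coord_apply, Basis.repr_self, Finsupp.single_apply]
  by_cases h : τ = τ'
  · rw [if_pos h, if_pos h.symm]; rfl
  · rw [if_neg h, if_neg (Ne.symm h), TensorProduct.tmul_zero]

/-- `ℚ_q ⊗ L` is free over `ℚ_q ⊗ K` with basis `1 ⊗ b τ`. -/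
noncomputable def semiLocalEquivFun : SemiLocal L q ≃ₗ[SemiLocal K q] (ι → SemiLocal K q) where
  toFun y τ := semiLocalCoord q b τ y
  map_add' y₁ y₂ := by funext τ; simp
  map_smul' a y := by
    funext τ
    simp only [RingHom.id_apply, Pi.smul_apply, smul_eq_mul]
    rw [semiLocal_smul_def, semiLocalCoord_mul]
  invFun a := ∑ τ, semiLocalMap K L q (a τ) * ((1 : Qp q) ⊗ₜ[ℚ] b τ)
  left_inv y := semiLocal_sum_coord q b y
  right_inv a := by
    funext τ
    simp only
    rw [map_sum]
    simp_rw [semiLocalCoord_mul, semiLocalCoord_basis]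
    simp

/-- The basis `1 ⊗ b τ` of `ℚ_q ⊗ L` over `ℚ_q ⊗ K`. -/
noncomputable def semiLocalBasis : Basis ι (SemiLocal K q) (SemiLocal L q) :=
  Basis.ofEquivFun (semiLocalEquivFun q b)

theorem semiLocalBasis_apply (τ : ι) :
    semiLocalBasis q b τ = (1 : Qp q) ⊗ₜ[ℚ] b τ := by
  rw [semiLocalBasis, Basis.coe_ofEquivFun]
  change ∑ τ', semiLocalMap K L q ((Pi.single τ (1 : SemiLocal K q) : ι → SemiLocal K q) τ') *
    ((1 : Qp q) ⊗ₜ[ℚ] b τ') = _
  rw [Finset.sum_eq_single τ]
  · simp
  · intro τ' _ h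
    rw [Pi.single_eq_of_ne h, map_zero, zero_mul]
  · intro h
    exact absurd (Finset.mem_univ τ) h

variable (K L)

theorem semiLocalEquiv_semiLocalMap (σ : L ≃ₐ[K] L) (a : SemiLocal K q) :
    semiLocalEquiv K L q σ (semiLocalMap K L q a) = semiLocalMap K L q a := by
  induction a using TensorProduct.induction_on with
  | zero => simp
  | tmul c k => rw [semiLocalMap_tmul, semiLocalEquiv_tmul, AlgEquiv.commutes]
  | add a₁ a₂ h₁ h₂ => rw [map_add, map_add, h₁, h₂]

/-- A basis of `L/K` indexed by the Galois group. -/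
theorem exists_basis_gal [IsGalois K L] : Nonempty (Basis (L ≃ₐ[K] L) K L) := by
  classical
  have hcard : Fintype.card (Fin (finrank K L)) = Fintype.card (L ≃ₐ[K] L) := by
    rw [Fintype.card_fin, ← Nat.card_eq_fintype_card, IsGalois.card_aut_eq_finrank]
  exact ⟨(Module.finBasis K L).reindex (Fintype.equivOfCardEq hcard)⟩

/-- **DESC (c)**, semilocal form: the norm of `ℚ_q ⊗ L` over `ℚ_q ⊗ K` is the product of the
Galois conjugates. -/
theorem semiLocalMap_norm [IsGalois K L] (y : SemiLocal L q) :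
    semiLocalMap K L q (Algebra.norm (SemiLocal K q) y) =
      ∏ σ : L ≃ₐ[K] L, semiLocalEquiv K L q σ y := by
  classical
  obtain ⟨b⟩ := exists_basis_gal K L
  have hdet : IsUnit (Matrix.det (Matrix.of fun (σ τ : L ≃ₐ[K] L) =>
      ((semiLocalEquiv K L q σ : SemiLocal L q →+* SemiLocal L q)) (semiLocalBasis q b τ))) := by
    have h1 : (Matrix.of fun (σ τ : L ≃ₐ[K] L) =>
        ((semiLocalEquiv K L q σ : SemiLocal L q →+* SemiLocal L q)) (semiLocalBasis q b τ)) =
        (Algebra.TensorProduct.includeRight : L →ₐ[ℚ] SemiLocal L q).toRingHom.mapMatrix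
          (Matrix.of fun (σ τ : L ≃ₐ[K] L) => σ (b τ)) := by
      ext σ τ
      simp only [Matrix.of_apply, RingHom.mapMatrix_apply, Matrix.map_apply]
      rw [semiLocalBasis_apply]
      change semiLocalEquiv K L q σ ((1 : Qp q) ⊗ₜ[ℚ] b τ) = (1 : Qp q) ⊗ₜ[ℚ] σ (b τ)
      rw [semiLocalEquiv_tmul]
    rw [h1, ← RingHom.map_det]
    exact (IsUnit.mk0 _ (det_conj_ne_zero b)).map _
  exact algebraMap_norm_eq_prod_of_conj (semiLocalBasis q b)
    (fun σ => (semiLocalEquiv K L q σ : SemiLocal L q →+* SemiLocal L q))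
    (fun σ a => semiLocalEquiv_semiLocalMap K L q σ a) hdet y


/-- Invariant units of `ℚ_q ⊗ L` come from units of `ℚ_q ⊗ K`. -/
theorem exists_unit_of_invariant [IsGalois K L] (y : (SemiLocal L q)ˣ)
    (hy : ∀ σ : L ≃ₐ[K] L, σ • y = y) :
    ∃ x : (SemiLocal K q)ˣ,
      Units.map ((semiLocalMap K L q : SemiLocal K q →* SemiLocal L q)) x = y := by
  have h1 : ∀ σ : L ≃ₐ[K] L, σ • (y : SemiLocal L q) = (y : SemiLocal L q) := by
    intro σ
    rw [← semiLocalUnits_smul_val, hy σ]
  have h2 : ∀ σ : L ≃ₐ[K] L, σ • ((y⁻¹ : (SemiLocal L q)ˣ) : SemiLocal L q) =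
      ((y⁻¹ : (SemiLocal L q)ˣ) : SemiLocal L q) := by
    intro σ
    rw [← semiLocalUnits_smul_val, smul_inv', hy σ]
  obtain ⟨x, hx⟩ := exists_of_invariant K L q _ h1
  obtain ⟨x', hx'⟩ := exists_of_invariant K L q _ h2
  have hxx' : x * x' = 1 := by
    apply semiLocalMap_injective K L q
    rw [map_mul, hx, hx', map_one, Units.mul_inv]
  refine ⟨⟨x, x', hxx', by rw [mul_comm]; exact hxx'⟩, ?_⟩
  apply Units.ext
  exact hx

end semilocal2

/-- **DESC** (Galois descent for `T`-ideles). -/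
theorem stmt_Descent : Stmt_Descent := by
  intro K L _ _ _ _ _ T hgal
  refine ⟨?_, ?_, ?_⟩
  · intro x x' h
    funext q
    have hq := congrFun h q
    exact Units.map_injective (f := ((semiLocalMap K L q.1 : SemiLocal K q.1 →* SemiLocal L q.1)))
      (semiLocalMap_injective K L q.1) hq
  · intro y hy
    have hex : ∀ q : T, ∃ x : (SemiLocal K q.1)ˣ,
        Units.map ((semiLocalMap K L q.1 : SemiLocal K q.1 →* SemiLocal L q.1)) x = y q := by
      intro q
      exact exists_unit_of_invariant K L q.1 (y q) (fun σ => congrFun (hy σ) q)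
    choose x hx using hex
    exact ⟨x, funext hx⟩
  · intro y
    refine ⟨inferInstance, ?_⟩
    funext q
    apply Units.ext
    have h := semiLocalMap_norm K L q.1 ((y q : (SemiLocal L q.1)ˣ) : SemiLocal L q.1)
    have h3 : ((normIdele K L T y q : (SemiLocal L q.1)ˣ) : SemiLocal L q.1) =
        ∏ σ : L ≃ₐ[K] L, semiLocalEquiv K L q.1 σ ((y q : (SemiLocal L q.1)ˣ) : SemiLocal L q.1) := by
      change (((∏ σ : L ≃ₐ[K] L, σ • y) q : (SemiLocal L q.1)ˣ) : SemiLocal L q.1) = _
      rw [Finset.prod_apply, Units.coe_prod]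
      rfl
    rw [h3, ← h]
    rfl

end Fermat.Agent.S55.CFT.H12
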