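/-
S55 / E4 / CFT wave 3, leaf CYCL (helper19), part 2: the invariants of `Lˣ` and of
`(K_v ⊗_K L)ˣ` under `Gal(L/K)`.

* `exists_unit_of_invariant`: `(Lˣ)^G = Kˣ`;
* `isField_locAlg_self`: `LocAlg K K v = K_v` is a field;
* `exists_of_invariant_locAlg`: `(K_v ⊗_K L)^G` is the image of `K_v` (averaging; trace);
* `exists_unit_of_invariant_locAlg`: the same for units.
-/
import Fermat.Agent.S55.CFT.Defs_BR3

set_option autoImplicit false
set_option linter.unusedSectionVars false
set_option linter.unusedVariables false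

open NumberField TensorProduct CategoryTheory

noncomputable section

namespace Fermat.Agent.S55.CFT.H19

open Fermat.Agent.S55.CFT

variable (K L : Type) [Field K] [Field L] [NumberField K] [NumberField L] [Algebra K L]

/-- `(Lˣ)^G = Kˣ`. -/
theorem exists_unit_of_invariant [IsGalois K L] (x : Lˣ) (hx : ∀ σ : L ≃ₐ[K] L, σ • x = x) :
    ∃ a : Kˣ, Units.map (algebraMap K L : K →* L) a = x := by
  have h1 : (x : L) ∈ Set.range (algebraMap K L) :=
    (InfiniteGalois.mem_range_algebraMap_iff_fixed (x : L)).2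
      (fun σ => congrArg Units.val (hx σ))
  obtain ⟨a, ha⟩ := h1
  have ha0 : a ≠ 0 := by
    rintro rfl
    rw [map_zero] at ha
    exact x.ne_zero ha.symm
  refine ⟨Units.mk0 a ha0, ?_⟩
  apply Units.ext
  exact ha

theorem semiLocalMap_self (q : Nat.Primes) (x : SemiLocal K q) : semiLocalMap K K q x = x := by
  induction x using TensorProduct.induction_on with
  | zero => simp
  | tmul a b => simp [semiLocalMap]
  | add a b ha hb => simp [map_add, ha, hb]

theorem placeIdeal_self (v : Place K) : placeIdeal K K v = v.2.asIdeal := by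
  unfold placeIdeal
  have : ((semiLocalMap K K v.1 : SemiLocal K v.1 →ₐ[Qp v.1] SemiLocal K v.1) :
      SemiLocal K v.1 →+* SemiLocal K v.1) = RingHom.id _ :=
    RingHom.ext (fun x => semiLocalMap_self K v.1 x)
  show Ideal.map ((semiLocalMap K K v.1 : SemiLocal K v.1 →ₐ[Qp v.1] SemiLocal K v.1) :
      SemiLocal K v.1 →+* SemiLocal K v.1) v.2.asIdeal = _
  rw [this, Ideal.map_id]

/-- `LocAlg K K v = K_v` is a field. -/
theorem isField_locAlg_self (v : Place K) : IsField (LocAlg K K v) := by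
  have hmax : (placeIdeal K K v).IsMaximal := by
    rw [placeIdeal_self]
    exact v.2.isMaximal
  exact (Ideal.Quotient.maximal_ideal_iff_isField_quotient _).1 hmax

theorem locAlgTower_mk (v : Place K) (w : SemiLocal K v.1) :
    locAlgTower K K L v (Ideal.Quotient.mk _ w) = Ideal.Quotient.mk _ (semiLocalMap K L v.1 w) :=
  rfl

theorem locAlg_smul_mk (v : Place K) (σ : L ≃ₐ[K] L) (x : SemiLocal L v.1) :
    σ • (Ideal.Quotient.mk (placeIdeal K L v) x : LocAlg K L v) =
      Ideal.Quotient.mk _ (semiLocalEquiv K L v.1 σ x) := rfl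

/-- The image of `K_v` is invariant. -/
theorem smul_locAlgTower (v : Place K) (σ : L ≃ₐ[K] L) (z : LocAlg K K v) :
    σ • locAlgTower K K L v z = locAlgTower K K L v z := by
  obtain ⟨w, rfl⟩ := Ideal.Quotient.mk_surjective z
  rw [locAlgTower_mk, locAlg_smul_mk, semiLocalEquiv_semiLocalMap]

theorem smul_units_locAlgTower (v : Place K) (σ : L ≃ₐ[K] L) (β : (LocAlg K K v)ˣ) :
    σ • Units.map (locAlgTower K K L v : LocAlg K K v →* LocAlg K L v) β =
      Units.map (locAlgTower K K L v : LocAlg K K v →* LocAlg K L v) β := by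
  apply Units.ext
  exact smul_locAlgTower K L v σ (β : LocAlg K K v)

/-- The sum of the conjugates of an element of `ℚ_q ⊗ L` comes from `ℚ_q ⊗ K` (trace). -/
theorem exists_sum_semiLocalEquiv [IsGalois K L] [Fintype (L ≃ₐ[K] L)] (q : Nat.Primes)
    (x : SemiLocal L q) :
    ∃ w : SemiLocal K q, semiLocalMap K L q w = ∑ σ : L ≃ₐ[K] L, semiLocalEquiv K L q σ x := by
  have : FiniteDimensional K L := Module.Finite.of_restrictScalars_finite ℚ K L
  induction x using TensorProduct.induction_on with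
  | zero => exact ⟨0, by simp⟩
  | tmul a b =>
    refine ⟨a ⊗ₜ[ℚ] Algebra.trace K L b, ?_⟩
    have h2 : (∑ σ : L ≃ₐ[K] L, σ b) = algebraMap K L (Algebra.trace K L b) := by
      rw [trace_eq_sum_automorphisms]
      refine Finset.sum_congr ?_ (fun _ _ => rfl)
      ext
      simp
    simp only [semiLocalEquiv_tmul]
    rw [← TensorProduct.tmul_sum, h2]
    simp [semiLocalMap]
  | add a b ha hb =>
    obtain ⟨wa, hwa⟩ := ha
    obtain ⟨wb, hwb⟩ := hb
    refine ⟨wa + wb, ?_⟩
    simp only [map_add, hwa, hwb, Finset.sum_add_distrib]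

/-- `(K_v ⊗_K L)^G` is the image of `K_v`. -/
theorem exists_of_invariant_locAlg [IsGalois K L] (v : Place K) (y : LocAlg K L v)
    (hy : ∀ σ : L ≃ₐ[K] L, σ • y = y) : ∃ z : LocAlg K K v, locAlgTower K K L v z = y := by
  classical
  have : FiniteDimensional K L := Module.Finite.of_restrictScalars_finite ℚ K L
  let _ : Fintype (L ≃ₐ[K] L) := Fintype.ofFinite _
  obtain ⟨x, rfl⟩ := Ideal.Quotient.mk_surjective y
  obtain ⟨w, hw⟩ := exists_sum_semiLocalEquiv K L v.1 x
  set N : ℕ := Fintype.card (L ≃ₐ[K] L) with hN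
  have hN0 : (N : Qp v.1) ≠ 0 := by
    rw [Nat.cast_ne_zero]
    exact Fintype.card_ne_zero
  -- `N • mk x = mk (semiLocalMap w)`
  have h1 : (N : LocAlg K L v) * Ideal.Quotient.mk (placeIdeal K L v) x =
      Ideal.Quotient.mk (placeIdeal K L v) (semiLocalMap K L v.1 w) := by
    rw [hw, map_sum]
    have : ∀ σ : L ≃ₐ[K] L, Ideal.Quotient.mk (placeIdeal K L v) (semiLocalEquiv K L v.1 σ x) =
        Ideal.Quotient.mk (placeIdeal K L v) x := by
      intro σ
      rw [← locAlg_smul_mk]
      exact hy σ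
    rw [Finset.sum_congr rfl (fun σ _ => this σ), Finset.sum_const, Finset.card_univ,
      nsmul_eq_mul]
  refine ⟨Ideal.Quotient.mk _ (algebraMap (Qp v.1) (SemiLocal K v.1) ((N : Qp v.1)⁻¹) * w), ?_⟩
  rw [locAlgTower_mk, map_mul, AlgHom.commutes, map_mul, ← h1, ← mul_assoc]
  have h2 : Ideal.Quotient.mk (placeIdeal K L v)
      (algebraMap (Qp v.1) (SemiLocal L v.1) ((N : Qp v.1)⁻¹)) * (N : LocAlg K L v) = 1 := by
    have e1 : (N : LocAlg K L v) = Ideal.Quotient.mk (placeIdeal K L v)
        (algebraMap (Qp v.1) (SemiLocal L v.1) (N : Qp v.1)) := by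
      rw [map_natCast, map_natCast]
    rw [e1, ← map_mul, ← map_mul, inv_mul_cancel₀ hN0, map_one, map_one]
  rw [h2, one_mul]

/-- `((K_v ⊗_K L)ˣ)^G` is the image of `K_vˣ`. -/
theorem exists_unit_of_invariant_locAlg [IsGalois K L] (v : Place K) (u : (LocAlg K L v)ˣ)
    (hu : ∀ σ : L ≃ₐ[K] L, σ • u = u) :
    ∃ β : (LocAlg K K v)ˣ,
      Units.map (locAlgTower K K L v : LocAlg K K v →* LocAlg K L v) β = u := by
  rcases subsingleton_or_nontrivial (LocAlg K L v) with hs | hn
  · exact ⟨1, Subsingleton.elim _ _⟩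
  · obtain ⟨z, hz⟩ := exists_of_invariant_locAlg K L v (u : LocAlg K L v)
      (fun σ => congrArg Units.val (hu σ))
    have hz0 : z ≠ 0 := by
      rintro rfl
      rw [map_zero] at hz
      exact u.ne_zero hz.symm
    obtain ⟨z', hz'⟩ := (isField_locAlg_self K v).mul_inv_cancel hz0
    refine ⟨⟨z, z', hz', by rw [mul_comm]; exact hz'⟩, ?_⟩
    apply Units.ext
    exact hz

end Fermat.Agent.S55.CFT.H19
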