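/-
S55 package E4, island GLB, package SLD (semi-local decomposition), part 1: rings.
`ℚ_q ⊗ K` is a reduced Artinian ring; its maximal ideals `v` are generated by idempotents `1 - e_v`;
`ℚ_q ⊗ L → ∏_v (ℚ_q ⊗ L)/𝔪_v (ℚ_q ⊗ L)` is bijective; the `T`-ideles of `L` are the product of
their local components.
Owner: helper80.
-/
import Mathlib
import Fermat.Agent.S55.CFT.Defs_BR2

set_option autoImplicit false

open NumberField TensorProduct

noncomputable section

namespace Fermat.Agent.S55.CFT.H80

section Idem

variable (K : Type) [Field K] [NumberField K] (q : Nat.Primes)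

instance semiLocal_isReduced : IsReduced (SemiLocal K q) := by
  have : Algebra.FormallyUnramified ℚ K := Algebra.FormallyUnramified.of_isSeparable ℚ K
  have : Algebra.FormallyUnramified (Qp q) (SemiLocal K q) := inferInstance
  exact Algebra.FormallyUnramified.isReduced_of_field (Qp q) (SemiLocal K q)

instance semiLocal_isArtinian : IsArtinianRing (SemiLocal K q) :=
  IsArtinianRing.of_finite (Qp q) _

instance semiLocal_finite_maxSpec : Finite (MaximalSpectrum (SemiLocal K q)) := inferInstance

open Classical in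
/-- The idempotent of `ℚ_q ⊗ K` attached to a maximal ideal `v`: `1` at `v`, `0` at the other
maximal ideals. -/
def vIdem (v : MaximalSpectrum (SemiLocal K q)) : SemiLocal K q :=
  (IsArtinianRing.equivPi (SemiLocal K q)).symm (Pi.single v 1)

lemma equivPi_vIdem (v : MaximalSpectrum (SemiLocal K q)) :
    IsArtinianRing.equivPi (SemiLocal K q) (vIdem K q v) =
      (by classical exact Pi.single v 1) := by
  unfold vIdem
  exact (IsArtinianRing.equivPi (SemiLocal K q)).apply_symm_apply _

lemma mk_vIdem_self (v : MaximalSpectrum (SemiLocal K q)) :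
    Ideal.Quotient.mk v.asIdeal (vIdem K q v) = 1 := by
  classical
  have h := congrFun (equivPi_vIdem K q v) v
  rw [IsArtinianRing.equivPi_apply] at h
  simpa using h

lemma vIdem_mem_of_ne (v w : MaximalSpectrum (SemiLocal K q)) (h : w ≠ v) :
    vIdem K q v ∈ w.asIdeal := by
  classical
  have h1 := congrFun (equivPi_vIdem K q v) w
  rw [IsArtinianRing.equivPi_apply] at h1
  rw [← Ideal.Quotient.eq_zero_iff_mem]
  simpa [Pi.single_apply, h] using h1

lemma vIdem_complete [Fintype (MaximalSpectrum (SemiLocal K q))] :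
    CompleteOrthogonalIdempotents (vIdem K q) := by
  classical
  have h := CompleteOrthogonalIdempotents.single
    (fun I : MaximalSpectrum (SemiLocal K q) => SemiLocal K q ⧸ I.asIdeal)
  have h2 := h.map (IsArtinianRing.equivPi (SemiLocal K q)).symm.toRingEquiv.toRingHom
  convert h2 using 1
  funext v
  unfold vIdem
  simp only [Function.comp_apply]
  congr 1

lemma asIdeal_eq_span (v : MaximalSpectrum (SemiLocal K q)) :
    v.asIdeal = Ideal.span {1 - vIdem K q v} := by
  classical
  apply le_antisymm
  · intro x hx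
    have hx0 : x * vIdem K q v = 0 := by
      apply (IsArtinianRing.equivPi (SemiLocal K q)).injective
      rw [map_mul, equivPi_vIdem, map_zero]
      funext w
      by_cases hw : w = v
      · subst hw
        simp only [Pi.mul_apply, IsArtinianRing.equivPi_apply, Pi.single_eq_same, mul_one,
          Pi.zero_apply]
        exact Ideal.Quotient.eq_zero_iff_mem.mpr hx
      · simp [hw]
    rw [Ideal.mem_span_singleton']
    refine ⟨x, ?_⟩
    rw [mul_sub, mul_one, hx0, sub_zero]
  · rw [Ideal.span_singleton_le_iff_mem, ← Ideal.Quotient.eq_zero_iff_mem, map_sub, map_one,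
      mk_vIdem_self, sub_self]

end Idem

section CRT

variable (K L : Type) [Field K] [Field L] [NumberField K] [NumberField L] [Algebra K L]
  (q : Nat.Primes)

/-- The idempotent of `ℚ_q ⊗ L` attached to a maximal ideal `v` of `ℚ_q ⊗ K`. -/
def wIdem (v : MaximalSpectrum (SemiLocal K q)) : SemiLocal L q :=
  semiLocalMap K L q (vIdem K q v)

lemma wIdem_complete [Fintype (MaximalSpectrum (SemiLocal K q))] :
    CompleteOrthogonalIdempotents (wIdem K L q) :=
  (vIdem_complete K q).map (semiLocalMap K L q : SemiLocal K q →+* SemiLocal L q)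

lemma placeIdeal_eq_span (v : MaximalSpectrum (SemiLocal K q)) :
    CFT.placeIdeal K L ⟨q, v⟩ = Ideal.span {1 - wIdem K L q v} := by
  unfold CFT.placeIdeal
  rw [asIdeal_eq_span K q v, Ideal.map_span, Set.image_singleton]
  simp only [wIdem]
  congr 2
  simp

lemma smul_wIdem (σ : L ≃ₐ[K] L) (v : MaximalSpectrum (SemiLocal K q)) :
    semiLocalEquiv K L q σ (wIdem K L q v) = wIdem K L q v :=
  semiLocalEquiv_semiLocalMap K L q σ _

lemma bijective_pi_of_eq {R I : Type*} [CommRing R] [Fintype I] (e : I → R)
    (he : CompleteOrthogonalIdempotents e) (f : I → Ideal R)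
    (hf : f = fun i => Ideal.span {1 - e i}) :
    Function.Bijective (RingHom.pi fun i => Ideal.Quotient.mk (f i)) := by
  subst hf
  exact he.bijective_pi

/-- The ideal of `ℚ_q ⊗ L` generated by `v` (`= CFT.placeIdeal K L ⟨q, v⟩`). -/
def pIdeal (v : MaximalSpectrum (SemiLocal K q)) : Ideal (SemiLocal L q) :=
  CFT.placeIdeal K L ⟨q, v⟩

/-- The CRT map `ℚ_q ⊗ L → ∏_v (ℚ_q ⊗ L)/𝔪_v`. -/
def crtMap : SemiLocal L q →+* ∀ v : MaximalSpectrum (SemiLocal K q), LocAlg K L ⟨q, v⟩ :=
  RingHom.pi (γ := SemiLocal L q)
    (f := fun v : MaximalSpectrum (SemiLocal K q) => SemiLocal L q ⧸ pIdeal K L q v)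
    (fun v => Ideal.Quotient.mk (pIdeal K L q v))

lemma crtMap_apply (x : SemiLocal L q) (v : MaximalSpectrum (SemiLocal K q)) :
    crtMap K L q x v = Ideal.Quotient.mk (CFT.placeIdeal K L ⟨q, v⟩) x := rfl

/-- CRT: `ℚ_q ⊗ L → ∏_v (ℚ_q ⊗ L)/𝔪_v` is bijective. -/
theorem crt_bijective : Function.Bijective (crtMap K L q) := by
  have : Fintype (MaximalSpectrum (SemiLocal K q)) := Fintype.ofFinite _
  exact bijective_pi_of_eq (wIdem K L q) (wIdem_complete K L q) (pIdeal K L q)
    (funext fun v => placeIdeal_eq_span K L q v)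

end CRT

end Fermat.Agent.S55.CFT.H80
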