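/-
S55 package E4, island GLB, package SLD (semi-local decomposition), part 2:
the `T`-ideles of `L` are the product of their local components, `Gal(L/K)`-equivariantly;
sections `repJv ⟶ repJ` of the component maps; `Stmt_SLD`.
Owner: helper80.
-/
import Mathlib
import Fermat.Agent.S55.CFT.H80_SLDRing

set_option autoImplicit false

open NumberField TensorProduct CategoryTheory

noncomputable section

namespace Fermat.Agent.S55.CFT.H80

variable (K L : Type) [Field K] [Field L] [NumberField K] [NumberField L] [Algebra K L]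
  (T : Finset Nat.Primes)

/-- The places of `K` above `T`. -/
abbrev PlaceT : Type := (q : T) × MaximalSpectrum (SemiLocal K q.1)

instance placeT_finite : Finite (PlaceT K T) := inferInstance

/-- The local component group at `ω`. -/
abbrev JvT (ω : PlaceT K T) : Type := (LocAlg K L ⟨ω.1.1, ω.2⟩)ˣ

instance jvT_action (ω : PlaceT K T) : MulDistribMulAction (L ≃ₐ[K] L) (JvT K L T ω) :=
  locAlgUnitsAction K L ⟨ω.1.1, ω.2⟩

/-- All local components of a `T`-idele. -/
def compHom : IdeleT L T →* ∀ ω : PlaceT K T, JvT K L T ω :=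
  MonoidHom.pi (fun ω => projIdele K L T ω.1 ω.2)

lemma compHom_apply (x : IdeleT L T) (ω : PlaceT K T) :
    compHom K L T x ω = projIdele K L T ω.1 ω.2 x := rfl

lemma compHom_apply_val (x : IdeleT L T) (ω : PlaceT K T) :
    ((compHom K L T x ω : JvT K L T ω) : LocAlg K L ⟨ω.1.1, ω.2⟩) =
      crtMap K L ω.1.1 ((x ω.1 : (SemiLocal L ω.1.1)ˣ) : SemiLocal L ω.1.1) ω.2 := rfl

theorem compHom_injective : Function.Injective (compHom K L T) := by
  intro x y hxy
  funext q
  apply Units.ext
  apply (crt_bijective K L q.1).1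
  funext v
  have h := congrArg (fun u : JvT K L T ⟨q, v⟩ => (u : LocAlg K L ⟨q.1, v⟩))
    (congrFun hxy ⟨q, v⟩)
  exact h

theorem compHom_surjective : Function.Surjective (compHom K L T) := by
  intro u
  have hex : ∀ q : T, ∃ b b' : SemiLocal L q.1,
      (crtMap K L q.1 b = fun v => ((u ⟨q, v⟩ : JvT K L T ⟨q, v⟩) : LocAlg K L ⟨q.1, v⟩)) ∧
      (crtMap K L q.1 b' = fun v => (((u ⟨q, v⟩)⁻¹ : JvT K L T ⟨q, v⟩) : LocAlg K L ⟨q.1, v⟩)) := by
    intro q
    obtain ⟨b, hb⟩ := (crt_bijective K L q.1).2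
      (fun v => ((u ⟨q, v⟩ : JvT K L T ⟨q, v⟩) : LocAlg K L ⟨q.1, v⟩))
    obtain ⟨b', hb'⟩ := (crt_bijective K L q.1).2
      (fun v => (((u ⟨q, v⟩)⁻¹ : JvT K L T ⟨q, v⟩) : LocAlg K L ⟨q.1, v⟩))
    exact ⟨b, b', hb, hb'⟩
  choose b b' hb hb' using hex
  have hbb' : ∀ q, b q * b' q = 1 := by
    intro q
    apply (crt_bijective K L q.1).1
    rw [map_mul, hb, hb', map_one]
    funext v
    simp
  refine ⟨fun q => ⟨b q, b' q, hbb' q, by rw [mul_comm]; exact hbb' q⟩, ?_⟩
  funext ω
  apply Units.ext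
  rw [compHom_apply_val]
  exact congrFun (hb ω.1) ω.2

/-- The `T`-ideles are the product of their local components. -/
def compEquiv : IdeleT L T ≃* ∀ ω : PlaceT K T, JvT K L T ω :=
  MulEquiv.ofBijective (compHom K L T) ⟨compHom_injective K L T, compHom_surjective K L T⟩

lemma compEquiv_apply (x : IdeleT L T) : compEquiv K L T x = compHom K L T x := rfl

lemma compHom_smul (σ : L ≃ₐ[K] L) (x : IdeleT L T) (ω : PlaceT K T) :
    compHom K L T (σ • x) ω = σ • compHom K L T x ω :=
  projIdele_smul K L T ω.1 ω.2 σ x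

open Classical in
/-- The section of the component map at `ω`: the idele with component `u` at `ω` and `1` at the
other places. -/
def secHom (ω : PlaceT K T) : JvT K L T ω →* IdeleT L T :=
  (compEquiv K L T).symm.toMonoidHom.comp (MonoidHom.mulSingle (fun ω => JvT K L T ω) ω)

open Classical in
lemma compHom_secHom (ω : PlaceT K T) (u : JvT K L T ω) :
    compHom K L T (secHom K L T ω u) = Pi.mulSingle ω u := by
  unfold secHom
  exact (compEquiv K L T).apply_symm_apply _

lemma proj_secHom_self (ω : PlaceT K T) (u : JvT K L T ω) :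
    projIdele K L T ω.1 ω.2 (secHom K L T ω u) = u := by
  classical
  have h := congrFun (compHom_secHom K L T ω u) ω
  rw [Pi.mulSingle_eq_same] at h
  exact h

lemma proj_secHom_ne (ω ω' : PlaceT K T) (h : ω' ≠ ω) (u : JvT K L T ω) :
    projIdele K L T ω'.1 ω'.2 (secHom K L T ω u) = 1 := by
  classical
  have h1 := congrFun (compHom_secHom K L T ω u) ω'
  rw [Pi.mulSingle_eq_of_ne h] at h1
  exact h1

lemma secHom_smul (σ : L ≃ₐ[K] L) (ω : PlaceT K T) (u : JvT K L T ω) :
    secHom K L T ω (σ • u) = σ • secHom K L T ω u := by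
  classical
  apply compHom_injective K L T
  funext ω'
  rw [compHom_smul, compHom_secHom, compHom_secHom]
  by_cases h : ω' = ω
  · subst h
    rw [Pi.mulSingle_eq_same, Pi.mulSingle_eq_same]
  · rw [Pi.mulSingle_eq_of_ne h, Pi.mulSingle_eq_of_ne h, smul_one]

lemma prod_secHom [Fintype (PlaceT K T)] (x : IdeleT L T) :
    ∏ ω, secHom K L T ω (projIdele K L T ω.1 ω.2 x) = x := by
  classical
  apply compHom_injective K L T
  rw [map_prod]
  simp only [compHom_secHom]
  exact Finset.univ_prod_mulSingle (compHom K L T x)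

/-- The section of the component map at `ω` as a morphism of `Gal(L/K)`-modules. -/
def secRep (ω : PlaceT K T) : repJv K L ⟨ω.1.1, ω.2⟩ ⟶ repJ K L T :=
  Rep.ofHom (LinearMap.intertwiningMap_of_isIntertwiningMap _ _
    ((secHom K L T ω).toAdditive.toIntLinearMap)
    (fun σ x => congrArg Additive.ofMul
      (secHom_smul K L T σ ω (Additive.toMul x : JvT K L T ω))))

lemma secRep_apply (ω : PlaceT K T) (x : repJv K L ⟨ω.1.1, ω.2⟩) :
    (secRep K L T ω).hom x = Additive.ofMul (secHom K L T ω (Additive.toMul x)) := rfl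

lemma projRep_apply (ω : PlaceT K T) (x : repJ K L T) :
    (projRep K L T ω.1 ω.2).hom x = Additive.ofMul (projIdele K L T ω.1 ω.2 (Additive.toMul x)) := rfl

theorem secRep_projRep_self (ω : PlaceT K T) :
    secRep K L T ω ≫ projRep K L T ω.1 ω.2 = 𝟙 _ := by
  apply Rep.hom_ext
  ext x
  simp only [Rep.hom_comp, Rep.hom_id]
  change Additive.ofMul (projIdele K L T ω.1 ω.2 (secHom K L T ω (Additive.toMul x))) = x
  exact congrArg Additive.ofMul (proj_secHom_self K L T ω (Additive.toMul x))

theorem secRep_projRep_ne (ω ω' : PlaceT K T) (h : ω' ≠ ω) :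
    secRep K L T ω ≫ projRep K L T ω'.1 ω'.2 = 0 := by
  apply Rep.hom_ext
  ext x
  simp only [Rep.hom_comp, Rep.zero_hom]
  change Additive.ofMul (projIdele K L T ω'.1 ω'.2 (secHom K L T ω (Additive.toMul x))) = 0
  exact congrArg Additive.ofMul (proj_secHom_ne K L T ω ω' h (Additive.toMul x))

theorem sum_projRep_secRep [Fintype (PlaceT K T)] :
    ∑ ω : PlaceT K T, projRep K L T ω.1 ω.2 ≫ secRep K L T ω = 𝟙 (repJ K L T) := by
  apply Rep.hom_ext
  ext x
  simp only [Rep.sum_hom, Rep.hom_comp, Rep.hom_id]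
  rw [Representation.IntertwiningMap.toLinearMap_sum, LinearMap.sum_apply]
  have h := congrArg Additive.ofMul (prod_secHom K L T (Additive.toMul x))
  rw [ofMul_prod] at h
  exact h


theorem gc_map_add {G : Type} [Group G] (n : ℕ) {A B : Rep ℤ G} (φ ψ : A ⟶ B) :
    (groupCohomology.functor ℤ G n).map (φ + ψ) =
      (groupCohomology.functor ℤ G n).map φ + (groupCohomology.functor ℤ G n).map ψ := by
  change HomologicalComplex.homologyMap ((groupCohomology.cochainsFunctor ℤ G).map (φ + ψ)) n =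
    HomologicalComplex.homologyMap ((groupCohomology.cochainsFunctor ℤ G).map φ) n +
      HomologicalComplex.homologyMap ((groupCohomology.cochainsFunctor ℤ G).map ψ) n
  rw [Functor.map_add, HomologicalComplex.homologyMap_add]

instance gc_additive {G : Type} [Group G] (n : ℕ) :
    (groupCohomology.functor ℤ G n).Additive where
  map_add := gc_map_add n _ _

/-- The map induced on `Hⁿ` by the section at `ω`. -/
def secMap (ω : PlaceT K T) (n : ℕ) :
    groupCohomology (repJv K L ⟨ω.1.1, ω.2⟩) n →ₗ[ℤ] groupCohomology (repJ K L T) n :=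
  ((groupCohomology.functor ℤ (L ≃ₐ[K] L) n).map (secRep K L T ω)).hom

theorem projMap_secMap_self (ω : PlaceT K T) (n : ℕ)
    (b : groupCohomology (repJv K L ⟨ω.1.1, ω.2⟩) n) :
    projMap K L T ω.1 ω.2 n (secMap K L T ω n b) = b := by
  have h : (groupCohomology.functor ℤ (L ≃ₐ[K] L) n).map (secRep K L T ω) ≫
      (groupCohomology.functor ℤ (L ≃ₐ[K] L) n).map (projRep K L T ω.1 ω.2) = 𝟙 _ := by
    rw [← CategoryTheory.Functor.map_comp, secRep_projRep_self, CategoryTheory.Functor.map_id]
  have h2 := congrArg (fun f => f.hom b) h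
  simp only [ModuleCat.hom_comp, ModuleCat.hom_id] at h2
  exact h2

theorem projMap_secMap_ne (ω ω' : PlaceT K T) (hne : ω' ≠ ω) (n : ℕ)
    (b : groupCohomology (repJv K L ⟨ω.1.1, ω.2⟩) n) :
    projMap K L T ω'.1 ω'.2 n (secMap K L T ω n b) = 0 := by
  have h : (groupCohomology.functor ℤ (L ≃ₐ[K] L) n).map (secRep K L T ω) ≫
      (groupCohomology.functor ℤ (L ≃ₐ[K] L) n).map (projRep K L T ω'.1 ω'.2) = 0 := by
    rw [← CategoryTheory.Functor.map_comp, secRep_projRep_ne K L T ω ω' hne,
      CategoryTheory.Functor.map_zero]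
  have h2 := congrArg (fun f => f.hom b) h
  simp only [ModuleCat.hom_comp, ModuleCat.hom_zero] at h2
  exact h2

theorem sum_secMap_projMap [Fintype (PlaceT K T)] (n : ℕ)
    (x : groupCohomology (repJ K L T) n) :
    ∑ ω : PlaceT K T, secMap K L T ω n (projMap K L T ω.1 ω.2 n x) = x := by
  have h : ∑ ω : PlaceT K T,
      (groupCohomology.functor ℤ (L ≃ₐ[K] L) n).map (projRep K L T ω.1 ω.2) ≫
        (groupCohomology.functor ℤ (L ≃ₐ[K] L) n).map (secRep K L T ω) = 𝟙 _ := by
    simp_rw [← CategoryTheory.Functor.map_comp]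
    rw [← CategoryTheory.Functor.map_sum, sum_projRep_secRep, CategoryTheory.Functor.map_id]
  have h3 : ∑ ω : PlaceT K T, (secMap K L T ω n) ∘ₗ (projMap K L T ω.1 ω.2 n) =
      LinearMap.id := by
    have h2 := congrArg ModuleCat.Hom.hom h
    simp only [ModuleCat.hom_sum, ModuleCat.hom_comp, ModuleCat.hom_id] at h2
    exact h2
  have h4 := congrArg (fun f : groupCohomology (repJ K L T) n →ₗ[ℤ]
    groupCohomology (repJ K L T) n => f x) h3
  simp only [LinearMap.sum_apply, LinearMap.comp_apply, LinearMap.id_apply] at h4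
  exact h4

/-- **SLD** (semi-local decomposition). -/
theorem stmt_SLD : Stmt_SLD := by
  intro K L _ _ _ _ _ T n
  have : Fintype (PlaceT K T) := Fintype.ofFinite _
  refine ⟨fun x hx => ?_, fun q₀ v₀ b => ?_⟩
  · rw [← sum_secMap_projMap K L T n x]
    apply Finset.sum_eq_zero
    intro ω _
    rw [hx ω.1 ω.2, map_zero]
  · refine ⟨secMap K L T ⟨q₀, v₀⟩ n b, projMap_secMap_self K L T ⟨q₀, v₀⟩ n b, ?_⟩
    intro q v hne
    exact projMap_secMap_ne K L T ⟨q₀, v₀⟩ ⟨q, v⟩ hne n b

end Fermat.Agent.S55.CFT.H80
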