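/-
S55 package E4, island GLB, wave 3: local components of ideles, norms and local norms.
Owner: helper56.

* `placeIdeal_ne_top`, `locAlgTower_injective`: `K_v → K_v ⊗_K L` is injective;
* `projIdele_diag`, `projIdele_base`, `projIdele_normLK`: the components of a principal idele, of a
  base change, of a norm;
* `isLocNorm_projIdele_normLK`: the components of a norm are local norms;
* `secHom_mem_normGroup`: if `a ∈ O_{K,T}ˣ` is a local norm from `L` at all places `v ∣ T`,
  `v ≠ v₀`, the idele `(a at v₀, 1 elsewhere)` is in `E_K · N J_L`;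
* `exists_finset_forall_mem_TUnits`: every `a ∈ Kˣ` is a `T`-unit for all large `T`.
-/
import Fermat.Agent.S55.CFT.H80_SLD
import Fermat.Agent.S55.CFT.H19_CycLoc
import Fermat.Agent.S55.CFT.H12_Descent

set_option autoImplicit false
set_option linter.style.haveILetI false

open NumberField TensorProduct CategoryTheory

noncomputable section
namespace Fermat.Agent.S55.CFT.H56

open Fermat.Agent.S55.CFT

variable (K L : Type) [Field K] [Field L] [NumberField K] [NumberField L] [Algebra K L]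

/-! ### `K_v → K_v ⊗_K L` is injective -/

lemma placeIdeal_ne_top (v : Place K) : placeIdeal K L v ≠ ⊤ := by
  letI : Algebra (SemiLocal K v.1) (SemiLocal L v.1) := (semiLocalMap K L v.1).toRingHom.toAlgebra
  haveI : IsScalarTower (Qp v.1) (SemiLocal K v.1) (SemiLocal L v.1) :=
    IsScalarTower.of_algebraMap_eq (fun x => ((semiLocalMap K L v.1).commutes x).symm)
  haveI : Module.Finite (SemiLocal K v.1) (SemiLocal L v.1) :=
    Module.Finite.of_restrictScalars_finite (Qp v.1) _ _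
  haveI : Algebra.IsIntegral (SemiLocal K v.1) (SemiLocal L v.1) := Algebra.IsIntegral.of_finite _ _
  haveI := v.2.isMaximal
  have hker : RingHom.ker (algebraMap (SemiLocal K v.1) (SemiLocal L v.1)) ≤ v.2.asIdeal := by
    intro x hx
    rw [RingHom.mem_ker] at hx
    have h0 : x = 0 := by
      apply H12.semiLocalMap_injective K L v.1
      rw [map_zero]
      exact hx
    rw [h0]
    exact Ideal.zero_mem _
  obtain ⟨Q, hQ, hQc⟩ := Ideal.exists_ideal_over_maximal_of_isIntegral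
    (S := SemiLocal L v.1) v.2.asIdeal hker
  intro htop
  have hle : placeIdeal K L v ≤ Q := by
    rw [placeIdeal, Ideal.map_le_iff_le_comap]
    intro x hx
    rw [← hQc] at hx
    exact hx
  rw [htop, top_le_iff] at hle
  exact hQ.ne_top hle

instance locAlg_nontrivial (v : Place K) : Nontrivial (LocAlg K L v) :=
  Ideal.Quotient.nontrivial_iff.2 (placeIdeal_ne_top K L v)

lemma locAlgTower_injective (v : Place K) : Function.Injective (locAlgTower K K L v) := by
  letI : Field (LocAlg K K v) := (H19.isField_locAlg_self K v).toField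
  exact (locAlgTower K K L v).injective

/-! ### Components -/

lemma projIdele_diag (T : Finset Nat.Primes) (q : T) (v : MaximalSpectrum (SemiLocal K q.1))
    (x : Lˣ) : projIdele K L T q v (diagIdele L T x) = locHom K L ⟨q.1, v⟩ x := by
  apply Units.ext
  rfl

lemma projIdele_base (T : Finset Nat.Primes) (q : T) (v : MaximalSpectrum (SemiLocal K q.1))
    (x : IdeleT K T) :
    projIdele K L T q v (baseIdele K L T x) =
      Units.map (locAlgTower K K L ⟨q.1, v⟩ : LocAlg K K ⟨q.1, v⟩ →* LocAlg K L ⟨q.1, v⟩)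
        (projIdele K K T q v x) := by
  apply Units.ext
  rfl

lemma projIdele_prod_smul [Fintype (L ≃ₐ[K] L)] (T : Finset Nat.Primes) (q : T)
    (v : MaximalSpectrum (SemiLocal K q.1)) (y : IdeleT L T) :
    projIdele K L T q v (∏ σ : L ≃ₐ[K] L, σ • y) =
      ∏ σ : L ≃ₐ[K] L,
        Units.map (locAlgMap K L ⟨q.1, v⟩ σ : LocAlg K L ⟨q.1, v⟩ →* LocAlg K L ⟨q.1, v⟩)
          (projIdele K L T q v y) := by
  rw [map_prod]
  exact Finset.prod_congr rfl (fun σ _ => projIdele_smul K L T q v σ y)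

/-- The component of a norm: its image in `K_v ⊗_K L` is the product of the conjugates. -/
lemma projIdele_normLK [IsGalois K L] [hF : Fintype (L ≃ₐ[K] L)] (T : Finset Nat.Primes) (q : T)
    (v : MaximalSpectrum (SemiLocal K q.1)) (y : IdeleT L T) :
    Units.map (locAlgTower K K L ⟨q.1, v⟩ : LocAlg K K ⟨q.1, v⟩ →* LocAlg K L ⟨q.1, v⟩)
        (projIdele K K T q v (normLK K L T y)) =
      ∏ σ : L ≃ₐ[K] L,
        Units.map (locAlgMap K L ⟨q.1, v⟩ σ : LocAlg K L ⟨q.1, v⟩ →* LocAlg K L ⟨q.1, v⟩)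
          (projIdele K L T q v y) := by
  obtain ⟨inst, h⟩ := (H12.stmt_Descent K L T inferInstance).2.2 y
  have hinst : inst = hF := Subsingleton.elim _ _
  subst hinst
  rw [← projIdele_base, h, ← projIdele_prod_smul]
  rfl

/-! ### Local norms -/

lemma isLocNorm_iff [Fintype (L ≃ₐ[K] L)] (v : Place K) (β : (LocAlg K K v)ˣ) :
    IsLocNorm K L v β ↔ ∃ y : (LocAlg K L v)ˣ,
      ∏ σ : L ≃ₐ[K] L, Units.map (locAlgMap K L v σ : LocAlg K L v →* LocAlg K L v) y =
        Units.map (locAlgTower K K L v : LocAlg K K v →* LocAlg K L v) β := by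
  unfold IsLocNorm
  constructor
  · rintro ⟨y, hy⟩
    refine ⟨y, ?_⟩
    rw [← hy, finprod_eq_prod_of_fintype]
    rfl
  · rintro ⟨y, hy⟩
    refine ⟨y, ?_⟩
    rw [← hy, finprod_eq_prod_of_fintype]
    rfl

lemma isLocNorm_one (v : Place K) : IsLocNorm K L v 1 := by
  classical
  haveI : Finite (L ≃ₐ[K] L) := inferInstance
  letI : Fintype (L ≃ₐ[K] L) := Fintype.ofFinite _
  rw [isLocNorm_iff]
  exact ⟨1, by simp⟩

lemma isLocNorm_mul (v : Place K) {β γ : (LocAlg K K v)ˣ} (hβ : IsLocNorm K L v β)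
    (hγ : IsLocNorm K L v γ) : IsLocNorm K L v (β * γ) := by
  classical
  letI : Fintype (L ≃ₐ[K] L) := Fintype.ofFinite _
  rw [isLocNorm_iff] at hβ hγ ⊢
  obtain ⟨y, hy⟩ := hβ
  obtain ⟨z, hz⟩ := hγ
  refine ⟨y * z, ?_⟩
  rw [map_mul, ← hy, ← hz, ← Finset.prod_mul_distrib]
  exact Finset.prod_congr rfl (fun σ _ => map_mul _ y z)

lemma isLocNorm_inv (v : Place K) {β : (LocAlg K K v)ˣ} (hβ : IsLocNorm K L v β) :
    IsLocNorm K L v β⁻¹ := by
  classical
  letI : Fintype (L ≃ₐ[K] L) := Fintype.ofFinite _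
  rw [isLocNorm_iff] at hβ ⊢
  obtain ⟨y, hy⟩ := hβ
  refine ⟨y⁻¹, ?_⟩
  rw [map_inv, eq_inv_iff_mul_eq_one, ← hy, ← Finset.prod_mul_distrib]
  apply Finset.prod_eq_one
  intro σ _
  rw [← map_mul, inv_mul_cancel, map_one]

/-- The components of a norm are local norms. -/
lemma isLocNorm_projIdele_normLK [IsGalois K L] (T : Finset Nat.Primes) (q : T)
    (v : MaximalSpectrum (SemiLocal K q.1)) (y : IdeleT L T) :
    IsLocNorm K L ⟨q.1, v⟩ (projIdele K K T q v (normLK K L T y)) := by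
  classical
  letI : Fintype (L ≃ₐ[K] L) := Fintype.ofFinite _
  rw [isLocNorm_iff]
  exact ⟨projIdele K L T q v y, (projIdele_normLK K L T q v y).symm⟩

/-! ### The idele `(a at v₀, 1 elsewhere)` -/

/-- If the `T`-unit `a` is a local norm from `L` at all places `v ∣ T`, `v ≠ v₀`, then the idele
`(a at v₀, 1 elsewhere)` is in the norm group `E_K · N J_L`. -/
theorem secHom_mem_normGroup [IsGalois K L] (T : Finset Nat.Primes) (ω₀ : H80.PlaceT K T)
    (a : Kˣ) (ha : a ∈ TUnits K T)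
    (hloc : ∀ ω : H80.PlaceT K T, ω ≠ ω₀ →
      IsLocNorm K L ⟨ω.1.1, ω.2⟩ (locHom K K ⟨ω.1.1, ω.2⟩ a)) :
    H80.secHom K K T ω₀ (locHom K K ⟨ω₀.1.1, ω₀.2⟩ a) ∈ normGroup K L T := by
  classical
  letI : Fintype (L ≃ₐ[K] L) := Fintype.ofFinite _
  have hex : ∀ ω : H80.PlaceT K T, ∃ y : (LocAlg K L ⟨ω.1.1, ω.2⟩)ˣ,
      ∏ σ : L ≃ₐ[K] L, Units.map (locAlgMap K L ⟨ω.1.1, ω.2⟩ σ :
          LocAlg K L ⟨ω.1.1, ω.2⟩ →* LocAlg K L ⟨ω.1.1, ω.2⟩) y =
        if ω = ω₀ then 1 else
          Units.map (locAlgTower K K L ⟨ω.1.1, ω.2⟩ :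
            LocAlg K K ⟨ω.1.1, ω.2⟩ →* LocAlg K L ⟨ω.1.1, ω.2⟩) (locHom K K ⟨ω.1.1, ω.2⟩ a) := by
    intro ω
    by_cases h : ω = ω₀
    · refine ⟨1, ?_⟩
      rw [if_pos h]
      simp
    · rw [if_neg h]
      exact (isLocNorm_iff K L _ _).1 (hloc ω h)
  choose y hy using hex
  obtain ⟨β, hβ⟩ := H80.compHom_surjective K L T y
  have hβ' : ∀ ω : H80.PlaceT K T, projIdele K L T ω.1 ω.2 β = y ω := fun ω => congrFun hβ ω
  have key : H80.secHom K K T ω₀ (locHom K K ⟨ω₀.1.1, ω₀.2⟩ a) * normLK K L T β =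
      diagIdele K T a := by
    apply H80.compHom_injective K K T
    funext ω
    rw [map_mul, Pi.mul_apply, H80.compHom_secHom, H80.compHom_apply, H80.compHom_apply,
      projIdele_diag]
    apply Units.map_injective (f := (locAlgTower K K L ⟨ω.1.1, ω.2⟩ :
      LocAlg K K ⟨ω.1.1, ω.2⟩ →* LocAlg K L ⟨ω.1.1, ω.2⟩)) (locAlgTower_injective K L _)
    rw [map_mul, projIdele_normLK, hβ', hy]
    by_cases h : ω = ω₀
    · subst h
      rw [if_pos rfl, Pi.mulSingle_eq_same, mul_one]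
    · rw [if_neg h, Pi.mulSingle_eq_of_ne h, map_one, one_mul]
  have h2 : H80.secHom K K T ω₀ (locHom K K ⟨ω₀.1.1, ω₀.2⟩ a) =
      diagIdele K T a * (normLK K L T β)⁻¹ := eq_mul_inv_of_mul_eq key
  rw [h2, normGroup]
  exact Subgroup.mul_mem _ (Subgroup.mem_sup_left ⟨a, ha, rfl⟩)
    (Subgroup.mem_sup_right (inv_mem ⟨β, rfl⟩))

end Fermat.Agent.S55.CFT.H56
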