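/-
S55 package E4, island GLB, wave 3, wiring W-One (route of `Defs_BR3.lean`, no class formation):
BR-One from BR-Hasse, LOC-SPLIT, INF-RES, SHL-inf, CYC-CLASS, THL and DEG-GROW.  Owner: helper56.

`x ∈ H²(Gal(L/K), Lˣ)` with at most one nonzero local component, at `v₀`.  Multiply `x` until the
component is killed by `p`; `N = L(ζ_{p^M})`, `F = K(ζ_{p^M}) ⊆ N` with `p` dividing the local
degree of `F/K` at `v₀`; `res_{N/F} inf x` is locally trivial, hence zero, hence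
`inf x = inf x'`, `x' ∈ H²(Gal(F/K), Fˣ)`; `x' = cyc a`, `a ∈ Kˣ`; `a` is a local norm at all
`v ≠ v₀`; for a finite `T ∋ p, q₀` with `a ∈ O_{K,T}ˣ` the idele `(a at v₀, 1 elsewhere)` is in
`E_K · N J_F ⊆ ker θ` (TH-1, TH-2, NT), so `a` is a local norm at `v₀` (THL).
-/
import Fermat.Agent.S55.CFT.H56_LocComp
import Fermat.Agent.S55.CFT.H56_LocNat
import Fermat.Agent.S55.CFT.H56_CycRec
import Fermat.Agent.S55.CFT.H56_Hyp2
import Fermat.Agent.S55.CFT.H25_Theta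
import Fermat.Agent.S55.CFT.H13_Fund
import Fermat.Agent.S55.CFT.LOC.H72_FundResAbs

set_option autoImplicit false
set_option linter.style.haveILetI false
set_option linter.unusedSectionVars false

open NumberField TensorProduct CategoryTheory

noncomputable section
namespace Fermat.Agent.S55.CFT.H56

open Fermat.Agent.S55.CFT

/-! ### Every element of `Kˣ` is a `T`-unit for large `T` -/

lemma exists_nat_isIntegral (K : Type) [Field K] [NumberField K] (z : K) :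
    ∃ n : ℕ, n ≠ 0 ∧ IsIntegral ℤ ((n : K) * z) := by
  have halg : IsAlgebraic ℤ z := by
    have h1 : IsAlgebraic ℚ z := Algebra.IsAlgebraic.isAlgebraic z
    exact (IsFractionRing.isAlgebraic_iff ℤ ℚ K).2 h1
  obtain ⟨y, hy0, hy⟩ := halg.exists_integral_multiple
  refine ⟨y.natAbs, Int.natAbs_ne_zero.2 hy0, ?_⟩
  rcases Int.natAbs_eq y with h | h
  · have : ((y.natAbs : ℕ) : K) * z = y • z := by
      rw [zsmul_eq_mul]
      congr 1
      conv_rhs => rw [h]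
      simp
    rw [this]
    exact hy
  · have : ((y.natAbs : ℕ) : K) * z = -(y • z) := by
      rw [zsmul_eq_mul, ← neg_mul]
      congr 1
      conv_rhs => rw [h]
      simp
    rw [this]
    exact hy.neg

/-- Every `a ∈ Kˣ` is a `T`-unit for all `T` containing a suitable finite set. -/
theorem exists_finset_forall_mem_TUnits (K : Type) [Field K] [NumberField K] (a : Kˣ) :
    ∃ T₀ : Finset Nat.Primes, ∀ T : Finset Nat.Primes, T₀ ⊆ T → a ∈ TUnits K T := by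
  classical
  obtain ⟨n₁, hn₁, h₁⟩ := exists_nat_isIntegral K (a : K)
  obtain ⟨n₂, hn₂, h₂⟩ := exists_nat_isIntegral K ((a⁻¹ : Kˣ) : K)
  set n := n₁ * n₂ with hn
  have hn0 : n ≠ 0 := Nat.mul_ne_zero hn₁ hn₂
  refine ⟨primesOf n, ?_⟩
  intro T hT
  obtain ⟨e, c, hc⟩ := dvd_prodT_pow T n hn0 hT
  refine ⟨e, ?_, ?_⟩
  · have e1 : ((prodT T : K)) ^ e * (a : K) = ((c * n₂ : ℕ) : K) * ((n₁ : K) * (a : K)) := by
      have : ((prodT T : K)) ^ e = ((prodT T ^ e : ℕ) : K) := by push_cast; rfl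
      rw [this, hc, hn]
      push_cast
      ring
    rw [e1]
    have h0 : IsIntegral ℤ (((c * n₂ : ℕ) : K)) := by
      have := isIntegral_algebraMap (R := ℤ) (A := K) (x := ((c * n₂ : ℕ) : ℤ))
      simpa using this
    exact h0.mul h₁
  · have e1 : ((prodT T : K)) ^ e * ((a⁻¹ : Kˣ) : K) =
        ((c * n₁ : ℕ) : K) * ((n₂ : K) * ((a⁻¹ : Kˣ) : K)) := by
      have : ((prodT T : K)) ^ e = ((prodT T ^ e : ℕ) : K) := by push_cast; rfl
      rw [this, hc, hn]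
      push_cast
      ring
    rw [e1]
    have h0 : IsIntegral ℤ (((c * n₁ : ℕ) : K)) := by
      have := isIntegral_algebraMap (R := ℤ) (A := K) (x := ((c * n₁ : ℕ) : ℤ))
      simpa using this
    exact h0.mul h₂


/-! ### The core of W-One, for a model `F` of `K(ζ_{p^M})` inside a common Galois extension `N` -/

section core

variable (K L F N : Type) [Field K] [Field L] [Field F] [Field N] [NumberField K] [NumberField L]
  [NumberField F] [NumberField N] [Algebra K L] [Algebra K F] [Algebra K N] [Algebra L N]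
  [Algebra F N] [IsScalarTower K L N] [IsScalarTower K F N]

/-- The Galois group of a cyclotomic extension of `p`-power conductor, `p` odd, is cyclic. -/
lemma isCyclic_gal_cyclotomic (p M : ℕ) (hp : p.Prime) (hodd : p ≠ 2)
    [hcyc : IsCyclotomicExtension {p ^ M} K F] : IsCyclic (F ≃ₐ[K] F) := by
  haveI : NeZero (p ^ M) := ⟨pow_ne_zero _ hp.ne_zero⟩
  haveI : IsCyclic (ZMod (p ^ M))ˣ := ZMod.isCyclic_units_of_prime_pow p hp hodd M
  have hζ := IsCyclotomicExtension.zeta_spec (p ^ M) K F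
  exact isCyclic_of_injective (hζ.autToPow K) (hζ.autToPow_injective K)

lemma placeT_ext (T : Finset Nat.Primes) (ω ω' : H80.PlaceT K T)
    (h : (⟨ω.1.1, ω.2⟩ : Place K) = ⟨ω'.1.1, ω'.2⟩) : ω = ω' := by
  obtain ⟨⟨q, hq⟩, w⟩ := ω
  obtain ⟨⟨q', hq'⟩, w'⟩ := ω'
  obtain ⟨h1, h2⟩ := Sigma.mk.inj_iff.1 h
  change q = q' at h1
  subst h1
  have h3 : w = w' := eq_of_heq h2
  subst h3
  rfl

theorem brOne_core (hHasse : Stmt_BrHasse) (hLS : Stmt_LocSplit) (hIR : Stmt_InfResL)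
    (hInj : Stmt_InfJvInj) (hCyc : Stmt_CycClass) (hTHL : Stmt_THL)
    (p : Nat.Primes) (m m' m'' M : ℕ)
    (h3 : Hyp3 K L (p : ℕ) m) (h3N : Hyp3 K N (p : ℕ) m') (h3F : Hyp3 F N (p : ℕ) m'')
    (hcycF : IsCyclotomicExtension {(p : ℕ) ^ M} K F)
    (x : groupCohomology (repL K L) 2) (q₀ : Nat.Primes) (w₀ : MaximalSpectrum (SemiLocal K q₀))
    (hdeg : (p : ℕ) * Nat.card (MaximalSpectrum (LocAlg K F ⟨q₀, w₀⟩)) ∣ Module.finrank K F)
    (hx : ∀ v : Place K, v ≠ ⟨q₀, w₀⟩ → locMap K L v 2 x = 0)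
    (hpx : (p : ℕ) • locMap K L ⟨q₀, w₀⟩ 2 x = 0) : locMap K L ⟨q₀, w₀⟩ 2 x = 0 := by
  classical
  haveI hgL : IsGalois K L := h3.gal
  haveI : Normal K L := h3.gal.to_normal
  haveI hgN : IsGalois K N := h3N.gal
  haveI : NeZero ((p : ℕ) ^ M) := ⟨pow_ne_zero _ p.2.ne_zero⟩
  haveI hgF : IsGalois K F := IsCyclotomicExtension.isGalois {(p : ℕ) ^ M} K F
  haveI : Normal K F := hgF.to_normal
  have hodd : (p : ℕ) ≠ 2 := h3.odd
  have hlocy : ∀ v : Place K, locMap K N v 2 (infL K L N 2 x) =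
      infJv K L N v 2 (locMap K L v 2 x) := fun v => locMap_infL K L N v 2 x
  -- step 1: `res inf x` is locally trivial
  have h1 : ∀ u : Place F, locMap F N u 2 (resL K F N 2 (infL K L N 2 x)) = 0 := by
    rintro ⟨q, u⟩
    by_cases hv : (⟨q, placeBelow K F q u⟩ : Place K) = ⟨q₀, w₀⟩
    · obtain ⟨hq, hw⟩ := Sigma.mk.inj_iff.1 hv
      subst hq
      have hw' : placeBelow K F q u = w₀ := eq_of_heq hw
      subst hw'
      refine hLS (p : ℕ) m' K F N h3N hgF q (placeBelow K F q u) u rfl hdeg _ ?_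
      rw [hlocy, ← map_nsmul, hpx, map_zero]
    · refine locMap_resL_eq_zero K F N q (placeBelow K F q u) u rfl 2 _ ?_
      rw [hlocy, hx _ hv, map_zero]
  -- step 2: Hasse
  have h2 : resL K F N 2 (infL K L N 2 x) = 0 := hHasse (p : ℕ) m'' F N h3F _ h1
  -- step 3: inflation-restriction
  obtain ⟨x', hx'⟩ := hIR K F N hgF hgN _ h2
  -- step 4: cyclic classes
  have hcyclic : IsCyclic (F ≃ₐ[K] F) := isCyclic_gal_cyclotomic K F (p : ℕ) M p.2 hodd
  obtain ⟨cyc, cycv, -, hsurj, hv, hcompat⟩ := hCyc K F hgF hcyclic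
  obtain ⟨a, rfl⟩ := hsurj x'
  -- step 5: `a` is a local norm outside `v₀`
  have hinjF := hInj K F N hgF hgN
  have hinjL := hInj K L N hgL hgN
  have hlocF : ∀ v : Place K, infJv K F N v 2 (locMap K F v 2 (cyc a)) =
      infJv K L N v 2 (locMap K L v 2 x) := by
    intro v
    rw [← locMap_infL, hx', hlocy]
  have h5 : ∀ v : Place K, v ≠ ⟨q₀, w₀⟩ → IsLocNorm K F v (locHom K K v a) := by
    intro v hv'
    rw [← (hv v).2.2, ← hcompat]
    apply hinjF v
    rw [hlocF, hx v hv', map_zero, map_zero]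
  -- step 6: the set `T`
  obtain ⟨T₀, hT₀⟩ := exists_finset_forall_mem_TUnits K a
  set T : Finset Nat.Primes := insert q₀ (insert p T₀) with hT
  have hq₀T : q₀ ∈ T := Finset.mem_insert_self _ _
  have hpT : p ∈ T := Finset.mem_insert_of_mem (Finset.mem_insert_self _ _)
  have haT : a ∈ TUnits K T :=
    hT₀ T (fun q hq => Finset.mem_insert_of_mem (Finset.mem_insert_of_mem hq))
  -- step 7: the idele `(a at v₀, 1 elsewhere)`
  have hmem := secHom_mem_normGroup K F T ⟨⟨q₀, hq₀T⟩, w₀⟩ a haT (by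
    intro ω hω
    apply h5
    intro h
    exact hω (placeT_ext K T ω ⟨⟨q₀, hq₀T⟩, w₀⟩ h))
  have hcplx : IsTotallyComplex K :=
    isTotallyComplex_of_primitiveRoot (p : ℕ) p.2 hodd K h3.zeta
  have hζF : ∃ ζ : F, IsPrimitiveRoot ζ ((p : ℕ) ^ M) :=
    ⟨_, IsCyclotomicExtension.zeta_spec ((p : ℕ) ^ M) K F⟩
  have hθ : cycloTheta K p M T
      (H80.secHom K K T ⟨⟨q₀, hq₀T⟩, w₀⟩ (locHom K K ⟨q₀, w₀⟩ a)) = 1 :=
    MonoidHom.mem_ker.1
      (normGroup_le_ker H25.stmt_ThetaNorm p M K F T hodd hζF hpT hcplx hmem)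
  have h7 := (hTHL p M K F T hodd h3.zeta hcycF ⟨q₀, hq₀T⟩ w₀).1
    (H80.secHom K K T ⟨⟨q₀, hq₀T⟩, w₀⟩ (locHom K K ⟨q₀, w₀⟩ a))
    (fun q v hne => H80.proj_secHom_ne K K T ⟨⟨q₀, hq₀T⟩, w₀⟩ ⟨q, v⟩ hne _) hθ
  rw [H80.proj_secHom_self K K T ⟨⟨q₀, hq₀T⟩, w₀⟩] at h7
  -- step 8
  apply hinjL ⟨q₀, w₀⟩
  rw [map_zero, ← hlocF, hcompat, ((hv _).2.2 _).2 h7, map_zero]

end core


/-! ### W-One -/

/-- **W-One**: BR-One from BR-Hasse, LOC-SPLIT, INF-RES, SHL-inf, CYC-CLASS, THL, DEG-GROW. -/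
theorem stmt_BrOne_of_leaves (hHasse : Stmt_BrHasse) (hLS : Stmt_LocSplit) (hIR : Stmt_InfResL)
    (hInj : Stmt_InfJvInj) (hCyc : Stmt_CycClass) (hTHL : Stmt_THL) (hDeg : Stmt_DegGrow) :
    Stmt_BrOne := by
  intro p m K L _ _ _ _ _ h3 x v₀ hx
  classical
  obtain ⟨q₀, w₀⟩ := v₀
  have hp := h3.prime
  haveI hgL : IsGalois K L := h3.gal
  haveI : Normal K L := hgL.to_normal
  obtain ⟨M, hM⟩ := hDeg p 1 K hp h3.zeta ⟨q₀, w₀⟩
  haveI : NeZero (p ^ M) := ⟨pow_ne_zero _ hp.ne_zero⟩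
  haveI hgN : IsGalois K (CyclotomicField (p ^ M) L) := isGalois_cyclo K L (p ^ M)
  obtain ⟨ζ, hζ⟩ : ∃ ζ : CyclotomicField (p ^ M) L, IsPrimitiveRoot ζ (p ^ M) :=
    ⟨_, IsCyclotomicExtension.zeta_spec (p ^ M) L _⟩
  haveI hcycF : IsCyclotomicExtension {p ^ M} K ↥(IntermediateField.adjoin K {ζ}) :=
    hζ.intermediateField_adjoin_isCyclotomicExtension K
  haveI hgF : IsGalois K ↥(IntermediateField.adjoin K {ζ}) :=
    IsCyclotomicExtension.isGalois {p ^ M} K _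
  haveI hgFN : IsGalois ↥(IntermediateField.adjoin K {ζ}) (CyclotomicField (p ^ M) L) :=
    IsGalois.tower_top_of_isGalois K _ _
  obtain ⟨m', hm'⟩ := H13.finrank_tower_prime_pow K L (CyclotomicField (p ^ M) L) p m M hp
    h3.zeta h3.deg
  have hdvd : Module.finrank ↥(IntermediateField.adjoin K {ζ}) (CyclotomicField (p ^ M) L) ∣
      p ^ m' := by
    rw [← hm', ← Module.finrank_mul_finrank K ↥(IntermediateField.adjoin K {ζ})
      (CyclotomicField (p ^ M) L)]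
    exact dvd_mul_left _ _
  obtain ⟨m'', -, hm''⟩ := (Nat.dvd_prime_pow hp).1 hdvd
  have h3N : Hyp3 K (CyclotomicField (p ^ M) L) p m' := ⟨hp, h3.odd, h3.zeta, hgN, hm'⟩
  have hzF : ∃ z : ↥(IntermediateField.adjoin K {ζ}), IsPrimitiveRoot z p := by
    obtain ⟨z, hz⟩ := h3.zeta
    exact ⟨algebraMap K _ z, hz.map_of_injective (algebraMap K _).injective⟩
  have h3F : Hyp3 ↥(IntermediateField.adjoin K {ζ}) (CyclotomicField (p ^ M) L) p m'' :=
    ⟨hp, h3.odd, hzF, hgFN, hm''⟩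
  have hdeg := hM M le_rfl ↥(IntermediateField.adjoin K {ζ}) hcycF
  rw [pow_one] at hdeg
  have core : ∀ x : groupCohomology (repL K L) 2,
      (∀ v : Place K, v ≠ ⟨q₀, w₀⟩ → locMap K L v 2 x = 0) →
      p • locMap K L ⟨q₀, w₀⟩ 2 x = 0 → locMap K L ⟨q₀, w₀⟩ 2 x = 0 :=
    fun x hx hpx => brOne_core K L ↥(IntermediateField.adjoin K {ζ}) (CyclotomicField (p ^ M) L)
      hHasse hLS hIR hInj hCyc hTHL ⟨p, hp⟩ m m' m'' M h3 h3N h3F hcycF x q₀ w₀ hdeg hx hpx
  have hind : ∀ k : ℕ, ∀ x : groupCohomology (repL K L) 2,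
      (∀ v : Place K, v ≠ ⟨q₀, w₀⟩ → locMap K L v 2 x = 0) →
      p ^ k • locMap K L ⟨q₀, w₀⟩ 2 x = 0 → locMap K L ⟨q₀, w₀⟩ 2 x = 0 := by
    intro k
    induction k with
    | zero =>
      intro x _ h
      simpa using h
    | succ k ih =>
      intro x hx h
      apply ih x hx
      rw [← map_nsmul]
      apply core
      · intro v hv
        rw [map_nsmul, hx v hv, smul_zero]
      · rw [map_nsmul, smul_smul, ← pow_succ']
        exact h
  apply hind m x hx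
  have hcard := LOC.H72.card_nsmul_H2 (repJv K L ⟨q₀, w₀⟩) (locMap K L ⟨q₀, w₀⟩ 2 x)
  rw [IsGalois.card_aut_eq_finrank, h3.deg] at hcard
  exact hcard

end Fermat.Agent.S55.CFT.H56
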