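import Mathlib
import Fermat.Agent.S55.CFT.Defs

set_option autoImplicit false

namespace Fermat.Agent.S55.CFT.H12

/-- Index of `p`-th powers is multiplicative along a short exact sequence
`1 → A → G → Q → 1` whose cokernel `Q` has no `p`-torsion. -/
theorem index_range_pow_of_exact {A G Q : Type*} [CommGroup A] [CommGroup G] [CommGroup Q]
    (j : A →* G) (f : G →* Q) (hj : Function.Injective j) (hjf : j.range = f.ker)
    (hf : Function.Surjective f) (p : ℕ) (hQ : ∀ q : Q, q ^ p = 1 → q = 1) :
    (powMonoidHom p : G →* G).range.index =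
      (powMonoidHom p : A →* A).range.index * (powMonoidHom p : Q →* Q).range.index := by
  set P : Subgroup G := (powMonoidHom p : G →* G).range with hP
  set H : Subgroup G := (powMonoidHom p : Q →* Q).range.comap f with hH
  have hPH : P ≤ H := by
    rintro x ⟨g, rfl⟩
    exact ⟨f g, by simp⟩
  have h1 : P.relIndex H * H.index = P.index := Subgroup.relIndex_mul_index hPH
  have h2 : H.index = (powMonoidHom p : Q →* Q).range.index :=
    Subgroup.index_comap_of_surjective _ hf
  have h3 : H = j.range ⊔ P := by
    apply le_antisymm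
    · rintro x ⟨q, hq⟩
      obtain ⟨g, rfl⟩ := hf q
      have hx : x = (x * (g ^ p)⁻¹) * g ^ p := by simp
      rw [hx]
      refine Subgroup.mul_mem _ (Subgroup.mem_sup_left ?_) (Subgroup.mem_sup_right ⟨g, rfl⟩)
      rw [hjf, MonoidHom.mem_ker, map_mul, map_inv, map_pow]
      simp only [powMonoidHom_apply] at hq
      rw [← hq]; simp
    · refine sup_le ?_ hPH
      intro x hx
      rw [hjf, MonoidHom.mem_ker] at hx
      exact ⟨1, by simp [hx]⟩
  have h4 : P.relIndex H = P.relIndex j.range := by
    rw [h3]; exact Subgroup.relIndex_sup_right (H := j.range) (K := P)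
  have h5 : P.relIndex j.range = (powMonoidHom p : A →* A).range.index := by
    rw [MonoidHom.range_eq_map, ← Subgroup.relIndex_comap, Subgroup.relIndex_top_right]
    congr 1
    ext x
    constructor
    · rintro ⟨g, hg⟩
      have hgk : g ∈ j.range := by
        rw [hjf, MonoidHom.mem_ker]
        apply hQ
        rw [← map_pow]
        have : g ^ p = j x := hg
        rw [this, ← MonoidHom.mem_ker, ← hjf]
        exact ⟨x, rfl⟩
      obtain ⟨a, rfl⟩ := hgk
      refine ⟨a, hj ?_⟩
      simpa using hg
    · rintro ⟨g, rfl⟩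
      exact ⟨j g, by simp⟩
  rw [← h1, h4, h5, h2]

/-- Additive version of `index_range_pow_of_exact`. -/
theorem index_range_nsmul_of_exact {A G Q : Type*} [AddCommGroup A] [AddCommGroup G]
    [AddCommGroup Q]
    (j : A →+ G) (f : G →+ Q) (hj : Function.Injective j) (hjf : j.range = f.ker)
    (hf : Function.Surjective f) (p : ℕ) (hQ : ∀ q : Q, p • q = 0 → q = 0) :
    (nsmulAddMonoidHom p : G →+ G).range.index =
      (nsmulAddMonoidHom p : A →+ A).range.index * (nsmulAddMonoidHom p : Q →+ Q).range.index := by
  set P : AddSubgroup G := (nsmulAddMonoidHom p : G →+ G).range with hP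
  set H : AddSubgroup G := (nsmulAddMonoidHom p : Q →+ Q).range.comap f with hH
  have hPH : P ≤ H := by
    rintro x ⟨g, rfl⟩
    exact ⟨f g, by simp⟩
  have h1 : P.relIndex H * H.index = P.index := AddSubgroup.relIndex_mul_index hPH
  have h2 : H.index = (nsmulAddMonoidHom p : Q →+ Q).range.index :=
    AddSubgroup.index_comap_of_surjective _ hf
  have h3 : H = j.range ⊔ P := by
    apply le_antisymm
    · rintro x ⟨q, hq⟩
      obtain ⟨g, rfl⟩ := hf q
      have hx : x = (x + -(p • g)) + p • g := by simp
      rw [hx]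
      refine AddSubgroup.add_mem _ (AddSubgroup.mem_sup_left ?_)
        (AddSubgroup.mem_sup_right ⟨g, rfl⟩)
      rw [hjf, AddMonoidHom.mem_ker, map_add, map_neg, map_nsmul]
      simp only [nsmulAddMonoidHom_apply] at hq
      rw [← hq]; simp
    · refine sup_le ?_ hPH
      intro x hx
      rw [hjf, AddMonoidHom.mem_ker] at hx
      exact ⟨0, by simp [hx]⟩
  have h4 : P.relIndex H = P.relIndex j.range := by
    rw [h3]; exact AddSubgroup.relIndex_sup_right (H := j.range) (K := P)
  have h5 : P.relIndex j.range = (nsmulAddMonoidHom p : A →+ A).range.index := by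
    rw [AddMonoidHom.range_eq_map, ← AddSubgroup.relIndex_comap, AddSubgroup.relIndex_top_right]
    congr 1
    ext x
    constructor
    · rintro ⟨g, hg⟩
      have hgk : g ∈ j.range := by
        rw [hjf, AddMonoidHom.mem_ker]
        apply hQ
        rw [← map_nsmul]
        have : p • g = j x := hg
        rw [this, ← AddMonoidHom.mem_ker, ← hjf]
        exact ⟨x, rfl⟩
      obtain ⟨a, rfl⟩ := hgk
      refine ⟨a, hj ?_⟩
      simpa using hg
    · rintro ⟨g, rfl⟩
      exact ⟨j g, by simp⟩
  rw [← h1, h4, h5, h2]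

/-- The index of `p`-th powers, multiplicatively and additively. -/
theorem index_range_pow_eq_nsmul (G : Type*) [CommGroup G] (p : ℕ) :
    (powMonoidHom p : G →* G).range.index =
      (nsmulAddMonoidHom p : Additive G →+ Additive G).range.index := by
  rw [← Subgroup.index_toAddSubgroup]
  congr 1

open NumberField IsDedekindDomain Module

/-- A free `ℤ`-module has no `p`-torsion. -/
theorem eq_zero_of_nsmul_eq_zero_of_free (M : Type*) [AddCommGroup M] [Module.Free ℤ M] (p : ℕ)
    (hp : p ≠ 0) (x : M) (h : p • x = 0) : x = 0 := by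
  have : (p : ℤ) • x = 0 := by simpa using h
  rcases smul_eq_zero.mp this with h | h
  · exact absurd (by exact_mod_cast h) hp
  · exact h

section units

variable (K : Type) [Field K] [NumberField K]

/-- `[E : E^p]` for the unit group `E` of a number field. -/
theorem index_range_pow_units (p : ℕ) (hp : p ≠ 0) :
    (powMonoidHom p : (𝓞 K)ˣ →* (𝓞 K)ˣ).range.index =
      (Units.torsionOrder K).gcd p * p ^ Units.rank K := by
  have hQ : ∀ q : (𝓞 K)ˣ ⧸ Units.torsion K, q ^ p = 1 → q = 1 := by
    intro q hq
    have h0 : p • Additive.ofMul q = 0 := by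
      rw [← ofMul_pow, hq]; rfl
    have h1 : Additive.ofMul q = 0 :=
      eq_zero_of_nsmul_eq_zero_of_free (Additive ((𝓞 K)ˣ ⧸ Units.torsion K)) p hp _ h0
    exact Additive.ofMul.injective h1
  have hex : (Units.torsion K).subtype.range = (QuotientGroup.mk' (Units.torsion K)).ker := by
    rw [Subgroup.range_subtype, QuotientGroup.ker_mk']
  rw [index_range_pow_of_exact (A := Units.torsion K) (G := (𝓞 K)ˣ)
    (Q := (𝓞 K)ˣ ⧸ Units.torsion K) (Units.torsion K).subtype
    (QuotientGroup.mk' (Units.torsion K))
    (Subgroup.subtype_injective _) hex (QuotientGroup.mk'_surjective _) p hQ]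
  have h2 := AddSubgroup.index_range_nsmul (Additive ((𝓞 K)ˣ ⧸ Units.torsion K)) p
  rw [Units.finrank_modTorsion] at h2
  rw [IsCyclic.index_powMonoidHom_range, index_range_pow_eq_nsmul]
  erw [h2]
  rfl

end units

section sunits

variable (K : Type) [Field K] [NumberField K]

/-- Every prime of `𝓞 K` has a power which is principal: there is a nonzero element lying in
`v` and in no other prime. -/
theorem exists_mem_only (v : HeightOneSpectrum (𝓞 K)) :
    ∃ a : 𝓞 K, a ≠ 0 ∧ a ∈ v.asIdeal ∧ ∀ w : HeightOneSpectrum (𝓞 K), w ≠ v → a ∉ w.asIdeal := by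
  classical
  have hv0 : v.asIdeal ∈ nonZeroDivisors (Ideal (𝓞 K)) :=
    mem_nonZeroDivisors_of_ne_zero v.ne_bot
  set h : ℕ := Nat.card (ClassGroup (𝓞 K)) with hh
  have hpos : 0 < h := Nat.card_pos
  have h1 : (ClassGroup.mk0 (⟨v.asIdeal, hv0⟩ : nonZeroDivisors (Ideal (𝓞 K)))) ^ h = 1 :=
    pow_card_eq_one'
  rw [← map_pow] at h1
  have h2 : ((⟨v.asIdeal, hv0⟩ : nonZeroDivisors (Ideal (𝓞 K))) ^ h) =
      ⟨v.asIdeal ^ h, pow_mem hv0 h⟩ := by
    ext; simp
  rw [h2, ClassGroup.mk0_eq_one_iff] at h1
  obtain ⟨a, ha⟩ := h1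
  have ha' : v.asIdeal ^ h = Ideal.span {a} := ha
  have hane : a ≠ 0 := by
    rintro rfl
    have : v.asIdeal ^ h = ⊥ := by rw [ha']; simp
    exact v.ne_bot (pow_eq_zero_iff hpos.ne' |>.mp this)
  have hamem : a ∈ v.asIdeal ^ h := by
    rw [ha']; exact Ideal.mem_span_singleton_self a
  refine ⟨a, hane, Ideal.pow_le_self hpos.ne' hamem, ?_⟩
  intro w hwv haw
  apply hwv
  have hle : v.asIdeal ^ h ≤ w.asIdeal := by
    rw [ha', Ideal.span_singleton_le_iff_mem]; exact haw
  have hle' : v.asIdeal ≤ w.asIdeal := w.isPrime.le_of_pow_le hle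
  have := v.isMaximal.eq_of_le w.isPrime.ne_top hle'
  exact (HeightOneSpectrum.ext this).symm

/-- An element of `Kˣ` all of whose valuations are trivial is a unit of `𝓞 K`. -/
theorem exists_unit_of_valuation_eq_one (x : Kˣ)
    (hx : ∀ v : HeightOneSpectrum (𝓞 K), v.valuation K (x : K) = 1) :
    ∃ u : (𝓞 K)ˣ, Units.map (algebraMap (𝓞 K) K : 𝓞 K →* K) u = x := by
  obtain ⟨r, hr⟩ := HeightOneSpectrum.mem_integers_of_valuation_le_one K (x : K)
    (fun v => (hx v).le)
  obtain ⟨r', hr'⟩ := HeightOneSpectrum.mem_integers_of_valuation_le_one K ((x⁻¹ : Kˣ) : K)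
    (fun v => by
      have := hx v
      rw [Units.val_inv_eq_inv_val, map_inv₀, this, inv_one])
  have hinj : Function.Injective (algebraMap (𝓞 K) K) := IsFractionRing.injective _ _
  have h1 : r * r' = 1 := by
    apply hinj
    rw [map_mul, hr, hr', map_one]
    simp
  have h2 : r' * r = 1 := by rw [mul_comm]; exact h1
  refine ⟨⟨r, r', h1, h2⟩, ?_⟩
  ext
  simpa using hr

end sunits

section main

variable (K : Type) [Field K] [NumberField K] (S : Finset (HeightOneSpectrum (𝓞 K)))

/-- The valuation map on `S`-units, additively. -/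
noncomputable def valAdd :
    Additive ((S : Set (HeightOneSpectrum (𝓞 K))).unit K) →ₗ[ℤ] (S → ℤ) :=
  (AddMonoidHom.mk' (fun x v => Multiplicative.toAdd
      (v.1.valuationOfNeZero ((Additive.toMul x : (S : Set (HeightOneSpectrum (𝓞 K))).unit K) : Kˣ)))
    (by intro x y; ext v; simp)).toIntLinearMap

theorem valAdd_apply (x : Additive ((S : Set (HeightOneSpectrum (𝓞 K))).unit K)) (v : S) :
    valAdd K S x v = Multiplicative.toAdd
      (v.1.valuationOfNeZero ((Additive.toMul x : (S : Set (HeightOneSpectrum (𝓞 K))).unit K) : Kˣ)) :=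
  rfl

/-- The inclusion of the units into the `S`-units. -/
noncomputable def unitIncl : (𝓞 K)ˣ →* (S : Set (HeightOneSpectrum (𝓞 K))).unit K where
  toFun u := ⟨Units.map (algebraMap (𝓞 K) K : 𝓞 K →* K) u, fun v _ => by
    have := v.valuation_of_unit_eq (K := K) u
    rw [← WithZero.coe_inj, HeightOneSpectrum.valuationOfNeZero_eq] at this
    simpa using this⟩
  map_one' := by ext; simp
  map_mul' x y := by ext; simp

theorem unitIncl_injective : Function.Injective (unitIncl K S) := by
  intro x y h
  have h1 : ((unitIncl K S x : Kˣ) : K) = ((unitIncl K S y : Kˣ) : K) := by rw [h]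
  have hinj : Function.Injective (algebraMap (𝓞 K) K) := IsFractionRing.injective _ _
  ext
  exact congrArg _ (hinj (by simpa [unitIncl] using h1))

/-- The additive version of the inclusion of the units. -/
noncomputable def unitInclAdd :
    Additive (𝓞 K)ˣ →ₗ[ℤ] Additive ((S : Set (HeightOneSpectrum (𝓞 K))).unit K) :=
  (MonoidHom.toAdditive (unitIncl K S)).toIntLinearMap

theorem unitInclAdd_injective : Function.Injective (unitInclAdd K S) :=
  unitIncl_injective K S

theorem range_unitInclAdd : LinearMap.range (unitInclAdd K S) = LinearMap.ker (valAdd K S) := by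
  ext x
  constructor
  · rintro ⟨u, rfl⟩
    rw [LinearMap.mem_ker]
    ext v
    rw [valAdd_apply]
    have := v.1.valuation_of_unit_eq (K := K) (Additive.toMul u)
    simp only [unitInclAdd, unitIncl]
    simpa using this
  · intro hx
    rw [LinearMap.mem_ker] at hx
    have hall : ∀ v : HeightOneSpectrum (𝓞 K),
        v.valuation K (((Additive.toMul x : (S : Set (HeightOneSpectrum (𝓞 K))).unit K) : Kˣ) : K)
          = 1 := by
      intro v
      by_cases hv : v ∈ S
      · have := congrFun hx ⟨v, hv⟩
        rw [valAdd_apply] at this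
        rw [← HeightOneSpectrum.valuationOfNeZero_eq]
        have h1 : v.valuationOfNeZero
            ((Additive.toMul x : (S : Set (HeightOneSpectrum (𝓞 K))).unit K) : Kˣ) = 1 := by
          simpa using this
        rw [h1]; rfl
      · exact (Additive.toMul x).2 v (by simpa using hv)
    obtain ⟨u, hu⟩ := exists_unit_of_valuation_eq_one K _ hall
    refine ⟨Additive.ofMul u, ?_⟩
    apply Additive.toMul.injective
    apply Subtype.ext
    simpa [unitInclAdd, unitIncl] using hu

end main


section rank

variable (K : Type) [Field K] [NumberField K] (S : Finset (HeightOneSpectrum (𝓞 K)))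

open Classical in
/-- For every `v ∈ S` there is an `S`-unit whose valuation vector is a nonzero multiple of
the basis vector at `v`. -/
theorem exists_sunit_single (v : S) :
    ∃ (a : Additive ((S : Set (HeightOneSpectrum (𝓞 K))).unit K)) (c : ℤ), c ≠ 0 ∧
      valAdd K S a = Pi.single v c := by
  obtain ⟨a, ha0, hav, haw⟩ := exists_mem_only K v.1
  have hinj : Function.Injective (algebraMap (𝓞 K) K) := IsFractionRing.injective _ _
  have ha0' : algebraMap (𝓞 K) K a ≠ 0 := fun h => ha0 (hinj (by rw [h, map_zero]))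
  have hval : ∀ w : HeightOneSpectrum (𝓞 K), w ≠ v.1 →
      w.valuation K (algebraMap (𝓞 K) K a) = 1 := by
    intro w hw
    apply le_antisymm (w.valuation_le_one a)
    rw [← not_lt]
    intro hlt
    exact haw w hw ((w.valuation_lt_one_iff_mem a).mp hlt)
  have hmem : Units.mk0 (algebraMap (𝓞 K) K a) ha0' ∈
      (S : Set (HeightOneSpectrum (𝓞 K))).unit K := by
    intro w hw
    apply hval
    rintro rfl
    exact hw (by simpa using v.2)
  refine ⟨Additive.ofMul ⟨_, hmem⟩,
    Multiplicative.toAdd (v.1.valuationOfNeZero (Units.mk0 (algebraMap (𝓞 K) K a) ha0')), ?_, ?_⟩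
  · intro h0
    have h1 : v.1.valuationOfNeZero (Units.mk0 (algebraMap (𝓞 K) K a) ha0') = 1 := by
      apply Multiplicative.toAdd.injective
      simpa using h0
    have h2 := v.1.valuationOfNeZero_eq (K := K) (Units.mk0 (algebraMap (𝓞 K) K a) ha0')
    rw [h1] at h2
    have h3 : v.1.valuation K (algebraMap (𝓞 K) K a) < 1 :=
      (v.1.valuation_lt_one_iff_mem a).mpr hav
    rw [Units.val_mk0] at h2
    rw [← h2] at h3
    exact lt_irrefl _ h3
  · ext w
    rw [valAdd_apply]
    by_cases hw : w = v
    · subst hw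
      simp
    · rw [Pi.single_eq_of_ne hw]
      have hw' : w.1 ≠ v.1 := fun h => hw (Subtype.ext h)
      have h2 := w.1.valuationOfNeZero_eq (K := K) (Units.mk0 (algebraMap (𝓞 K) K a) ha0')
      rw [Units.val_mk0, hval w.1 hw'] at h2
      have h3 : w.1.valuationOfNeZero (Units.mk0 (algebraMap (𝓞 K) K a) ha0') = 1 := by
        exact_mod_cast h2
      simp [h3]

theorem finrank_range_valAdd :
    finrank ℤ (LinearMap.range (valAdd K S)) = S.card := by
  classical
  apply le_antisymm
  · have := Submodule.finrank_le (LinearMap.range (valAdd K S))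
    simpa using this
  · choose a c hc hac using exists_sunit_single K S
    -- the diagonal map
    let g : (S → ℤ) →ₗ[ℤ] (S → ℤ) :=
      { toFun := fun x v => x v * c v
        map_add' := fun x y => by ext v; simp [add_mul]
        map_smul' := fun n x => by ext v; simp [mul_assoc] }
    have hg : ∀ x, g x ∈ LinearMap.range (valAdd K S) := by
      intro x
      have : g x = ∑ v, x v • valAdd K S (a v) := by
        ext w
        simp only [g, LinearMap.coe_mk, AddHom.coe_mk, Finset.sum_apply, Pi.smul_apply, hac,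
          smul_eq_mul]
        rw [Finset.sum_eq_single w]
        · simp
        · intro b _ hb
          rw [Pi.single_eq_of_ne (Ne.symm hb)]
          simp
        · simp
      rw [this]
      exact Submodule.sum_mem _ (fun v _ => Submodule.smul_mem _ _ ⟨a v, rfl⟩)
    let g' : (S → ℤ) →ₗ[ℤ] LinearMap.range (valAdd K S) := g.codRestrict _ hg
    have hinj : Function.Injective g' := by
      intro x y hxy
      have h1 : g x = g y := congrArg Subtype.val hxy
      ext v
      have h2 := congrFun h1 v
      simp only [g, LinearMap.coe_mk, AddHom.coe_mk] at h2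
      exact mul_right_cancel₀ (hc v) h2
    have := LinearMap.finrank_le_finrank_of_injective hinj
    simpa using this

end rank


section final

variable (K : Type) [Field K] [NumberField K] (S : Finset (HeightOneSpectrum (𝓞 K)))

theorem index_range_pow_sunit (p : ℕ) (hp : p ≠ 0) :
    (powMonoidHom p : ((S : Set (HeightOneSpectrum (𝓞 K))).unit K) →*
        ((S : Set (HeightOneSpectrum (𝓞 K))).unit K)).range.index =
      (Units.torsionOrder K).gcd p * p ^ (Units.rank K + S.card) := by
  have hQ : ∀ q : LinearMap.range (valAdd K S), p • q = 0 → q = 0 := by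
    intro q hq
    have : (p : ℤ) • q = 0 := by simpa using hq
    rcases smul_eq_zero.mp this with h | h
    · exact absurd (by exact_mod_cast h) hp
    · exact h
  have hjf : (unitInclAdd K S).toAddMonoidHom.range =
      (valAdd K S).rangeRestrict.toAddMonoidHom.ker := by
    ext x
    have := range_unitInclAdd K S
    have h1 : x ∈ LinearMap.range (unitInclAdd K S) ↔ x ∈ LinearMap.ker (valAdd K S) := by
      rw [this]
    rw [AddMonoidHom.mem_ker]
    rw [LinearMap.mem_ker] at h1
    constructor
    · rintro ⟨u, rfl⟩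
      apply Subtype.ext
      exact h1.mp ⟨u, rfl⟩
    · intro hx
      have hx' : valAdd K S x = 0 := congrArg Subtype.val hx
      obtain ⟨u, hu⟩ := h1.mpr hx'
      exact ⟨u, hu⟩
  have hf : Function.Surjective (valAdd K S).rangeRestrict.toAddMonoidHom := by
    rintro ⟨y, x, rfl⟩
    exact ⟨x, rfl⟩
  rw [index_range_pow_eq_nsmul,
    index_range_nsmul_of_exact (unitInclAdd K S).toAddMonoidHom
      (valAdd K S).rangeRestrict.toAddMonoidHom (unitInclAdd_injective K S) hjf hf p hQ,
    ← index_range_pow_eq_nsmul, index_range_pow_units K p hp,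
    AddSubgroup.index_range_nsmul, finrank_range_valAdd, pow_add, mul_assoc]

end final


section fg

variable (K : Type) [Field K] [NumberField K] (S : Finset (HeightOneSpectrum (𝓞 K)))

theorem finite_sunit : Module.Finite ℤ (Additive ((S : Set (HeightOneSpectrum (𝓞 K))).unit K)) := by
  rw [Module.finite_def]
  refine Submodule.fg_of_fg_map_of_fg_inf_ker (valAdd K S) ?_ ?_
  · exact IsNoetherian.noetherian _
  · rw [inf_of_le_right le_top, ← range_unitInclAdd, LinearMap.range_eq_map]
    exact Submodule.FG.map _ Module.Finite.fg_top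

theorem fg_sunit : Group.FG ((S : Set (HeightOneSpectrum (𝓞 K))).unit K) := by
  have := finite_sunit K S
  rw [Module.Finite.iff_addGroup_fg] at this
  exact GroupFG.iff_add_fg.mpr this

theorem dvd_torsionOrder_iff (p : ℕ) (hp : p.Prime) :
    p ∣ Units.torsionOrder K ↔ ∃ ζ : K, IsPrimitiveRoot ζ p := by
  constructor
  · intro h
    have : Fact p.Prime := ⟨hp⟩
    obtain ⟨x, hx⟩ := exists_prime_orderOf_dvd_card' (G := Units.torsion K) p h
    refine ⟨(((x : (𝓞 K)ˣ) : 𝓞 K) : K), ?_⟩
    have hinj : Function.Injective (fun y : Units.torsion K => (((y : (𝓞 K)ˣ) : 𝓞 K) : K)) := by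
      intro y z hyz
      apply Subtype.ext
      apply Units.ext
      exact RingOfIntegers.coe_injective hyz
    have h1 : orderOf ((((x : (𝓞 K)ˣ) : 𝓞 K) : K)) = p := by
      rw [← hx]
      let φ : Units.torsion K →* K :=
        ((algebraMap (𝓞 K) K : 𝓞 K →* K).comp (Units.coeHom (𝓞 K))).comp (Units.torsion K).subtype
      exact orderOf_injective φ hinj x
    rw [← h1]
    exact IsPrimitiveRoot.orderOf _
  · rintro ⟨ζ, hζ⟩
    have : NeZero p := ⟨hp.ne_zero⟩
    exact Units.dvd_torsionOrder_of_isPrimitiveRoot hζ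

end fg


/-- **GLB-1**: Dirichlet's `S`-unit theorem in index form. -/
theorem stmt_SUnitRank : Stmt_SUnitRank := by
  intro K _ _ S
  refine ⟨fg_sunit K S, ?_⟩
  intro p hp
  have hidx := index_range_pow_sunit K S p hp.ne_zero
  constructor
  · intro hζ
    have hdvd : p ∣ Units.torsionOrder K := (dvd_torsionOrder_iff K p hp).mpr hζ
    rw [hidx, Nat.gcd_eq_right hdvd]
    ring
  · intro hζ
    have hdvd : ¬ p ∣ Units.torsionOrder K := fun h => hζ ((dvd_torsionOrder_iff K p hp).mp h)
    have hcop : (Units.torsionOrder K).gcd p = 1 := by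
      rw [Nat.gcd_comm]
      exact (Nat.Prime.coprime_iff_not_dvd hp).mpr hdvd
    rw [hidx, hcop, one_mul]

end Fermat.Agent.S55.CFT.H12
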