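/-
S55-E4 GLB-2 (helper12), number-theory part: the T-units of CFT/Global.lean are the S-units for
S = primesT L T (primes above T): tUnits_eq; rank of S-units finrank_sunit = rank + #S;
counting primes above T in a Galois extension of prime degree: exists_card_primesT.
-/
import Fermat.Agent.S55.CFT.Global
import Fermat.Agent.S55.CFT.H12_SUnit
import Fermat.Agent.S14.H62_Abstract

set_option autoImplicit false
set_option linter.unusedSectionVars false

namespace Fermat.Agent.S55.CFT.H12

open NumberField IsDedekindDomain Module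

section rank

variable (K : Type) [Field K] [NumberField K] (S : Finset (HeightOneSpectrum (𝓞 K)))

/-- The rank of the group of `S`-units is `rank K + #S`. -/
theorem finrank_sunit :
    finrank ℤ (Additive ((S : Set (HeightOneSpectrum (𝓞 K))).unit K)) =
      Units.rank K + S.card := by
  have := finite_sunit K S
  have h1 := Fermat.Agent.S14.H62.finrank_range_add_finrank_ker_int (valAdd K S)
  rw [finrank_range_valAdd, ← range_unitInclAdd,
    LinearMap.finrank_range_of_inj (unitInclAdd_injective K S), Units.finrank_eq] at h1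
  omega

end rank

section primesT

variable (L : Type) [Field L] [NumberField L] (T : Finset Nat.Primes)

theorem prodT_ne_zero : prodT T ≠ 0 := by
  unfold prodT
  exact Finset.prod_ne_zero_iff.mpr (fun q _ => q.2.ne_zero)

theorem prodT_pos : 0 < prodT T := Nat.pos_of_ne_zero (prodT_ne_zero T)

/-- The finite set of primes of `𝓞 L` above `T`. -/
noncomputable def primesT : Finset (HeightOneSpectrum (𝓞 L)) :=
  (Ideal.finite_factors (R := 𝓞 L) (I := Ideal.span {((prodT T : ℕ) : 𝓞 L)})
    (by
      rw [Ne, Ideal.zero_eq_bot, Ideal.span_singleton_eq_bot]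
      exact_mod_cast prodT_ne_zero T)).toFinset

theorem mem_primesT (v : HeightOneSpectrum (𝓞 L)) :
    v ∈ primesT L T ↔ ((prodT T : ℕ) : 𝓞 L) ∈ v.asIdeal := by
  unfold primesT
  rw [Set.Finite.mem_toFinset, Set.mem_ofPred_eq, Ideal.dvd_span_singleton]

theorem mem_primesT_iff_exists (v : HeightOneSpectrum (𝓞 L)) :
    v ∈ primesT L T ↔ ∃ q ∈ T, (((q : ℕ) : ℤ) : 𝓞 L) ∈ v.asIdeal := by
  rw [mem_primesT]
  unfold prodT
  rw [Nat.cast_prod, v.isPrime.prod_mem_iff]
  constructor
  · rintro ⟨q, hq, h⟩
    exact ⟨q, hq, by simpa using h⟩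
  · rintro ⟨q, hq, h⟩
    exact ⟨q, hq, by simpa using h⟩

end primesT


section tunits

variable (L : Type) [Field L] [NumberField L] (T : Finset Nat.Primes)

theorem isIntegral_iff_valuation_le_one (y : L) :
    IsIntegral ℤ y ↔ ∀ v : HeightOneSpectrum (𝓞 L), v.valuation L y ≤ 1 := by
  constructor
  · intro h v
    exact v.valuation_le_one (K := L) (⟨y, h⟩ : 𝓞 L)
  · intro h
    obtain ⟨r, hr⟩ := HeightOneSpectrum.mem_integers_of_valuation_le_one L y h
    rw [← hr]
    exact RingOfIntegers.isIntegral_coe r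

theorem valuation_prodT_le_one (v : HeightOneSpectrum (𝓞 L)) :
    v.valuation L ((prodT T : ℕ) : L) ≤ 1 := by
  have := v.valuation_le_one (K := L) (((prodT T : ℕ) : 𝓞 L))
  simpa using this

theorem valuation_prodT_lt_one {v : HeightOneSpectrum (𝓞 L)} (hv : v ∈ primesT L T) :
    v.valuation L ((prodT T : ℕ) : L) < 1 := by
  have := (v.valuation_lt_one_iff_mem (K := L) (((prodT T : ℕ) : 𝓞 L))).mpr
    ((mem_primesT L T v).mp hv)
  simpa using this

theorem valuation_prodT_eq_one {v : HeightOneSpectrum (𝓞 L)} (hv : v ∉ primesT L T) :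
    v.valuation L ((prodT T : ℕ) : L) = 1 := by
  apply le_antisymm (valuation_prodT_le_one L T v)
  rw [← not_lt]
  intro hlt
  apply hv
  rw [mem_primesT]
  have := (v.valuation_lt_one_iff_mem (K := L) (((prodT T : ℕ) : 𝓞 L))).mp (by simpa using hlt)
  exact this

theorem prodT_cast_ne_zero : ((prodT T : ℕ) : L) ≠ 0 := by
  exact_mod_cast prodT_ne_zero T

/-- Archimedean property in `ℤᵐ⁰`. -/
theorem pow_mul_le_one_of_lt_one {a b : WithZero (Multiplicative ℤ)} (ha : a < 1) (hb : b ≠ 0)
    (n : ℕ) (hn : WithZero.log b ≤ n) : a ^ n * b ≤ 1 := by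
  by_cases ha0 : a = 0
  · subst ha0
    rcases Nat.eq_zero_or_pos n with h | h
    · subst h
      simp only [pow_zero, one_mul]
      have : WithZero.log b ≤ 0 := by simpa using hn
      rw [← WithZero.exp_zero (M := ℤ)]
      exact WithZero.le_exp_of_log_le this
    · rw [zero_pow h.ne', zero_mul]
      exact zero_le_one
  · have hab : a ^ n * b ≠ 0 := mul_ne_zero (pow_ne_zero _ ha0) hb
    rw [← WithZero.exp_zero (M := ℤ), ← WithZero.log_le_iff_le_exp hab,
      WithZero.log_mul (pow_ne_zero _ ha0) hb, WithZero.log_pow]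
    have h1 : WithZero.log a < 0 := by
      rw [WithZero.log_lt_iff_lt_exp ha0]
      simpa using ha
    have h2 : (n : ℤ) * WithZero.log a ≤ -n := by nlinarith
    simp only [nsmul_eq_mul]
    linarith

theorem tUnits_eq : TUnits L T = (primesT L T : Set (HeightOneSpectrum (𝓞 L))).unit L := by
  ext x
  constructor
  · rintro ⟨n, h1, h2⟩ v hv
    have hv' : v ∉ primesT L T := by simpa using hv
    rw [isIntegral_iff_valuation_le_one] at h1 h2
    have e1 := h1 v
    have e2 := h2 v
    rw [map_mul, map_pow, valuation_prodT_eq_one L T hv', one_pow, one_mul] at e1 e2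
    rw [Units.val_inv_eq_inv_val, map_inv₀] at e2
    have hx0 : v.valuation L (x : L) ≠ 0 := by
      rw [Valuation.ne_zero_iff]; exact x.ne_zero
    apply le_antisymm e1
    exact (inv_le_one₀ (zero_lt_iff.mpr hx0)).mp e2
  · intro hx
    have hx' : ∀ v : HeightOneSpectrum (𝓞 L), v ∉ primesT L T → v.valuation L (x : L) = 1 :=
      fun v hv => hx v (by simpa using hv)
    have hx0 : ∀ v : HeightOneSpectrum (𝓞 L), v.valuation L (x : L) ≠ 0 := fun v => by
      rw [Valuation.ne_zero_iff]; exact x.ne_zero
    set n : ℕ := ∑ v ∈ primesT L T, (WithZero.log (v.valuation L (x : L))).natAbs with hn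
    have hnv : ∀ v ∈ primesT L T, (WithZero.log (v.valuation L (x : L))).natAbs ≤ n := by
      intro v hv
      exact Finset.single_le_sum (f := fun v => (WithZero.log (v.valuation L (x : L))).natAbs)
        (fun _ _ => Nat.zero_le _) hv
    refine ⟨n, ?_, ?_⟩
    · rw [isIntegral_iff_valuation_le_one]
      intro v
      rw [map_mul, map_pow]
      by_cases hv : v ∈ primesT L T
      · apply pow_mul_le_one_of_lt_one (valuation_prodT_lt_one L T hv) (hx0 v)
        have := hnv v hv
        have h2 := Int.le_natAbs (a := WithZero.log (v.valuation L (x : L)))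
        omega
      · rw [hx' v hv, mul_one]
        exact pow_le_one₀ zero_le (valuation_prodT_le_one L T v)
    · rw [isIntegral_iff_valuation_le_one]
      intro v
      rw [map_mul, map_pow, Units.val_inv_eq_inv_val, map_inv₀]
      by_cases hv : v ∈ primesT L T
      · apply pow_mul_le_one_of_lt_one (valuation_prodT_lt_one L T hv) (inv_ne_zero (hx0 v))
        have := hnv v hv
        rw [WithZero.log_inv]
        have h2 := neg_le_abs (WithZero.log (v.valuation L (x : L)))
        have h3 := Int.natCast_natAbs (WithZero.log (v.valuation L (x : L)))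
        omega
      · rw [hx' v hv, inv_one, mul_one]
        exact pow_le_one₀ zero_le (valuation_prodT_le_one L T v)

end tunits


section count

variable (K L : Type) [Field K] [Field L] [NumberField K] [NumberField L] [Algebra K L]
  (T : Finset Nat.Primes)

theorem mem_primesT_iff_under (w : HeightOneSpectrum (𝓞 L)) :
    w ∈ primesT L T ↔ w.under (𝓞 K) ∈ primesT K T := by
  rw [mem_primesT, mem_primesT]
  change _ ↔ ((prodT T : ℕ) : 𝓞 K) ∈ Ideal.comap (algebraMap (𝓞 K) (𝓞 L)) w.asIdeal
  rw [Ideal.mem_comap, map_natCast]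

open Classical in
theorem card_fibre_primesT (v : HeightOneSpectrum (𝓞 K)) (hv : v ∈ primesT K T) :
    ((primesT L T).filter (fun w => w.under (𝓞 K) = v)).card =
      (v.asIdeal.primesOver (𝓞 L)).ncard := by
  have hinj : Function.Injective (HeightOneSpectrum.asIdeal (R := 𝓞 L)) :=
    fun a b h => HeightOneSpectrum.ext h
  rw [← Finset.card_image_of_injective _ hinj, ← Set.ncard_coe_finset]
  congr 1
  ext P
  simp only [Finset.coe_image, Finset.coe_filter, Set.mem_image, Set.mem_ofPred_eq]
  constructor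
  · rintro ⟨w, ⟨_, hwv⟩, rfl⟩
    refine ⟨w.isPrime, ?_⟩
    rw [Ideal.liesOver_iff, ← hwv]
    rfl
  · rintro ⟨hP, hPv⟩
    have hPne : P ≠ ⊥ := Ideal.ne_bot_of_mem_primesOver v.ne_bot ⟨hP, hPv⟩
    refine ⟨⟨P, hP, hPne⟩, ⟨?_, ?_⟩, rfl⟩
    · rw [mem_primesT_iff_under K L T]
      have : (⟨P, hP, hPne⟩ : HeightOneSpectrum (𝓞 L)).under (𝓞 K) = v := by
        apply HeightOneSpectrum.ext
        exact ((Ideal.liesOver_iff _ _).mp hPv).symm
      rw [this]; exact hv
    · apply HeightOneSpectrum.ext
      exact ((Ideal.liesOver_iff _ _).mp hPv).symm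

theorem card_primesT_eq_sum :
    (primesT L T).card = ∑ v ∈ primesT K T, (v.asIdeal.primesOver (𝓞 L)).ncard := by
  classical
  rw [Finset.card_eq_sum_card_fiberwise (f := fun w => w.under (𝓞 K)) (s := primesT L T)
    (t := primesT K T) (fun w hw => (mem_primesT_iff_under K L T w).mp hw)]
  exact Finset.sum_congr rfl (fun v hv => card_fibre_primesT K L T v hv)

theorem ncard_primesOver_eq_one_or [IsGalois K L] {p : ℕ} (hp : p.Prime)
    (hdeg : Module.finrank K L = p) (v : HeightOneSpectrum (𝓞 K)) :
    (v.asIdeal.primesOver (𝓞 L)).ncard = 1 ∨ (v.asIdeal.primesOver (𝓞 L)).ncard = p := by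
  have h := Ideal.ncard_primesOver_mul_ramificationIdxIn_mul_inertiaDegIn v.asIdeal (𝓞 L)
    (L ≃ₐ[K] L)
  rw [IsGalois.card_aut_eq_finrank, hdeg] at h
  exact (Nat.dvd_prime hp).mp ⟨_, h.symm⟩

open Classical in
theorem nonsplitCount_eq :
    nonsplitCount K L T =
      ((primesT K T).filter (fun v => (v.asIdeal.primesOver (𝓞 L)).ncard = 1)).card := by
  have hinj : Function.Injective (HeightOneSpectrum.asIdeal (R := 𝓞 K)) :=
    fun a b h => HeightOneSpectrum.ext h
  rw [← Finset.card_image_of_injective _ hinj, ← Set.ncard_coe_finset, nonsplitCount]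
  change Nat.card ↥({v : Ideal (𝓞 K) | v ∈ primesOverT K T ∧ (v.primesOver (𝓞 L)).ncard = 1}) = _
  rw [Nat.card_coe_set_eq]
  congr 1
  ext P
  simp only [Finset.coe_image, Finset.coe_filter, Set.mem_image, Set.mem_ofPred_eq, primesOverT]
  constructor
  · rintro ⟨⟨hP, hPne, q, hq, hqP⟩, hcard⟩
    refine ⟨⟨P, hP, hPne⟩, ⟨?_, hcard⟩, rfl⟩
    rw [mem_primesT_iff_exists]
    exact ⟨q, hq, hqP⟩
  · rintro ⟨v, ⟨hv, hcard⟩, rfl⟩
    rw [mem_primesT_iff_exists] at hv
    obtain ⟨q, hq, hqP⟩ := hv
    exact ⟨⟨v.isPrime, v.ne_bot, q, hq, hqP⟩, hcard⟩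

/-- The counts of primes above `T`: `#S_K = n + s` and `#S_L = n + p s`. -/
theorem exists_card_primesT [IsGalois K L] {p : ℕ} (hp : p.Prime)
    (hdeg : Module.finrank K L = p) :
    ∃ s : ℕ, (primesT K T).card = nonsplitCount K L T + s ∧
      (primesT L T).card = nonsplitCount K L T + p * s := by
  classical
  refine ⟨((primesT K T).filter (fun v => ¬ (v.asIdeal.primesOver (𝓞 L)).ncard = 1)).card, ?_, ?_⟩
  · rw [nonsplitCount_eq]
    exact (Finset.card_filter_add_card_filter_not _).symm
  · rw [nonsplitCount_eq, card_primesT_eq_sum K L T,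
      ← Finset.sum_filter_add_sum_filter_not (primesT K T)
        (fun v => (v.asIdeal.primesOver (𝓞 L)).ncard = 1)]
    congr 1
    · rw [Finset.card_eq_sum_ones]
      exact Finset.sum_congr rfl (fun v hv => (Finset.mem_filter.mp hv).2)
    · rw [mul_comm, ← smul_eq_mul, ← Finset.sum_const]
      refine Finset.sum_congr rfl (fun v hv => ?_)
      rcases ncard_primesOver_eq_one_or K L hp hdeg v with h | h
      · exact absurd h (Finset.mem_filter.mp hv).2
      · exact h

end count

end Fermat.Agent.S55.CFT.H12
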