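/-
S55 / E4 / CFT, island BR, leaf VAL-a (helper12): the local interface of the assembly.

`Stmt_LocUnitGroup` (leaf LV, helper31): for every rational prime `q` the group `(ℚ_q ⊗ L)ˣ` has a
`Gal(L/K)`-stable subgroup `U` ("the units of the maximal order `ℤ_q ⊗ 𝓞_L`") with
* `(ℚ_q ⊗ L)ˣ = diag(Lˣ) · U` (approximation), and
* for `y ∈ Lˣ`: `1 ⊗ y ∈ U` iff `y` is a unit at every prime of `L` above `q`.
The assembly `Stmt_LocUnitGroup → Stmt_ValExact` is in `H12_ValExact.lean`.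
-/
import Fermat.Agent.S55.CFT.Defs_BR2
import Fermat.Agent.S55.CFT.H12_TUnits

set_option autoImplicit false

open NumberField TensorProduct IsDedekindDomain

noncomputable section

namespace Fermat.Agent.S55.CFT.H12

variable (K L : Type) [Field K] [Field L] [NumberField K] [NumberField L] [Algebra K L]

/-- `Lˣ → (ℚ_q ⊗ L)ˣ`, `y ↦ 1 ⊗ y`. -/
def diagQ (q : Nat.Primes) : Lˣ →* (SemiLocal L q)ˣ :=
  Units.map ((Algebra.TensorProduct.includeRight : L →ₐ[ℚ] SemiLocal L q) : L →* SemiLocal L q)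

@[simp] lemma diagQ_val (q : Nat.Primes) (y : Lˣ) :
    ((diagQ L q y : (SemiLocal L q)ˣ) : SemiLocal L q) = (1 : Qp q) ⊗ₜ[ℚ] (y : L) := rfl

/-- **LV** (local unit groups): a `Gal(L/K)`-stable subgroup `U ⊆ (ℚ_q ⊗ L)ˣ` with
`(ℚ_q ⊗ L)ˣ = diag(Lˣ) · U` and `diag⁻¹(U) = ` the elements of `Lˣ` which are units at all primes
above `q`.  (`U = (ℤ_q ⊗ 𝓞_L)ˣ`; weak approximation; coordinates in an integral basis.) -/
def Stmt_LocUnitGroup : Prop :=
  ∀ (K L : Type) [Field K] [Field L] [NumberField K] [NumberField L] [Algebra K L]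
    (q : Nat.Primes),
    ∃ U : Subgroup (SemiLocal L q)ˣ,
      (∀ (σ : L ≃ₐ[K] L) (u : (SemiLocal L q)ˣ), u ∈ U → σ • u ∈ U) ∧
      (∀ u : (SemiLocal L q)ˣ, ∃ y : Lˣ, u / diagQ L q y ∈ U) ∧
      (∀ y : Lˣ, diagQ L q y ∈ U ↔
        ∀ w : HeightOneSpectrum (𝓞 L), ((q : ℕ) : 𝓞 L) ∈ w.asIdeal → w.valuation L (y : L) = 1)

end Fermat.Agent.S55.CFT.H12
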