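/-
S55 / E4 / CFT, island BR, leaf VAL-a (helper12), part 1: from local triviality to cochains.

* `diagRepL : repL K L ⟶ repJ K L T` (the diagonal on `Lˣ`), `diagRepL_projRep`;
* `exists_cochain_of_loc`: if a class `[f] ∈ H²(G, Lˣ)` is locally trivial at all places of `K`
  above `q`, then `1 ⊗ f = d g` for a 1-cochain `g` with values in `(ℚ_q ⊗ L)ˣ`
  (helper80's semi-local decomposition `H80.stmt_SLD` for `T = {q}`);
* `unitsAt L q`: the elements of `Lˣ` which are units at all primes above `q`;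
* `exists_cochain_unitsAt`: under `Stmt_LocUnitGroup`, such an `f` is cohomologous to a cocycle
  with values in `unitsAt L q`.
-/
import Fermat.Agent.S55.CFT.H12_ValDefs
import Fermat.Agent.S55.CFT.H80_SLD

set_option autoImplicit false
set_option linter.unusedSectionVars false
set_option linter.style.haveILetI false

open NumberField TensorProduct IsDedekindDomain CategoryTheory groupCohomology

noncomputable section

namespace Fermat.Agent.S55.CFT.H12

lemma commGroup_aux {M : Type*} [CommGroup M] (a b c a' b' c' : M) :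
    a / b * c / (a' / b' * c') = a / a' / (b / b') * (c / c') := by
  simp only [div_eq_mul_inv, mul_inv_rev, inv_inv, mul_comm, mul_left_comm, mul_assoc]

variable (K L : Type) [Field K] [Field L] [NumberField K] [NumberField L] [Algebra K L]

/-- The diagonal `Lˣ → J_{L,T}` as a morphism of representations. -/
def diagRepL (T : Finset Nat.Primes) : repL K L ⟶ repJ K L T :=
  Rep.ofHom (LinearMap.intertwiningMap_of_isIntertwiningMap _ _
    ((diagIdele L T).toAdditive.toIntLinearMap)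
    (fun σ x => congrArg Additive.ofMul (diagIdele_smul K L T σ (Additive.toMul x : Lˣ))))

lemma diagRepL_projRep (T : Finset Nat.Primes) (q : T)
    (v : MaximalSpectrum (SemiLocal K q.1)) :
    diagRepL K L T ≫ projRep K L T q v = locRep K L ⟨q.1, v⟩ := by
  ext x
  rfl

lemma projMap_diagRepL (T : Finset Nat.Primes) (q : T)
    (v : MaximalSpectrum (SemiLocal K q.1)) (n : ℕ) (x : groupCohomology (repL K L) n) :
    projMap K L T q v n
        (((groupCohomology.functor ℤ (L ≃ₐ[K] L) n).map (diagRepL K L T)).hom x) =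
      locMap K L ⟨q.1, v⟩ n x := by
  have h := congrArg (fun f => ((groupCohomology.functor ℤ (L ≃ₐ[K] L) n).map f).hom x)
    (diagRepL_projRep K L T q v)
  simp only [Functor.map_comp] at h
  exact h

lemma diagQ_smul (q : Nat.Primes) (σ : L ≃ₐ[K] L) (y : Lˣ) :
    diagQ L q (σ • y) = σ • diagQ L q y := by
  apply Units.ext
  change (1 : Qp q) ⊗ₜ[ℚ] (σ y : L) = semiLocalEquiv K L q σ ((1 : Qp q) ⊗ₜ[ℚ] (y : L))
  simp

/-- If `[f] ∈ H²(G, Lˣ)` is locally trivial at all places above `q`, then `1 ⊗ f` is the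
coboundary of a cochain with values in `(ℚ_q ⊗ L)ˣ`. -/
theorem exists_cochain_of_loc (q : Nat.Primes) (f : cocycles₂ (repL K L))
    (hloc : ∀ v : MaximalSpectrum (SemiLocal K q),
      locMap K L ⟨q, v⟩ 2 (H2π (repL K L) f) = 0) :
    ∃ g : (L ≃ₐ[K] L) → (SemiLocal L q)ˣ, ∀ σ τ : L ≃ₐ[K] L,
      diagQ L q (Additive.toMul (f (σ, τ) : Additive Lˣ)) = σ • g τ / g (σ * τ) * g σ := by
  have hSLD := (H80.stmt_SLD K L {q} 2).1
  have hx : ((groupCohomology.functor ℤ (L ≃ₐ[K] L) 2).map (diagRepL K L {q})).hom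
      (H2π (repL K L) f) = 0 := by
    apply hSLD
    rintro ⟨q', hq'⟩ v
    have hqq : q' = q := Finset.mem_singleton.mp hq'
    subst hqq
    rw [projMap_diagRepL]
    exact hloc v
  have key := H2π_comp_map_apply (MonoidHom.id (L ≃ₐ[K] L)) (diagRepL K L {q}) f
  have hx' : H2π (repJ K L {q}) (mapCocycles₂ (MonoidHom.id _) (diagRepL K L {q}) f) = 0 := by
    rw [← key]
    exact hx
  rw [H2π_eq_zero_iff] at hx'
  obtain ⟨u, hu⟩ := hx'
  have hu' : ∀ σ τ : L ≃ₐ[K] L, (repJ K L {q}).ρ σ (u τ) - u (σ * τ) + u σ =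
      (diagRepL K L {q}).hom (f (σ, τ)) := fun σ τ => congrFun hu (σ, τ)
  let q₀ : ({q} : Finset Nat.Primes) := ⟨q, Finset.mem_singleton_self q⟩
  refine ⟨fun σ => (Additive.toMul (u σ : Additive (IdeleT L {q})) : IdeleT L {q}) q₀,
    fun σ τ => ?_⟩
  have h := congrArg
    (fun z : Additive (IdeleT L {q}) => (Additive.toMul z : IdeleT L {q}) q₀) (hu' σ τ)
  exact h.symm

/-- The elements of `Lˣ` which are units at all primes of `L` above `q`. -/
def unitsAt (q : Nat.Primes) : Subgroup Lˣ where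
  carrier := {y | ∀ w : HeightOneSpectrum (𝓞 L), ((q : ℕ) : 𝓞 L) ∈ w.asIdeal →
    w.valuation L (y : L) = 1}
  one_mem' := fun w _ => by simp
  mul_mem' := by
    intro a b ha hb w hw
    rw [Units.val_mul, map_mul, ha w hw, hb w hw, one_mul]
  inv_mem' := by
    intro a ha w hw
    rw [Units.val_inv_eq_inv_val, map_inv₀, ha w hw, inv_one]

lemma mem_unitsAt (q : Nat.Primes) (y : Lˣ) :
    y ∈ unitsAt L q ↔ ∀ w : HeightOneSpectrum (𝓞 L), ((q : ℕ) : 𝓞 L) ∈ w.asIdeal →
      w.valuation L (y : L) = 1 := Iff.rfl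

/-- Under `Stmt_LocUnitGroup`: `unitsAt L q` is stable under `Gal(L/K)`, and a cocycle which is
locally trivial above `q` is cohomologous to a cocycle with values in `unitsAt L q`. -/
theorem exists_cochain_unitsAt (hLV : Stmt_LocUnitGroup) (q : Nat.Primes) :
    (∀ (σ : L ≃ₐ[K] L) (y : Lˣ), y ∈ unitsAt L q → σ • y ∈ unitsAt L q) ∧
    ∀ f : cocycles₂ (repL K L),
      (∀ v : MaximalSpectrum (SemiLocal K q), locMap K L ⟨q, v⟩ 2 (H2π (repL K L) f) = 0) →
      ∃ y : (L ≃ₐ[K] L) → Lˣ, ∀ σ τ : L ≃ₐ[K] L,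
        (Additive.toMul (f (σ, τ) : Additive Lˣ) : Lˣ) / (σ • y τ / y (σ * τ) * y σ) ∈
          unitsAt L q := by
  obtain ⟨U, hstab, happ, hiff⟩ := hLV K L q
  have hmem : ∀ y : Lˣ, y ∈ unitsAt L q ↔ diagQ L q y ∈ U := fun y => (hiff y).symm
  refine ⟨fun σ y hy => ?_, fun f hloc => ?_⟩
  · rw [hmem, diagQ_smul]
    exact hstab σ _ ((hmem y).1 hy)
  · obtain ⟨g, hg⟩ := exists_cochain_of_loc K L q f hloc
    choose y hy using happ
    refine ⟨fun σ => y (g σ), fun σ τ => ?_⟩
    rw [hmem, map_div, hg σ τ, map_mul, map_div, diagQ_smul]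
    have h1 : σ • g τ / g (σ * τ) * g σ /
        (σ • diagQ L q (y (g τ)) / diagQ L q (y (g (σ * τ))) * diagQ L q (y (g σ))) =
        σ • (g τ / diagQ L q (y (g τ))) / (g (σ * τ) / diagQ L q (y (g (σ * τ)))) *
          (g σ / diagQ L q (y (g σ))) := by
      rw [smul_div']
      exact commGroup_aux _ _ _ _ _ _
    rw [h1]
    exact U.mul_mem (U.div_mem (hstab σ _ (hy (g τ))) (hy (g (σ * τ)))) (hy (g σ))

end Fermat.Agent.S55.CFT.H12
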