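/-
S55 / E4 / CFT, package H1E (helper12): `Stmt_H1Units`.

For admissible `(K, L, T)`: `H¹(Gal(L/K), O_{L,T}ˣ) = 0`.

Proof.  Let `f` be a 1-cocycle with values in the `T`-units.  By Hilbert 90 (Mathlib) there is
`β ∈ Lˣ` with `f σ = σ β / β`; so the valuations of `β` at the primes `w ∤ T` are Galois invariant.
Hence `w(N_{L/K} β) = w(β) ^ [L : K]` for `w ∤ T`.  Since `L/K` is unramified outside `T`,
`w(y) = v(y)` for `y ∈ K`, `v = w ∩ K`.  Since `Cl_T(K) = 1`, every prime `v ∤ T` of `K` is
principal up to `T`, so every finitely supported vector of valuations outside `T` is realised by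
some `y ∈ Kˣ`; choose `y` with `v(y) = w_v(β)` for one `w_v` above each `v`.  Then
`w(y) = w(β)` for every `w ∤ T` (both have the same `[L : K]`-th power `v(N β)`), so
`e = β / y` is a `T`-unit and `f σ = σ e / e`.

Reusable: `valuation_algebraMap_of_unramified`, `exists_uniformizer_of_clTrivial`,
`exists_of_valuations`, `exists_base_of_invariant`, `mem_tUnits_iff`, `isMulCoboundary₁_tUnits`.
-/
import Fermat.Agent.S55.CFT.H12_TUnits
import Fermat.Agent.S55.CFT.Defs_CF

set_option autoImplicit false
set_option linter.unusedSectionVars false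

namespace Fermat.Agent.S55.CFT.H12

open NumberField IsDedekindDomain Module WithZero

section unram1

variable (K L : Type) [Field K] [Field L] [NumberField K] [NumberField L] [Algebra K L]
  (T : Finset Nat.Primes)

/-- Outside `T` the ramification index is one. -/
theorem ramificationIdx'_eq_one_of_unramified [IsGalois K L] (hunr : UnramifiedOutsideT K L T)
    (w : HeightOneSpectrum (𝓞 L)) (hw : w ∉ primesT L T) :
    (w.under (𝓞 K)).asIdeal.ramificationIdx' w.asIdeal = 1 := by
  have hin : w.asIdeal.inertia (L ≃ₐ[K] L) = ⊥ := by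
    apply hunr w.asIdeal w.isPrime w.ne_bot
    intro q hq hmem
    exact hw ((mem_primesT_iff_exists L T w).mpr ⟨q, hq, hmem⟩)
  have hlies : w.asIdeal.LiesOver (w.under (𝓞 K)).asIdeal := ⟨rfl⟩
  have hprime : (w.under (𝓞 K)).asIdeal.IsPrime := (w.under (𝓞 K)).isPrime
  have h1 := Ideal.card_inertia_eq_ramificationIdxIn (G := L ≃ₐ[K] L)
    (w.under (𝓞 K)).asIdeal w.asIdeal
  rw [hin, Subgroup.card_bot] at h1
  rw [Ideal.ramificationIdx'_eq_ramificationIdx _ _ (w.under (𝓞 K)).ne_bot,
    ← Ideal.ramificationIdxIn_eq_ramificationIdx (w.under (𝓞 K)).asIdeal w.asIdeal (L ≃ₐ[K] L)]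
  exact h1.symm

theorem valuation_algebraMap_of_unramified [IsGalois K L] (hunr : UnramifiedOutsideT K L T)
    (w : HeightOneSpectrum (𝓞 L)) (hw : w ∉ primesT L T) (y : K) :
    w.valuation L (algebraMap K L y) = (w.under (𝓞 K)).valuation K y := by
  have hlies : w.asIdeal.LiesOver (w.under (𝓞 K)).asIdeal := ⟨rfl⟩
  rw [← HeightOneSpectrum.valuation_liesOver L (w.under (𝓞 K)) w y,
    ramificationIdx'_eq_one_of_unramified K L T hunr w hw, pow_one]

end unram1

section cl

variable (K : Type) [Field K] [NumberField K] (T : Finset Nat.Primes)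

/-- The count of a prime in an ideal dividing a power of `prodT` vanishes outside `T`. -/
theorem count_eq_zero_of_dvd_prodT (v : HeightOneSpectrum (𝓞 K)) (hv : v ∉ primesT K T)
    {J : Ideal (𝓞 K)} {n : ℕ} (hJ : J ∣ Ideal.span {((prodT T : ℤ) : 𝓞 K)} ^ n) (hJ0 : J ≠ ⊥) :
    (Associates.mk v.asIdeal).count (Associates.mk J).factors = 0 := by
  by_contra hne
  have hdvd : v.asIdeal ∣ J :=
    (Associates.count_ne_zero_iff_dvd hJ0 v.irreducible).mp hne
  have h1 : v.asIdeal ∣ Ideal.span {((prodT T : ℤ) : 𝓞 K)} ^ n := hdvd.trans hJ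
  have h2 : v.asIdeal ∣ Ideal.span {((prodT T : ℤ) : 𝓞 K)} := v.prime.dvd_of_dvd_pow h1
  rw [Ideal.dvd_span_singleton] at h2
  apply hv
  rw [mem_primesT]
  simpa using h2

open Classical in
/-- If `Cl_T(K) = 1`, every prime outside `T` has a generator up to `T`. -/
theorem exists_uniformizer_of_clTrivial (hcl : ClTrivial K T) (v : HeightOneSpectrum (𝓞 K)) :
    ∃ π : Kˣ, ∀ v' : HeightOneSpectrum (𝓞 K), v' ∉ primesT K T →
      v'.valuation K (π : K) = if v' = v then exp (-1 : ℤ) else 1 := by
  classical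
  obtain ⟨a, b, J, n, ha, hb, hJ, hab⟩ := hcl v.asIdeal v.ne_bot
  have hJ0 : J ≠ ⊥ := by
    rintro rfl
    have h0 : Ideal.span {a} * v.asIdeal ≠ ⊥ :=
      mul_ne_zero (by simpa using ha) v.ne_bot
    rw [hab] at h0
    simp at h0
  have hane : (algebraMap (𝓞 K) K a) ≠ 0 := by
    simpa using ha
  have hbne : (algebraMap (𝓞 K) K b) ≠ 0 := by
    simpa using hb
  refine ⟨Units.mk0 (algebraMap (𝓞 K) K b / algebraMap (𝓞 K) K a) (div_ne_zero hbne hane), ?_⟩
  intro v' hv'
  rw [Units.val_mk0, map_div₀, HeightOneSpectrum.valuation_of_algebraMap,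
    HeightOneSpectrum.valuation_of_algebraMap, v'.intValuation_if_neg ha,
    v'.intValuation_if_neg hb]
  have hsa : (Associates.mk (Ideal.span {a} : Ideal (𝓞 K))) ≠ 0 := by
    rw [Associates.mk_ne_zero]; simpa using ha
  have hsb : (Associates.mk (Ideal.span {b} : Ideal (𝓞 K))) ≠ 0 := by
    rw [Associates.mk_ne_zero]; simpa using hb
  have hsv : (Associates.mk v.asIdeal) ≠ 0 := by
    rw [Associates.mk_ne_zero]; exact v.ne_bot
  have hsJ : (Associates.mk J) ≠ 0 := by
    rw [Associates.mk_ne_zero]; exact hJ0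
  have hirr : Irreducible (Associates.mk v'.asIdeal) := v'.associates_irreducible
  have hcount := congrArg (fun I => (Associates.mk v'.asIdeal).count (Associates.mk I).factors) hab
  simp only [← Associates.mk_mul_mk] at hcount
  rw [Associates.count_mul hsa hsv hirr, Associates.count_mul hsb hsJ hirr,
    count_eq_zero_of_dvd_prodT K T v' hv' hJ hJ0, add_zero] at hcount
  by_cases hvv : v' = v
  · subst hvv
    rw [Associates.count_self hirr] at hcount
    rw [if_pos rfl, ← hcount, ← exp_sub]
    congr 1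
    push_cast
    ring
  · rw [if_neg hvv]
    have h0 : (Associates.mk v'.asIdeal).count (Associates.mk v.asIdeal).factors = 0 := by
      apply Associates.count_eq_zero_of_ne hirr v.associates_irreducible
      intro h
      apply hvv
      apply HeightOneSpectrum.ext
      have := Associates.mk_eq_mk_iff_associated.mp h
      exact associated_iff_eq.mp this
    rw [h0, add_zero] at hcount
    rw [hcount, div_self]
    exact exp_ne_zero

open Classical in
/-- If `Cl_T(K) = 1`, every finitely supported valuation vector outside `T` is realised. -/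
theorem exists_of_valuations (hcl : ClTrivial K T) (S : Finset (HeightOneSpectrum (𝓞 K)))
    (n : HeightOneSpectrum (𝓞 K) → ℤ) :
    ∃ y : Kˣ, ∀ v : HeightOneSpectrum (𝓞 K), v ∉ primesT K T →
      v.valuation K (y : K) = if v ∈ S then exp (n v) else 1 := by
  induction S using Finset.induction_on with
  | empty =>
    exact ⟨1, fun v _ => by simp⟩
  | insert v S hvS ih =>
    obtain ⟨y', hy'⟩ := ih
    obtain ⟨π, hπ⟩ := exists_uniformizer_of_clTrivial K T hcl v
    refine ⟨y' * π ^ (-(n v)), ?_⟩
    intro v' hv'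
    rw [Units.val_mul, Units.val_zpow_eq_zpow_val, map_mul, map_zpow₀, hy' v' hv', hπ v' hv']
    by_cases hvv : v' = v
    · subst hvv
      rw [if_neg hvS, if_pos rfl, if_pos (Finset.mem_insert_self _ _), one_mul, ← exp_zsmul]
      congr 1
      simp
    · rw [if_neg hvv, one_zpow, mul_one]
      by_cases hS : v' ∈ S
      · rw [if_pos hS, if_pos (Finset.mem_insert_of_mem hS)]
      · rw [if_neg hS, if_neg]
        rw [Finset.mem_insert]
        tauto

theorem finite_valuation_ne_one (z : Kˣ) :
    {v : HeightOneSpectrum (𝓞 K) | v.valuation K (z : K) ≠ 1}.Finite := by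
  have h1 := HeightOneSpectrum.Support.finite (𝓞 K) (z : K)
  have h2 := HeightOneSpectrum.Support.finite (𝓞 K) ((z⁻¹ : Kˣ) : K)
  apply (h1.union h2).subset
  intro v hv
  rw [Set.mem_ofPred_eq] at hv
  rcases lt_or_gt_of_ne hv with h | h
  · right
    change 1 < v.valuation K ((z⁻¹ : Kˣ) : K)
    rw [Units.val_inv_eq_inv_val, map_inv₀]
    exact (one_lt_inv₀ (by simp [zero_lt_iff])).mpr h
  · left
    exact h

end cl

section unram2

variable (K L : Type) [Field K] [Field L] [NumberField K] [NumberField L] [Algebra K L]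
  (T : Finset Nat.Primes)

/-- Every prime of `K` has a prime of `L` above it. -/
theorem exists_over (v : HeightOneSpectrum (𝓞 K)) :
    ∃ w : HeightOneSpectrum (𝓞 L), w.under (𝓞 K) = v := by
  have hv := v.isPrime
  obtain ⟨⟨Q, hQ, hQv⟩⟩ := Ideal.nonempty_primesOver (S := 𝓞 L) v.asIdeal
  have hQne : Q ≠ ⊥ := Ideal.ne_bot_of_mem_primesOver v.ne_bot ⟨hQ, hQv⟩
  have hQv' : Q.comap (algebraMap (𝓞 K) (𝓞 L)) = v.asIdeal :=
    ((Ideal.liesOver_iff _ _).mp hQv).symm
  exact ⟨⟨Q, hQ, hQne⟩, HeightOneSpectrum.ext hQv'⟩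

theorem valuation_norm_of_invariant [IsGalois K L] (β : Lˣ)
    (w : HeightOneSpectrum (𝓞 L))
    (hβ : ∀ σ : L ≃ₐ[K] L, w.valuation L (σ (β : L)) = w.valuation L (β : L)) :
    w.valuation L (algebraMap K L (Algebra.norm K (β : L))) =
      w.valuation L (β : L) ^ finrank K L := by
  classical
  rw [Algebra.norm_eq_prod_automorphisms, map_prod, Finset.prod_congr rfl (fun σ _ => hβ σ),
    Finset.prod_const, Finset.card_univ, ← Nat.card_eq_fintype_card, IsGalois.card_aut_eq_finrank]

open Classical in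
theorem exists_base_of_invariant [IsGalois K L] (hunr : UnramifiedOutsideT K L T)
    (hcl : ClTrivial K T) (β : Lˣ)
    (hβ : ∀ σ : L ≃ₐ[K] L, ∀ w : HeightOneSpectrum (𝓞 L), w ∉ primesT L T →
      w.valuation L (σ (β : L)) = w.valuation L (β : L)) :
    ∃ y : Kˣ, ∀ w : HeightOneSpectrum (𝓞 L), w ∉ primesT L T →
      w.valuation L (algebraMap K L (y : K)) = w.valuation L (β : L) := by
  have hn : finrank K L ≠ 0 := Module.finrank_pos.ne'
  have hz0 : Algebra.norm K (β : L) ≠ 0 := by
    rw [Ne, Algebra.norm_eq_zero_iff]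
    exact β.ne_zero
  set z : Kˣ := Units.mk0 _ hz0 with hz
  -- the key relation
  have key : ∀ w : HeightOneSpectrum (𝓞 L), w ∉ primesT L T →
      (w.under (𝓞 K)).valuation K (z : K) = w.valuation L (β : L) ^ finrank K L := by
    intro w hw
    rw [← valuation_algebraMap_of_unramified K L T hunr w hw, hz, Units.val_mk0]
    exact valuation_norm_of_invariant K L β w (fun σ => hβ σ w hw)
  choose wOf hwOf using exists_over K L
  obtain ⟨y, hy⟩ := exists_of_valuations K T hcl (finite_valuation_ne_one K z).toFinset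
    (fun v => log ((wOf v).valuation L (β : L)))
  refine ⟨y, ?_⟩
  intro w hw
  have hwK : w.under (𝓞 K) ∉ primesT K T := fun h => hw ((mem_primesT_iff_under K L T w).mpr h)
  rw [valuation_algebraMap_of_unramified K L T hunr w hw, hy _ hwK]
  have hβ0 : w.valuation L (β : L) ≠ 0 := by
    rw [Ne, Valuation.zero_iff]; exact β.ne_zero
  by_cases hS : w.under (𝓞 K) ∈ (finite_valuation_ne_one K z).toFinset
  · rw [if_pos hS]
    have hw' : wOf (w.under (𝓞 K)) ∉ primesT L T := by
      rw [mem_primesT_iff_under K L T, hwOf]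
      exact hwK
    have h1 := key _ hw'
    rw [hwOf, key w hw] at h1
    have h2 : w.valuation L (β : L) = (wOf (w.under (𝓞 K))).valuation L (β : L) :=
      (pow_left_inj₀ zero_le zero_le hn).mp h1
    rw [← h2, exp_log hβ0]
  · rw [if_neg hS]
    rw [Set.Finite.mem_toFinset, Set.mem_ofPred_eq, not_not, key w hw] at hS
    exact ((pow_eq_one_iff_of_nonneg zero_le hn).mp hS).symm

theorem mem_tUnits_iff (x : Lˣ) :
    x ∈ TUnits L T ↔ ∀ w : HeightOneSpectrum (𝓞 L), w ∉ primesT L T →
      w.valuation L (x : L) = 1 := by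
  rw [tUnits_eq]
  constructor
  · intro h w hw
    exact h w (by simpa using hw)
  · intro h w hw
    exact h w (by simpa using hw)

/-- **H1E**, multiplicative form: every 1-cocycle of `Gal(L/K)` in the `T`-units is a
coboundary, if `L/K` is unramified outside `T` and `Cl_T(K) = 1`. -/
theorem isMulCoboundary₁_tUnits [IsGalois K L] (hunr : UnramifiedOutsideT K L T)
    (hcl : ClTrivial K T) (f : (L ≃ₐ[K] L) → TUnits L T) (hf : groupCohomology.IsMulCocycle₁ f) :
    groupCohomology.IsMulCoboundary₁ f := by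
  have hf' : groupCohomology.IsMulCocycle₁ (fun g => ((f g : TUnits L T) : Lˣ)) := by
    intro g h
    have := congrArg (fun u : TUnits L T => (u : Lˣ)) (hf g h)
    exact this
  obtain ⟨β, hβ0⟩ := groupCohomology.isMulCoboundary₁_of_isMulCocycle₁_of_aut_to_units _ hf'
  have hβ : ∀ g : L ≃ₐ[K] L, g • β / β = (f g : Lˣ) := hβ0
  have hinv : ∀ σ : L ≃ₐ[K] L, ∀ w : HeightOneSpectrum (𝓞 L), w ∉ primesT L T →
      w.valuation L (σ (β : L)) = w.valuation L (β : L) := by
    intro σ w hw
    have h1 := (mem_tUnits_iff L T _).mp (f σ).2 w hw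
    rw [← hβ σ] at h1
    have h2 : ((σ • β / β : Lˣ) : L) = σ (β : L) / (β : L) := by
      rw [Units.val_div_eq_div_val]
      rfl
    rw [h2, map_div₀, div_eq_one_iff_eq] at h1
    · exact h1
    · rw [Ne, Valuation.zero_iff]; exact β.ne_zero
  obtain ⟨y, hy⟩ := exists_base_of_invariant K L T hunr hcl β hinv
  set y' : Lˣ := Units.map (algebraMap K L : K →* L) y with hy'
  have hy'val : ((y' : Lˣ) : L) = algebraMap K L (y : K) := rfl
  have hfix : ∀ σ : L ≃ₐ[K] L, σ • y' = y' := by
    intro σ
    apply Units.ext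
    change σ (algebraMap K L (y : K)) = algebraMap K L (y : K)
    exact σ.commutes _
  have he : β / y' ∈ TUnits L T := by
    rw [mem_tUnits_iff]
    intro w hw
    rw [Units.val_div_eq_div_val, map_div₀, hy'val, hy w hw, div_self]
    rw [Ne, Valuation.zero_iff]; exact β.ne_zero
  refine ⟨⟨β / y', he⟩, ?_⟩
  intro g
  apply Subtype.ext
  change g • (β / y') / (β / y') = (f g : Lˣ)
  rw [← hβ g, smul_div', hfix g]
  rw [div_div_div_cancel_right]

theorem stmt_H1Units : Stmt_H1Units := by
  intro p K L _ _ _ _ _ T hadm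
  have hgal := hadm.gal
  have hcl : ClTrivial K T := hadm.cl K
  have hunr := hadm.unr
  suffices h : ∀ a : groupCohomology.H1 (repE K L T), a = 0 from
    ⟨fun a b => by rw [h a, h b]⟩
  intro a
  refine groupCohomology.H1_induction_on a fun x => (groupCohomology.H1π_eq_zero_iff _).2 ?_
  refine (groupCohomology.coboundariesOfIsMulCoboundary₁ ?_).2
  exact isMulCoboundary₁_tUnits K L T hunr hcl _
    (groupCohomology.isMulCocycle₁_of_mem_cocycles₁ _ x.2)

end unram2

end Fermat.Agent.S55.CFT.H12
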