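/-
S55-E4 (helper12): cohomology of a finite cyclic group as relative indices (bridge for GLB-2, FI):
for G cyclic generated by g and A : Rep k G,
  card_even : #H^i(G,A) = [ker (rho g - 1) : range N]  (i > 0 even),
  card_odd  : #H^i(G,A) = [ker N : range (rho g - 1)]  (i odd),
  norm_eq_sum_pow : N = sum_{i<p} (rho g)^i  when #G = p.
From Mathlib's groupCohomologyIsoEven/Odd.
-/
import Mathlib
import Fermat.Agent.S14.H62_Abstract

set_option autoImplicit false

namespace Fermat.Agent.S55.CFT.H12

open CategoryTheory groupCohomology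

section general

variable {k : Type} [CommRing k]

/-- The cardinality of the homology of a short complex of modules as a relative index. -/
theorem card_moduleCat_homology (S : ShortComplex (ModuleCat.{0} k)) :
    Nat.card S.homology =
      (LinearMap.range S.f.hom).toAddSubgroup.relIndex (LinearMap.ker S.g.hom).toAddSubgroup := by
  rw [Nat.card_congr S.moduleCatHomologyIso.toLinearEquiv.toEquiv]
  rw [AddSubgroup.relIndex, AddSubgroup.index]
  have : ((LinearMap.range S.f.hom).toAddSubgroup).addSubgroupOf
      (LinearMap.ker S.g.hom).toAddSubgroup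
      = (LinearMap.range S.moduleCatToCycles).toAddSubgroup := by
    ext ⟨x, hx⟩
    simp only [AddSubgroup.mem_addSubgroupOf, Submodule.mem_toAddSubgroup, LinearMap.mem_range]
    constructor
    · rintro ⟨y, hy⟩
      exact ⟨y, Subtype.ext hy⟩
    · rintro ⟨y, hy⟩
      exact ⟨y, congrArg Subtype.val hy⟩
  rw [this]
  rfl

end general

section comm

variable {k G : Type} [CommRing k] [CommGroup G] [Fintype G] (A : Rep.{0} k G) (g : G)
  (hg : ∀ x, x ∈ Subgroup.zpowers g)

include hg

/-- `#Hⁱ(G, A) = [ker (ρ g - 1) : range N]` for even `i > 0`. -/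
theorem card_even_comm (i : ℕ) [NeZero i] (hi : Even i) :
    Nat.card (groupCohomology A i) =
      (LinearMap.range A.ρ.norm).toAddSubgroup.relIndex
        (LinearMap.ker (A.ρ g - 1)).toAddSubgroup := by
  rw [Nat.card_congr (Rep.FiniteCyclicGroup.groupCohomologyIsoEven A g hg i hi).toLinearEquiv.toEquiv,
    card_moduleCat_homology]
  rfl

/-- `#Hⁱ(G, A) = [ker N : range (ρ g - 1)]` for odd `i`. -/
theorem card_odd_comm (i : ℕ) (hi : Odd i) :
    Nat.card (groupCohomology A i) =
      (LinearMap.range (A.ρ g - 1)).toAddSubgroup.relIndex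
        (LinearMap.ker A.ρ.norm).toAddSubgroup := by
  rw [Nat.card_congr (Rep.FiniteCyclicGroup.groupCohomologyIsoOdd A g hg i hi).toLinearEquiv.toEquiv,
    card_moduleCat_homology]
  rfl

end comm

section cyclic

variable {k G : Type} [CommRing k] [Group G] [Fintype G] (A : Rep.{0} k G) (g : G)
  (hg : ∀ x, x ∈ Subgroup.zpowers g)

include hg

/-- `#Hⁱ(G, A) = [ker (ρ g - 1) : range N]` for even `i > 0`, `G` cyclic generated by `g`. -/
theorem card_even (i : ℕ) [NeZero i] (hi : Even i) :
    Nat.card (groupCohomology A i) =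
      (LinearMap.range A.ρ.norm).toAddSubgroup.relIndex
        (LinearMap.ker (A.ρ g - 1)).toAddSubgroup := by
  have : IsCyclic G := ⟨g, hg⟩
  let _ : CommGroup G := IsCyclic.commGroup
  exact card_even_comm A g hg i hi

/-- `#Hⁱ(G, A) = [ker N : range (ρ g - 1)]` for odd `i`, `G` cyclic generated by `g`. -/
theorem card_odd (i : ℕ) (hi : Odd i) :
    Nat.card (groupCohomology A i) =
      (LinearMap.range (A.ρ g - 1)).toAddSubgroup.relIndex
        (LinearMap.ker A.ρ.norm).toAddSubgroup := by
  have : IsCyclic G := ⟨g, hg⟩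
  let _ : CommGroup G := IsCyclic.commGroup
  exact card_odd_comm A g hg i hi

end cyclic

section herbrand

open Fermat.Agent.S14.H62

variable {k G : Type} [CommRing k] [Group G] [Fintype G] (A : Rep.{0} k G) (g : G)
  (hg : ∀ x, x ∈ Subgroup.zpowers g)

include hg

/-- For `G` cyclic of order `p` generated by `g`: the norm is `∑ i < p, (ρ g)^i`. -/
theorem norm_eq_sum_pow (p : ℕ) (hp : Nat.card G = p) :
    A.ρ.norm = ∑ i ∈ Finset.range p, (A.ρ g) ^ i := by
  classical
  have hord : orderOf g = p := by
    rw [orderOf_eq_card_of_forall_mem_zpowers hg, hp]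
  unfold Representation.norm
  rw [← IsCyclic.image_range_orderOf hg, hord, Finset.sum_image]
  · refine Finset.sum_congr rfl (fun i _ => ?_)
    rw [map_pow]
  · intro i hi j hj hij
    rw [← hord] at hi hj
    exact pow_injOn_Iio_orderOf (by simpa using hi) (by simpa using hj) hij

end herbrand

end Fermat.Agent.S55.CFT.H12
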