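/-
S55 / E4 / CFT wave 3, leaf VAL (helper19), part 1: cochains in arbitrary degree.

* `pi_eq_zero_iff` : the class of an `(n+1)`-cocycle vanishes iff it is `d u`;
* `d_natural`, `iCocycles_cocyclesMap`, `map_pi` : naturality;
* `eq_zero_of_components` (**gluing**): if `A` is the "direct sum" of a family `B i` through
  projections `r i : A ⟶ B i` (jointly injective, finitely supported, every finitely supported
  family is attained) and `G` is finite, then a class of `Hⁿ⁺¹(G, A)` all of whose components
  vanish is zero.
-/
import Mathlib

set_option autoImplicit false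
set_option linter.unusedSectionVars false
set_option linter.unusedVariables false

noncomputable section

namespace Fermat.Agent.S55.CFT.H19

open CategoryTheory groupCohomology

variable {k G : Type} [CommRing k] [Group G]

section api

variable (A B : Rep.{0} k G) (n : ℕ)

/-- The class of an `(n+1)`-cocycle vanishes iff the cocycle is a coboundary. -/
theorem pi_eq_zero_iff (z : cocycles A (n + 1)) :
    π A (n + 1) z = 0 ↔
      ∃ u : (Fin n → G) → A.V, inhomogeneousCochains.d A n u = iCocycles A (n + 1) z := by
  have hex : (ShortComplex.mk ((inhomogeneousCochains A).toCycles n (n + 1))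
      ((inhomogeneousCochains A).homologyπ (n + 1)) (by simp)).Exact :=
    ShortComplex.exact_of_g_is_cokernel _
      ((inhomogeneousCochains A).homologyIsCokernel n (n + 1) (by simp))
  rw [ShortComplex.moduleCat_exact_iff] at hex
  have hi : ∀ u : (Fin n → G) → A.V,
      iCocycles A (n + 1) ((inhomogeneousCochains A).toCycles n (n + 1) u) =
        inhomogeneousCochains.d A n u := by
    intro u
    have h1 := congrArg (fun f => f.hom u) ((inhomogeneousCochains A).toCycles_i n (n + 1))
    have h2 := congrArg (fun f => f.hom u) (inhomogeneousCochains.d_def A n)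
    exact h1.trans h2
  have hinj : Function.Injective (iCocycles A (n + 1)) :=
    (ModuleCat.mono_iff_injective _).1 inferInstance
  constructor
  · intro h
    obtain ⟨u, hu⟩ := hex z h
    refine ⟨u, ?_⟩
    rw [← hi u]
    exact congrArg _ hu
  · rintro ⟨u, hu⟩
    have h1 : (inhomogeneousCochains A).toCycles n (n + 1) u = z := by
      apply hinj
      rw [hi u, hu]
    rw [← h1]
    exact congrArg (fun f => f.hom u)
      ((inhomogeneousCochains A).toCycles_comp_homologyπ n (n + 1))

variable {A B}

theorem d_natural (φ : A ⟶ B) (u : (Fin n → G) → A.V) :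
    inhomogeneousCochains.d B n (fun g => φ.hom (u g)) =
      fun g => φ.hom (inhomogeneousCochains.d A n u g) := by
  have h := (cochainsMap (MonoidHom.id G) φ).comm n (n + 1)
  have h1 := congrArg (fun f => f.hom u) h
  rw [inhomogeneousCochains.d_def, inhomogeneousCochains.d_def] at h1
  exact h1

theorem iCocycles_cocyclesMap (φ : A ⟶ B) (z : cocycles A n) :
    iCocycles B n (cocyclesMap (MonoidHom.id G) φ n z) =
      fun g => φ.hom (iCocycles A n z g) := by
  have h := HomologicalComplex.cyclesMap_i (cochainsMap (MonoidHom.id G) φ) n
  exact congrArg (fun f => f.hom z) h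

theorem map_pi (φ : A ⟶ B) (z : cocycles A n) :
    (map (MonoidHom.id G) φ n).hom (π A n z) =
      π B n (cocyclesMap (MonoidHom.id G) φ n z) :=
  congrArg (fun f => f.hom z) (π_map (MonoidHom.id G) φ n)

end api

section glue

/-- **Gluing**: a class all of whose components vanish is zero, when `A` is the direct sum of the
`B i` (presented by the projections `r i`) and `G` is finite. -/
theorem eq_zero_of_components [Finite G] (A : Rep.{0} k G) {I : Type} (B : I → Rep.{0} k G)
    (r : ∀ i, A ⟶ B i)
    (hinj : ∀ a : A.V, (∀ i, (r i).hom a = 0) → a = 0)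
    (hfin : ∀ a : A.V, {i | (r i).hom a ≠ 0}.Finite)
    (hglue : ∀ b : ∀ i, (B i).V, {i | b i ≠ 0}.Finite → ∃ a : A.V, ∀ i, (r i).hom a = b i)
    (n : ℕ) (y : groupCohomology A (n + 1))
    (hy : ∀ i, (map (MonoidHom.id G) (r i) (n + 1)).hom y = 0) : y = 0 := by
  classical
  induction y using groupCohomology_induction_on with
  | h z =>
    -- the components are coboundaries
    have h1 : ∀ i, ∃ u : (Fin n → G) → (B i).V,
        inhomogeneousCochains.d (B i) n u = fun g => (r i).hom (iCocycles A (n + 1) z g) := by
      intro i
      have h2 := hy i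
      rw [map_pi, pi_eq_zero_iff] at h2
      obtain ⟨u, hu⟩ := h2
      exact ⟨u, hu.trans (iCocycles_cocyclesMap (n + 1) (r i) z)⟩
    choose u' hu' using h1
    -- the finite set of indices where the cocycle lives
    set I₀ : Set I := ⋃ g : Fin (n + 1) → G, {i | (r i).hom (iCocycles A (n + 1) z g) ≠ 0}
      with hI₀
    have hI₀fin : I₀.Finite := Set.finite_iUnion (fun g => hfin _)
    have hout : ∀ i, i ∉ I₀ → ∀ g, (r i).hom (iCocycles A (n + 1) z g) = 0 := by
      intro i hi g
      by_contra hne
      exact hi (Set.mem_iUnion.2 ⟨g, hne⟩)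
    set u'' : ∀ i, (Fin n → G) → (B i).V := fun i => if i ∈ I₀ then u' i else 0 with hu''
    have hu''d : ∀ i, inhomogeneousCochains.d (B i) n (u'' i) =
        fun g => (r i).hom (iCocycles A (n + 1) z g) := by
      intro i
      by_cases hi : i ∈ I₀
      · have : u'' i = u' i := if_pos hi
        rw [this]
        exact hu' i
      · have : u'' i = 0 := if_neg hi
        rw [this, map_zero]
        funext g
        exact (hout i hi g).symm
    have hsupp : ∀ g : Fin n → G, {i | u'' i g ≠ 0}.Finite := by
      intro g
      apply hI₀fin.subset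
      intro i hi
      by_contra hni
      apply hi
      have : u'' i = 0 := if_neg hni
      rw [this]
      rfl
    have h3 : ∀ g : Fin n → G, ∃ a : A.V, ∀ i, (r i).hom a = u'' i g :=
      fun g => hglue (fun i => u'' i g) (hsupp g)
    choose u hu using h3
    rw [pi_eq_zero_iff]
    refine ⟨u, ?_⟩
    funext g
    rw [← sub_eq_zero]
    apply hinj
    intro i
    rw [map_sub, sub_eq_zero]
    have h4 := congrFun (d_natural n (r i) u) g
    have h5 : (fun g => (r i).hom (u g)) = u'' i := funext (fun g => hu g i)
    rw [h5, hu''d i] at h4
    exact h4.symm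

end glue

end Fermat.Agent.S55.CFT.H19
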