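import Mathlib

/-!
# CFT package TN-1 (twin vanishing), part 1 (helper58): basic tools

* `shortExact_of_concrete`, `isZero_add_two` : long exact sequence steps;
* `funRep A X` : the representation of `G` on `X → A` for a `G`-set `X`, with the constant map
  `iotaF` and the sum map `tauF`;
* `funObjShapiro` : `Hⁿ(G, Fun(G ⧸ S, A)) ≅ Hⁿ(S, A)` (Shapiro);
* `exists_telescope` : telescoping on a finite cyclic group.

Everything is stated for a generic commutative ring `k` (for `k = ℤ` instance search would pick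
the canonical `ℤ`-module structure instead of the one bundled in `Rep`).
-/

set_option autoImplicit false

noncomputable section

namespace Fermat.Agent.S55.CFT.H58

open CategoryTheory CategoryTheory.Limits groupCohomology Rep

variable {k : Type} [CommRing k] {G : Type} [Group G]

/-- A short complex in `Rep k G` is short exact if it is so on underlying modules. -/
lemma shortExact_of_concrete {A B C : Rep.{0} k G} (f : A ⟶ B) (g : B ⟶ C) (w : f ≫ g = 0)
    (hf : Function.Injective f.hom) (hg : Function.Surjective g.hom)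
    (hfg : ∀ b : B, g.hom b = 0 → ∃ a : A, f.hom a = b) :
    (ShortComplex.mk f g w).ShortExact := by
  have hex : (ShortComplex.mk f g w).Exact := by
    rw [← ShortComplex.exact_map_iff_of_faithful _ (forget₂ (Rep.{0} k G) (ModuleCat.{0} k))]
    rw [ShortComplex.moduleCat_exact_iff]
    intro x hx
    obtain ⟨a, ha⟩ := hfg x hx
    exact ⟨a, ha⟩
  exact { exact := hex
          mono_f := (Rep.mono_iff_injective f).2 hf
          epi_g := (Rep.epi_iff_surjective g).2 hg }

/-- One step of the long exact sequence: if `Hⁿ⁺¹(X₂) = 0` and `Hⁿ(X₃) = 0` then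
`Hⁿ⁺¹(X₁) = 0`. -/
lemma isZero_succ_of_shortExact {X : ShortComplex (Rep.{0} k G)} (hX : X.ShortExact) (n : ℕ)
    (h2 : IsZero (groupCohomology X.X₂ (n + 1))) (h3 : IsZero (groupCohomology X.X₃ n)) :
    IsZero (groupCohomology X.X₁ (n + 1)) := by
  have := epi_δ_of_isZero hX n h2
  exact IsZero.of_epi (δ hX n (n + 1) rfl) h3

/-- The periodicity step: from `0 → A → B → Z → 0` and `0 → Z → B → A → 0` with `B` acyclic
in degrees `n + 1`, `n + 2`: `Hⁿ(A) = 0 → Hⁿ⁺²(A) = 0`. -/
lemma isZero_add_two {A B Z : Rep.{0} k G} {f₁ : A ⟶ B} {g₁ : B ⟶ Z} {w₁ : f₁ ≫ g₁ = 0}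
    {f₂ : Z ⟶ B} {g₂ : B ⟶ A} {w₂ : f₂ ≫ g₂ = 0}
    (h₁ : (ShortComplex.mk f₁ g₁ w₁).ShortExact) (h₂ : (ShortComplex.mk f₂ g₂ w₂).ShortExact)
    (n : ℕ) (hB1 : IsZero (groupCohomology B (n + 1)))
    (hB2 : IsZero (groupCohomology B (n + 2)))
    (hA : IsZero (groupCohomology A n)) : IsZero (groupCohomology A (n + 2)) := by
  have hZ : IsZero (groupCohomology Z (n + 1)) := isZero_succ_of_shortExact h₂ n hB1 hA
  exact isZero_succ_of_shortExact h₁ (n + 1) hB2 hZ

/-! ## The representation on functions `X → A` for a `G`-set `X` -/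

section FunRep

variable (A : Rep.{0} k G) (X : Type) [MulAction G X]

/-- The representation of `G` on `X → A`: `(h • φ) x = ρ h (φ (h⁻¹ • x))`. -/
def funRep : Representation k G (X → A.V) where
  toFun h :=
    { toFun := fun φ x => A.ρ h (φ (h⁻¹ • x))
      map_add' := fun φ ψ => by ext x; simp
      map_smul' := fun r φ => by ext x; simp }
  map_one' := by ext φ x; simp
  map_mul' := fun g h => by
    ext φ x
    simp [mul_smul]

@[simp] lemma funRep_apply (h : G) (φ : X → A.V) (x : X) :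
    funRep A X h φ x = A.ρ h (φ (h⁻¹ • x)) := rfl

/-- The object of `Rep k G` of functions `X → A`. -/
abbrev FunObj : Rep.{0} k G := Rep.of (funRep A X)

/-- The constant functions `A → (X → A)`. -/
def iotaF : A ⟶ FunObj A X :=
  Rep.ofHom (ρ := A.ρ) (σ := funRep A X)
    ⟨{ toFun := fun a _ => a
       map_add' := fun _ _ => rfl
       map_smul' := fun _ _ => rfl }, fun h => by ext a x; simp⟩

@[simp] lemma iotaF_apply (a : A.V) (x : X) : (iotaF A X).hom a x = a := rfl

variable [Fintype X]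

/-- The sum map `(X → A) → A`. -/
def tauF : FunObj A X ⟶ A :=
  Rep.ofHom (ρ := funRep A X) (σ := A.ρ)
    ⟨{ toFun := fun φ => ∑ x, φ x
       map_add' := fun φ ψ => by simp [Finset.sum_add_distrib]
       map_smul' := fun r φ => by simp [Finset.smul_sum] }, fun h => by
      ext φ
      simp only [LinearMap.coe_comp, LinearMap.coe_mk, AddHom.coe_mk, Function.comp_apply,
        funRep_apply, map_sum]
      exact Equiv.sum_comp (MulAction.toPerm h⁻¹) (fun x => A.ρ h (φ x))⟩

@[simp] lemma tauF_apply (φ : X → A.V) : (tauF A X).hom φ = ∑ x, φ x := rfl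

lemma tauF_iotaF (a : A.V) : (tauF A X).hom ((iotaF A X).hom a) = Fintype.card X • a := by
  show ∑ _x : X, a = Fintype.card X • a
  rw [Finset.sum_const, Finset.card_univ]

end FunRep

section Shapiro

variable (A : Rep.{0} k G) (S : Subgroup G)

/-- The comparison map `(G ⧸ S → A) → Coind_S^G A`, `φ ↦ (g ↦ ρ g (φ (g⁻¹ S)))`. -/
def toCoindLin : (G ⧸ S → A.V) →ₗ[k] (res S.subtype A).ρ.coindV S.subtype where
  toFun φ := ⟨fun g => A.ρ g (φ ((g⁻¹ : G) : G ⧸ S)), fun s h => by
    have h1 : (((S.subtype s * h)⁻¹ : G) : G ⧸ S) = ((h⁻¹ : G) : G ⧸ S) := by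
      rw [mul_inv_rev]
      exact QuotientGroup.mk_mul_of_mem _ (S.inv_mem s.2)
    simp only [h1, map_mul]
    rfl⟩
  map_add' φ ψ := by
    apply Subtype.ext
    funext g
    simp
  map_smul' r φ := by
    apply Subtype.ext
    funext g
    simp

@[simp] lemma toCoindLin_apply (φ : G ⧸ S → A.V) (g : G) :
    (toCoindLin A S φ).1 g = A.ρ g (φ ((g⁻¹ : G) : G ⧸ S)) := rfl

/-- The comparison map as an intertwining map. -/
def toCoind : (funRep A (G ⧸ S)).IntertwiningMap
    (Representation.coind S.subtype (res S.subtype A).ρ) where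
  toLinearMap := toCoindLin A S
  isIntertwining' h := by
    ext φ g
    show A.ρ g (A.ρ h (φ (h⁻¹ • ((g⁻¹ : G) : G ⧸ S)))) =
      A.ρ (g * h) (φ (((g * h)⁻¹ : G) : G ⧸ S))
    rw [map_mul, Module.End.mul_apply, mul_inv_rev]
    rfl

lemma toCoind_bijective : Function.Bijective (toCoind A S) := by
  constructor
  · intro φ ψ h
    funext x
    induction x using QuotientGroup.induction_on with
    | H g =>
      have h1 := congrFun (congrArg Subtype.val h) g⁻¹
      have h2 : A.ρ g⁻¹ (φ ((g : G) : G ⧸ S)) = A.ρ g⁻¹ (ψ ((g : G) : G ⧸ S)) := by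
        have h1' : A.ρ g⁻¹ (φ (((g⁻¹)⁻¹ : G) : G ⧸ S)) = A.ρ g⁻¹ (ψ (((g⁻¹)⁻¹ : G) : G ⧸ S)) := h1
        rwa [inv_inv] at h1'
      have h3 := congrArg (A.ρ g) h2
      simpa [← Module.End.mul_apply, ← map_mul] using h3
  · intro f
    refine ⟨fun x => A.ρ x.out (f.1 (x.out)⁻¹), ?_⟩
    apply Subtype.ext
    funext g
    show A.ρ g (A.ρ (((g⁻¹ : G) : G ⧸ S)).out (f.1 ((((g⁻¹ : G) : G ⧸ S)).out)⁻¹)) = f.1 g
    set y : G := (((g⁻¹ : G) : G ⧸ S)).out with hy
    have hmem : g * y ∈ S := by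
      have h1 : ((y : G) : G ⧸ S) = ((g⁻¹ : G) : G ⧸ S) := QuotientGroup.out_eq' _
      have h2 := QuotientGroup.eq.mp h1.symm
      simpa using h2
    have h3 : f.1 y⁻¹ = A.ρ (g * y)⁻¹ (f.1 g) := by
      have := f.2 ⟨(g * y)⁻¹, S.inv_mem hmem⟩ g
      simpa [mul_assoc] using this
    rw [h3, ← Module.End.mul_apply, ← Module.End.mul_apply, ← map_mul, ← map_mul]
    simp

/-- `Fun(G ⧸ S, A) ≅ Coind_S^G (Res A)`. -/
def funObjIso : FunObj A (G ⧸ S) ≅ coind S.subtype (res S.subtype A) :=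
  Rep.mkIso ((toCoind A S).ofBijective (toCoind_bijective A S))

/-- Shapiro: `Hⁿ(G, Fun(G ⧸ S, A)) ≅ Hⁿ(S, A)`. -/
def funObjShapiro (n : ℕ) :
    groupCohomology (FunObj A (G ⧸ S)) n ≅ groupCohomology (res S.subtype A) n :=
  (functor k G n).mapIso (funObjIso A S) ≪≫ coindIso (res S.subtype A) n

lemma isZero_funObj (n : ℕ) (h : IsZero (groupCohomology (res S.subtype A) n)) :
    IsZero (groupCohomology (FunObj A (G ⧸ S)) n) :=
  h.of_iso (funObjShapiro A S n)

end Shapiro

section Telescoping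

variable {C : Type} [Group C] [Fintype C] {M : Type} [AddCommGroup M]
set_option linter.unusedSectionVars false

lemma exists_nat_pow_eq (c : C) (hc : ∀ x, x ∈ Subgroup.zpowers c) (x : C) :
    ∃ i, i < orderOf c ∧ c ^ i = x := by
  have hx := hc x
  rw [← mem_powers_iff_mem_zpowers] at hx
  obtain ⟨n, rfl⟩ := hx
  exact ⟨n % orderOf c, Nat.mod_lt _ (orderOf_pos c), pow_mod_orderOf c n⟩

lemma sum_univ_eq_sum_range (c : C) (hc : ∀ x, x ∈ Subgroup.zpowers c) (ψ : C → M) :
    ∑ x, ψ x = ∑ j ∈ Finset.range (orderOf c), ψ (c ^ j) := by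
  symm
  apply Finset.sum_bij (fun j _ => c ^ j)
  · intros; exact Finset.mem_univ _
  · intro a ha b hb h
    exact pow_injOn_Iio_orderOf (by simpa using ha) (by simpa using hb) h
  · intro x _
    obtain ⟨i, hi, rfl⟩ := exists_nat_pow_eq c hc x
    exact ⟨i, Finset.mem_range.2 hi, rfl⟩
  · intros; rfl

/-- Telescoping on a finite cyclic group: a function of sum zero is a difference. -/
lemma exists_telescope (c : C) (hc : ∀ x, x ∈ Subgroup.zpowers c) (ψ : C → M)
    (hψ : ∑ x, ψ x = 0) : ∃ φ : C → M, ∀ x, φ (x * c) - φ x = ψ x := by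
  classical
  choose ℓ hℓ1 hℓ2 using exists_nat_pow_eq c hc
  have huniq : ∀ (x : C) (i : ℕ), i < orderOf c → c ^ i = x → ℓ x = i := by
    intro x i hi hx
    exact pow_injOn_Iio_orderOf (hℓ1 x) hi ((hℓ2 x).trans hx.symm)
  refine ⟨fun x => ∑ j ∈ Finset.range (ℓ x), ψ (c ^ j), fun x => ?_⟩
  have hx := hℓ2 x
  have hi := hℓ1 x
  by_cases h : ℓ x + 1 < orderOf c
  · have h1 : ℓ (x * c) = ℓ x + 1 := huniq _ _ h (by rw [pow_succ, hx])
    simp only [h1, Finset.sum_range_succ, hx]
    abel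
  · have hm : ℓ x + 1 = orderOf c := by omega
    have h1 : ℓ (x * c) = 0 := by
      apply huniq _ _ (orderOf_pos c)
      rw [pow_zero, ← hx, ← pow_succ, hm, pow_orderOf_eq_one]
    have h2 := sum_univ_eq_sum_range c hc ψ
    rw [hψ, ← hm, Finset.sum_range_succ, hx] at h2
    simp only [h1, Finset.range_zero, Finset.sum_empty]
    rw [zero_sub, eq_comm, ← add_eq_zero_iff_eq_neg, add_comm]
    exact h2.symm

/-- A function invariant under translation by a generator is constant. -/
lemma eq_const_of_mul_gen (c : C) (hc : ∀ x, x ∈ Subgroup.zpowers c) (φ : C → M)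
    (h : ∀ x, φ (x * c) = φ x) (x : C) : φ x = φ 1 := by
  obtain ⟨i, -, rfl⟩ := exists_nat_pow_eq c hc x
  induction i with
  | zero => rw [pow_zero]
  | succ n ih => rw [pow_succ, h, ih]

end Telescoping

end Fermat.Agent.S55.CFT.H58
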