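/-
S55 / E4 / CFT wave 3, leaf VAL (helper19), part 2: odd cohomology of permutation modules.

* `permRep k G X` : the permutation representation on `X →₀ k`, `(g • f) x = f (g⁻¹ • x)`;
  `PermObj k G X : Rep k G`;
* `resOrb` : the restriction `PermObj k G X ⟶ Fun(ω, k)` to an orbit `ω`;
* `isZero_odd_of_trivial` : `Hⁱ(D, A) = 0` for `i` odd, `D` finite cyclic acting trivially on a
  module without `#D`-torsion;
* `isZero_permObj_odd` : for `G` finite and a `G`-set `X` all of whose stabilizers are cyclic,
  `Hⁱ(G, X →₀ k) = 0` for odd `i` (`k` a domain of characteristic zero).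
-/
import Fermat.Agent.S55.CFT.H19_CochN
import Fermat.Agent.S55.CFT.H58_TwinBase
import Fermat.Agent.S55.CFT.H12_CyclicBridge

set_option autoImplicit false
set_option linter.unusedSectionVars false
set_option linter.unusedVariables false

noncomputable section

namespace Fermat.Agent.S55.CFT.H19

open CategoryTheory CategoryTheory.Limits groupCohomology Fermat.Agent.S55.CFT.H58

variable (k G : Type) [CommRing k] [Group G]

/-! ### Permutation modules -/

section perm

variable (X : Type) [MulAction G X]

/-- The permutation representation on `X →₀ k`: `(g • f) x = f (g⁻¹ • x)`. -/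
def permRep : Representation k G (X →₀ k) where
  toFun g := (Finsupp.domLCongr (MulAction.toPerm g)).toLinearMap
  map_one' := by
    ext x y
    simp [Finsupp.domLCongr_apply, Finsupp.domCongr_apply, Finsupp.equivMapDomain_apply]
  map_mul' g h := by
    ext x y
    simp [Finsupp.domLCongr_apply, Finsupp.domCongr_apply, Finsupp.equivMapDomain_apply, mul_smul]

variable {k G X}

@[simp] lemma permRep_apply (g : G) (f : X →₀ k) (x : X) :
    permRep k G X g f x = f (g⁻¹ • x) := rfl

variable (k G X)

/-- The permutation module `X →₀ k` as an object of `Rep k G`. -/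
abbrev PermObj : Rep.{0} k G := Rep.of (permRep k G X)

/-- Restriction of a finitely supported function to an orbit. -/
def resOrb (ω : MulAction.orbitRel.Quotient G X) :
    PermObj k G X ⟶ FunObj (Rep.trivial k G k) ω.orbit :=
  Rep.ofHom (ρ := permRep k G X) (σ := funRep (Rep.trivial k G k) ω.orbit)
    ⟨{ toFun := fun f y => f (y : X)
       map_add' := fun _ _ => rfl
       map_smul' := fun _ _ => rfl }, fun h => by
      ext f y
      rfl⟩

variable {k G X}

@[simp] lemma resOrb_apply (ω : MulAction.orbitRel.Quotient G X) (f : X →₀ k) (y : ω.orbit) :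
    (resOrb k G X ω).hom f y = f (y : X) := rfl

end perm

/-! ### Odd cohomology of a cyclic group with trivial action -/

section cyclic

variable {k}

theorem isZero_odd_of_trivial {D : Type} [Group D] [Fintype D] (A : Rep.{0} k D) (g : D)
    (hg : ∀ x, x ∈ Subgroup.zpowers g) (hρ : ∀ (d : D) (a : A.V), A.ρ d a = a)
    (htf : ∀ a : A.V, Fintype.card D • a = 0 → a = 0) (i : ℕ) (hi : Odd i) :
    IsZero (groupCohomology A i) := by
  have h1 := H12.card_odd A g hg i hi
  have hker : LinearMap.ker A.ρ.norm = ⊥ := by
    rw [LinearMap.ker_eq_bot']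
    intro a ha
    apply htf
    rw [← ha]
    simp [Representation.norm, hρ]
  have h2 : Nat.card (groupCohomology A i) = 1 := by
    rw [h1, hker]
    exact AddSubgroup.relIndex_bot_right _
  have h3 := (Nat.card_eq_one_iff_unique.1 h2).1
  exact ModuleCat.isZero_of_subsingleton _

end cyclic

/-! ### Functions on a transitive `G`-set -/

section transitive

variable {k G}

/-- Transport of `Fun(X, A)` along an equivariant bijection. -/
def funObjCongr (A : Rep.{0} k G) {X Y : Type} [MulAction G X] [MulAction G Y] (e : X ≃ Y)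
    (he : ∀ (g : G) (x : X), e (g • x) = g • e x) : FunObj A Y ≅ FunObj A X :=
  Rep.mkIso (Representation.Equiv.mk (LinearEquiv.funCongrLeft k A.V e) (fun g => by
    ext φ x
    show A.ρ g (φ (g⁻¹ • e x)) = A.ρ g (φ (e (g⁻¹ • x)))
    rw [he]))

theorem isZero_funObj_of_pretransitive [Finite G] (hk : ∀ (m : ℕ) (a : k), m ≠ 0 → m • a = 0 → a = 0)
    (Y : Type) [MulAction G Y] [MulAction.IsPretransitive G Y] (y₀ : Y)
    (hcyc : IsCyclic (MulAction.stabilizer G y₀)) (i : ℕ) (hi : Odd i) :
    IsZero (groupCohomology (FunObj (Rep.trivial k G k) Y) i) := by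
  classical
  set S : Subgroup G := MulAction.stabilizer G y₀ with hS
  let _ : Fintype S := Fintype.ofFinite _
  obtain ⟨g, hg⟩ := hcyc.exists_generator
  have h1 : IsZero (groupCohomology (Rep.res S.subtype (Rep.trivial k G k)) i) := by
    refine isZero_odd_of_trivial _ g hg (fun d a => rfl) (fun a ha => ?_) i hi
    exact hk _ a Fintype.card_ne_zero ha
  have h2 := isZero_funObj (Rep.trivial k G k) S i h1
  -- the equivariant bijection `G ⧸ S ≃ Y`
  have hbij : Function.Bijective (MulAction.ofQuotientStabilizer G y₀) := by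
    refine ⟨MulAction.injective_ofQuotientStabilizer G y₀, fun y => ?_⟩
    obtain ⟨g, hg⟩ := MulAction.exists_smul_eq G y₀ y
    exact ⟨QuotientGroup.mk g, hg⟩
  let e : G ⧸ S ≃ Y := Equiv.ofBijective _ hbij
  have he : ∀ (g : G) (x : G ⧸ S), e (g • x) = g • e x :=
    fun g x => MulAction.ofQuotientStabilizer_smul G y₀ g x
  exact h2.of_iso ((functor k G i).mapIso (funObjCongr (Rep.trivial k G k) e he))

end transitive

/-! ### Permutation modules with cyclic stabilizers -/

section main

variable {k G}

theorem resOrb_jointly_injective (X : Type) [MulAction G X] (f : X →₀ k)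
    (hf : ∀ ω : MulAction.orbitRel.Quotient G X, (resOrb k G X ω).hom f = 0) : f = 0 := by
  ext x
  have h := congrFun (hf (Quotient.mk'' x)) ⟨x, MulAction.orbitRel.Quotient.mem_orbit.2 rfl⟩
  exact h

theorem resOrb_finite_support (X : Type) [MulAction G X] (f : X →₀ k) :
    {ω : MulAction.orbitRel.Quotient G X | (resOrb k G X ω).hom f ≠ 0}.Finite := by
  classical
  apply (f.support.image (Quotient.mk'' : X → MulAction.orbitRel.Quotient G X)).finite_toSet.subset
  intro ω hω
  have h1 : ∃ y : MulAction.orbitRel.Quotient.orbit ω, f (y : X) ≠ 0 := by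
    by_contra hcon
    apply hω
    funext y
    by_contra hy
    exact hcon ⟨y, hy⟩
  obtain ⟨y, hy⟩ := h1
  rw [Finset.mem_coe, Finset.mem_image]
  exact ⟨(y : X), Finsupp.mem_support_iff.2 hy, MulAction.orbitRel.Quotient.mem_orbit.1 y.2⟩

theorem resOrb_glue [Finite G] (X : Type) [MulAction G X]
    (b : ∀ ω : MulAction.orbitRel.Quotient G X, (ω.orbit → k))
    (hb : {ω | b ω ≠ 0}.Finite) :
    ∃ f : X →₀ k, ∀ ω, (resOrb k G X ω).hom f = b ω := by
  classical
  let F : X → k := fun x => b (Quotient.mk'' x) ⟨x, MulAction.orbitRel.Quotient.mem_orbit.2 rfl⟩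
  have hfin : (Function.support F).Finite := by
    have h1 : (⋃ ω ∈ {ω | b ω ≠ 0}, (MulAction.orbitRel.Quotient.orbit ω : Set X)).Finite := by
      refine hb.biUnion (fun ω _ => ?_)
      induction ω using Quotient.inductionOn' with
      | h x =>
        rw [MulAction.orbitRel.Quotient.orbit_mk]
        exact Set.finite_range _
    apply h1.subset
    intro x hx
    rw [Function.mem_support] at hx
    refine Set.mem_biUnion (x := Quotient.mk'' x) ?_ (MulAction.orbitRel.Quotient.mem_orbit.2 rfl)
    intro h0
    apply hx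
    show b (Quotient.mk'' x) _ = 0
    rw [h0]
    rfl
  refine ⟨Finsupp.ofSupportFinite F hfin, fun ω => ?_⟩
  funext y
  show F (y : X) = b ω y
  have haux : ∀ (ω ω' : MulAction.orbitRel.Quotient G X) (h : ω = ω') (z : X)
      (hz : z ∈ MulAction.orbitRel.Quotient.orbit ω)
      (hz' : z ∈ MulAction.orbitRel.Quotient.orbit ω'), b ω ⟨z, hz⟩ = b ω' ⟨z, hz'⟩ := by
    intro ω ω' h
    subst h
    intro z hz hz'
    rfl
  exact haux _ _ (MulAction.orbitRel.Quotient.mem_orbit.1 y.2) (y : X) _ y.2

/-- **Odd cohomology of a permutation module with cyclic stabilizers vanishes.** -/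
theorem isZero_permObj_odd [Finite G] (hk : ∀ (m : ℕ) (a : k), m ≠ 0 → m • a = 0 → a = 0)
    (X : Type) [MulAction G X] (hcyc : ∀ x : X, IsCyclic (MulAction.stabilizer G x))
    (i : ℕ) (hi : Odd i) : IsZero (groupCohomology (PermObj k G X) i) := by
  obtain ⟨n, rfl⟩ : ∃ n, i = n + 1 := by
    obtain ⟨m, rfl⟩ := hi
    exact ⟨2 * m, rfl⟩
  have hz : ∀ ω : MulAction.orbitRel.Quotient G X,
      IsZero (groupCohomology (FunObj (Rep.trivial k G k) ω.orbit) (n + 1)) := by
    intro ω
    induction ω using Quotient.inductionOn' with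
    | h x =>
      let y₀ : MulAction.orbitRel.Quotient.orbit (Quotient.mk'' x :
          MulAction.orbitRel.Quotient G X) :=
        ⟨x, MulAction.orbitRel.Quotient.mem_orbit.2 rfl⟩
      have hst : MulAction.stabilizer G y₀ = MulAction.stabilizer G x := by
        ext g
        rw [MulAction.mem_stabilizer_iff, MulAction.mem_stabilizer_iff]
        constructor
        · intro h
          exact congrArg Subtype.val h
        · intro h
          exact Subtype.ext h
      have hc : IsCyclic (MulAction.stabilizer G y₀) := by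
        rw [hst]
        exact hcyc x
      exact isZero_funObj_of_pretransitive hk _ y₀ hc (n + 1) hi
  rw [ModuleCat.isZero_iff_subsingleton]
  refine ⟨fun a b => ?_⟩
  have h0 : ∀ y : groupCohomology (PermObj k G X) (n + 1), y = 0 := by
    intro y
    refine eq_zero_of_components (PermObj k G X)
      (fun ω => FunObj (Rep.trivial k G k) (MulAction.orbitRel.Quotient.orbit ω))
      (resOrb k G X) (resOrb_jointly_injective X) (resOrb_finite_support X)
      (fun b hb => resOrb_glue X b hb) n y (fun ω => ?_)
    exact (ModuleCat.isZero_iff_subsingleton.1 (hz ω)).elim _ _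
  rw [h0 a, h0 b]

end main

end Fermat.Agent.S55.CFT.H19
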