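/-
S55 / E4 / CFT wave 3, leaf VAL (helper19), part 3: the valuation sequence
`0 → O_{L,T}ˣ → Lˣ → Div^T(L) → 0` as a short exact sequence of `Gal(L/K)`-modules.

* `PrimeOut L T` : the primes of `𝓞 L` outside `T`, a `Gal(L/K)`-set (`primeOutAction`);
* `valuation_smul` : `(σ • w)(σ y) = w(y)`;
* `divRep K L T = PermObj ℤ G (PrimeOut L T)` (finitely supported functions `PrimeOut → ℤ`),
  `valRep : repL K L ⟶ divRep K L T`, `y ↦ (w ↦ log |y|_w)`;
* `valSeq_shortExact` : `0 → repE → repL → divRep → 0` is short exact if `Cl_T(L) = 1`;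
* `isCyclic_stabilizer` : the stabilizers of the primes outside `T` are cyclic if `L/K` is
  unramified outside `T`.
-/
import Fermat.Agent.S55.CFT.Defs_BR2
import Fermat.Agent.S55.CFT.H12_H1Units
import Fermat.Agent.S55.CFT.H19_PermCoh

set_option autoImplicit false
set_option linter.unusedSectionVars false
set_option linter.unusedVariables false
set_option linter.style.haveILetI false

open NumberField IsDedekindDomain WithZero CategoryTheory
open scoped Pointwise

noncomputable section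

namespace Fermat.Agent.S55.CFT.H19

open Fermat.Agent.S55.CFT

variable (K L : Type) [Field K] [Field L] [NumberField K] [NumberField L] [Algebra K L]
  (T : Finset Nat.Primes)

/-! ### The Galois action on the primes -/

/-- The image of a prime of `𝓞 L` under `σ ∈ Gal(L/K)`. -/
def hosSmul (σ : L ≃ₐ[K] L) (w : HeightOneSpectrum (𝓞 L)) : HeightOneSpectrum (𝓞 L) where
  asIdeal := σ • w.asIdeal
  isPrime := Ideal.IsPrime.smul σ
  ne_bot := by
    intro h
    apply w.ne_bot
    rw [eq_bot_iff]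
    intro x hx
    have h1 : σ • x ∈ σ • w.asIdeal := Ideal.smul_mem_pointwise_smul σ x _ hx
    rw [h] at h1
    have h2 : σ • x = 0 := h1
    have h3 : σ⁻¹ • (σ • x) = 0 := by rw [h2, smul_zero]
    rw [inv_smul_smul] at h3
    exact h3

@[simp] lemma hosSmul_asIdeal (σ : L ≃ₐ[K] L) (w : HeightOneSpectrum (𝓞 L)) :
    (hosSmul K L σ w).asIdeal = σ • w.asIdeal := rfl

lemma hosSmul_one (w : HeightOneSpectrum (𝓞 L)) : hosSmul K L 1 w = w :=
  HeightOneSpectrum.ext (one_smul _ _)

lemma hosSmul_mul (σ τ : L ≃ₐ[K] L) (w : HeightOneSpectrum (𝓞 L)) :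
    hosSmul K L (σ * τ) w = hosSmul K L σ (hosSmul K L τ w) :=
  HeightOneSpectrum.ext (mul_smul _ _ _)

lemma smul_natCast_int (σ : L ≃ₐ[K] L) (n : ℕ) : σ • ((n : ℕ) : 𝓞 L) = ((n : ℕ) : 𝓞 L) := by
  apply Subtype.ext
  show σ ((n : 𝓞 L) : L) = ((n : 𝓞 L) : L)
  simp

lemma hosSmul_mem_primesT (σ : L ≃ₐ[K] L) (w : HeightOneSpectrum (𝓞 L)) :
    hosSmul K L σ w ∈ H12.primesT L T ↔ w ∈ H12.primesT L T := by
  rw [H12.mem_primesT, H12.mem_primesT, hosSmul_asIdeal]
  rw [← smul_natCast_int K L σ (prodT T), Ideal.smul_mem_pointwise_smul_iff,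
    smul_natCast_int K L σ (prodT T)]

/-- The primes of `𝓞 L` outside `T`. -/
@[ext] structure PrimeOut : Type where
  /-- the prime -/
  val : HeightOneSpectrum (𝓞 L)
  /-- it is not above `T` -/
  not_mem : val ∉ H12.primesT L T

instance primeOutAction : MulAction (L ≃ₐ[K] L) (PrimeOut L T) where
  smul σ w := ⟨hosSmul K L σ w.1, fun h => w.2 ((hosSmul_mem_primesT K L T σ w.1).1 h)⟩
  one_smul w := PrimeOut.ext (hosSmul_one K L w.1)
  mul_smul σ τ w := PrimeOut.ext (hosSmul_mul K L σ τ w.1)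

lemma primeOut_smul_val (σ : L ≃ₐ[K] L) (w : PrimeOut L T) :
    ((σ • w : PrimeOut L T)).1 = hosSmul K L σ w.1 := rfl

/-! ### Valuations and the Galois action -/

lemma hosSmul_pow (σ : L ≃ₐ[K] L) (w : HeightOneSpectrum (𝓞 L)) (n : ℕ) :
    (hosSmul K L σ w).asIdeal ^ n = σ • (w.asIdeal ^ n) := by
  rw [hosSmul_asIdeal, Ideal.pointwise_smul_def, Ideal.pointwise_smul_def, Ideal.map_pow]

lemma intValuation_smul_le_iff (σ : L ≃ₐ[K] L) (w : HeightOneSpectrum (𝓞 L)) (r : 𝓞 L) (n : ℕ) :
    (hosSmul K L σ w).intValuation (σ • r) ≤ exp (-(n : ℤ)) ↔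
      w.intValuation r ≤ exp (-(n : ℤ)) := by
  rw [HeightOneSpectrum.intValuation_le_pow_iff_mem, HeightOneSpectrum.intValuation_le_pow_iff_mem,
    hosSmul_pow, Ideal.smul_mem_pointwise_smul_iff]

lemma intValuation_smul (σ : L ≃ₐ[K] L) (w : HeightOneSpectrum (𝓞 L)) (r : 𝓞 L) :
    (hosSmul K L σ w).intValuation (σ • r) = w.intValuation r := by
  by_cases hr : r = 0
  · subst hr
    rw [smul_zero, map_zero, map_zero]
  have hr' : σ • r ≠ 0 := by
    intro h
    apply hr
    have h3 : σ⁻¹ • (σ • r) = 0 := by rw [h, smul_zero]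
    rwa [inv_smul_smul] at h3
  have h1 := HeightOneSpectrum.intValuation_eq_exp_neg_multiplicity (hosSmul K L σ w) hr'
  have h2 := HeightOneSpectrum.intValuation_eq_exp_neg_multiplicity w hr
  apply le_antisymm
  · rw [h2]
    exact (intValuation_smul_le_iff K L σ w r _).2 (le_of_eq h2)
  · rw [h1]
    exact (intValuation_smul_le_iff K L σ w r _).1 (le_of_eq h1)

/-- `(σ • w)(σ y) = w(y)`. -/
theorem valuation_smul (σ : L ≃ₐ[K] L) (w : HeightOneSpectrum (𝓞 L)) (y : L) :
    (hosSmul K L σ w).valuation L (σ y) = w.valuation L y := by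
  obtain ⟨a, b, hb, rfl⟩ := IsFractionRing.div_surjective (A := 𝓞 L) y
  have hσ : ∀ r : 𝓞 L, σ (algebraMap (𝓞 L) L r) = algebraMap (𝓞 L) L (σ • r) := fun r => rfl
  rw [map_div₀, hσ, hσ, map_div₀, map_div₀, HeightOneSpectrum.valuation_of_algebraMap,
    HeightOneSpectrum.valuation_of_algebraMap, HeightOneSpectrum.valuation_of_algebraMap,
    HeightOneSpectrum.valuation_of_algebraMap, intValuation_smul, intValuation_smul]

/-! ### The valuation map -/

lemma valuation_ne_zero' (w : HeightOneSpectrum (𝓞 L)) (y : Lˣ) : w.valuation L (y : L) ≠ 0 := by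
  rw [Ne, Valuation.zero_iff]
  exact y.ne_zero

/-- The vector of the valuations outside `T` of `y ∈ Lˣ`. -/
def valFun (y : Lˣ) : PrimeOut L T →₀ ℤ :=
  Finsupp.ofSupportFinite (fun w => log (w.1.valuation L (y : L))) (by
    have hinj : Function.Injective (PrimeOut.val : PrimeOut L T → HeightOneSpectrum (𝓞 L)) :=
      fun a b h => PrimeOut.ext h
    have h1 := (H12.finite_valuation_ne_one L y).preimage hinj.injOn
    apply h1.subset
    intro w hw
    rw [Function.mem_support] at hw
    rw [Set.mem_preimage, Set.mem_ofPred_eq]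
    intro h
    apply hw
    rw [h, log_one])

@[simp] lemma valFun_apply (y : Lˣ) (w : PrimeOut L T) :
    valFun L T y w = log (w.1.valuation L (y : L)) := rfl

lemma valFun_mul (y z : Lˣ) : valFun L T (y * z) = valFun L T y + valFun L T z := by
  ext w
  rw [Finsupp.add_apply, valFun_apply, valFun_apply, valFun_apply, Units.val_mul, map_mul,
    log_mul (valuation_ne_zero' L w.1 y) (valuation_ne_zero' L w.1 z)]

lemma valFun_one : valFun L T 1 = 0 := by
  ext w
  rw [valFun_apply, Units.val_one, map_one, log_one]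
  rfl

lemma valFun_eq_zero_iff (y : Lˣ) : valFun L T y = 0 ↔ y ∈ TUnits L T := by
  rw [H12.mem_tUnits_iff]
  constructor
  · intro h w hw
    have h1 : log (w.valuation L (y : L)) = 0 := DFunLike.congr_fun h (⟨w, hw⟩ : PrimeOut L T)
    rw [← exp_log (valuation_ne_zero' L w y), h1]
    rfl
  · intro h
    ext w
    rw [valFun_apply, h w.1 w.2, log_one]
    rfl

lemma valFun_smul (σ : L ≃ₐ[K] L) (y : Lˣ) (w : PrimeOut L T) :
    valFun L T (σ • y) w = valFun L T y (σ⁻¹ • w) := by
  rw [valFun_apply, valFun_apply, primeOut_smul_val]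
  have h := valuation_smul K L σ⁻¹ w.1 (σ (y : L))
  show log (w.1.valuation L (σ (y : L))) = _
  rw [← h]
  congr 2
  show σ⁻¹ (σ (y : L)) = (y : L)
  exact σ.symm_apply_apply (y : L)

lemma valFun_surjective (hcl : ClTrivial L T) (f : PrimeOut L T →₀ ℤ) :
    ∃ y : Lˣ, valFun L T y = f := by
  classical
  obtain ⟨y, hy⟩ := H12.exists_of_valuations L T hcl (f.support.image PrimeOut.val)
    (fun w => if h : w ∉ H12.primesT L T then f ⟨w, h⟩ else 0)
  refine ⟨y, ?_⟩
  ext w
  rw [valFun_apply, hy w.1 w.2]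
  by_cases hw : w.1 ∈ f.support.image PrimeOut.val
  · rw [if_pos hw, log_exp, dif_pos w.2]
  · rw [if_neg hw, log_one]
    have : w ∉ f.support := fun h => hw (Finset.mem_image_of_mem _ h)
    rw [Finsupp.notMem_support_iff] at this
    exact this.symm

/-- The divisors outside `T` as a `Gal(L/K)`-module. -/
abbrev divRep : Rep.{0} ℤ (L ≃ₐ[K] L) := PermObj ℤ (L ≃ₐ[K] L) (PrimeOut L T)

/-- The valuation map as a linear map. -/
def valLin : Additive Lˣ →ₗ[ℤ] (PrimeOut L T →₀ ℤ) where
  toFun y := valFun L T (Additive.toMul y)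
  map_add' y z := valFun_mul L T (Additive.toMul y) (Additive.toMul z)
  map_smul' n y := by
    have h : ∀ (n : ℤ) (y : Additive Lˣ),
        valFun L T (Additive.toMul (n • y)) = n • valFun L T (Additive.toMul y) := by
      intro n y
      let φ : Additive Lˣ →+ (PrimeOut L T →₀ ℤ) :=
        { toFun := fun y => valFun L T (Additive.toMul y)
          map_zero' := valFun_one L T
          map_add' := fun y z => valFun_mul L T (Additive.toMul y) (Additive.toMul z) }
      exact map_zsmul φ n y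
    exact h n y

/-- The valuation map `Lˣ → Div^T(L)` as a morphism of `Gal(L/K)`-modules. -/
def valRep : repL K L ⟶ divRep K L T :=
  Rep.ofHom (ρ := (repL K L).ρ) (σ := permRep ℤ (L ≃ₐ[K] L) (PrimeOut L T))
    ⟨valLin L T, fun σ => by
      ext y w
      exact valFun_smul K L T σ (Additive.toMul y) w⟩

lemma valRep_apply (y : Lˣ) : (valRep K L T).hom (Additive.ofMul y) = valFun L T y := rfl

lemma unitsToL_valRep : unitsToL K L T ≫ valRep K L T = 0 := by
  ext e w
  exact DFunLike.congr_fun ((valFun_eq_zero_iff L T _).2 (Additive.toMul e : TUnits L T).2) w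

/-- The valuation sequence is short exact. -/
theorem valSeq_shortExact (hcl : ClTrivial L T) :
    (ShortComplex.mk (unitsToL K L T) (valRep K L T) (unitsToL_valRep K L T)).ShortExact := by
  apply H58.shortExact_of_concrete
  · intro e e' h
    exact congrArg Additive.ofMul (Subtype.ext (congrArg Additive.toMul h))
  · intro f
    obtain ⟨y, hy⟩ := valFun_surjective L T hcl f
    exact ⟨Additive.ofMul y, hy⟩
  · intro y hy
    have h1 : Additive.toMul y ∈ TUnits L T := (valFun_eq_zero_iff L T _).1 hy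
    exact ⟨Additive.ofMul (⟨Additive.toMul y, h1⟩ : TUnits L T), rfl⟩

/-! ### The stabilizers are cyclic -/

lemma stabilizer_primeOut (w : PrimeOut L T) :
    MulAction.stabilizer (L ≃ₐ[K] L) w = MulAction.stabilizer (L ≃ₐ[K] L) w.1.asIdeal := by
  ext g
  rw [MulAction.mem_stabilizer_iff, MulAction.mem_stabilizer_iff]
  constructor
  · intro h
    exact congrArg (fun x : PrimeOut L T => x.1.asIdeal) h
  · intro h
    exact PrimeOut.ext (HeightOneSpectrum.ext h)

/-- The decomposition group of a prime of `L` outside `T` is cyclic when `L/K` is unramified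
outside `T`. -/
theorem isCyclic_stabilizer (hunr : UnramifiedOutsideT K L T) (w : PrimeOut L T) :
    IsCyclic (MulAction.stabilizer (L ≃ₐ[K] L) w) := by
  rw [stabilizer_primeOut]
  set P : Ideal (𝓞 L) := w.1.asIdeal with hP
  have hin : P.inertia (L ≃ₐ[K] L) = ⊥ := by
    apply hunr P w.1.isPrime w.1.ne_bot
    intro q hq hmem
    exact w.2 ((H12.mem_primesT_iff_exists L T w.1).mpr ⟨q, hq, hmem⟩)
  haveI : SMulCommClass (L ≃ₐ[K] L) (𝓞 K) (𝓞 L) := ⟨fun σ a x => by
    apply Subtype.ext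
    show σ (algebraMap K L (a : K) * (x : L)) = algebraMap K L (a : K) * σ (x : L)
    rw [map_mul, σ.commutes]⟩
  haveI : P.IsMaximal := w.1.isMaximal
  haveI : (P.under (𝓞 K)).IsMaximal := Ideal.IsMaximal.under (𝓞 K) P
  haveI : P.LiesOver (P.under (𝓞 K)) := ⟨rfl⟩
  haveI : Finite (𝓞 L ⧸ P) := Ideal.finiteQuotientOfFreeOfNeBot P w.1.ne_bot
  have hker : (Ideal.Quotient.stabilizerHom P (P.under (𝓞 K)) (L ≃ₐ[K] L)).ker = ⊥ := by
    have h1 := Ideal.Quotient.map_ker_stabilizer_subtype (P := P) (p := P.under (𝓞 K))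
      (G := L ≃ₐ[K] L)
    rw [hin] at h1
    exact (Subgroup.map_eq_bot_iff_of_injective _ (Subgroup.subtype_injective _)).1 h1
  have hinj : Function.Injective (Ideal.Quotient.stabilizerHom P (P.under (𝓞 K)) (L ≃ₐ[K] L)) :=
    (MonoidHom.ker_eq_bot_iff _).1 hker
  letI : Field (𝓞 L ⧸ P) := Ideal.Quotient.field P
  letI : Field (𝓞 K ⧸ P.under (𝓞 K)) := Ideal.Quotient.field _
  haveI hc : IsCyclic ((𝓞 L ⧸ P) ≃ₐ[𝓞 K ⧸ P.under (𝓞 K)] (𝓞 L ⧸ P)) := inferInstance
  exact isCyclic_of_injective _ hinj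

end Fermat.Agent.S55.CFT.H19
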