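/-
S55 / E4 / CFT, island BR, leaf VAL-a (helper12), part 2: the assembly.

`stmt_ValExact_of : Stmt_LocUnitGroup → Stmt_ValExact`: for admissible `T`, a class of
`H²(G, Lˣ)` which is locally trivial at all places outside `T` comes from `H²(G, O_{L,T}ˣ)`.

Proof.  `x = [f]`.  For every `q ∉ T` there is `Y_q : G → Lˣ` with `f / d Y_q` a unit at all primes
above `q` (`exists_cochain_unitsAt`), and `Y_q = 1` for almost all `q` (`finite_not_mem_unitsAt`).
Since `Cl_T(L) = 1` there is `y : G → Lˣ` with the valuations of `Y_q` at the primes above `q`, for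
all `q ∉ T` (`H12.exists_of_valuations`).  Then `f / d y` has values in the `T`-units, so the image
of `x` in `H²(G, Div^T(L))` vanishes, and `x` comes from `H²(G, O_{L,T}ˣ)` by the exact cohomology
sequence of helper19's valuation sequence `H19.valSeq_shortExact`.
-/
import Fermat.Agent.S55.CFT.H12_ValCochain
import Fermat.Agent.S55.CFT.H19_ValSeq

set_option autoImplicit false
set_option linter.unusedSectionVars false
set_option linter.style.haveILetI false

open NumberField TensorProduct IsDedekindDomain CategoryTheory groupCohomology WithZero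

noncomputable section

namespace Fermat.Agent.S55.CFT.H12

lemma commGroup_aux2 {M : Type*} [CommGroup M] (F a b c a' b' c' : M) :
    F / (a / b * c) = F / (a' / b' * c') / (a / a' / (b / b') * (c / c')) := by
  have h : ∀ F a b c a' b' c' : Additive M,
      F - (a - b + c) = F - (a' - b' + c') - (a - a' - (b - b') + (c - c')) := by
    intros
    abel
  exact h (Additive.ofMul F) (Additive.ofMul a) (Additive.ofMul b) (Additive.ofMul c)
    (Additive.ofMul a') (Additive.ofMul b') (Additive.ofMul c')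

section primeUnder

variable (L : Type) [Field L] [NumberField L]

/-- Every prime of `𝓞 L` contains a rational prime. -/
lemma exists_prime_mem (w : HeightOneSpectrum (𝓞 L)) :
    ∃ q : Nat.Primes, ((q : ℕ) : 𝓞 L) ∈ w.asIdeal := by
  have hw := w.isPrime
  have key : ∀ n : ℕ, n ≠ 0 → ((n : ℕ) : 𝓞 L) ∈ w.asIdeal →
      ∃ q : Nat.Primes, ((q : ℕ) : 𝓞 L) ∈ w.asIdeal := by
    intro n
    induction n using Nat.recOnMul with
    | zero => intro h; exact absurd rfl h
    | one =>
      intro _ h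
      exfalso
      apply hw.ne_top
      rw [Ideal.eq_top_iff_one]
      simpa using h
    | prime p hp => intro _ h; exact ⟨⟨p, hp⟩, h⟩
    | mul a b iha ihb =>
      intro hab h
      rw [Nat.cast_mul] at h
      rcases hw.mem_or_mem h with h1 | h1
      · exact iha (left_ne_zero_of_mul hab) h1
      · exact ihb (right_ne_zero_of_mul hab) h1
  refine key (Ideal.absNorm w.asIdeal) ?_ (Ideal.absNorm_mem _)
  rw [Ne, Ideal.absNorm_eq_zero_iff]
  exact w.ne_bot

/-- A prime of `𝓞 L` contains only one rational prime. -/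
lemma prime_mem_unique (w : HeightOneSpectrum (𝓞 L)) {q q' : Nat.Primes}
    (hq : ((q : ℕ) : 𝓞 L) ∈ w.asIdeal) (hq' : ((q' : ℕ) : 𝓞 L) ∈ w.asIdeal) : q = q' := by
  by_contra hne
  have hcop : Nat.Coprime (q : ℕ) (q' : ℕ) :=
    (Nat.coprime_primes q.2 q'.2).2 (fun h => hne (Subtype.ext h))
  have h1 : IsCoprime ((q : ℕ) : ℤ) ((q' : ℕ) : ℤ) := Nat.isCoprime_iff_coprime.2 hcop
  obtain ⟨a, b, hab⟩ := h1
  apply w.isPrime.ne_top
  rw [Ideal.eq_top_iff_one]
  have h2 : (1 : 𝓞 L) = (a : 𝓞 L) * ((q : ℕ) : 𝓞 L) + (b : 𝓞 L) * ((q' : ℕ) : 𝓞 L) := by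
    have := congrArg (fun z : ℤ => (z : 𝓞 L)) hab
    simp only [Int.cast_add, Int.cast_mul, Int.cast_natCast, Int.cast_one] at this
    exact this.symm
  rw [h2]
  exact w.asIdeal.add_mem (w.asIdeal.mul_mem_left _ hq) (w.asIdeal.mul_mem_left _ hq')

/-- The rational prime under a prime of `𝓞 L`. -/
def primeUnder (w : HeightOneSpectrum (𝓞 L)) : Nat.Primes := (exists_prime_mem L w).choose

lemma primeUnder_mem (w : HeightOneSpectrum (𝓞 L)) :
    ((primeUnder L w : ℕ) : 𝓞 L) ∈ w.asIdeal := (exists_prime_mem L w).choose_spec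

lemma primeUnder_eq (w : HeightOneSpectrum (𝓞 L)) {q : Nat.Primes}
    (hq : ((q : ℕ) : 𝓞 L) ∈ w.asIdeal) : primeUnder L w = q :=
  prime_mem_unique L w (primeUnder_mem L w) hq

lemma primeUnder_notMem (T : Finset Nat.Primes) (w : HeightOneSpectrum (𝓞 L))
    (hw : w ∉ primesT L T) : primeUnder L w ∉ T := by
  intro h
  apply hw
  rw [mem_primesT_iff_exists]
  exact ⟨_, h, by simpa using primeUnder_mem L w⟩

lemma notMem_primesT_of_mem (T : Finset Nat.Primes) (w : HeightOneSpectrum (𝓞 L))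
    {q : Nat.Primes} (hq : q ∉ T) (hw : ((q : ℕ) : 𝓞 L) ∈ w.asIdeal) : w ∉ primesT L T := by
  intro h
  rw [mem_primesT_iff_exists] at h
  obtain ⟨q', hq', hmem⟩ := h
  have h1 : q' = q := prime_mem_unique L w (by simpa using hmem) hw
  exact hq (h1 ▸ hq')

/-- An element of `Lˣ` is a unit above almost all rational primes. -/
lemma finite_notMem_unitsAt (z : Lˣ) : {q : Nat.Primes | z ∉ unitsAt L q}.Finite := by
  apply ((finite_valuation_ne_one L z).image (primeUnder L)).subset
  intro q hq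
  rw [Set.mem_ofPred_eq, mem_unitsAt] at hq
  push Not at hq
  obtain ⟨w, hw, hne⟩ := hq
  exact ⟨w, hne, primeUnder_eq L w hw⟩

lemma valuation_units_ne_zero (w : HeightOneSpectrum (𝓞 L)) (y : Lˣ) :
    w.valuation L (y : L) ≠ 0 := by
  rw [Ne, Valuation.zero_iff]
  exact y.ne_zero

end primeUnder

variable (K L : Type) [Field K] [Field L] [NumberField K] [NumberField L] [Algebra K L]

/-- The cochain-level form of VAL-a: a cocycle which is locally trivial outside `T` is
cohomologous to a cocycle with values in the `T`-units. -/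
theorem exists_cochain_tUnits (hLV : Stmt_LocUnitGroup) (T : Finset Nat.Primes)
    (hclL : ClTrivial L T) (f : cocycles₂ (repL K L))
    (hx : ∀ v : Place K, v.1 ∉ T → locMap K L v 2 (H2π (repL K L) f) = 0) :
    ∃ y : (L ≃ₐ[K] L) → Lˣ, ∀ σ τ : L ≃ₐ[K] L,
      (Additive.toMul (f (σ, τ) : Additive Lˣ) : Lˣ) / (σ • y τ / y (σ * τ) * y σ) ∈
        TUnits L T := by
  classical
  haveI : FiniteDimensional K L := Module.Finite.of_restrictScalars_finite ℚ K L
  have hB := fun q => exists_cochain_unitsAt K L hLV q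
  -- the bad rational primes
  let S : Set Nat.Primes := {q | ∃ σ τ : L ≃ₐ[K] L,
    (Additive.toMul (f (σ, τ) : Additive Lˣ) : Lˣ) ∉ unitsAt L q}
  have hS : S.Finite := by
    have h1 : S = ⋃ στ : (L ≃ₐ[K] L) × (L ≃ₐ[K] L),
        {q | (Additive.toMul (f στ : Additive Lˣ) : Lˣ) ∉ unitsAt L q} := by
      ext q
      simp only [S, Set.mem_ofPred_eq, Set.mem_iUnion, Prod.exists]
    rw [h1]
    exact Set.finite_iUnion (fun στ => finite_notMem_unitsAt L _)
  -- the local cochains
  have hY : ∀ q : Nat.Primes, q ∉ T → ∃ Y : (L ≃ₐ[K] L) → Lˣ,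
      (q ∉ S → Y = fun _ => 1) ∧ ∀ σ τ : L ≃ₐ[K] L,
        (Additive.toMul (f (σ, τ) : Additive Lˣ) : Lˣ) / (σ • Y τ / Y (σ * τ) * Y σ) ∈
          unitsAt L q := by
    intro q hq
    by_cases hqS : q ∈ S
    · obtain ⟨Y, hY⟩ := (hB q).2 f (fun v => hx ⟨q, v⟩ hq)
      exact ⟨Y, fun h => absurd hqS h, hY⟩
    · refine ⟨fun _ => 1, fun _ => rfl, fun σ τ => ?_⟩
      simp only [smul_one, div_one, mul_one]
      by_contra hc
      exact hqS ⟨σ, τ, hc⟩
  choose! Y hY1 hY2 using hY
  -- gluing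
  have hy : ∀ σ : L ≃ₐ[K] L, ∃ y : Lˣ, ∀ w : HeightOneSpectrum (𝓞 L), w ∉ primesT L T →
      w.valuation L (y : L) = w.valuation L ((Y (primeUnder L w) σ : Lˣ) : L) := by
    intro σ
    obtain ⟨y, hy⟩ := exists_of_valuations L T hclL (primesT L hS.toFinset)
      (fun w => log (w.valuation L ((Y (primeUnder L w) σ : Lˣ) : L)))
    refine ⟨y, fun w hw => ?_⟩
    rw [hy w hw]
    by_cases hwS : w ∈ primesT L hS.toFinset
    · rw [if_pos hwS, exp_log (valuation_units_ne_zero L w _)]
    · rw [if_neg hwS]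
      have h1 : primeUnder L w ∉ S := by
        intro h
        apply hwS
        rw [mem_primesT_iff_exists]
        exact ⟨_, hS.mem_toFinset.2 h, by simpa using primeUnder_mem L w⟩
      rw [hY1 _ (primeUnder_notMem L T w hw) h1]
      simp
  choose y hy using hy
  refine ⟨y, fun σ τ => ?_⟩
  rw [mem_tUnits_iff]
  intro w hw
  have hqT : primeUnder L w ∉ T := primeUnder_notMem L T w hw
  have hrel : ∀ σ' : L ≃ₐ[K] L, y σ' / Y (primeUnder L w) σ' ∈ unitsAt L (primeUnder L w) := by
    intro σ' w' hw'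
    have hw'T : w' ∉ primesT L T := notMem_primesT_of_mem L T w' hqT hw'
    rw [Units.val_div_eq_div_val, map_div₀, hy σ' w' hw'T, primeUnder_eq L w' hw',
      div_self (valuation_units_ne_zero L w' _)]
  have hstab := (hB (primeUnder L w)).1
  have h1 := hY2 _ hqT σ τ
  have h2 : σ • (y τ / Y (primeUnder L w) τ) / (y (σ * τ) / Y (primeUnder L w) (σ * τ)) *
      (y σ / Y (primeUnder L w) σ) ∈ unitsAt L (primeUnder L w) :=
    (unitsAt L _).mul_mem ((unitsAt L _).div_mem (hstab σ _ (hrel τ)) (hrel (σ * τ))) (hrel σ)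
  have h3 : (Additive.toMul (f (σ, τ) : Additive Lˣ) : Lˣ) / (σ • y τ / y (σ * τ) * y σ) =
      ((Additive.toMul (f (σ, τ) : Additive Lˣ) : Lˣ) /
        (σ • Y (primeUnder L w) τ / Y (primeUnder L w) (σ * τ) * Y (primeUnder L w) σ)) /
      (σ • (y τ / Y (primeUnder L w) τ) / (y (σ * τ) / Y (primeUnder L w) (σ * τ)) *
        (y σ / Y (primeUnder L w) σ)) := by
    rw [smul_div']
    exact commGroup_aux2 _ _ _ _ _ _ _
  rw [h3]
  exact ((unitsAt L _).div_mem h1 h2) w (primeUnder_mem L w)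

/-- **VAL-a** from the local interface `Stmt_LocUnitGroup`. -/
theorem stmt_ValExact_of (hLV : Stmt_LocUnitGroup) : Stmt_ValExact := by
  intro p K L _ _ _ _ _ T hadm x hx
  have hclL : ClTrivial L T := hadm.cl L
  have hses := H19.valSeq_shortExact K L T hclL
  have hex := groupCohomology.mapShortComplex₂_exact hses 2
  rw [ShortComplex.moduleCat_exact_iff] at hex
  suffices h : (groupCohomology.map (MonoidHom.id (L ≃ₐ[K] L)) (H19.valRep K L T) 2) x = 0 by
    obtain ⟨e, he⟩ := hex x h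
    exact ⟨e, he⟩
  induction x using H2_induction_on with | @h f =>
  obtain ⟨y, hy⟩ := exists_cochain_tUnits K L hLV T hclL f hx
  rw [H2π_comp_map_apply, H2π_eq_zero_iff]
  refine ⟨fun σ => (H19.valRep K L T).hom (Additive.ofMul (y σ)), ?_⟩
  funext ⟨σ, τ⟩
  have hF : (H19.valRep K L T).hom (f (σ, τ)) =
      H19.valFun L T (Additive.toMul (f (σ, τ) : Additive Lˣ) : Lˣ) := rfl
  have hFD : H19.valFun L T (Additive.toMul (f (σ, τ) : Additive Lˣ) : Lˣ) =
      H19.valFun L T (σ • y τ / y (σ * τ) * y σ) := by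
    have h := H19.valFun_mul L T ((Additive.toMul (f (σ, τ) : Additive Lˣ) : Lˣ) /
        (σ • y τ / y (σ * τ) * y σ)) (σ • y τ / y (σ * τ) * y σ)
    rw [div_mul_cancel] at h
    rw [h, (H19.valFun_eq_zero_iff L T _).2 (hy σ τ), zero_add]
  have h2 : H19.valFun L T (σ • y τ / y (σ * τ) * y σ) =
      H19.valFun L T (σ • y τ) - H19.valFun L T (y (σ * τ)) + H19.valFun L T (y σ) := by
    rw [H19.valFun_mul]
    have h4 : H19.valFun L T (σ • y τ) =
        H19.valFun L T (σ • y τ / y (σ * τ)) + H19.valFun L T (y (σ * τ)) := by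
      rw [← H19.valFun_mul, div_mul_cancel]
    rw [h4, add_sub_cancel_right]
  have h3 : H19.valFun L T (σ • y τ) =
      (H19.divRep K L T).ρ σ (H19.valFun L T (y τ)) :=
    Rep.hom_comm_apply (H19.valRep K L T) σ (Additive.ofMul (y τ))
  change (H19.divRep K L T).ρ σ (H19.valFun L T (y τ)) - H19.valFun L T (y (σ * τ)) +
      H19.valFun L T (y σ) = (H19.valRep K L T).hom (f (σ, τ))
  rw [hF, hFD, h2, h3]

end Fermat.Agent.S55.CFT.H12
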