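import Fermat.Agent.S55.CFT.H20_RatApprox

/-!
# S55 / E4 / CFT, leaf SI-b (helper20): weak approximation

`stmt_WeakApprox : H12.Stmt_WeakApprox`: `𝓞 K [1 / T]` is dense in `∏_{q ∈ T} ℚ_q ⊗ K`.
-/

set_option autoImplicit false

open NumberField TensorProduct

noncomputable section

namespace Fermat.Agent.S55.CFT.H20

open Fermat.Agent.S55.CFT Fermat.Agent.S55.CFT.H12

variable {K : Type} [Field K] [NumberField K]

/-- `x` is a limit of elements of `𝓞 K [1 / T]` (diagonally embedded). -/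
def Approx (T : Finset Nat.Primes) (x : ∀ q : T, SemiLocal K q.1) : Prop :=
  ∀ m : ℕ, ∃ (a₀ : 𝓞 K) (k : ℕ), ∀ q : T,
    (1 : Qp q.1) ⊗ₜ[ℚ] ((a₀ : K) / (prodT T : K) ^ k) - x q ∈ semiLocalBall K q.1 m

theorem prodT_ne_zero (T : Finset Nat.Primes) : ((prodT T : ℕ) : K) ≠ 0 :=
  Nat.cast_ne_zero.mpr (prodT_pos T).ne'

theorem approx_zero (T : Finset Nat.Primes) : Approx (K := K) T 0 := by
  intro m
  refine ⟨0, 0, fun q => ?_⟩
  simpa using zero_mem_ball (K := K) q.1 m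

theorem approx_add {T : Finset Nat.Primes} {x y : ∀ q : T, SemiLocal K q.1}
    (hx : Approx T x) (hy : Approx T y) : Approx T (x + y) := by
  intro m
  obtain ⟨a₀, k, ha⟩ := hx m
  obtain ⟨b₀, l, hb⟩ := hy m
  refine ⟨a₀ * (prodT T : 𝓞 K) ^ l + b₀ * (prodT T : 𝓞 K) ^ k, k + l, fun q => ?_⟩
  have hP := prodT_ne_zero (K := K) T
  have h1 : (((a₀ * (prodT T : 𝓞 K) ^ l + b₀ * (prodT T : 𝓞 K) ^ k : 𝓞 K) : K))
      / (prodT T : K) ^ (k + l) = (a₀ : K) / (prodT T : K) ^ k + (b₀ : K) / (prodT T : K) ^ l := by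
    push_cast
    field_simp
    ring
  rw [h1, TensorProduct.tmul_add, Pi.add_apply]
  have := add_mem_ball q.1 (ha q) (hb q)
  convert this using 1
  abel

theorem one_tmul_ratsmul (q : Nat.Primes) (r : ℚ) (z : K) :
    (1 : Qp q) ⊗ₜ[ℚ] (r • z) = ((r : ℚ) : Qp q) ⊗ₜ[ℚ] z := by
  have h : r • (1 : Qp q) = ((r : ℚ) : Qp q) := by
    rw [Algebra.smul_def, mul_one, eq_ratCast]
  rw [← TensorProduct.smul_tmul, h]

theorem tmul_ratsmul (q : Nat.Primes) (c : Qp q) (r : ℚ) (z : K) :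
    c ⊗ₜ[ℚ] (r • z) = (((r : ℚ) : Qp q) * c) ⊗ₜ[ℚ] z := by
  have h : r • c = ((r : ℚ) : Qp q) * c := by
    rw [Algebra.smul_def, eq_ratCast]
  rw [← TensorProduct.smul_tmul, h]

theorem approx_single_tmul_int (T : Finset Nat.Primes) {q0 : Nat.Primes} (hq0 : q0 ∈ T)
    (c : Qp q0) (z : 𝓞 K) :
    Approx (K := K) T (Pi.single (⟨q0, hq0⟩ : T) (c ⊗ₜ[ℚ] (z : K))) := by
  intro m
  obtain ⟨b, k, hb1, hb2⟩ := exists_rat_approx T hq0 c m
  refine ⟨(b : 𝓞 K) * z, k, fun q => ?_⟩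
  have hP := prodT_ne_zero (K := K) T
  have h1 : (((b : 𝓞 K) * z : 𝓞 K) : K) / (prodT T : K) ^ k
      = ((b : ℚ) / (prodT T : ℚ) ^ k) • (z : K) := by
    have e1 : ((((b : 𝓞 K) * z : 𝓞 K)) : K) = (b : K) * (z : K) := by
      change algebraMap (𝓞 K) K ((b : 𝓞 K) * z) = (b : K) * algebraMap (𝓞 K) K z
      rw [map_mul, map_intCast]
    rw [e1, Algebra.smul_def, eq_ratCast]
    push_cast
    field_simp
  rw [h1, one_tmul_ratsmul]
  have hcast : ∀ q' : Nat.Primes, ((((b : ℚ) / (prodT T : ℚ) ^ k : ℚ)) : Qp q')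
      = (b : Qp q') / ((prodT T : ℕ) : Qp q') ^ k := by
    intro q'
    push_cast
    rfl
  rw [hcast]
  by_cases h : q = ⟨q0, hq0⟩
  · subst h
    rw [Pi.single_eq_same, ← TensorProduct.sub_tmul]
    exact tmul_mem_ball q0 hb1 z
  · rw [Pi.single_eq_of_ne h, sub_zero]
    refine tmul_mem_ball q.1 (hb2 q.1 q.2 ?_) z
    intro h'
    exact h (Subtype.ext h')

theorem exists_int_denominator (y : K) : ∃ (z : 𝓞 K) (d : ℤ), d ≠ 0 ∧ y = ((d : ℚ)⁻¹) • (z : K) := by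
  have halg : IsAlgebraic ℤ y := by
    rw [IsFractionRing.isAlgebraic_iff ℤ ℚ K]
    exact Algebra.IsAlgebraic.isAlgebraic y
  obtain ⟨d, hd, hint⟩ := halg.exists_integral_multiple
  refine ⟨⟨d • y, hint⟩, d, hd, ?_⟩
  rw [Algebra.smul_def, eq_ratCast]
  have hd' : (d : K) ≠ 0 := Int.cast_ne_zero.mpr hd
  show y = _ * (d • y)
  rw [zsmul_eq_mul]
  push_cast
  field_simp

theorem approx_single_tmul (T : Finset Nat.Primes) {q0 : Nat.Primes} (hq0 : q0 ∈ T)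
    (c : Qp q0) (y : K) :
    Approx (K := K) T (Pi.single (⟨q0, hq0⟩ : T) (c ⊗ₜ[ℚ] y)) := by
  obtain ⟨z, d, -, rfl⟩ := exists_int_denominator y
  rw [tmul_ratsmul]
  exact approx_single_tmul_int T hq0 _ z

theorem approx_single (T : Finset Nat.Primes) {q0 : Nat.Primes} (hq0 : q0 ∈ T)
    (s : SemiLocal K q0) :
    Approx (K := K) T (Pi.single (⟨q0, hq0⟩ : T) s) := by
  induction s using TensorProduct.induction_on with
  | zero =>
    rw [Pi.single_zero]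
    exact approx_zero T
  | tmul c y => exact approx_single_tmul T hq0 c y
  | add s t hs ht =>
    rw [Pi.single_add]
    exact approx_add hs ht

theorem approx_all (T : Finset Nat.Primes) (x : ∀ q : T, SemiLocal K q.1) : Approx T x := by
  have hx : x = ∑ q : T, Pi.single q (x q) := (Finset.univ_sum_single x).symm
  rw [hx]
  refine Finset.sum_induction _ (Approx T) (fun _ _ => approx_add) (approx_zero T) ?_
  rintro ⟨q, hq⟩ -
  exact approx_single T hq _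

/-- `1 ⊗ P ^ m ∈ q ^ m · R_q` for `q ∈ T`. -/
theorem one_tmul_prodT_pow_mem_ball {T : Finset Nat.Primes} {q : Nat.Primes} (hq : q ∈ T) (m : ℕ) :
    (1 : Qp q) ⊗ₜ[ℚ] (((prodT T : ℕ) : K) ^ m) ∈ semiLocalBall K q m := by
  refine ⟨((prodErase T q : ℕ) : SemiLocal K q) ^ m,
    Subring.pow_mem _ (natCast_mem _ _) _, ?_⟩
  rw [← mul_pow, ← Nat.cast_mul, ← prodT_eq_mul hq]
  have : (1 : Qp q) ⊗ₜ[ℚ] (((prodT T : ℕ) : K) ^ m)
      = ((1 : Qp q) ⊗ₜ[ℚ] ((prodT T : ℕ) : K)) ^ m := by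
    rw [Algebra.TensorProduct.tmul_pow, one_pow]
  rw [this]
  congr 1
  rw [← map_natCast (Algebra.TensorProduct.includeRight : K →ₐ[ℚ] SemiLocal K q)]
  rfl

/-- **SI-b** (weak approximation). -/
theorem stmt_WeakApprox : Stmt_WeakApprox := by
  intro K _ _ T x m
  obtain ⟨a₀, k, ha⟩ := approx_all T x m
  by_cases h0 : a₀ = 0
  · subst h0
    refine ⟨(prodT T : 𝓞 K) ^ m, 0, ?_, fun q => ?_⟩
    · exact pow_ne_zero _ (Nat.cast_ne_zero.mpr (prodT_pos T).ne')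
    · have h1 : -x q ∈ semiLocalBall K q.1 m := by simpa using ha q
      have h2 := one_tmul_prodT_pow_mem_ball (K := K) q.2 m
      have h3 := add_mem_ball q.1 h2 h1
      have h4 : ((((prodT T : 𝓞 K) ^ m : 𝓞 K)) : K) / (prodT T : K) ^ 0
          = ((prodT T : ℕ) : K) ^ m := by
        push_cast
        simp
      rw [h4, sub_eq_add_neg]
      exact h3
  · exact ⟨a₀, k, h0, ha⟩

end Fermat.Agent.S55.CFT.H20
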