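/-
S55 / E4 / CFT, package SI'' (helper12): interfaces of the two analytic leaves.

`semiLocalInt K q ⊆ ℚ_q ⊗ K`: the subring generated by the pure tensors `c ⊗ x` with `|c| ≤ 1`
and `x ∈ 𝓞 K` (the image of `ℤ_q ⊗ 𝓞 K`, a `ℤ_q`-lattice).  `semiLocalBall K q m = q ^ m · R_q`.

* `Stmt_SemiLocalPow` (SI-a; Hensel): for `n > 0` there is `m` such that every `u` with
  `u - 1 ∈ q ^ m · R_q` is an `n`-th power in `ℚ_q ⊗ K`.
* `Stmt_WeakApprox` (SI-b; weak approximation): `𝓞 K [1 / T]` is dense in `∏_{q ∈ T} ℚ_q ⊗ K`: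
  for every family `x_q` and every `m` there is `a = a₀ / (prodT T) ^ k`, `a₀ ∈ 𝓞 K`, `a₀ ≠ 0`,
  with `1 ⊗ a - x_q ∈ q ^ m · R_q` for all `q ∈ T`.
-/
import Fermat.Agent.S55.CFT.Global

set_option autoImplicit false

open NumberField TensorProduct

noncomputable section

namespace Fermat.Agent.S55.CFT.H12

/-- The norm of `ℚ_q`, for `q : Nat.Primes`. -/
def qNorm (q : Nat.Primes) (c : Qp q) : ℝ :=
  haveI := fact_primes q
  ‖(c : ℚ_[(q : ℕ)])‖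

variable (K : Type) [Field K] [NumberField K]

/-- The lattice `R_q = ` image of `ℤ_q ⊗ 𝓞 K` in `ℚ_q ⊗ K`, as a subring. -/
def semiLocalInt (q : Nat.Primes) : Subring (SemiLocal K q) :=
  Subring.closure {y | ∃ (c : Qp q) (x : 𝓞 K), qNorm q c ≤ 1 ∧ y = c ⊗ₜ[ℚ] (x : K)}

/-- `q ^ m · R_q`. -/
def semiLocalBall (q : Nat.Primes) (m : ℕ) : Set (SemiLocal K q) :=
  {y | ∃ r ∈ semiLocalInt K q, y = ((q : ℕ) : SemiLocal K q) ^ m * r}

/-- **SI-a** (`n`-th powers are open in `ℚ_q ⊗ K`). -/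
def Stmt_SemiLocalPow : Prop :=
  ∀ (K : Type) [Field K] [NumberField K] (q : Nat.Primes) (n : ℕ), 0 < n →
    ∃ m : ℕ, ∀ u : SemiLocal K q, u - 1 ∈ semiLocalBall K q m → ∃ w : SemiLocal K q, w ^ n = u

/-- **SI-b** (weak approximation: `𝓞 K [1 / T]` is dense in `∏_{q ∈ T} ℚ_q ⊗ K`). -/
def Stmt_WeakApprox : Prop :=
  ∀ (K : Type) [Field K] [NumberField K] (T : Finset Nat.Primes)
    (x : ∀ q : T, SemiLocal K q.1) (m : ℕ),
    ∃ (a₀ : 𝓞 K) (k : ℕ), a₀ ≠ 0 ∧ ∀ q : T,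
      (1 : Qp q.1) ⊗ₜ[ℚ] ((a₀ : K) / (prodT T : K) ^ k) - x q ∈ semiLocalBall K q.1 m

end Fermat.Agent.S55.CFT.H12
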