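/-
S55 / E4 / CFT, leaf SI-a (helper96), part 1: the lattice `R_q ⊆ ℚ_q ⊗ K` in coordinates.

`slBasis K q` is the `ℚ_q`-basis `1 ⊗ b_i` of `ℚ_q ⊗ K` (`b_i` an integral basis of `K`);
`intSub K q` is the subring of the elements all of whose coordinates are in `ℤ_q`.
It contains `semiLocalInt K q`, and it is `q`-adically complete.
-/
import Fermat.Agent.S55.CFT.H12_SIDefs

set_option autoImplicit false

open NumberField TensorProduct

noncomputable section

namespace Fermat.Agent.S55.CFT.H96

open Fermat.Agent.S55.CFT Fermat.Agent.S55.CFT.H12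

attribute [local instance] Fermat.Agent.S55.CFT.fact_primes

variable (K : Type) [Field K] [NumberField K] (q : Nat.Primes)

/-- The index set of an integral basis. -/
abbrev Idx : Type := Module.Free.ChooseBasisIndex ℤ (𝓞 K)

/-- The `ℚ_q`-basis `1 ⊗ b_i` of `ℚ_q ⊗ K`. -/
def slBasis : Module.Basis (Idx K) (Qp q) (SemiLocal K q) :=
  Algebra.TensorProduct.basis (Qp q) (integralBasis K)

theorem slBasis_apply (i : Idx K) :
    slBasis K q i = (1 : Qp q) ⊗ₜ[ℚ] (integralBasis K i) := by
  unfold slBasis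
  rw [Algebra.TensorProduct.basis_apply]

theorem slBasis_repr_tmul (c : Qp q) (x : K) (i : Idx K) :
    (slBasis K q).repr (c ⊗ₜ[ℚ] x) i = c * algebraMap ℚ (Qp q) ((integralBasis K).repr x i) := by
  unfold slBasis
  rw [Algebra.TensorProduct.basis_repr_tmul]
  simp
  rfl

/-- The coordinates of `c ⊗ x`, `x` integral. -/
theorem slBasis_repr_tmul_int (c : Qp q) (x : 𝓞 K) (i : Idx K) :
    (slBasis K q).repr (c ⊗ₜ[ℚ] (x : K)) i
      = c * (((RingOfIntegers.basis K).repr x i : ℤ) : Qp q) := by
  rw [slBasis_repr_tmul]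
  have h := integralBasis_repr_apply K x i
  rw [h]
  simp

/-- The set of elements with coordinates in `ℤ_q`. -/
def intSet : Set (SemiLocal K q) := {x | ∀ i, ‖(slBasis K q).repr x i‖ ≤ 1}

variable {K q}

theorem zero_mem_intSet : (0 : SemiLocal K q) ∈ intSet K q := by
  intro i
  simp

theorem add_mem_intSet {x y : SemiLocal K q} (hx : x ∈ intSet K q) (hy : y ∈ intSet K q) :
    x + y ∈ intSet K q := by
  intro i
  rw [map_add, Finsupp.add_apply]
  exact (Padic.nonarchimedean _ _).trans (max_le (hx i) (hy i))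

theorem neg_mem_intSet {x : SemiLocal K q} (hx : x ∈ intSet K q) : -x ∈ intSet K q := by
  intro i
  rw [map_neg, Finsupp.neg_apply, norm_neg]
  exact hx i

theorem smul_mem_intSet {c : Qp q} (hc : ‖c‖ ≤ 1) {x : SemiLocal K q} (hx : x ∈ intSet K q) :
    c • x ∈ intSet K q := by
  intro i
  rw [map_smul, Finsupp.smul_apply, smul_eq_mul, norm_mul]
  exact mul_le_one₀ hc (norm_nonneg _) (hx i)

theorem tmul_mem_intSet {c : Qp q} (hc : ‖c‖ ≤ 1) (x : 𝓞 K) :
    c ⊗ₜ[ℚ] (x : K) ∈ intSet K q := by
  intro i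
  rw [slBasis_repr_tmul_int, norm_mul]
  exact mul_le_one₀ hc (norm_nonneg _) (Padic.norm_int_le_one _)

theorem sum_mem_intSet {α : Type*} (s : Finset α) (f : α → SemiLocal K q)
    (hf : ∀ a ∈ s, f a ∈ intSet K q) : ∑ a ∈ s, f a ∈ intSet K q := by
  classical
  induction s using Finset.induction_on with
  | empty => simpa using zero_mem_intSet
  | insert a s ha ih =>
    rw [Finset.sum_insert ha]
    exact add_mem_intSet (hf a (Finset.mem_insert_self a s))
      (ih (fun b hb => hf b (Finset.mem_insert_of_mem hb)))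

theorem basis_mul_basis_mem (i j : Idx K) : slBasis K q i * slBasis K q j ∈ intSet K q := by
  rw [slBasis_apply, slBasis_apply, Algebra.TensorProduct.tmul_mul_tmul, one_mul]
  have h : integralBasis K i * integralBasis K j
      = ((RingOfIntegers.basis K i * RingOfIntegers.basis K j : 𝓞 K) : K) := by
    rw [integralBasis_apply, integralBasis_apply]
    simp
  rw [h]
  exact tmul_mem_intSet (by simp) _

theorem mul_mem_intSet {x y : SemiLocal K q} (hx : x ∈ intSet K q) (hy : y ∈ intSet K q) :
    x * y ∈ intSet K q := by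
  have ex := (slBasis K q).sum_repr x
  have ey := (slBasis K q).sum_repr y
  rw [← ex, ← ey, Finset.sum_mul_sum]
  refine sum_mem_intSet _ _ (fun i _ => sum_mem_intSet _ _ (fun j _ => ?_))
  rw [smul_mul_smul_comm]
  exact smul_mem_intSet (by rw [norm_mul]; exact mul_le_one₀ (hx i) (norm_nonneg _) (hy j))
    (basis_mul_basis_mem i j)

theorem one_mem_intSet : (1 : SemiLocal K q) ∈ intSet K q := by
  have h : (1 : SemiLocal K q) = (1 : Qp q) ⊗ₜ[ℚ] (((1 : 𝓞 K)) : K) := by
    rw [Algebra.TensorProduct.one_def]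
    simp
  rw [h]
  exact tmul_mem_intSet (by simp) _

variable (K q)

/-- The subring of the elements of `ℚ_q ⊗ K` with coordinates in `ℤ_q`. -/
def intSub : Subring (SemiLocal K q) where
  carrier := intSet K q
  mul_mem' := mul_mem_intSet
  one_mem' := one_mem_intSet
  add_mem' := add_mem_intSet
  zero_mem' := zero_mem_intSet
  neg_mem' := neg_mem_intSet

variable {K q}

theorem mem_intSub {x : SemiLocal K q} :
    x ∈ intSub K q ↔ ∀ i, ‖(slBasis K q).repr x i‖ ≤ 1 := Iff.rfl

theorem semiLocalInt_le : semiLocalInt K q ≤ intSub K q := by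
  unfold semiLocalInt
  rw [Subring.closure_le]
  rintro y ⟨c, x, hc, rfl⟩
  exact tmul_mem_intSet hc x

end Fermat.Agent.S55.CFT.H96
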