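/-
S55 / E4 / CFT, island BR, leaf LV, part LV-c (helper61).

`one_tmul_mem_intSub_iff`: for `y ∈ L`, `1 ⊗ y` has coordinates in `ℤ_q` (in the basis
`1 ⊗ b_i`, `b_i` an integral basis of `L`) iff `y` is integral at every prime of `L` above `q`.
-/
import Fermat.Agent.S55.CFT.H12_ValDefs
import Fermat.Agent.S55.CFT.H96_SemiLocalInt
import Fermat.Agent.S55.CFT.H20_WeakApprox

set_option autoImplicit false
set_option linter.style.haveILetI false
set_option linter.unusedSectionVars false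

open NumberField TensorProduct IsDedekindDomain

noncomputable section

namespace Fermat.Agent.S55.CFT.H61

open Fermat.Agent.S55.CFT Fermat.Agent.S55.CFT.H12 Fermat.Agent.S55.CFT.H96

attribute [local instance] Fermat.Agent.S55.CFT.fact_primes

section valuations

variable {L : Type} [Field L] [NumberField L] (q : Nat.Primes)

/-- An integer prime to `q` is a unit at every prime above `q`. -/
theorem valuation_intCast_eq_one (w : HeightOneSpectrum (𝓞 L))
    (hw : ((q : ℕ) : 𝓞 L) ∈ w.asIdeal) {n : ℤ} (hn : ¬ ((q : ℕ) : ℤ) ∣ n) :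
    w.valuation L (n : L) = 1 := by
  have h1 : (n : L) = algebraMap (𝓞 L) L (n : 𝓞 L) := by simp
  rw [h1, HeightOneSpectrum.valuation_eq_one_iff_notMem]
  intro hmem
  have hcop : IsCoprime ((q : ℕ) : ℤ) n :=
    (Prime.coprime_iff_not_dvd (Nat.prime_iff_prime_int.mp q.2)).2 hn
  obtain ⟨a, b, hab⟩ := hcop
  have h2 : (1 : 𝓞 L) ∈ w.asIdeal := by
    have h3 : ((a * ((q : ℕ) : ℤ) + b * n : ℤ) : 𝓞 L) = 1 := by rw [hab]; simp
    rw [← h3]
    push_cast
    exact w.asIdeal.add_mem (w.asIdeal.mul_mem_left _ hw) (w.asIdeal.mul_mem_left _ hmem)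
  exact w.isPrime.ne_top ((Ideal.eq_top_iff_one _).2 h2)

theorem valuation_natCast_eq_one (w : HeightOneSpectrum (𝓞 L))
    (hw : ((q : ℕ) : 𝓞 L) ∈ w.asIdeal) {n : ℕ} (hn : ¬ (q : ℕ) ∣ n) :
    w.valuation L (n : L) = 1 := by
  have := valuation_intCast_eq_one q w hw (n := (n : ℤ)) (by rwa [Int.natCast_dvd_natCast])
  simpa using this

/-- `q` is a unit at the primes not above `q`. -/
theorem valuation_q_eq_one (w : HeightOneSpectrum (𝓞 L))
    (hw : ((q : ℕ) : 𝓞 L) ∉ w.asIdeal) : w.valuation L ((q : ℕ) : L) = 1 := by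
  have h1 : ((q : ℕ) : L) = algebraMap (𝓞 L) L ((q : ℕ) : 𝓞 L) := by simp
  rw [h1, HeightOneSpectrum.valuation_eq_one_iff_notMem]
  exact hw

theorem valuation_int_le_one (w : HeightOneSpectrum (𝓞 L)) (n : ℤ) :
    w.valuation L (n : L) ≤ 1 := by
  have := w.valuation_le_one (K := L) ((n : 𝓞 L))
  simpa using this

theorem valuation_of_isIntegral (w : HeightOneSpectrum (𝓞 L)) {y : L} (hy : IsIntegral ℤ y) :
    w.valuation L y ≤ 1 :=
  (H12.isIntegral_iff_valuation_le_one L y).1 hy w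

/-- A rational number which is a `q`-adic integer has denominator prime to `q`. -/
theorem not_dvd_den_of_norm_le_one {c : ℚ} (hc : ‖(c : Qp q)‖ ≤ 1) : ¬ (q : ℕ) ∣ c.den := by
  intro hdvd
  have hnum : ¬ ((q : ℕ) : ℤ) ∣ c.num := by
    intro h
    have h1 : (q : ℕ) ∣ c.num.natAbs := Int.natCast_dvd.mp h
    have h2 : (q : ℕ) ∣ Nat.gcd c.num.natAbs c.den := Nat.dvd_gcd h1 hdvd
    rw [c.reduced] at h2
    exact q.2.one_lt.ne' (Nat.dvd_one.mp h2)
  have hn1 : ‖((c.num : ℤ) : Qp q)‖ = 1 := by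
    refine le_antisymm (Padic.norm_int_le_one _) (not_lt.mp fun hlt => hnum ?_)
    exact Padic.norm_intCast_lt_one_iff.mp hlt
  have hd1 : ‖((c.den : ℕ) : Qp q)‖ < 1 := Padic.norm_natCast_lt_one_iff.mpr hdvd
  have hd0 : ((c.den : ℕ) : Qp q) ≠ 0 := Nat.cast_ne_zero.mpr c.den_nz
  have hc' : (c : Qp q) = ((c.num : ℤ) : Qp q) / ((c.den : ℕ) : Qp q) := by
    conv_lhs => rw [← Rat.num_div_den c]
    push_cast
    rfl
  rw [hc', norm_div, hn1, div_le_one (norm_pos_iff.mpr hd0)] at hc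
  exact absurd hd1 (not_lt.mpr hc)

/-- A rational number with denominator prime to `q` is integral at the primes above `q`. -/
theorem valuation_ratCast_le_one (w : HeightOneSpectrum (𝓞 L))
    (hw : ((q : ℕ) : 𝓞 L) ∈ w.asIdeal) {c : ℚ} (hc : ¬ (q : ℕ) ∣ c.den) :
    w.valuation L (c : L) ≤ 1 := by
  have hc' : (c : L) = ((c.num : ℤ) : L) / ((c.den : ℕ) : L) := by
    conv_lhs => rw [← Rat.num_div_den c]
    push_cast
    rfl
  rw [hc', map_div₀, valuation_natCast_eq_one q w hw hc, div_one]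
  exact valuation_int_le_one w _

end valuations

section main

variable (L : Type) [Field L] [NumberField L] (q : Nat.Primes)

/-- **LV-c**, first half. -/
theorem valuation_le_one_of_mem_intSub {y : L}
    (h : (1 : Qp q) ⊗ₜ[ℚ] y ∈ intSub L q) (w : HeightOneSpectrum (𝓞 L))
    (hw : ((q : ℕ) : 𝓞 L) ∈ w.asIdeal) : w.valuation L y ≤ 1 := by
  have hy := (integralBasis L).sum_repr y
  rw [← hy]
  refine Valuation.map_sum_le _ fun i _ => ?_
  have hi := h i
  rw [slBasis_repr_tmul, one_mul] at hi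
  have hden : ¬ (q : ℕ) ∣ ((integralBasis L).repr y i).den :=
    not_dvd_den_of_norm_le_one q (by simpa using hi)
  have h1 : (integralBasis L).repr y i • integralBasis L i
      = (((integralBasis L).repr y i : ℚ) : L) * integralBasis L i := by
    rw [Algebra.smul_def]; rfl
  rw [h1, map_mul]
  have h2 : w.valuation L (integralBasis L i) ≤ 1 := by
    rw [integralBasis_apply]
    exact w.valuation_le_one (K := L) _
  exact mul_le_one' (valuation_ratCast_le_one q w hw hden) h2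

/-- **LV-c**, second half. -/
theorem mem_intSub_of_valuation_le_one {y : L}
    (h : ∀ w : HeightOneSpectrum (𝓞 L), ((q : ℕ) : 𝓞 L) ∈ w.asIdeal → w.valuation L y ≤ 1) :
    (1 : Qp q) ⊗ₜ[ℚ] y ∈ intSub L q := by
  obtain ⟨z, d, hd, hy⟩ := H20.exists_int_denominator y
  have hdL : (d : L) ≠ 0 := Int.cast_ne_zero.mpr hd
  have hdy : (d : L) * y = (z : L) := by
    rw [hy, Algebra.smul_def, eq_ratCast]
    push_cast
    field_simp
  have hn : d.natAbs ≠ 0 := Int.natAbs_ne_zero.mpr hd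
  obtain ⟨k, n', hn', hnn'⟩ := Nat.exists_eq_pow_mul_and_not_dvd hn (q : ℕ) q.2.ne_one
  -- `|d| y` is integral
  have hint1 : IsIntegral ℤ ((d.natAbs : L) * y) := by
    rcases Int.natAbs_eq d with h1 | h1
    · have h2 : (d : L) = ((d.natAbs : ℕ) : L) :=
        (congrArg (Int.cast : ℤ → L) h1).trans (Int.cast_natCast _)
      rw [← h2, hdy]
      exact RingOfIntegers.isIntegral_coe z
    · have h2 : (d : L) = -((d.natAbs : ℕ) : L) :=
        (congrArg (Int.cast : ℤ → L) h1).trans (by rw [Int.cast_neg, Int.cast_natCast])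
      have h3 : ((d.natAbs : ℕ) : L) * y = -((d : L) * y) := by rw [h2]; ring
      rw [h3, hdy]
      exact (RingOfIntegers.isIntegral_coe z).neg
  -- `n' y` is integral
  have hint : IsIntegral ℤ ((n' : L) * y) := by
    rw [H12.isIntegral_iff_valuation_le_one]
    intro w
    by_cases hw : ((q : ℕ) : 𝓞 L) ∈ w.asIdeal
    · rw [map_mul]
      have h1 : w.valuation L (n' : L) ≤ 1 := by
        have := valuation_int_le_one w (n' : ℤ)
        simpa using this
      exact mul_le_one' h1 (h w hw)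
    · have h1 : ((d.natAbs : ℕ) : L) * y = ((q : ℕ) : L) ^ k * ((n' : L) * y) := by
        rw [hnn']
        push_cast
        ring
      have h2 := valuation_of_isIntegral w hint1
      rw [h1, map_mul, map_pow, valuation_q_eq_one q w hw, one_pow, one_mul] at h2
      exact h2
  have hn'0 : (n' : ℚ) ≠ 0 := by
    intro h0
    have : n' = 0 := by exact_mod_cast h0
    rw [this, mul_zero] at hnn'
    exact hn hnn'
  have hn'L : (n' : L) ≠ 0 := by
    intro h0
    have : n' = 0 := by exact_mod_cast h0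
    rw [this, mul_zero] at hnn'
    exact hn hnn'
  obtain ⟨z', hz'⟩ : ∃ z' : 𝓞 L, (z' : L) = (n' : L) * y := ⟨⟨(n' : L) * y, hint⟩, rfl⟩
  have hyz : ((n' : ℚ)⁻¹ : ℚ) • (z' : L) = y := by
    rw [hz', Algebra.smul_def, eq_ratCast]
    push_cast
    field_simp
  have hc : ‖((((n' : ℚ)⁻¹ : ℚ)) : Qp q)‖ ≤ 1 := by
    push_cast
    rw [norm_inv]
    have : ‖((n' : ℕ) : Qp q)‖ = 1 :=
      Padic.norm_natCast_eq_one_iff.mpr ((Nat.Prime.coprime_iff_not_dvd q.2).2 hn')
    rw [this, inv_one]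
  have key : (1 : Qp q) ⊗ₜ[ℚ] y = ((((n' : ℚ)⁻¹ : ℚ)) : Qp q) ⊗ₜ[ℚ] (z' : L) := by
    rw [← H20.one_tmul_ratsmul, hyz]
  rw [key]
  exact tmul_mem_intSet hc z'

/-- **LV-c**: `1 ⊗ y` is in the lattice `ℤ_q ⊗ 𝓞_L` iff `y` is integral at the primes above
`q`. -/
theorem one_tmul_mem_intSub_iff (y : L) :
    (1 : Qp q) ⊗ₜ[ℚ] y ∈ intSub L q ↔
      ∀ w : HeightOneSpectrum (𝓞 L), ((q : ℕ) : 𝓞 L) ∈ w.asIdeal → w.valuation L y ≤ 1 :=
  ⟨fun h w hw => valuation_le_one_of_mem_intSub L q h w hw,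
    mem_intSub_of_valuation_le_one L q⟩

end main

end Fermat.Agent.S55.CFT.H61
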