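/-
S55 package E4, island BR, leaf LV (local unit groups), part 1 (generic prime `p`):
the unit group `U` of the order `R' = ℤ_p · 𝓞_K ⊆ ℚ_p ⊗ K`:
* `exists_unit_one_add`: `1 + p R' ⊆ U`;
* `exists_approx`: `K` is dense in `ℚ_p ⊗ K`;
* `exists_div_mem_unitSub`: `(ℚ_p ⊗ K)ˣ = Kˣ · U`.
Owner: helper80.
-/
import Mathlib
import Fermat.Agent.S55.CFT.H80_PlacesInt

set_option autoImplicit false

open NumberField TensorProduct Module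

noncomputable section

namespace Fermat.Agent.S55.CFT.H80

variable (p : ℕ) [hp : Fact p.Prime] (K : Type) [Field K] [NumberField K]

/-- The units of the order `ℤ_p · 𝓞_K` of `ℚ_p ⊗ K`. -/
def unitSub : Subgroup (ℚ_[p] ⊗[ℚ] K)ˣ where
  carrier := {u | (u : ℚ_[p] ⊗[ℚ] K) ∈ intSub p K ∧
    ((u⁻¹ : (ℚ_[p] ⊗[ℚ] K)ˣ) : ℚ_[p] ⊗[ℚ] K) ∈ intSub p K}
  one_mem' := ⟨by simp, by simp⟩
  mul_mem' := fun {a b} ha hb =>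
    ⟨by rw [Units.val_mul]; exact mul_mem ha.1 hb.1,
      by rw [mul_inv_rev, Units.val_mul]; exact mul_mem hb.2 ha.2⟩
  inv_mem' := fun {a} ha => ⟨ha.2, by rw [inv_inv]; exact ha.1⟩

lemma mem_unitSub (u : (ℚ_[p] ⊗[ℚ] K)ˣ) : u ∈ unitSub p K ↔
    (u : ℚ_[p] ⊗[ℚ] K) ∈ intSub p K ∧
      ((u⁻¹ : (ℚ_[p] ⊗[ℚ] K)ˣ) : ℚ_[p] ⊗[ℚ] K) ∈ intSub p K := Iff.rfl

theorem isUnit_one_add (ρ : intSub p K) :
    IsUnit (algebraMap ℤ_[p] (intSub p K) (p : ℤ_[p]) * ρ + 1) := by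
  have hmem : algebraMap ℤ_[p] (intSub p K) (p : ℤ_[p]) ∈ (⊥ : Ideal (intSub p K)).jacobson := by
    unfold Ideal.jacobson
    rw [Ideal.mem_sInf]
    rintro J ⟨-, hJ⟩
    apply algebraMap_mem_of_isMaximal (p : ℤ_[p]) _ J hJ
    rw [PadicInt.maximalIdeal_eq_span_p]
    exact Ideal.subset_span rfl
  exact Ideal.mem_jacobson_bot.mp hmem ρ

theorem exists_unit_one_add (r : ℚ_[p] ⊗[ℚ] K) (hr : r ∈ intSub p K) :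
    ∃ v ∈ unitSub p K, (v : ℚ_[p] ⊗[ℚ] K) = 1 + (p : ℚ_[p]) • r := by
  obtain ⟨w, hw⟩ := isUnit_one_add p K ⟨r, hr⟩
  refine ⟨Units.map ((intSub p K).val : intSub p K →* ℚ_[p] ⊗[ℚ] K) w, ⟨?_, ?_⟩, ?_⟩
  · exact (w : intSub p K).2
  · rw [← map_inv]
    exact ((w⁻¹ : (intSub p K)ˣ) : intSub p K).2
  · change (((w : intSub p K)) : ℚ_[p] ⊗[ℚ] K) = _
    rw [hw]
    change ((algebraMap ℤ_[p] (intSub p K) (p : ℤ_[p]) : intSub p K) : ℚ_[p] ⊗[ℚ] K) * r + 1 = _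
    rw [algebraMap_intSub_p, smul_mul_assoc, one_mul, add_comm]

lemma one_tmul_rat_smul (s : ℚ) (x : K) :
    (1 : ℚ_[p]) ⊗ₜ[ℚ] (s • x) = ((s : ℚ) : ℚ_[p]) • ((1 : ℚ_[p]) ⊗ₜ[ℚ] x) := by
  rw [TensorProduct.tmul_smul, TensorProduct.smul_tmul', TensorProduct.smul_tmul', smul_eq_mul,
    mul_one]
  congr 1
  rw [Algebra.smul_def, mul_one, eq_ratCast]

/-- `K` is dense in `ℚ_p ⊗ K`. -/
theorem exists_approx (x : ℚ_[p] ⊗[ℚ] K) (N : ℕ) :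
    ∃ y : K, ∃ r ∈ intSub p K, (1 : ℚ_[p]) ⊗ₜ[ℚ] y - x = (p : ℚ_[p]) ^ N • r := by
  classical
  have hε : (0 : ℝ) < (p : ℝ) ^ (-(N : ℤ)) := zpow_pos (by exact_mod_cast hp.1.pos) _
  choose s hs using fun i => Padic.rat_dense p ((tBasis p K).repr x i) hε
  refine ⟨∑ i, s i • integralBasis K i,
    ∑ i, ((((s i : ℚ) : ℚ_[p]) - (tBasis p K).repr x i) / (p : ℚ_[p]) ^ N) • tBasis p K i, ?_, ?_⟩
  · rw [mem_intSub_iff]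
    intro i
    rw [Basis.repr_sum_self, norm_div, Padic.norm_p_pow, norm_sub_rev]
    rw [div_le_one hε]
    exact (hs i).le
  · rw [Finset.smul_sum, TensorProduct.tmul_sum]
    conv_lhs => rw [← (tBasis p K).sum_repr x]
    rw [← Finset.sum_sub_distrib]
    apply Finset.sum_congr rfl
    intro i _
    rw [one_tmul_rat_smul, smul_smul, mul_div_cancel₀ _ (pow_ne_zero N (p_ne_zero_padic p)),
      sub_smul]
    congr 2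
    rw [tBasis, Algebra.TensorProduct.basis_apply]

/-- The diagonal embedding `Kˣ → (ℚ_p ⊗ K)ˣ`. -/
def diagP : Kˣ →* (ℚ_[p] ⊗[ℚ] K)ˣ :=
  Units.map ((Algebra.TensorProduct.includeRight : K →ₐ[ℚ] ℚ_[p] ⊗[ℚ] K) : K →* ℚ_[p] ⊗[ℚ] K)

lemma diagP_val (y : Kˣ) :
    ((diagP p K y : (ℚ_[p] ⊗[ℚ] K)ˣ) : ℚ_[p] ⊗[ℚ] K) = (1 : ℚ_[p]) ⊗ₜ[ℚ] (y : K) := rfl

instance semiLocal_nontrivial : Nontrivial (ℚ_[p] ⊗[ℚ] K) :=
  (tBasis p K).repr.toEquiv.nontrivial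

/-- `(ℚ_p ⊗ K)ˣ = Kˣ · U`. -/
theorem exists_div_mem_unitSub (u : (ℚ_[p] ⊗[ℚ] K)ˣ) :
    ∃ y : Kˣ, u / diagP p K y ∈ unitSub p K := by
  obtain ⟨N, hN⟩ := exists_pow_smul_mem p K ((u⁻¹ : (ℚ_[p] ⊗[ℚ] K)ˣ) : ℚ_[p] ⊗[ℚ] K)
  obtain ⟨y, r, hr, hyr⟩ := exists_approx p K (u : ℚ_[p] ⊗[ℚ] K) (N + 1)
  obtain ⟨v, hv, hv1⟩ := exists_unit_one_add p K
    (((p : ℚ_[p]) ^ N • ((u⁻¹ : (ℚ_[p] ⊗[ℚ] K)ˣ) : ℚ_[p] ⊗[ℚ] K)) * r) (mul_mem hN hr)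
  have hy1 : (1 : ℚ_[p]) ⊗ₜ[ℚ] y = ((u * v : (ℚ_[p] ⊗[ℚ] K)ˣ) : ℚ_[p] ⊗[ℚ] K) := by
    rw [Units.val_mul, hv1, mul_add, mul_one, ← sub_eq_iff_eq_add', hyr, pow_succ, mul_smul,
      smul_mul_assoc, mul_smul_comm, mul_smul_comm, ← mul_assoc, Units.mul_inv, one_mul,
      smul_comm]
  have hy0 : y ≠ 0 := by
    intro h0
    rw [h0, TensorProduct.tmul_zero] at hy1
    exact (u * v).ne_zero hy1.symm
  refine ⟨Units.mk0 y hy0, ?_⟩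
  have h2 : diagP p K (Units.mk0 y hy0) = u * v := by
    apply Units.ext
    rw [diagP_val]
    exact hy1
  rw [h2, div_mul_cancel_left]
  exact inv_mem hv

end Fermat.Agent.S55.CFT.H80
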