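/-
S55 package E4, island BR, leaf LV (local unit groups), part 2: wrap.
`U = ` units of the order `H96.intSub L q = ℤ_q · 𝓞_L ⊆ ℚ_q ⊗ L`:
`Gal(L/K)`-stable, `(ℚ_q ⊗ L)ˣ = diag(Lˣ) · U`; and `Stmt_LocUnitGroup` from the valuation
criterion LV-c (`1 ⊗ y ∈ intSub ↔ w(y) ≤ 1` for all `w ∣ q`).
Owner: helper80.
-/
import Mathlib
import Fermat.Agent.S55.CFT.H80_LVInt
import Fermat.Agent.S55.CFT.H12_ValDefs
import Fermat.Agent.S55.CFT.H96_SemiLocalInt

set_option autoImplicit false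

open NumberField TensorProduct Module IsDedekindDomain

noncomputable section

namespace Fermat.Agent.S55.CFT.H80

section Generic

variable (p : ℕ) [hp : Fact p.Prime] (K L : Type) [Field K] [NumberField K] [Field L]
  [NumberField L] [Algebra K L]

/-- The automorphism `id ⊗ σ` of `ℚ_p ⊗ L`. -/
def sigmaMap (σ : L ≃ₐ[K] L) : ℚ_[p] ⊗[ℚ] L ≃ₐ[ℚ_[p]] ℚ_[p] ⊗[ℚ] L :=
  Algebra.TensorProduct.congr AlgEquiv.refl (σ.restrictScalars ℚ)

lemma sigmaMap_incl (σ : L ≃ₐ[K] L) (x : 𝓞 L) :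
    sigmaMap p K L σ (incl p L x) =
      incl p L (RingOfIntegers.mapRingHom ((σ : L ≃+* L) : L →+* L) x) := by
  rw [incl_apply, incl_apply, sigmaMap, Algebra.TensorProduct.congr_apply,
    Algebra.TensorProduct.map_tmul]
  rfl

lemma sigmaMap_mem (σ : L ≃ₐ[K] L) (r : ℚ_[p] ⊗[ℚ] L) (hr : r ∈ intSub p L) :
    sigmaMap p K L σ r ∈ intSub p L := by
  have hr' : r ∈ Submodule.span ℤ_[p] (Set.range (incl p L)) := by
    rw [← intSub_toSubmodule]
    exact hr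
  refine Submodule.span_induction (p := fun r _ => sigmaMap p K L σ r ∈ intSub p L)
    ?_ ?_ ?_ ?_ hr'
  · rintro _ ⟨x, rfl⟩
    rw [sigmaMap_incl]
    exact incl_mem p L _
  · rw [map_zero]
    exact Subalgebra.zero_mem _
  · intro a b _ _ ha hb
    rw [map_add]
    exact Subalgebra.add_mem _ ha hb
  · intro c a _ ha
    rw [coe_smul_eq, map_smul, ← coe_smul_eq]
    exact Subalgebra.smul_mem _ ha c

end Generic

section Bridge

variable (K L : Type) [Field K] [NumberField K] [Field L] [NumberField L] [Algebra K L]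
  (q : Nat.Primes)

/-- `H96.intSub L q` is the order `ℤ_q · 𝓞_L`. -/
lemma mem_intSub_bridge (x : SemiLocal L q) :
    x ∈ H96.intSub L q ↔ (haveI := fact_primes q; x ∈ intSub (q : ℕ) L) := by
  have := fact_primes q
  rw [H96.mem_intSub]
  exact (mem_intSub_iff (q : ℕ) L x).symm

/-- The units of the order `ℤ_q · 𝓞_L` of `ℚ_q ⊗ L`. -/
def unitQ : Subgroup (SemiLocal L q)ˣ where
  carrier := {u | (u : SemiLocal L q) ∈ H96.intSub L q ∧
    ((u⁻¹ : (SemiLocal L q)ˣ) : SemiLocal L q) ∈ H96.intSub L q}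
  one_mem' := ⟨by simp, by simp⟩
  mul_mem' := fun {a b} ha hb =>
    ⟨by rw [Units.val_mul]; exact mul_mem ha.1 hb.1,
      by rw [mul_inv_rev, Units.val_mul]; exact mul_mem hb.2 ha.2⟩
  inv_mem' := fun {a} ha => ⟨ha.2, by rw [inv_inv]; exact ha.1⟩

lemma mem_unitQ (u : (SemiLocal L q)ˣ) : u ∈ unitQ L q ↔
    (u : SemiLocal L q) ∈ H96.intSub L q ∧
      ((u⁻¹ : (SemiLocal L q)ˣ) : SemiLocal L q) ∈ H96.intSub L q := Iff.rfl

/-- `U` is stable under `Gal(L/K)`. -/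
theorem smul_mem_unitQ (σ : L ≃ₐ[K] L) (u : (SemiLocal L q)ˣ) (hu : u ∈ unitQ L q) :
    σ • u ∈ unitQ L q := by
  have := fact_primes q
  rw [mem_unitQ, mem_intSub_bridge, mem_intSub_bridge] at hu ⊢
  refine ⟨?_, ?_⟩
  · exact sigmaMap_mem (q : ℕ) K L σ _ hu.1
  · rw [← smul_inv']
    exact sigmaMap_mem (q : ℕ) K L σ _ hu.2

/-- `(ℚ_q ⊗ L)ˣ = diag(Lˣ) · U`. -/
theorem exists_div_mem_unitQ (u : (SemiLocal L q)ˣ) :
    ∃ y : Lˣ, u / H12.diagQ L q y ∈ unitQ L q := by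
  have := fact_primes q
  obtain ⟨y, hy⟩ := exists_div_mem_unitSub (q : ℕ) L u
  refine ⟨y, ?_⟩
  rw [mem_unitQ, mem_intSub_bridge, mem_intSub_bridge]
  exact hy

end Bridge

/-- **LV** from the valuation criterion LV-c. -/
theorem stmt_LocUnitGroup_of
    (hc : ∀ (L : Type) [Field L] [NumberField L] (q : Nat.Primes) (y : L),
      (1 : Qp q) ⊗ₜ[ℚ] y ∈ H96.intSub L q ↔
        ∀ w : HeightOneSpectrum (𝓞 L), ((q : ℕ) : 𝓞 L) ∈ w.asIdeal → w.valuation L y ≤ 1) :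
    H12.Stmt_LocUnitGroup := by
  intro K L _ _ _ _ _ q
  refine ⟨unitQ L q, fun σ u hu => smul_mem_unitQ K L q σ u hu,
    fun u => exists_div_mem_unitQ L q u, fun y => ?_⟩
  rw [mem_unitQ]
  have h1 : ((H12.diagQ L q y : (SemiLocal L q)ˣ) : SemiLocal L q) = (1 : Qp q) ⊗ₜ[ℚ] (y : L) :=
    rfl
  have h2 : (((H12.diagQ L q y)⁻¹ : (SemiLocal L q)ˣ) : SemiLocal L q) =
      (1 : Qp q) ⊗ₜ[ℚ] ((y⁻¹ : Lˣ) : L) := by
    rw [← map_inv]
    rfl
  rw [h1, h2, hc L q, hc L q]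
  constructor
  · rintro ⟨ha, hb⟩ w hw
    have h3 := ha w hw
    have h4 := hb w hw
    rw [Units.val_inv_eq_inv_val, map_inv₀] at h4
    have hne : w.valuation L (y : L) ≠ 0 := (Valuation.ne_zero_iff _).mpr y.ne_zero
    apply le_antisymm h3
    rw [← inv_le_one₀ (zero_lt_iff.mpr hne)]
    exact h4
  · intro h
    refine ⟨fun w hw => (h w hw).le, fun w hw => ?_⟩
    rw [Units.val_inv_eq_inv_val, map_inv₀, h w hw, inv_one]

end Fermat.Agent.S55.CFT.H80
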