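/-
S55 package E4, island BR, leaf LV (local unit groups): `H12.Stmt_LocUnitGroup`, unconditional
(`H80.stmt_LocUnitGroup_of` + LV-c `H61.one_tmul_mem_intSub_iff`).
Owner: helper80.
-/
import Mathlib
import Fermat.Agent.S55.CFT.H80_LV
import Fermat.Agent.S55.CFT.H61_LVc

set_option autoImplicit false

namespace Fermat.Agent.S55.CFT.H80

/-- **LV** (local unit groups). -/
theorem stmt_LocUnitGroup : H12.Stmt_LocUnitGroup :=
  stmt_LocUnitGroup_of (fun L _ _ q y => H61.one_tmul_mem_intSub_iff L q y)

end Fermat.Agent.S55.CFT.H80
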