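/-
S55 / E4 / CFT, island BR, leaf VAL-a (helper12): `stmt_ValExact : Stmt_ValExact`, unconditional.
Assembly `H12.stmt_ValExact_of` + helper80's `H80.stmt_LocUnitGroup` (with helper61's LV-c).
-/
import Fermat.Agent.S55.CFT.H12_ValExact
import Fermat.Agent.S55.CFT.H80_LVFinal

set_option autoImplicit false

namespace Fermat.Agent.S55.CFT.H12

/-- **VAL-a**: for admissible `T`, a class of `H²(G, Lˣ)` which is locally trivial at all places
outside `T` comes from `H²(G, O_{L,T}ˣ)`. -/
theorem stmt_ValExact : Stmt_ValExact :=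
  stmt_ValExact_of H80.stmt_LocUnitGroup

end Fermat.Agent.S55.CFT.H12
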