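/-
S55 / E4 / CFT, package SI'' (helper12), part 1: finiteness by characters.

`index_le_of_overgroups`: let `N` be a subgroup of an abelian group `J` with `J ^ n ⊆ N`; if every
subgroup of FINITE index containing `N` has index `≤ n`, then `N` has finite index `≤ n`.
(Characters `J/N → ℚ/ℤ` separate points, Mathlib `CharacterModule`; their images lie in the finite
`n`-torsion of `ℚ/ℤ`; so `n + 1` elements distinct modulo `N` are distinct modulo a subgroup of
finite index.)  This removes the finiteness hypothesis of the second inequality `Stmt_T2m`.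
-/
import Mathlib

set_option autoImplicit false

namespace Fermat.Agent.S55.CFT.H12

/-- In an abelian group of exponent `n`, an element outside a subgroup `N` is outside a subgroup
of finite index containing `N`. -/
theorem exists_finiteIndex_not_mem {J : Type*} [CommGroup J] (N : Subgroup J) (n : ℕ)
    (hn : 0 < n) (hexp : ∀ x : J, x ^ n ∈ N) (x : J) (hx : x ∉ N) :
    ∃ H : Subgroup J, N ≤ H ∧ H.index ≠ 0 ∧ x ∉ H := by
  have hne : (Additive.ofMul (QuotientGroup.mk' N x) : Additive (J ⧸ N)) ≠ 0 := by
    intro h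
    apply hx
    have h1 : QuotientGroup.mk' N x = 1 := h
    rwa [QuotientGroup.mk'_apply, QuotientGroup.eq_one_iff] at h1
  obtain ⟨χ, hχ⟩ := CharacterModule.exists_character_apply_ne_zero_of_ne_zero hne
  -- the homomorphism `J → ℚ/ℤ`
  let f : J →* Multiplicative (AddCircle (1 : ℚ)) :=
    (AddMonoidHom.toMultiplicative (χ : Additive (J ⧸ N) →+ AddCircle (1 : ℚ))).comp
      ((MulEquiv.multiplicativeAdditive (J ⧸ N)).symm.toMonoidHom.comp (QuotientGroup.mk' N))
  have hf : ∀ y : J, f y = Multiplicative.ofAdd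
      (χ (Additive.ofMul (QuotientGroup.mk' N y) : Additive (J ⧸ N))) := fun y => rfl
  refine ⟨f.ker, ?_, ?_, ?_⟩
  · intro y hy
    rw [MonoidHom.mem_ker, hf]
    have h1 : QuotientGroup.mk' N y = 1 := by
      rw [QuotientGroup.mk'_apply, QuotientGroup.eq_one_iff]; exact hy
    rw [h1]
    have : (Additive.ofMul (1 : J ⧸ N) : Additive (J ⧸ N)) = 0 := rfl
    rw [this, map_zero]
    rfl
  · rw [Subgroup.index_ker]
    have hfin : (f.range : Set (Multiplicative (AddCircle (1 : ℚ)))).Finite := by
      have h1 := AddCircle.finite_torsion (1 : ℚ) hn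
      refine (h1.image Multiplicative.ofAdd).subset ?_
      rintro _ ⟨y, rfl⟩
      refine ⟨χ (Additive.ofMul (QuotientGroup.mk' N y) : Additive (J ⧸ N)), ?_, (hf y).symm⟩
      rw [Set.mem_ofPred_eq, ← map_nsmul]
      have h2 : n • (Additive.ofMul (QuotientGroup.mk' N y) : Additive (J ⧸ N)) = 0 := by
        change Additive.ofMul ((QuotientGroup.mk' N y) ^ n) = 0
        rw [← map_pow]
        have h3 : QuotientGroup.mk' N (y ^ n) = 1 := by
          rw [QuotientGroup.mk'_apply, QuotientGroup.eq_one_iff]; exact hexp y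
        rw [h3]; rfl
      rw [h2, map_zero]
    have : Finite f.range := hfin
    exact Nat.card_pos.ne'
  · intro hmem
    rw [MonoidHom.mem_ker, hf] at hmem
    exact hχ hmem

/-- If every subgroup of finite index containing `N` has index `≤ n` and `J/N` has exponent `n`,
then `N` has finite index `≤ n`. -/
theorem index_le_of_overgroups {J : Type*} [CommGroup J] (N : Subgroup J) (n : ℕ) (hn : 0 < n)
    (hexp : ∀ x : J, x ^ n ∈ N)
    (hq : ∀ H : Subgroup J, N ≤ H → H.index ≠ 0 → H.index ≤ n) :
    N.index ≠ 0 ∧ N.index ≤ n := by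
  by_contra hcon
  -- `n + 1` elements, pairwise distinct modulo `N`
  have hemb : Nonempty (Fin (n + 1) ↪ (J ⧸ N)) := by
    by_cases hfin : Finite (J ⧸ N)
    · have hidx : N.index ≠ 0 := Subgroup.index_ne_zero_of_finite
      have hgt : n < N.index := by
        by_contra h
        exact hcon ⟨hidx, not_lt.mp h⟩
      have : Fintype (J ⧸ N) := Fintype.ofFinite _
      apply Function.Embedding.nonempty_of_card_le
      rw [Fintype.card_fin, ← Nat.card_eq_fintype_card, ← Subgroup.index_eq_card]
      exact hgt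
    · have : Infinite (J ⧸ N) := not_finite_iff_infinite.mp hfin
      exact ⟨(Fin.valEmbedding.trans (Infinite.natEmbedding (J ⧸ N)))⟩
  obtain ⟨e⟩ := hemb
  choose x hx using fun i => QuotientGroup.mk'_surjective N (e i)
  have hdist : ∀ i j : Fin (n + 1), i ≠ j → x i * (x j)⁻¹ ∉ N := by
    intro i j hij hmem
    apply hij
    apply e.injective
    rw [← hx i, ← hx j, QuotientGroup.mk'_apply, QuotientGroup.mk'_apply, QuotientGroup.eq,
      ← inv_mem_iff (H := N)]
    simpa [mul_comm] using hmem
  -- separating subgroups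
  have hsep : ∀ p : {p : Fin (n + 1) × Fin (n + 1) // p.1 ≠ p.2},
      ∃ H : Subgroup J, N ≤ H ∧ H.index ≠ 0 ∧ x p.1.1 * (x p.1.2)⁻¹ ∉ H :=
    fun p => exists_finiteIndex_not_mem N n hn hexp _ (hdist _ _ p.2)
  choose Hp hHN hHidx hHx using hsep
  set H : Subgroup J := ⨅ p, Hp p with hH
  have hNH : N ≤ H := le_iInf hHN
  have hidx : H.index ≠ 0 := Subgroup.index_iInf_ne_zero hHidx
  have hle := hq H hNH hidx
  have hfinH : Finite (J ⧸ H) := by
    apply Nat.finite_of_card_ne_zero
    rw [← Subgroup.index_eq_card]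
    exact hidx
  have hinj : Function.Injective (fun i : Fin (n + 1) => (QuotientGroup.mk' H (x i) : J ⧸ H)) := by
    intro i j hij
    by_contra hne
    have h1 : x i * (x j)⁻¹ ∈ H := by
      simp only [QuotientGroup.mk'_apply, QuotientGroup.eq] at hij
      have := inv_mem hij
      simpa [mul_comm] using this
    have h2 : x i * (x j)⁻¹ ∈ Hp ⟨(i, j), hne⟩ := (iInf_le Hp ⟨(i, j), hne⟩) h1
    exact hHx ⟨(i, j), hne⟩ h2
  have hcard := Nat.card_le_card_of_injective _ hinj
  rw [Nat.card_eq_fintype_card, Fintype.card_fin, ← Subgroup.index_eq_card] at hcard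
  omega

end Fermat.Agent.S55.CFT.H12
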