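/-
S55-E4 GLB-2 (helper12), abstract part: EXACT Herbrand quotient of a f.g. Z[sigma]-module, sigma^p = 1:
if rank ker(sigma-1) = b and rank A = b + (p-1) c then p^c [ker D : N A] = p^b [ker N : D A].
Upgrade of S14/H62_Abstract.herbrand_abstract (inequality) by the cyclotomic unit identity
p = (X-1)^(p-1) U + Phi_p V.
-/
import Fermat.Agent.S14.H62_Abstract

set_option autoImplicit false

namespace Fermat.Agent.S55.CFT.H12

open Module Polynomial Fermat.Agent.S14.H62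

section Poly

/-- `∏_{1 ≤ i < p} (1 - X^i) ≡ p` modulo `Φ_p`. -/
theorem cyclotomic_dvd_prod_sub (p : ℕ) [hp : Fact p.Prime] :
    cyclotomic p ℤ ∣ (∏ k ∈ Finset.range (p - 1), (1 - X ^ (k + 1) : ℤ[X])) - C (p : ℤ) := by
  have hpos : 0 < p := hp.out.pos
  have hζ : IsPrimitiveRoot (Complex.exp (2 * Real.pi * Complex.I / p)) p :=
    Complex.isPrimitiveRoot_exp p hpos.ne'
  rw [cyclotomic_eq_minpoly hζ hpos]
  apply minpoly.isIntegrallyClosed_dvd (hζ.isIntegral hpos)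
  have hp1 : p - 1 + 1 = p := Nat.sub_add_cancel hp.out.one_le
  have hζ' : IsPrimitiveRoot (Complex.exp (2 * Real.pi * Complex.I / p)) (p - 1 + 1) := by
    rw [hp1]; exact hζ
  have := hζ'.prod_one_sub_pow_eq_order
  simp only [map_sub, map_prod, map_one, map_pow, aeval_X, aeval_C]
  rw [this]
  have : ((p - 1 : ℕ) : ℂ) + 1 = (p : ℂ) := by
    have := congrArg (Nat.cast (R := ℂ)) hp1
    push_cast at this ⊢
    simpa using this
  rw [this]
  simp

/-- `p = (X - 1)^(p-1) U + Φ_p V` in `ℤ[X]`. -/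
theorem exists_unit_poly (p : ℕ) [hp : Fact p.Prime] :
    ∃ U V : ℤ[X], C (p : ℤ) = (X - 1) ^ (p - 1) * U + cyclotomic p ℤ * V := by
  obtain ⟨V, hV⟩ := cyclotomic_dvd_prod_sub p
  -- each factor `1 - X^(k+1) = (X - 1) * (- ∑_{j ≤ k} X^j)`
  have hfac : ∀ k : ℕ, (1 - X ^ (k + 1) : ℤ[X]) =
      (X - 1) * (- ∑ j ∈ Finset.range (k + 1), X ^ j) := by
    intro k
    have := mul_geom_sum (X : ℤ[X]) (k + 1)
    rw [mul_neg, this]; ring
  refine ⟨∏ k ∈ Finset.range (p - 1), (- ∑ j ∈ Finset.range (k + 1), (X : ℤ[X]) ^ j), -V, ?_⟩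
  have h1 : (∏ k ∈ Finset.range (p - 1), (1 - X ^ (k + 1) : ℤ[X])) =
      (X - 1) ^ (p - 1) *
        ∏ k ∈ Finset.range (p - 1), (- ∑ j ∈ Finset.range (k + 1), (X : ℤ[X]) ^ j) := by
    rw [Finset.prod_congr rfl (fun k _ => hfac k), Finset.prod_mul_distrib, Finset.prod_const,
      Finset.card_range]
  rw [← h1]
  linear_combination -hV

end Poly

section Core

variable {M : Type*} [AddCommGroup M] [Module.Free ℤ M] [Module.Finite ℤ M]

/-- **Exact core count**: if `1 + τ + ... + τ^(p-1) = 0` on a free `ℤ`-module `M` of finite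
rank, then `|M / (τ - 1) M| ^ (p - 1) = p ^ rank M`. -/
theorem core_cyclotomic_exact (p : ℕ) [hp : Fact p.Prime] (τ : M →ₗ[ℤ] M)
    (hτ : ∑ i ∈ Finset.range p, τ ^ i = 0) :
    Nat.card (M ⧸ LinearMap.range (τ - 1)) ^ (p - 1) = p ^ finrank ℤ M := by
  have hinj := sub_one_injective_of_sum_pow_eq_zero p hp.out.ne_zero τ hτ
  obtain ⟨w, hw⟩ := exists_X_sub_one_pow_eq p
  obtain ⟨U, V, hUV⟩ := exists_unit_poly p
  have hcyc : Polynomial.aeval τ (cyclotomic p ℤ) = 0 := by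
    rw [cyclotomic_prime, map_sum]
    simpa using hτ
  have h1 := congrArg (Polynomial.aeval τ) hw
  simp only [map_pow, map_sub, aeval_X, map_one, map_add, map_mul, aeval_C, hcyc, zero_add] at h1
  have h2 := congrArg (Polynomial.aeval τ) hUV
  simp only [map_pow, map_sub, aeval_X, map_one, map_add, map_mul, aeval_C, hcyc, zero_mul,
    add_zero] at h2
  -- `p = p * (w(τ) * U(τ))`
  have h3 : (algebraMap ℤ (Module.End ℤ M) (p : ℤ)) * (Polynomial.aeval τ w * Polynomial.aeval τ U)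
      = algebraMap ℤ (Module.End ℤ M) (p : ℤ) := by
    rw [← mul_assoc, ← h1, ← h2]
  have h4 := congrArg LinearMap.det h3
  have hp0 : (p : ℤ) ≠ 0 := by exact_mod_cast hp.out.ne_zero
  have hdetp : LinearMap.det (algebraMap ℤ (Module.End ℤ M) (p : ℤ)) ≠ 0 := by
    rw [Algebra.algebraMap_eq_smul_one, LinearMap.det_smul]
    exact mul_ne_zero (pow_ne_zero _ hp0) (by simp)
  rw [map_mul, map_mul] at h4
  have h5 : LinearMap.det (Polynomial.aeval τ w) * LinearMap.det (Polynomial.aeval τ U) = 1 := by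
    have := mul_left_cancel₀ hdetp (h4.trans (mul_one _).symm)
    exact this
  have h6 : (LinearMap.det (Polynomial.aeval τ w)).natAbs = 1 :=
    Int.isUnit_iff_natAbs_eq.mp (IsUnit.of_mul_eq_one _ h5)
  have h7 : (τ - 1) ^ (p - 1) = (p : ℤ) • (Polynomial.aeval τ w) := by
    rw [h1]
    simp
  have h8 := congrArg LinearMap.det h7
  rw [map_pow, LinearMap.det_smul] at h8
  rw [card_quot_range_eq_natAbs_det _ hinj, ← Int.natAbs_pow, h8, Int.natAbs_mul,
    Int.natAbs_pow, Int.natAbs_natCast, h6, mul_one]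

end Core


section Main

variable {A : Type*} [AddCommGroup A] [Module.Finite ℤ A]
variable {p : ℕ} {σ : Module.End ℤ A} {A₁ : Submodule ℤ A}

theorem hIdx_nrmE_delE_subA'_exact [hpp : Fact p.Prime] (hσ : σ ^ p = 1)
    (htf : ∀ x ∈ A₁, ∀ n : ℤ, n ≠ 0 → n • x = 0 → x = 0) (hst : ∀ x ∈ A₁, σ x ∈ A₁) :
    hIdx (nrmE p σ).toAddMonoidHom (delE σ).toAddMonoidHom (subA' p σ A₁).toAddSubgroup ^ (p - 1)
      = p ^ finrank ℤ (subC p σ A₁) := by
  rw [hIdx_submodule, map_delE_subA', ker_nrmE_inf_subA' hpp.out.ne_zero htf]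
  have hD : ∀ x ∈ subC p σ A₁, delE σ x ∈ subC p σ A₁ := fun x hx => delE_mem_subC hσ hst hx
  rw [relIndex_map_eq_card (subC p σ A₁) (delE σ) hD]
  have : Module.IsTorsionFree ℤ (subC p σ A₁) := isTorsionFree_of_le inf_le_right htf
  have hS : ∀ x ∈ subC p σ A₁, σ x ∈ subC p σ A₁ := fun x hx => sigma_mem_subC hst hx
  set τ : Module.End ℤ (subC p σ A₁) := σ.restrict hS with hτ_def
  have h1 : (delE σ).restrict hD = τ - 1 := by
    ext x
    simp [τ, delE_apply]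
  have h2 : ∑ i ∈ Finset.range p, τ ^ i = 0 := by
    ext x
    rw [LinearMap.sum_apply]
    simp only [LinearMap.zero_apply, Submodule.coe_zero]
    rw [AddSubmonoidClass.coe_finsetSum]
    have : ∀ i, (((τ ^ i) x : subC p σ A₁) : A) = (σ ^ i) (x : A) := by
      intro i
      rw [hτ_def, Module.End.pow_restrict]
      rfl
    simp only [this]
    have := (mem_subC.mp x.2).1
    rw [nrmE, LinearMap.sum_apply] at this
    exact this
  rw [h1]
  exact core_cyclotomic_exact p τ h2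

/-- **Abstract Herbrand quotient (exact form).**  `A` a f.g. `ℤ`-module, `σ ^ p = 1`, `A₁` a
`σ`-stable torsion-free submodule containing `t • A`.  If `rank (ker (σ - 1)) = b` and
`rank A = b + (p - 1) * c`, then `[ker D : N A]` and `[ker N : D A]` are finite and
`p ^ c * [ker D : N A] = p ^ b * [ker N : D A]`. -/
theorem herbrand_exact [hpp : Fact p.Prime] (hσ : σ ^ p = 1)
    (htf : ∀ x ∈ A₁, ∀ n : ℤ, n ≠ 0 → n • x = 0 → x = 0) (hst : ∀ x ∈ A₁, σ x ∈ A₁)
    {t : ℤ} (ht0 : t ≠ 0) (ht : ∀ x : A, t • x ∈ A₁)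
    (b c : ℕ) (hb : finrank ℤ (LinearMap.ker (delE σ)) = b)
    (ha : finrank ℤ A = b + (p - 1) * c) :
    hIdx (delE σ).toAddMonoidHom (nrmE p σ).toAddMonoidHom ⊤ ≠ 0 ∧
    hIdx (nrmE p σ).toAddMonoidHom (delE σ).toAddMonoidHom ⊤ ≠ 0 ∧
    p ^ c * hIdx (delE σ).toAddMonoidHom (nrmE p σ).toAddMonoidHom ⊤ =
      p ^ b * hIdx (nrmE p σ).toAddMonoidHom (delE σ).toAddMonoidHom ⊤ := by
  have hp0 : p ≠ 0 := hpp.out.ne_zero
  have hp1 : p - 1 ≠ 0 := Nat.sub_ne_zero_of_lt hpp.out.one_lt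
  set f := (delE σ).toAddMonoidHom with hf
  set g := (nrmE p σ).toAddMonoidHom with hg
  set S := (subA' p σ A₁).toAddSubgroup with hS
  have hfg : ∀ x, f (g x) = 0 := fun x => delE_nrmE_apply hσ x
  have hgf : ∀ x, g (f x) = 0 := fun x => nrmE_delE_apply hσ x
  have hfS : S.map f ≤ S := by
    have := map_delE_subA'_le (A₁ := A₁) hσ hst
    rintro _ ⟨x, hx, rfl⟩
    exact this ⟨x, hx, rfl⟩
  have hgS : S.map g ≤ S := by
    have := map_nrmE_subA'_le (p := p) (σ := σ) (A₁ := A₁)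
    rintro _ ⟨x, hx, rfl⟩
    exact this ⟨x, hx, rfl⟩
  have hSi : S.index ≠ 0 := index_subA'_ne_zero hp0 hσ hst ht0 ht
  have key := hIdx_mul_eq_of_finiteIndex f g hfg hgf S hfS hgS hSi
  have h0' : hIdx f g S = p ^ b := by
    rw [hf, hg, hS, hIdx_delE_nrmE_subA' hp0 htf, finrank_subB ht0 ht, hb]
  have hk := hIdx_nrmE_delE_subA'_exact (p := p) (A₁ := A₁) hσ htf hst
  have hrC : finrank ℤ (subC p σ A₁) = (p - 1) * c := by
    have h1 := finrank_ker_nrmE (A := A) hp0 hσ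
    rw [finrank_subC ht0 ht]
    omega
  rw [hrC] at hk
  have h1' : hIdx g f S = p ^ c := by
    have h2 : hIdx g f S ^ (p - 1) = (p ^ c) ^ (p - 1) := by
      rw [hk, ← pow_mul, mul_comm c (p - 1)]
    exact Nat.pow_left_injective hp1 h2
  have h0ne : hIdx f g ⊤ ≠ 0 := by
    rw [hIdx_ne_zero_iff_of_finiteIndex f g hfg S hgS hSi, h0']
    exact pow_ne_zero _ hp0
  have h1ne : hIdx g f ⊤ ≠ 0 := by
    rw [hIdx_ne_zero_iff_of_finiteIndex g f hgf S hfS hSi, h1']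
    exact pow_ne_zero _ hp0
  refine ⟨h0ne, h1ne, ?_⟩
  calc p ^ c * hIdx f g ⊤ = hIdx f g ⊤ * hIdx g f S := by rw [h1', mul_comm]
    _ = hIdx f g S * hIdx g f ⊤ := key
    _ = p ^ b * hIdx g f ⊤ := by rw [h0']

end Main

end Fermat.Agent.S55.CFT.H12
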