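/-
S55 / E4 / CFT, package GLB-2 (helper12), part 1: the Herbrand quotient of the `T`-units in
index form.

For `L/K` Galois of prime degree `p` with `K` totally complex, `σ = rhoE K L T g` the action of a
generator `g` of `Gal(L/K)` on `O_{L,T}ˣ` (written additively), `N = 1 + σ + … + σ^(p-1)`:
both Herbrand indices are finite and
`p * [ker (σ - 1) : range N] = p ^ nonsplitCount K L T * [ker N : range (σ - 1)]`.

Ingredients: the rank of the `T`-units (`H12_SUnit`, `H12_TUnits`), the count of primes above `T`
(`exists_card_primesT`), the fixed points `(O_{L,T}ˣ)^G = O_{K,T}ˣ` (`ker_delE_rhoE`), the number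
of infinite places of `L` (`K` totally complex) and the exact Herbrand index computation
(`herbrand_exact`, `H12_HerbrandExact`).
-/
import Fermat.Agent.S55.CFT.H12_TUnits
import Fermat.Agent.S55.CFT.H12_HerbrandExact
import Fermat.Agent.S55.CFT.H12_CyclicBridge

set_option autoImplicit false
set_option linter.unusedSectionVars false

namespace Fermat.Agent.S55.CFT.H12

open NumberField IsDedekindDomain Module Fermat.Agent.S14.H62

section rankT

variable (L : Type) [Field L] [NumberField L] (T : Finset Nat.Primes)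

/-- `Additive (TUnits L T) ≃ Additive (S-units)`. -/
noncomputable def tUnitsEquiv :
    Additive (TUnits L T) ≃ₗ[ℤ]
      Additive ((primesT L T : Set (HeightOneSpectrum (𝓞 L))).unit L) :=
  (MulEquiv.toAdditive (MulEquiv.subgroupCongr (tUnits_eq L T))).toIntLinearEquiv

theorem finite_tUnits : Module.Finite ℤ (Additive (TUnits L T)) := by
  have := finite_sunit L (primesT L T)
  exact Module.Finite.equiv (tUnitsEquiv L T).symm

theorem finrank_tUnits :
    finrank ℤ (Additive (TUnits L T)) = Units.rank L + (primesT L T).card := by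
  rw [(tUnitsEquiv L T).finrank_eq, finrank_sunit]

end rankT

section galois

variable (K L : Type) [Field K] [Field L] [NumberField K] [NumberField L] [Algebra K L]
  (T : Finset Nat.Primes)

/-- The representation of `Gal(L/K)` on the `T`-units, as a plain `Representation`. -/
noncomputable abbrev rhoE : Representation ℤ (L ≃ₐ[K] L) (Additive (TUnits L T)) :=
  Representation.ofMulDistribMulAction (L ≃ₐ[K] L) (TUnits L T)

theorem rhoE_apply (σ : L ≃ₐ[K] L) (x : Additive (TUnits L T)) :
    (((Additive.toMul (rhoE K L T σ x) : TUnits L T) : Lˣ) : L) =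
      σ (((Additive.toMul x : TUnits L T) : Lˣ) : L) := rfl

/-- The inclusion `TUnits K T → TUnits L T`. -/
noncomputable def iotaT : TUnits K T →* TUnits L T where
  toFun x := ⟨Units.map (algebraMap K L : K →* L) (x : Kˣ), by
    obtain ⟨n, h1, h2⟩ := x.2
    refine ⟨n, ?_, ?_⟩
    · have := h1.map (algebraMap K L).toIntAlgHom
      simpa using this
    · have := h2.map (algebraMap K L).toIntAlgHom
      simpa using this⟩
  map_one' := by ext; simp
  map_mul' x y := by ext; simp

theorem coe_iotaT (x : TUnits K T) :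
    (((iotaT K L T x : TUnits L T) : Lˣ) : L) = algebraMap K L ((x : Kˣ) : K) := rfl

theorem iotaT_injective : Function.Injective (iotaT K L T) := by
  intro x y h
  have h1 := congrArg (fun z : TUnits L T => ((z : Lˣ) : L)) h
  simp only [coe_iotaT] at h1
  exact Subtype.ext (Units.ext ((algebraMap K L).injective h1))

/-- The inclusion, additively. -/
noncomputable def iotaTA : Additive (TUnits K T) →ₗ[ℤ] Additive (TUnits L T) :=
  (MonoidHom.toAdditive (iotaT K L T)).toIntLinearMap

theorem iotaTA_injective : Function.Injective (iotaTA K L T) := by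
  intro x y h
  exact Additive.toMul.injective (iotaT_injective K L T (congrArg Additive.toMul h))

theorem ker_delE_rhoE [IsGalois K L] (g : L ≃ₐ[K] L)
    (hg : ∀ τ : L ≃ₐ[K] L, τ ∈ Subgroup.zpowers g) :
    LinearMap.ker (delE (rhoE K L T g)) = LinearMap.range (iotaTA K L T) := by
  ext x
  rw [LinearMap.mem_ker, delE_apply, sub_eq_zero, LinearMap.mem_range]
  constructor
  · intro hx
    -- `g` fixes the underlying element
    have h1 : g (((Additive.toMul x : TUnits L T) : Lˣ) : L) =
        (((Additive.toMul x : TUnits L T) : Lˣ) : L) := by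
      rw [← rhoE_apply, hx]
    have hfix : ∀ τ : L ≃ₐ[K] L, τ (((Additive.toMul x : TUnits L T) : Lˣ) : L) =
        (((Additive.toMul x : TUnits L T) : Lˣ) : L) := by
      intro τ
      let S : Subgroup (L ≃ₐ[K] L) :=
        { carrier := {τ | τ (((Additive.toMul x : TUnits L T) : Lˣ) : L) =
            (((Additive.toMul x : TUnits L T) : Lˣ) : L)}
          mul_mem' := fun {a b} ha hb => by
            change (a * b) _ = _
            rw [AlgEquiv.mul_apply, hb, ha]
          one_mem' := rfl
          inv_mem' := fun {a} ha => by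
            change a⁻¹ _ = _
            have : a⁻¹ (a (((Additive.toMul x : TUnits L T) : Lˣ) : L)) =
                (((Additive.toMul x : TUnits L T) : Lˣ) : L) := by
              rw [← AlgEquiv.mul_apply, inv_mul_cancel, AlgEquiv.one_apply]
            rw [ha] at this
            exact this }
      have hS : Subgroup.zpowers g ≤ S := by
        rw [Subgroup.zpowers_le]
        exact h1
      exact hS (hg τ)
    obtain ⟨k, hk⟩ := (IsGalois.mem_range_algebraMap_iff_fixed (F := K) (E := L) _).mpr hfix
    have hk0 : k ≠ 0 := by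
      rintro rfl
      rw [map_zero] at hk
      exact (Additive.toMul x : TUnits L T).1.ne_zero hk.symm
    have hmem : Units.mk0 k hk0 ∈ TUnits K T := by
      obtain ⟨n, e1, e2⟩ := (Additive.toMul x : TUnits L T).2
      refine ⟨n, ?_, ?_⟩
      · rw [← isIntegral_algebraMap_iff (algebraMap K L).injective (R := ℤ), map_mul, map_pow,
          map_natCast, Units.val_mk0, hk]
        exact e1
      · rw [← isIntegral_algebraMap_iff (algebraMap K L).injective (R := ℤ), map_mul, map_pow,
          map_natCast, Units.val_inv_eq_inv_val, Units.val_mk0, map_inv₀, hk,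
          ← Units.val_inv_eq_inv_val]
        exact e2
    refine ⟨Additive.ofMul ⟨Units.mk0 k hk0, hmem⟩, ?_⟩
    apply Additive.toMul.injective
    apply Subtype.ext
    apply Units.ext
    exact hk
  · rintro ⟨y, rfl⟩
    apply Additive.toMul.injective
    apply Subtype.ext
    apply Units.ext
    change g (algebraMap K L _) = algebraMap K L _
    exact g.commutes _

theorem finrank_ker_delE_rhoE [IsGalois K L] (g : L ≃ₐ[K] L)
    (hg : ∀ τ : L ≃ₐ[K] L, τ ∈ Subgroup.zpowers g) :
    finrank ℤ (LinearMap.ker (delE (rhoE K L T g))) = Units.rank K + (primesT K T).card := by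
  rw [ker_delE_rhoE K L T g hg, LinearMap.finrank_range_of_inj (iotaTA_injective K L T),
    finrank_tUnits]

end galois


section torsionfree

/-- In a finitely generated `ℤ`-module, a nonzero multiple `t • A` is torsion-free. -/
theorem exists_torsionFree_multiple (A : Type*) [AddCommGroup A] [Module.Finite ℤ A] :
    ∃ t : ℤ, t ≠ 0 ∧ ∀ y : A, ∀ n : ℤ, n ≠ 0 → n • (t • y) = 0 → t • y = 0 := by
  have hfin : Finite (Submodule.torsion ℤ A) := by
    have hfg : Module.Finite ℤ (Submodule.torsion ℤ A) := inferInstance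
    exact Module.finite_of_fg_torsion _ (Submodule.torsion_isTorsion (R := ℤ) (M := A))
  refine ⟨(Nat.card (Submodule.torsion ℤ A) : ℤ), ?_, ?_⟩
  · exact_mod_cast (Nat.card_pos (α := Submodule.torsion ℤ A)).ne'
  · intro y n hn h
    have hy : y ∈ Submodule.torsion ℤ A := by
      rw [Submodule.mem_torsion_iff]
      have hne : n * (Nat.card (Submodule.torsion ℤ A) : ℤ) ≠ 0 :=
        mul_ne_zero hn (by exact_mod_cast (Nat.card_pos (α := Submodule.torsion ℤ A)).ne')
      refine ⟨⟨_, mem_nonZeroDivisors_of_ne_zero hne⟩, ?_⟩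
      change (n * (Nat.card (Submodule.torsion ℤ A) : ℤ)) • y = 0
      rw [mul_smul]; exact h
    have h1 : Nat.card (Submodule.torsion ℤ A) • (⟨y, hy⟩ : Submodule.torsion ℤ A) = 0 :=
      card_nsmul_eq_zero'
    have h2 := congrArg (fun z : Submodule.torsion ℤ A => (z : A)) h1
    simpa using h2

end torsionfree

section infinite

variable (K L : Type) [Field K] [Field L] [NumberField K] [NumberField L] [Algebra K L]

theorem isUnramifiedAtInfinitePlaces_of_isTotallyComplex [IsTotallyComplex K] :
    IsUnramifiedAtInfinitePlaces K L where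
  isUnramified w := by
    rw [InfinitePlace.isUnramified_iff]
    exact Or.inr (IsTotallyComplex.isComplex _)

theorem card_infinitePlace_of_isTotallyComplex [IsGalois K L] [IsTotallyComplex K] :
    Fintype.card (InfinitePlace L) = Fintype.card (InfinitePlace K) * finrank K L := by
  have := isUnramifiedAtInfinitePlaces_of_isTotallyComplex K L
  exact IsUnramifiedAtInfinitePlaces.card_infinitePlace K L

end infinite


section assembly

variable (K L : Type) [Field K] [Field L] [NumberField K] [NumberField L] [Algebra K L]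
  (T : Finset Nat.Primes)

theorem rhoE_pow_eq_one [IsGalois K L] {p : ℕ} (hdeg : finrank K L = p) (g : L ≃ₐ[K] L) :
    (rhoE K L T g) ^ p = 1 := by
  rw [← map_pow]
  have : g ^ p = 1 := by
    rw [← hdeg, ← IsGalois.card_aut_eq_finrank]
    exact pow_card_eq_one'
  rw [this, map_one]

theorem rank_arith (p m n s : ℕ) (hp : 2 ≤ p) (hm : 1 ≤ m) :
    (m * p - 1) + (n + p * s) = (m - 1 + (n + s)) + (p - 1) * (m + s) := by
  obtain ⟨q, rfl⟩ : ∃ q, p = q + 2 := ⟨p - 2, by omega⟩
  obtain ⟨r, rfl⟩ : ∃ r, m = r + 1 := ⟨m - 1, by omega⟩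
  have h1 : (r + 1) * (q + 2) - 1 = r * q + 2 * r + q + 1 := by
    have : (r + 1) * (q + 2) = r * q + 2 * r + q + 2 := by ring
    omega
  have h2 : q + 2 - 1 = q + 1 := by omega
  have h3 : r + 1 - 1 = r := by omega
  rw [h1, h2, h3]
  ring

/-- **GLB-2 in index form.** -/
theorem eherbrand_index [IsGalois K L] [IsTotallyComplex K] {p : ℕ} [hpp : Fact p.Prime]
    (hdeg : finrank K L = p) (g : L ≃ₐ[K] L)
    (hg : ∀ τ : L ≃ₐ[K] L, τ ∈ Subgroup.zpowers g) :
    hIdx (delE (rhoE K L T g)).toAddMonoidHom (nrmE p (rhoE K L T g)).toAddMonoidHom ⊤ ≠ 0 ∧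
    hIdx (nrmE p (rhoE K L T g)).toAddMonoidHom (delE (rhoE K L T g)).toAddMonoidHom ⊤ ≠ 0 ∧
    p * hIdx (delE (rhoE K L T g)).toAddMonoidHom (nrmE p (rhoE K L T g)).toAddMonoidHom ⊤ =
      p ^ nonsplitCount K L T *
        hIdx (nrmE p (rhoE K L T g)).toAddMonoidHom (delE (rhoE K L T g)).toAddMonoidHom ⊤ := by
  have hp := hpp.out
  have hfin := finite_tUnits L T
  obtain ⟨t, ht0, ht⟩ := exists_torsionFree_multiple (Additive (TUnits L T))
  set A₁ : Submodule ℤ (Additive (TUnits L T)) :=
    LinearMap.range (t • (LinearMap.id : Additive (TUnits L T) →ₗ[ℤ] _)) with hA₁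
  have htf : ∀ x ∈ A₁, ∀ n : ℤ, n ≠ 0 → n • x = 0 → x = 0 := by
    rintro _ ⟨y, rfl⟩ n hn h
    simp only [LinearMap.smul_apply, LinearMap.id_coe, id_eq] at h ⊢
    exact ht y n hn h
  have hst : ∀ x ∈ A₁, rhoE K L T g x ∈ A₁ := by
    rintro _ ⟨y, rfl⟩
    refine ⟨rhoE K L T g y, ?_⟩
    simp only [LinearMap.smul_apply, LinearMap.id_coe, id_eq, map_smul]
  have htA : ∀ x : Additive (TUnits L T), t • x ∈ A₁ := fun x => ⟨x, rfl⟩
  obtain ⟨s, hsK, hsL⟩ := exists_card_primesT K L T hp hdeg
  have hm : 1 ≤ Fintype.card (InfinitePlace K) := Fintype.card_pos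
  have hcardL := card_infinitePlace_of_isTotallyComplex K L
  rw [hdeg] at hcardL
  have hb := finrank_ker_delE_rhoE K L T g hg
  have ha : finrank ℤ (Additive (TUnits L T)) =
      (Units.rank K + (primesT K T).card) +
        (p - 1) * (Fintype.card (InfinitePlace K) + s) := by
    rw [finrank_tUnits, Units.rank, Units.rank, hcardL, hsK, hsL]
    exact rank_arith p _ _ s hp.two_le hm
  obtain ⟨h0, h1, heq⟩ := herbrand_exact (p := p) (σ := rhoE K L T g) (A₁ := A₁)
    (rhoE_pow_eq_one K L T hdeg g) htf hst ht0 htA _ _ hb ha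
  refine ⟨h0, h1, ?_⟩
  have hbc : Units.rank K + (primesT K T).card + 1 =
      (Fintype.card (InfinitePlace K) + s) + nonsplitCount K L T := by
    rw [Units.rank, hsK]
    omega
  have hpos : 0 < p ^ (Fintype.card (InfinitePlace K) + s) := pow_pos hp.pos _
  apply Nat.eq_of_mul_eq_mul_left hpos
  calc p ^ (Fintype.card (InfinitePlace K) + s) * (p * hIdx _ _ ⊤)
      = p * (p ^ (Fintype.card (InfinitePlace K) + s) * hIdx _ _ ⊤) := by ring
    _ = p * (p ^ (Units.rank K + (primesT K T).card) * hIdx _ _ ⊤) := by rw [heq]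
    _ = p ^ (Units.rank K + (primesT K T).card + 1) * hIdx _ _ ⊤ := by rw [pow_succ]; ring
    _ = p ^ (Fintype.card (InfinitePlace K) + s) * (p ^ nonsplitCount K L T * hIdx _ _ ⊤) := by
        rw [hbc, pow_add]; ring

end assembly

end Fermat.Agent.S55.CFT.H12
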