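/-
S55 / E4 / CFT (helper12): basic facts on `T`-ideles under base change, reusable
(T3b, T5 of helper13's list).

* `diagIdele_injective`: `Lˣ → J_{L,T}` is injective for `T ≠ ∅`;
* `baseIdele_diagIdele`: `base ∘ diag_K = diag_L ∘ (Kˣ → Lˣ)`;
* `smul_baseIdele`: `σ • base x = base x`;
* `baseIdele_injective`, `exists_baseIdele_of_invariant`, `baseIdele_normLK` (= `Stmt_Descent`,
  with the default `Fintype` instance);
* `exists_iotaT_of_invariant`: `(O_{L,T}ˣ)^G = O_{K,T}ˣ`.
-/
import Fermat.Agent.S55.CFT.H12_Descent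
import Fermat.Agent.S55.CFT.H12_EHerbrandIndex

set_option autoImplicit false
set_option linter.unusedSectionVars false

namespace Fermat.Agent.S55.CFT.H12

open NumberField Module TensorProduct

section base

variable (K L : Type) [Field K] [Field L] [NumberField K] [NumberField L] [Algebra K L]
  (T : Finset Nat.Primes)

/-- `x ↦ 1 ⊗ x`, `L → ℚ_q ⊗ L`, is injective. -/
theorem includeRight_semiLocal_injective (q : Nat.Primes) :
    Function.Injective (Algebra.TensorProduct.includeRight : L →ₐ[ℚ] SemiLocal L q) :=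
  Algebra.TensorProduct.includeRight_injective (algebraMap ℚ (Qp q)).injective

/-- **T5a**: the diagonal embedding `Lˣ → J_{L,T}` is injective if `T ≠ ∅`. -/
theorem diagIdele_injective (hT : T.Nonempty) : Function.Injective (diagIdele L T) := by
  obtain ⟨q, hq⟩ := hT
  intro x y h
  have h1 := congrArg (fun j : IdeleT L T => ((j ⟨q, hq⟩ : (SemiLocal L q)ˣ) : SemiLocal L q)) h
  apply Units.ext
  exact includeRight_semiLocal_injective L q h1

theorem diagIdele_apply_val (x : Lˣ) (q : T) :
    ((diagIdele L T x q : (SemiLocal L q.1)ˣ) : SemiLocal L q.1) = (1 : Qp q.1) ⊗ₜ[ℚ] (x : L) :=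
  rfl

theorem baseIdele_apply_val (x : IdeleT K T) (q : T) :
    ((baseIdele K L T x q : (SemiLocal L q.1)ˣ) : SemiLocal L q.1) =
      semiLocalMap K L q.1 ((x q : (SemiLocal K q.1)ˣ) : SemiLocal K q.1) := rfl

theorem smul_idele_apply_val (σ : L ≃ₐ[K] L) (y : IdeleT L T) (q : T) :
    (((σ • y) q : (SemiLocal L q.1)ˣ) : SemiLocal L q.1) =
      semiLocalEquiv K L q.1 σ ((y q : (SemiLocal L q.1)ˣ) : SemiLocal L q.1) := rfl

/-- `base ∘ diag_K = diag_L ∘ (Kˣ → Lˣ)`. -/
theorem baseIdele_diagIdele (x : Kˣ) :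
    baseIdele K L T (diagIdele K T x) =
      diagIdele L T (Units.map (algebraMap K L : K →* L) x) := by
  funext q
  apply Units.ext
  rw [baseIdele_apply_val, diagIdele_apply_val, diagIdele_apply_val, semiLocalMap_tmul]
  rfl

/-- **T3b**: the base change of an idele of `K` is Galois invariant. -/
theorem smul_baseIdele (σ : L ≃ₐ[K] L) (x : IdeleT K T) :
    σ • baseIdele K L T x = baseIdele K L T x := by
  funext q
  apply Units.ext
  rw [smul_idele_apply_val, baseIdele_apply_val, semiLocalEquiv_semiLocalMap]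

theorem baseIdele_injective : Function.Injective (baseIdele K L T) := by
  intro x x' h
  funext q
  have hq := congrFun h q
  exact Units.map_injective (f := ((semiLocalMap K L q.1 : SemiLocal K q.1 →* SemiLocal L q.1)))
    (semiLocalMap_injective K L q.1) hq

theorem exists_baseIdele_of_invariant [IsGalois K L] (y : IdeleT L T)
    (hy : ∀ σ : L ≃ₐ[K] L, σ • y = y) : ∃ x : IdeleT K T, baseIdele K L T x = y := by
  have hex : ∀ q : T, ∃ x : (SemiLocal K q.1)ˣ,
      Units.map ((semiLocalMap K L q.1 : SemiLocal K q.1 →* SemiLocal L q.1)) x = y q := by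
    intro q
    exact exists_unit_of_invariant K L q.1 (y q) (fun σ => congrFun (hy σ) q)
  choose x hx using hex
  exact ⟨x, funext hx⟩

theorem baseIdele_normLK [IsGalois K L] (y : IdeleT L T) :
    baseIdele K L T (normLK K L T y) = ∏ σ : L ≃ₐ[K] L, σ • y := by
  funext q
  apply Units.ext
  have h := semiLocalMap_norm K L q.1 ((y q : (SemiLocal L q.1)ˣ) : SemiLocal L q.1)
  have h3 : (((∏ σ : L ≃ₐ[K] L, σ • y) q : (SemiLocal L q.1)ˣ) : SemiLocal L q.1) =
      ∏ σ : L ≃ₐ[K] L, semiLocalEquiv K L q.1 σ ((y q : (SemiLocal L q.1)ˣ) : SemiLocal L q.1) := by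
    rw [Finset.prod_apply, Units.coe_prod]
    rfl
  rw [h3, ← h]
  rfl

/-- **T5b**: the Galois invariant `T`-units of `L` are the `T`-units of `K`. -/
theorem exists_iotaT_of_invariant [IsGalois K L] (e : TUnits L T)
    (he : ∀ σ : L ≃ₐ[K] L, σ • e = e) : ∃ e' : TUnits K T, iotaT K L T e' = e := by
  have hfix : ∀ σ : L ≃ₐ[K] L, σ ((e : Lˣ) : L) = ((e : Lˣ) : L) := by
    intro σ
    have := congrArg (fun u : TUnits L T => ((u : Lˣ) : L)) (he σ)
    exact this
  obtain ⟨k, hk⟩ := (IsGalois.mem_range_algebraMap_iff_fixed (F := K) (E := L) _).mpr hfix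
  have hk0 : k ≠ 0 := by
    rintro rfl
    rw [map_zero] at hk
    exact e.1.ne_zero hk.symm
  have hmem : Units.mk0 k hk0 ∈ TUnits K T := by
    obtain ⟨n, e1, e2⟩ := e.2
    refine ⟨n, ?_, ?_⟩
    · rw [← isIntegral_algebraMap_iff (algebraMap K L).injective (R := ℤ), map_mul, map_pow,
        map_natCast, Units.val_mk0, hk]
      exact e1
    · rw [← isIntegral_algebraMap_iff (algebraMap K L).injective (R := ℤ), map_mul, map_pow,
        map_natCast, Units.val_inv_eq_inv_val, Units.val_mk0, map_inv₀, hk,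
        ← Units.val_inv_eq_inv_val]
      exact e2
  refine ⟨⟨Units.mk0 k hk0, hmem⟩, ?_⟩
  apply Subtype.ext
  apply Units.ext
  exact hk

theorem iotaT_val (e : TUnits K T) :
    ((iotaT K L T e : TUnits L T) : Lˣ) = Units.map (algebraMap K L : K →* L) (e : Kˣ) := rfl

end base

end Fermat.Agent.S55.CFT.H12
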