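import Fermat.Agent.S55.CFT.H31_SIRay
import Fermat.Agent.S55.CFT.H12_IdeleBase
import Mathlib.RingTheory.Ideal.Norm.RelNorm

/-!
# S55/E4, package SI'' (helper31): the ray map is trivial on the primes of degree one

* `diagIdele_norm`: `diag_K (N_{L/K} y) = N_{L/K} (diag_L y)` for `y ∈ Lˣ` (`L/K` Galois);
* `relNorm_eq_under_of_prime`: a prime `Q` of `L` of prime absolute norm has relative norm
  `Q ∩ 𝓞 K`;
* `exists_idRep_norm`: if `Cl_T(L) = 1`, the prime `𝔭 = Q ∩ 𝓞 K` under such a `Q` has a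
  representation `(a) 𝔭 = (b) J`, `J` supported on `T`, with `diag (b/a)` a norm of a `T`-idele
  of `L`;
* `rayVal_under_eq_one`: the hypothesis of `Stmt_T2m` for the ray map `rayVal`.
-/

set_option autoImplicit false
set_option linter.unusedSectionVars false

open NumberField Ideal

noncomputable section

namespace Fermat.Agent.S55.CFT.H31

open Fermat.Agent.S55.CFT Fermat.Agent.Lib.SecondIneq

variable (K L : Type) [Field K] [Field L] [NumberField K] [NumberField L] [Algebra K L]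
  (T : Finset Nat.Primes)

/-- `diag_K ∘ N_{L/K} = N_{L/K} ∘ diag_L`. -/
theorem diagIdele_norm [IsGalois K L] (y : Lˣ) :
    diagIdele K T (Units.map (Algebra.norm K : L →* K) y) = normLK K L T (diagIdele L T y) := by
  apply H12.baseIdele_injective K L T
  rw [H12.baseIdele_diagIdele, H12.baseIdele_normLK]
  have h : Units.map (algebraMap K L : K →* L) (Units.map (Algebra.norm K : L →* K) y) =
      ∏ σ : L ≃ₐ[K] L, σ • y := by
    apply Units.ext
    rw [Units.coe_prod]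
    simp only [Units.coe_map, MonoidHom.coe_coe]
    rw [Algebra.norm_eq_prod_automorphisms]
    rfl
  rw [h, map_prod]
  refine Finset.prod_congr rfl (fun σ _ => ?_)
  exact diagIdele_smul K L T σ y

theorem relNorm_eq_under_of_prime (Q : Ideal (𝓞 L)) [Q.IsPrime] (hQ : (Ideal.absNorm Q).Prime) :
    Ideal.relNorm (𝓞 K) Q = Q.under (𝓞 K) := by
  haveI : Q.LiesOver (Q.under (𝓞 K)) := ⟨rfl⟩
  obtain ⟨s, hs⟩ := Ideal.exists_relNorm_eq_pow_of_isPrime Q (Q.under (𝓞 K))
  have h1 := Ideal.absNorm_relNorm (R := 𝓞 K) (S := 𝓞 L) Q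
  rw [hs, map_pow] at h1
  have hs1 : s = 1 := ((Nat.Prime.pow_eq_iff hQ).1 h1).2
  rw [hs, hs1, pow_one]


theorem relNorm_idealT : Ideal.relNorm (𝓞 K) (idealT L T) = idealT K T ^ Module.finrank (𝓞 K) (𝓞 L) := by
  have h : idealT L T = (idealT K T).map (algebraMap (𝓞 K) (𝓞 L)) := by
    rw [idealT, idealT, Ideal.map_span, Set.image_singleton]
    simp
  rw [h, Ideal.relNorm_algebraMap]

/-- A prime `𝔭` of `K` under a prime `Q` of `L` of absolute degree one is `(N b / N a) J` with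
`J` supported on `T`: its representing element is a norm from `L`. -/
theorem exists_idRep_norm [IsGalois K L] (hclL : ClTrivial L T) (Q : Ideal (𝓞 L)) [Q.IsPrime]
    (hQ : (Ideal.absNorm Q).Prime) :
    ∃ r : IdRep K T (Q.under (𝓞 K)), diagIdele K T r.val ∈ (normLK K L T).range := by
  have hQ0 : Q ≠ ⊥ := by
    rintro rfl
    rw [Ideal.absNorm_bot] at hQ
    exact Nat.not_prime_zero hQ
  obtain ⟨a', b', J', n, ha', hb', hJ', h'⟩ := hclL Q hQ0
  have hrel := congrArg (Ideal.relNorm (𝓞 K)) h'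
  rw [map_mul, map_mul, Ideal.relNorm_singleton, Ideal.relNorm_singleton,
    relNorm_eq_under_of_prime K L Q hQ] at hrel
  have hJ : Ideal.relNorm (𝓞 K) J' ∣ idealT K T ^ (Module.finrank (𝓞 K) (𝓞 L) * n) := by
    rw [pow_mul, ← relNorm_idealT, ← map_pow]
    exact map_dvd _ hJ'
  have ha : Algebra.intNorm (𝓞 K) (𝓞 L) a' ≠ 0 := Algebra.intNorm_ne_zero.2 ha'
  have hb : Algebra.intNorm (𝓞 K) (𝓞 L) b' ≠ 0 := Algebra.intNorm_ne_zero.2 hb'
  refine ⟨⟨_, _, _, _, ha, hb, hJ, hrel⟩, diagIdele L T (fracUnit L a' b' ha' hb'), ?_⟩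
  rw [← diagIdele_norm]
  congr 1
  apply Units.ext
  simp only [IdRep.val, fracUnit_val, Units.coe_map]
  have e1 : ∀ x : 𝓞 L, ((Algebra.intNorm (𝓞 K) (𝓞 L) x : 𝓞 K) : K) = Algebra.norm K (x : L) :=
    fun x => Algebra.algebraMap_intNorm (A := 𝓞 K) (B := 𝓞 L) (K := K) (L := L) x
  have hn0 : Algebra.norm K (a' : L) ≠ 0 := by
    rw [← e1]
    simpa using ha
  have ha0 : (a' : L) ≠ 0 := by simpa using ha'
  rw [e1, e1, eq_div_iff hn0, ← map_mul, div_mul_cancel₀ _ ha0]


theorem under_ne_bot_of_prime (Q : Ideal (𝓞 L)) (hQ : (Ideal.absNorm Q).Prime) :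
    Q.under (𝓞 K) ≠ ⊥ := by
  intro h
  have hQ0 : Q = ⊥ := Ideal.eq_bot_of_comap_eq_bot (R := 𝓞 K) h
  rw [hQ0, Ideal.absNorm_bot] at hQ
  exact Nat.not_prime_zero hQ

/-- The ray map of `d` is trivial on the primes of `K` under a prime of `L` of absolute degree
one, if `d` is trivial on the `T`-units and on the elements which are norms of `T`-ideles. -/
theorem rayVal_under_eq_one [IsGalois K L] (hclK : ClTrivial K T) (hclL : ClTrivial L T)
    {G : Type} [CommGroup G] (d : Kˣ →* G) (hd1 : ∀ e ∈ TUnits K T, d e = 1)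
    (hdN : ∀ x : Kˣ, diagIdele K T x ∈ (normLK K L T).range → d x = 1)
    (Q : Ideal (𝓞 L)) [Q.IsPrime] (hQ : (Ideal.absNorm Q).Prime) :
    rayVal hclK d (Q.under (𝓞 K)) = 1 := by
  obtain ⟨r, hr⟩ := exists_idRep_norm K L T hclL Q hQ
  rw [rayVal_eq hclK hd1 (under_ne_bot_of_prime K L Q hQ) r]
  exact hdN _ hr

end Fermat.Agent.S55.CFT.H31
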