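import Fermat.Agent.S55.CFT.H31_SIOpen
import Fermat.Agent.S55.CFT.H31_SIDeg1

/-!
# S55/E4, package SI'' (helper31): the ray map of the norm residue group

`dNorm K L T : Kˣ → J_{K,T} / (E_K · N_{L/K} J_{L,T})`, the class of the diagonal idele.  From
`H12.Stmt_SemiLocalPow` and `H12.Stmt_WeakApprox`:

* `exists_isRayMap_dNorm`: `rayVal hcl (dNorm K L T)` is a ray class map mod `(∏ T)^N`
  (`Fermat.Agent.Lib.SecondIneq.IsRayMap`), for `N` large;
* `rayVal_dNorm_under`: it is trivial on the primes of `K` under a prime of `L` of prime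
  absolute norm (the hypothesis of `Stmt_T2m`).

Both survive composition with a surjective homomorphism `J_{K,T} / (E_K · N J_L) → A`
(`exists_isRayMap_comp`, `rayVal_comp_under`), which is the form needed to bound the finite
quotients of the norm residue group.
-/

set_option autoImplicit false
set_option linter.unusedSectionVars false

open NumberField Ideal

noncomputable section

namespace Fermat.Agent.S55.CFT.H31

open Fermat.Agent.S55.CFT Fermat.Agent.Lib.SecondIneq

variable (K L : Type) [Field K] [Field L] [NumberField K] [NumberField L] [Algebra K L]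
  (T : Finset Nat.Primes)

/-- The class of the diagonal idele modulo the norm group. -/
def dNorm : Kˣ →* (IdeleT K T ⧸ normGroup K L T) :=
  (QuotientGroup.mk' (normGroup K L T)).comp (diagIdele K T)

lemma dNorm_eq_one_of_mem {x : Kˣ} (hx : diagIdele K T x ∈ normGroup K L T) :
    dNorm K L T x = 1 :=
  (QuotientGroup.eq_one_iff _).2 hx

lemma dNorm_TUnits (e : Kˣ) (he : e ∈ TUnits K T) : dNorm K L T e = 1 :=
  dNorm_eq_one_of_mem K L T (Subgroup.mem_sup_left ⟨e, he, rfl⟩)

lemma dNorm_range {x : Kˣ} (hx : diagIdele K T x ∈ (normLK K L T).range) :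
    dNorm K L T x = 1 :=
  dNorm_eq_one_of_mem K L T (Subgroup.mem_sup_right hx)

section comp

variable {A : Type} [CommGroup A] (f : (IdeleT K T ⧸ normGroup K L T) →* A)

/-- The ray map of `f ∘ dNorm` is a ray class map mod `(∏ T)^N` for `N` large, if `f` is onto. -/
theorem exists_isRayMap_comp (hPow : H12.Stmt_SemiLocalPow) (hWA : H12.Stmt_WeakApprox)
    (hcl : ClTrivial K T) (hf : Function.Surjective f) :
    ∃ N : ℕ, IsRayMap (idealT K T ^ N) (rayVal hcl (f.comp (dNorm K L T))) := by
  obtain ⟨N, hN⟩ := exists_ray_mem_range K L T hPow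
  refine ⟨N, isRayMap_rayVal hcl (fun e he => ?_) N (fun a ha h => ?_) (fun g => ?_)⟩
  · rw [MonoidHom.comp_apply, dNorm_TUnits K L T e he, map_one]
  · rw [MonoidHom.comp_apply, dNorm_range K L T (hN a ha h), map_one]
  · obtain ⟨y, rfl⟩ := hf g
    obtain ⟨x, rfl⟩ := QuotientGroup.mk'_surjective _ y
    obtain ⟨b, hb, hbx⟩ := exists_int_div_mem K L T hPow hWA x
    refine ⟨b, hb, ?_⟩
    rw [MonoidHom.comp_apply]
    congr 1
    exact (QuotientGroup.eq_iff_div_mem).2 hbx

/-- The ray map of `f ∘ dNorm` is trivial on the primes under a prime of `L` of prime absolute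
norm. -/
theorem rayVal_comp_under [IsGalois K L] (hclK : ClTrivial K T) (hclL : ClTrivial L T)
    (Q : Ideal (𝓞 L)) [Q.IsPrime] (hQ : (Ideal.absNorm Q).Prime) :
    rayVal hclK (f.comp (dNorm K L T)) (Q.under (𝓞 K)) = 1 :=
  rayVal_under_eq_one K L T hclK hclL _
    (fun e he => by rw [MonoidHom.comp_apply, dNorm_TUnits K L T e he, map_one])
    (fun x hx => by rw [MonoidHom.comp_apply, dNorm_range K L T hx, map_one]) Q hQ

end comp

/-- `rayVal hcl (dNorm K L T)` is a ray class map mod `(∏ T)^N` for `N` large. -/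
theorem exists_isRayMap_dNorm (hPow : H12.Stmt_SemiLocalPow) (hWA : H12.Stmt_WeakApprox)
    (hcl : ClTrivial K T) :
    ∃ N : ℕ, IsRayMap (idealT K T ^ N)
      (rayVal (G := IdeleT K T ⧸ normGroup K L T) hcl (dNorm K L T)) := by
  obtain ⟨N, hN⟩ := exists_ray_mem_range K L T hPow
  refine ⟨N, isRayMap_rayVal hcl (dNorm_TUnits K L T) N
    (fun a ha h => dNorm_range K L T (hN a ha h)) (fun g => ?_)⟩
  obtain ⟨x, rfl⟩ := QuotientGroup.mk'_surjective _ g
  obtain ⟨b, hb, hbx⟩ := exists_int_div_mem K L T hPow hWA x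
  exact ⟨b, hb, (QuotientGroup.eq_iff_div_mem).2 hbx⟩

/-- `rayVal hcl (dNorm K L T)` is trivial on the primes under a prime of `L` of prime absolute
norm. -/
theorem rayVal_dNorm_under [IsGalois K L] (hclK : ClTrivial K T) (hclL : ClTrivial L T)
    (Q : Ideal (𝓞 L)) [Q.IsPrime] (hQ : (Ideal.absNorm Q).Prime) :
    rayVal (G := IdeleT K T ⧸ normGroup K L T) hclK (dNorm K L T) (Q.under (𝓞 K)) = 1 :=
  rayVal_under_eq_one K L T hclK hclL _ (dNorm_TUnits K L T)
    (fun _ hx => dNorm_range K L T hx) Q hQ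

end Fermat.Agent.S55.CFT.H31
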