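/-
S55 / E4 / CFT, leaf SI-a (helper96), part 3: the subring `intSub K q` of `ℚ_q ⊗ K` is `q`-adically
complete.
-/
import Fermat.Agent.S55.CFT.H96_SemiLocalInt

set_option autoImplicit false

open NumberField TensorProduct

noncomputable section

namespace Fermat.Agent.S55.CFT.H96

open Fermat.Agent.S55.CFT Fermat.Agent.S55.CFT.H12

attribute [local instance] Fermat.Agent.S55.CFT.fact_primes

variable {K : Type} [Field K] [NumberField K] {q : Nat.Primes}

/-- `ρ = 1 / q`. -/
def rho (q : Nat.Primes) : ℝ := ((q : ℕ) : ℝ)⁻¹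

theorem rho_pos (q : Nat.Primes) : 0 < rho q := by
  unfold rho
  have : (0 : ℝ) < ((q : ℕ) : ℝ) := by exact_mod_cast q.2.pos
  positivity

theorem rho_lt_one (q : Nat.Primes) : rho q < 1 := by
  unfold rho
  have : (1 : ℝ) < ((q : ℕ) : ℝ) := by exact_mod_cast q.2.one_lt
  exact inv_lt_one_of_one_lt₀ this

theorem norm_q_pow (q : Nat.Primes) (n : ℕ) : ‖(((q : ℕ) : Qp q)) ^ n‖ = rho q ^ n := by
  rw [norm_pow, Padic.norm_p]
  rfl

theorem q_ne_zero (q : Nat.Primes) : (((q : ℕ) : Qp q)) ≠ 0 := by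
  have h := norm_q_pow q 1
  rw [pow_one, pow_one] at h
  intro h0
  rw [h0, norm_zero] at h
  exact (rho_pos q).ne h

/-- The natural number `q` in `ℚ_q ⊗ K` is the scalar `q`. -/
theorem natCast_pow_mul (n : ℕ) (x : SemiLocal K q) :
    (((q : ℕ) : SemiLocal K q)) ^ n * x = ((((q : ℕ) : Qp q)) ^ n) • x := by
  rw [Algebra.smul_def, map_pow, map_natCast]

/-- Elements of `q ^ n · intSub` in coordinates. -/
theorem mem_ball_iff (x : SemiLocal K q) (n : ℕ) :
    (∃ r ∈ intSub K q, x = (((q : ℕ) : SemiLocal K q)) ^ n * r)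
      ↔ ∀ i, ‖(slBasis K q).repr x i‖ ≤ rho q ^ n := by
  constructor
  · rintro ⟨r, hr, rfl⟩ i
    rw [natCast_pow_mul, map_smul, Finsupp.smul_apply, smul_eq_mul, norm_mul, norm_q_pow]
    calc rho q ^ n * ‖(slBasis K q).repr r i‖ ≤ rho q ^ n * 1 :=
          mul_le_mul_of_nonneg_left (hr i) (pow_nonneg (rho_pos q).le n)
      _ = rho q ^ n := mul_one _
  · intro h
    have hq : ((((q : ℕ) : Qp q)) ^ n) ≠ 0 := pow_ne_zero n (q_ne_zero q)
    refine ⟨((((q : ℕ) : Qp q)) ^ n)⁻¹ • x, ?_, ?_⟩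
    · intro i
      rw [map_smul, Finsupp.smul_apply, smul_eq_mul, norm_mul, norm_inv, norm_q_pow]
      rw [inv_mul_le_iff₀ (pow_pos (rho_pos q) n), mul_one]
      exact h i
    · rw [natCast_pow_mul, smul_smul, mul_inv_cancel₀ hq, one_smul]

variable (K q)

/-- The ideal `(q)` of `intSub K q`. -/
def qIdeal : Ideal (intSub K q) := Ideal.span {((q : ℕ) : intSub K q)}

variable {K q}

theorem mem_qIdeal_pow_iff (x : intSub K q) (n : ℕ) :
    x ∈ qIdeal K q ^ n ↔ ∀ i, ‖(slBasis K q).repr (x : SemiLocal K q) i‖ ≤ rho q ^ n := by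
  unfold qIdeal
  rw [Ideal.span_singleton_pow, Ideal.mem_span_singleton', ← mem_ball_iff]
  constructor
  · rintro ⟨a, rfl⟩
    refine ⟨a, a.2, ?_⟩
    push_cast
    rw [mul_comm]
  · rintro ⟨r, hr, h⟩
    refine ⟨⟨r, hr⟩, ?_⟩
    apply Subtype.ext
    push_cast
    rw [h, mul_comm]

theorem eq_zero_of_forall_norm_le {c : Qp q} (h : ∀ n : ℕ, ‖c‖ ≤ rho q ^ n) : c = 0 := by
  by_contra hc
  have hpos : 0 < ‖c‖ := norm_pos_iff.mpr hc
  obtain ⟨n, hn⟩ := exists_pow_lt_of_lt_one hpos (rho_lt_one q)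
  exact absurd (h n) (not_le.mpr hn)

instance isAdicComplete_intSub : IsAdicComplete (qIdeal K q) (intSub K q) where
  haus' x hx := by
    have h : ∀ n : ℕ, x ∈ qIdeal K q ^ n := by
      intro n
      have := hx n
      rw [SModEq.zero, ← Ideal.one_eq_top, Ideal.smul_eq_mul, mul_one] at this
      exact this
    apply Subtype.ext
    apply (slBasis K q).repr.injective
    ext i
    rw [ZeroMemClass.coe_zero, map_zero, Finsupp.zero_apply]
    exact eq_zero_of_forall_norm_le (fun n => (mem_qIdeal_pow_iff x n).mp (h n) i)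
  prec' f hf := by
    have h : ∀ {m n : ℕ}, m ≤ n → ∀ i,
        ‖(slBasis K q).repr (f m : SemiLocal K q) i - (slBasis K q).repr (f n : SemiLocal K q) i‖
          ≤ rho q ^ m := by
      intro m n hmn i
      have := hf hmn
      rw [SModEq.sub_mem, ← Ideal.one_eq_top, Ideal.smul_eq_mul, mul_one, mem_qIdeal_pow_iff] at this
      have h1 := this i
      rw [AddSubgroupClass.coe_sub, map_sub, Finsupp.sub_apply] at h1
      exact h1
    -- the coordinates are Cauchy sequences
    have hcau : ∀ i, CauchySeq (fun n => (slBasis K q).repr (f n : SemiLocal K q) i) := by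
      intro i
      rw [Metric.cauchySeq_iff']
      intro ε hε
      obtain ⟨N, hN⟩ := exists_pow_lt_of_lt_one hε (rho_lt_one q)
      refine ⟨N, fun n hn => ?_⟩
      rw [dist_eq_norm, ← norm_neg, neg_sub]
      exact lt_of_le_of_lt (h hn i) hN
    choose L hL using fun i => cauchySeq_tendsto_of_complete (hcau i)
    have hL1 : ∀ (n : ℕ) (i : Idx K),
        ‖(slBasis K q).repr (f n : SemiLocal K q) i - L i‖ ≤ rho q ^ n := by
      intro n i
      have ht : Filter.Tendsto
          (fun N => ‖(slBasis K q).repr (f n : SemiLocal K q) i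
            - (slBasis K q).repr (f N : SemiLocal K q) i‖) Filter.atTop
          (nhds ‖(slBasis K q).repr (f n : SemiLocal K q) i - L i‖) :=
        (tendsto_const_nhds.sub (hL i)).norm
      refine le_of_tendsto ht ?_
      filter_upwards [Filter.eventually_ge_atTop n] with N hN
      exact h hN i
    have hL2 : ∀ i, ‖L i‖ ≤ 1 := by
      intro i
      have h1 := hL1 0 i
      rw [pow_zero] at h1
      have h2 : L i = (slBasis K q).repr (f 0 : SemiLocal K q) i
          - ((slBasis K q).repr (f 0 : SemiLocal K q) i - L i) := by ring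
      rw [h2, sub_eq_add_neg]
      refine (Padic.nonarchimedean _ _).trans (max_le ((f 0).2 i) ?_)
      rw [norm_neg]
      exact h1
    have hrepr : ∀ i, (slBasis K q).repr ((slBasis K q).equivFun.symm L) i = L i := by
      intro i
      rw [← Module.Basis.equivFun_apply, LinearEquiv.apply_symm_apply]
    refine ⟨⟨(slBasis K q).equivFun.symm L, fun i => by rw [hrepr]; exact hL2 i⟩, fun n => ?_⟩
    rw [SModEq.sub_mem, ← Ideal.one_eq_top, Ideal.smul_eq_mul, mul_one, mem_qIdeal_pow_iff]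
    intro i
    rw [AddSubgroupClass.coe_sub, map_sub, Finsupp.sub_apply]
    show ‖(slBasis K q).repr (f n : SemiLocal K q) i
      - (slBasis K q).repr ((slBasis K q).equivFun.symm L) i‖ ≤ rho q ^ n
    rw [hrepr]
    exact hL1 n i

end Fermat.Agent.S55.CFT.H96
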