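/-
S55 / E4 / CFT, leaf SI-a (helper96), part 4: `n`-th powers are open in `ℚ_q ⊗ K`.

`stmt_SemiLocalPow : H12.Stmt_SemiLocalPow`, with `m = 2 v_q(n) + 1`: for `n = q ^ a n'`, every
`u = 1 + q ^ (2 a + 1) r`, `r` in the lattice, is the `n`-th power of some `1 + n q y`
(Hensel in the `q`-adically complete ring `intSub K q`).
-/
import Fermat.Agent.S55.CFT.H96_SemiLocalComplete
import Fermat.Agent.S55.CFT.H96_Newton

set_option autoImplicit false

open NumberField TensorProduct Polynomial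

noncomputable section

namespace Fermat.Agent.S55.CFT.H96

open Fermat.Agent.S55.CFT Fermat.Agent.S55.CFT.H12

attribute [local instance] Fermat.Agent.S55.CFT.fact_primes

/-- `(1 + t) ^ n = 1 + n t + t² g`. -/
theorem exists_one_add_pow {A : Type*} [CommRing A] (t : A) (n : ℕ) :
    ∃ g : A, (1 + t) ^ n = 1 + n * t + t ^ 2 * g := by
  induction n with
  | zero => exact ⟨0, by simp⟩
  | succ n ih =>
    obtain ⟨g, hg⟩ := ih
    refine ⟨n + g + t * g, ?_⟩
    rw [pow_succ, hg]
    push_cast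
    ring

/-- Hensel for `n`-th roots in a ring complete for the ideal `(Q)`: every element of the form
`1 + N² Q r` is the `n`-th power of some `1 + N Q y`, `N` the image of `n`. -/
theorem exists_pow_eq_of_complete {S : Type*} [CommRing S] (Q : S)
    [IsAdicComplete (Ideal.span {Q}) S] (n : ℕ) (r : S) :
    ∃ y : S, (1 + (n : S) * Q * y) ^ n = 1 + (n : S) ^ 2 * Q * r := by
  obtain ⟨g, hg⟩ := exists_one_add_pow (C ((n : S) * Q) * X : S[X]) n
  set h : S[X] := X + C Q * (X ^ 2 * g) - C r with hh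
  have hid : (1 + C ((n : S) * Q) * X : S[X]) ^ n = 1 + C ((n : S) ^ 2 * Q) * (h + C r) := by
    rw [hg, hh]
    simp only [map_mul, map_pow, map_natCast]
    ring
  have h1 : h.eval r ∈ Ideal.span {Q} := by
    rw [hh]
    simp only [eval_sub, eval_add, eval_X, eval_mul, eval_C, eval_pow]
    rw [Ideal.mem_span_singleton']
    exact ⟨r ^ 2 * eval r g, by ring⟩
  have h2 : IsUnit (Ideal.Quotient.mk (Ideal.span {Q}) (h.derivative.eval r)) := by
    have hd : h.derivative.eval r = 1 + Q * eval r (derivative (X ^ 2 * g)) := by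
      rw [hh]
      simp only [derivative_sub, derivative_add, derivative_X, derivative_C_mul, derivative_C,
        sub_zero, eval_add, eval_one, eval_mul, eval_C]
    rw [hd, map_add, map_one, map_mul]
    have hQ : Ideal.Quotient.mk (Ideal.span {Q}) Q = 0 :=
      Ideal.Quotient.eq_zero_iff_mem.mpr (Ideal.mem_span_singleton_self Q)
    rw [hQ, zero_mul, add_zero]
    exact isUnit_one
  obtain ⟨y, hy, -⟩ := exists_root_of_adicComplete (Ideal.span {Q}) h r h1 h2
  refine ⟨y, ?_⟩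
  have := congrArg (eval y) hid
  simp only [eval_pow, eval_add, eval_one, eval_mul, eval_C, eval_X] at this
  rw [this, hy.eq_zero, zero_add]

/-- **SI-a**: `n`-th powers are open in `ℚ_q ⊗ K`. -/
theorem stmt_SemiLocalPow : Stmt_SemiLocalPow := by
  intro K _ _ q n hn
  obtain ⟨a, n', hn', hnn⟩ := Nat.exists_eq_pow_mul_and_not_dvd hn.ne' (q : ℕ) q.2.ne_one
  refine ⟨2 * a + 1, fun u hu => ?_⟩
  obtain ⟨r, hr, hur⟩ := hu
  have hrS : r ∈ intSub K q := semiLocalInt_le hr
  have hn'norm : ‖((n' : ℕ) : Qp q)‖ = 1 :=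
    Padic.norm_natCast_eq_one_iff.mpr ((Nat.Prime.coprime_iff_not_dvd q.2).mpr hn')
  have hn'0 : ((n' : ℕ) : Qp q) ≠ 0 := by
    intro h0
    rw [h0, norm_zero] at hn'norm
    exact zero_ne_one hn'norm
  have hc : ‖(((n' : ℕ) : Qp q) ^ 2)⁻¹‖ ≤ 1 := by
    rw [norm_inv, norm_pow, hn'norm, one_pow, inv_one]
  have : IsAdicComplete (Ideal.span {((q : ℕ) : intSub K q)}) (intSub K q) :=
    isAdicComplete_intSub
  obtain ⟨y, hy⟩ := exists_pow_eq_of_complete ((q : ℕ) : intSub K q) n
    (⟨(((n' : ℕ) : Qp q) ^ 2)⁻¹ • r, smul_mem_intSet hc hrS⟩ : intSub K q)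
  refine ⟨((1 + (n : intSub K q) * ((q : ℕ) : intSub K q) * y : intSub K q) : SemiLocal K q), ?_⟩
  have h1 := congrArg (Subtype.val) hy
  push_cast at h1 ⊢
  rw [h1]
  have h2 : u = 1 + ((q : ℕ) : SemiLocal K q) ^ (2 * a + 1) * r := by
    rw [← hur]; ring
  rw [h2, Algebra.smul_def, hnn]
  have h3 : (((n' : ℕ) : SemiLocal K q)) ^ 2
      * algebraMap (Qp q) (SemiLocal K q) ((((n' : ℕ) : Qp q) ^ 2)⁻¹) = 1 := by
    rw [← map_natCast (algebraMap (Qp q) (SemiLocal K q)) n', ← map_pow, ← map_mul,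
      mul_inv_cancel₀ (pow_ne_zero 2 hn'0), map_one]
  push_cast
  linear_combination (((q : ℕ) : SemiLocal K q) ^ (2 * a + 1) * r) * h3

end Fermat.Agent.S55.CFT.H96
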