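/-
S55 / E4 / CFT, package SI'' (helper12 + helper31), final assembly.

`stmt_SIindex : Stmt_SIindex` (via `stmt_SIindex_of : Stmt_SemiLocalPow → Stmt_WeakApprox →
Stmt_SIindex`, SI-a = helper96, SI-b = helper20): for `L/K` Galois and
admissible `T`, the norm group `E_K · N_{L/K} J_{L,T}` has finite index `≤ [L : K]` in `J_{K,T}`.

* `J/N` has exponent `[L : K]` (`H56.normLK_base`);
* every finite quotient `A` of `J/N` is the target of a ray class map mod `(∏ T)^N` which is
  trivial on the primes under a prime of `L` of degree one (helper31, `H31_SIAsm.lean`), so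
  `|A| ≤ [L : K]` by the second inequality `H31.stmt_T2m`;
* hence `J/N` is finite of order `≤ [L : K]` (`index_le_of_overgroups`, characters).
-/
import Fermat.Agent.S55.CFT.H31_SIAsm
import Fermat.Agent.S55.CFT.H12_SIChar
import Fermat.Agent.S55.CFT.H56_IdeleBase
import Fermat.Agent.Lib.SecondIneq.H31_T2m
import Fermat.Agent.S55.CFT.H96_SemiLocalPow
import Fermat.Agent.S55.CFT.H20_WeakApprox

set_option autoImplicit false
set_option linter.unusedSectionVars false
set_option linter.style.haveILetI false

open NumberField

noncomputable section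

namespace Fermat.Agent.S55.CFT.H12

open Fermat.Agent.S55.CFT Fermat.Agent.Lib.SecondIneq

/-- The second inequality (index form), from the two semilocal inputs. -/
theorem stmt_SIindex_of (hPow : Stmt_SemiLocalPow) (hWA : Stmt_WeakApprox) : Stmt_SIindex := by
  intro p K L _ _ _ _ _ T hadm
  haveI : IsGalois K L := hadm.gal
  have hclK : ClTrivial K T := hadm.cl K
  have hclL : ClTrivial L T := hadm.cl L
  refine index_le_of_overgroups (normGroup K L T) (Module.finrank K L) Module.finrank_pos
    (fun x => ?_) (fun H hNH hH => ?_)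
  · -- exponent
    rw [← H56.normLK_base K L T x]
    exact Subgroup.mem_sup_right ⟨_, rfl⟩
  · -- finite quotients
    haveI : H.FiniteIndex := ⟨hH⟩
    haveI : Finite (IdeleT K T ⧸ H) := Subgroup.finite_quotient_of_finiteIndex
    let f : (IdeleT K T ⧸ normGroup K L T) →* (IdeleT K T ⧸ H) :=
      QuotientGroup.map (normGroup K L T) H (MonoidHom.id _) hNH
    have hf : Function.Surjective f := by
      intro y
      obtain ⟨x, rfl⟩ := QuotientGroup.mk_surjective y
      exact ⟨QuotientGroup.mk x, rfl⟩
    obtain ⟨N, hN⟩ := H31.exists_isRayMap_comp K L T f hPow hWA hclK hf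
    have h0 : H31.idealT K T ^ N ≠ ⊥ := by
      apply pow_ne_zero
      rw [Ne, Ideal.zero_eq_bot, Ideal.span_singleton_eq_bot]
      have hp : (prodT T : ℤ) ≠ 0 := by
        exact_mod_cast prodT_ne_zero T
      exact_mod_cast hp
    have h := H31.stmt_T2m K L (H31.idealT K T ^ N) (IdeleT K T ⧸ H)
      (H31.rayVal hclK (f.comp (H31.dNorm K L T))) ∅ h0 hN
      (fun Q hQ hQn _ _ => by
        haveI := hQ
        exact H31.rayVal_comp_under K L T f hclK hclL Q hQn)
    rw [Subgroup.index_eq_card]
    exact h

/-- The second inequality (index form), from weak approximation alone (SI-a is helper96's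
`H96.stmt_SemiLocalPow`). -/
theorem stmt_SIindex_of_weakApprox (hWA : Stmt_WeakApprox) : Stmt_SIindex :=
  stmt_SIindex_of H96.stmt_SemiLocalPow hWA

/-- **SI''**: the second inequality (index form), unconditional (SI-b is helper20's
`H20.stmt_WeakApprox`). -/
theorem stmt_SIindex : Stmt_SIindex :=
  stmt_SIindex_of H96.stmt_SemiLocalPow H20.stmt_WeakApprox

end Fermat.Agent.S55.CFT.H12
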