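/-
S55 / E4 / CFT package H3-UNITS (helper13), part 1: naturality of the connecting homomorphism
under a change of groups, and the abstract form of the argument
(`H^{n+1}(G, X₂) = 0` and every class of `Hⁿ(G, X₃)` becomes liftable over `Γ`).
-/
import Mathlib.RepresentationTheory.Homological.GroupCohomology.LongExactSequence

set_option autoImplicit false
set_option linter.unusedSectionVars false
set_option linter.style.haveILetI false
open CategoryTheory CategoryTheory.Limits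

noncomputable section
namespace Fermat.Agent.S55.CFT.H13

open groupCohomology

section DeltaNat

variable {k : Type} [CommRing k] {G Γ : Type} [Group G] [Group Γ] (f : Γ →* G)
  {X : ShortComplex (Rep.{0} k G)} {Y : ShortComplex (Rep.{0} k Γ)}
  (hX : X.ShortExact) (hY : Y.ShortExact)
  (φ₁ : Rep.res f X.X₁ ⟶ Y.X₁) (φ₂ : Rep.res f X.X₂ ⟶ Y.X₂) (φ₃ : Rep.res f X.X₃ ⟶ Y.X₃)

omit hX hY in
theorem cochainsMap_square {A B : Rep.{0} k G} {A' B' : Rep.{0} k Γ} (u : A ⟶ B) (u' : A' ⟶ B')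
    (α : Rep.res f A ⟶ A') (β : Rep.res f B ⟶ B')
    (h : (Rep.resFunctor f).map u ≫ β = α ≫ u') :
    cochainsMap f α ≫ cochainsMap (MonoidHom.id Γ) u' =
      cochainsMap (MonoidHom.id G) u ≫ cochainsMap f β := by
  have e1 := cochainsMap_comp (A := A) (B := A') (C := B') f (MonoidHom.id Γ) α u'
  have e2 := cochainsMap_comp (A := A) (B := B) (C := B') (MonoidHom.id G) f u β
  rw [← e1, ← e2]
  refine cochainsMap_congr rfl ?_
  have := congrArg (fun m => m.hom.toLinearMap) h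
  exact this.symm

/-- Naturality of the connecting homomorphism under a change of groups. -/
theorem delta_naturality_gen
    (h12 : (Rep.resFunctor f).map X.f ≫ φ₂ = φ₁ ≫ Y.f)
    (h23 : (Rep.resFunctor f).map X.g ≫ φ₃ = φ₂ ≫ Y.g) (i j : ℕ) (hij : i + 1 = j) :
    δ hX i j hij ≫ map f φ₁ j = map f φ₃ i ≫ δ hY i j hij := by
  let Φ : X.map (cochainsFunctor k G) ⟶ Y.map (cochainsFunctor k Γ) :=
    { τ₁ := cochainsMap f φ₁
      τ₂ := cochainsMap f φ₂
      τ₃ := cochainsMap f φ₃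
      comm₁₂ := cochainsMap_square f X.f Y.f φ₁ φ₂ h12
      comm₂₃ := cochainsMap_square f X.g Y.g φ₂ φ₃ h23 }
  exact HomologicalComplex.HomologySequence.δ_naturality Φ
    (map_cochainsFunctor_shortExact hX) (map_cochainsFunctor_shortExact hY) i j hij

include hX hY in
/-- If `Hʲ(G, X₂) = 0` and the image of every class of `Hⁱ(G, X₃)` in `Hⁱ(Γ, Y₃)` comes from
`Hⁱ(Γ, Y₂)`, then `Hʲ(G, X₁) → Hʲ(Γ, Y₁)` is zero. -/
theorem map_eq_zero_of_lift
    (h12 : (Rep.resFunctor f).map X.f ≫ φ₂ = φ₁ ≫ Y.f)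
    (h23 : (Rep.resFunctor f).map X.g ≫ φ₃ = φ₂ ≫ Y.g) (n : ℕ)
    (hz : Subsingleton (groupCohomology X.X₂ (n + 1)))
    (hl : ∀ c : groupCohomology X.X₃ n, ∃ y : groupCohomology Y.X₂ n,
      (map f φ₃ n).hom c = (map (MonoidHom.id Γ) Y.g n).hom y)
    (e : groupCohomology X.X₁ (n + 1)) : (map f φ₁ (n + 1)).hom e = 0 := by
  have hepi : Epi (δ hX n (n + 1) rfl) :=
    epi_δ_of_isZero hX n (ModuleCat.isZero_of_subsingleton _)
  obtain ⟨c, rfl⟩ := (ModuleCat.epi_iff_surjective _).1 hepi e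
  have hnat := delta_naturality_gen f hX hY φ₁ φ₂ φ₃ h12 h23 n (n + 1) rfl
  have h1 : (map f φ₁ (n + 1)).hom ((δ hX n (n + 1) rfl).hom c) =
      (δ hY n (n + 1) rfl).hom ((map f φ₃ n).hom c) :=
    congrArg (fun m => m.hom c) hnat
  rw [h1]
  obtain ⟨y, hy⟩ := hl c
  rw [hy]
  have hzero := (mapShortComplex₃ hY (i := n) (j := n + 1) rfl).zero
  exact congrArg (fun m => m.hom y) hzero

end DeltaNat

end Fermat.Agent.S55.CFT.H13
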