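/-
S55 / E4 / CFT package H3-UNITS (helper13), part 2: Tate's argument (`fund_abstract`) with its
by-product: the inflation to `Γ` of the class that is constructed is the image of a class with
values in any module `B → A` in which the invariant element `a` has an invariant lift.
-/
import Fermat.Agent.S55.CFT.H13_FundAlg

set_option autoImplicit false
set_option linter.unusedSectionVars false
set_option linter.unusedVariables false
set_option linter.style.haveILetI false

noncomputable section

namespace Fermat.Agent.S55.CFT.H13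

open CategoryTheory groupCohomology Fermat.Agent.S55.CFT

section Generic

universe u

variable {k G : Type u} [CommRing k] [Group G] (A B : Rep k G) (π : B ⟶ A) (S' : Subgroup G)
  [S'.Normal]

/-- Inflation from `G ⧸ S'` commutes with a morphism of coefficients, on cocycles. -/
theorem inf_map_cocycle (c : cocycles₂ (A.quotientToInvariants S'))
    (d : cocycles₂ (B.quotientToInvariants S'))
    (h : ∀ g h : G, ((c (QuotientGroup.mk g, QuotientGroup.mk h) :
        (A.quotientToInvariants S')) : A.V) =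
      π.hom ((d (QuotientGroup.mk g, QuotientGroup.mk h) : (B.quotientToInvariants S')) : B.V)) :
    (H24.inf₂ A S').hom (H2π (A.quotientToInvariants S') c) =
      (groupCohomology.map (MonoidHom.id G) π 2).hom
        ((H24.inf₂ B S').hom (H2π (B.quotientToInvariants S') d)) := by
  have e1 : (H24.inf₂ A S').hom (H2π (A.quotientToInvariants S') c) =
      H2π A (mapCocycles₂ (QuotientGroup.mk' S')
        (Rep.ofHom <| A.ρ.quotientToInvariants_lift S') c) :=
    H2π_comp_map_apply _ _ c
  have e2 : (H24.inf₂ B S').hom (H2π (B.quotientToInvariants S') d) =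
      H2π B (mapCocycles₂ (QuotientGroup.mk' S')
        (Rep.ofHom <| B.ρ.quotientToInvariants_lift S') d) :=
    H2π_comp_map_apply _ _ d
  have e3 : (groupCohomology.map (MonoidHom.id G) π 2).hom
      (H2π B (mapCocycles₂ (QuotientGroup.mk' S')
        (Rep.ofHom <| B.ρ.quotientToInvariants_lift S') d)) =
      H2π A (mapCocycles₂ (MonoidHom.id G) π (mapCocycles₂ (QuotientGroup.mk' S')
        (Rep.ofHom <| B.ρ.quotientToInvariants_lift S') d)) :=
    H2π_comp_map_apply _ _ _
  rw [e1, e2, e3]
  congr 1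
  apply Subtype.ext
  funext q
  obtain ⟨g, h'⟩ := q
  exact h g h'

end Generic

variable {Γ : Type} [Group Γ] [Finite Γ] (A : Rep.{0} ℤ Γ) (S S' : Subgroup Γ)
  [S.Normal] [S'.Normal]

/-- The inflation from `Γ ⧸ S'` of the cyclic cocycle with value `π b` is the image under `π` of
the inflation of the cyclic cocycle with value `b`. -/
theorem inf_cyc_lift (B : Rep.{0} ℤ Γ) (π : B ⟶ A) {σ : Γ ⧸ S'} {n' : ℕ} {e' : Γ ⧸ S' → ℕ}
    (he' : DLog (Γ ⧸ S') σ n' e')
    (b' : (B.quotientToInvariants S').V) (hb' : ∀ x, (B.quotientToInvariants S').ρ x b' = b')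
    (a' : (A.quotientToInvariants S').V) (ha' : ∀ x, (A.quotientToInvariants S').ρ x a' = a')
    (hab : π.hom (b' : B.V) = (a' : A.V))
    (c' : cocycles₂ (A.quotientToInvariants S'))
    (hc' : (c' : (Γ ⧸ S') × (Γ ⧸ S') → (A.quotientToInvariants S').V) =
        cyc (A.quotientToInvariants S') n' e' a') :
    ∃ y : groupCohomology B 2,
      (H24.inf₂ A S').hom (H2π (A.quotientToInvariants S') c') =
        (groupCohomology.map (MonoidHom.id Γ) π 2).hom y := by
  obtain ⟨d', hd'⟩ : ∃ d' : cocycles₂ (B.quotientToInvariants S'),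
      (d' : (Γ ⧸ S') × (Γ ⧸ S') → (B.quotientToInvariants S').V) =
        cyc (B.quotientToInvariants S') n' e' b' :=
    ⟨⟨_, cyc_mem_cocycles₂ (B.quotientToInvariants S') he' b' hb'⟩, rfl⟩
  refine ⟨(H24.inf₂ B S').hom (H2π (B.quotientToInvariants S') d'), ?_⟩
  apply inf_map_cocycle A B π S' c' d'
  intro g h
  have h4 : c' (QuotientGroup.mk g, QuotientGroup.mk h) =
      cyc (A.quotientToInvariants S') n' e' a' (QuotientGroup.mk g, QuotientGroup.mk h) :=
    congrFun hc' _
  have h5 : d' (QuotientGroup.mk g, QuotientGroup.mk h) =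
      cyc (B.quotientToInvariants S') n' e' b' (QuotientGroup.mk g, QuotientGroup.mk h) :=
    congrFun hd' _
  rw [h4, h5, cyc_apply, cyc_apply, Submodule.coe_smul_of_tower, Submodule.coe_smul_of_tower,
    map_nsmul, hab]

theorem fund_abstract_lift (B : Rep.{0} ℤ Γ) (π : B ⟶ A)
    (hcyc : IsCyclic (Γ ⧸ S')) (hint : S ⊓ S' = ⊥)
    (hS : Subsingleton (groupCohomology (resSub A S) 1))
    (hS' : Subsingleton (groupCohomology (resSub A S') 1))
    (b : B.V) (hb : ∀ g : Γ, B.ρ g b = b) (P : ℕ)
    [Fintype (Γ ⧸ S')] [Fintype S]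
    (h1 : ∀ k : ℕ, (∃ c : (A.quotientToInvariants S').V,
        k • π.hom b = ((∑ x : Γ ⧸ S', (A.quotientToInvariants S').ρ x c :
          (A.quotientToInvariants S').V) : A.V)) → P ∣ k)
    (h2 : ∃ c : A.V, π.hom b = ∑ s : S, A.ρ (s : Γ) c) :
    ∃ γ : groupCohomology (A.quotientToInvariants S) 2, (∀ k : ℕ, k • γ = 0 → P ∣ k) ∧
      ∃ y : groupCohomology B 2,
        (H24.inf₂ A S).hom γ = (groupCohomology.map (MonoidHom.id Γ) π 2).hom y := by
  classical
  obtain ⟨a, hadef⟩ : ∃ a : A.V, a = π.hom b := ⟨_, rfl⟩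
  rw [← hadef] at h1 h2
  have ha : ∀ g : Γ, A.ρ g a = a := by
    intro g
    rw [hadef, ← Rep.hom_comm_apply, hb g]
  obtain ⟨σ, hσ⟩ := IsCyclic.exists_generator (α := Γ ⧸ S')
  obtain ⟨e', he'⟩ := exists_dlog σ hσ
  obtain ⟨n', hn'⟩ : ∃ n', n' = Nat.card (Γ ⧸ S') := ⟨_, rfl⟩
  rw [← hn'] at he'
  obtain ⟨a', ha'def⟩ : ∃ a' : (A.quotientToInvariants S').V, (a' : A.V) = a :=
    ⟨⟨a, fun s => ha s⟩, rfl⟩
  have ha' : ∀ x : Γ ⧸ S', (A.quotientToInvariants S').ρ x a' = a' := by
    intro x
    induction x using QuotientGroup.induction_on with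
    | H g =>
      apply Subtype.ext
      show A.ρ g (a' : A.V) = (a' : A.V)
      rw [ha'def]
      exact ha g
  obtain ⟨b', hb'def⟩ : ∃ b' : (B.quotientToInvariants S').V, (b' : B.V) = b :=
    ⟨⟨b, fun s => hb s⟩, rfl⟩
  have hb' : ∀ x : Γ ⧸ S', (B.quotientToInvariants S').ρ x b' = b' := by
    intro x
    induction x using QuotientGroup.induction_on with
    | H g =>
      apply Subtype.ext
      show B.ρ g (b' : B.V) = (b' : B.V)
      rw [hb'def]
      exact hb g
  obtain ⟨c', hc'⟩ : ∃ c' : cocycles₂ (A.quotientToInvariants S'),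
      (c' : (Γ ⧸ S') × (Γ ⧸ S') → (A.quotientToInvariants S').V) =
        cyc (A.quotientToInvariants S') n' e' a' :=
    ⟨⟨_, cyc_mem_cocycles₂ (A.quotientToInvariants S') he' a' ha'⟩, rfl⟩
  obtain ⟨y₀, hy₀⟩ := inf_cyc_lift A S' B π he' b' hb' a' ha'
    (by rw [hb'def, ha'def, hadef]) c' hc'
  obtain ⟨y, hy⟩ : ∃ y : groupCohomology (A.quotientToInvariants S') 2,
      y = H2π (A.quotientToInvariants S') c' := ⟨_, rfl⟩
  obtain ⟨x, hx⟩ : ∃ x : groupCohomology A 2, x = (H24.inf₂ A S').hom y := ⟨_, rfl⟩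
  -- Step B: the restriction of `x` to `S` vanishes
  have hres : (H24.res₂ A S).hom x = 0 := by
    obtain ⟨f, hf1, hf2⟩ := res_inf_cocycle A S S' c'
    rw [hx, hy, hf1]
    refine (H2π_eq_zero_iff _).mpr ?_
    -- the cyclic structure on `S`
    obtain ⟨π', hπdef⟩ : ∃ π' : S →* Γ ⧸ S', π' = (QuotientGroup.mk' S').comp S.subtype :=
      ⟨_, rfl⟩
    have hπ : Function.Injective π' := by
      rw [injective_iff_map_eq_one]
      intro s hs
      rw [hπdef] at hs
      have h1 : (s : Γ) ∈ S' := (QuotientGroup.eq_one_iff (s : Γ)).mp hs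
      have h2 : (s : Γ) ∈ S ⊓ S' := ⟨s.2, h1⟩
      rw [hint, Subgroup.mem_bot] at h2
      exact Subtype.ext h2
    obtain ⟨τ, e'', d, he'', hd, hrel⟩ := exists_dlog_sub he' π' hπ
    have hd0 : 0 < d := by
      rcases Nat.eq_zero_or_pos d with h0 | h0
      · rw [h0, zero_mul] at hd
        exact absurd hd he'.pos.ne'
      · exact h0
    obtain ⟨b₀, hb₀⟩ := h2
    have hnorm : a = pnorm (Rep.res S.subtype A) τ b₀ (Nat.card S) := by
      rw [pnorm_eq_sum (B := Rep.res S.subtype A) he'' b₀]
      exact hb₀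
    have hcob := cyc_mem_coboundaries₂_of_norm (Rep.res S.subtype A) he'' b₀
    rw [← hnorm] at hcob
    have hfun : (f : S × S → A.V) = cyc (Rep.res S.subtype A) (Nat.card S) e'' a := by
      funext q
      obtain ⟨s, t⟩ := q
      rw [hf2 s t]
      have h4 : c' (QuotientGroup.mk (s : Γ), QuotientGroup.mk (t : Γ)) =
          cyc (A.quotientToInvariants S') n' e' a'
            (QuotientGroup.mk (s : Γ), QuotientGroup.mk (t : Γ)) := congrFun hc' _
      rw [h4, cyc_apply, cyc_apply]
      have h5 : e' (QuotientGroup.mk (s : Γ)) = d * e'' s := by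
        have := hrel s
        rw [hπdef] at this
        exact this
      have h6 : e' (QuotientGroup.mk (t : Γ)) = d * e'' t := by
        have := hrel t
        rw [hπdef] at this
        exact this
      rw [h5, h6, hd, ← Nat.mul_add, Nat.mul_div_mul_left _ _ hd0]
      rw [Submodule.coe_smul_of_tower, ha'def]
    rw [hfun]
    exact hcob
  -- Step C: `x` is inflated from `Γ ⧸ S`
  obtain ⟨γ, hγ⟩ := (H24.res₂_eq_zero_iff A S hS x).mp hres
  refine ⟨γ, fun k hk => ?_, y₀, ?_⟩
  · -- Step D: the order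
    have hkx : k • x = 0 := by
      have : (H24.inf₂ A S).hom (k • γ) = k • (H24.inf₂ A S).hom γ := map_nsmul _ _ _
      rw [hk, map_zero] at this
      rw [← hγ]
      exact this.symm
    have hky : k • y = 0 := by
      apply H24.inf₂_injective A S' hS'
      have : (H24.inf₂ A S').hom (k • y) = k • (H24.inf₂ A S').hom y := map_nsmul _ _ _
      rw [← hx, hkx] at this
      rw [map_zero]
      exact this
    have hkc : H2π (A.quotientToInvariants S') (k • c') = 0 := by
      have e : (H2π (A.quotientToInvariants S')).hom (k • c') =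
          k • (H2π (A.quotientToInvariants S')).hom c' := map_nsmul _ _ _
      have e2 : k • (H2π (A.quotientToInvariants S')).hom c' = 0 := by
        have e3 : (H2π (A.quotientToInvariants S')).hom c' = y := hy.symm
        rw [e3]
        exact hky
      exact e.trans e2
    rw [H2π_eq_zero_iff] at hkc
    have hkc' : cyc (A.quotientToInvariants S') n' e' (k • a') ∈
        coboundaries₂ (A.quotientToInvariants S') := by
      rw [cyc_nsmul, ← hc']
      exact hkc
    obtain ⟨b'', hb''⟩ :=
      norm_of_cyc_mem_coboundaries₂ (A.quotientToInvariants S') he' (k • a') hkc'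
    apply h1 k
    refine ⟨b'', ?_⟩
    rw [← pnorm_eq_sum he' b'', ← hb'', Submodule.coe_smul_of_tower, ha'def]
  · have h3 : (H24.inf₂ A S).hom γ = x := hγ
    rw [h3, hx, hy]
    exact hy₀

end Fermat.Agent.S55.CFT.H13
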