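/-
S55 / E4 / CFT package H3-UNITS (helper13), part 3: the inflation maps `J_L → J_N`, `C_L → C_N`
as morphisms of `Gal(N/K)`-modules, the two commutative squares with `E → J → C`, and the
transport of the fundamental class together with its inflation.
-/
import Fermat.Agent.S55.CFT.H13_FundInv
import Fermat.Agent.S55.CFT.H24_InfRes2
import Fermat.Agent.S55.CFT.Defs_BR3

set_option autoImplicit false
set_option linter.unusedSectionVars false
set_option linter.style.haveILetI false
open NumberField TensorProduct CategoryTheory CategoryTheory.Limits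

noncomputable section
namespace Fermat.Agent.S55.CFT.H13

open Fermat.Agent.S55.CFT

section Generic

variable {k G H Γ : Type} [CommRing k] [Group G] [Group H] [Group Γ]

/-- The inverse of `mapIso` followed by a map to a third pair. -/
theorem map_mapIso_inv (e : G ≃* H) (A : Rep.{0} k H) (B : Rep.{0} k G) (E : B.V ≃ₗ[k] A.V)
    (hE : ∀ g, E.toLinearMap ∘ₗ B.ρ g = A.ρ (e g) ∘ₗ E.toLinearMap)
    (C : Rep.{0} k Γ) (q : Γ →* H) (ι : Rep.res q A ⟶ C) (f : Γ →* G) (φ : Rep.res f B ⟶ C)
    (hq : ∀ σ, e (f σ) = q σ) (hι : ∀ b : B.V, ι.hom (E b) = φ.hom b) (n : ℕ)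
    (γ : groupCohomology A n) :
    (groupCohomology.map f φ n).hom
        ((groupCohomology.mapIso (A := A) (B := B) e E hE n).inv.hom γ) =
      (groupCohomology.map q ι n).hom γ := by
  obtain ⟨Ψi, hΨi⟩ : ∃ Ψi : Rep.res e.toMonoidHom A ⟶ B,
      (groupCohomology.mapIso (A := A) (B := B) e E hE n).inv =
        groupCohomology.map e.toMonoidHom Ψi n ∧ ∀ a : A.V, Ψi.hom a = E.symm a :=
    ⟨_, rfl, fun a => rfl⟩
  rw [hΨi.1]
  have hcomp := groupCohomology.map_comp (A := A) (B := B) (C := C) e.toMonoidHom f Ψi φ n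
  have hcongr : groupCohomology.map (e.toMonoidHom.comp f)
      ((Rep.resFunctor f).map Ψi ≫ φ) n = groupCohomology.map q ι n := by
    have hfg : e.toMonoidHom.comp f = q := MonoidHom.ext hq
    have hlin : ((Rep.resFunctor f).map Ψi ≫ φ).hom.toLinearMap = ι.hom.toLinearMap := by
      refine LinearMap.ext fun a => ?_
      change φ.hom (Ψi.hom a) = ι.hom a
      rw [← hι, hΨi.2, E.apply_symm_apply]
    exact groupCohomology.map_congr (A := A) (B := C) (f := e.toMonoidHom.comp f) (g := q)
      (φ := (Rep.resFunctor f).map Ψi ≫ φ) (ψ := ι) hfg hlin n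
  exact congrArg (fun m => m.hom γ) (hcomp.symm.trans hcongr)

/-- The inclusion `A^S → A` as a morphism of representations of `Γ`. -/
def infIncl (C : Rep.{0} k Γ) (S : Subgroup Γ) [S.Normal] :
    Rep.res (QuotientGroup.mk' S) (C.quotientToInvariants S) ⟶ C :=
  Rep.ofHom <| C.ρ.quotientToInvariants_lift S

theorem infIncl_apply (C : Rep.{0} k Γ) (S : Subgroup Γ) [S.Normal]
    (b : (C.quotientToInvariants S).V) : (infIncl C S).hom b = (b : C.V) := rfl

theorem inf₂_eq_map_infIncl (C : Rep.{0} k Γ) (S : Subgroup Γ) [S.Normal] :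
    H24.inf₂ C S = groupCohomology.map (QuotientGroup.mk' S) (infIncl C S) 2 := rfl

end Generic

attribute [local instance 1100] Rep.hV2

section Abstract

/-- Transport of a class of full order along an isomorphism of pairs (group, module), with the
compatibility of the transported class with maps to a third pair. -/
theorem exists_class_transport_abstract_lift {G H : Type} [Group G] [Group H] (e : G ≃* H)
    (A : Rep.{0} ℤ H) (B : Rep.{0} ℤ G) (Ψ : B ⟶ Rep.res e.toMonoidHom A)
    (hΨ : Function.Bijective Ψ.hom) (P : ℕ)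
    (γ : groupCohomology A 2) (hγ : ∀ k : ℕ, k • γ = 0 → P ∣ k) :
    ∃ γ₀ : groupCohomology B 2, (∀ k : ℕ, k • γ₀ = 0 → P ∣ k) ∧
      ∀ {Γ : Type} [Group Γ] (C : Rep.{0} ℤ Γ) (q : Γ →* H) (ι : Rep.res q A ⟶ C)
        (f : Γ →* G) (φ : Rep.res f B ⟶ C), (∀ σ, e (f σ) = q σ) →
        (∀ b : B.V, ι.hom (Ψ.hom b) = φ.hom b) →
        (groupCohomology.map f φ 2).hom γ₀ = (groupCohomology.map q ι 2).hom γ := by
  obtain ⟨E, hE⟩ : ∃ E : B.V ≃ₗ[ℤ] A.V, ∀ b, E b = Ψ.hom b :=
    ⟨LinearEquiv.ofBijective Ψ.hom.toLinearMap hΨ, fun b => rfl⟩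
  have hEcomm : ∀ g, E.toLinearMap ∘ₗ B.ρ g = A.ρ (e g) ∘ₗ E.toLinearMap := by
    intro g
    refine LinearMap.ext fun c => ?_
    change E (B.ρ g c) = A.ρ (e g) (E c)
    rw [hE, hE]
    exact Rep.hom_comm_apply Ψ g c
  obtain ⟨I, hI⟩ : ∃ I : groupCohomology B 2 ≅ groupCohomology A 2, I =
      groupCohomology.mapIso (A := A) (B := B) e E hEcomm 2 := ⟨_, rfl⟩
  refine ⟨I.inv.hom γ, ?_, ?_⟩
  · intro k hk
    apply hγ k
    have h1 := congrArg I.hom.hom hk
    rw [map_nsmul, map_zero] at h1
    have h2 : I.hom.hom (I.inv.hom γ) = γ := by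
      have := I.inv_hom_id
      exact congrArg (fun f => f.hom γ) this
    rw [h2] at h1
    exact h1
  · intro Γ _ C q ι f φ hq hι
    rw [hI]
    exact map_mapIso_inv e A B E hEcomm C q ι f φ hq (fun b => by rw [hE]; exact hι b) 2 γ

end Abstract

section Inf
variable (K L N : Type) [Field K] [Field L] [Field N] [NumberField K] [NumberField L]
  [NumberField N] [Algebra K L] [Algebra L N] [Algebra K N] [IsScalarTower K L N]
  (T : Finset Nat.Primes)

/-- Inflation `J_{L,T} → J_{N,T}` as a morphism of `Gal(N/K)`-modules. -/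
def infRepJ [Normal K L] :
    Rep.res (AlgEquiv.restrictNormalHom (F := K) (K₁ := N) L) (repJ K L T) ⟶ repJ K N T :=
  Rep.ofHom (LinearMap.intertwiningMap_of_isIntertwiningMap _ _
    ((baseIdele L N T).toAdditive.toIntLinearMap)
    (fun τ x => congrArg Additive.ofMul
      (smul_baseIdele_tower K L N T τ (Additive.toMul x : IdeleT L T)).symm))

theorem infRepJ_apply [Normal K L] (j : Additive (IdeleT L T)) :
    (infRepJ K L N T).hom j =
      Additive.ofMul (baseIdele L N T (Additive.toMul j : IdeleT L T)) := rfl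

variable [IsGalois K L] [IsGalois K N]

/-- The additive map `C_{L,T} → C_{N,T}`. -/
def infCAdd : (repC K L T).V →+ (repC K N T).V where
  toFun c := (((clsMap K L N T).hom c : (quotC K L N T).V) : (repC K N T).V)
  map_zero' := by rw [map_zero]; rfl
  map_add' x y := by rw [map_add]; rfl

theorem infCAdd_idClass (j : IdeleT L T) :
    infCAdd K L N T (H12.idClass K L T j) = H12.idClass K N T (baseIdele L N T j) :=
  clsMap_idClass K L N T j

/-- Inflation `C_{L,T} → C_{N,T}` as a morphism of `Gal(N/K)`-modules. -/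
def infRepC :
    Rep.res (AlgEquiv.restrictNormalHom (F := K) (K₁ := N) L) (repC K L T) ⟶ repC K N T :=
  mkHomZ (A := Rep.res (AlgEquiv.restrictNormalHom (F := K) (K₁ := N) L) (repC K L T))
    (B := repC K N T) (infCAdd K L N T) (fun σ c => by
      obtain ⟨j, rfl⟩ := H12.idClass_surjective K L T c
      rw [Rep.coe_res_obj_ρ', ← H12.idClass_smul, infCAdd_idClass, infCAdd_idClass,
        ← smul_baseIdele_tower, H12.idClass_smul])

theorem infRepC_idClass (j : IdeleT L T) :
    (infRepC K L N T).hom (H12.idClass K L T j) = H12.idClass K N T (baseIdele L N T j) :=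
  infCAdd_idClass K L N T j

theorem infRepC_eq_clsMap (c : (repC K L T).V) :
    (infRepC K L N T).hom c = (((clsMap K L N T).hom c : (quotC K L N T).V) : (repC K N T).V) :=
  rfl

/-- The square `E → J` commutes with inflation. -/
theorem infRep_sq12 :
    (Rep.resFunctor (AlgEquiv.restrictNormalHom (F := K) (K₁ := N) L)).map (diagRep K L T) ≫
      infRepJ K L N T = infRepE K L N T ≫ diagRep K N T := by
  refine Rep.hom_ext (DFunLike.ext _ _ fun x => ?_)
  change Additive.ofMul (baseIdele L N T (diagIdele L T ((Additive.toMul x : TUnits L T) : Lˣ))) =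
    Additive.ofMul (diagIdele N T
      ((tUnitsMap L N T (Additive.toMul x : TUnits L T) : TUnits N T) : Nˣ))
  rw [H12.baseIdele_diagIdele]
  rfl

/-- The square `J → C` commutes with inflation. -/
theorem infRep_sq23 :
    (Rep.resFunctor (AlgEquiv.restrictNormalHom (F := K) (K₁ := N) L)).map (toC K L T) ≫
      infRepC K L N T = infRepJ K L N T ≫ toC K N T := by
  refine Rep.hom_ext (DFunLike.ext _ _ fun x => ?_)
  exact infRepC_idClass K L N T (Additive.toMul x)

/-- Transport of a class of full order from `H²(Gal(N/K)/Gal(N/L), (C_N)^{Gal(N/L)})` to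
`H²(Gal(L/K), C_L)`; the inflation of the transported class to `Gal(N/K)` is the inflation of the
given class. -/
theorem exists_class_transport_lift [IsGalois L N] (hunr : UnramifiedOutsideT L N T)
    (hcl : ClTrivial L T) (hT : T.Nonempty) (P : ℕ)
    (γ : groupCohomology (quotC K L N T) 2) (hγ : ∀ k : ℕ, k • γ = 0 → P ∣ k) :
    ∃ γ₀ : groupCohomology (repC K L T) 2, (∀ k : ℕ, k • γ₀ = 0 → P ∣ k) ∧
      (groupCohomology.map (AlgEquiv.restrictNormalHom (F := K) (K₁ := N) L)
          (infRepC K L N T) 2).hom γ₀ =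
        (H24.inf₂ (repC K N T) (kerRes K L N)).hom γ := by
  obtain ⟨γ₀, h1, h2⟩ := exists_class_transport_abstract_lift (galQuot K L N) (quotC K L N T)
    (repC K L T) (clsMap K L N T)
    ⟨clsMap_injective K L N T hT, clsMap_surjective K L N T hunr hcl hT⟩ P γ hγ
  refine ⟨γ₀, h1, ?_⟩
  rw [inf₂_eq_map_infIncl]
  exact h2 (repC K N T) (QuotientGroup.mk' (kerRes K L N))
    (infIncl (repC K N T) (kerRes K L N))
    (AlgEquiv.restrictNormalHom (F := K) (K₁ := N) L) (infRepC K L N T)
    (fun σ => galQuot_restrict K L N σ) (fun b => rfl)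

end Inf

end Fermat.Agent.S55.CFT.H13
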