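/-
S55 package E4, island GLB, wave 3, leaf LU = VAL-b (functoriality): the local component at
`v ∣ T` of the image in `Hⁿ(G, Lˣ)` of a class of `Hⁿ(G, O_{L,T}ˣ)` is the `v`-component of its
image in `Hⁿ(G, J_{L,T})`.  Owner: helper56.
-/
import Fermat.Agent.S55.CFT.Defs_BR2

set_option autoImplicit false

open NumberField TensorProduct CategoryTheory

noncomputable section
namespace Fermat.Agent.S55.CFT.H56

open Fermat.Agent.S55.CFT

variable (K L : Type) [Field K] [Field L] [NumberField K] [NumberField L] [Algebra K L]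

/-- The square `E → Lˣ → J_v`, `E → J → J_v` commutes. -/
lemma unitsToL_locRep (T : Finset Nat.Primes) (q : T)
    (v : MaximalSpectrum (SemiLocal K q.1)) :
    unitsToL K L T ≫ locRep K L ⟨q.1, v⟩ = diagRep K L T ≫ projRep K L T q v := by
  ext x
  rfl

/-- **LU** (`Stmt_LocUnits`). -/
theorem stmt_LocUnits : Stmt_LocUnits := by
  intro K L _ _ _ _ _ T n q v e
  have h := congrArg (fun f => ((groupCohomology.functor ℤ (L ≃ₐ[K] L) n).map f).hom e)
    (unitsToL_locRep K L T q v)
  simp only [Functor.map_comp] at h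
  exact h

end Fermat.Agent.S55.CFT.H56
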