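/-
S55 package E4, island GLB, wave 3, wiring W-Hasse and W-One: the exports BR-Hasse and BR-One from
the leaves VAL-a (`Stmt_ValExact`), SLD (`Stmt_SLD`), CF-ind (`Stmt_CFind`), GoodT (`Stmt_GoodT`).
Owner: helper56.

* `seqEJC_shortExact`: `0 → E → J → C → 0` is short exact in `Rep ℤ G` (`T ≠ ∅`);
* `diagMap_injective`: `Hⁿ(G, C) = 0 ⟹ Hⁿ⁺¹(G, E) ↪ Hⁿ⁺¹(G, J)`;
* `toCMap_diagMap`: `Hⁿ(E) → Hⁿ(J) → Hⁿ(C)` is zero;
* `resMap_top_injective`, `subsingleton_of_resSub_top`: restriction to the subgroup `⊤`;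
* `stmt_BrHasse_of`, `stmt_BrOne_of`.
-/
import Fermat.Agent.S55.CFT.Defs_BR2
import Fermat.Agent.S55.CFT.H56_IdeleBase
import Fermat.Agent.S55.CFT.H56_LocUnits
import Fermat.Agent.S55.CFT.H56_Hyp2

set_option autoImplicit false
set_option linter.style.haveILetI false

open NumberField TensorProduct CategoryTheory CategoryTheory.Limits

noncomputable section
namespace Fermat.Agent.S55.CFT.H56

open Fermat.Agent.S55.CFT groupCohomology

/-! ### Restriction to `⊤` -/

/-- Restriction to the subgroup `⊤` is injective (generic coefficient ring). -/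
lemma res_top_injective {k : Type} [CommRing k] {G : Type} [Group G] (A : Rep.{0} k G) (n : ℕ) :
    Function.Injective (groupCohomology.map (Subgroup.subtype (⊤ : Subgroup G))
      (𝟙 (Rep.res (Subgroup.subtype (⊤ : Subgroup G)) A)) n).hom := by
  let ε : G →* (⊤ : Subgroup G) := (Subgroup.topEquiv (G := G)).symm.toMonoidHom
  let ψ : Rep.res ε (Rep.res (Subgroup.subtype (⊤ : Subgroup G)) A) ⟶ A :=
    Rep.ofHom ⟨LinearMap.id, fun g => rfl⟩
  have hcomp := groupCohomology.map_comp (A := A)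
    (B := Rep.res (Subgroup.subtype (⊤ : Subgroup G)) A) (C := A)
    (Subgroup.subtype (⊤ : Subgroup G)) ε (𝟙 _) ψ n
  have hid : groupCohomology.map ((Subgroup.subtype (⊤ : Subgroup G)).comp ε)
      ((Rep.resFunctor ε).map (𝟙 (Rep.res (Subgroup.subtype (⊤ : Subgroup G)) A)) ≫ ψ) n
        = 𝟙 _ := by
    rw [← groupCohomology.map_id (B := A) (n := n)]
    apply groupCohomology.map_congr
    · ext g
      rfl
    · rfl
  rw [hid] at hcomp
  intro x y hxy
  have h1 := congrArg (fun f => f.hom x) hcomp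
  have h2 := congrArg (fun f => f.hom y) hcomp
  simp only [ModuleCat.hom_id, LinearMap.id_coe, id_eq, ModuleCat.hom_comp,
    LinearMap.coe_comp, Function.comp_apply] at h1 h2
  rw [h1, h2]
  exact congrArg _ hxy

lemma resMap_top_injective {G : Type} [Group G] (A : Rep ℤ G) (n : ℕ) :
    Function.Injective (resMap A (⊤ : Subgroup G) n) :=
  res_top_injective A n

lemma subsingleton_of_resSub_top {G : Type} [Group G] (A : Rep ℤ G) (n : ℕ)
    (h : Subsingleton (groupCohomology (resSub A (⊤ : Subgroup G)) n)) :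
    Subsingleton (groupCohomology A n) :=
  ⟨fun _ _ => resMap_top_injective A n (Subsingleton.elim _ _)⟩

/-! ### The sequence `0 → E → J → C → 0` -/

variable (K L : Type) [Field K] [Field L] [NumberField K] [NumberField L] [Algebra K L]

/-- `0 → E → J → C → 0` is short exact (for `T ≠ ∅`). -/
lemma seqEJC_shortExact (T : Finset Nat.Primes) (hT : T.Nonempty) :
    (ShortComplex.mk (diagRep K L T) (toC K L T) (cokernel.condition _)).ShortExact where
  exact := ShortComplex.exact_cokernel _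
  mono_f := by
    rw [Rep.mono_iff_injective]
    intro x y h
    have h1 : diagIdele L T ((Additive.toMul x : TUnits L T) : Lˣ) =
        diagIdele L T ((Additive.toMul y : TUnits L T) : Lˣ) := congrArg Additive.toMul h
    have h2 := diagIdele_injective L T hT h1
    exact congrArg Additive.ofMul (Subtype.ext h2)
  epi_g := by
    change Epi (cokernel.π (diagRep K L T))
    infer_instance

/-- If `Hⁿ(G, C) = 0` then `Hⁿ⁺¹(G, E) → Hⁿ⁺¹(G, J)` is injective. -/
lemma diagMap_injective (T : Finset Nat.Primes) (hT : T.Nonempty) (n : ℕ)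
    (h : Subsingleton (groupCohomology (repC K L T) n)) :
    Function.Injective (diagMap K L T (n + 1)) := by
  have hX := seqEJC_shortExact K L T hT
  have hex := mapShortComplex₁_exact hX (i := n) (j := n + 1) rfl
  have hzero : (mapShortComplex₁ hX (i := n) (j := n + 1) rfl).f = 0 := by
    haveI : Subsingleton ↑(mapShortComplex₁ hX (i := n) (j := n + 1) rfl).X₁ := h
    apply (ModuleCat.isZero_of_subsingleton _).eq_of_src
  have hmono := hex.mono_g hzero
  exact (ModuleCat.mono_iff_injective _).1 hmono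

/-- `Hⁿ(G, E) → Hⁿ(G, J) → Hⁿ(G, C)` is zero. -/
lemma toCMap_diagMap (T : Finset Nat.Primes) (n : ℕ) (e : groupCohomology (repE K L T) n) :
    toCMap K L T n (diagMap K L T n e) = 0 := by
  have h := (mapShortComplex₂
    (ShortComplex.mk (diagRep K L T) (toC K L T) (cokernel.condition _)) n).zero
  have h2 := congrArg (fun f => f.hom e) h
  exact h2

/-- The kernel of `Hⁿ(G, J) → Hⁿ(G, C)` is the image of `Hⁿ(G, E)` (for `T ≠ ∅`). -/
lemma exists_diagMap_eq (T : Finset Nat.Primes) (hT : T.Nonempty) (n : ℕ)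
    (y : groupCohomology (repJ K L T) n) (hy : toCMap K L T n y = 0) :
    ∃ e : groupCohomology (repE K L T) n, diagMap K L T n e = y := by
  have hX := seqEJC_shortExact K L T hT
  have hex := mapShortComplex₂_exact hX n
  rw [ShortComplex.moduleCat_exact_iff] at hex
  exact hex y hy

/-! ### W-Hasse -/

/-- **W-Hasse**: BR-Hasse from VAL-a, SLD, CF-ind. -/
theorem stmt_BrHasse_of (hVal : Stmt_ValExact) (hSLD : Stmt_SLD) (hCF : Stmt_CFind) :
    Stmt_BrHasse := by
  intro p m K L _ _ _ _ _ h3 x hx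
  haveI := h3.gal
  have hcplx := isTotallyComplex_of_primitiveRoot p h3.prime h3.odd K h3.zeta
  obtain ⟨T, -, hadm⟩ := stmt_AdmissibleExists p K L ∅ h3.prime h3.gal hcplx
  have hT : T.Nonempty := by
    obtain ⟨q, hq, -⟩ := hadm.pmem
    exact ⟨q, hq⟩
  obtain ⟨e, rfl⟩ := hVal p K L T hadm x (fun v _ => hx v)
  have hcomp : ∀ (q : T) (v : MaximalSpectrum (SemiLocal K q.1)),
      projMap K L T q v 2 (diagMap K L T 2 e) = 0 := by
    intro q v
    rw [← stmt_LocUnits K L T 2 q v e]
    exact hx ⟨q.1, v⟩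
  have h0 : diagMap K L T 2 e = 0 := (hSLD K L T 2).1 _ hcomp
  have hH1 : Subsingleton (groupCohomology (repC K L T) 1) :=
    subsingleton_of_resSub_top _ 1 ((hCF p m K L T h3.prime h3.deg hadm ⊤).1)
  have hinj := diagMap_injective K L T hT 1 hH1
  have he : e = 0 := hinj (by rw [h0, map_zero])
  rw [he, map_zero]

/-! ### W-One -/

/-- **W-One**: BR-One from GoodT and VAL-a. -/
theorem stmt_BrOne_of (hGood : Stmt_GoodT) (hVal : Stmt_ValExact) : Stmt_BrOne := by
  intro p m K L _ _ _ _ _ h3 x v₀ hx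
  obtain ⟨q₀, w₀⟩ := v₀
  obtain ⟨M, hne, T, -, hT0, hyp2, -, hinj, -, -⟩ := hGood p m K L h3 {q₀} 0
  have hq₀T : q₀ ∈ T := hT0 (Finset.mem_singleton_self q₀)
  have hadm := hyp2.adm
  obtain ⟨e, rfl⟩ := hVal p K L T hadm x (fun v hv => hx v (by
    rintro rfl
    exact hv hq₀T))
  have key := hinj (diagMap K L T 2 e) (toCMap_diagMap K L T 2 e) ⟨q₀, hq₀T⟩ w₀ (by
    intro q v hne'
    rw [← stmt_LocUnits K L T 2 q v e]
    apply hx
    intro heq
    apply hne'
    obtain ⟨q, hq⟩ := q
    obtain ⟨h1, h2⟩ := Sigma.mk.inj_iff.1 heq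
    simp only at h1
    subst h1
    rw [heq_iff_eq] at h2
    subst h2
    rfl)
  rw [stmt_LocUnits K L T 2 ⟨q₀, hq₀T⟩ w₀ e]
  exact key

end Fermat.Agent.S55.CFT.H56
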