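/-
S55 / E4 / CFT package H3-UNITS (helper13), part 4: `Stmt_H3Units`.
`H³(G, J_L) = 0` (SHL, SLD), so every class of `H³(G, E_L)` is `δ c` with `c ∈ H²(G, C_L)`;
`c = n γ₀` (CF-ind, COR, FUND); the inflation of `γ₀` to `Gal(N/K)`, `N = L(ζ_{p^M})`, is the image
of a class of `H²(Gal(N/K), J_N)` (by the construction of `γ₀`), hence killed by `δ`.
-/
import Fermat.Agent.S55.CFT.H13_H3UAbs
import Fermat.Agent.S55.CFT.H13_H3UFund
import Fermat.Agent.S55.CFT.H13_H3UInf
import Fermat.Agent.S55.CFT.H13_CFp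
import Fermat.Agent.S55.CFT.H56_WHasse
import Fermat.Agent.S55.CFT.H58_SHL
import Fermat.Agent.S55.CFT.H80_SLD

set_option autoImplicit false
set_option linter.unusedSectionVars false
set_option linter.style.haveILetI false
open NumberField TensorProduct CategoryTheory CategoryTheory.Limits

noncomputable section
namespace Fermat.Agent.S55.CFT.H13

open Fermat.Agent.S55.CFT

attribute [local instance 1100] Rep.hV2

section Main
variable (K L N : Type) [Field K] [Field L] [Field N] [NumberField K] [NumberField L]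
  [NumberField N] [Algebra K L] [Algebra L N] [Algebra K N] [IsScalarTower K L N]

/-- **FUND** with its by-product: the inflation of the fundamental class to `Gal(N/K)` comes
from `H²(Gal(N/K), J_N)`. -/
theorem fund_of_tower_lift (hCF : Stmt_CFind) (hCyc : Stmt_CycRec) (hTN : Stmt_ThetaNorm)
    (p : Nat.Primes) (m M : ℕ) [NeZero ((p : ℕ) ^ M)] [IsCyclotomicExtension {(p : ℕ) ^ M} L N]
    (T : Finset Nat.Primes)
    (hodd : (p : ℕ) ≠ 2) (hz : ∃ ζ : K, IsPrimitiveRoot ζ (p : ℕ))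
    (hdeg : Module.finrank K L = (p : ℕ) ^ m)
    (hadm : Admissible K L T p) (hadmN : Admissible K N T p)
    (x : IdeleT K T) (hx : orderOf (cycloTheta K p M T x) = (p : ℕ) ^ m) :
    haveI : IsGalois K L := hadm.gal
    haveI : IsGalois K N := hadmN.gal
    ∃ γ : groupCohomology (repC K L T) 2, (∀ k : ℕ, k • γ = 0 → (p : ℕ) ^ m ∣ k) ∧
      ∃ y : groupCohomology (repJ K N T) 2,
        (groupCohomology.map (AlgEquiv.restrictNormalHom (F := K) (K₁ := N) L)
          (infRepC K L N T) 2).hom γ =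
        (groupCohomology.map (MonoidHom.id (N ≃ₐ[K] N)) (toC K N T) 2).hom y := by
  classical
  have hp : (p : ℕ).Prime := p.2
  haveI : IsGalois K L := hadm.gal
  haveI : IsGalois K N := hadmN.gal
  haveI : IsGalois L N := IsGalois.tower_top_of_isGalois K L N
  obtain ⟨ζ, hζ⟩ : ∃ ζ : N, IsPrimitiveRoot ζ ((p : ℕ) ^ M) :=
    ⟨_, IsCyclotomicExtension.zeta_spec ((p : ℕ) ^ M) L N⟩
  haveI hcycK : IsCyclotomicExtension {(p : ℕ) ^ M} K ↥(IntermediateField.adjoin K {ζ}) :=
    hζ.intermediateField_adjoin_isCyclotomicExtension K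
  haveI : IsGalois K ↥(IntermediateField.adjoin K {ζ}) :=
    IsCyclotomicExtension.isGalois {(p : ℕ) ^ M} K _
  haveI : IsGalois ↥(IntermediateField.adjoin K {ζ}) N :=
    IsGalois.tower_top_of_isGalois K ↥(IntermediateField.adjoin K {ζ}) N
  have hmem : ζ ∈ IntermediateField.adjoin K {ζ} :=
    IntermediateField.mem_adjoin_simple_self K ζ
  have hζ' : IsPrimitiveRoot (⟨ζ, hmem⟩ : ↥(IntermediateField.adjoin K {ζ})) ((p : ℕ) ^ M) := by
    have : IsPrimitiveRoot (algebraMap ↥(IntermediateField.adjoin K {ζ}) N ⟨ζ, hmem⟩)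
        ((p : ℕ) ^ M) := hζ
    exact this.of_map_of_injective (algebraMap ↥(IntermediateField.adjoin K {ζ}) N).injective
  -- admissibility
  have hadmL : Admissible L N T p := H56.admissible_up K L N T p hadmN
  have hadmF : Admissible ↥(IntermediateField.adjoin K {ζ}) N T p :=
    H56.admissible_up K ↥(IntermediateField.adjoin K {ζ}) N T p hadmN
  obtain ⟨q, hqT, hqp⟩ := hadm.pmem
  have hq : q = p := Subtype.ext hqp
  rw [hq] at hqT
  have hT : T.Nonempty := ⟨_, hqT⟩
  -- the symbol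
  have hθu : ∀ e ∈ TUnits K T, H56.cycloThetaHom K p M T (diagIdele K T e) = 1 :=
    H56.stmt_ThetaUnits p M K T hqT hadm.cplx
  have hθn : ∀ w : IdeleT ↥(IntermediateField.adjoin K {ζ}) T,
      H56.cycloThetaHom K p M T (normLK K ↥(IntermediateField.adjoin K {ζ}) T w) = 1 := by
    intro w
    exact (H56.cycloTheta_normLK K ↥(IntermediateField.adjoin K {ζ}) p M T w).trans
      (hTN p M ↥(IntermediateField.adjoin K {ζ}) T hodd ⟨_, hζ'⟩ w)
  -- the groups
  have hcyc : IsCyclic ((N ≃ₐ[K] N) ⧸ kerRes K ↥(IntermediateField.adjoin K {ζ}) N) :=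
    isCyclic_quot_kerRes K N p M hp hodd hζ
  have hint : kerRes K L N ⊓ kerRes K ↥(IntermediateField.adjoin K {ζ}) N = ⊥ :=
    kerRes_inf_eq_bot K L N ((p : ℕ) ^ M) hζ _ hmem
  obtain ⟨m', hm'⟩ := finrank_tower_prime_pow K L N p m M hp hz hdeg
  have hS := (hCF p m' K N T hp hm' hadmN (kerRes K L N)).1
  have hS' := (hCF p m' K N T hp hm' hadmN (kerRes K ↥(IntermediateField.adjoin K {ζ}) N)).1
  -- the class
  have hπb : (toC K N T).hom (Additive.ofMul (baseIdele K N T x) : Additive (IdeleT N T)) =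
      H12.idClass K N T (baseIdele K N T x) := rfl
  have hb : ∀ g : N ≃ₐ[K] N, (repJ K N T).ρ g
      (Additive.ofMul (baseIdele K N T x) : Additive (IdeleT N T)) =
      (Additive.ofMul (baseIdele K N T x) : Additive (IdeleT N T)) := by
    intro g
    exact congrArg Additive.ofMul (H12.smul_baseIdele K N T g x)
  letI : Fintype ((N ≃ₐ[K] N) ⧸ kerRes K ↥(IntermediateField.adjoin K {ζ}) N) :=
    Fintype.ofFinite _
  letI : Fintype (kerRes K L N) := Fintype.ofFinite _
  have h1 : ∀ k : ℕ, (∃ b : ((repC K N T).quotientToInvariants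
        (kerRes K ↥(IntermediateField.adjoin K {ζ}) N)).V,
      k • (toC K N T).hom (Additive.ofMul (baseIdele K N T x) : Additive (IdeleT N T)) =
        ((∑ y : (N ≃ₐ[K] N) ⧸ kerRes K ↥(IntermediateField.adjoin K {ζ}) N,
          ((repC K N T).quotientToInvariants
            (kerRes K ↥(IntermediateField.adjoin K {ζ}) N)).ρ y b :
          ((repC K N T).quotientToInvariants
            (kerRes K ↥(IntermediateField.adjoin K {ζ}) N)).V) : (repC K N T).V)) →
      (p : ℕ) ^ m ∣ k := by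
    rintro k ⟨b, hb⟩
    rw [hπb] at hb
    have h := symbol_pow_eq_one_of_norm K ↥(IntermediateField.adjoin K {ζ}) N T hadmF.unr
      (hadmF.cl _) hT (H56.cycloThetaHom K p M T) hθu hθn x k b hb
    rw [← hx]
    exact orderOf_dvd_of_pow_eq_one h
  have h2 : ∃ b : (repC K N T).V,
      (toC K N T).hom (Additive.ofMul (baseIdele K N T x) : Additive (IdeleT N T)) =
      ∑ s : kerRes K L N, (repC K N T).ρ (s : N ≃ₐ[K] N) b := by
    rw [hπb]
    apply class_eq_norm_of_mem_normGroup K L N T hT x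
    refine (hCyc p M L N T hodd inferInstance hadmL _).2 ?_
    rw [H56.cycloTheta_base K L p M T x, hdeg, ← hx]
    exact pow_orderOf_eq_one _
  obtain ⟨γ, hγ, y, hy⟩ := fund_abstract_lift (repC K N T) (kerRes K L N)
    (kerRes K ↥(IntermediateField.adjoin K {ζ}) N) (repJ K N T) (toC K N T) hcyc hint hS hS'
    (Additive.ofMul (baseIdele K N T x) : Additive (IdeleT N T)) hb ((p : ℕ) ^ m) h1 h2
  obtain ⟨γ₀, hγ₀, hinf⟩ := exists_class_transport_lift K L N T hadmL.unr (hadmL.cl L) hT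
    ((p : ℕ) ^ m) γ hγ
  exact ⟨γ₀, hγ₀, y, hinf.trans hy⟩

end Main

/-- `H³(G, J_{L,T}) = 0` (SHL, SLD). -/
theorem subsingleton_H3_repJ (hSHL : Stmt_SHL) (hSLD : Stmt_SLD) (p m : ℕ) (K L : Type)
    [Field K] [Field L] [NumberField K] [NumberField L] [Algebra K L] (T : Finset Nat.Primes)
    (h3 : Hyp3 K L p m) : Subsingleton (groupCohomology (repJ K L T) 3) := by
  have key : ∀ z : groupCohomology (repJ K L T) 3, z = 0 := fun z =>
    (hSLD K L T 3).1 z (fun q v => by
      haveI := (hSHL p m K L h3 ⟨q.1, v⟩).2.2.2.2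
      exact Subsingleton.elim _ _)
  exact ⟨fun x y => by rw [key x, key y]⟩

/-- Every class of `H²(G, C)` is a multiple of a class of order divisible by `#G`, if
`#H²(H, C) ∣ #H` for all subgroups `H`. -/
theorem exists_zsmul_eq_of_order {G : Type} [Group G] [Finite G] (C : Rep ℤ G)
    (γ : groupCohomology C 2) (hγ : ∀ k : ℕ, k • γ = 0 → Nat.card G ∣ k)
    (hcard : ∀ H : Subgroup G, Finite (groupCohomology (resSub C H) 2) ∧
      Nat.card (groupCohomology (resSub C H) 2) ∣ Nat.card H)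
    (c : groupCohomology C 2) : ∃ n : ℤ, c = n • γ := by
  obtain ⟨n, hn⟩ := (cfp_abstract H58.stmt_CorRes C γ hγ hcard ⊤).2 (resMap C ⊤ 2 c)
  refine ⟨n, H56.resMap_top_injective C 2 ?_⟩
  rw [hn, map_zsmul]

/-- **H3-UNITS** (`Stmt_H3Units`) from SHL, SLD, CF-ind, CYC and TH-2. -/
theorem stmt_H3Units_of (hSHL : Stmt_SHL) (hSLD : Stmt_SLD) (hCF : Stmt_CFind)
    (hCyc : Stmt_CycRec) (hTN : Stmt_ThetaNorm) : Stmt_H3Units := by
  intro p m M _ K L _ _ _ _ _ T hyp e
  have hp := hyp.prime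
  haveI : IsGalois K L := hyp.adm.gal
  haveI : IsGalois K (CyclotomicField (p ^ M) L) := hyp.admCyc.gal
  have hT : T.Nonempty := by
    obtain ⟨q, hq, -⟩ := hyp.adm.pmem
    exact ⟨q, hq⟩
  have hd : Module.finrank K (CyclotomicField (p ^ M) K) ≤
      Nat.card (Set.range (H56.cycloThetaHom K ⟨p, hp⟩ M T)) :=
    H56.stmt_ThetaOnto ⟨p, hp⟩ M K (CyclotomicField (p ^ M) K) T hyp.odd inferInstance
      hyp.admCycK
  obtain ⟨x, hx⟩ := exists_orderOf_eq_prime_pow p M m hp hyp.odd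
    (H56.cycloThetaHom K ⟨p, hp⟩ M T) _ hd hyp.big Module.finrank_pos.ne'
  obtain ⟨γ₀, hγ₀, y₀, hy₀⟩ := fund_of_tower_lift K L (CyclotomicField (p ^ M) L) hCF hCyc hTN
    ⟨p, hp⟩ m M T hyp.odd hyp.zeta hyp.deg hyp.adm hyp.admCyc x hx
  have hcard : Nat.card (L ≃ₐ[K] L) = p ^ m := by
    rw [IsGalois.card_aut_eq_finrank, hyp.deg]
  have hgen : ∀ c : groupCohomology (repC K L T) 2, ∃ n : ℤ, c = n • γ₀ :=
    exists_zsmul_eq_of_order (repC K L T) γ₀ (fun k hk => hcard ▸ hγ₀ k hk)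
      (fun H' => (hCF p m K L T hyp.prime hyp.deg hyp.adm H').2)
  have h3 : Hyp3 K L p m := ⟨hyp.prime, hyp.odd, hyp.zeta, hyp.adm.gal, hyp.deg⟩
  have hz := subsingleton_H3_repJ hSHL hSLD p m K L T h3
  have hXL := H56.seqEJC_shortExact K L T hT
  have hXN := H56.seqEJC_shortExact K (CyclotomicField (p ^ M) L) T hT
  refine map_eq_zero_of_lift
    (AlgEquiv.restrictNormalHom (F := K) (K₁ := CyclotomicField (p ^ M) L) L) hXL hXN
    (infRepE K L (CyclotomicField (p ^ M) L) T) (infRepJ K L (CyclotomicField (p ^ M) L) T)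
    (infRepC K L (CyclotomicField (p ^ M) L) T)
    (infRep_sq12 K L (CyclotomicField (p ^ M) L) T)
    (infRep_sq23 K L (CyclotomicField (p ^ M) L) T) 2 hz ?_ e
  intro c
  obtain ⟨n, rfl⟩ := hgen c
  refine ⟨n • y₀, ?_⟩
  rw [map_zsmul, map_zsmul, hy₀]

/-- **H3-UNITS** from CF-ind and CYC (SHL, SLD, TH-2 are proved). -/
theorem stmt_H3Units_of' (hCF : Stmt_CFind) (hCyc : Stmt_CycRec) : Stmt_H3Units :=
  stmt_H3Units_of H58.stmt_SHL H80.stmt_SLD hCF hCyc H25.stmt_ThetaNorm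

/-- **H3-UNITS** from the two open leaves `Stmt_JCyclic` and `Stmt_SIindex`. -/
theorem stmt_H3Units_of_leaves (hJC : Stmt_JCyclic) (hSI : Stmt_SIindex) : Stmt_H3Units :=
  stmt_H3Units_of' (stmt_CFind_of_leaves hJC hSI) (H56.stmt_CycRec H25.stmt_ThetaNorm hSI)

end Fermat.Agent.S55.CFT.H13
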