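/-
S55 / E4 / CFT wave 3, leaf VAL-d (helper19): `stmt_ValH3 : Stmt_ValH3`.

For admissible `T`, `H³(G, O_{L,T}ˣ) → H³(G, Lˣ)` is onto: the valuation sequence
`0 → O_{L,T}ˣ → Lˣ → Div^T(L) → 0` is exact (`Cl_T(L) = 1`) and `H³(G, Div^T(L)) = 0` because
`Div^T(L)` is a permutation module with cyclic stabilizers (`L/K` is unramified outside `T`).
-/
import Fermat.Agent.S55.CFT.H19_ValSeq

set_option autoImplicit false
set_option linter.unusedSectionVars false
set_option linter.unusedVariables false
set_option linter.style.haveILetI false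

open NumberField IsDedekindDomain CategoryTheory

noncomputable section

namespace Fermat.Agent.S55.CFT.H19

open Fermat.Agent.S55.CFT

/-- `Hⁱ(G, Div^T(L)) = 0` for odd `i`, if `L/K` is unramified outside `T`. -/
theorem isZero_divRep_odd (K L : Type) [Field K] [Field L] [NumberField K] [NumberField L]
    [Algebra K L] (T : Finset Nat.Primes) (hunr : UnramifiedOutsideT K L T) (i : ℕ)
    (hi : Odd i) : Limits.IsZero (groupCohomology (divRep K L T) i) := by
  haveI : FiniteDimensional K L := Module.Finite.of_restrictScalars_finite ℚ K L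
  haveI : Finite (L ≃ₐ[K] L) := inferInstance
  refine isZero_permObj_odd (k := ℤ) (fun m a hm h => ?_) (PrimeOut L T)
    (isCyclic_stabilizer K L T hunr) i hi
  rcases smul_eq_zero.1 h with h1 | h1
  · exact absurd h1 hm
  · exact h1

/-- **VAL-d**. -/
theorem stmt_ValH3 : Stmt_ValH3 := by
  intro p K L _ _ _ _ _ T hadm x
  have hses := valSeq_shortExact K L T (hadm.cl L)
  have hex := groupCohomology.mapShortComplex₂_exact hses 3
  rw [ShortComplex.moduleCat_exact_iff] at hex
  have hz := isZero_divRep_odd K L T hadm.unr 3 (by decide)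
  have hsub := ModuleCat.isZero_iff_subsingleton.1 hz
  obtain ⟨e, he⟩ := hex x (hsub.elim _ _)
  exact ⟨e, he⟩

end Fermat.Agent.S55.CFT.H19
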