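/-
S55 package E4, island GLB, wave 3, wiring W-H3 (helper61):
`Stmt_Hyp2Exists → Stmt_H3Units → Stmt_ValH3 → Stmt_BrH3`.

* `infL_unitsMap` : in a tower `K ⊆ L ⊆ N` (`L/K` normal) inflation commutes with the maps
  induced by `O_{·,T}ˣ → ·ˣ`:  `infL ∘ unitsMap_L = unitsMap_N ∘ infE`;
* `stmt_BrH3_of`.
-/
import Fermat.Agent.S55.CFT.Defs_BR3

set_option autoImplicit false
set_option linter.style.haveILetI false
set_option linter.unusedSectionVars false

open NumberField TensorProduct CategoryTheory

noncomputable section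

namespace Fermat.Agent.S55.CFT.H61

open Fermat.Agent.S55.CFT groupCohomology

section tower

variable (K L N : Type) [Field K] [Field L] [Field N] [NumberField K] [NumberField L]
  [NumberField N] [Algebra K L] [Algebra K N] [Algebra L N] [IsScalarTower K L N] [Normal K L]

/-- Inflation commutes with the maps induced by the inclusions of the `T`-units. -/
theorem infL_unitsMap (T : Finset Nat.Primes) (n : ℕ) (e : groupCohomology (repE K L T) n) :
    infL K L N n (unitsMap K L T n e) = unitsMap K N T n (infE K L N T n e) := by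
  have h1 := groupCohomology.map_comp (A := repE K L T) (B := repL K L) (C := repL K N)
    (MonoidHom.id (L ≃ₐ[K] L)) (AlgEquiv.restrictNormalHom (F := K) (K₁ := N) L)
    (unitsToL K L T) (infRepL K L N) n
  have h2 := groupCohomology.map_comp (A := repE K L T) (B := repE K N T) (C := repL K N)
    (AlgEquiv.restrictNormalHom (F := K) (K₁ := N) L) (MonoidHom.id (N ≃ₐ[K] N))
    (infRepE K L N T) (unitsToL K N T) n
  have h3 : groupCohomology.map
      ((MonoidHom.id (L ≃ₐ[K] L)).comp (AlgEquiv.restrictNormalHom (F := K) (K₁ := N) L))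
      ((Rep.resFunctor (AlgEquiv.restrictNormalHom (F := K) (K₁ := N) L)).map (unitsToL K L T)
        ≫ infRepL K L N) n
      = groupCohomology.map
      ((AlgEquiv.restrictNormalHom (F := K) (K₁ := N) L).comp (MonoidHom.id (N ≃ₐ[K] N)))
      ((Rep.resFunctor (MonoidHom.id (N ≃ₐ[K] N))).map (infRepE K L N T) ≫ unitsToL K N T) n := by
    apply groupCohomology.map_congr
    · rfl
    · rfl
  rw [h1, h2] at h3
  have h4 := congrArg (fun f => f.hom e) h3
  simp only [ModuleCat.hom_comp, LinearMap.coe_comp, Function.comp_apply] at h4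
  exact h4

end tower

/-- **W-H3**: `H³(Gal(L/K), Lˣ)` dies in the cyclotomic tower. -/
theorem stmt_BrH3_of (hHyp : Stmt_Hyp2Exists) (hU : Stmt_H3Units) (hV : Stmt_ValH3) :
    Stmt_BrH3 := by
  intro p m K L _ _ _ _ _ h
  haveI : Normal K L := h.gal.to_normal
  obtain ⟨M, hM, T, -, -, h2⟩ := hHyp p m K L ∅ 0 h.prime h.odd h.zeta h.gal h.deg
  refine ⟨M, hM, fun x => ?_⟩
  obtain ⟨e, rfl⟩ := hV p K L T h2.adm x
  have key := infL_unitsMap K L (CyclotomicField (p ^ M) L) T 3 e
  have h0 := hU p m M K L T h2 e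
  show infL K L (CyclotomicField (p ^ M) L) 3 (unitsMap K L T 3 e) = 0
  rw [key, h0, map_zero]

end Fermat.Agent.S55.CFT.H61
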