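/-
S55 package E4, island GLB, wave 3, wiring W-H3 (helper61), with `Stmt_Hyp2Exists` discharged
(helper56, `H56_Hyp2.lean`):  `stmt_BrH3_of' : Stmt_H3Units → Stmt_ValH3 → Stmt_BrH3`.
-/
import Fermat.Agent.S55.CFT.H61_WH3
import Fermat.Agent.S55.CFT.H56_Hyp2

set_option autoImplicit false

noncomputable section

namespace Fermat.Agent.S55.CFT.H61

open Fermat.Agent.S55.CFT

/-- **W-H3**, with `Stmt_Hyp2Exists` discharged. -/
theorem stmt_BrH3_of' (hU : Stmt_H3Units) (hV : Stmt_ValH3) : Stmt_BrH3 :=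
  stmt_BrH3_of H56.stmt_Hyp2Exists hU hV

end Fermat.Agent.S55.CFT.H61
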