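/-
S55 package E4, island GLB, package GLB-3a (`Stmt_JCyclic`), part 2: the dictionary between
`Hⁱ(G, M)` (`i = 1, 2`, `G` cyclic of order `p` generated by `g`, `M` a multiplicative
`G`-module) and the multiplicative norm `nmHom g p : u ↦ ∏_{i<p} gⁱ • u`:
* `h1_subsingleton`: Hilbert 90 for `M` gives `H¹ = 0`;
* `card_h2`: `#H² = [M^g : N M]`.
Owner: helper80.
-/
import Mathlib
import Fermat.Agent.S55.CFT.H12_CyclicBridge

set_option autoImplicit false

open CategoryTheory groupCohomology

namespace Fermat.Agent.S55.CFT.H80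

section Dict

variable {G M : Type} [Group G] [CommGroup M] [MulDistribMulAction G M]

/-- The norm `u ↦ ∏_{i<p} gⁱ • u`. -/
def nmHom (g : G) (p : ℕ) : M →* M where
  toFun u := ∏ i ∈ Finset.range p, g ^ i • u
  map_one' := by simp
  map_mul' u v := by simp [smul_mul', Finset.prod_mul_distrib]

lemma nmHom_apply (g : G) (p : ℕ) (u : M) : nmHom g p u = ∏ i ∈ Finset.range p, g ^ i • u := rfl

/-- The `g`-invariants. -/
def invSub (g : G) : Subgroup M where
  carrier := {u | g • u = u}
  one_mem' := smul_one g
  mul_mem' := by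
    intro a b ha hb
    change g • (a * b) = a * b
    rw [smul_mul', ha, hb]
  inv_mem' := by
    intro a ha
    change g • a⁻¹ = a⁻¹
    rw [smul_inv', ha]

lemma mem_invSub (g : G) (u : M) : u ∈ invSub (M := M) g ↔ g • u = u := Iff.rfl

/-- The element of `M` underlying an element of the representation. -/
def toM (x : Rep.ofMulDistribMulAction G M) : M := Additive.toMul (Rep.toAdditive x)

/-- An element of `M` as an element of the representation. -/
def ofM (u : M) : Rep.ofMulDistribMulAction G M := Rep.toAdditive.symm (Additive.ofMul u)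

lemma toM_ofM (u : M) : toM (G := G) (ofM u) = u := rfl

lemma ofM_toM (x : Rep.ofMulDistribMulAction G M) : ofM (toM x) = x := rfl

lemma toM_injective : Function.Injective (toM (G := G) (M := M)) := fun _ _ h => h

lemma toM_zero : toM (0 : Rep.ofMulDistribMulAction G M) = 1 := rfl

lemma toM_sub (x y : Rep.ofMulDistribMulAction G M) : toM (x - y) = toM x / toM y := rfl

lemma toM_add (x y : Rep.ofMulDistribMulAction G M) : toM (x + y) = toM x * toM y := rfl

lemma toM_sum {ι : Type} (s : Finset ι) (f : ι → Rep.ofMulDistribMulAction G M) :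
    toM (∑ i ∈ s, f i) = ∏ i ∈ s, toM (f i) := by
  classical
  induction s using Finset.induction_on with
  | empty => simp [toM_zero]
  | insert a s ha ih => rw [Finset.sum_insert ha, Finset.prod_insert ha, toM_add, ih]

lemma toM_rho (g : G) (x : Rep.ofMulDistribMulAction G M) :
    toM ((Rep.ofMulDistribMulAction G M).ρ g x) = g • toM x := rfl

variable [Fintype G] (g : G) (hg : ∀ x, x ∈ Subgroup.zpowers g) (p : ℕ) (hp : Nat.card G = p)

include hg hp

lemma toM_norm (x : Rep.ofMulDistribMulAction G M) :
    toM ((Rep.ofMulDistribMulAction G M).ρ.norm x) = nmHom g p (toM x) := by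
  rw [H12.norm_eq_sum_pow (Rep.ofMulDistribMulAction G M) g hg p hp]
  rw [LinearMap.sum_apply, nmHom_apply]
  rw [toM_sum]
  refine Finset.prod_congr rfl (fun i _ => ?_)
  rw [← map_pow]
  rfl

/-- Hilbert 90 for `M` implies `H¹(G, M) = 0`. -/
theorem h1_subsingleton
    (h90 : ∀ u : M, nmHom g p u = 1 → ∃ w : M, u * g • w = w) :
    Subsingleton (groupCohomology (Rep.ofMulDistribMulAction G M) 1) := by
  have hcard := H12.card_odd (Rep.ofMulDistribMulAction G M) g hg 1 (by decide)
  have hle : (LinearMap.ker (Rep.ofMulDistribMulAction G M).ρ.norm).toAddSubgroup ≤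
      (LinearMap.range ((Rep.ofMulDistribMulAction G M).ρ g - 1)).toAddSubgroup := by
    intro x hx
    have hx' : (Rep.ofMulDistribMulAction G M).ρ.norm x = 0 := hx
    have hx'' := congrArg toM hx'
    rw [toM_norm g hg p hp, toM_zero] at hx''
    obtain ⟨w, hw⟩ := h90 (toM x) hx''
    refine ⟨ofM w⁻¹, ?_⟩
    apply toM_injective
    rw [LinearMap.sub_apply, toM_sub, toM_rho, Module.End.one_apply, toM_ofM]
    rw [smul_inv', inv_div_inv, div_eq_iff_eq_mul]
    exact hw.symm
  rw [AddSubgroup.relIndex_eq_one.mpr hle] at hcard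
  exact (Nat.card_eq_one_iff_unique.mp hcard).1

/-- `#H²(G, M) = [M^g : N M]`. -/
theorem card_h2 :
    Nat.card (groupCohomology (Rep.ofMulDistribMulAction G M) 2) =
      (nmHom (M := M) g p).range.relIndex (invSub g) := by
  have hcard := H12.card_even (Rep.ofMulDistribMulAction G M) g hg 2 (by decide)
  rw [hcard, ← Subgroup.relIndex_toAddSubgroup]
  congr 1
  · ext x
    constructor
    · rintro ⟨y, rfl⟩
      refine ⟨toM y, ?_⟩
      rw [← toM_norm g hg p hp]
      rfl
    · rintro ⟨y, hy⟩
      refine ⟨ofM y, ?_⟩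
      apply toM_injective
      rw [toM_norm g hg p hp, toM_ofM]
      exact hy
  · ext x
    change ((Rep.ofMulDistribMulAction G M).ρ g - 1) x = 0 ↔ g • toM x = toM x
    rw [LinearMap.sub_apply, sub_eq_zero, Module.End.one_apply, ← toM_rho]
    exact ⟨fun h => congrArg toM h, fun h => toM_injective h⟩

/-- If every invariant is a norm, `H²(G, M)` has one element. -/
theorem card_h2_eq_one (hN : ∀ u : M, g • u = u → ∃ y : M, nmHom g p y = u) :
    Nat.card (groupCohomology (Rep.ofMulDistribMulAction G M) 2) = 1 := by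
  rw [card_h2 g hg p hp, Subgroup.relIndex_eq_one]
  intro u hu
  obtain ⟨y, hy⟩ := hN u hu
  exact ⟨y, hy⟩

end Dict

end Fermat.Agent.S55.CFT.H80
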