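/-
S55 package E4, island GLB, package GLB-3a (`Stmt_JCyclic`), part 3: the field case.
`E` a finite extension of `ℚ_q` with a faithful action of a cyclic group `G` of prime order `p`
(commuting with `ℚ_q`): `H¹(G, Eˣ) = 0` (Hilbert 90) and `#H²(G, Eˣ) = p` (LOC-3).
Owner: helper80.
-/
import Mathlib
import Fermat.Agent.S55.CFT.Defs
import Fermat.Agent.S55.CFT.H80_JCycCoh

set_option autoImplicit false

open CategoryTheory groupCohomology

noncomputable section

namespace Fermat.Agent.S55.CFT.H80

section FieldCase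

variable (q : ℕ) [Fact q.Prime] {G E : Type} [Group G] [Fintype G] [Field E]
  [Algebra ℚ_[q] E] [FiniteDimensional ℚ_[q] E] [MulSemiringAction G E]
  [FaithfulSMul G E]
  [MulDistribMulAction G Eˣ]

/-- `ℚ_q` maps to the fixed field. -/
def fixAlgHom (hcomm : ∀ (σ : G) (a : ℚ_[q]), σ • (algebraMap ℚ_[q] E a) = algebraMap ℚ_[q] E a) :
    ℚ_[q] →+* FixedPoints.subfield G E :=
  (algebraMap ℚ_[q] E).codRestrict (FixedPoints.subfield G E) (fun a σ => hcomm σ a)

variable (hcompat : ∀ (σ : G) (u : Eˣ), ((σ • u : Eˣ) : E) = σ • (u : E))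
  (g : G) (hg : ∀ x, x ∈ Subgroup.zpowers g) (p : ℕ) (hp : Nat.card G = p) (hpp : p.Prime)

include hcompat in
omit [Fintype G] [FiniteDimensional ℚ_[q] E] [FaithfulSMul G E] [Algebra ℚ_[q] E]
  [Fact q.Prime] in
lemma coe_nmHom_field (u : Eˣ) :
    ((nmHom g p u : Eˣ) : E) = ∏ i ∈ Finset.range p, g ^ i • (u : E) := by
  rw [nmHom_apply, Units.coe_prod]
  exact Finset.prod_congr rfl (fun i _ => hcompat _ _)

include hg hp in
omit [FiniteDimensional ℚ_[q] E] [FaithfulSMul G E] [Algebra ℚ_[q] E]
  [Fact q.Prime] [MulDistribMulAction G Eˣ] in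
lemma prod_pow_eq_prod_univ (x : E) :
    ∏ i ∈ Finset.range p, g ^ i • x = ∏ σ : G, σ • x := by
  classical
  have hord : orderOf g = p := by
    rw [orderOf_eq_card_of_forall_mem_zpowers hg, hp]
  rw [← IsCyclic.image_range_orderOf hg, hord, Finset.prod_image]
  intro i hi j hj hij
  rw [← hord] at hi hj
  exact pow_injOn_Iio_orderOf (by simpa using hi) (by simpa using hj) hij

include hg in
omit [Fintype G] [FiniteDimensional ℚ_[q] E] [FaithfulSMul G E] [Algebra ℚ_[q] E]
  [Fact q.Prime] [MulDistribMulAction G Eˣ] in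
lemma fixed_of_gen (x : E) (hx : g • x = x) (σ : G) : σ • x = x := by
  obtain ⟨n, rfl⟩ := Subgroup.mem_zpowers_iff.mp (hg σ)
  have h1 : ∀ m : ℕ, g ^ m • x = x := by
    intro m
    induction m with
    | zero => simp
    | succ m ih => rw [pow_succ, mul_smul, hx, ih]
  rcases Int.eq_nat_or_neg n with ⟨m, rfl | rfl⟩
  · rw [zpow_natCast]
    exact h1 m
  · rw [zpow_neg, zpow_natCast, inv_smul_eq_iff]
    exact (h1 m).symm

include hg hp in
omit [FiniteDimensional ℚ_[q] E] [Algebra ℚ_[q] E]
  [Fact q.Prime] [MulDistribMulAction G Eˣ] in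
lemma algebraMap_norm_eq (x : E) :
    algebraMap (FixedPoints.subfield G E) E (Algebra.norm (FixedPoints.subfield G E) x) =
      ∏ i ∈ Finset.range p, g ^ i • x := by
  rw [Algebra.norm_eq_prod_automorphisms, prod_pow_eq_prod_univ g hg p hp]
  exact (Fintype.prod_equiv (FixedPoints.toAlgAutMulEquiv G E).toEquiv _ _ (fun σ => rfl)).symm

/-- The inclusion of the units of the fixed field. -/
def fixUnits : (FixedPoints.subfield G E)ˣ →* Eˣ :=
  Units.map (algebraMap (FixedPoints.subfield G E) E : FixedPoints.subfield G E →* E)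

omit [Fintype G] [FaithfulSMul G E] [MulDistribMulAction G Eˣ] in
lemma fixUnits_injective : Function.Injective (fixUnits (G := G) (E := E)) := by
  intro a b hab
  apply Units.ext
  apply (algebraMap (FixedPoints.subfield G E) E).injective
  exact congrArg Units.val hab

include hcompat hg in
omit [Fintype G] [FaithfulSMul G E] in
lemma invSub_eq_map :
    invSub (M := Eˣ) g = (⊤ : Subgroup (FixedPoints.subfield G E)ˣ).map fixUnits := by
  ext u
  rw [mem_invSub, Subgroup.mem_map]
  constructor
  · intro hu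
    have hu' : g • (u : E) = u := by
      rw [← hcompat, hu]
    have hmem : (u : E) ∈ FixedPoints.subfield G E := fun σ => fixed_of_gen g hg _ hu' σ
    refine ⟨Units.mk0 ⟨(u : E), hmem⟩ ?_, Subgroup.mem_top _, ?_⟩
    · intro h0
      exact u.ne_zero (congrArg Subtype.val h0)
    · apply Units.ext
      rfl
  · rintro ⟨y, -, rfl⟩
    apply Units.ext
    rw [hcompat]
    exact (y : FixedPoints.subfield G E).2 g

include hcompat hg hp in
lemma range_nmHom_eq_map :
    (nmHom (M := Eˣ) g p).range = (normSubgroup (FixedPoints.subfield G E) E).map fixUnits := by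
  rw [normSubgroup, MonoidHom.map_range]
  congr 1
  ext u
  rw [coe_nmHom_field hcompat, ← algebraMap_norm_eq g hg p hp]
  rfl

include q hcompat hg hp hpp in
/-- `#H²(G, Eˣ) = p` for a finite extension `E` of `ℚ_q` with a faithful action of the cyclic
group `G` of prime order `p`. -/
theorem field_card_h2 (hLOC : Stmt_LocalNormIndex)
    (hcomm : ∀ (σ : G) (a : ℚ_[q]), σ • (algebraMap ℚ_[q] E a) = algebraMap ℚ_[q] E a) :
    Nat.card (groupCohomology (Rep.ofMulDistribMulAction G Eˣ) 2) = p := by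
  rw [card_h2 g hg p hp, invSub_eq_map hcompat g hg, range_nmHom_eq_map hcompat g hg p hp,
    Subgroup.relIndex_map_map_of_injective _ _ fixUnits_injective, Subgroup.relIndex_top_right]
  let _ : Algebra ℚ_[q] (FixedPoints.subfield G E) := (fixAlgHom q hcomm).toAlgebra
  have : IsScalarTower ℚ_[q] (FixedPoints.subfield G E) E :=
    IsScalarTower.of_algebraMap_eq (fun x => rfl)
  have : FiniteDimensional ℚ_[q] (FixedPoints.subfield G E) :=
    FiniteDimensional.left ℚ_[q] (FixedPoints.subfield G E) E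
  exact hLOC q (FixedPoints.subfield G E) E p hpp
    (by rw [FixedPoints.finrank_eq_card, ← Nat.card_eq_fintype_card, hp])

include hcompat hg hp in
omit [Algebra ℚ_[q] E] [FiniteDimensional ℚ_[q] E] [Fact q.Prime] in
/-- Hilbert 90: `H¹(G, Eˣ) = 0`. -/
theorem field_h1 : Subsingleton (groupCohomology (Rep.ofMulDistribMulAction G Eˣ) 1) := by
  apply h1_subsingleton g hg p hp
  intro u hu
  have h1 : Algebra.norm (FixedPoints.subfield G E) (u : E) = 1 := by
    apply (algebraMap (FixedPoints.subfield G E) E).injective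
    rw [algebraMap_norm_eq g hg p hp, map_one, ← coe_nmHom_field hcompat, hu, Units.val_one]
  let g' : E ≃ₐ[FixedPoints.subfield G E] E := FixedPoints.toAlgAutMulEquiv G E g
  have hg' : ∀ x, x ∈ Subgroup.zpowers g' := by
    intro x
    obtain ⟨σ, rfl⟩ := (FixedPoints.toAlgAutMulEquiv G E).surjective x
    obtain ⟨n, rfl⟩ := Subgroup.mem_zpowers_iff.mp (hg σ)
    exact ⟨n, (map_zpow _ g n).symm⟩
  have : IsCyclic (E ≃ₐ[FixedPoints.subfield G E] E) := ⟨g', hg'⟩
  obtain ⟨y, hy⟩ := groupCohomology.exists_div_of_norm_eq_one hg' h1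
  refine ⟨y, ?_⟩
  apply Units.ext
  rw [Units.val_mul, hcompat, ← hy]
  change (y : E) / (g • (y : E)) * (g • (y : E)) = y
  have hne : g • (y : E) ≠ 0 := by
    rw [← hcompat]
    exact Units.ne_zero _
  exact div_mul_cancel₀ _ hne

end FieldCase

end Fermat.Agent.S55.CFT.H80
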