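/-
S55 package E4, island GLB, package GLB-3a (`Stmt_JCyclic`), part 5: the local algebra
`C = LocAlg K L v = (ℚ_q ⊗ L)/𝔪_v (ℚ_q ⊗ L)` at a place `v` of `K`:
nontrivial, reduced, Artinian; `Gal(L/K)` acts faithfully, `ℚ_q`-linearly, and without nontrivial
invariant idempotents; `C` is a field iff exactly one maximal ideal of `ℚ_q ⊗ L` lies above `v`.
Owner: helper80.
-/
import Mathlib
import Fermat.Agent.S55.CFT.H80_SLDRing
import Fermat.Agent.S55.CFT.H12_Descent
import Fermat.Agent.S55.CFT.H80_JCycSplit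
import Fermat.Agent.S55.CFT.H80_JCycField

set_option autoImplicit false

open NumberField TensorProduct CategoryTheory

noncomputable section

namespace Fermat.Agent.S55.CFT.H80

section Ring

variable (K L : Type) [Field K] [Field L] [NumberField K] [NumberField L] [Algebra K L]
  (v : Place K)

lemma wIdem_idem : IsIdempotentElem (wIdem K L v.1 v.2) := by
  classical
  have : Fintype (MaximalSpectrum (SemiLocal K v.1)) := Fintype.ofFinite _
  exact (wIdem_complete K L v.1).idem v.2

lemma wIdem_ne_zero : wIdem K L v.1 v.2 ≠ 0 := by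
  intro h0
  have h1 : vIdem K v.1 v.2 = 0 := by
    apply H12.semiLocalMap_injective K L v.1
    rw [map_zero]
    exact h0
  have h2 := mk_vIdem_self K v.1 v.2
  rw [h1, map_zero] at h2
  have : Nontrivial (SemiLocal K v.1 ⧸ v.2.asIdeal) :=
    Ideal.Quotient.nontrivial_iff.mpr v.2.isMaximal.ne_top
  exact zero_ne_one h2

lemma placeIdeal_eq_span' : CFT.placeIdeal K L v = Ideal.span {1 - wIdem K L v.1 v.2} :=
  placeIdeal_eq_span K L v.1 v.2

lemma placeIdeal_ne_top : CFT.placeIdeal K L v ≠ ⊤ := by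
  rw [placeIdeal_eq_span', Ne, Ideal.span_singleton_eq_top]
  intro hu
  have hid : IsIdempotentElem (1 - wIdem K L v.1 v.2) := (wIdem_idem K L v).one_sub
  have h1 : 1 - wIdem K L v.1 v.2 = 1 := by
    have := hid.eq
    exact hu.mul_left_cancel (by rw [this, mul_one])
  exact wIdem_ne_zero K L v (by rw [sub_eq_self] at h1; exact h1)

instance locAlg_nontrivial : Nontrivial (LocAlg K L v) :=
  Ideal.Quotient.nontrivial_iff.mpr (placeIdeal_ne_top K L v)

instance locAlg_isReduced : IsReduced (LocAlg K L v) := by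
  have h := isReduced_quotient_idem (wIdem K L v.1 v.2) (wIdem_idem K L v)
  have he : CFT.placeIdeal K L v = Ideal.span {1 - wIdem K L v.1 v.2} := placeIdeal_eq_span' K L v
  unfold LocAlg
  rw [he]
  exact h

instance locAlg_finite : Module.Finite (Qp v.1) (LocAlg K L v) :=
  Module.Finite.of_surjective (Ideal.Quotient.mkₐ (Qp v.1) (CFT.placeIdeal K L v)).toLinearMap
    (Ideal.Quotient.mkₐ_surjective (Qp v.1) (CFT.placeIdeal K L v))

instance locAlg_isArtinian : IsArtinianRing (LocAlg K L v) :=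
  IsArtinianRing.of_finite (Qp v.1) _

end Ring

section Action

variable (K L : Type) [Field K] [Field L] [NumberField K] [NumberField L] [Algebra K L]
  (v : Place K)

/-- `L → C`. -/
def locInc : L →+* LocAlg K L v :=
  (Ideal.Quotient.mk (CFT.placeIdeal K L v)).comp
    ((Algebra.TensorProduct.includeRight : L →ₐ[ℚ] SemiLocal L v.1) : L →+* SemiLocal L v.1)

lemma locInc_injective : Function.Injective (locInc K L v) := RingHom.injective _

lemma smul_locInc (σ : L ≃ₐ[K] L) (x : L) : σ • locInc K L v x = locInc K L v (σ x) := by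
  change locAlgMap K L v σ (Ideal.Quotient.mk _ ((1 : Qp v.1) ⊗ₜ[ℚ] x)) =
    Ideal.Quotient.mk _ ((1 : Qp v.1) ⊗ₜ[ℚ] (σ x))
  rw [locAlgMap_mk, semiLocalEquiv_tmul]

lemma smul_mk (σ : L ≃ₐ[K] L) (x : SemiLocal L v.1) :
    σ • (Ideal.Quotient.mk (CFT.placeIdeal K L v) x) =
      Ideal.Quotient.mk (CFT.placeIdeal K L v) (σ • x) := rfl

instance locAlg_faithful : FaithfulSMul (L ≃ₐ[K] L) (LocAlg K L v) where
  eq_of_smul_eq_smul := by
    intro σ τ h
    ext x
    apply locInc_injective K L v
    rw [← smul_locInc, ← smul_locInc]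
    exact h _

instance locAlg_smulComm : SMulCommClass (L ≃ₐ[K] L) (Qp v.1) (LocAlg K L v) where
  smul_comm σ a c := by
    obtain ⟨x, rfl⟩ := Ideal.Quotient.mk_surjective c
    have h1 : ∀ y : SemiLocal L v.1, a • Ideal.Quotient.mk (CFT.placeIdeal K L v) y =
        Ideal.Quotient.mk (CFT.placeIdeal K L v) (a • y) := fun y =>
      (map_smul (Ideal.Quotient.mkₐ (Qp v.1) (CFT.placeIdeal K L v)) a y).symm
    rw [h1, smul_mk, smul_mk, h1]
    congr 1
    exact map_smul (semiLocalEquiv K L v.1 σ) a x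

/-- `ℚ_q ⊗ K → C`. -/
def baseInc : SemiLocal K v.1 →+* LocAlg K L v :=
  (Ideal.Quotient.mk (CFT.placeIdeal K L v)).comp
    (semiLocalMap K L v.1 : SemiLocal K v.1 →+* SemiLocal L v.1)

lemma baseInc_eq_zero_iff (a : SemiLocal K v.1) : baseInc K L v a = 0 ↔ a ∈ v.2.asIdeal := by
  have hle : v.2.asIdeal ≤ RingHom.ker (baseInc K L v) := by
    intro b hb
    rw [RingHom.mem_ker]
    change Ideal.Quotient.mk _ (semiLocalMap K L v.1 b) = 0
    rw [Ideal.Quotient.eq_zero_iff_mem]
    exact Ideal.mem_map_of_mem _ hb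
  have hne : RingHom.ker (baseInc K L v) ≠ ⊤ := RingHom.ker_ne_top _
  have heq : v.2.asIdeal = RingHom.ker (baseInc K L v) := v.2.isMaximal.eq_of_le hne hle
  rw [heq, RingHom.mem_ker]

theorem invariant_idem [IsGalois K L] (c : LocAlg K L v) (hc : IsIdempotentElem c)
    (hinv : ∀ σ : L ≃ₐ[K] L, σ • c = c) : c = 0 ∨ c = 1 := by
  classical
  obtain ⟨x, rfl⟩ := Ideal.Quotient.mk_surjective c
  set y : SemiLocal L v.1 := ∑ σ : L ≃ₐ[K] L, σ • x with hy
  have hyinv : ∀ τ : L ≃ₐ[K] L, τ • y = y := by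
    intro τ
    rw [hy, Finset.smul_sum]
    exact Fintype.sum_equiv (Equiv.mulLeft τ) _ _ (fun σ => by simp [mul_smul])
  obtain ⟨z, hz⟩ := H12.exists_of_invariant K L v.1 y hyinv
  set N : ℕ := Fintype.card (L ≃ₐ[K] L) with hN
  have hmk : Ideal.Quotient.mk (CFT.placeIdeal K L v) y =
      (N : LocAlg K L v) * Ideal.Quotient.mk (CFT.placeIdeal K L v) x := by
    rw [hy, map_sum]
    have : ∀ σ ∈ (Finset.univ : Finset (L ≃ₐ[K] L)),
        Ideal.Quotient.mk (CFT.placeIdeal K L v) (σ • x) =
          Ideal.Quotient.mk (CFT.placeIdeal K L v) x := by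
      intro σ _
      rw [← smul_mk]
      exact hinv σ
    rw [Finset.sum_congr rfl this, Finset.sum_const, Finset.card_univ, nsmul_eq_mul]
  have hψz : baseInc K L v z = (N : LocAlg K L v) * Ideal.Quotient.mk (CFT.placeIdeal K L v) x := by
    rw [← hmk, ← hz]
    rfl
  have hNunit : IsUnit (N : LocAlg K L v) := by
    have h1 : (N : LocAlg K L v) = algebraMap (Qp v.1) (LocAlg K L v) (N : Qp v.1) := by
      rw [map_natCast]
    rw [h1]
    apply IsUnit.map
    rw [isUnit_iff_ne_zero]
    have hpos : 0 < N := Fintype.card_pos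
    exact_mod_cast hpos.ne'
  have hmem : z * (z - (N : SemiLocal K v.1)) ∈ v.2.asIdeal := by
    rw [← baseInc_eq_zero_iff K L v, map_mul, map_sub, map_natCast, hψz]
    have := hc.eq
    calc (N : LocAlg K L v) * Ideal.Quotient.mk (CFT.placeIdeal K L v) x *
        ((N : LocAlg K L v) * Ideal.Quotient.mk (CFT.placeIdeal K L v) x - (N : LocAlg K L v))
        = (N : LocAlg K L v) * (N : LocAlg K L v) *
          (Ideal.Quotient.mk (CFT.placeIdeal K L v) x *
            Ideal.Quotient.mk (CFT.placeIdeal K L v) x -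
              Ideal.Quotient.mk (CFT.placeIdeal K L v) x) := by ring
      _ = 0 := by rw [this, sub_self, mul_zero]
  rcases v.2.isMaximal.isPrime.mem_or_mem hmem with h | h
  · left
    rw [← baseInc_eq_zero_iff K L v, hψz] at h
    exact (hNunit.mul_right_eq_zero).mp h
  · right
    rw [← baseInc_eq_zero_iff K L v, map_sub, map_natCast, hψz, sub_eq_zero] at h
    exact hNunit.mul_left_cancel (by rw [h, mul_one])

end Action

section FieldIff

variable (K L : Type) [Field K] [Field L] [NumberField K] [NumberField L] [Algebra K L]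
  (v : Place K)

lemma comap_eq_of_le (J : Ideal (SemiLocal L v.1)) (hJ : J ≠ ⊤)
    (hle : CFT.placeIdeal K L v ≤ J) :
    J.comap (semiLocalMap K L v.1) = v.2.asIdeal := by
  have h1 : v.2.asIdeal ≤ J.comap (semiLocalMap K L v.1) := by
    rw [← Ideal.map_le_iff_le_comap]
    exact hle
  have h2 : J.comap (semiLocalMap K L v.1) ≠ ⊤ := Ideal.comap_ne_top _ hJ
  exact (v.2.isMaximal.eq_of_le h2 h1).symm

lemma le_of_comap_eq (J : Ideal (SemiLocal L v.1))
    (h : J.comap (semiLocalMap K L v.1) = v.2.asIdeal) : CFT.placeIdeal K L v ≤ J := by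
  unfold CFT.placeIdeal
  rw [Ideal.map_le_iff_le_comap, h]

theorem isField_iff : IsField (LocAlg K L v) ↔
    ∃! 𝔐 : MaximalSpectrum (SemiLocal L v.1),
      𝔐.asIdeal.comap (semiLocalMap K L v.1) = v.2.asIdeal := by
  constructor
  · intro hF
    have hmax : (CFT.placeIdeal K L v).IsMaximal := Ideal.Quotient.maximal_of_isField _ hF
    refine ⟨⟨CFT.placeIdeal K L v, hmax⟩, comap_eq_of_le K L v _ hmax.ne_top le_rfl, ?_⟩
    intro 𝔐 h𝔐
    apply MaximalSpectrum.ext
    exact (hmax.eq_of_le 𝔐.isMaximal.ne_top (le_of_comap_eq K L v _ h𝔐)).symm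
  · rintro ⟨𝔐, -, huniq⟩
    have hkey : ∀ I : Ideal (LocAlg K L v), I.IsMaximal →
        I.comap (Ideal.Quotient.mk (CFT.placeIdeal K L v)) = 𝔐.asIdeal := by
      intro I hI
      have hJ : (I.comap (Ideal.Quotient.mk (CFT.placeIdeal K L v))).IsMaximal :=
        Ideal.comap_isMaximal_of_surjective _ Ideal.Quotient.mk_surjective
      have hle : CFT.placeIdeal K L v ≤ I.comap (Ideal.Quotient.mk (CFT.placeIdeal K L v)) := by
        intro a ha
        rw [Ideal.mem_comap, Ideal.Quotient.eq_zero_iff_mem.mpr ha]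
        exact I.zero_mem
      have := huniq ⟨_, hJ⟩ (comap_eq_of_le K L v _ hJ.ne_top hle)
      exact congrArg MaximalSpectrum.asIdeal this
    obtain ⟨I₀, hI₀⟩ := Ideal.exists_maximal (LocAlg K L v)
    have : IsLocalRing (LocAlg K L v) := by
      apply IsLocalRing.of_unique_max_ideal
      refine ⟨I₀, hI₀, ?_⟩
      intro I hI
      apply Ideal.comap_injective_of_surjective _ Ideal.Quotient.mk_surjective
      rw [hkey I hI, hkey I₀ hI₀]
    exact IsArtinianRing.isField_of_isReduced_of_isLocalRing _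

end FieldIff

section PlaceCoh

variable (K L : Type) [Field K] [Field L] [NumberField K] [NumberField L] [Algebra K L]
  (v : Place K)

/-- The place `v` is nonsplit in `L`: exactly one maximal ideal of `ℚ_q ⊗ L` above it. -/
def NonsplitAt : Prop :=
  ∃! 𝔐 : MaximalSpectrum (SemiLocal L v.1),
    𝔐.asIdeal.comap (semiLocalMap K L v.1) = v.2.asIdeal

open Classical in
/-- The cohomology of the local component at `v`, for `L/K` cyclic of prime degree `p`:
`H¹ = 0`, and `#H² = p` if `v` is nonsplit, `1` otherwise. -/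
theorem place_cyclic (hLOC : Stmt_LocalNormIndex) (p : ℕ) (hp : p.Prime)
    (hfin : Module.finrank K L = p) [IsGalois K L] :
    Subsingleton (groupCohomology (repJv K L v) 1) ∧
      Nat.card (groupCohomology (repJv K L v) 2) = if NonsplitAt K L v then p else 1 := by
  have hcard : Nat.card (L ≃ₐ[K] L) = p := by rw [IsGalois.card_aut_eq_finrank, hfin]
  have : Fact p.Prime := ⟨hp⟩
  have hcyc : IsCyclic (L ≃ₐ[K] L) := isCyclic_of_prime_card hcard
  obtain ⟨g, hg⟩ := hcyc.exists_generator
  have hgp : g ^ p = 1 := by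
    rw [← hcard]
    exact pow_card_eq_one'
  have hcompat : ∀ (σ : L ≃ₐ[K] L) (u : (LocAlg K L v)ˣ),
      ((σ • u : (LocAlg K L v)ˣ) : LocAlg K L v) = σ • (u : LocAlg K L v) := fun _ _ => rfl
  rcases field_or_split (C := LocAlg K L v) g p hp hgp
    (fun c hc hgc => invariant_idem K L v c hc (fun σ => smul_eq_of_gen g hg c hgc σ))
    with hF | ⟨e, he⟩
  · have hns : NonsplitAt K L v := (isField_iff K L v).mp hF
    rw [if_pos hns]
    have hmax : (CFT.placeIdeal K L v).IsMaximal := Ideal.Quotient.maximal_of_isField _ hF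
    let _ : Field (LocAlg K L v) := Ideal.Quotient.field (CFT.placeIdeal K L v)
    have := fact_primes v.1
    have hcomm : ∀ (σ : L ≃ₐ[K] L) (a : Qp v.1),
        σ • (algebraMap (Qp v.1) (LocAlg K L v) a) = algebraMap (Qp v.1) (LocAlg K L v) a := by
      intro σ a
      rw [Algebra.algebraMap_eq_smul_one, smul_comm, smul_one]
    exact ⟨field_h1 hcompat g hg p hcard,
      field_card_h2 (v.1 : ℕ) hcompat g hg p hcard hp hLOC hcomm⟩
  · have hns : ¬ NonsplitAt K L v := fun h =>
      SplitIdem.not_isField g p hp.two_le e he ((isField_iff K L v).mpr h)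
    rw [if_neg hns]
    exact ⟨split_h1 hcompat g hg p hcard e he, split_card_h2 hcompat g hg p hcard e he hp.pos⟩

end PlaceCoh

end Fermat.Agent.S55.CFT.H80
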