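/-
S55 package E4, island GLB, package GLB-3a: `Stmt_JCyclic` from the local norm index LOC-3.
For `L/K` cyclic of prime degree `p`: `H¹(G, J_{L,T}) = 0` and
`#H²(G, J_{L,T}) = p ^ #{places above T, nonsplit}`.
(Semi-local decomposition `H80_SLD`, per-place cohomology `H80_JCycPlace`.)
Owner: helper80.
-/
import Mathlib
import Fermat.Agent.S55.CFT.H80_SLD
import Fermat.Agent.S55.CFT.H80_JCycPlace

set_option autoImplicit false

open NumberField TensorProduct CategoryTheory

noncomputable section

namespace Fermat.Agent.S55.CFT.H80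

/-- **GLB-3a** from LOC-3. -/
theorem stmt_JCyclic_of_LOC (hLOC : Stmt_LocalNormIndex) : Stmt_JCyclic := by
  intro p K L _ _ _ _ _ T hp hfin hGal
  classical
  have : Fintype (PlaceT K T) := Fintype.ofFinite _
  have hplace := fun ω : PlaceT K T => place_cyclic K L ⟨ω.1.1, ω.2⟩ hLOC p hp hfin
  constructor
  · constructor
    intro x y
    rw [← sum_secMap_projMap K L T 1 x, ← sum_secMap_projMap K L T 1 y]
    apply Finset.sum_congr rfl
    intro ω _
    congr 1
    exact (hplace ω).1.elim _ _
  · let Φ : groupCohomology (repJ K L T) 2 →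
        ∀ ω : PlaceT K T, groupCohomology (repJv K L ⟨ω.1.1, ω.2⟩) 2 :=
      fun x ω => projMap K L T ω.1 ω.2 2 x
    have hinj : Function.Injective Φ := by
      intro x y hxy
      rw [← sum_secMap_projMap K L T 2 x, ← sum_secMap_projMap K L T 2 y]
      apply Finset.sum_congr rfl
      intro ω _
      congr 1
      exact congrFun hxy ω
    have hsurj : Function.Surjective Φ := by
      intro b
      refine ⟨∑ ω : PlaceT K T, secMap K L T ω 2 (b ω), ?_⟩
      funext ω'
      change projMap K L T ω'.1 ω'.2 2 (∑ ω : PlaceT K T, secMap K L T ω 2 (b ω)) = b ω'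
      rw [map_sum, Finset.sum_eq_single_of_mem ω' (Finset.mem_univ _)]
      · exact projMap_secMap_self K L T ω' 2 (b ω')
      · intro ω _ hne
        exact projMap_secMap_ne K L T ω ω' hne.symm 2 (b ω)
    rw [Nat.card_congr (Equiv.ofBijective Φ ⟨hinj, hsurj⟩), Nat.card_pi]
    have h2 : ∀ ω : PlaceT K T, Nat.card (groupCohomology (repJv K L ⟨ω.1.1, ω.2⟩) 2) =
        if NonsplitAt K L ⟨ω.1.1, ω.2⟩ then p else 1 := fun ω => (hplace ω).2
    rw [Finset.prod_congr rfl (fun ω _ => h2 ω), Finset.prod_ite, Finset.prod_const,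
      Finset.prod_const_one, mul_one]
    congr 1
    unfold nonsplitCountLoc
    rw [Nat.card_eq_fintype_card, Fintype.card_subtype]
    rfl

end Fermat.Agent.S55.CFT.H80
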