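/-
S55 package E4, island GLB, package GLB-3a: `Stmt_JCyclic`, unconditional
(`stmt_JCyclic_of_LOC` + LOC-3 `LOC.H68.stmt_LocalNormIndex`).
Owner: helper80.
-/
import Mathlib
import Fermat.Agent.S55.CFT.H80_JCyc
import Fermat.Agent.S55.CFT.LOC.H68_NormIndex

set_option autoImplicit false

namespace Fermat.Agent.S55.CFT.H80

/-- **GLB-3a**: for `L/K` cyclic of prime degree `p`, `H¹(G, J_{L,T}) = 0` and
`#H²(G, J_{L,T}) = p ^ #{places above T, nonsplit}`. -/
theorem stmt_JCyclic : Stmt_JCyclic :=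
  stmt_JCyclic_of_LOC LOC.H68.stmt_LocalNormIndex

end Fermat.Agent.S55.CFT.H80
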