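/-
S55 / E4 / CFT, BR-FINAL (helper13): the unconditional forms of the global statements whose
leaves are all proved.

* `stmt_CFind`, `stmt_CycRec`, `stmt_FundExists`, `stmt_CFp'` (class formation on `p`-extensions);
* `stmt_H3Units`;
* `stmt_BrH3` (the export BR-H3 of `Defs_BR.lean`).
-/
import Fermat.Agent.S55.CFT.H13_H3U
import Fermat.Agent.S55.CFT.H80_JCycFinal
import Fermat.Agent.S55.CFT.H12_SIindex
import Fermat.Agent.S55.CFT.H61_WH3b
import Fermat.Agent.S55.CFT.H19_ValH3

set_option autoImplicit false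

namespace Fermat.Agent.S55.CFT.H13

open Fermat.Agent.S55.CFT

/-- **CF-ind**, unconditional. -/
theorem stmt_CFind : Stmt_CFind :=
  stmt_CFind_of_leaves H80.stmt_JCyclic H12.stmt_SIindex

/-- **CYC**, unconditional. -/
theorem stmt_CycRec : Stmt_CycRec :=
  H56.stmt_CycRec H25.stmt_ThetaNorm H12.stmt_SIindex

/-- **FUND**, unconditional. -/
theorem stmt_FundExists : Stmt_FundExists :=
  stmt_FundExists_of stmt_CFind stmt_CycRec H25.stmt_ThetaNorm

/-- **CF-G'**, unconditional. -/
theorem stmt_CFp' : Stmt_CFp' :=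
  stmt_CFp'_of stmt_CFind stmt_FundExists

/-- **H3-UNITS**, unconditional. -/
theorem stmt_H3Units : Stmt_H3Units :=
  stmt_H3Units_of' stmt_CFind stmt_CycRec

/-- **BR-H3**, unconditional. -/
theorem stmt_BrH3 : Stmt_BrH3 :=
  H61.stmt_BrH3_of' stmt_H3Units H19.stmt_ValH3

end Fermat.Agent.S55.CFT.H13
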