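/-
S55 / E4 / CFT wave 3, leaf CYCL (helper19), part 3: `stmt_CycClass : Stmt_CycClass`.

For `L/K` Galois with cyclic group `G = ⟨σ⟩`: `cyc a` is the class of the cyclic cocycle of
`a ∈ Kˣ = (Lˣ)^G`, `cycv v β` the class of the cyclic cocycle of `β ∈ K_vˣ = ((K_v ⊗_K L)ˣ)^G`.
-/
import Fermat.Agent.S55.CFT.H19_CycAbs
import Fermat.Agent.S55.CFT.H19_CycLoc

set_option autoImplicit false
set_option linter.unusedSectionVars false
set_option linter.unusedVariables false
set_option linter.style.haveILetI false

open NumberField TensorProduct CategoryTheory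

noncomputable section

namespace Fermat.Agent.S55.CFT.H19

open Fermat.Agent.S55.CFT Fermat.Agent.S55.CFT.H13

variable (K L : Type) [Field K] [Field L] [NumberField K] [NumberField L] [Algebra K L]

theorem repL_invariant (a : Kˣ) (g : L ≃ₐ[K] L) :
    (repL K L).ρ g (Additive.ofMul (Units.map (algebraMap K L : K →* L) a)) =
      Additive.ofMul (Units.map (algebraMap K L : K →* L) a) := by
  apply congrArg Additive.ofMul
  apply Units.ext
  exact g.commutes (a : K)

theorem repJv_invariant (v : Place K) (β : (LocAlg K K v)ˣ) (g : L ≃ₐ[K] L) :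
    (repJv K L v).ρ g
        (Additive.ofMul (Units.map (locAlgTower K K L v : LocAlg K K v →* LocAlg K L v) β)) =
      Additive.ofMul (Units.map (locAlgTower K K L v : LocAlg K K v →* LocAlg K L v) β) :=
  congrArg Additive.ofMul (smul_units_locAlgTower K L v g β)

theorem locHom_algebraMap (v : Place K) (a : Kˣ) :
    locHom K L v (Units.map (algebraMap K L : K →* L) a) =
      Units.map (locAlgTower K K L v : LocAlg K K v →* LocAlg K L v) (locHom K K v a) := by
  apply Units.ext
  show Ideal.Quotient.mk _ ((1 : Qp v.1) ⊗ₜ[ℚ] (algebraMap K L (a : K))) =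
    locAlgTower K K L v (Ideal.Quotient.mk _ ((1 : Qp v.1) ⊗ₜ[ℚ] (a : K)))
  rw [locAlgTower_mk]
  simp [semiLocalMap]

theorem repJv_sum_ρ [Fintype (L ≃ₐ[K] L)] (v : Place K) (y : (LocAlg K L v)ˣ) :
    ∑ x : L ≃ₐ[K] L, (repJv K L v).ρ x (Additive.ofMul y) =
      Additive.ofMul (∏ x : L ≃ₐ[K] L, x • y) := by
  rw [ofMul_prod]
  rfl

/-- **CYC-CLASS**. -/
theorem stmt_CycClass : Stmt_CycClass := by
  intro K L _ _ _ _ _ hgal hcyc
  classical
  haveI : FiniteDimensional K L := Module.Finite.of_restrictScalars_finite ℚ K L
  haveI : Finite (L ≃ₐ[K] L) := inferInstance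
  letI : Fintype (L ≃ₐ[K] L) := Fintype.ofFinite _
  obtain ⟨σ, hσ⟩ := hcyc.exists_generator
  obtain ⟨e, he⟩ := exists_dlog σ hσ
  refine ⟨fun a => cycCl (repL K L) he
      (Additive.ofMul (Units.map (algebraMap K L : K →* L) a)) (repL_invariant K L a),
    fun v β => cycCl (repJv K L v) he
      (Additive.ofMul (Units.map (locAlgTower K K L v : LocAlg K K v →* LocAlg K L v) β))
      (repJv_invariant K L v β), ?_, ?_, ?_, ?_⟩
  · intro a b
    have hab : ∀ g, (repL K L).ρ g
        (Additive.ofMul (Units.map (algebraMap K L : K →* L) a) +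
          Additive.ofMul (Units.map (algebraMap K L : K →* L) b)) =
        Additive.ofMul (Units.map (algebraMap K L : K →* L) a) +
          Additive.ofMul (Units.map (algebraMap K L : K →* L) b) := by
      intro g
      have := repL_invariant K L (a * b) g
      rw [map_mul] at this
      exact this
    refine (cycCl_congr (repL K L) he _ _ _ hab ?_).trans
      (cycCl_add (repL K L) he _ _ (repL_invariant K L a) (repL_invariant K L b) hab)
    rw [map_mul]
    rfl
  · intro x
    obtain ⟨a, ha, rfl⟩ := exists_cycCl (repL K L) he x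
    obtain ⟨a', ha'⟩ := exists_unit_of_invariant K L (Additive.toMul a : Lˣ)
      (fun τ => congrArg Additive.toMul (ha τ))
    refine ⟨a', ?_⟩
    exact cycCl_congr (repL K L) he _ _ _ _ (congrArg Additive.ofMul ha')
  · intro v
    refine ⟨?_, ?_, ?_⟩
    · intro a b
      have hab : ∀ g, (repJv K L v).ρ g
          (Additive.ofMul (Units.map (locAlgTower K K L v : LocAlg K K v →* LocAlg K L v) a) +
            Additive.ofMul (Units.map (locAlgTower K K L v : LocAlg K K v →* LocAlg K L v) b)) =
          Additive.ofMul (Units.map (locAlgTower K K L v : LocAlg K K v →* LocAlg K L v) a) +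
            Additive.ofMul (Units.map (locAlgTower K K L v : LocAlg K K v →* LocAlg K L v) b) := by
        intro g
        have := repJv_invariant K L v (a * b) g
        rw [map_mul] at this
        exact this
      refine (cycCl_congr (repJv K L v) he _ _ _ hab ?_).trans
        (cycCl_add (repJv K L v) he _ _ (repJv_invariant K L v a) (repJv_invariant K L v b) hab)
      rw [map_mul]
      rfl
    · intro x
      obtain ⟨a, ha, rfl⟩ := exists_cycCl (repJv K L v) he x
      obtain ⟨a', ha'⟩ := exists_unit_of_invariant_locAlg K L v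
        (Additive.toMul a : (LocAlg K L v)ˣ) (fun τ => congrArg Additive.toMul (ha τ))
      refine ⟨a', ?_⟩
      exact cycCl_congr (repJv K L v) he _ _ _ _ (congrArg Additive.ofMul ha')
    · intro β
      refine (cycCl_eq_zero_iff (repJv K L v) he _ _).trans ?_
      unfold IsLocNorm
      constructor
      · rintro ⟨b, hb⟩
        refine ⟨Additive.toMul b, ?_⟩
        rw [finprod_eq_prod_of_fintype]
        have h1 := repJv_sum_ρ K L v (Additive.toMul b : (LocAlg K L v)ˣ)
        exact (congrArg Additive.toMul (hb.trans h1)).symm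
      · rintro ⟨y, hy⟩
        refine ⟨Additive.ofMul y, ?_⟩
        rw [finprod_eq_prod_of_fintype] at hy
        rw [repJv_sum_ρ K L v y, hy]
        rfl
  · intro v a
    show (groupCohomology.map (MonoidHom.id (L ≃ₐ[K] L)) (locRep K L v) 2).hom
      (cycCl (repL K L) he _ _) = cycCl (repJv K L v) he _ _
    refine (map_cycCl (repJv K L v) (repL K L) (locRep K L v) he _ _
      (fun g => by
        have := repJv_invariant K L v (locHom K K v a) g
        rw [← locHom_algebraMap] at this
        exact this)).trans ?_
    exact cycCl_congr (repJv K L v) he _ _ _ _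
      (congrArg Additive.ofMul (locHom_algebraMap K L v a))

end Fermat.Agent.S55.CFT.H19
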