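import Fermat.Agent.S55.CFT.H20_LocSplit
import Fermat.Agent.S55.CFT.H58_SHL
import Fermat.Agent.S55.CFT.H58_InfJv

/-!
# S55/E4 wave 3, leaf LSP (helper20), unconditional form

`stmt_LocSplit : Stmt_LocSplit`, from `H20.stmt_LocSplit_of`, `H58.stmt_SHL`, `H58.stmt_InfJvInj`.
-/

set_option autoImplicit false

namespace Fermat.Agent.S55.CFT.H20

/-- **LSP**, unconditional. -/
theorem stmt_LocSplit : Stmt_LocSplit :=
  stmt_LocSplit_of H58.stmt_SHL H58.stmt_InfJvInj

end Fermat.Agent.S55.CFT.H20
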