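import Fermat.Agent.S55.CFT.Defs_BR3
import Fermat.Agent.S55.CFT.LOC.H72_FundResAbs

/-!
# S55/E4 wave 3, leaf LII (helper72): local classes become inflations from `L'`

`stmt_LocInfImage_of : Stmt_SHL → Stmt_InfJvInj → Stmt_LocInfImage`.

Route: `X = H²(Gal(N/K), (K_v ⊗ N)ˣ)` is finite cyclic (SHL).  The inflation from `L'` is
injective (InfJvInj) with source of order `d` = the local degree of `L'/K` at `v` (SHL), so its
image is the set of all elements of `X` killed by `d`.  A class `b` of `L/K` is killed by
`[L : K]` (the order of the group), which divides `d`.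
-/

set_option autoImplicit false
set_option linter.unusedSectionVars false

noncomputable section

namespace Fermat.Agent.S55.CFT.H72

open CategoryTheory groupCohomology Rep

/-- In a finite cyclic group, the image of an injective homomorphism from a group of order `d`
contains every element killed by `d`. -/
theorem mem_range_of_card_nsmul_eq_zero {X Y : Type} [AddCommGroup X] [AddCommGroup Y]
    [Finite X] [Finite Y] (hcyc : ∃ γ : X, ∀ x : X, ∃ n : ℤ, x = n • γ) (f : Y →+ X)
    (hf : Function.Injective f) (x : X) (hx : Nat.card Y • x = 0) : ∃ y, f y = x := by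
  classical
  have hd : 0 < Nat.card Y := Nat.card_pos
  let T : AddSubgroup X :=
    { carrier := {z | Nat.card Y • z = 0}
      zero_mem' := by simp
      add_mem' := fun {a b} ha hb => by
        show Nat.card Y • (a + b) = 0
        rw [smul_add, show Nat.card Y • a = 0 from ha, show Nat.card Y • b = 0 from hb,
          add_zero]
      neg_mem' := fun {a} ha => by
        show Nat.card Y • (-a) = 0
        rw [smul_neg, show Nat.card Y • a = 0 from ha, neg_zero] }
  have hT : ∀ z ∈ T, Nat.card Y • z = 0 := fun z hz => hz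
  have hcardT : Nat.card T ≤ Nat.card Y :=
    Fermat.Agent.S55.CFT.LOC.H72.card_le_of_forall_nsmul_eq_zero hcyc T _ hd hT
  have hle : f.range ≤ T := by
    rintro z ⟨y, rfl⟩
    show Nat.card Y • f y = 0
    rw [← map_nsmul, card_nsmul_eq_zero', map_zero]
  have hcardR : Nat.card f.range = Nat.card Y :=
    Nat.card_congr (AddMonoidHom.ofInjective hf).symm.toEquiv
  have heq : f.range = T := AddSubgroup.eq_of_le_of_card_ge hle (by rw [hcardR]; exact hcardT)
  have hxT : x ∈ f.range := by
    rw [heq]
    exact hx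
  exact hxT

/-- Transport of `d • x = 0` along an additive map. -/
theorem map_nsmul_eq_zero {X Y : Type} [AddCommGroup X] [AddCommGroup Y] (f : Y →+ X)
    (c d : ℕ) (hcd : c ∣ d) (y : Y) (hy : c • y = 0) : d • f y = 0 := by
  obtain ⟨e, rfl⟩ := hcd
  rw [← map_nsmul, mul_comm, mul_smul, hy, smul_zero, map_zero]

/-- **LII**: local classes of `L/K` become inflations from `L'/K`. -/
theorem stmt_LocInfImage_of (hS : Stmt_SHL) (hI : Stmt_InfJvInj) : Stmt_LocInfImage := by
  intro p m K L L' N _ _ _ _ _ _ _ _ _ _ _ _ _ _ _ _ _ hyp hKL hKL' v hdiv b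
  have hN : IsGalois K N := hyp.gal
  obtain ⟨-, hfinX, -, hcycX, -⟩ := hS p m K N hyp v
  -- `Hyp3` for `L'`
  have hdvd : Module.finrank K L' ∣ p ^ m := by
    rw [← hyp.deg, ← Module.finrank_mul_finrank K L' N]
    exact dvd_mul_right _ _
  obtain ⟨m', -, hm'⟩ := (Nat.dvd_prime_pow hyp.prime).1 hdvd
  have hyp' : Hyp3 K L' p m' := ⟨hyp.prime, hyp.odd, hyp.zeta, hKL', hm'⟩
  obtain ⟨-, hfinY, hcardY, -, -⟩ := hS p m' K L' hyp' v
  -- `[L : K]` divides the order of `H²` at `L'`
  have hpos : 0 < Module.finrank K L' := Module.finrank_pos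
  have hg0 : Nat.card (MaximalSpectrum (LocAlg K L' v)) ≠ 0 := by
    intro h0
    rw [h0, mul_zero] at hcardY
    exact hpos.ne hcardY
  have hLd : Module.finrank K L ∣ Nat.card (groupCohomology (repJv K L' v) 2) := by
    rw [← hcardY] at hdiv
    exact Nat.dvd_of_mul_dvd_mul_right (Nat.pos_of_ne_zero hg0) hdiv
  -- `b` is killed by `[L : K]`
  have hb : Module.finrank K L • b = 0 := by
    have h := Fermat.Agent.S55.CFT.LOC.H72.card_nsmul_H2 (repJv K L v) b
    rwa [IsGalois.card_aut_eq_finrank] at h
  have hkill : Nat.card (groupCohomology (repJv K L' v) 2) • infJv K L N v 2 b = 0 :=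
    map_nsmul_eq_zero (infJv K L N v 2).toAddMonoidHom _ _ hLd b hb
  obtain ⟨b', hb'⟩ := mem_range_of_card_nsmul_eq_zero hcycX (infJv K L' N v 2).toAddMonoidHom
    (hI K L' N hKL' hN v) _ hkill
  exact ⟨b', hb'.symm⟩

end Fermat.Agent.S55.CFT.H72
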