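import Fermat.Agent.S55.CFT.H58_SHL
import Fermat.Agent.S55.CFT.H58_InfJv
import Fermat.Agent.S55.CFT.H72_LocInfImage

/-!
# CFT (helper58): `Stmt_LocInfImage`, unconditional

Wiring of helper72's `H72.stmt_LocInfImage_of` with `H58.stmt_SHL` and `H58.stmt_InfJvInj`.
-/

set_option autoImplicit false

namespace Fermat.Agent.S55.CFT.H58

theorem stmt_LocInfImage : Stmt_LocInfImage :=
  H72.stmt_LocInfImage_of stmt_SHL stmt_InfJvInj

end Fermat.Agent.S55.CFT.H58
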