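import Fermat.Agent.S55.CFT.H58_SHLAbs

/-!
# CFT package SHL (helper58), part 2: the field part

For a finite group `D` acting faithfully on a field `E`, with fixed field `F' = E^D`:
`Hⁿ(D, Eˣ) ≅ Hⁿ(Gal(E/F'), Eˣ)` (`fixedIso`), and `F'` is a finite extension of a base field
`k₀` if `E` is a finite `k₀`-algebra on which `D` acts `k₀`-linearly.
-/

set_option autoImplicit false
set_option linter.unusedSectionVars false

noncomputable section

namespace Fermat.Agent.S55.CFT.H58

open CategoryTheory groupCohomology Rep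

section Field

variable (D : Type) [Group D] [Finite D] (E : Type) [Field E] [MulSemiringAction D E]
  [FaithfulSMul D E]

/-- `Hⁿ(D, Eˣ) ≅ Hⁿ(Gal(E/E^D), Eˣ)`. -/
def fixedIso (n : ℕ) :
    groupCohomology (unitsRepOf D E) n ≅
      groupCohomology (Rep.ofAlgebraAutOnUnits (FixedPoints.subfield D E) E) n :=
  mapIso (B := unitsRepOf D E) (A := Rep.ofAlgebraAutOnUnits (FixedPoints.subfield D E) E)
    (FixedPoints.toAlgAutMulEquiv D E) (LinearEquiv.refl ℤ (Additive Eˣ)) (fun g => by
      ext a
      rfl) n

lemma card_aut_fixed : Nat.card (E ≃ₐ[FixedPoints.subfield D E] E) = Nat.card D :=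
  (Nat.card_congr (FixedPoints.toAlgAutMulEquiv D E).toEquiv).symm

lemma isPGroup_aut_fixed (p : ℕ) (hD : IsPGroup p D) :
    IsPGroup p (E ≃ₐ[FixedPoints.subfield D E] E) :=
  hD.of_equiv (FixedPoints.toAlgAutMulEquiv D E)

variable (k₀ : Type) [Field k₀] [Algebra k₀ E]

/-- The fixed field as an algebra over a base field on which `D` acts trivially. -/
abbrev fixedAlgebra (hk : ∀ (d : D) (c : k₀), d • algebraMap k₀ E c = algebraMap k₀ E c) :
    Algebra k₀ (FixedPoints.subfield D E) :=
  RingHom.toAlgebra ((algebraMap k₀ E).codRestrict (FixedPoints.subfield D E)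
    (fun c d => hk d c))

lemma fixed_finiteDimensional [FiniteDimensional k₀ E]
    (hk : ∀ (d : D) (c : k₀), d • algebraMap k₀ E c = algebraMap k₀ E c) :
    letI := fixedAlgebra D E k₀ hk
    FiniteDimensional k₀ (FixedPoints.subfield D E) := by
  let _ := fixedAlgebra D E k₀ hk
  have : IsScalarTower k₀ (FixedPoints.subfield D E) E :=
    IsScalarTower.of_algebraMap_eq (fun _ => rfl)
  exact FiniteDimensional.left k₀ (FixedPoints.subfield D E) E

end Field

end Fermat.Agent.S55.CFT.H58
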