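import Fermat.Agent.S55.CFT.H58_SHLField
import Fermat.Agent.S55.CFT.LOC.H68_FundClass

/-!
# CFT package SHL (helper58), part 4: the abstract semi-local theorem

A finite `p`-group `G` acts on a finite commutative `ℚ_q`-algebra `B` (`ℚ_q`-linearly), `M` a
maximal ideal of `B` whose conjugates intersect in `0`, `G` acting faithfully on `B ⧸ M`.  Then `H¹(G, Bˣ) = 0`, `H²(G, Bˣ)` is cyclic of order `#G / #MaxSpec B`, `H³(G, Bˣ) = 0`.
(Shapiro `unitsShapiro`, Artin `fixedIso`, Hilbert 90, LOC-4.)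
-/

set_option autoImplicit false
set_option linter.unusedSectionVars false

noncomputable section

namespace Fermat.Agent.S55.CFT.H58

open CategoryTheory groupCohomology Rep

section Fin

variable (q : ℕ) [Fact q.Prime] (p : ℕ) [Fact p.Prime]
  {G : Type} [Group G] [Finite G] {B : Type} [CommRing B] [MulSemiringAction G B]
  [Algebra ℚ_[q] B] [Module.Finite ℚ_[q] B] (M : Ideal B) [hM : M.IsMaximal]

theorem shl_abstract (hG : IsPGroup p G) (hJ : OrbitSeparates G M)
    (hfaith : ∀ g : G, (∀ b : B, g • b - b ∈ M) → g = 1)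
    (hk : ∀ (g : G) (c : ℚ_[q]), g • algebraMap ℚ_[q] B c = algebraMap ℚ_[q] B c) :
    Subsingleton (groupCohomology (unitsRepOf G B) 1) ∧
    Finite (groupCohomology (unitsRepOf G B) 2) ∧
    Nat.card (groupCohomology (unitsRepOf G B) 2) * Nat.card (MaximalSpectrum B) = Nat.card G ∧
    (∃ g : groupCohomology (unitsRepOf G B) 2,
      ∀ x : groupCohomology (unitsRepOf G B) 2, ∃ n : ℤ, x = n • g) ∧
    Subsingleton (groupCohomology (unitsRepOf G B) 3) := by
  classical
  let _ : Field (B ⧸ M) := Ideal.Quotient.field M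
  have hfaith' : ∀ d : decomp G M, (∀ x : B ⧸ M, d • x = x) → d = 1 := by
    intro d hd
    apply Subtype.ext
    apply hfaith
    intro b
    have h1 := hd (Ideal.Quotient.mk M b)
    rw [quot_smul_mk] at h1
    exact Ideal.Quotient.eq.1 h1
  have : FaithfulSMul (decomp G M) (B ⧸ M) := ⟨fun {d₁ d₂} h => by
    have h1 : d₂⁻¹ * d₁ = 1 := hfaith' _ (fun x => by
      rw [mul_smul, h x, inv_smul_smul])
    exact (inv_mul_eq_one.1 h1).symm⟩
  have hk' : ∀ (d : decomp G M) (c : ℚ_[q]),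
      d • algebraMap ℚ_[q] (B ⧸ M) c = algebraMap ℚ_[q] (B ⧸ M) c := by
    intro d c
    have h1 : algebraMap ℚ_[q] (B ⧸ M) c = Ideal.Quotient.mk M (algebraMap ℚ_[q] B c) := rfl
    rw [h1, quot_smul_mk, hk]
  let _ : Algebra ℚ_[q] (FixedPoints.subfield (decomp G M) (B ⧸ M)) :=
    fixedAlgebra (decomp G M) (B ⧸ M) ℚ_[q] hk'
  have : FiniteDimensional ℚ_[q] (FixedPoints.subfield (decomp G M) (B ⧸ M)) :=
    fixed_finiteDimensional (decomp G M) (B ⧸ M) ℚ_[q] hk'
  have hD : IsPGroup p (decomp G M) := hG.to_subgroup _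
  have hP := isPGroup_aut_fixed (decomp G M) (B ⧸ M) p hD
  obtain ⟨hcard, γ, hγ⟩ := LOC.H68.stmt_LocalH2CyclicP q p
    (FixedPoints.subfield (decomp G M) (B ⧸ M)) (B ⧸ M) hP
  have h3 := LOC.H68.stmt_LocalH3 q p
    (FixedPoints.subfield (decomp G M) (B ⧸ M)) (B ⧸ M) hP
  have e : ∀ n : ℕ, groupCohomology (unitsRepOf G B) n ≃ₗ[ℤ]
      groupCohomology (Rep.ofAlgebraAutOnUnits (FixedPoints.subfield (decomp G M) (B ⧸ M))
        (B ⧸ M)) n := fun n =>
    (unitsShapiro hJ n ≪≫ fixedIso (decomp G M) (B ⧸ M) n).toLinearEquiv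
  have hc2 : Nat.card (groupCohomology (unitsRepOf G B) 2) = Nat.card (decomp G M) := by
    rw [Nat.card_congr (e 2).toEquiv]
    have := hcard
    rw [LOC.unitsRep] at this
    rw [this]
    let _ : Fintype (decomp G M) := Fintype.ofFinite _
    rw [FixedPoints.finrank_eq_card, Nat.card_eq_fintype_card]
  refine ⟨?_, ?_, ?_, ?_, ?_⟩
  · have : Subsingleton (groupCohomology (Rep.ofAlgebraAutOnUnits
        (FixedPoints.subfield (decomp G M) (B ⧸ M)) (B ⧸ M)) 1) :=
      (groupCohomology.H1ofAutOnUnitsUnique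
        (FixedPoints.subfield (decomp G M) (B ⧸ M)) (B ⧸ M)).instSubsingleton
    exact (e 1).toEquiv.subsingleton
  · apply Nat.finite_of_card_ne_zero
    rw [hc2]
    exact Nat.card_pos.ne'
  · rw [hc2, mul_comm]
    exact card_maximalSpectrum_mul hJ
  · refine ⟨(e 2).symm γ, fun x => ?_⟩
    obtain ⟨n, hn⟩ := hγ (e 2 x)
    refine ⟨n, ?_⟩
    rw [← map_zsmul, ← hn, LinearEquiv.symm_apply_apply]
  · have : Subsingleton (groupCohomology (Rep.ofAlgebraAutOnUnits
        (FixedPoints.subfield (decomp G M) (B ⧸ M)) (B ⧸ M)) 3) := h3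
    exact (e 3).toEquiv.subsingleton

end Fin

end Fermat.Agent.S55.CFT.H58
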