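import Fermat.Agent.S55.CFT.H58_SHLSep
import Fermat.Agent.S55.CFT.H58_SHLField
import Fermat.Agent.S55.CFT.H80_SLDRing
import Fermat.Agent.S55.CFT.H12_Descent
import Fermat.Agent.S55.CFT.H58_SHLFin

/-!
# CFT package SHL (helper58), part 5: the semi-local algebra `K_v ⊗_K L`

`LocAlg K L v = (ℚ_q ⊗ L)/𝔪_v (ℚ_q ⊗ L)` is a nonzero reduced Artinian `ℚ_q`-algebra; its
`Gal(L/K)`-invariants come from `ℚ_q ⊗ K` (trace), so every element of a maximal ideal has norm
`0`, `Gal(L/K)` permutes the maximal ideals transitively and the conjugates of a maximal ideal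
intersect in `0`; `Gal(L/K)` acts faithfully on every residue field.  Hence `shl_place`.
-/

set_option autoImplicit false
set_option linter.unusedSectionVars false

noncomputable section

namespace Fermat.Agent.S55.CFT.H58

open NumberField TensorProduct CategoryTheory

section Loc

variable (K L : Type) [Field K] [Field L] [NumberField K] [NumberField L] [Algebra K L]
  (v : Place K)

instance locAlg_finite : Module.Finite (Qp v.1) (LocAlg K L v) := inferInstance

instance locAlg_isArtinian : IsArtinianRing (LocAlg K L v) :=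
  IsArtinianRing.of_finite (Qp v.1) _

instance locAlg_isReduced : IsReduced (LocAlg K L v) := by
  have : Algebra.FormallyUnramified ℚ L := Algebra.FormallyUnramified.of_isSeparable ℚ L
  have h1 : Algebra.FormallyUnramified (Qp v.1) (SemiLocal L v.1) := inferInstance
  have h2 : Algebra.FormallyUnramified (Qp v.1) (LocAlg K L v) :=
    Algebra.FormallyUnramified.of_surjective (Ideal.Quotient.mkₐ (Qp v.1) (placeIdeal K L v))
      Ideal.Quotient.mk_surjective
  exact Algebra.FormallyUnramified.isReduced_of_field (Qp v.1) (LocAlg K L v)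

/-- `𝔪_v (ℚ_q ⊗ L)` is a proper ideal. -/
theorem placeIdeal_ne_top : placeIdeal K L v ≠ ⊤ := by
  classical
  obtain ⟨q, w⟩ := v
  let _ : Fintype (MaximalSpectrum (SemiLocal K q)) := Fintype.ofFinite _
  intro htop
  have hidem : IsIdempotentElem (H80.wIdem K L q w) := (H80.wIdem_complete K L q).idem w
  have h1 : (1 : SemiLocal L q) ∈ Ideal.span {1 - H80.wIdem K L q w} := by
    rw [← H80.placeIdeal_eq_span K L q w, htop]
    trivial
  obtain ⟨c, hc⟩ := Ideal.mem_span_singleton'.1 h1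
  have h2 : H80.wIdem K L q w = 0 := by
    have h3 : H80.wIdem K L q w = c * (1 - H80.wIdem K L q w) * H80.wIdem K L q w := by
      rw [hc, one_mul]
    rw [h3, mul_assoc, sub_mul, one_mul, hidem.eq, sub_self, mul_zero]
  have h4 : H80.vIdem K q w = 0 := by
    apply H12.semiLocalMap_injective K L q
    rw [map_zero]
    exact h2
  have h5 := H80.mk_vIdem_self K q w
  rw [h4, map_zero] at h5
  have : Nontrivial (SemiLocal K q ⧸ w.asIdeal) :=
    Ideal.Quotient.nontrivial_iff.2 w.isMaximal.ne_top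
  exact zero_ne_one h5

instance locAlg_nontrivial : Nontrivial (LocAlg K L v) :=
  Ideal.Quotient.nontrivial_iff.2 (placeIdeal_ne_top K L v)

/-- The structure map `ℚ_q ⊗ K → K_v ⊗_K L`. -/
def locBase : SemiLocal K v.1 →+* LocAlg K L v :=
  (Ideal.Quotient.mk (placeIdeal K L v)).comp
    (semiLocalMap K L v.1 : SemiLocal K v.1 →+* SemiLocal L v.1)

lemma locBase_apply (a : SemiLocal K v.1) :
    locBase K L v a = Ideal.Quotient.mk (placeIdeal K L v) (semiLocalMap K L v.1 a) := rfl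

lemma locBase_eq_zero (a : SemiLocal K v.1) (ha : a ∈ v.2.asIdeal) : locBase K L v a = 0 := by
  rw [locBase_apply, Ideal.Quotient.eq_zero_iff_mem]
  exact Ideal.mem_map_of_mem _ ha

lemma locBase_mem_iff (P : Ideal (LocAlg K L v)) (hP : P ≠ ⊤) (a : SemiLocal K v.1) :
    locBase K L v a ∈ P ↔ a ∈ v.2.asIdeal := by
  have h1 : v.2.asIdeal ≤ P.comap (locBase K L v) := fun a ha => by
    rw [Ideal.mem_comap, locBase_eq_zero K L v a ha]
    exact P.zero_mem
  have h2 : P.comap (locBase K L v) ≠ ⊤ := by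
    intro h
    apply hP
    rw [Ideal.eq_top_iff_one]
    have : (1 : SemiLocal K v.1) ∈ P.comap (locBase K L v) := by rw [h]; trivial
    simpa using this
  have h3 := v.2.isMaximal.eq_of_le h2 h1
  rw [h3]
  rfl

lemma locAlg_smul_mk (σ : L ≃ₐ[K] L) (y : SemiLocal L v.1) :
    σ • (Ideal.Quotient.mk (placeIdeal K L v) y) =
      Ideal.Quotient.mk (placeIdeal K L v) (σ • y) := rfl

/-- The `Gal(L/K)`-invariants of `K_v ⊗_K L` come from `ℚ_q ⊗ K`. -/
theorem locAlg_exists_of_invariant [IsGalois K L] (b : LocAlg K L v)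
    (hb : ∀ σ : L ≃ₐ[K] L, σ • b = b) : ∃ a : SemiLocal K v.1, locBase K L v a = b := by
  classical
  obtain ⟨y, rfl⟩ := Ideal.Quotient.mk_surjective b
  have hn : ((Module.finrank K L : ℕ) : Qp v.1) ≠ 0 := by
    exact_mod_cast (Module.finrank_pos (R := K) (M := L)).ne'
  refine ⟨algebraMap (Qp v.1) (SemiLocal K v.1) ((Module.finrank K L : ℕ) : Qp v.1)⁻¹ *
    H12.semiLocalTrace K L v.1 y, ?_⟩
  rw [map_mul, locBase_apply, locBase_apply, H12.semiLocalMap_trace, map_sum]
  have h1 : ∀ σ : L ≃ₐ[K] L, Ideal.Quotient.mk (placeIdeal K L v) (σ • y) =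
      Ideal.Quotient.mk (placeIdeal K L v) y := fun σ => by
    rw [← locAlg_smul_mk, hb]
  rw [Finset.sum_congr rfl (fun σ _ => h1 σ), Finset.sum_const, Finset.card_univ,
    ← Nat.card_eq_fintype_card, IsGalois.card_aut_eq_finrank, AlgHom.commutes,
    nsmul_eq_mul, ← mul_assoc]
  have h2 : Ideal.Quotient.mk (placeIdeal K L v)
      (algebraMap (Qp v.1) (SemiLocal L v.1) ((Module.finrank K L : ℕ) : Qp v.1)⁻¹) *
      ((Module.finrank K L : ℕ) : LocAlg K L v) = 1 := by
    rw [← map_natCast (Ideal.Quotient.mk (placeIdeal K L v)), ← map_mul,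
      ← map_natCast (algebraMap (Qp v.1) (SemiLocal L v.1)), ← map_mul, inv_mul_cancel₀ hn,
      map_one, map_one]
  rw [h2, one_mul]

/-- Every element of a maximal ideal of `K_v ⊗_K L` has a conjugate in `M` (its norm is `0`). -/
theorem locAlg_exists_smul_mem [IsGalois K L] (M : Ideal (LocAlg K L v)) [hM : M.IsMaximal]
    (P : Ideal (LocAlg K L v)) (hP : P.IsMaximal) (b : LocAlg K L v) (hb : b ∈ P) :
    ∃ g : L ≃ₐ[K] L, g • b ∈ M := by
  classical
  have hinv : ∀ σ : L ≃ₐ[K] L, σ • (∏ g : L ≃ₐ[K] L, g • b) = ∏ g : L ≃ₐ[K] L, g • b :=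
    fun σ => Finset.smul_prod_perm b σ
  obtain ⟨a, ha⟩ := locAlg_exists_of_invariant K L v _ hinv
  have hmem : (∏ g : L ≃ₐ[K] L, g • b) ∈ P := by
    rw [← Finset.mul_prod_erase Finset.univ _ (Finset.mem_univ (1 : L ≃ₐ[K] L)), one_smul]
    exact P.mul_mem_right _ hb
  rw [← ha, locBase_mem_iff K L v P hP.ne_top] at hmem
  have h0 : (∏ g : L ≃ₐ[K] L, g • b) ∈ M := by
    rw [← ha, locBase_mem_iff K L v M hM.ne_top]
    exact hmem
  obtain ⟨g, -, hg⟩ := (hM.isPrime.prod_mem_iff).1 h0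
  exact ⟨g, hg⟩

theorem locAlg_orbitSeparates [IsGalois K L] (M : Ideal (LocAlg K L v)) [hM : M.IsMaximal] :
    OrbitSeparates (L ≃ₐ[K] L) M :=
  orbitSeparates_of_forall (fun P hP b hb => locAlg_exists_smul_mem K L v M P hP b hb)

/-- `L → K_v ⊗_K L`. -/
def locIncl : L →+* LocAlg K L v :=
  (Ideal.Quotient.mk (placeIdeal K L v)).comp
    ((Algebra.TensorProduct.includeRight : L →ₐ[ℚ] SemiLocal L v.1) : L →+* SemiLocal L v.1)

lemma locIncl_smul (g : L ≃ₐ[K] L) (x : L) :
    g • locIncl K L v x = locIncl K L v (g x) := by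
  change Ideal.Quotient.mk (placeIdeal K L v)
    (semiLocalEquiv K L v.1 g ((1 : Qp v.1) ⊗ₜ[ℚ] x)) = _
  rw [semiLocalEquiv_tmul]
  rfl

theorem locAlg_faithful (M : Ideal (LocAlg K L v)) [hM : M.IsMaximal]
    (g : L ≃ₐ[K] L) (hg : ∀ b : LocAlg K L v, g • b - b ∈ M) : g = 1 := by
  apply AlgEquiv.ext
  intro x
  rw [AlgEquiv.one_apply]
  by_contra hne
  have h1 := hg (locIncl K L v x)
  rw [locIncl_smul, ← RingHom.map_sub] at h1
  have h2 : IsUnit (g x - x) := IsUnit.mk0 _ (sub_ne_zero.2 hne)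
  exact hM.ne_top (Ideal.eq_top_of_isUnit_mem M h1 (h2.map (locIncl K L v)))

lemma locAlg_smul_algebraMap (σ : L ≃ₐ[K] L) (c : Qp v.1) :
    σ • algebraMap (Qp v.1) (LocAlg K L v) c = algebraMap (Qp v.1) (LocAlg K L v) c := by
  change Ideal.Quotient.mk (placeIdeal K L v)
    (semiLocalEquiv K L v.1 σ (algebraMap (Qp v.1) (SemiLocal L v.1) c)) = _
  rw [AlgEquiv.commutes]
  rfl

/-- **SHL** for one place. -/
theorem shl_place (p m : ℕ) (h : Hyp3 K L p m) :
    Subsingleton (groupCohomology (unitsRepOf (L ≃ₐ[K] L) (LocAlg K L v)) 1) ∧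
    Finite (groupCohomology (unitsRepOf (L ≃ₐ[K] L) (LocAlg K L v)) 2) ∧
    Nat.card (groupCohomology (unitsRepOf (L ≃ₐ[K] L) (LocAlg K L v)) 2) *
      Nat.card (MaximalSpectrum (LocAlg K L v)) = Module.finrank K L ∧
    (∃ g : groupCohomology (unitsRepOf (L ≃ₐ[K] L) (LocAlg K L v)) 2,
      ∀ x : groupCohomology (unitsRepOf (L ≃ₐ[K] L) (LocAlg K L v)) 2, ∃ n : ℤ, x = n • g) ∧
    Subsingleton (groupCohomology (unitsRepOf (L ≃ₐ[K] L) (LocAlg K L v)) 3) := by
  have hgal : IsGalois K L := h.gal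
  have hq : Fact ((v.1 : ℕ)).Prime := fact_primes v.1
  have hp : Fact p.Prime := ⟨h.prime⟩
  obtain ⟨M, hM⟩ := Ideal.exists_maximal (LocAlg K L v)
  have hG : IsPGroup p (L ≃ₐ[K] L) :=
    IsPGroup.of_card (n := m) (by rw [IsGalois.card_aut_eq_finrank, h.deg])
  have := shl_abstract (v.1 : ℕ) p M hG (locAlg_orbitSeparates K L v M)
    (locAlg_faithful K L v M) (locAlg_smul_algebraMap K L v)
  rw [IsGalois.card_aut_eq_finrank] at this
  exact this

end Loc

end Fermat.Agent.S55.CFT.H58
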