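import Fermat.Agent.S55.CFT.H58_SHLAbs

/-!
# CFT leaf THL-W (helper58), part 1: the abstract counting

`G` a finite group acting on a commutative ring `B`, `Mx` a maximal ideal, `D` its stabiliser,
`F → B` a `G`-invariant field, `E = B ⧸ Mx`.  If every `F`-automorphism of `E` acts on a primitive
`n`-th root of unity `ζ` by a power of `t = θ(β)` and the elements of `G` are separated by their
values on a lift of `ζ`, then `#D ≤ orderOf t`.
-/

set_option autoImplicit false
set_option linter.unusedSectionVars false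

noncomputable section

namespace Fermat.Agent.S55.CFT.H58

section THLW

variable {G : Type} [Group G] [Finite G] {B : Type} [CommRing B] [MulSemiringAction G B]
  (Mx : Ideal B) [hM : Mx.IsMaximal] {F : Type} [Field F] (φ : F →+* B)
  (k₀ : Type) [Field k₀] [Algebra k₀ F] [Algebra k₀ B] [Module.Finite k₀ B]
  (n : ℕ) [NeZero n] (θ : Fˣ → (ZMod n)ˣ)

theorem card_decomp_le_orderOf (hφ : ∀ (g : G) (x : F), g • φ x = φ x)
    (hk : ∀ c : k₀, φ (algebraMap k₀ F c) = algebraMap k₀ B c)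
    (hgen : ∀ (E : Type) [Field E] [Algebra F E] [FiniteDimensional F E] (ζ : E),
      IsPrimitiveRoot ζ n →
        ∃ β : Fˣ, ∀ σ : E ≃ₐ[F] E, ∃ j : ℕ,
          σ ζ = ζ ^ (((θ β) ^ j : (ZMod n)ˣ) : ZMod n).val)
    (ζB : B) (hζ : IsPrimitiveRoot (Ideal.Quotient.mk Mx ζB) n)
    (hdet : ∀ g g' : G, g • ζB - g' • ζB ∈ Mx → g = g') :
    ∃ β : Fˣ, Nat.card (decomp G Mx) ≤ orderOf (θ β) := by
  classical
  let _ : Field (B ⧸ Mx) := Ideal.Quotient.field Mx
  let _ : Algebra F (B ⧸ Mx) := ((Ideal.Quotient.mk Mx).comp φ).toAlgebra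
  have halg : ∀ x : F, algebraMap F (B ⧸ Mx) x = Ideal.Quotient.mk Mx (φ x) := fun _ => rfl
  have : IsScalarTower k₀ F (B ⧸ Mx) := IsScalarTower.of_algebraMap_eq (fun c => by
    rw [halg, hk]
    rfl)
  have : Module.Finite k₀ (B ⧸ Mx) := inferInstance
  have : FiniteDimensional F (B ⧸ Mx) := Module.Finite.right k₀ F (B ⧸ Mx)
  obtain ⟨β, hβ⟩ := hgen (B ⧸ Mx) (Ideal.Quotient.mk Mx ζB) hζ
  refine ⟨β, ?_⟩
  let σ : decomp G Mx → ((B ⧸ Mx) ≃ₐ[F] (B ⧸ Mx)) := fun d =>
    AlgEquiv.ofRingEquiv (f := MulSemiringAction.toRingEquiv (decomp G Mx) (B ⧸ Mx) d)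
      (fun x => by
        rw [halg]
        show d • Ideal.Quotient.mk Mx (φ x) = _
        rw [quot_smul_mk, hφ])
  have hσ : ∀ (d : decomp G Mx) (b : B),
      σ d (Ideal.Quotient.mk Mx b) = Ideal.Quotient.mk Mx ((d : G) • b) := fun _ _ => rfl
  choose j hj using fun d => hβ (σ d)
  have hinj : Function.Injective (fun d : decomp G Mx =>
      (⟨(θ β) ^ (j d), Subgroup.npow_mem_zpowers _ _⟩ : Subgroup.zpowers (θ β))) := by
    intro d d' h
    have h0 : (θ β) ^ (j d) = (θ β) ^ (j d') := congrArg Subtype.val h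
    have h1 : σ d (Ideal.Quotient.mk Mx ζB) = σ d' (Ideal.Quotient.mk Mx ζB) := by
      rw [hj d, hj d', h0]
    rw [hσ, hσ] at h1
    exact Subtype.ext (hdet _ _ (Ideal.Quotient.eq.1 h1))
  calc Nat.card (decomp G Mx) ≤ Nat.card (Subgroup.zpowers (θ β)) :=
        Nat.card_le_card_of_injective _ hinj
    _ = orderOf (θ β) := Nat.card_zpowers _

end THLW

end Fermat.Agent.S55.CFT.H58
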