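import Fermat.Agent.S55.CFT.Defs_THL
import Fermat.Agent.S55.CFT.H58_THLWAbs
import Fermat.Agent.S55.CFT.H58_SHLLoc
import Fermat.Agent.S55.CFT.H19_CycLoc

/-!
# CFT leaf THL-W (helper58): `Stmt_THL_Gen → Stmt_THL_Ord`

For `L = K(ζ_{p^M})` and a place `v` of `K` with local degree `d`, some value of the local symbol
`θ_v` has order at least `d`: the decomposition group `D` of a maximal ideal `Mx` of
`B = K_v ⊗_K L` has `d` elements, acts on `B ⧸ Mx` by `K_v`-automorphisms, and is separated by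
its values on `ζ`.
-/

set_option autoImplicit false
set_option linter.unusedSectionVars false

noncomputable section

namespace Fermat.Agent.S55.CFT.H58

open NumberField TensorProduct CategoryTheory
open Fermat.Agent.S55.CFT

section Concrete

variable (K L : Type) [Field K] [Field L] [NumberField K] [NumberField L] [Algebra K L]
  (v : Place K)

lemma locAlgTower_algebraMap (c : Qp v.1) :
    locAlgTower K K L v (algebraMap (Qp v.1) (LocAlg K K v) c) =
      algebraMap (Qp v.1) (LocAlg K L v) c := by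
  change Ideal.Quotient.mk _ (semiLocalMap K L v.1 (algebraMap (Qp v.1) (SemiLocal K v.1) c)) = _
  rw [AlgHom.commutes]
  rfl

lemma locIncl_injective : Function.Injective (locIncl K L v) :=
  (locIncl K L v).injective

/-- The elements of `Gal(L/K)` are separated modulo `Mx` by their values on a generator. -/
lemma eq_of_smul_locIncl_sub_mem (Mx : Ideal (LocAlg K L v)) (hM : Mx.IsMaximal) (ζ : L)
    (htop : Algebra.adjoin K ({ζ} : Set L) = ⊤) (g g' : L ≃ₐ[K] L)
    (h : g • locIncl K L v ζ - g' • locIncl K L v ζ ∈ Mx) : g = g' := by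
  have h1 : g ζ = g' ζ := by
    by_contra hne
    rw [locIncl_smul, locIncl_smul, ← RingHom.map_sub] at h
    have h2 : IsUnit (g ζ - g' ζ) := IsUnit.mk0 _ (sub_ne_zero.2 hne)
    exact hM.ne_top (Ideal.eq_top_of_isUnit_mem Mx h (h2.map (locIncl K L v)))
  have h3 : (g : L →ₐ[K] L) = (g' : L →ₐ[K] L) := by
    apply AlgHom.ext_of_adjoin_eq_top htop
    intro x hx
    rw [Set.mem_singleton_iff] at hx
    subst hx
    exact h1
  exact AlgEquiv.coe_toAlgHom_injective h3

end Concrete

/-- **THL-W**. -/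
theorem stmt_THL_Ord_of (hGen : Stmt_THL_Gen) : Stmt_THL_Ord := by
  intro p M K L _ _ _ _ _ hodd hζK hcyc v d hd
  classical
  have hne : NeZero ((p : ℕ) ^ M) := ⟨pow_ne_zero _ p.2.ne_zero⟩
  have hgal : IsGalois K L := IsCyclotomicExtension.isGalois {(p : ℕ) ^ M} K L
  have hζL : IsPrimitiveRoot (IsCyclotomicExtension.zeta ((p : ℕ) ^ M) K L) ((p : ℕ) ^ M) :=
    IsCyclotomicExtension.zeta_spec ((p : ℕ) ^ M) K L
  have htop := IsCyclotomicExtension.adjoin_primitive_root_eq_top (A := K) (B := L) hζL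
  obtain ⟨Mx, hMx⟩ := Ideal.exists_maximal (LocAlg K L v)
  have hmaxF : (placeIdeal K K v).IsMaximal := by
    rw [H19.placeIdeal_self]
    exact v.2.isMaximal
  let _ : Field (LocAlg K K v) := Ideal.Quotient.field (placeIdeal K K v)
  have hnt : Nontrivial (LocAlg K L v ⧸ Mx) := Ideal.Quotient.nontrivial_iff.2 hMx.ne_top
  obtain ⟨η, hη⟩ := hζK
  obtain ⟨β, hβ⟩ := card_decomp_le_orderOf (G := L ≃ₐ[K] L) (B := LocAlg K L v) Mx
    (F := LocAlg K K v) (locAlgTower K K L v) (Qp v.1) ((p : ℕ) ^ M)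
    (fun β => thetaAlg p M v.1 (LocAlg K K v) β)
    (fun g x => H19.smul_locAlgTower K L v g x)
    (fun c => locAlgTower_algebraMap K L v c)
    (fun E _ _ _ ζ hζ => hGen p M v.1 (LocAlg K K v) E hodd
      ⟨locIncl K K v η, hη.map_of_injective (locIncl_injective K K v)⟩ ζ hζ)
    (locIncl K L v (IsCyclotomicExtension.zeta ((p : ℕ) ^ M) K L))
    (hζL.map_of_injective (f := (Ideal.Quotient.mk Mx).comp (locIncl K L v))
      (RingHom.injective _))
    (fun g g' h => eq_of_smul_locIncl_sub_mem K L v Mx hMx _ htop g g' h)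
  refine ⟨β, le_trans (le_of_eq ?_) hβ⟩
  have h1 := card_maximalSpectrum_mul (locAlg_orbitSeparates K L v Mx)
  rw [IsGalois.card_aut_eq_finrank, ← hd, mul_comm] at h1
  have hpos : 0 < Nat.card (MaximalSpectrum (LocAlg K L v)) := by
    have : Nonempty (MaximalSpectrum (LocAlg K L v)) := ⟨⟨Mx, hMx⟩⟩
    exact Nat.card_pos
  exact (Nat.eq_of_mul_eq_mul_right hpos h1).symm

end Fermat.Agent.S55.CFT.H58
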