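/-
S55 package E4, island GLB, wave 3, wiring W-Two (helper61), part 1: plumbing.

* `locMap_infL`       : localisation commutes with inflation in a tower `K ⊆ L ⊆ N`;
* `locHom_eq_proj`    : the local component of `e ∈ Kˣ` is the component of its diagonal idele;
* `IsLocNorm` is stable under products and inverses;
* `isLocNorm_proj_normLK` : the components of a norm idele are local norms;
* `secHom_mem_range_normLK` : an idele supported at one place whose component is a local norm is a
  norm idele.
-/
import Fermat.Agent.S55.CFT.Defs_BR3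
import Fermat.Agent.S55.CFT.H80_SLD
import Fermat.Agent.S55.CFT.H12_IdeleBase

set_option autoImplicit false
set_option linter.style.haveILetI false
set_option linter.unusedSectionVars false

open NumberField TensorProduct CategoryTheory

noncomputable section

namespace Fermat.Agent.S55.CFT.H61

open Fermat.Agent.S55.CFT groupCohomology

section tower

variable (K L N : Type) [Field K] [Field L] [Field N] [NumberField K] [NumberField L]
  [NumberField N] [Algebra K L] [Algebra K N] [Algebra L N] [IsScalarTower K L N] [Normal K L]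

/-- Localisation commutes with inflation. -/
theorem locMap_infL (v : Place K) (n : ℕ) (x : groupCohomology (repL K L) n) :
    locMap K N v n (infL K L N n x) = infJv K L N v n (locMap K L v n x) := by
  have h1 := groupCohomology.map_comp (A := repL K L) (B := repJv K L v) (C := repJv K N v)
    (MonoidHom.id (L ≃ₐ[K] L)) (AlgEquiv.restrictNormalHom (F := K) (K₁ := N) L)
    (locRep K L v) (infRepJv K L N v) n
  have h2 := groupCohomology.map_comp (A := repL K L) (B := repL K N) (C := repJv K N v)
    (AlgEquiv.restrictNormalHom (F := K) (K₁ := N) L) (MonoidHom.id (N ≃ₐ[K] N))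
    (infRepL K L N) (locRep K N v) n
  have h3 : groupCohomology.map
      ((MonoidHom.id (L ≃ₐ[K] L)).comp (AlgEquiv.restrictNormalHom (F := K) (K₁ := N) L))
      ((Rep.resFunctor (AlgEquiv.restrictNormalHom (F := K) (K₁ := N) L)).map (locRep K L v)
        ≫ infRepJv K L N v) n
      = groupCohomology.map
      ((AlgEquiv.restrictNormalHom (F := K) (K₁ := N) L).comp (MonoidHom.id (N ≃ₐ[K] N)))
      ((Rep.resFunctor (MonoidHom.id (N ≃ₐ[K] N))).map (infRepL K L N) ≫ locRep K N v) n := by
    apply groupCohomology.map_congr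
    · rfl
    · apply LinearMap.ext
      intro x
      apply congrArg Additive.ofMul
      apply Units.ext
      change locAlgTower K L N v (Ideal.Quotient.mk _ ((1 : Qp v.1) ⊗ₜ[ℚ] ((Additive.toMul x : Lˣ) : L)))
        = Ideal.Quotient.mk _ ((1 : Qp v.1) ⊗ₜ[ℚ] (algebraMap L N ((Additive.toMul x : Lˣ) : L)))
      change Ideal.Quotient.mk _ (semiLocalMap L N v.1 ((1 : Qp v.1) ⊗ₜ[ℚ] ((Additive.toMul x : Lˣ) : L)))
        = _
      congr 1
  rw [h1, h2] at h3
  have h4 := congrArg (fun f => f.hom x) h3
  simp only [ModuleCat.hom_comp, LinearMap.coe_comp, Function.comp_apply] at h4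
  exact h4.symm

end tower

section abstract_norm

variable (G : Type) {M : Type} [Group G] [Finite G] [CommGroup M] [MulDistribMulAction G M]

theorem finprod_smul_mul (y z : M) :
    ∏ᶠ σ : G, σ • (y * z) = (∏ᶠ σ : G, σ • y) * ∏ᶠ σ : G, σ • z := by
  haveI : Fintype G := Fintype.ofFinite G
  rw [finprod_eq_prod_of_fintype, finprod_eq_prod_of_fintype, finprod_eq_prod_of_fintype,
    ← Finset.prod_mul_distrib]
  exact Finset.prod_congr rfl fun σ _ => smul_mul' σ y z

theorem finprod_smul_inv (y : M) : ∏ᶠ σ : G, σ • y⁻¹ = (∏ᶠ σ : G, σ • y)⁻¹ := by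
  haveI : Fintype G := Fintype.ofFinite G
  rw [finprod_eq_prod_of_fintype, finprod_eq_prod_of_fintype, ← Finset.prod_inv_distrib]
  exact Finset.prod_congr rfl fun σ _ => smul_inv' σ y

theorem finprod_smul_pow (y : M) (n : ℕ) : ∏ᶠ σ : G, σ • (y ^ n) = (∏ᶠ σ : G, σ • y) ^ n := by
  haveI : Fintype G := Fintype.ofFinite G
  rw [finprod_eq_prod_of_fintype, finprod_eq_prod_of_fintype, ← Finset.prod_pow]
  exact Finset.prod_congr rfl fun σ _ => smul_pow' σ y n

end abstract_norm

section local_norms

variable (K L : Type) [Field K] [Field L] [NumberField K] [NumberField L] [Algebra K L]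

/-- The local component of `e ∈ Kˣ` at a place above `T` is the component of its diagonal
idele. -/
theorem locHom_eq_proj (T : Finset Nat.Primes) (q : T) (v : MaximalSpectrum (SemiLocal K q.1))
    (e : Kˣ) : locHom K K ⟨q.1, v⟩ e = projIdele K K T q v (diagIdele K T e) := by
  apply Units.ext
  rfl

theorem isLocNorm_one (v : Place K) : IsLocNorm K L v 1 := by
  refine ⟨1, ?_⟩
  rw [map_one]
  simp

theorem IsLocNorm.mul {v : Place K} {α β : (LocAlg K K v)ˣ} (hα : IsLocNorm K L v α)
    (hβ : IsLocNorm K L v β) : IsLocNorm K L v (α * β) := by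
  obtain ⟨y, hy⟩ := hα
  obtain ⟨z, hz⟩ := hβ
  refine ⟨y * z, ?_⟩
  rw [map_mul, ← hy, ← hz]
  exact finprod_smul_mul (L ≃ₐ[K] L) y z

theorem IsLocNorm.inv {v : Place K} {α : (LocAlg K K v)ˣ} (hα : IsLocNorm K L v α) :
    IsLocNorm K L v α⁻¹ := by
  obtain ⟨y, hy⟩ := hα
  refine ⟨y⁻¹, ?_⟩
  rw [map_inv, ← hy]
  exact finprod_smul_inv (L ≃ₐ[K] L) y

end local_norms

section norms

variable (K L : Type) [Field K] [Field L] [NumberField K] [NumberField L] [Algebra K L]
  (T : Finset Nat.Primes)

/-- Base change of ideles, componentwise. -/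
theorem proj_baseIdele (q : T) (v : MaximalSpectrum (SemiLocal K q.1)) (x : IdeleT K T) :
    projIdele K L T q v (baseIdele K L T x) =
      Units.map (locAlgTower K K L ⟨q.1, v⟩ : LocAlg K K ⟨q.1, v⟩ →* LocAlg K L ⟨q.1, v⟩)
        (projIdele K K T q v x) := by
  apply Units.ext
  rfl

/-- The components of a norm idele are local norms. -/
theorem isLocNorm_proj_normLK [IsGalois K L] (q : T) (v : MaximalSpectrum (SemiLocal K q.1))
    (y : IdeleT L T) : IsLocNorm K L ⟨q.1, v⟩ (projIdele K K T q v (normLK K L T y)) := by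
  refine ⟨projIdele K L T q v y, ?_⟩
  rw [← proj_baseIdele, H12.baseIdele_normLK, finprod_eq_prod_of_fintype, map_prod]
  exact Finset.prod_congr rfl (fun σ _ => (projIdele_smul K L T q v σ y).symm)

open Classical in
/-- An idele supported at one place whose component is a local norm is a norm idele. -/
theorem secHom_mem_range_normLK [IsGalois K L] (ω : H80.PlaceT K T)
    (β : (LocAlg K K ⟨ω.1.1, ω.2⟩)ˣ) (hβ : IsLocNorm K L ⟨ω.1.1, ω.2⟩ β) :
    H80.secHom K K T ω β ∈ (normLK K L T).range := by
  obtain ⟨y', hy'⟩ := hβ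
  refine ⟨H80.secHom K L T ω y', ?_⟩
  apply H12.baseIdele_injective K L T
  rw [H12.baseIdele_normLK]
  have e1 : ∏ σ : L ≃ₐ[K] L, σ • H80.secHom K L T ω y'
      = H80.secHom K L T ω (∏ σ : L ≃ₐ[K] L, σ • y') := by
    rw [map_prod]
    exact Finset.prod_congr rfl (fun σ _ => (H80.secHom_smul K L T σ ω y').symm)
  rw [e1, ← finprod_eq_prod_of_fintype, hy']
  apply H80.compHom_injective K L T
  funext ω'
  rw [H80.compHom_secHom, H80.compHom_apply, proj_baseIdele]
  by_cases h : ω' = ω
  · subst h
    rw [Pi.mulSingle_eq_same, H80.proj_secHom_self]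
  · rw [Pi.mulSingle_eq_of_ne h, H80.proj_secHom_ne K K T ω ω' h, map_one]

end norms

end Fermat.Agent.S55.CFT.H61
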