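/-
S55 package E4, island GLB, wave 3, wiring W-Two (helper61), part 2: the tower form.

`brTwo_tower`: for towers `K ⊆ L ⊆ N`, `K ⊆ L' ⊆ N` with `L' = K(ζ_{p^M})` cyclic over `K`,
`N/K` a Galois `p`-extension, `[L : K] = p^m`, `T` admissible for `L'/K`, two places
`v₁ ≠ v₂` of `K` above `T` at which the local degree of `L'/K` is divisible by `p^m`, and a
local class `b` of `L/K` at `v₁`: there is a class of `H²(Gal(N/K), Nˣ)` with `v₁`-component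
`inf b` and trivial components outside `{v₁, v₂}`.

Inputs: `Stmt_LocInfImage`, `Stmt_InfJvInj`, `Stmt_CycClass`, `Stmt_THL`, `Stmt_CycRec`,
`Stmt_UnrNorm`.
-/
import Fermat.Agent.S55.CFT.H61_WTwoLoc
import Fermat.Agent.S55.CFT.H56_ThetaOnto
import Fermat.Agent.S55.CFT.LOC.H72_FundResAbs

set_option autoImplicit false
set_option linter.style.haveILetI false
set_option linter.unusedSectionVars false

open NumberField TensorProduct CategoryTheory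

noncomputable section

namespace Fermat.Agent.S55.CFT.H61

open Fermat.Agent.S55.CFT groupCohomology

section additive

variable {A B : Type} [CommGroup A] [AddCommGroup B] (f : A → B)
  (hf : ∀ a b, f (a * b) = f a + f b)
include hf

theorem mulAdd_one : f 1 = 0 := by
  have h := hf 1 1
  rw [mul_one] at h
  exact left_eq_add.mp h

theorem mulAdd_pow (a : A) (n : ℕ) : f (a ^ n) = n • f a := by
  induction n with
  | zero => rw [pow_zero, zero_smul, mulAdd_one f hf]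
  | succ n ih => rw [pow_succ, hf, ih, succ_nsmul]

theorem mulAdd_inv (a : A) : f a⁻¹ = -f a := by
  have h := hf a a⁻¹
  rw [mul_inv_cancel, mulAdd_one f hf] at h
  exact eq_neg_of_add_eq_zero_right h.symm

end additive

section towerform

variable (K L L' N : Type) [Field K] [Field L] [Field L'] [Field N] [NumberField K]
  [NumberField L] [NumberField L'] [NumberField N] [Algebra K L] [Algebra K L'] [Algebra K N]
  [Algebra L N] [Algebra L' N] [IsScalarTower K L N] [IsScalarTower K L' N] [Normal K L]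
  [Normal K L']

open Classical in
/-- **W-Two, tower form.** -/
theorem brTwo_tower (hLII : Stmt_LocInfImage) (hInj : Stmt_InfJvInj) (hCyc : Stmt_CycClass)
    (hTHL : Stmt_THL) (hRec : Stmt_CycRec) (hUNN : Stmt_UnrNorm)
    (p : Nat.Primes) (m m' M : ℕ) (hN : Hyp3 K N (p : ℕ) m') (hL : IsGalois K L)
    (hLdeg : Module.finrank K L = (p : ℕ) ^ m) (hL' : IsGalois K L')
    (hcyc : IsCyclotomicExtension {(p : ℕ) ^ M} K L') (hcycl : IsCyclic (L' ≃ₐ[K] L'))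
    (T : Finset Nat.Primes) (hadm : Admissible K L' T (p : ℕ))
    (q₁ q₂ : Nat.Primes) (w₁ : MaximalSpectrum (SemiLocal K q₁))
    (w₂ : MaximalSpectrum (SemiLocal K q₂))
    (hne : (⟨q₁, w₁⟩ : Place K) ≠ ⟨q₂, w₂⟩) (h₁T : q₁ ∈ T) (h₂T : q₂ ∈ T)
    (hd₁ : (p : ℕ) ^ m * Nat.card (MaximalSpectrum (LocAlg K L' ⟨q₁, w₁⟩)) ∣
      Module.finrank K L')
    (hd₂ : (p : ℕ) ^ m * Nat.card (MaximalSpectrum (LocAlg K L' ⟨q₂, w₂⟩)) ∣
      Module.finrank K L')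
    (b : groupCohomology (repJv K L ⟨q₁, w₁⟩) 2) :
    ∃ x : groupCohomology (repL K N) 2,
      locMap K N ⟨q₁, w₁⟩ 2 x = infJv K L N ⟨q₁, w₁⟩ 2 b ∧
      ∀ v : Place K, v ≠ ⟨q₁, w₁⟩ → v ≠ ⟨q₂, w₂⟩ → locMap K N v 2 x = 0 := by
  have hp2 : (p : ℕ) ≠ 2 := hN.odd
  have hζ : ∃ ζ : K, IsPrimitiveRoot ζ (p : ℕ) := hN.zeta
  -- Step 1: `inf b = inf b'`
  obtain ⟨b', hb'⟩ := hLII (p : ℕ) m' K L L' N hN hL hL' ⟨q₁, w₁⟩ (by rw [hLdeg]; exact hd₁) b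
  -- Step 2: `p^m b' = 0`
  have hb0 : ((p : ℕ) ^ m) • b = 0 := by
    have h := LOC.H72.card_nsmul_H2 (repJv K L ⟨q₁, w₁⟩) b
    rwa [IsGalois.card_aut_eq_finrank, hLdeg] at h
  have hb'0 : ((p : ℕ) ^ m) • b' = 0 := by
    apply hInj K L' N hL' hN.gal ⟨q₁, w₁⟩
    rw [map_nsmul, ← hb', ← map_nsmul, hb0, map_zero, map_zero]
  -- Step 3: cyclic classes
  obtain ⟨cyc, cycv, -, -, hcycv, hloc⟩ := hCyc K L' hL' hcycl
  have hmul := fun v => (hcycv v).1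
  have hker := fun v => (hcycv v).2.2
  obtain ⟨β₁, hβ₁⟩ := (hcycv ⟨q₁, w₁⟩).2.1 b'
  have hnorm₁ : IsLocNorm K L' ⟨q₁, w₁⟩ (β₁ ^ ((p : ℕ) ^ m)) := by
    have hpow : cycv ⟨q₁, w₁⟩ (β₁ ^ ((p : ℕ) ^ m)) = ((p : ℕ) ^ m) • cycv ⟨q₁, w₁⟩ β₁ :=
      mulAdd_pow (cycv ⟨q₁, w₁⟩) (hmul ⟨q₁, w₁⟩) β₁ _
    rw [← hker, hpow, hβ₁, hb'0]
  -- Step 4: the idele supported at `v₁`
  let ω₁ : H80.PlaceT K T := ⟨⟨q₁, h₁T⟩, w₁⟩
  let ω₂ : H80.PlaceT K T := ⟨⟨q₂, h₂T⟩, w₂⟩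
  have hω : ω₁ ≠ ω₂ := by
    intro h
    apply hne
    have h1 := congrArg (fun ω : H80.PlaceT K T => (⟨ω.1.1, ω.2⟩ : Place K)) h
    exact h1
  let x₁ : IdeleT K T := H80.secHom K K T ω₁ β₁
  have hθ₁ : cycloTheta K p M T x₁ ^ ((p : ℕ) ^ m) = 1 := by
    have h1 : x₁ ^ ((p : ℕ) ^ m) ∈ normGroup K L' T := by
      have h2 : x₁ ^ ((p : ℕ) ^ m) = H80.secHom K K T ω₁ (β₁ ^ ((p : ℕ) ^ m)) :=
        (map_pow (H80.secHom K K T ω₁) β₁ _).symm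
      rw [h2]
      exact Subgroup.mem_sup_right (secHom_mem_range_normLK K L' T ω₁ _ hnorm₁)
    have h3 := (hRec p M K L' T hp2 hcyc hadm _).1 h1
    have h4 : cycloTheta K p M T (x₁ ^ ((p : ℕ) ^ m)) = cycloTheta K p M T x₁ ^ ((p : ℕ) ^ m) :=
      map_pow (H56.cycloThetaHom K p M T) x₁ _
    rw [← h4]
    exact h3
  -- Step 5: the idele supported at `v₂`
  obtain ⟨c, hc⟩ := hd₂
  obtain ⟨x₂, hx₂s, hx₂θ⟩ := (hTHL p M K L' T hp2 hζ hcyc ⟨q₂, h₂T⟩ w₂).2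
    ((p : ℕ) ^ m * c) (cycloTheta K p M T x₁)⁻¹ (by rw [hc]; ring)
    (by rw [inv_pow, pow_mul, hθ₁, one_pow, inv_one])
  -- Step 6: reciprocity
  have hθ : cycloTheta K p M T (x₁ * x₂) = 1 := by
    have h1 : cycloTheta K p M T (x₁ * x₂) = cycloTheta K p M T x₁ * cycloTheta K p M T x₂ :=
      map_mul (H56.cycloThetaHom K p M T) x₁ x₂
    rw [h1, hx₂θ, mul_inv_cancel]
  have hmem := (hRec p M K L' T hp2 hcyc hadm _).2 hθ
  rw [normGroup, Subgroup.mem_sup] at hmem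
  obtain ⟨_, ⟨e, he, rfl⟩, _, ⟨y, rfl⟩, hey⟩ := hmem
  -- Step 7: the global class
  have key : ∀ v : Place K, locMap K N v 2 (infL K L' N 2 (cyc e))
      = infJv K L' N v 2 (cycv v (locHom K K v e)) := by
    intro v
    rw [locMap_infL, hloc]
  have hone : ∀ v : Place K, cycv v 1 = 0 := fun v => mulAdd_one (cycv v) (hmul v)
  have hproj : ∀ (q : T) (w : MaximalSpectrum (SemiLocal K q.1)),
      cycv ⟨q.1, w⟩ (locHom K K ⟨q.1, w⟩ e)
        = cycv ⟨q.1, w⟩ (projIdele K K T q w x₁) + cycv ⟨q.1, w⟩ (projIdele K K T q w x₂) := by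
    intro q w
    have h1 : diagIdele K T e = x₁ * x₂ * (normLK K L' T y)⁻¹ := by
      rw [← hey, mul_inv_cancel_right]
    have h2 : cycv ⟨q.1, w⟩ (projIdele K K T q w (normLK K L' T y)) = 0 :=
      (hker ⟨q.1, w⟩ _).2 (isLocNorm_proj_normLK K L' T q w y)
    rw [locHom_eq_proj K T q w e, h1, map_mul, map_mul, map_inv, hmul, hmul,
      mulAdd_inv (cycv ⟨q.1, w⟩) (hmul ⟨q.1, w⟩), h2, neg_zero, add_zero]
  refine ⟨infL K L' N 2 (cyc e), ?_, ?_⟩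
  · rw [key, hproj ⟨q₁, h₁T⟩ w₁, H80.proj_secHom_self K K T ω₁ β₁,
      hx₂s ⟨q₁, h₁T⟩ w₁ hω, hone, add_zero, hβ₁, ← hb']
  · rintro ⟨q, w⟩ hv₁ hv₂
    rw [key]
    by_cases hq : q ∈ T
    · have hω₁ : (⟨⟨q, hq⟩, w⟩ : H80.PlaceT K T) ≠ ω₁ := by
        intro h
        apply hv₁
        exact congrArg (fun ω : H80.PlaceT K T => (⟨ω.1.1, ω.2⟩ : Place K)) h
      have hω₂ : (⟨⟨q, hq⟩, w⟩ : H80.PlaceT K T) ≠ ω₂ := by
        intro h
        apply hv₂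
        exact congrArg (fun ω : H80.PlaceT K T => (⟨ω.1.1, ω.2⟩ : Place K)) h
      rw [hproj ⟨q, hq⟩ w, H80.proj_secHom_ne K K T ω₁ ⟨⟨q, hq⟩, w⟩ hω₁ β₁,
        hx₂s ⟨q, hq⟩ w hω₂, hone, add_zero, map_zero]
    · rw [(hker ⟨q, w⟩ _).2 (hUNN (p : ℕ) K L' T hadm e he ⟨q, w⟩ hq), map_zero]

end towerform

end Fermat.Agent.S55.CFT.H61
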