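/-
S55 package E4, island GLB, wave 3, wiring W-Two (helper61), part 3: `Stmt_BrTwo`.

`stmt_BrTwo_of`: BR-Two from DEG-GROW, LOC-INF-IMAGE, INF-JV-INJ, CYC-CLASS, THL, CYC-REC and
UNR-NORM, by the tower form `brTwo_tower` applied to `N = L(ζ_{p^M})`, `L' = K(ζ_{p^M}) ⊆ N`,
`M` large enough for both places, and an admissible `T ∋ q₁, q₂` for `L'/K`.
-/
import Fermat.Agent.S55.CFT.H61_WTwo
import Fermat.Agent.S55.CFT.H13_Fund
import Fermat.Agent.S55.CFT.H56_Admissible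
import Fermat.Agent.S55.CFT.H56_Hyp2

set_option autoImplicit false
set_option linter.style.haveILetI false
set_option linter.unusedSectionVars false

open NumberField TensorProduct CategoryTheory

noncomputable section

namespace Fermat.Agent.S55.CFT.H61

open Fermat.Agent.S55.CFT groupCohomology

open Classical in
/-- **W-Two**: BR-Two from the wave-3 leaves. -/
theorem stmt_BrTwo_of (hDG : Stmt_DegGrow) (hLII : Stmt_LocInfImage) (hInj : Stmt_InfJvInj)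
    (hCyc : Stmt_CycClass) (hTHL : Stmt_THL) (hRec : Stmt_CycRec) (hUNN : Stmt_UnrNorm) :
    Stmt_BrTwo := by
  intro p m K L _ _ _ _ _ h v₁ v₂ hne b
  haveI : IsGalois K L := h.gal
  have hp : p.Prime := h.prime
  have hodd : p ≠ 2 := h.odd
  obtain ⟨M₁, hM₁⟩ := hDG p m K hp h.zeta v₁
  obtain ⟨M₂, hM₂⟩ := hDG p m K hp h.zeta v₂
  obtain ⟨q₁, w₁⟩ := v₁
  obtain ⟨q₂, w₂⟩ := v₂
  have hneM : NeZero (p ^ max M₁ M₂) := ⟨pow_ne_zero _ hp.ne_zero⟩
  refine ⟨max M₁ M₂, hneM, ?_⟩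
  haveI := hneM
  haveI hgalN : IsGalois K (CyclotomicField (p ^ max M₁ M₂) L) :=
    H56.isGalois_cyclo K L (p ^ max M₁ M₂)
  obtain ⟨m', hm'⟩ := H13.finrank_tower_prime_pow K L (CyclotomicField (p ^ max M₁ M₂) L)
    p m (max M₁ M₂) hp h.zeta h.deg
  have hN : Hyp3 K (CyclotomicField (p ^ max M₁ M₂) L) p m' :=
    { prime := hp, odd := hodd, zeta := h.zeta, gal := hgalN, deg := hm' }
  obtain ⟨ζ, hζ⟩ : ∃ ζ : CyclotomicField (p ^ max M₁ M₂) L, IsPrimitiveRoot ζ (p ^ max M₁ M₂) :=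
    ⟨_, IsCyclotomicExtension.zeta_spec (p ^ max M₁ M₂) L _⟩
  haveI hcycK : IsCyclotomicExtension {p ^ max M₁ M₂} K ↥(IntermediateField.adjoin K {ζ}) :=
    hζ.intermediateField_adjoin_isCyclotomicExtension K
  haveI hgalL' : IsGalois K ↥(IntermediateField.adjoin K {ζ}) :=
    IsCyclotomicExtension.isGalois {p ^ max M₁ M₂} K _
  haveI : IsCyclic (ZMod (p ^ max M₁ M₂))ˣ :=
    ZMod.isCyclic_units_of_prime_pow p hp hodd (max M₁ M₂)
  have hmem : ζ ∈ IntermediateField.adjoin K {ζ} :=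
    IntermediateField.mem_adjoin_simple_self K ζ
  have hζ' : IsPrimitiveRoot (⟨ζ, hmem⟩ : ↥(IntermediateField.adjoin K {ζ}))
      (p ^ max M₁ M₂) := by
    have : IsPrimitiveRoot (algebraMap ↥(IntermediateField.adjoin K {ζ})
        (CyclotomicField (p ^ max M₁ M₂) L) ⟨ζ, hmem⟩) (p ^ max M₁ M₂) := hζ
    exact this.of_map_of_injective
      (algebraMap ↥(IntermediateField.adjoin K {ζ}) (CyclotomicField (p ^ max M₁ M₂) L)).injective
  have hcycl : IsCyclic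
      (↥(IntermediateField.adjoin K {ζ}) ≃ₐ[K] ↥(IntermediateField.adjoin K {ζ})) :=
    isCyclic_of_injective (hζ'.autToPow K) (hζ'.autToPow_injective K)
  have hcplx : IsTotallyComplex K := H56.isTotallyComplex_of_primitiveRoot p hp hodd K h.zeta
  obtain ⟨T, hT, hadm⟩ := H56.stmt_AdmissibleExists p K ↥(IntermediateField.adjoin K {ζ})
    {q₁, q₂} hp hgalL' hcplx
  have h₁T : q₁ ∈ T := hT (by simp)
  have h₂T : q₂ ∈ T := hT (by simp)
  have hd₁ := hM₁ (max M₁ M₂) (le_max_left _ _) ↥(IntermediateField.adjoin K {ζ}) hcycK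
  have hd₂ := hM₂ (max M₁ M₂) (le_max_right _ _) ↥(IntermediateField.adjoin K {ζ}) hcycK
  exact brTwo_tower K L ↥(IntermediateField.adjoin K {ζ}) (CyclotomicField (p ^ max M₁ M₂) L)
    hLII hInj hCyc hTHL hRec hUNN ⟨p, hp⟩ m m' (max M₁ M₂) hN h.gal h.deg hgalL' hcycK hcycl
    T hadm q₁ q₂ w₁ w₂ hne h₁T h₂T hd₁ hd₂ b

end Fermat.Agent.S55.CFT.H61
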