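import Fermat.Agent.S55.CFT.Defs_BR3
import Fermat.Agent.S55.CFT.LOC.H24_InfResExact

/-!
# S55/E4 wave 3, leaf IRL (helper72): inflation–restriction for `Nˣ` in a Galois tower

`stmt_InfResL : Stmt_InfResL`: for a tower `K ⊆ L ⊆ N` of finite Galois extensions, a class of
`H²(Gal(N/K), Nˣ)` which dies in `H²(Gal(N/L), Nˣ)` is inflated from `H²(Gal(L/K), Lˣ)`.

Route: helper24's cocycle-level exactness `LOC.H24.infResExact_rep` applied to
`π = restrictNormalHom L : Gal(N/K) ↠ Gal(L/K)`, `ι : Lˣ ↪ Nˣ`, with Hilbert 90 for `N/L`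
(Mathlib) and `N^{Gal(N/L)} = L`.
-/

set_option autoImplicit false
set_option linter.unusedSectionVars false

noncomputable section

namespace Fermat.Agent.S55.CFT.H72

open CategoryTheory groupCohomology Rep

section tower

variable (K L N : Type) [Field K] [Field L] [Field N] [Algebra K L] [Algebra K N] [Algebra L N]
  [IsScalarTower K L N] [Normal K L]

/-- An automorphism of `N/K` restricting to the identity of `L` is `L`-linear. -/
def liftKer (n : N ≃ₐ[K] N)
    (h : AlgEquiv.restrictNormalHom (F := K) (K₁ := N) L n = 1) : N ≃ₐ[L] N :=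
  { n.toRingEquiv with
    commutes' := fun x => by
      have h1 := AlgEquiv.restrictNormal_commutes n L x
      have h2 : n.restrictNormal L = 1 := h
      rw [h2] at h1
      exact h1.symm }

lemma liftKer_apply (n : N ≃ₐ[K] N)
    (h : AlgEquiv.restrictNormalHom (F := K) (K₁ := N) L n = 1) (x : N) :
    liftKer K L N n h x = n x := rfl

lemma restrictNormalHom_restrictScalars (s : N ≃ₐ[L] N) :
    AlgEquiv.restrictNormalHom (F := K) (K₁ := N) L (AlgEquiv.restrictScalarsHom K s) = 1 := by
  ext x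
  apply (algebraMap L N).injective
  have h1 := AlgEquiv.restrictNormal_commutes (AlgEquiv.restrictScalarsHom K s) L x
  exact h1.trans (s.commutes x)

lemma liftKer_mul (n n' : N ≃ₐ[K] N)
    (h : AlgEquiv.restrictNormalHom (F := K) (K₁ := N) L n = 1)
    (h' : AlgEquiv.restrictNormalHom (F := K) (K₁ := N) L n' = 1)
    (h'' : AlgEquiv.restrictNormalHom (F := K) (K₁ := N) L (n * n') = 1) :
    liftKer K L N (n * n') h'' = liftKer K L N n h * liftKer K L N n' h' := by
  ext x
  rfl

lemma restrictScalars_liftKer (n : N ≃ₐ[K] N)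
    (h : AlgEquiv.restrictNormalHom (F := K) (K₁ := N) L n = 1) :
    AlgEquiv.restrictScalarsHom K (liftKer K L N n h) = n := by
  ext x
  rfl

/-- The action of `Gal(L/K)` on `Additive Lˣ`. -/
@[instance_reducible]
def addUnitsAction : DistribMulAction (L ≃ₐ[K] L) (Additive Lˣ) where
  smul g a := Additive.ofMul (g • a.toMul)
  one_smul a := by
    show Additive.ofMul ((1 : L ≃ₐ[K] L) • a.toMul) = a
    rw [one_smul]
    rfl
  mul_smul g h a := by
    show Additive.ofMul ((g * h) • a.toMul) = Additive.ofMul (g • (h • a.toMul))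
    rw [mul_smul]
  smul_zero g := by
    show Additive.ofMul (g • (1 : Lˣ)) = 0
    rw [smul_one]
    rfl
  smul_add g a b := by
    show Additive.ofMul (g • (a.toMul * b.toMul)) =
      Additive.ofMul (g • a.toMul) + Additive.ofMul (g • b.toMul)
    rw [smul_mul']
    rfl

/-- The inclusion `Lˣ → Nˣ`, additively. -/
def iotaU : Additive Lˣ →+ Additive Nˣ := (Units.map (algebraMap L N : L →* N)).toAdditive

omit [Algebra K L] [Algebra K N] [IsScalarTower K L N] [Normal K L] in
lemma iotaU_injective : Function.Injective (iotaU L N) := by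
  intro a b hab
  have h1 : (Units.map (algebraMap L N : L →* N)) a.toMul =
      (Units.map (algebraMap L N : L →* N)) b.toMul := hab
  have h2 : a.toMul = b.toMul :=
    Units.map_injective (f := (algebraMap L N : L →* N)) (algebraMap L N).injective h1
  exact h2

/-- An element of `Nˣ` fixed by `Gal(N/L)` comes from `Lˣ`. -/
lemma image_of_fixed [FiniteDimensional L N] [IsGalois L N] (a : Additive Nˣ)
    (ha : ∀ n : N ≃ₐ[K] N, AlgEquiv.restrictNormalHom (F := K) (K₁ := N) L n = 1 →
      Additive.ofMul (n • Additive.toMul (α := Nˣ) a) = a) :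
    ∃ b : Additive Lˣ, iotaU L N b = a := by
  set a' : Nˣ := Additive.toMul (α := Nˣ) a with ha'
  have hfix : ∀ s : N ≃ₐ[L] N, s (a' : N) = (a' : N) := by
    intro s
    have h1 := ha (AlgEquiv.restrictScalarsHom K s) (restrictNormalHom_restrictScalars K L N s)
    have h2 : (AlgEquiv.restrictScalarsHom K s) • a' = a' := congrArg Additive.toMul h1
    exact congrArg Units.val h2
  obtain ⟨b, hb⟩ := (IsGalois.mem_range_algebraMap_iff_fixed (F := L) (E := N) (a' : N)).2 hfix
  have hb0 : b ≠ 0 := by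
    rintro rfl
    rw [map_zero] at hb
    exact a'.ne_zero hb.symm
  refine ⟨Additive.ofMul (Units.mk0 b hb0), ?_⟩
  have h3 : Units.map (algebraMap L N : L →* N) (Units.mk0 b hb0) = a' := Units.ext hb
  show Additive.ofMul (Units.map (algebraMap L N : L →* N) (Units.mk0 b hb0)) = a
  rw [h3]
  rfl

/-- Hilbert 90 for `N/L`, in the shape of `InfData.h1`. -/
lemma hilbert90_ker [FiniteDimensional L N] (g : (N ≃ₐ[K] N) → Additive Nˣ)
    (hg : ∀ n n' : N ≃ₐ[K] N, AlgEquiv.restrictNormalHom (F := K) (K₁ := N) L n = 1 →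
      AlgEquiv.restrictNormalHom (F := K) (K₁ := N) L n' = 1 →
      g (n * n') = Additive.ofMul (n • Additive.toMul (α := Nˣ) (g n')) + g n) :
    ∃ a : Additive Nˣ, ∀ n : N ≃ₐ[K] N,
      AlgEquiv.restrictNormalHom (F := K) (K₁ := N) L n = 1 →
      Additive.ofMul (n • Additive.toMul (α := Nˣ) a) - a = g n := by
  let g' : (N ≃ₐ[L] N) → Nˣ := fun s => Additive.toMul (α := Nˣ) (g (AlgEquiv.restrictScalarsHom K s))
  have hg' : IsMulCocycle₁ g' := by
    intro s t
    have h1 := hg (AlgEquiv.restrictScalarsHom K s) (AlgEquiv.restrictScalarsHom K t)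
      (restrictNormalHom_restrictScalars K L N s) (restrictNormalHom_restrictScalars K L N t)
    rw [← map_mul] at h1
    exact congrArg Additive.toMul h1
  obtain ⟨β, hβ⟩ := isMulCoboundary₁_of_isMulCocycle₁_of_aut_to_units g' hg'
  refine ⟨Additive.ofMul β, fun n hn => ?_⟩
  have h3 : (liftKer K L N n hn) • β / β = g' (liftKer K L N n hn) := hβ (liftKer K L N n hn)
  have h5 : g' (liftKer K L N n hn) = Additive.toMul (α := Nˣ) (g n) := by
    show Additive.toMul (α := Nˣ) (g (AlgEquiv.restrictScalarsHom K (liftKer K L N n hn))) = _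
    rw [restrictScalars_liftKer]
  have h6 : (liftKer K L N n hn) • β = n • β := Units.ext rfl
  rw [h5, h6] at h3
  have h7 : Additive.ofMul (n • β / β) = g n := congrArg Additive.ofMul h3
  rw [← h7]
  rfl

end tower

lemma aux_abel {X : Type} [AddCommGroup X] (F I A B C : X) (h : F = I + (A - B + C)) :
    -A - -B + -C = I - F := by
  rw [h]
  abel

/-- **IRL**: inflation–restriction for `Nˣ` in a Galois tower of number fields. -/
theorem stmt_InfResL : Stmt_InfResL := by
  intro K L N _ _ _ _ _ _ _ _ _ _ _ hKL hKN x hx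
  classical
  have hLN : IsGalois L N := IsGalois.tower_top_of_isGalois K L N
  induction x using H2_induction_on with | @h f =>
  have hx' : H2π (repL L N) (mapCocycles₂ (galRes K L N) (resRepL K L N) f) = 0 := by
    rw [← hx]
    exact (H2π_comp_map_apply (galRes K L N) (resRepL K L N) f).symm
  rw [H2π_eq_zero_iff] at hx'
  obtain ⟨u, hu⟩ := hx'
  have hu' : ∀ s t : N ≃ₐ[L] N, (repL L N).ρ s (u t) - u (s * t) + u s =
      f (galRes K L N s, galRes K L N t) := fun s t => congrFun hu (s, t)
  have hf : Fermat.Agent.S55.CFT.H24.IsCoc (repL K N) f :=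
    (Fermat.Agent.S55.CFT.H24.isCoc_iff _).2 f.2
  let _ : DistribMulAction (L ≃ₐ[K] L) (Additive Lˣ) := addUnitsAction K L
  let π : (N ≃ₐ[K] N) →* (L ≃ₐ[K] L) := AlgEquiv.restrictNormalHom (F := K) (K₁ := N) L
  -- the cochain `z`
  let z : (N ≃ₐ[K] N) → (repL K N) := fun n =>
    if h : π n = 1 then u (liftKer K L N n h) else 0
  have hzv : ∀ (n : N ≃ₐ[K] N) (h : π n = 1), z n = u (liftKer K L N n h) :=
    fun n h => dif_pos h
  have hz : ∀ n n' : N ≃ₐ[K] N, π n = 1 → π n' = 1 →
      (repL K N).ρ n (z n') - z (n * n') + z n = f (n, n') := by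
    intro n n' hn hn'
    have hnn' : π (n * n') = 1 := by rw [map_mul, hn, hn', one_mul]
    rw [hzv n hn, hzv n' hn', hzv _ hnn', liftKer_mul K L N n n' hn hn' hnn']
    have h1 := hu' (liftKer K L N n hn) (liftKer K L N n' hn')
    have e1 : galRes K L N (liftKer K L N n hn) = n := restrictScalars_liftKer K L N n hn
    have e2 : galRes K L N (liftKer K L N n' hn') = n' := restrictScalars_liftKer K L N n' hn'
    rw [e1, e2] at h1
    exact h1
  obtain ⟨c, hc, y, hy⟩ := Fermat.Agent.S55.CFT.LOC.H24.infResExact_rep (repL K N) π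
    (iotaU L N)
    (AlgEquiv.restrictNormalHom_surjective N)
    (iotaU_injective L N)
    (fun g b => congrArg Additive.ofMul (algebraMap_units_smul K L N g (Additive.toMul b)))
    (fun a ha => image_of_fixed K L N a ha)
    (fun g hg => hilbert90_ker K L N g hg)
    f hf z hz
  have hc' : c ∈ cocycles₂ (repL K L) :=
    (mem_cocycles₂_iff (A := repL K L) c).2 (fun g h j => hc g h j)
  refine ⟨H2π (repL K L) ⟨c, hc'⟩, ?_⟩
  have e1 : infL K L N 2 (H2π (repL K L) ⟨c, hc'⟩) =
      H2π (repL K N) (mapCocycles₂ π (infRepL K L N) ⟨c, hc'⟩) :=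
    H2π_comp_map_apply π (infRepL K L N) ⟨c, hc'⟩
  rw [e1, H2π_eq_iff]
  refine ⟨-y, ?_⟩
  funext ⟨g, h⟩
  have h7 := hy g h
  have h8 : (mapCocycles₂ π (infRepL K L N) ⟨c, hc'⟩ : (N ≃ₐ[K] N) × (N ≃ₐ[K] N) → (repL K N))
      (g, h) = iotaU L N (c (π g, π h)) := rfl
  show (repL K N).ρ g ((-y) h) - (-y) (g * h) + (-y) g = _ - f (g, h)
  rw [h8]
  have h9 : (repL K N).ρ g ((-y) h) = -(repL K N).ρ g (y h) := map_neg _ _
  rw [h9]
  exact aux_abel _ _ _ _ _ h7

end Fermat.Agent.S55.CFT.H72
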