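/-
S55 package E4, island GLB, wave 3: the split of THL = `Stmt_THL` (`Defs_BR3.lean`).
Owner: helper72.  Route (checked): NOTES/plan/S55_THL.md.

`F = LocAlg K K v` (`= K_v`), `B = LocAlg K L v` (`= K_v ⊗_K L`), `L = K(ζ_{p^M})`, `ζ_p ∈ K`,
`θ_v = thetaAlg p M v.1 F : Fˣ → (ℤ/p^M)ˣ`, `β ↦ thetaLoc (N_{F/ℚ_q} β)`.

* THL-Q / THL-P  (`Stmt_THL_GenQ`, `Stmt_THL_GenP`): abstract local fields; there is `β ∈ Fˣ` such
  that every `F`-automorphism of an extension `E ∋ ζ_{p^M}` acts on `ζ` as a power of `θ(β)`.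
* THL-W (`Stmt_THL_Gen → Stmt_THL_Ord`): the local degree `d` is at most the order of some
  `θ_v(β)` (decomposition group `D` of a maximal ideal of `B`, `#D = d`, `D ↪ ⟨θ_v(β)⟩`).
* THL-I, THL-N, THL-X, assembly (helper72): ideles supported at `v`, local norms are in the kernel
  (DESC + NT + TH-2), the local norm index is `d` (CYCL + SHL), counting.
-/
import Fermat.Agent.S55.CFT.Defs_BR3

set_option autoImplicit false

open NumberField TensorProduct CategoryTheory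

noncomputable section

namespace Fermat.Agent.S55.CFT

/-- The local cyclotomic symbol on the units of a finite `ℚ_q`-algebra `A`:
`β ↦ thetaLoc p M q (N_{A/ℚ_q} β)`. -/
def thetaAlg (p : Nat.Primes) (M : ℕ) (q : Nat.Primes) (A : Type) [CommRing A]
    [Algebra (Qp q) A] (β : Aˣ) : (ZMod ((p : ℕ) ^ M))ˣ :=
  thetaLoc p M q (Units.map (Algebra.norm (Qp q) : A →* Qp q) β)

/-- **THL-Q** (abstract local statement at `q ≠ p`): `F` a finite extension of `ℚ_q`, `E/F` a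
finite extension, `ζ ∈ E` a primitive `p^M`-th root of unity.  There is `β ∈ Fˣ` such that every
`σ ∈ Aut(E/F)` maps `ζ` to `ζ ^ (θ(β) ^ j)` for some `j`.
(`θ(β) = q ^ v_q(N β)`; take `β` with `v_q(N_{F/ℚ_q} β) = f`, `#k_F = q ^ f`, e.g. a uniformiser;
`σ` induces a power of the Frobenius `x ↦ x ^ #k_F` on the residue field of `E`, and the reduction
is injective on the `p^M`-th roots of unity.) -/
def Stmt_THL_GenQ : Prop :=
  ∀ (p : Nat.Primes) (M : ℕ) (q : Nat.Primes) (F E : Type) [Field F] [Field E]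
    [Algebra (Qp q) F] [FiniteDimensional (Qp q) F] [Algebra F E] [FiniteDimensional F E],
    q ≠ p → ∀ ζ : E, IsPrimitiveRoot ζ ((p : ℕ) ^ M) →
    ∃ β : Fˣ, ∀ σ : E ≃ₐ[F] E, ∃ j : ℕ,
      σ ζ = ζ ^ (((thetaAlg p M q F β) ^ j : (ZMod ((p : ℕ) ^ M))ˣ) : ZMod ((p : ℕ) ^ M)).val

/-- **THL-P** (abstract local statement at `q = p`): `F` a finite extension of `ℚ_p`, `p` odd,
`ζ_p ∈ F`, `E/F` a finite extension, `ζ ∈ E` a primitive `p^M`-th root of unity.  There is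
`β ∈ Fˣ` such that every `σ ∈ Aut(E/F)` maps `ζ` to `ζ ^ (θ(β) ^ j)` for some `j`.
(`c ≤ M` maximal with `ζ_{p^c} ∈ F`; `c = M`: `β = 1`; `c < M`: `β = b` of
`Stmt_LocalThetaOnto`, `θ(b) ≡ 1 mod p^c` by `H25.thetaLoc_norm_local`, `≢ 1 mod p^{c+1}`, so
`θ(b)` generates `{t ≡ 1 mod p^c}`, which contains the image of `Aut(E/F)`.) -/
def Stmt_THL_GenP : Prop :=
  ∀ (p : Nat.Primes) (M : ℕ) (F E : Type) [Field F] [Field E]
    [Algebra (Qp p) F] [FiniteDimensional (Qp p) F] [Algebra F E] [FiniteDimensional F E],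
    (p : ℕ) ≠ 2 → (∃ η : F, IsPrimitiveRoot η (p : ℕ)) →
    ∀ ζ : E, IsPrimitiveRoot ζ ((p : ℕ) ^ M) →
    ∃ β : Fˣ, ∀ σ : E ≃ₐ[F] E, ∃ j : ℕ,
      σ ζ = ζ ^ (((thetaAlg p M p F β) ^ j : (ZMod ((p : ℕ) ^ M))ˣ) : ZMod ((p : ℕ) ^ M)).val

/-- THL-Q and THL-P together. -/
def Stmt_THL_Gen : Prop :=
  ∀ (p : Nat.Primes) (M : ℕ) (q : Nat.Primes) (F E : Type) [Field F] [Field E]
    [Algebra (Qp q) F] [FiniteDimensional (Qp q) F] [Algebra F E] [FiniteDimensional F E],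
    (p : ℕ) ≠ 2 → (∃ η : F, IsPrimitiveRoot η (p : ℕ)) →
    ∀ ζ : E, IsPrimitiveRoot ζ ((p : ℕ) ^ M) →
    ∃ β : Fˣ, ∀ σ : E ≃ₐ[F] E, ∃ j : ℕ,
      σ ζ = ζ ^ (((thetaAlg p M q F β) ^ j : (ZMod ((p : ℕ) ^ M))ˣ) : ZMod ((p : ℕ) ^ M)).val

/-- **THL-W** (target of the wiring `Stmt_THL_Gen → Stmt_THL_Ord`): for `L = K(ζ_{p^M})`,
`ζ_p ∈ K`, and a place `v` of `K` with local degree `d`, some value of the local symbol `θ_v` has
order at least `d`.
(`M` a maximal ideal of `B = LocAlg K L v`, `D = H58.decomp` its decomposition group,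
`#D · #MaxSpec B = #G` (`H58.card_maximalSpectrum_mul`), `D` acts faithfully on the field `B/M`
(`H58.locAlg_faithful`) by `F`-automorphisms, `σ ∈ D` is determined by `σ ζ`.) -/
def Stmt_THL_Ord : Prop :=
  ∀ (p : Nat.Primes) (M : ℕ) (K L : Type) [Field K] [Field L] [NumberField K] [NumberField L]
    [Algebra K L], (p : ℕ) ≠ 2 → (∃ ζ : K, IsPrimitiveRoot ζ (p : ℕ)) →
    IsCyclotomicExtension {(p : ℕ) ^ M} K L →
    ∀ (v : Place K) (d : ℕ),
      d * Nat.card (MaximalSpectrum (LocAlg K L v)) = Module.finrank K L →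
      ∃ β : (LocAlg K K v)ˣ, d ≤ orderOf (thetaAlg p M v.1 (LocAlg K K v) β)

end Fermat.Agent.S55.CFT
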