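/-
S55/E4, island GLB, package TH-2 (helper25), part 4: `K` is dense in `ℚ_q ⊗ K` and the norm is
continuous: every unit of `ℚ_q ⊗ K` has, up to a factor close to `1`, the same norm as a
global element `1 ⊗ x`.
-/
import Fermat.Agent.S55.CFT.H56_ThetaUnits

set_option autoImplicit false
set_option linter.unusedSectionVars false
set_option linter.style.haveILetI false

namespace Fermat.Agent.S55.CFT.H25

open Fermat.Agent.S55.CFT
open NumberField TensorProduct

section

variable (K : Type) [Field K] [NumberField K] (q : Nat.Primes)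

/-- The norm of `ℚ_q ⊗ K` in coordinates is continuous. -/
theorem continuous_norm_coord {ι : Type} [Fintype ι] [DecidableEq ι]
    (B : Module.Basis ι (Qp q) (SemiLocal K q)) :
    haveI := fact_primes q
    Continuous (fun a : ι → ℚ_[(q : ℕ)] => Algebra.norm (Qp q) (B.equivFun.symm a)) := by
  haveI := fact_primes q
  let F : (ι → ℚ_[(q : ℕ)]) →ₗ[ℚ_[(q : ℕ)]] Matrix ι ι ℚ_[(q : ℕ)] :=
    (Algebra.leftMulMatrix B).toLinearMap ∘ₗ B.equivFun.symm.toLinearMap
  have hF : Continuous F := LinearMap.continuous_on_pi F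
  have h2 : (fun a : ι → ℚ_[(q : ℕ)] => Algebra.norm (Qp q) (B.equivFun.symm a)) =
      fun a => (F a).det := by
    funext a
    rw [Algebra.norm_eq_matrix_det B]
    rfl
  rw [h2]
  exact hF.matrix_det

/-- Approximation of norms by norms of global elements. -/
theorem exists_global_norm_close (y : SemiLocal K q)
    {ε : ℝ} (hε : 0 < ε) :
    haveI := fact_primes q
    ∃ x : K, ‖Algebra.norm (Qp q) ((1 : Qp q) ⊗ₜ[ℚ] x : SemiLocal K q) -
      Algebra.norm (Qp q) y‖ < ε := by
  classical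
  haveI := fact_primes q
  let b := Module.Free.chooseBasis ℚ K
  let B : Module.Basis (Module.Free.ChooseBasisIndex ℚ K) (Qp q) (SemiLocal K q) :=
    Algebra.TensorProduct.basis (Qp q) b
  have hc := continuous_norm_coord K q B
  have hc' := Metric.continuous_iff.mp hc (B.equivFun y) ε hε
  obtain ⟨δ, hδ, hδ'⟩ := hc'
  have hr : ∀ i, ∃ r : ℚ, ‖B.equivFun y i - (r : ℚ_[(q : ℕ)])‖ < δ :=
    fun i => Padic.rat_dense (q : ℕ) _ hδ
  choose r hr using hr
  refine ⟨b.equivFun.symm r, ?_⟩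
  have h1 : ((1 : Qp q) ⊗ₜ[ℚ] (b.equivFun.symm r) : SemiLocal K q) =
      B.equivFun.symm (fun i => (r i : ℚ_[(q : ℕ)])) := by
    rw [Module.Basis.equivFun_symm_apply, Module.Basis.equivFun_symm_apply,
      TensorProduct.tmul_sum]
    refine Finset.sum_congr rfl (fun i _ => ?_)
    have h3 : (r i • (1 : Qp q)) = (r i : ℚ_[(q : ℕ)]) := by rw [Rat.smul_def, mul_one]
    have h4 : B i = (1 : Qp q) ⊗ₜ[ℚ] b i := Algebra.TensorProduct.basis_apply _ _
    rw [h4]
    calc ((1 : Qp q) ⊗ₜ[ℚ] (r i • b i) : SemiLocal K q)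
        = (r i • (1 : Qp q)) ⊗ₜ[ℚ] b i := (TensorProduct.smul_tmul _ _ _).symm
      _ = (r i : ℚ_[(q : ℕ)]) ⊗ₜ[ℚ] b i := by rw [h3]
      _ = (r i : ℚ_[(q : ℕ)]) • ((1 : Qp q) ⊗ₜ[ℚ] b i) := by
          rw [TensorProduct.smul_tmul']
          congr 1
          exact (mul_one _).symm
  have h2 := hδ' (fun i => (r i : ℚ_[(q : ℕ)])) (by
    rw [dist_pi_lt_iff hδ]
    intro i
    rw [dist_comm, dist_eq_norm]
    exact hr i)
  rw [dist_eq_norm] at h2
  rw [h1]
  simpa using h2

end
end Fermat.Agent.S55.CFT.H25
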