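/-
S55/E4, island GLB, package TH-2 (helper25), part 5: the local statement at `q = p` for
`K₀ = ℚ(ζ_{p^M})`: the unit part of the norm of every unit of `ℚ_p ⊗ K₀` is `≡ 1 mod p^M`.

Route (global): for `x ∈ K₀ˣ` the rational number `N x` is positive and, by the statements at
the primes `q ≠ p`, a product of a power of `p` and of numbers `≡ 1 mod p^M`
(product formula `thetaRat_natQ` of helper56); then density of `K₀` in `ℚ_p ⊗ K₀`.
-/
import Fermat.Agent.S55.CFT.H25_ThetaQ2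
import Fermat.Agent.S55.CFT.H25_ThetaDense

set_option autoImplicit false
set_option linter.unusedSectionVars false
set_option linter.style.haveILetI false

namespace Fermat.Agent.S55.CFT.H25

open Fermat.Agent.S55.CFT Fermat.Agent.S55.CFT.LOC Fermat.Agent.S55.CFT.LOC.H25
open NumberField TensorProduct Polynomial

section

variable (p : Nat.Primes) (M : ℕ)

/-- The symbol at `p` is trivial on the elements close to `1`. -/
theorem thetaLoc_self_of_close (w : (Qp p)ˣ)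
    (hw : haveI := fact_primes p; ‖((w : Qp p) : ℚ_[(p : ℕ)]) - 1‖ ≤ ((p : ℕ) : ℝ) ^ (-(M : ℤ))) :
    thetaLoc p M p w = 1 := by
  haveI := fact_primes p
  have hp1 : (1 : ℝ) < ((p : ℕ) : ℝ) := by exact_mod_cast p.2.one_lt
  have hlt1 : ‖((w : Qp p) : ℚ_[(p : ℕ)]) - 1‖ < 1 ∨ M = 0 := by
    rcases Nat.eq_zero_or_pos M with h | h
    · exact Or.inr h
    · left
      refine lt_of_le_of_lt hw ?_
      rw [zpow_neg, zpow_natCast]
      exact inv_lt_one_of_one_lt₀ (one_lt_pow₀ hp1 h.ne')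
  rcases hlt1 with hlt1 | hM0
  swap
  · subst hM0
    haveI : Subsingleton (ZMod ((p : ℕ) ^ 0))ˣ := by
      rw [pow_zero]
      infer_instance
    exact Subsingleton.elim _ _
  -- `‖w‖ = 1`
  have hnorm : ‖((w : Qp p) : ℚ_[(p : ℕ)])‖ = 1 := by
    have h1 : ‖(((w : Qp p) : ℚ_[(p : ℕ)]) - 1) + 1‖ =
        max ‖((w : Qp p) : ℚ_[(p : ℕ)]) - 1‖ ‖(1 : ℚ_[(p : ℕ)])‖ := by
      apply Padic.add_eq_max_of_ne
      rw [norm_one]
      exact hlt1.ne
    rw [sub_add_cancel, norm_one, max_eq_right hlt1.le] at h1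
    exact h1
  have hval : Padic.valuation ((w : Qp p) : ℚ_[(p : ℕ)]) = 0 := by
    have h1 := Padic.norm_eq_zpow_neg_valuation (p := (p : ℕ)) w.ne_zero
    rw [hnorm] at h1
    have h2 := (zpow_eq_one_iff_right₀ (by positivity) hp1.ne').mp h1.symm
    omega
  rw [H56.thetaLoc_self, inv_eq_one]
  apply Units.ext
  change (PadicInt.toZModPow M) ((unitPart p w : ℤ_[(p : ℕ)]ˣ) : ℤ_[(p : ℕ)]) = 1
  have hcoe : (((unitPart p w : ℤ_[(p : ℕ)]ˣ) : ℤ_[(p : ℕ)]) : ℚ_[(p : ℕ)]) = (w : Qp p) := by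
    rw [H56.unitPart_val, hval, neg_zero, zpow_zero, mul_one]
  have hmem : ((unitPart p w : ℤ_[(p : ℕ)]ˣ) : ℤ_[(p : ℕ)]) - 1 ∈
      RingHom.ker (PadicInt.toZModPow M : ℤ_[(p : ℕ)] →+* ZMod ((p : ℕ) ^ M)) := by
    rw [PadicInt.ker_toZModPow, ← PadicInt.norm_le_pow_iff_mem_span_pow, PadicInt.norm_def]
    push_cast
    rw [hcoe]
    exact hw
  rw [RingHom.mem_ker, map_sub, map_one, sub_eq_zero] at hmem
  exact hmem

variable (K₀ : Type) [Field K₀] [NumberField K₀]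
  [hcyc : IsCyclotomicExtension {(p : ℕ) ^ M} ℚ K₀]

/-- The unit `1 ⊗ x` of `ℚ_q ⊗ K₀`. -/
noncomputable def globalUnit (q : Nat.Primes) : K₀ˣ →* (SemiLocal K₀ q)ˣ :=
  Units.map ((Algebra.TensorProduct.includeRight : K₀ →ₐ[ℚ] SemiLocal K₀ q) :
    K₀ →* SemiLocal K₀ q)

theorem globalUnit_val (q : Nat.Primes) (x : K₀ˣ) :
    ((globalUnit K₀ q x : (SemiLocal K₀ q)ˣ) : SemiLocal K₀ q) = (1 : Qp q) ⊗ₜ[ℚ] (x : K₀) := rfl

theorem norm_globalUnit (q : Nat.Primes) (x : K₀ˣ) :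
    Units.map (Algebra.norm (Qp q) : SemiLocal K₀ q →* Qp q) (globalUnit K₀ q x) =
      H56.ratU q (Units.map (Algebra.norm ℚ : K₀ →* ℚ) x) := by
  apply Units.ext
  exact H56.norm_one_tmul K₀ q (x : K₀)

/-- The set of the primes dividing `a`, together with `p`. -/
noncomputable def primesOf (a : ℕ) : Finset Nat.Primes :=
  insert p (a.primeFactors.attach.image
    (fun l => (⟨l.1, Nat.prime_of_mem_primeFactors l.2⟩ : Nat.Primes)))

theorem mem_primesOf (a : ℕ) (ha : a ≠ 0) (l : Nat.Primes) (h : (l : ℕ) ∣ a) :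
    l ∈ primesOf p a := by
  have hmem : (l : ℕ) ∈ a.primeFactors := Nat.mem_primeFactors.mpr ⟨l.2, h, ha⟩
  exact Finset.mem_insert_of_mem
    (Finset.mem_image_of_mem _ (Finset.mem_attach _ ⟨(l : ℕ), hmem⟩))

/-- The global statement at `p`: `θ_p (N x) = 1` for `x ∈ K₀ˣ`. -/
theorem thetaLoc_self_norm_global (hp2 : (p : ℕ) ≠ 2) (hM : M ≠ 0) (x : K₀ˣ) :
    thetaLoc p M p (H56.ratU p (Units.map (Algebra.norm ℚ : K₀ →* ℚ) x)) = 1 := by
  classical
  haveI : NeZero ((p : ℕ) ^ M) := neZero_pow p M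
  have h3 : 2 < (p : ℕ) ^ M := by
    have h2 : 2 < (p : ℕ) := lt_of_le_of_ne p.2.two_le (Ne.symm hp2)
    calc 2 < (p : ℕ) := h2
      _ = (p : ℕ) ^ 1 := (pow_one _).symm
      _ ≤ (p : ℕ) ^ M := Nat.pow_le_pow_right p.2.pos (Nat.one_le_iff_ne_zero.mpr hM)
  haveI : IsTotallyComplex K₀ := IsCyclotomicExtension.Rat.isTotallyComplex K₀ h3
  set r : ℚˣ := Units.map (Algebra.norm ℚ : K₀ →* ℚ) x with hr
  have hrpos : 0 < (r : ℚ) :=
    lt_of_le_of_ne (H56.norm_nonneg_of_totallyComplex K₀ _) (Ne.symm r.ne_zero)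
  -- numerator and denominator
  have hnum : 0 < (r : ℚ).num := Rat.num_pos.mpr hrpos
  obtain ⟨a, ha⟩ := Int.eq_ofNat_of_zero_le hnum.le
  have ha0 : a ≠ 0 := by
    rintro rfl
    rw [ha] at hnum
    simp at hnum
  have hb0 : (r : ℚ).den ≠ 0 := (r : ℚ).den_nz
  have hab0 : a * (r : ℚ).den ≠ 0 := Nat.mul_ne_zero ha0 hb0
  set T := primesOf p (a * (r : ℚ).den) with hT
  have hpT : p ∈ T := Finset.mem_insert_self _ _
  have h1 : H56.thetaRat p M T (H56.natQ a ha0) = 1 :=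
    H56.thetaRat_natQ p M T hpT a ha0
      (fun l hl => mem_primesOf p _ hab0 l (Dvd.dvd.mul_right hl _))
  have h2 : H56.thetaRat p M T (H56.natQ (r : ℚ).den hb0) = 1 :=
    H56.thetaRat_natQ p M T hpT _ hb0
      (fun l hl => mem_primesOf p _ hab0 l (Dvd.dvd.mul_left hl _))
  have hmul : H56.natQ (r : ℚ).den hb0 * r = H56.natQ a ha0 := by
    apply Units.ext
    rw [Units.val_mul, H56.natQ_val, H56.natQ_val]
    have h5 := Rat.den_mul_eq_num (r : ℚ)
    rw [h5, ha]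
    simp
  have h6 := congrArg (H56.thetaRat p M T) hmul
  rw [map_mul, h1, h2, one_mul, H56.thetaRat_apply] at h6
  rw [Finset.prod_eq_single p] at h6
  · exact h6
  · intro q _ hqp
    rw [← norm_globalUnit K₀ q x]
    exact thetaLoc_norm_of_ne p q M K₀ hqp _
  · intro h
    exact absurd hpT h

/-- The local statement at `p`: `θ_p (N u) = 1` for every unit `u` of `ℚ_p ⊗ K₀`. -/
theorem thetaLoc_norm_self (hp2 : (p : ℕ) ≠ 2) (u : (SemiLocal K₀ p)ˣ) :
    thetaLoc p M p (Units.map (Algebra.norm (Qp p) : SemiLocal K₀ p →* Qp p) u) = 1 := by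
  classical
  haveI := fact_primes p
  rcases Nat.eq_zero_or_pos M with hM0 | hMpos
  · subst hM0
    haveI : Subsingleton (ZMod ((p : ℕ) ^ 0))ˣ := by
      rw [pow_zero]
      infer_instance
    exact Subsingleton.elim _ _
  have hp0 : (0 : ℝ) < ((p : ℕ) : ℝ) := by exact_mod_cast p.2.pos
  set N : (SemiLocal K₀ p)ˣ →* (Qp p)ˣ :=
    Units.map (Algebra.norm (Qp p) : SemiLocal K₀ p →* Qp p) with hN
  have hNu : ((N u : (Qp p)ˣ) : Qp p) = Algebra.norm (Qp p) (u : SemiLocal K₀ p) := rfl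
  have hpos : 0 < ((p : ℕ) : ℝ) ^ (-(M : ℤ)) * ‖((N u : (Qp p)ˣ) : ℚ_[(p : ℕ)])‖ :=
    mul_pos (zpow_pos hp0 _) (norm_pos_iff.mpr (N u).ne_zero)
  obtain ⟨x, hx⟩ := exists_global_norm_close K₀ p (u : SemiLocal K₀ p) hpos
  have hx0 : x ≠ 0 := by
    rintro rfl
    rw [H56.norm_one_tmul, Algebra.norm_zero, map_zero, zero_sub, norm_neg, ← hNu] at hx
    have h1 : ((p : ℕ) : ℝ) ^ (-(M : ℤ)) ≤ 1 := by
      rw [zpow_neg, zpow_natCast]
      exact inv_le_one_of_one_le₀ (one_le_pow₀ (by exact_mod_cast p.2.one_le))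
    have h2 := mul_le_of_le_one_left (norm_nonneg ((N u : (Qp p)ˣ) : ℚ_[(p : ℕ)])) h1
    exact absurd hx (not_lt.mpr h2)
  set xu : K₀ˣ := Units.mk0 x hx0 with hxu
  -- `w = N(1 ⊗ x) / N(u)` is close to `1`
  have hw : thetaLoc p M p (N (globalUnit K₀ p xu) * (N u)⁻¹) = 1 := by
    apply thetaLoc_self_of_close
    have h1 : (((N (globalUnit K₀ p xu) * (N u)⁻¹ : (Qp p)ˣ) : Qp p) : ℚ_[(p : ℕ)]) - 1 =
        (Algebra.norm (Qp p) ((1 : Qp p) ⊗ₜ[ℚ] x : SemiLocal K₀ p) -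
          Algebra.norm (Qp p) (u : SemiLocal K₀ p)) * ((N u : (Qp p)ˣ) : Qp p)⁻¹ := by
      rw [Units.val_mul, Units.val_inv_eq_inv_val, sub_mul, ← hNu,
        mul_inv_cancel₀ (N u).ne_zero]
      rfl
    rw [h1, norm_mul, norm_inv]
    rw [← le_div_iff₀ (inv_pos.mpr (norm_pos_iff.mpr (N u).ne_zero)), div_inv_eq_mul]
    exact hx.le
  have hg : thetaLoc p M p (N (globalUnit K₀ p xu)) = 1 := by
    rw [hN, norm_globalUnit]
    exact thetaLoc_self_norm_global p M K₀ hp2 hMpos.ne' xu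
  have h3 := H56.thetaLoc_mul p M p (N (globalUnit K₀ p xu) * (N u)⁻¹) (N u)
  rw [inv_mul_cancel_right, hg, hw, one_mul] at h3
  exact h3.symm

end
end Fermat.Agent.S55.CFT.H25
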