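/-
S55/E4 island LOC (helper25), package LTO (`Stmt_LocalThetaOnto`), part C0b:
the local form of TH-2: for a finite extension `E` of `ℚ_p` containing a primitive `p^M`-th root
of unity, `θ_p(N_{E/ℚ_p} y) = 1` for all `y ∈ Eˣ`.
(`ℚ_p ⊗ ℚ(ζ_{p^M}) ≅ ℚ_p(ζ_{p^M})` by the degree count of part C0a, then TH-2 at `p`.)
-/
import Fermat.Agent.S55.CFT.H25_ThetaP
import Fermat.Agent.S55.CFT.LOC.H25_LTO_Cyc

set_option autoImplicit false
set_option linter.unusedSectionVars false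
set_option linter.style.haveILetI false

namespace Fermat.Agent.S55.CFT.H25

open Fermat.Agent.S55.CFT Fermat.Agent.S55.CFT.LOC Fermat.Agent.S55.CFT.LOC.H25
open NumberField TensorProduct Polynomial

theorem isCyclotomicExtension_rat (n : ℕ) [NeZero n] :
    IsCyclotomicExtension {n} ℚ (CyclotomicField n ℚ) := by
  have h := CyclotomicField.isCyclotomicExtension n ℚ
  have e : (CyclotomicField.algebra n ℚ) = DivisionRing.toRatAlgebra := Subsingleton.elim _ _
  rw [e] at h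
  exact h

section

variable (p : Nat.Primes) (M : ℕ) (E : Type) [Field E] [Algebra (Qp p) E]
  [FiniteDimensional (Qp p) E]

/-- `ℚ_p ⊗ ℚ(ζ_{p^M}) ≅ ℚ_p(ζ_{p^M})`. -/
theorem exists_semiLocal_equiv (hM : M ≠ 0) {ζ : E} (hζ : IsPrimitiveRoot ζ ((p : ℕ) ^ M))
    (K₀ : Type) [Field K₀] [NumberField K₀] [IsCyclotomicExtension {(p : ℕ) ^ M} ℚ K₀] :
    Nonempty (SemiLocal K₀ p ≃ₐ[Qp p] (IntermediateField.adjoin (Qp p) {ζ})) := by
  classical
  haveI := fact_primes p
  haveI : NeZero ((p : ℕ) ^ M) := ⟨pow_ne_zero _ p.2.ne_zero⟩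
  have hpM : 0 < (p : ℕ) ^ M := pow_pos p.2.pos M
  haveI : CharZero E := charZero_of_padic (p : ℕ) E
  have hirr : Irreducible (cyclotomic ((p : ℕ) ^ M) ℚ) := cyclotomic.irreducible_rat hpM
  have hζ₀ := IsCyclotomicExtension.zeta_spec ((p : ℕ) ^ M) ℚ K₀
  have hζC := isPrimitiveRoot_adjoin (p : ℕ) E hζ
  let ψ : K₀ →ₐ[ℚ] (IntermediateField.adjoin (Qp p) {ζ}) :=
    (hζ₀.embeddingsEquivPrimitiveRoots (IntermediateField.adjoin (Qp p) {ζ}) hirr).symm
      ⟨_, (mem_primitiveRoots hpM).mpr hζC⟩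
  have hψ : ψ (IsCyclotomicExtension.zeta ((p : ℕ) ^ M) ℚ K₀) =
      (⟨ζ, IntermediateField.mem_adjoin_simple_self (Qp p) ζ⟩ :
        IntermediateField.adjoin (Qp p) {ζ}) := by
    have h1 := (hζ₀.embeddingsEquivPrimitiveRoots (IntermediateField.adjoin (Qp p) {ζ})
      hirr).apply_symm_apply ⟨_, (mem_primitiveRoots hpM).mpr hζC⟩
    have h2 := congrArg Subtype.val h1
    rwa [IsPrimitiveRoot.embeddingsEquivPrimitiveRoots_apply_coe] at h2
  let lam : SemiLocal K₀ p →ₐ[Qp p] (IntermediateField.adjoin (Qp p) {ζ}) :=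
    Algebra.TensorProduct.lift (Algebra.ofId (Qp p) _) ψ (fun _ _ => Commute.all _ _)
  have hlam : ∀ (a : Qp p) (k : K₀), lam (a ⊗ₜ[ℚ] k) =
      algebraMap (Qp p) (IntermediateField.adjoin (Qp p) {ζ}) a * ψ k := by
    intro a k
    simp [lam, Algebra.ofId_apply]
  -- surjectivity
  have hint : IsIntegral (Qp p) ζ := Algebra.IsIntegral.isIntegral ζ
  have hsurj : Function.Surjective lam := by
    rw [← AlgHom.range_eq_top]
    have hgen : (IntermediateField.adjoin.powerBasis hint).gen ∈ lam.range := by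
      refine ⟨(1 : Qp p) ⊗ₜ[ℚ] (IsCyclotomicExtension.zeta ((p : ℕ) ^ M) ℚ K₀), ?_⟩
      have h5 := hlam 1 (IsCyclotomicExtension.zeta ((p : ℕ) ^ M) ℚ K₀)
      rw [map_one, one_mul, hψ] at h5
      exact h5
    rw [eq_top_iff, ← (IntermediateField.adjoin.powerBasis hint).adjoin_gen_eq_top]
    exact Algebra.adjoin_le (Set.singleton_subset_iff.mpr hgen)
  -- dimensions
  have hdim : Module.finrank (Qp p) (SemiLocal K₀ p) =
      Module.finrank (Qp p) (IntermediateField.adjoin (Qp p) {ζ}) := by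
    rw [finrank_adjoin_zeta (p : ℕ) E hM hζ, Module.finrank_baseChange,
      IsCyclotomicExtension.finrank K₀ hirr]
  have hinj : Function.Injective lam :=
    (LinearMap.injective_iff_surjective_of_finrank_eq_finrank (f := lam.toLinearMap) hdim).mpr
      hsurj
  exact ⟨AlgEquiv.ofBijective lam ⟨hinj, hsurj⟩⟩

/-- **TH-2, local form at `p`.** -/
theorem thetaLoc_norm_local (hp2 : (p : ℕ) ≠ 2)
    (hζ : ∃ ζ : E, IsPrimitiveRoot ζ ((p : ℕ) ^ M)) (y : Eˣ) :
    thetaLoc p M p (Units.map (Algebra.norm (Qp p) : E →* Qp p) y) = 1 := by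
  classical
  haveI := fact_primes p
  rcases Nat.eq_zero_or_pos M with hM0 | hMpos
  · subst hM0
    haveI : Subsingleton (ZMod ((p : ℕ) ^ 0))ˣ := by
      rw [pow_zero]
      infer_instance
    exact Subsingleton.elim _ _
  obtain ⟨ζ, hζ⟩ := hζ
  haveI : NeZero ((p : ℕ) ^ M) := ⟨pow_ne_zero _ p.2.ne_zero⟩
  haveI := isCyclotomicExtension_rat ((p : ℕ) ^ M)
  obtain ⟨e⟩ := exists_semiLocal_equiv p M E hMpos.ne' hζ (CyclotomicField ((p : ℕ) ^ M) ℚ)
  -- the norm to `ℚ_p(ζ)`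
  set z : IntermediateField.adjoin (Qp p) {ζ} :=
    Algebra.norm (IntermediateField.adjoin (Qp p) {ζ}) (y : E) with hz
  have hz0 : z ≠ 0 := Algebra.norm_ne_zero_iff.mpr y.ne_zero
  have hu0 : IsUnit (e.symm z) := (isUnit_iff_ne_zero.mpr hz0).map e.symm
  have h1 : Algebra.norm (Qp p) (y : E) = Algebra.norm (Qp p) (e.symm z) := by
    rw [← Algebra.norm_eq_of_algEquiv e (e.symm z), e.apply_symm_apply, hz, Algebra.norm_norm]
  have h2 := thetaLoc_norm_self p M (CyclotomicField ((p : ℕ) ^ M) ℚ) hp2 hu0.unit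
  have h3 : Units.map (Algebra.norm (Qp p) : E →* Qp p) y =
      Units.map (Algebra.norm (Qp p) :
        SemiLocal (CyclotomicField ((p : ℕ) ^ M) ℚ) p →* Qp p) hu0.unit := by
    apply Units.ext
    exact h1
  rw [h3]
  exact h2

end
end Fermat.Agent.S55.CFT.H25
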