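/-
S55 / E4 / CFT, BR-FINAL part 2 (helper13): THL unconditional, and the exports BR-Hasse, BR-One,
BR-Two from the leaves that are still open (`Stmt_ValExact`, `Stmt_UnrNorm`).

* `stmt_THL_Gen`, `stmt_THL_Ord`, `stmt_THL`;
* `stmt_BrHasse_of_val : Stmt_ValExact → Stmt_BrHasse`;
* `stmt_BrOne_of_val : Stmt_ValExact → Stmt_BrOne`;
* `stmt_BrTwo_of_unn : Stmt_UnrNorm → Stmt_BrTwo`.
-/
import Fermat.Agent.S55.CFT.H13_BRFinal
import Fermat.Agent.S55.CFT.H72_THL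
import Fermat.Agent.S55.CFT.H58_THLW
import Fermat.Agent.S55.CFT.LOC.H25_THLP
import Fermat.Agent.S55.CFT.LOC.H41_THLQ
import Fermat.Agent.S55.CFT.H56_WOne
import Fermat.Agent.S55.CFT.H61_WTwoFinal
import Fermat.Agent.S55.CFT.H20_LocSplitFinal
import Fermat.Agent.S55.CFT.H72_InfResL
import Fermat.Agent.S55.CFT.H58_InfJv
import Fermat.Agent.S55.CFT.H58_LocInfImage
import Fermat.Agent.S55.CFT.H19_Cyc
import Fermat.Agent.S55.CFT.H96_DegGrow

set_option autoImplicit false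

namespace Fermat.Agent.S55.CFT.H13

open Fermat.Agent.S55.CFT

/-- **THL-Q + THL-P**. -/
theorem stmt_THL_Gen : Stmt_THL_Gen := by
  intro p M q F E _ _ _ _ _ _ hodd hη ζ hζ
  rcases eq_or_ne q p with h | h
  · subst h
    exact H25.stmt_THL_GenP q M F E hodd hη ζ hζ
  · exact LOC.H41.stmt_THL_GenQ p M q F E h ζ hζ

/-- **THL-W**, unconditional. -/
theorem stmt_THL_Ord : Stmt_THL_Ord := H58.stmt_THL_Ord_of stmt_THL_Gen

/-- **THL**, unconditional. -/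
theorem stmt_THL : Stmt_THL := H72.stmt_THL_of stmt_THL_Ord

/-- **BR-Hasse** from VAL-a. -/
theorem stmt_BrHasse_of_val (hVal : Stmt_ValExact) : Stmt_BrHasse :=
  H56.stmt_BrHasse_of hVal H80.stmt_SLD stmt_CFind

/-- **BR-One** from BR-Hasse. -/
theorem stmt_BrOne_of_hasse (hHasse : Stmt_BrHasse) : Stmt_BrOne :=
  H56.stmt_BrOne_of_leaves hHasse H20.stmt_LocSplit H72.stmt_InfResL H58.stmt_InfJvInj
    H19.stmt_CycClass stmt_THL H96.stmt_DegGrow

/-- **BR-One** from VAL-a. -/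
theorem stmt_BrOne_of_val (hVal : Stmt_ValExact) : Stmt_BrOne :=
  stmt_BrOne_of_hasse (stmt_BrHasse_of_val hVal)

/-- **BR-Two** from UNN. -/
theorem stmt_BrTwo_of_unn (hUNN : Stmt_UnrNorm) : Stmt_BrTwo :=
  H61.stmt_BrTwo_of H96.stmt_DegGrow H58.stmt_LocInfImage H58.stmt_InfJvInj H19.stmt_CycClass
    stmt_THL stmt_CycRec hUNN

end Fermat.Agent.S55.CFT.H13
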