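/-
S55 / E4 / CFT, BR-FINAL part 3 (helper13): the exports BR-Hasse and BR-One, unconditional
(VAL-a is `H12.stmt_ValExact`).
-/
import Fermat.Agent.S55.CFT.H13_BRFinalTHL
import Fermat.Agent.S55.CFT.H12_ValExactFinal

set_option autoImplicit false

namespace Fermat.Agent.S55.CFT.H13

open Fermat.Agent.S55.CFT

/-- **BR-Hasse**, unconditional. -/
theorem stmt_BrHasse : Stmt_BrHasse := stmt_BrHasse_of_val H12.stmt_ValExact

/-- **BR-One**, unconditional. -/
theorem stmt_BrOne : Stmt_BrOne := stmt_BrOne_of_hasse stmt_BrHasse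

end Fermat.Agent.S55.CFT.H13
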