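/-
S55/E4 island GLB, package VAL-c (helper45): `Stmt_UnitsUnram`.

For admissible `T` the image of `H²(G, O_{L,T}ˣ)` in `H²(G, Lˣ)` is locally trivial at all
places `v` outside `T`.  (`B = K_v ⊗_K L`, `M` a maximal ideal, `E_w = B ⧸ M`: the `T`-units are
units of `E_w`; no nontrivial element of the decomposition group acts trivially on the residue
field since `L/K` is unramified at the prime `{x ∈ 𝓞 L : |x|_w < 1}`; `valc_abstract`.)
-/
import Fermat.Agent.S55.CFT.H45_ValCSemi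
import Fermat.Agent.S55.CFT.H58_SHL
import Fermat.Agent.S55.CFT.Defs_BR2

set_option autoImplicit false
set_option linter.unusedSectionVars false
set_option linter.style.haveILetI false

noncomputable section

namespace Fermat.Agent.S55.CFT.H45

open NumberField TensorProduct CategoryTheory groupCohomology Rep
open Fermat.Agent.S55.CFT.LOC H58

/-! ### The residue field at a place and the global field -/

section conc

attribute [local instance] fact_primes

variable (K L : Type) [Field K] [Field L] [NumberField K] [NumberField L] [Algebra K L]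
  (v : Place K) (M : Ideal (LocAlg K L v)) [hM : M.IsMaximal]

/-- `L → E_w = (K_v ⊗_K L) ⧸ M`. -/
def resIncl : L →+* LocAlg K L v ⧸ M := (Ideal.Quotient.mk M).comp (locIncl K L v)

/-- The absolute value of `L` at the place `M`. -/
def wnrm (x : L) : ℝ := qnrm (v.1 : ℕ) M (resIncl K L v M x)

theorem wnrm_nonneg (x : L) : 0 ≤ wnrm K L v M x := qnrm_nonneg (v.1 : ℕ) M _

theorem wnrm_one : wnrm K L v M 1 = 1 := by
  rw [wnrm, RingHom.map_one, qnrm_one]

theorem wnrm_zero : wnrm K L v M 0 = 0 := by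
  rw [wnrm, RingHom.map_zero, qnrm_zero]

theorem wnrm_mul (x y : L) : wnrm K L v M (x * y) = wnrm K L v M x * wnrm K L v M y := by
  rw [wnrm, RingHom.map_mul, qnrm_mul]
  rfl

theorem wnrm_pow (x : L) (n : ℕ) : wnrm K L v M (x ^ n) = wnrm K L v M x ^ n := by
  rw [wnrm, RingHom.map_pow, qnrm_pow]
  rfl

theorem wnrm_add_le (x y : L) :
    wnrm K L v M (x + y) ≤ max (wnrm K L v M x) (wnrm K L v M y) := by
  rw [wnrm, RingHom.map_add]
  exact qnrm_add_le_max (v.1 : ℕ) M _ _

theorem wnrm_le_one_of_isIntegral {x : L} (hx : IsIntegral ℤ x) : wnrm K L v M x ≤ 1 :=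
  qnrm_le_one_of_isIntegral (v.1 : ℕ) M (hx.map (resIncl K L v M).toIntAlgHom)

theorem wnrm_natCast_of_not_dvd {m : ℕ} (hm : ¬ (v.1 : ℕ) ∣ m) : wnrm K L v M (m : L) = 1 := by
  rw [wnrm, map_natCast]
  exact qnrm_natCast_of_not_dvd (v.1 : ℕ) M hm

theorem wnrm_natCast_q : wnrm K L v M (((v.1 : ℕ) : ℕ) : L) < 1 := by
  rw [wnrm, map_natCast]
  exact qnrm_natCast_q (v.1 : ℕ) M

theorem not_dvd_prodT (T : Finset Nat.Primes) (hv : v.1 ∉ T) : ¬ (v.1 : ℕ) ∣ prodT T := by
  intro h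
  rw [prodT] at h
  obtain ⟨ℓ, hℓ, hdvd⟩ := (Prime.dvd_finsetProd_iff (Nat.Prime.prime v.1.2) _).1 h
  have := (Nat.prime_dvd_prime_iff_eq v.1.2 ℓ.2).1 hdvd
  exact hv ((Subtype.ext this : v.1 = ℓ) ▸ hℓ)

/-- `T`-units are units at the places outside `T`. -/
theorem wnrm_tunit (T : Finset Nat.Primes) (hv : v.1 ∉ T) {x : Lˣ} (hx : x ∈ TUnits L T) :
    wnrm K L v M (x : L) = 1 := by
  obtain ⟨n, h1, h2⟩ := hx
  have hp : wnrm K L v M ((prodT T : L) ^ n) = 1 := by
    rw [wnrm_pow, wnrm_natCast_of_not_dvd K L v M (not_dvd_prodT K v T hv), one_pow]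
  have h3 := wnrm_le_one_of_isIntegral K L v M h1
  have h4 := wnrm_le_one_of_isIntegral K L v M h2
  rw [wnrm_mul, hp, one_mul] at h3 h4
  have h5 : wnrm K L v M (x : L) * wnrm K L v M ((x⁻¹ : Lˣ) : L) = 1 := by
    rw [← wnrm_mul, ← Units.val_mul, mul_inv_cancel, Units.val_one, wnrm_one]
  have h6 := wnrm_nonneg K L v M (x : L)
  have h7 := wnrm_nonneg K L v M ((x⁻¹ : Lˣ) : L)
  nlinarith

/-! ### The prime below a place, and the inertia group -/

/-- The prime of `𝓞 L` below the place `M`. -/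
def wPrime : Ideal (𝓞 L) where
  carrier := {x | wnrm K L v M (algebraMap (𝓞 L) L x) < 1}
  add_mem' := by
    intro a b ha hb
    show wnrm K L v M (algebraMap (𝓞 L) L (a + b)) < 1
    rw [map_add]
    exact lt_of_le_of_lt (wnrm_add_le K L v M _ _) (max_lt ha hb)
  zero_mem' := by
    show wnrm K L v M (algebraMap (𝓞 L) L 0) < 1
    rw [map_zero, wnrm_zero]
    exact zero_lt_one
  smul_mem' := by
    intro c x hx
    show wnrm K L v M (algebraMap (𝓞 L) L (c • x)) < 1
    rw [smul_eq_mul, map_mul, wnrm_mul]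
    have h1 : wnrm K L v M (algebraMap (𝓞 L) L c) ≤ 1 :=
      wnrm_le_one_of_isIntegral K L v M (RingOfIntegers.isIntegral_coe c)
    have h2 := wnrm_nonneg K L v M (algebraMap (𝓞 L) L c)
    have h3 := wnrm_nonneg K L v M (algebraMap (𝓞 L) L x)
    have h4 : wnrm K L v M (algebraMap (𝓞 L) L x) < 1 := hx
    nlinarith

theorem mem_wPrime (x : 𝓞 L) :
    x ∈ wPrime K L v M ↔ wnrm K L v M (algebraMap (𝓞 L) L x) < 1 := Iff.rfl

theorem wPrime_isPrime : (wPrime K L v M).IsPrime := by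
  refine ⟨?_, ?_⟩
  · intro h
    have h1 : (1 : 𝓞 L) ∈ wPrime K L v M := by rw [h]; trivial
    rw [mem_wPrime, map_one, wnrm_one] at h1
    exact lt_irrefl _ h1
  · intro x y hxy
    rw [mem_wPrime, map_mul, wnrm_mul] at hxy
    by_contra hcon
    rw [not_or] at hcon
    have hx : wnrm K L v M (algebraMap (𝓞 L) L x) = 1 :=
      le_antisymm (wnrm_le_one_of_isIntegral K L v M (RingOfIntegers.isIntegral_coe x))
        (not_lt.1 hcon.1)
    have hy : wnrm K L v M (algebraMap (𝓞 L) L y) = 1 :=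
      le_antisymm (wnrm_le_one_of_isIntegral K L v M (RingOfIntegers.isIntegral_coe y))
        (not_lt.1 hcon.2)
    rw [hx, hy, mul_one] at hxy
    exact lt_irrefl _ hxy

theorem wPrime_ne_bot : wPrime K L v M ≠ ⊥ := by
  intro h
  have h1 : (((v.1 : ℕ) : ℕ) : 𝓞 L) ∈ wPrime K L v M := by
    rw [mem_wPrime, map_natCast]
    exact wnrm_natCast_q K L v M
  rw [h, Ideal.mem_bot] at h1
  exact (Nat.cast_ne_zero.2 v.1.2.ne_zero) h1

theorem not_mem_wPrime (T : Finset Nat.Primes) (hv : v.1 ∉ T) (ℓ : Nat.Primes) (hℓ : ℓ ∈ T) :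
    (((ℓ : ℕ) : ℤ) : 𝓞 L) ∉ wPrime K L v M := by
  rw [mem_wPrime, map_intCast, Int.cast_natCast]
  have hnd : ¬ (v.1 : ℕ) ∣ (ℓ : ℕ) := by
    intro hdvd
    have := (Nat.prime_dvd_prime_iff_eq v.1.2 ℓ.2).1 hdvd
    exact hv ((Subtype.ext this : v.1 = ℓ) ▸ hℓ)
  rw [wnrm_natCast_of_not_dvd K L v M hnd]
  exact lt_irrefl _

theorem resIncl_smul (d : decomp (L ≃ₐ[K] L) M) (y : L) :
    resIncl K L v M ((d : L ≃ₐ[K] L) y) =
      quotRingHom (L ≃ₐ[K] L) M d (resIncl K L v M y) := by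
  show Ideal.Quotient.mk M (locIncl K L v ((d : L ≃ₐ[K] L) y)) =
    quotRingHom (L ≃ₐ[K] L) M d (Ideal.Quotient.mk M (locIncl K L v y))
  rw [quotRingHom_mk, locIncl_smul]

set_option synthInstance.maxHeartbeats 400000 in
theorem resIncl_sub (a b : L) :
    resIncl K L v M (a - b) = resIncl K L v M a - resIncl K L v M b :=
  map_sub (resIncl K L v M) a b

/-- **Global → local**: at a place outside `T` no nontrivial element of the decomposition group
acts trivially on the residue field. -/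
theorem inertia_trivial (p : ℕ) (T : Finset Nat.Primes) (h : Admissible K L T p)
    (hv : v.1 ∉ T) (d : decomp (L ≃ₐ[K] L) M)
    (hd : ∀ x : LocAlg K L v ⧸ M, qnrm (v.1 : ℕ) M x ≤ 1 →
      qnrm (v.1 : ℕ) M (quotRingHom (L ≃ₐ[K] L) M d x - x) < 1) :
    d = 1 := by
  have hP := h.unr (wPrime K L v M) (wPrime_isPrime K L v M) (wPrime_ne_bot K L v M)
    (fun ℓ hℓ => not_mem_wPrime K L v M T hv ℓ hℓ)
  have hmem : (d : L ≃ₐ[K] L) ∈ (wPrime K L v M).inertia (L ≃ₐ[K] L) := by
    intro x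
    show wnrm K L v M (algebraMap (𝓞 L) L ((d : L ≃ₐ[K] L) • x - x)) < 1
    have h1 : algebraMap (𝓞 L) L ((d : L ≃ₐ[K] L) • x - x) =
        (d : L ≃ₐ[K] L) (algebraMap (𝓞 L) L x) - algebraMap (𝓞 L) L x := by
      rw [map_sub]
      rfl
    rw [h1, wnrm, resIncl_sub, resIncl_smul]
    exact hd _ (wnrm_le_one_of_isIntegral K L v M (RingOfIntegers.isIntegral_coe x))
  rw [hP, Subgroup.mem_bot] at hmem
  exact Subtype.ext hmem

end conc

/-! ### The statement -/

section final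

attribute [local instance] fact_primes

/-- **VAL-c**. -/
theorem stmt_UnitsUnram : Stmt_UnitsUnram := by
  intro p K L _ _ _ _ _ T h e v hv
  haveI : IsGalois K L := h.gal
  obtain ⟨M, hM⟩ := Ideal.exists_maximal (LocAlg K L v)
  have key := valc_abstract' (v.1 : ℕ) M (fun _ _ => rfl)
    (locAlg_orbitSeparates K L v M) (locAlg_smul_algebraMap K L v)
    (fun d hd => inertia_trivial K L v M p T h hv d hd)
    (unitsToL K L T ≫ locRep K L v)
    (fun a => wnrm_tunit K L v M T hv (Additive.toMul a).2) e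
  have e1 := congrArg (fun ψ => ψ.hom e)
    ((groupCohomology.functor ℤ (L ≃ₐ[K] L) 2).map_comp (unitsToL K L T) (locRep K L v))
  exact e1.symm.trans key

end final

end Fermat.Agent.S55.CFT.H45
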