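import Mathlib

/-!
# CFT package SHL (helper58), part 1: abstract Shapiro for the units of a `G`-ring

Let a finite group `G` act on a commutative ring `B` by ring automorphisms, `M` an ideal of `B`
such that `⋂_g g⁻¹ M = 0` and the `g⁻¹ M` are maximal (so `B` is the product of the fields
`B / g⁻¹ M`, permuted transitively by `G`), `D` the stabiliser of `M`.  Then
`Bˣ ≅ Coind_D^G (B / M)ˣ` as `G`-modules (`unitsCoindIso`), hence
`Hⁿ(G, Bˣ) ≅ Hⁿ(D, (B / M)ˣ)` (`unitsShapiro`).
-/

set_option autoImplicit false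
set_option linter.unusedSectionVars false

noncomputable section

namespace Fermat.Agent.S55.CFT.H58

open CategoryTheory groupCohomology Rep

/-! ## The units of a `Γ`-ring as a representation -/

section UnitsRep

variable (Γ : Type) [Group Γ] (R : Type) [CommRing R] [MulSemiringAction Γ R]

/-- The automorphism of `Rˣ` induced by `g`. -/
def unitsSmul (g : Γ) : Rˣ →* Rˣ :=
  Units.map (MulSemiringAction.toRingHom Γ R g : R →* R)

@[simp] lemma unitsSmul_coe (g : Γ) (u : Rˣ) : ((unitsSmul Γ R g u : Rˣ) : R) = g • (u : R) := rfl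

/-- The representation of `Γ` on `Rˣ` (written additively). -/
def unitsRho : Representation ℤ Γ (Additive Rˣ) where
  toFun g :=
    { toFun := fun a => Additive.ofMul (unitsSmul Γ R g a.toMul)
      map_add' := fun a b => by
        show Additive.ofMul (unitsSmul Γ R g (a.toMul * b.toMul)) = _
        rw [map_mul]
        rfl
      map_smul' := fun n a => by
        show Additive.ofMul (unitsSmul Γ R g (a.toMul ^ n)) = _
        rw [map_zpow]
        rfl }
  map_one' := by
    ext a
    exact one_smul Γ ((a.toMul : Rˣ) : R)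
  map_mul' g h := by
    ext a
    exact mul_smul g h ((a.toMul : Rˣ) : R)

@[simp] lemma unitsRho_apply (g : Γ) (a : Additive Rˣ) :
    unitsRho Γ R g a = Additive.ofMul (unitsSmul Γ R g a.toMul) := rfl

/-- The units of `R` as an object of `Rep ℤ Γ`. -/
abbrev unitsRepOf : Rep.{0} ℤ Γ := Rep.of (unitsRho Γ R)

end UnitsRep

/-! ## The decomposition group and its action on the residue ring -/

section Decomp

variable (G : Type) [Group G] {B : Type} [CommRing B] [MulSemiringAction G B] (M : Ideal B)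

/-- The stabiliser of the ideal `M`. -/
def decomp : Subgroup G where
  carrier := {g | ∀ b : B, g • b ∈ M ↔ b ∈ M}
  one_mem' := fun b => by rw [one_smul]
  mul_mem' := fun {g h} hg hh b => by rw [mul_smul, hg, hh]
  inv_mem' := fun {g} hg b => by
    have := hg (g⁻¹ • b)
    rw [smul_inv_smul] at this
    exact this.symm

lemma mem_decomp (g : G) : g ∈ decomp G M ↔ ∀ b : B, g • b ∈ M ↔ b ∈ M := Iff.rfl

/-- The ring endomorphism of `B ⧸ M` induced by an element of the stabiliser. -/
def quotRingHom (d : decomp G M) : B ⧸ M →+* B ⧸ M :=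
  Ideal.quotientMap M (MulSemiringAction.toRingHom G B (d : G))
    (fun b hb => (d.2 b).2 hb)

@[simp] lemma quotRingHom_mk (d : decomp G M) (b : B) :
    quotRingHom G M d (Ideal.Quotient.mk M b) = Ideal.Quotient.mk M ((d : G) • b) := rfl

/-- The action of the stabiliser of `M` on `B ⧸ M`. -/
instance quotAction : MulSemiringAction (decomp G M) (B ⧸ M) where
  smul d x := quotRingHom G M d x
  one_smul x := by
    obtain ⟨y, rfl⟩ := Ideal.Quotient.mk_surjective x
    show quotRingHom G M 1 _ = _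
    rw [quotRingHom_mk, Subgroup.coe_one, one_smul]
  mul_smul d e x := by
    obtain ⟨y, rfl⟩ := Ideal.Quotient.mk_surjective x
    show quotRingHom G M (d * e) _ = quotRingHom G M d (quotRingHom G M e _)
    rw [quotRingHom_mk, quotRingHom_mk, quotRingHom_mk, Subgroup.coe_mul, mul_smul]
  smul_zero d := map_zero (quotRingHom G M d)
  smul_add d x y := map_add (quotRingHom G M d) x y
  smul_one d := map_one (quotRingHom G M d)
  smul_mul d x y := map_mul (quotRingHom G M d) x y

lemma quot_smul_mk (d : decomp G M) (b : B) :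
    d • (Ideal.Quotient.mk M b) = Ideal.Quotient.mk M ((d : G) • b) := rfl

/-- The reduction `Bˣ → (B ⧸ M)ˣ`. -/
def redUnits : Bˣ →* (B ⧸ M)ˣ := Units.map (Ideal.Quotient.mk M : B →* B ⧸ M)

@[simp] lemma redUnits_coe (u : Bˣ) : ((redUnits M u : (B ⧸ M)ˣ) : B ⧸ M) =
    Ideal.Quotient.mk M (u : B) := rfl

lemma redUnits_smul (d : decomp G M) (u : Bˣ) :
    redUnits M (unitsSmul G B (d : G) u) = unitsSmul (decomp G M) (B ⧸ M) d (redUnits M u) := by
  apply Units.ext
  rfl

/-- The comparison map `Bˣ → Coind_D^G (B ⧸ M)ˣ`, `u ↦ (g ↦ [g u])`. -/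
def toCoindUnits : (unitsRho G B).IntertwiningMap
    (Representation.coind (decomp G M).subtype (unitsRho (decomp G M) (B ⧸ M))) where
  toLinearMap :=
    { toFun := fun a => ⟨fun g => Additive.ofMul (redUnits M (unitsSmul G B g a.toMul)),
        fun d g => by
          show Additive.ofMul (redUnits M (unitsSmul G B ((d : G) * g) a.toMul)) =
            Additive.ofMul (unitsSmul (decomp G M) (B ⧸ M) d
              (redUnits M (unitsSmul G B g a.toMul)))
          rw [← redUnits_smul]
          apply congrArg Additive.ofMul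
          apply congrArg (redUnits M)
          apply Units.ext
          exact mul_smul (d : G) g _⟩
      map_add' := fun a b => by
        apply Subtype.ext
        funext g
        show Additive.ofMul (redUnits M (unitsSmul G B g (a.toMul * b.toMul))) = _
        rw [map_mul, map_mul]
        rfl
      map_smul' := fun n a => by
        apply Subtype.ext
        funext g
        show Additive.ofMul (redUnits M (unitsSmul G B g (a.toMul ^ n))) = _
        rw [map_zpow, map_zpow]
        rfl }
  isIntertwining' h := by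
    ext a g
    show Ideal.Quotient.mk M (g • (h • ((a.toMul : Bˣ) : B))) =
      Ideal.Quotient.mk M ((g * h) • ((a.toMul : Bˣ) : B))
    rw [mul_smul]

lemma toCoindUnits_apply (a : Additive Bˣ) (g : G) :
    (toCoindUnits G M a).1 g = Additive.ofMul (redUnits M (unitsSmul G B g a.toMul)) := rfl

/-- The ideal `g⁻¹ M = {b | g b ∈ M}`. -/
def conjIdeal (g : G) : Ideal B := M.comap (MulSemiringAction.toRingEquiv G B g)

lemma mem_conjIdeal (g : G) (b : B) : b ∈ conjIdeal G M g ↔ g • b ∈ M := Iff.rfl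

lemma conjIdeal_isMaximal [hM : M.IsMaximal] (g : G) : (conjIdeal G M g).IsMaximal :=
  Ideal.comap_isMaximal_of_equiv (MulSemiringAction.toRingEquiv G B g)

lemma conjIdeal_mul_of_mem (d : decomp G M) (g : G) :
    conjIdeal G M ((d : G) * g) = conjIdeal G M g := by
  ext b
  rw [mem_conjIdeal, mem_conjIdeal, mul_smul]
  exact d.2 _

lemma mul_inv_mem_decomp_of_conjIdeal_eq {g h : G} (e : conjIdeal G M g = conjIdeal G M h) :
    h * g⁻¹ ∈ decomp G M := by
  intro b
  rw [mul_smul, ← mem_conjIdeal, ← e, mem_conjIdeal, smul_inv_smul]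

/-- The hypothesis of Shapiro for units: `⋂_g g⁻¹ M = 0`. -/
def OrbitSeparates : Prop := ∀ b : B, (∀ g : G, g • b ∈ M) → b = 0

variable {G M}

lemma toCoindUnits_injective (hJ : OrbitSeparates G M) :
    Function.Injective (toCoindUnits G M) := by
  intro a a' h
  have h1 : ∀ g : G, g • (((a.toMul : Bˣ) : B) - ((a'.toMul : Bˣ) : B)) ∈ M := by
    intro g
    have h2 := congrFun (congrArg Subtype.val h) g
    have h3 : Ideal.Quotient.mk M (g • ((a.toMul : Bˣ) : B)) =
        Ideal.Quotient.mk M (g • ((a'.toMul : Bˣ) : B)) :=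
      congrArg (fun x : Additive (B ⧸ M)ˣ => ((x.toMul : (B ⧸ M)ˣ) : B ⧸ M)) h2
    rw [smul_sub]
    exact Ideal.Quotient.eq.mp h3
  have h4 := hJ _ h1
  have h5 : a.toMul = a'.toMul := Units.ext (sub_eq_zero.mp h4)
  exact h5

lemma exists_forall_smul_sub_mem [Finite G] [hM : M.IsMaximal] (T : Set G)
    (hT : Subgroup.IsComplement (decomp G M : Set G) T) (x : T → B) :
    ∃ u : B, ∀ t : T, (t : G) • u - x t ∈ M := by
  have hcop : Pairwise (Function.onFun IsCoprime (fun t : T => conjIdeal G M (t : G))) := by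
    intro t t' hne
    show IsCoprime (conjIdeal G M (t : G)) (conjIdeal G M (t' : G))
    rw [Ideal.isCoprime_iff_sup_eq]
    apply Ideal.IsMaximal.coprime_of_ne (conjIdeal_isMaximal G M _) (conjIdeal_isMaximal G M _)
    intro e
    have hd := mul_inv_mem_decomp_of_conjIdeal_eq G M e
    apply hne
    have h2 := hT.1 (a₁ := (⟨(t' : G) * (t : G)⁻¹, hd⟩, t))
      (a₂ := (⟨1, (decomp G M).one_mem⟩, t')) (by simp)
    exact (congrArg Prod.snd h2)
  obtain ⟨u, hu⟩ := Ideal.exists_forall_sub_mem_ideal hcop (fun t => (t : G)⁻¹ • x t)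
  refine ⟨u, fun t => ?_⟩
  have h1 := hu t
  rw [mem_conjIdeal, smul_sub, smul_inv_smul] at h1
  exact h1

lemma toCoindUnits_surjective [Finite G] [hM : M.IsMaximal] (hJ : OrbitSeparates G M) :
    Function.Surjective (toCoindUnits G M) := by
  intro f
  obtain ⟨T, hT, -⟩ := Subgroup.exists_isComplement_right (decomp G M) (1 : G)
  have hlift : ∀ t : T, ∃ b : B,
      Ideal.Quotient.mk M b = (((f.1 (t : G)).toMul : (B ⧸ M)ˣ) : B ⧸ M) :=
    fun t => Ideal.Quotient.mk_surjective _
  have hlift' : ∀ t : T, ∃ c : B,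
      Ideal.Quotient.mk M c = (((((f.1 (t : G)).toMul : (B ⧸ M)ˣ))⁻¹ : (B ⧸ M)ˣ) : B ⧸ M) :=
    fun t => Ideal.Quotient.mk_surjective _
  choose b hb using hlift
  choose c hc using hlift'
  obtain ⟨u, hu⟩ := exists_forall_smul_sub_mem T hT b
  obtain ⟨w, hw⟩ := exists_forall_smul_sub_mem T hT c
  have hut : ∀ t : T, Ideal.Quotient.mk M ((t : G) • u) =
      (((f.1 (t : G)).toMul : (B ⧸ M)ˣ) : B ⧸ M) := fun t => by
    rw [← hb t]
    exact Ideal.Quotient.eq.mpr (hu t)
  have hwt : ∀ t : T, Ideal.Quotient.mk M ((t : G) • w) =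
      (((((f.1 (t : G)).toMul : (B ⧸ M)ˣ))⁻¹ : (B ⧸ M)ˣ) : B ⧸ M) := fun t => by
    rw [← hc t]
    exact Ideal.Quotient.eq.mpr (hw t)
  have hdt : ∀ g : G, ∃ (d : decomp G M) (t : T), g = (d : G) * (t : G) := fun g =>
    ⟨(hT.equiv g).1, (hT.equiv g).2, (hT.equiv_fst_mul_equiv_snd g).symm⟩
  have huw : u * w = 1 := by
    have h0 : u * w - 1 = 0 := hJ _ (fun g => by
      obtain ⟨d, t, rfl⟩ := hdt g
      rw [mul_smul]
      refine (d.2 _).2 ?_
      rw [← Ideal.Quotient.eq_zero_iff_mem, smul_sub, smul_mul', smul_one, map_sub, map_mul,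
        map_one, hut, hwt, Units.mul_inv, sub_self])
    exact sub_eq_zero.mp h0
  let U : Bˣ := ⟨u, w, huw, (mul_comm w u).trans huw⟩
  refine ⟨Additive.ofMul U, ?_⟩
  apply Subtype.ext
  funext g
  obtain ⟨d, t, rfl⟩ := hdt g
  have hf : f.1 ((d : G) * (t : G)) =
      Additive.ofMul (unitsSmul (decomp G M) (B ⧸ M) d (f.1 (t : G)).toMul) := f.2 d (t : G)
  rw [hf, toCoindUnits_apply]
  apply congrArg Additive.ofMul
  apply Units.ext
  show Ideal.Quotient.mk M (((d : G) * (t : G)) • u) =
    d • (((f.1 (t : G)).toMul : (B ⧸ M)ˣ) : B ⧸ M)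
  rw [mul_smul, ← hut t]
  rfl

lemma toCoindUnits_bijective [Finite G] [hM : M.IsMaximal] (hJ : OrbitSeparates G M) :
    Function.Bijective (toCoindUnits G M) :=
  ⟨toCoindUnits_injective hJ, toCoindUnits_surjective hJ⟩

/-- **Shapiro for units**, on modules: `Bˣ ≅ Coind_D^G (B ⧸ M)ˣ`. -/
def unitsCoindIso [Finite G] [hM : M.IsMaximal] (hJ : OrbitSeparates G M) :
    unitsRepOf G B ≅ coind (decomp G M).subtype (unitsRepOf (decomp G M) (B ⧸ M)) :=
  Rep.mkIso ((toCoindUnits G M).ofBijective (toCoindUnits_bijective hJ))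

/-- **Shapiro for units**, on cohomology: `Hⁿ(G, Bˣ) ≅ Hⁿ(D, (B ⧸ M)ˣ)`. -/
def unitsShapiro [Finite G] [hM : M.IsMaximal] (hJ : OrbitSeparates G M) (n : ℕ) :
    groupCohomology (unitsRepOf G B) n ≅
      groupCohomology (unitsRepOf (decomp G M) (B ⧸ M)) n :=
  (functor ℤ G n).mapIso (unitsCoindIso hJ) ≪≫ coindIso _ n

/-! ## Counting the maximal ideals -/

lemma exists_conjIdeal_eq [Finite G] [hM : M.IsMaximal] (hJ : OrbitSeparates G M)
    (P : Ideal B) [hP : P.IsMaximal] : ∃ g : G, conjIdeal G M g = P := by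
  classical
  let _ : Fintype G := Fintype.ofFinite G
  have h1 : (Finset.univ : Finset G).inf (conjIdeal G M) ≤ P := by
    intro b hb
    have h2 : ∀ g : G, g • b ∈ M := fun g => by
      have h3 : b ∈ conjIdeal G M g := by
        have := (Finset.inf_le (f := conjIdeal G M) (Finset.mem_univ g)) hb
        exact this
      exact h3
    rw [hJ b h2]
    exact P.zero_mem
  obtain ⟨g, -, hg⟩ := (Ideal.IsPrime.inf_le' hP.isPrime).1 h1
  exact ⟨g, (conjIdeal_isMaximal G M g).eq_of_le hP.ne_top hg⟩

/-- `#MaxSpec B · #D = #G`. -/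
theorem card_maximalSpectrum_mul [Finite G] [hM : M.IsMaximal] (hJ : OrbitSeparates G M) :
    Nat.card (MaximalSpectrum B) * Nat.card (decomp G M) = Nat.card G := by
  obtain ⟨T, hT, -⟩ := Subgroup.exists_isComplement_right (decomp G M) (1 : G)
  have hbij : Function.Bijective
      (fun t : T => (⟨conjIdeal G M (t : G), conjIdeal_isMaximal G M _⟩ : MaximalSpectrum B)) := by
    constructor
    · intro t t' h
      have e : conjIdeal G M (t : G) = conjIdeal G M (t' : G) := congrArg MaximalSpectrum.asIdeal h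
      have hd := mul_inv_mem_decomp_of_conjIdeal_eq G M e
      have h2 := hT.1 (a₁ := (⟨(t' : G) * (t : G)⁻¹, hd⟩, t))
        (a₂ := (⟨1, (decomp G M).one_mem⟩, t')) (by simp)
      exact (congrArg Prod.snd h2)
    · intro P
      obtain ⟨g, hg⟩ := exists_conjIdeal_eq hJ P.asIdeal
      refine ⟨(hT.equiv g).2, ?_⟩
      apply MaximalSpectrum.ext
      show conjIdeal G M ((hT.equiv g).2 : G) = P.asIdeal
      rw [← hg]
      conv_rhs => rw [← hT.equiv_fst_mul_equiv_snd g]
      exact (conjIdeal_mul_of_mem G M (hT.equiv g).1 _).symm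
  rw [← Nat.card_congr (Equiv.ofBijective _ hbij), mul_comm]
  exact hT.card_mul_card

end Decomp

end Fermat.Agent.S55.CFT.H58
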