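/-
S55 / E4 / CFT, leaf UNN (helper96), part 1: trace and norm modulo a prime with trivial inertia.

`G` a finite group acting on `B`, `B^G = A`, `Q` a maximal ideal of `B` over `P` with finite residue
field and trivial inertia group.  Then the decomposition group of `Q` is the Galois group of the
residue field extension, and
* `exists_sum_smul_notMem`: there is `t` with `∑ g, g • t ∉ Q`;
* `exists_prod_smul_sub_mem`: for `a ∈ A`, `a ∉ P`, there is `y` with `∏ g, g • y - a ∈ Q`.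
-/
import Mathlib

set_option autoImplicit false
set_option linter.unusedSectionVars false
set_option linter.style.haveILetI false

open scoped Pointwise

namespace Fermat.Agent.S55.CFT.H96

section stable

variable {B : Type*} [CommRing B] {G : Type*} [Group G] [Fintype G] [MulSemiringAction G B]

/-- The product of the conjugates modulo a stable ideal. -/
theorem prod_smul_sub_mem (𝔮 : Ideal B) (h𝔮 : ∀ (g : G) (x : B), x ∈ 𝔮 → g • x ∈ 𝔮) {y y' : B}
    (h : y - y' ∈ 𝔮) : (∏ g : G, g • y) - ∏ g : G, g • y' ∈ 𝔮 := by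
  rw [← Ideal.Quotient.eq, map_prod, map_prod]
  refine Finset.prod_congr rfl (fun g _ => ?_)
  rw [Ideal.Quotient.eq, ← smul_sub]
  exact h𝔮 g _ h

/-- An element which is `1` modulo the maximal ideal `Q` and lies in `P ⊄ Q`. -/
theorem exists_sub_one_mem_of_not_le {R : Type*} [CommRing R] (Q : Ideal R) [hQ : Q.IsMaximal]
    (P : Ideal R) (h1 : ¬ P ≤ Q) : ∃ j : R, j - 1 ∈ Q ∧ j ∈ P := by
  have h2 : Q ⊔ P = ⊤ := by
    refine hQ.1.2 _ (lt_of_le_of_ne le_sup_left ?_)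
    intro h
    exact h1 (h ▸ le_sup_right)
  have h3 : (1 : R) ∈ Q ⊔ P := by rw [h2]; trivial
  obtain ⟨a, ha, j, hj, haj⟩ := Submodule.mem_sup.mp h3
  refine ⟨j, ?_, hj⟩
  have : j - 1 = -a := by rw [← haj]; ring
  rw [this]
  exact Q.neg_mem ha

/-- An element which is `1` modulo `Q` and `0` modulo the other conjugates of `Q`. -/
theorem exists_crt_elt (Q : Ideal B) [hQ : Q.IsMaximal] :
    ∃ j : B, j - 1 ∈ Q ∧ ∀ g : G, g • Q ≠ Q → j ∈ g • Q := by
  classical
  let P := Finset.inf {g : G | g • Q ≠ Q} (fun g ↦ g • Q)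
  have h1 : ¬ P ≤ Q := by
    rw [Ideal.IsPrime.inf_le' inferInstance]
    rintro ⟨g, hg1, hg2⟩
    exact (Finset.mem_filter.mp hg1).2 (smul_eq_of_smul_le hg2)
  obtain ⟨j, hj1, hj⟩ := exists_sub_one_mem_of_not_le Q P h1
  exact ⟨j, hj1, fun g hg =>
    (Finset.inf_le (Finset.mem_filter.mpr ⟨Finset.mem_univ g, hg⟩) : P ≤ g • Q) hj⟩

/-- An element which is `1` modulo `𝔭'` and `0` modulo the maximal ideals `𝔭 ∈ s`, `𝔭' ∉ s`. -/
theorem exists_crt_elt_finset {R : Type*} [CommRing R] (s : Finset (Ideal R))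
    (hs : ∀ 𝔭 ∈ s, 𝔭.IsMaximal) (𝔭' : Ideal R) [h𝔭' : 𝔭'.IsMaximal] (h : 𝔭' ∉ s) :
    ∃ c : R, c - 1 ∈ 𝔭' ∧ ∀ 𝔭 ∈ s, c ∈ 𝔭 := by
  have h1 : ¬ s.inf id ≤ 𝔭' := by
    rw [Ideal.IsPrime.inf_le' inferInstance]
    rintro ⟨𝔭, h𝔭, hle⟩
    exact h (((hs 𝔭 h𝔭).eq_of_le h𝔭'.ne_top hle) ▸ h𝔭)
  obtain ⟨c, hc1, hc⟩ := exists_sub_one_mem_of_not_le 𝔭' (s.inf id) h1
  exact ⟨c, hc1, fun 𝔭 h𝔭 => (Finset.inf_le h𝔭 : s.inf id ≤ id 𝔭) hc⟩

end stable

section residue

variable {A B : Type*} [CommRing A] [CommRing B] [Algebra A B]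
  {G : Type*} [Group G] [Fintype G] [MulSemiringAction G B] [SMulCommClass G A B]
  [Algebra.IsInvariant A B G]
  (P : Ideal A) [P.IsMaximal] (Q : Ideal B) [Q.IsMaximal] [Q.LiesOver P] [Finite (B ⧸ Q)]

/-- With trivial inertia the decomposition group is the Galois group of the residue fields. -/
theorem stabilizerHom_bijective (hI : Q.inertia G = ⊥) :
    Function.Bijective (Ideal.Quotient.stabilizerHom Q P G) := by
  refine ⟨?_, Ideal.Quotient.stabilizerHom_surjective G P Q⟩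
  rw [← MonoidHom.ker_eq_bot_iff, Ideal.Quotient.ker_stabilizerHom, eq_bot_iff]
  intro σ hσ
  have h1 : (σ : G) ∈ Q.inertia G := Ideal.coe_mem_inertia.mpr hσ
  rw [hI, Subgroup.mem_bot] at h1
  rw [Subgroup.mem_bot]
  exact Subtype.ext h1

/-- The residues of the conjugates of `t`: outside the decomposition group they vanish. -/
theorem mk_smul_of_not_stab (t : B) (h0 : ∀ g : G, g • Q ≠ Q → t ∈ g • Q) (g : G)
    (hg : g • Q ≠ Q) : Ideal.Quotient.mk Q (g • t) = 0 := by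
  rw [Ideal.Quotient.eq_zero_iff_mem, ← Ideal.mem_inv_pointwise_smul_iff]
  refine h0 g⁻¹ (fun h => hg ?_)
  calc g • Q = g • (g⁻¹ • Q) := by rw [h]
    _ = Q := smul_inv_smul g Q

/-- The sum of the residues of the conjugates of `t ≡ z mod Q`, `t ≡ 0` modulo the other
conjugates of `Q`, is the trace of `z`. -/
theorem mk_sum_smul (hI : Q.inertia G = ⊥) (t : B) (h0 : ∀ g : G, g • Q ≠ Q → t ∈ g • Q) :
    letI := Ideal.Quotient.field Q
    letI := Ideal.Quotient.field P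
    Ideal.Quotient.mk Q (∑ g : G, g • t) =
      ∑ τ : (B ⧸ Q) ≃ₐ[A ⧸ P] (B ⧸ Q), τ (Ideal.Quotient.mk Q t) := by
  classical
  letI := Ideal.Quotient.field Q
  letI := Ideal.Quotient.field P
  rw [map_sum, ← (stabilizerHom_bijective P Q hI).sum_comp
    (fun τ : (B ⧸ Q) ≃ₐ[A ⧸ P] (B ⧸ Q) => τ (Ideal.Quotient.mk Q t))]
  have h1 : ∑ g : G, Ideal.Quotient.mk Q (g • t) =
      ∑ g ∈ Finset.univ.filter (fun g : G => g ∈ MulAction.stabilizer G Q),
        Ideal.Quotient.mk Q (g • t) := by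
    symm
    refine Finset.sum_subset (Finset.filter_subset _ _) (fun g _ hg => ?_)
    refine mk_smul_of_not_stab Q t h0 g (fun h => hg ?_)
    exact Finset.mem_filter.mpr ⟨Finset.mem_univ g, MulAction.mem_stabilizer_iff.mpr h⟩
  rw [h1, Finset.sum_subtype (p := fun g : G => g ∈ MulAction.stabilizer G Q) _
    (fun g => by simp) (fun g => Ideal.Quotient.mk Q (g • t))]
  rfl

/-- The product of the residues of the conjugates of `y ≡ z mod Q`, `y ≡ 1` modulo the other
conjugates of `Q`, is the norm of `z`. -/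
theorem mk_prod_smul (hI : Q.inertia G = ⊥) (y : B) (h0 : ∀ g : G, g • Q ≠ Q → y - 1 ∈ g • Q) :
    letI := Ideal.Quotient.field Q
    letI := Ideal.Quotient.field P
    Ideal.Quotient.mk Q (∏ g : G, g • y) =
      ∏ τ : (B ⧸ Q) ≃ₐ[A ⧸ P] (B ⧸ Q), τ (Ideal.Quotient.mk Q y) := by
  classical
  letI := Ideal.Quotient.field Q
  letI := Ideal.Quotient.field P
  rw [map_prod, ← (stabilizerHom_bijective P Q hI).prod_comp
    (fun τ : (B ⧸ Q) ≃ₐ[A ⧸ P] (B ⧸ Q) => τ (Ideal.Quotient.mk Q y))]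
  have h1 : ∏ g : G, Ideal.Quotient.mk Q (g • y) =
      ∏ g ∈ Finset.univ.filter (fun g : G => g ∈ MulAction.stabilizer G Q),
        Ideal.Quotient.mk Q (g • y) := by
    symm
    refine Finset.prod_subset (Finset.filter_subset _ _) (fun g _ hg => ?_)
    have h2 : Ideal.Quotient.mk Q (g • (y - 1)) = 0 :=
      mk_smul_of_not_stab Q (y - 1) h0 g (fun h => hg
        (Finset.mem_filter.mpr ⟨Finset.mem_univ g, MulAction.mem_stabilizer_iff.mpr h⟩))
    rw [smul_sub, smul_one, map_sub, map_one, sub_eq_zero] at h2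
    exact h2
  rw [h1, Finset.prod_subtype (p := fun g : G => g ∈ MulAction.stabilizer G Q) _
    (fun g => by simp) (fun g => Ideal.Quotient.mk Q (g • y))]
  rfl

/-- **Trace**: there is `t` whose trace is not in `Q`. -/
theorem exists_sum_smul_notMem (P : Ideal A) [P.IsMaximal] (Q : Ideal B) [Q.IsMaximal]
    [Q.LiesOver P] [Finite (B ⧸ Q)] (hI : Q.inertia G = ⊥) : ∃ t : B, ∑ g : G, g • t ∉ Q := by
  classical
  letI := Ideal.Quotient.field Q
  letI := Ideal.Quotient.field P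
  obtain ⟨z, hz⟩ := Algebra.trace_surjective (A ⧸ P) (B ⧸ Q) 1
  obtain ⟨z₀, rfl⟩ := Ideal.Quotient.mk_surjective z
  obtain ⟨j, hj1, hj⟩ := exists_crt_elt (G := G) Q
  refine ⟨z₀ * j, fun hmem => ?_⟩
  have h1 := mk_sum_smul P Q hI (z₀ * j) (fun g hg => Ideal.mul_mem_left _ _ (hj g hg))
  have h2 : Ideal.Quotient.mk Q (z₀ * j) = Ideal.Quotient.mk Q z₀ := by
    rw [Ideal.Quotient.eq]
    have : z₀ * j - z₀ = z₀ * (j - 1) := by ring
    rw [this]
    exact Ideal.mul_mem_left _ _ hj1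
  rw [h2, ← trace_eq_sum_automorphisms, hz, map_one, Ideal.Quotient.eq_zero_iff_mem.mpr hmem] at h1
  exact zero_ne_one h1

/-- **Norm**: every `a ∈ A` is, modulo `Q`, the norm of some `y`. -/
theorem exists_prod_smul_sub_mem (P : Ideal A) [P.IsMaximal] (Q : Ideal B) [Q.IsMaximal]
    [Q.LiesOver P] [Finite (B ⧸ Q)] (hI : Q.inertia G = ⊥) (a : A) :
    ∃ y : B, (∏ g : G, g • y) - algebraMap A B a ∈ Q := by
  classical
  letI := Ideal.Quotient.field Q
  letI := Ideal.Quotient.field P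
  obtain ⟨z, hz⟩ := FiniteField.norm_surjective (A ⧸ P) (B ⧸ Q) (Ideal.Quotient.mk P a)
  obtain ⟨z₀, rfl⟩ := Ideal.Quotient.mk_surjective z
  obtain ⟨j, hj1, hj⟩ := exists_crt_elt (G := G) Q
  refine ⟨z₀ * j + (1 - j), ?_⟩
  have h1 := mk_prod_smul P Q hI (z₀ * j + (1 - j)) (fun g hg => by
    have : z₀ * j + (1 - j) - 1 = (z₀ - 1) * j := by ring
    rw [this]
    exact Ideal.mul_mem_left _ _ (hj g hg))
  have h2 : Ideal.Quotient.mk Q (z₀ * j + (1 - j)) = Ideal.Quotient.mk Q z₀ := by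
    rw [Ideal.Quotient.eq]
    have : z₀ * j + (1 - j) - z₀ = (z₀ - 1) * (j - 1) := by ring
    rw [this]
    exact Ideal.mul_mem_left _ _ hj1
  rw [h2, ← Algebra.norm_eq_prod_automorphisms, hz,
    Ideal.Quotient.algebraMap_mk_of_liesOver] at h1
  exact Ideal.Quotient.eq.mp h1

end residue

section glue

variable {A B : Type*} [CommRing A] [CommRing B] [Algebra A B]
  {G : Type*} [Group G] [Fintype G] [MulSemiringAction G B] [SMulCommClass G A B]

/-- Extended ideals are stable. -/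
theorem smul_mem_map (𝔭 : Ideal A) (g : G) (x : B) (hx : x ∈ 𝔭.map (algebraMap A B)) :
    g • x ∈ 𝔭.map (algebraMap A B) := by
  have h : 𝔭.map (algebraMap A B) ≤
      (𝔭.map (algebraMap A B)).comap (MulSemiringAction.toRingHom G B g) := by
    rw [Ideal.map_le_iff_le_comap]
    intro a ha
    rw [Ideal.mem_comap, Ideal.mem_comap, MulSemiringAction.toRingHom_apply,
      smul_algebraMap]
    exact Ideal.mem_map_of_mem _ ha
  exact h hx

theorem smul_sum_smul (t : B) (g : G) : g • ∑ h : G, h • t = ∑ h : G, h • t := by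
  rw [Finset.smul_sum]
  simp only [smul_smul]
  exact (Group.mulLeft_bijective g).sum_comp (fun h => h • t)

variable [Algebra.IsInvariant A B G]

variable (A G) in
/-- The norm comes from `A`. -/
theorem exists_algebraMap_eq_prod_smul (y : B) : ∃ n : A, algebraMap A B n = ∏ g : G, g • y :=
  Algebra.IsInvariant.isInvariant (A := A) (G := G) _ (Finset.smul_prod_perm y)

variable (A G) in
/-- The trace comes from `A`. -/
theorem exists_algebraMap_eq_sum_smul (t : B) : ∃ τ : A, algebraMap A B τ = ∑ g : G, g • t :=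
  Algebra.IsInvariant.isInvariant (A := A) (G := G) _ (smul_sum_smul t)

/-- **Norm, glued**: if every `𝔭 ∈ s` has a norm congruent to `a`, there is a norm congruent to
`a` modulo all `𝔭 ∈ s`. -/
theorem exists_norm_glue (s : Finset (Ideal A)) (hs : ∀ 𝔭 ∈ s, 𝔭.IsMaximal)
    (hmap : ∀ 𝔭 ∈ s, ∀ x : A, algebraMap A B x ∈ 𝔭.map (algebraMap A B) → x ∈ 𝔭) (a : A)
    (h1 : ∀ 𝔭 ∈ s, ∃ y : B, ∃ n : A, algebraMap A B n = ∏ g : G, g • y ∧ n - a ∈ 𝔭) :
    ∃ y : B, ∃ n : A, algebraMap A B n = ∏ g : G, g • y ∧ ∀ 𝔭 ∈ s, n - a ∈ 𝔭 := by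
  classical
  induction s using Finset.induction_on with
  | empty =>
    refine ⟨1, 1, ?_, fun 𝔭 h => absurd h (Finset.notMem_empty _)⟩
    simp
  | insert 𝔭' s hns ih =>
    obtain ⟨ys, ns, hys, hns'⟩ := ih (fun 𝔭 h => hs 𝔭 (Finset.mem_insert_of_mem h))
      (fun 𝔭 h => hmap 𝔭 (Finset.mem_insert_of_mem h))
      (fun 𝔭 h => h1 𝔭 (Finset.mem_insert_of_mem h))
    obtain ⟨y', n', hy', hn'⟩ := h1 𝔭' (Finset.mem_insert_self _ _)
    have : 𝔭'.IsMaximal := hs 𝔭' (Finset.mem_insert_self _ _)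
    obtain ⟨c, hc1, hc⟩ := exists_crt_elt_finset s
      (fun 𝔭 h => hs 𝔭 (Finset.mem_insert_of_mem h)) 𝔭' hns
    set y : B := algebraMap A B c * y' + (1 - algebraMap A B c) * ys with hy
    obtain ⟨n, hn⟩ := exists_algebraMap_eq_prod_smul A G y
    refine ⟨y, n, hn, fun 𝔭 h𝔭 => ?_⟩
    rcases Finset.mem_insert.mp h𝔭 with rfl | h𝔭s
    · have e1 : y - y' ∈ Ideal.map (algebraMap A B) 𝔭 := by
        have : y - y' = algebraMap A B (c - 1) * (y' - ys) := by rw [hy, map_sub, map_one]; ring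
        rw [this]
        exact Ideal.mul_mem_right _ _ (Ideal.mem_map_of_mem _ hc1)
      have e2 := prod_smul_sub_mem (G := G) _ (smul_mem_map 𝔭) e1
      rw [← hn, ← hy', ← map_sub] at e2
      have e3 := hmap 𝔭 (Finset.mem_insert_self _ _) _ e2
      have : n - a = (n - n') + (n' - a) := by ring
      rw [this]
      exact Ideal.add_mem _ e3 hn'
    · have e1 : y - ys ∈ Ideal.map (algebraMap A B) 𝔭 := by
        have : y - ys = algebraMap A B c * (y' - ys) := by rw [hy]; ring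
        rw [this]
        exact Ideal.mul_mem_right _ _ (Ideal.mem_map_of_mem _ (hc 𝔭 h𝔭s))
      have e2 := prod_smul_sub_mem (G := G) _ (smul_mem_map 𝔭) e1
      rw [← hn, ← hys, ← map_sub] at e2
      have e3 := hmap 𝔭 (Finset.mem_insert_of_mem h𝔭s) _ e2
      have : n - a = (n - ns) + (ns - a) := by ring
      rw [this]
      exact Ideal.add_mem _ e3 (hns' 𝔭 h𝔭s)

/-- **Trace, glued**: if for every maximal ideal `M ⊇ I` there is a trace outside `M`, there is
a trace congruent to `1` modulo `I`. -/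
theorem exists_trace_glue (I : Ideal A)
    (h1 : ∀ M : Ideal A, M.IsMaximal → I ≤ M →
      ∃ t : B, ∃ τ : A, algebraMap A B τ = ∑ g : G, g • t ∧ τ ∉ M) :
    ∃ t : B, ∃ τ : A, algebraMap A B τ = ∑ g : G, g • t ∧ τ - 1 ∈ I := by
  let T : Ideal A :=
    { carrier := {τ | ∃ t : B, algebraMap A B τ = ∑ g : G, g • t}
      add_mem' := by
        rintro τ τ' ⟨t, ht⟩ ⟨t', ht'⟩
        exact ⟨t + t', by rw [map_add, ht, ht', ← Finset.sum_add_distrib]; simp [smul_add]⟩
      zero_mem' := ⟨0, by simp⟩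
      smul_mem' := by
        rintro c τ ⟨t, ht⟩
        refine ⟨c • t, ?_⟩
        rw [smul_eq_mul, map_mul, ht, Finset.mul_sum]
        refine Finset.sum_congr rfl (fun g _ => ?_)
        rw [smul_comm, Algebra.smul_def] }
  have hT : T ⊔ I = ⊤ := by
    by_contra hne
    obtain ⟨M, hM, hle⟩ := Ideal.exists_le_maximal _ hne
    obtain ⟨t, τ, hτ, hτM⟩ := h1 M hM (le_sup_right.trans hle)
    exact hτM (hle (Ideal.mem_sup_left ⟨t, hτ⟩))
  have h3 : (1 : A) ∈ T ⊔ I := by rw [hT]; trivial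
  obtain ⟨τ, ⟨t, ht⟩, i, hi, hτi⟩ := Submodule.mem_sup.mp h3
  refine ⟨t, τ, ht, ?_⟩
  have : τ - 1 = -i := by rw [← hτi]; ring
  rw [this]
  exact I.neg_mem hi

end glue

end Fermat.Agent.S55.CFT.H96
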