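/-
S55 / E4 / CFT, leaf UNN (helper96), part 3: the global input.

`L/K` Galois, unramified outside `T`, `q ∉ T`, `G = Gal(L/K)`:
* `exists_trace_one`: there is `t ∈ 𝓞 L` with `Tr_{L/K}(t) ≡ 1 mod q 𝓞 K`;
* `exists_norm_radical`: every `a ∈ 𝓞 K` is congruent modulo `rad(q 𝓞 K)` to a norm from `𝓞 L`.
-/
import Fermat.Agent.S55.CFT.Defs_BR3
import Fermat.Agent.S55.CFT.H96_UnnResidue

set_option autoImplicit false
set_option linter.unusedSectionVars false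

open NumberField

noncomputable section

namespace Fermat.Agent.S55.CFT.H96

open Fermat.Agent.S55.CFT

variable (K L : Type) [Field K] [Field L] [NumberField K] [NumberField L] [Algebra K L]
  (T : Finset Nat.Primes)

/-- A prime ideal containing `q ∉ T` contains no prime of `T`. -/
theorem notMem_of_mem_of_notMem {q : Nat.Primes} (hq : q ∉ T) (Q : Ideal (𝓞 L)) [hQ : Q.IsPrime]
    (hqQ : ((q : ℕ) : 𝓞 L) ∈ Q) : ∀ q' ∈ T, (((q' : ℕ) : ℤ) : 𝓞 L) ∉ Q := by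
  intro q' hq' hmem
  have hne : q ≠ q' := fun h => hq (h ▸ hq')
  have hcop : Nat.Coprime (q : ℕ) (q' : ℕ) :=
    (Nat.coprime_primes q.2 q'.2).mpr (fun h => hne (Subtype.ext h))
  have h1 : IsCoprime ((q : ℕ) : ℤ) ((q' : ℕ) : ℤ) := Nat.isCoprime_iff_coprime.mpr hcop
  obtain ⟨a, b, hab⟩ := h1
  have h2 : ((a * ((q : ℕ) : ℤ) + b * ((q' : ℕ) : ℤ) : ℤ) : 𝓞 L) ∈ Q := by
    push_cast
    refine Q.add_mem (Q.mul_mem_left _ ?_) (Q.mul_mem_left _ ?_)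
    · exact_mod_cast hqQ
    · exact_mod_cast hmem
  rw [hab] at h2
  apply hQ.ne_top
  rw [Ideal.eq_top_iff_one]
  exact_mod_cast h2

variable [IsGalois K L]

/-- Above every maximal ideal of `𝓞 K` containing `q ∉ T` there is a prime of `𝓞 L` with finite
residue field and trivial inertia. -/
theorem exists_prime_over (hunr : UnramifiedOutsideT K L T) {q : Nat.Primes} (hq : q ∉ T)
    (M : Ideal (𝓞 K)) [hM : M.IsMaximal] (hqM : ((q : ℕ) : 𝓞 K) ∈ M) :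
    ∃ Q : Ideal (𝓞 L), Q.IsMaximal ∧ Q.LiesOver M ∧ Finite (𝓞 L ⧸ Q) ∧
      Q.inertia (L ≃ₐ[K] L) = ⊥ := by
  obtain ⟨Q, hQ, hQM⟩ := Ideal.exists_ideal_over_maximal_of_isIntegral (S := 𝓞 L) M (by
    rw [(RingHom.injective_iff_ker_eq_bot _).mp (RingOfIntegers.algebraMap.injective K L)]
    exact bot_le)
  have hlies : Q.LiesOver M := ⟨hQM.symm⟩
  have hqQ : ((q : ℕ) : 𝓞 L) ∈ Q := by
    have := (Ideal.mem_of_liesOver Q M ((q : ℕ) : 𝓞 K)).mp hqM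
    rwa [map_natCast] at this
  have hQ0 : Q ≠ ⊥ := by
    intro h
    rw [h, Ideal.mem_bot] at hqQ
    have : ((q : ℕ) : 𝓞 L) ≠ 0 := by
      rw [Nat.cast_ne_zero]
      exact q.2.ne_zero
    exact this hqQ
  have hQp : Q.IsPrime := hQ.isPrime
  exact ⟨Q, hQ, hlies, Ideal.finiteQuotientOfFreeOfNeBot Q hQ0,
    hunr Q hQp hQ0 (notMem_of_mem_of_notMem L T hq Q hqQ)⟩

/-- **Trace**: there is `t ∈ 𝓞 L` with `Tr_{L/K}(t) ≡ 1 mod q`. -/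
theorem exists_trace_one (hunr : UnramifiedOutsideT K L T) {q : Nat.Primes} (hq : q ∉ T) :
    ∃ t : 𝓞 L, ∃ τ : 𝓞 K, algebraMap (𝓞 K) (𝓞 L) τ = ∑ g : L ≃ₐ[K] L, g • t ∧
      τ - 1 ∈ Ideal.span {((q : ℕ) : 𝓞 K)} := by
  refine exists_trace_glue (G := L ≃ₐ[K] L) (Ideal.span {((q : ℕ) : 𝓞 K)}) (fun M hM hle => ?_)
  have hqM : ((q : ℕ) : 𝓞 K) ∈ M := hle (Ideal.mem_span_singleton_self _)
  obtain ⟨Q, hQ, hlies, hfin, hin⟩ := exists_prime_over K L T hunr hq M hqM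
  obtain ⟨t, ht⟩ := exists_sum_smul_notMem (G := L ≃ₐ[K] L) M Q hin
  obtain ⟨τ, hτ⟩ := exists_algebraMap_eq_sum_smul (𝓞 K) (L ≃ₐ[K] L) t
  refine ⟨t, τ, hτ, fun hmem => ht ?_⟩
  rw [← hτ]
  exact (Ideal.mem_of_liesOver Q M τ).mp hmem

/-- **Norm**: every `a ∈ 𝓞 K` is congruent modulo `rad(q)` to a norm from `𝓞 L`. -/
theorem exists_norm_radical (hunr : UnramifiedOutsideT K L T) {q : Nat.Primes} (hq : q ∉ T)
    (a : 𝓞 K) :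
    ∃ y : 𝓞 L, ∃ n : 𝓞 K, algebraMap (𝓞 K) (𝓞 L) n = ∏ g : L ≃ₐ[K] L, g • y ∧
      n - a ∈ (Ideal.span {((q : ℕ) : 𝓞 K)}).radical := by
  classical
  set I : Ideal (𝓞 K) := Ideal.span {((q : ℕ) : 𝓞 K)} with hI
  have hfin : I.minimalPrimes.Finite := Ideal.finite_minimalPrimes_of_isNoetherianRing _ I
  have hq0 : ((q : ℕ) : 𝓞 K) ≠ 0 := by
    rw [Nat.cast_ne_zero]
    exact q.2.ne_zero
  have hprop : ∀ 𝔭 ∈ hfin.toFinset, 𝔭.IsMaximal ∧ ((q : ℕ) : 𝓞 K) ∈ 𝔭 := by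
    intro 𝔭 h𝔭
    rw [Set.Finite.mem_toFinset] at h𝔭
    have h1 : 𝔭.IsPrime := h𝔭.1.1
    have h2 : ((q : ℕ) : 𝓞 K) ∈ 𝔭 := h𝔭.1.2 (Ideal.mem_span_singleton_self _)
    refine ⟨h1.isMaximal ?_, h2⟩
    intro h
    rw [h, Ideal.mem_bot] at h2
    exact hq0 h2
  have key : ∀ 𝔭 ∈ hfin.toFinset,
      (∀ x : 𝓞 K, algebraMap (𝓞 K) (𝓞 L) x ∈ 𝔭.map (algebraMap (𝓞 K) (𝓞 L)) → x ∈ 𝔭) ∧
      ∃ y : 𝓞 L, ∃ n : 𝓞 K, algebraMap (𝓞 K) (𝓞 L) n = ∏ g : L ≃ₐ[K] L, g • y ∧ n - a ∈ 𝔭 := by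
    intro 𝔭 h𝔭
    obtain ⟨hmax, hq𝔭⟩ := hprop 𝔭 h𝔭
    obtain ⟨Q, hQ, hlies, hfinQ, hin⟩ := exists_prime_over K L T hunr hq 𝔭 hq𝔭
    refine ⟨fun x hx => ?_, ?_⟩
    · refine (Ideal.mem_of_liesOver Q 𝔭 x).mpr ?_
      have hle : 𝔭.map (algebraMap (𝓞 K) (𝓞 L)) ≤ Q := by
        rw [Ideal.map_le_iff_le_comap]
        intro z hz
        exact (Ideal.mem_of_liesOver Q 𝔭 z).mp hz
      exact hle hx
    · obtain ⟨y, hy⟩ := exists_prod_smul_sub_mem (G := L ≃ₐ[K] L) 𝔭 Q hin a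
      obtain ⟨n, hn⟩ := exists_algebraMap_eq_prod_smul (𝓞 K) (L ≃ₐ[K] L) y
      refine ⟨y, n, hn, (Ideal.mem_of_liesOver Q 𝔭 _).mpr ?_⟩
      rw [map_sub, hn]
      exact hy
  obtain ⟨y, n, hn, hmem⟩ := exists_norm_glue (G := L ≃ₐ[K] L) hfin.toFinset
    (fun 𝔭 h => (hprop 𝔭 h).1) (fun 𝔭 h => (key 𝔭 h).1) a (fun 𝔭 h => (key 𝔭 h).2)
  refine ⟨y, n, hn, ?_⟩
  rw [← Ideal.sInf_minimalPrimes, Submodule.mem_sInf]
  intro 𝔭 h𝔭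
  exact hmem 𝔭 ((Set.Finite.mem_toFinset hfin).mpr h𝔭)

end Fermat.Agent.S55.CFT.H96
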