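/-
S55 / E4 / CFT, leaf UNN (helper96), part 4: units of the lattice `R_q(K) = intSub K q` are norms
from `ℚ_q ⊗ L`, for `L/K` Galois unramified outside `T` and `q ∉ T`.

* `intHom K q : 𝓞 K →+* intSub K q`, `radIdeal K q = rad(q 𝓞 K) · R_q(K)`, for which `R_q(K)` is
  complete;
* `exists_semiLocal_norm_of_approx`: a unit `ε` of `R_q(K)` which is congruent modulo `radIdeal`
  to an element of `𝓞 K` is `∏ σ, σ Y` for some `Y ∈ ℚ_q ⊗ L`.
-/
import Fermat.Agent.S55.CFT.H96_UnnGlobal
import Fermat.Agent.S55.CFT.H96_UnnHensel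
import Fermat.Agent.S55.CFT.H96_SemiLocalComplete

set_option autoImplicit false
set_option linter.unusedSectionVars false

open NumberField TensorProduct Polynomial

noncomputable section

namespace Fermat.Agent.S55.CFT.H96

open Fermat.Agent.S55.CFT Fermat.Agent.S55.CFT.H12

attribute [local instance] Fermat.Agent.S55.CFT.fact_primes

section lattice

variable (K : Type) [Field K] [NumberField K] (q : Nat.Primes)

/-- `𝓞 K → ℚ_q ⊗ K`, `a ↦ 1 ⊗ a`. -/
def intIncl : 𝓞 K →+* SemiLocal K q :=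
  ((Algebra.TensorProduct.includeRight : K →ₐ[ℚ] SemiLocal K q) : K →+* SemiLocal K q).comp
    (algebraMap (𝓞 K) K)

theorem intIncl_apply (a : 𝓞 K) : intIncl K q a = (1 : Qp q) ⊗ₜ[ℚ] (a : K) := rfl

theorem intIncl_mem (a : 𝓞 K) : intIncl K q a ∈ intSub K q :=
  tmul_mem_intSet (by simp) a

/-- `𝓞 K → R_q(K)`. -/
def intHom : 𝓞 K →+* intSub K q := (intIncl K q).codRestrict (intSub K q) (intIncl_mem K q)

theorem intHom_val (a : 𝓞 K) : ((intHom K q a : intSub K q) : SemiLocal K q) = intIncl K q a :=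
  rfl

/-- The ideal `rad(q 𝓞 K) · R_q(K)`. -/
def radIdeal : Ideal (intSub K q) :=
  Ideal.map (intHom K q) (Ideal.span {((q : ℕ) : 𝓞 K)}).radical

theorem qIdeal_eq_map : qIdeal K q = Ideal.map (intHom K q) (Ideal.span {((q : ℕ) : 𝓞 K)}) := by
  rw [Ideal.map_span, Set.image_singleton, map_natCast]
  rfl

theorem qIdeal_le_radIdeal : qIdeal K q ≤ radIdeal K q := by
  rw [qIdeal_eq_map]
  exact Ideal.map_mono Ideal.le_radical

theorem exists_radIdeal_pow_le : ∃ m : ℕ, radIdeal K q ^ m ≤ qIdeal K q := by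
  obtain ⟨m, hm⟩ := Ideal.exists_radical_pow_le_of_fg (Ideal.span {((q : ℕ) : 𝓞 K)})
    (IsNoetherian.noetherian _)
  refine ⟨m, ?_⟩
  rw [radIdeal, ← Ideal.map_pow, qIdeal_eq_map]
  exact Ideal.map_mono hm

instance isAdicComplete_radIdeal : IsAdicComplete (radIdeal K q) (intSub K q) := by
  obtain ⟨m, hm⟩ := exists_radIdeal_pow_le K q
  exact isAdicComplete_of_le_of_pow_le (qIdeal K q) (radIdeal K q) (qIdeal_le_radIdeal K q) m hm

theorem intHom_sub_mem_radIdeal {a b : 𝓞 K}
    (h : a - b ∈ (Ideal.span {((q : ℕ) : 𝓞 K)}).radical) :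
    intHom K q a - intHom K q b ∈ radIdeal K q := by
  rw [← map_sub]
  exact Ideal.mem_map_of_mem _ h

theorem intHom_sub_mem_radIdeal' {a b : 𝓞 K} (h : a - b ∈ Ideal.span {((q : ℕ) : 𝓞 K)}) :
    intHom K q a - intHom K q b ∈ radIdeal K q :=
  intHom_sub_mem_radIdeal K q (Ideal.le_radical h)

/-- `1 + radIdeal` consists of units. -/
theorem isUnit_of_sub_one_mem {x : intSub K q} (hx : x - 1 ∈ radIdeal K q) : IsUnit x := by
  have h1 : x - 1 ∈ (⊥ : Ideal (intSub K q)).jacobson :=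
    IsAdicComplete.le_jacobson_bot (radIdeal K q) hx
  have h2 := Ideal.mem_jacobson_bot.mp h1 1
  rwa [mul_one, sub_add_cancel] at h2

end lattice

section norm

variable (K L : Type) [Field K] [Field L] [NumberField K] [NumberField L] [Algebra K L]
  (T : Finset Nat.Primes) (q : Nat.Primes)

/-- `R_q(K) → ℚ_q ⊗ L`. -/
def latHom : intSub K q →+* SemiLocal L q :=
  ((semiLocalMap K L q : SemiLocal K q →ₐ[Qp q] SemiLocal L q) : SemiLocal K q →+*
    SemiLocal L q).comp (intSub K q).subtype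

theorem latHom_apply (r : intSub K q) : latHom K L q r = semiLocalMap K L q (r : SemiLocal K q) :=
  rfl

theorem smul_latHom (σ : L ≃ₐ[K] L) (r : intSub K q) : σ • latHom K L q r = latHom K L q r :=
  semiLocalEquiv_semiLocalMap K L q σ (r : SemiLocal K q)

theorem latHom_comp_intHom :
    (latHom K L q).comp (intHom K q) = (intIncl L q).comp (algebraMap (𝓞 K) (𝓞 L)) := by
  ext a
  show semiLocalMap K L q ((1 : Qp q) ⊗ₜ[ℚ] (a : K)) = (1 : Qp q) ⊗ₜ[ℚ] _
  simp [semiLocalMap]
  rfl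

theorem smul_intIncl (σ : L ≃ₐ[K] L) (b : 𝓞 L) : σ • intIncl L q b = intIncl L q (σ • b) := by
  rw [intIncl_apply, intIncl_apply, semiLocal_smul_tmul]
  rfl

variable [IsGalois K L]

/-- **Units of the lattice are norms** (semi-local form): for `q ∉ T`, a unit `ε` of `R_q(K)`
which is congruent modulo `radIdeal` to an element of `𝓞 K` is `∏ σ, σ Y`, `Y ∈ ℚ_q ⊗ L`. -/
theorem exists_semiLocal_norm_of_approx (hunr : UnramifiedOutsideT K L T) (hq : q ∉ T)
    (ε ε' : intSub K q) (hε : ε * ε' = 1) (a₀ : 𝓞 K) (ha₀ : intHom K q a₀ - ε ∈ radIdeal K q) :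
    ∃ Y : SemiLocal L q, ∏ σ : L ≃ₐ[K] L, σ • Y = semiLocalMap K L q (ε : SemiLocal K q) := by
  classical
  -- the norm
  obtain ⟨y₀, n₀, hn₀, hn₀a⟩ := exists_norm_radical K L T hunr hq a₀
  set ν : intSub K q := intHom K q n₀ with hν
  have hνε : ν - ε ∈ radIdeal K q := by
    have : ν - ε = (intHom K q n₀ - intHom K q a₀) + (intHom K q a₀ - ε) := by rw [hν]; ring
    rw [this]
    exact Ideal.add_mem _ (intHom_sub_mem_radIdeal K q hn₀a) ha₀
  have hunit : IsUnit (ν * ε') := by
    apply isUnit_of_sub_one_mem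
    have : ν * ε' - 1 = (ν - ε) * ε' := by rw [sub_mul, hε]
    rw [this]
    exact Ideal.mul_mem_right _ _ hνε
  obtain ⟨w, hw⟩ := hunit.exists_right_inv
  -- `u = ε / ν`
  set u : intSub K q := ε * (ε' * w) with hu
  have huν : ν * u = ε := by
    have : ν * u = ε * (ν * ε' * w) := by rw [hu]; ring
    rw [this, hw, mul_one]
  have hu1 : u - 1 ∈ radIdeal K q := by
    have : u - 1 = (ε - ν) * (ε' * w) := by
      have h1 : ν * (ε' * w) = 1 := by rw [← mul_assoc]; exact hw
      rw [sub_mul, h1]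
    rw [this]
    refine Ideal.mul_mem_right _ _ ?_
    rw [← Ideal.neg_mem_iff, neg_sub]
    exact hνε
  -- the trace
  obtain ⟨t, τ, hτ, hτ1⟩ := exists_trace_one K L T hunr hq
  obtain ⟨gA, hgA⟩ := exists_poly_one_add (𝓞 K) (L ≃ₐ[K] L) t
  have hinj := RingOfIntegers.algebraMap.injective K L
  have hgA0 : gA.eval 0 = 1 := by
    apply hinj
    have := congrArg (Polynomial.eval 0) hgA
    rw [eval_zero_prod_one_add, Polynomial.eval_zero_map] at this
    rw [this, map_one]
  have hgA1 : gA.derivative.eval 0 = τ := by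
    apply hinj
    have := congrArg (Polynomial.eval 0) (congrArg (⇑Polynomial.derivative) hgA)
    rw [eval_zero_derivative_prod_one_add, Polynomial.derivative_map,
      Polynomial.eval_zero_map] at this
    rw [this, hτ]
  set g : (intSub K q)[X] := gA.map (intHom K q) with hg
  have hg0 : g.eval 0 = 1 := by
    rw [hg, Polynomial.eval_zero_map, hgA0, map_one]
  have hg1 : g.derivative.eval 0 - 1 ∈ radIdeal K q := by
    rw [hg, Polynomial.derivative_map, Polynomial.eval_zero_map, hgA1,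
      ← map_one (intHom K q)]
    exact intHom_sub_mem_radIdeal' K q hτ1
  have hgφ : g.map (latHom K L q) =
      ∏ σ : L ≃ₐ[K] L, (1 + C (σ • intIncl L q t) * X) := by
    rw [hg, Polynomial.map_map, latHom_comp_intHom, ← Polynomial.map_map, hgA,
      Polynomial.map_prod]
    refine Finset.prod_congr rfl (fun σ _ => ?_)
    rw [Polynomial.map_add, Polynomial.map_one, Polynomial.map_mul, Polynomial.map_C,
      Polynomial.map_X, smul_intIncl]
  obtain ⟨x, -, hx⟩ := exists_prod_smul_one_add (latHom K L q) (smul_latHom K L q)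
    (radIdeal K q) (intIncl L q t) g hgφ hg0 hg1 u hu1
  refine ⟨intIncl L q y₀ * (1 + latHom K L q x * intIncl L q t), ?_⟩
  have h1 : ∏ σ : L ≃ₐ[K] L, σ • intIncl L q y₀ = latHom K L q ν := by
    have e1 : ∏ σ : L ≃ₐ[K] L, σ • intIncl L q y₀ = intIncl L q (∏ σ : L ≃ₐ[K] L, σ • y₀) := by
      rw [map_prod]
      exact Finset.prod_congr rfl (fun σ _ => smul_intIncl K L q σ y₀)
    rw [e1, ← hn₀, hν]
    exact (congrArg (fun f => f n₀) (latHom_comp_intHom K L q)).symm
  simp only [smul_mul']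
  rw [Finset.prod_mul_distrib, h1, hx, ← map_mul, huν]
  rfl

end norm

end Fermat.Agent.S55.CFT.H96
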