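/-
S55 / E4 / CFT, leaf UNN (helper96), part 5: `stmt_UnrNorm : Stmt_UnrNorm`.

For an admissible `T`, a `T`-unit `e` of `K` and a place `v` of `K` over `q ∉ T`: the image of `e`
in `K_v` is `∏ σ, σ y` for some unit `y` of `K_v ⊗_K L`.

Proof (semi-local, all places over `q` at once; no local fields): `1 ⊗ e` is a unit of the
`q`-adically complete lattice `R_q(K) ⊆ ℚ_q ⊗ K`; modulo `rad(q)` it is the norm of some
`y₀ ∈ 𝓞 L` (finite fields, trivial inertia), and the quotient is a principal unit, hence a value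
of `g(X) = ∏ σ, (1 + σ(t) X)`, `Tr t ≡ 1`, by Hensel's lemma.
-/
import Fermat.Agent.S55.CFT.H96_UnnSemiLocal

set_option autoImplicit false
set_option linter.unusedSectionVars false

open NumberField TensorProduct

noncomputable section

namespace Fermat.Agent.S55.CFT.H96

open Fermat.Agent.S55.CFT Fermat.Agent.S55.CFT.H12

attribute [local instance] Fermat.Agent.S55.CFT.fact_primes

section units

variable (K : Type) [Field K] [NumberField K] (T : Finset Nat.Primes) (q : Nat.Primes)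

theorem not_dvd_prodT_pow (hq : q ∉ T) (n : ℕ) : ¬ (q : ℕ) ∣ prodT T ^ n := by
  intro h
  have h1 : (q : ℕ) ∣ prodT T := q.2.dvd_of_dvd_pow h
  unfold prodT at h1
  obtain ⟨q', hq', hdvd⟩ := (Prime.dvd_finsetProd_iff (Nat.Prime.prime q.2) _).mp h1
  have : (q : ℕ) = (q' : ℕ) := (Nat.prime_dvd_prime_iff_eq q.2 q'.2).mp hdvd
  exact hq ((Subtype.ext this : q = q') ▸ hq')

theorem one_tmul_natCast_mul (m : ℕ) (x : K) :
    (1 : Qp q) ⊗ₜ[ℚ] ((m : K) * x) = (m : SemiLocal K q) * ((1 : Qp q) ⊗ₜ[ℚ] x) := by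
  have h1 : (m : SemiLocal K q) = (1 : Qp q) ⊗ₜ[ℚ] (m : K) := by
    rw [← Algebra.TensorProduct.includeRight_apply, map_natCast]
  rw [h1, Algebra.TensorProduct.tmul_mul_tmul, one_mul]

/-- `1 ⊗ x ∈ R_q(K)` if `c x` is integral, `q ∤ c`. -/
theorem one_tmul_mem_intSub (c : ℕ) (hc : ¬ (q : ℕ) ∣ c) (x : K) (z : 𝓞 K)
    (hz : (z : K) = (c : K) * x) : (1 : Qp q) ⊗ₜ[ℚ] x ∈ intSub K q := by
  have hnorm : ‖((c : ℕ) : Qp q)‖ = 1 :=
    Padic.norm_natCast_eq_one_iff.mpr ((Nat.Prime.coprime_iff_not_dvd q.2).mpr hc)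
  have hc0 : ((c : ℕ) : Qp q) ≠ 0 := by
    intro h0
    rw [h0, norm_zero] at hnorm
    exact zero_ne_one hnorm
  have hinv : ‖(((c : ℕ) : Qp q))⁻¹‖ ≤ 1 := by rw [norm_inv, hnorm, inv_one]
  have key : (1 : Qp q) ⊗ₜ[ℚ] x = (((c : ℕ) : Qp q))⁻¹ • ((1 : Qp q) ⊗ₜ[ℚ] (z : K)) := by
    rw [hz, one_tmul_natCast_mul, Algebra.smul_def, ← mul_assoc,
      ← map_natCast (algebraMap (Qp q) (SemiLocal K q)) c, ← map_mul, inv_mul_cancel₀ hc0,
      map_one, one_mul]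
  rw [key]
  exact smul_mem_intSet hinv (tmul_mem_intSet (by simp) z)

end units

section main

variable (K L : Type) [Field K] [Field L] [NumberField K] [NumberField L] [Algebra K L]
  (T : Finset Nat.Primes) (q : Nat.Primes)

/-- **Semi-local form of UNN**: for `q ∉ T`, the image of a `T`-unit of `K` in `ℚ_q ⊗ L` is
`∏ σ, σ Y` for a unit `Y` of `ℚ_q ⊗ L`. -/
theorem exists_semiLocal_norm_tUnit [IsGalois K L] (hunr : UnramifiedOutsideT K L T) (hq : q ∉ T)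
    (e : Kˣ) (he : e ∈ TUnits K T) :
    ∃ Y : (SemiLocal L q)ˣ, ∏ σ : L ≃ₐ[K] L, σ • (Y : SemiLocal L q) =
      (1 : Qp q) ⊗ₜ[ℚ] (algebraMap K L (e : K)) := by
  classical
  obtain ⟨n, h1, h2⟩ := he
  set c : ℕ := prodT T ^ n with hc
  have hcq : ¬ (q : ℕ) ∣ c := not_dvd_prodT_pow T q hq n
  have hcast : ((prodT T : ℕ) : K) ^ n = (c : K) := by rw [hc]; push_cast; rfl
  rw [hcast] at h1 h2
  set e₁ : 𝓞 K := ⟨(c : K) * (e : K), h1⟩ with he₁
  set e₂ : 𝓞 K := ⟨(c : K) * ((e⁻¹ : Kˣ) : K), h2⟩ with he₂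
  have hm1 : (1 : Qp q) ⊗ₜ[ℚ] (e : K) ∈ intSub K q :=
    one_tmul_mem_intSub K q c hcq (e : K) e₁ rfl
  have hm2 : (1 : Qp q) ⊗ₜ[ℚ] ((e⁻¹ : Kˣ) : K) ∈ intSub K q :=
    one_tmul_mem_intSub K q c hcq ((e⁻¹ : Kˣ) : K) e₂ rfl
  set ε : intSub K q := ⟨_, hm1⟩ with hε
  set ε' : intSub K q := ⟨_, hm2⟩ with hε'
  have hεε' : ε * ε' = 1 := by
    apply Subtype.ext
    show ((1 : Qp q) ⊗ₜ[ℚ] (e : K)) * ((1 : Qp q) ⊗ₜ[ℚ] ((e⁻¹ : Kˣ) : K)) = 1
    rw [Algebra.TensorProduct.tmul_mul_tmul, one_mul, ← Units.val_mul, mul_inv_cancel,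
      Units.val_one, Algebra.TensorProduct.one_def]
  -- an integer `c'` with `c c' ≡ 1 mod q`
  have hcop : Nat.Coprime c (q : ℕ) :=
    Nat.Coprime.symm ((Nat.Prime.coprime_iff_not_dvd q.2).mpr hcq)
  obtain ⟨c', -, hc'⟩ := Nat.exists_mul_mod_eq_one_of_coprime hcop q.2.one_lt
  set a₀ : 𝓞 K := (c' : 𝓞 K) * e₁ with ha₀
  have hval : ((intHom K q a₀ : intSub K q) : SemiLocal K q)
      = ((c * c' : ℕ) : SemiLocal K q) * (ε : SemiLocal K q) := by
    rw [intHom_val, intIncl_apply]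
    show (1 : Qp q) ⊗ₜ[ℚ] (((c' : 𝓞 K) * e₁ : 𝓞 K) : K) = _
    have : (((c' : 𝓞 K) * e₁ : 𝓞 K) : K) = ((c * c' : ℕ) : K) * (e : K) := by
      push_cast
      change (c' : K) * ((c : K) * (e : K)) = _
      ring
    rw [this, one_tmul_natCast_mul]
  have hmem : intHom K q a₀ - ε ∈ radIdeal K q := by
    apply qIdeal_le_radIdeal
    obtain ⟨k, hk⟩ : ∃ k : ℕ, c * c' = (q : ℕ) * k + 1 := by
      refine ⟨c * c' / (q : ℕ), ?_⟩
      have := Nat.div_add_mod (c * c') (q : ℕ)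
      rw [hc'] at this
      exact this.symm
    have : intHom K q a₀ - ε = ((q : ℕ) : intSub K q) * ((k : intSub K q) * ε) := by
      apply Subtype.ext
      push_cast
      rw [hval, hk]
      push_cast
      ring
    rw [this]
    exact Ideal.mul_mem_right _ _ (Ideal.mem_span_singleton_self _)
  obtain ⟨Y, hY⟩ := exists_semiLocal_norm_of_approx K L T q hunr hq ε ε' hεε' a₀ hmem
  have hY' : ∏ σ : L ≃ₐ[K] L, σ • Y = (1 : Qp q) ⊗ₜ[ℚ] (algebraMap K L (e : K)) := by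
    rw [hY]
    show semiLocalMap K L q ((1 : Qp q) ⊗ₜ[ℚ] (e : K)) = _
    simp [semiLocalMap]
  have hunitR : IsUnit ((1 : Qp q) ⊗ₜ[ℚ] (algebraMap K L (e : K)) : SemiLocal L q) := by
    refine IsUnit.of_mul_eq_one ((1 : Qp q) ⊗ₜ[ℚ] (algebraMap K L ((e⁻¹ : Kˣ) : K))) ?_
    rw [Algebra.TensorProduct.tmul_mul_tmul, one_mul, ← map_mul, ← Units.val_mul,
      mul_inv_cancel, Units.val_one, map_one, Algebra.TensorProduct.one_def]
  have hunitY : IsUnit Y := by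
    have h3 : Y * ∏ σ ∈ (Finset.univ : Finset (L ≃ₐ[K] L)).erase 1, σ • Y
        = ∏ σ : L ≃ₐ[K] L, σ • Y := by
      have := Finset.mul_prod_erase (Finset.univ : Finset (L ≃ₐ[K] L)) (fun σ => σ • Y)
        (Finset.mem_univ 1)
      rw [one_smul] at this
      exact this
    rw [hY'] at h3
    rw [← h3] at hunitR
    exact isUnit_of_mul_isUnit_left hunitR
  exact ⟨hunitY.unit, by rw [IsUnit.unit_spec]; exact hY'⟩

/-- **UNN**: `T`-units are local norms at the places outside `T`. -/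
theorem stmt_UnrNorm : Stmt_UnrNorm := by
  intro p K L _ _ _ _ _ T hadm e he v hv
  classical
  have hgal : IsGalois K L := hadm.gal
  obtain ⟨Y, hY⟩ := exists_semiLocal_norm_tUnit K L T v.1 hadm.unr hv e he
  refine ⟨Units.map (Ideal.Quotient.mk (placeIdeal K L v) : SemiLocal L v.1 →* LocAlg K L v) Y, ?_⟩
  rw [finprod_eq_prod_of_fintype]
  apply Units.ext
  rw [Units.coe_prod]
  have h1 : ∀ σ : L ≃ₐ[K] L,
      ((σ • Units.map (Ideal.Quotient.mk (placeIdeal K L v) : SemiLocal L v.1 →* LocAlg K L v) Y :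
        (LocAlg K L v)ˣ) : LocAlg K L v)
        = Ideal.Quotient.mk (placeIdeal K L v) (σ • (Y : SemiLocal L v.1)) := fun σ => rfl
  rw [Finset.prod_congr rfl (fun σ _ => h1 σ), ← map_prod, hY]
  rfl

end main

end Fermat.Agent.S55.CFT.H96
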