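/-
S55 / E4 / CFT, BR-FINAL part 4 (helper13): the export BR-Two, unconditional
(UNN is `H96.stmt_UnrNorm`).  With parts 1 and 3 all four exports of `Defs_BR.lean`
(BR-Hasse, BR-One, BR-Two, BR-H3) are proved.
-/
import Fermat.Agent.S55.CFT.H13_BRFinalOne
import Fermat.Agent.S55.CFT.H96_UnrNorm

set_option autoImplicit false

namespace Fermat.Agent.S55.CFT.H13

open Fermat.Agent.S55.CFT

/-- **BR-Two**, unconditional. -/
theorem stmt_BrTwo : Stmt_BrTwo := stmt_BrTwo_of_unn H96.stmt_UnrNorm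

end Fermat.Agent.S55.CFT.H13
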