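/-
S55 / E4 / CFT, package H2I (helper12), part 1: the cokernel in `Rep k G`, concretely, and the
abstract form of H2I.

For `f : E ⟶ J` in `Rep k G` and `π = cokernel.π f`: `π` is surjective, `π y = 0 ↔ y ∈ range f`,
`π` commutes with `ρ σ` and with the norm.  `card_H2_cokernel`: for `G` finite cyclic,
`#H²(G, coker f) = [A : N]` for an additive map `Ψ : A → J` with invariant values whose classes
exhaust `(coker f)^G` and `N = {a | class of Ψ a is a norm}`.
-/
import Fermat.Agent.S55.CFT.H12_CyclicBridge

set_option autoImplicit false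
set_option linter.unusedSectionVars false

namespace Fermat.Agent.S55.CFT.H12

open CategoryTheory CategoryTheory.Limits

section cokernel

variable {k G : Type} [CommRing k] [Group G] {E J : Rep.{0} k G} (f : E ⟶ J)

theorem cokernel_π_surjective : Function.Surjective (cokernel.π f).hom :=
  (Rep.epi_iff_surjective _).mp inferInstance

theorem cokernel_π_comp_apply (x : E) : (cokernel.π f).hom (f.hom x) = 0 := by
  have h1 : (cokernel.π f).hom (f.hom x) = (f ≫ cokernel.π f).hom x := rfl
  rw [h1, cokernel.condition]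
  rfl

theorem cokernel_π_eq_zero_iff (y : J) :
    (cokernel.π f).hom y = 0 ↔ ∃ x : E, f.hom x = y := by
  constructor
  · intro hy
    have hex : (ShortComplex.mk f (cokernel.π f) (cokernel.condition f)).Exact :=
      ShortComplex.exact_cokernel f
    have hex2 := hex.map (forget₂ (Rep.{0} k G) (ModuleCat.{0} k))
    rw [ShortComplex.moduleCat_exact_iff] at hex2
    exact hex2 y hy
  · rintro ⟨x, rfl⟩
    exact cokernel_π_comp_apply f x

theorem cokernel_π_ρ (σ : G) (y : J) :
    (cokernel.π f).hom (J.ρ σ y) = (cokernel f).ρ σ ((cokernel.π f).hom y) :=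
  Rep.hom_comm_apply _ _ _

theorem rep_norm_apply [Fintype G] (A : Rep.{0} k G) (x : A) :
    A.ρ.norm x = ∑ σ, A.ρ σ x := by
  simp only [Representation.norm, LinearMap.sum_apply]

theorem cokernel_π_norm [Fintype G] (y : J) :
    (cokernel.π f).hom (J.ρ.norm y) = (cokernel f).ρ.norm ((cokernel.π f).hom y) := by
  simp only [Representation.norm, LinearMap.sum_apply, map_sum]
  exact Finset.sum_congr rfl (fun σ _ => cokernel_π_ρ f σ y)

/-- The projection to the cokernel, as an additive map. -/
noncomputable def cokerAdd : J.V →+ (cokernel f).V :=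
  (cokernel.π f).hom.toLinearMap.toAddMonoidHom

theorem cokerAdd_apply (y : J) : cokerAdd f y = (cokernel.π f).hom y := rfl

/-- An element fixed by a generator is fixed by the whole group. -/
theorem ρ_eq_of_generator (A : Rep.{0} k G) (g : G) (hg : ∀ x, x ∈ Subgroup.zpowers g)
    (c : A) (hc : A.ρ g c = c) (σ : G) : A.ρ σ c = c := by
  let S : Subgroup G :=
    { carrier := {τ | A.ρ τ c = c}
      mul_mem' := fun {a b} ha hb => by
        change A.ρ (a * b) c = c
        rw [map_mul, Module.End.mul_apply, hb, ha]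
      one_mem' := by
        change A.ρ 1 c = c
        rw [map_one, Module.End.one_apply]
      inv_mem' := fun {a} ha => by
        change A.ρ a⁻¹ c = c
        have h : A.ρ a⁻¹ (A.ρ a c) = c := by
          rw [← Module.End.mul_apply, ← map_mul, inv_mul_cancel, map_one, Module.End.one_apply]
        rw [ha] at h
        exact h }
  have hS : Subgroup.zpowers g ≤ S := by
    rw [Subgroup.zpowers_le]
    exact hc
  exact hS (hg σ)

/-- **Abstract H2I**: `#H²(G, coker f)` as an index, for `G` finite cyclic. -/
theorem card_H2_cokernel [Fintype G] (g : G) (hg : ∀ x, x ∈ Subgroup.zpowers g)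
    {A : Type} [AddCommGroup A] (Ψ : A →+ J.V) (N : AddSubgroup A)
    (h1 : ∀ a σ, J.ρ σ (Ψ a) = Ψ a)
    (h2 : ∀ j : J, (∀ σ, (cokernel.π f).hom (J.ρ σ j) = (cokernel.π f).hom j) →
      ∃ a, (cokernel.π f).hom (Ψ a) = (cokernel.π f).hom j)
    (h3 : ∀ a, a ∈ N ↔ ∃ j : J, (cokernel.π f).hom (Ψ a) = (cokernel.π f).hom (J.ρ.norm j)) :
    Nat.card (groupCohomology (cokernel f) 2) = N.index := by
  rw [card_even (cokernel f) g hg 2 (by decide)]
  set Φ : A →+ (cokernel f).V := (cokerAdd f).comp Ψ with hΦ
  have hrange : Φ.range = (LinearMap.ker ((cokernel f).ρ g - 1)).toAddSubgroup := by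
    ext c
    constructor
    · rintro ⟨a, rfl⟩
      change (cokernel.π f).hom (Ψ a) ∈ LinearMap.ker ((cokernel f).ρ g - 1)
      rw [LinearMap.mem_ker, LinearMap.sub_apply, Module.End.one_apply, sub_eq_zero,
        ← cokernel_π_ρ, h1]
    · intro hc
      change c ∈ LinearMap.ker ((cokernel f).ρ g - 1) at hc
      rw [LinearMap.mem_ker, LinearMap.sub_apply, Module.End.one_apply, sub_eq_zero] at hc
      obtain ⟨j, rfl⟩ := cokernel_π_surjective f c
      obtain ⟨a, ha⟩ := h2 j (fun σ => by
        rw [cokernel_π_ρ]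
        exact ρ_eq_of_generator (cokernel f) g hg _ hc σ)
      exact ⟨a, ha⟩
  have hcomap : (LinearMap.range (cokernel f).ρ.norm).toAddSubgroup.comap Φ = N := by
    ext a
    rw [AddSubgroup.mem_comap, h3]
    change (cokernel.π f).hom (Ψ a) ∈ LinearMap.range (cokernel f).ρ.norm ↔ _
    rw [LinearMap.mem_range]
    constructor
    · rintro ⟨c, hc⟩
      obtain ⟨j, rfl⟩ := cokernel_π_surjective f c
      exact ⟨j, by rw [cokernel_π_norm, hc]⟩
    · rintro ⟨j, hj⟩
      exact ⟨(cokernel.π f).hom j, by rw [← cokernel_π_norm, hj]⟩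
  rw [← hrange, ← AddSubgroup.index_comap, hcomap]

end cokernel

end Fermat.Agent.S55.CFT.H12
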