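/-
S55 / E4 / CFT, package GLB-2 (helper12), part 2: `Stmt_EHerbrand`.

For `L/K` cyclic of prime degree `p` with `K` totally complex and ANY finite set `T` of rational
primes: `H¹` and `H²` of `Gal(L/K)` in the `T`-units `O_{L,T}ˣ` are finite and
`p * #H² = p ^ nonsplitCount K L T * #H¹`.

Proof: the periodic resolution for finite cyclic groups identifies `#H²` and `#H¹` with the two
Herbrand indices (`card_even`, `card_odd` of `H12_CyclicBridge`), which are computed in
`eherbrand_index` (`H12_EHerbrandIndex`).
-/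
import Fermat.Agent.S55.CFT.H12_EHerbrandIndex

set_option autoImplicit false

namespace Fermat.Agent.S55.CFT.H12

open NumberField IsDedekindDomain Module Fermat.Agent.S14.H62

/-- **GLB-2** (Herbrand quotient of the `T`-units). -/
theorem stmt_EHerbrand : Stmt_EHerbrand := by
  intro p K L _ _ _ _ _ T hp hdeg hgal hcplx
  have hpp : Fact p.Prime := ⟨hp⟩
  classical
  have hcard : Nat.card (L ≃ₐ[K] L) = p := by
    rw [IsGalois.card_aut_eq_finrank, hdeg]
  have hcyc : IsCyclic (L ≃ₐ[K] L) := isCyclic_of_prime_card hcard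
  obtain ⟨g, hg⟩ := hcyc.exists_generator
  have hfinG : Finite (L ≃ₐ[K] L) := inferInstance
  let _ : Fintype (L ≃ₐ[K] L) := Fintype.ofFinite _
  obtain ⟨h0, h1, heq⟩ := eherbrand_index K L T hdeg g hg
  have hnorm := norm_eq_sum_pow (repE K L T) g hg p hcard
  have e2 := card_even (repE K L T) g hg 2 (by decide)
  have e1 := card_odd (repE K L T) g hg 1 (by decide)
  rw [hIdx_top] at h0 h1 heq
  rw [hIdx_top] at heq
  rw [hnorm] at e1 e2
  have e2' : Nat.card (groupCohomology (repE K L T) 2) =
      (nrmE p (rhoE K L T g)).toAddMonoidHom.range.relIndex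
        (delE (rhoE K L T g)).toAddMonoidHom.ker := e2
  have e1' : Nat.card (groupCohomology (repE K L T) 1) =
      (delE (rhoE K L T g)).toAddMonoidHom.range.relIndex
        (nrmE p (rhoE K L T g)).toAddMonoidHom.ker := e1
  refine ⟨?_, ?_, ?_⟩
  · exact Nat.finite_of_card_ne_zero (by rw [e1']; exact h1)
  · exact Nat.finite_of_card_ne_zero (by rw [e2']; exact h0)
  · rw [e1', e2']
    exact heq

end Fermat.Agent.S55.CFT.H12
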