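/-
S55 / E4 / CFT, package H2I (helper12), part 2: `Stmt_H2Index`.

For `L/K` cyclic, `(K, L, T)` admissible: `#H²(G, C_{L,T}) = [J_{K,T} : E_{K,T} · N_{L/K} J_{L,T}]`.

Proof: `card_H2_cokernel` (`H12_Cokernel`, from `card_even`: `#H² = [C^G : N C]`) applied to the
base change `J_{K,T} → J_{L,T}`:
* `(C_L)^G` is the image of `J_K` (`exists_base_of_idClass_invariant`: `H¹(G, E_L) = 0` in the
  cocycle form `isMulCoboundary₁_tUnits`, `diagIdele_injective`, descent);
* the class of `base a` is a norm iff `a ∈ E_K · N J_L` (`mem_normGroup_iff`: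
  `base ∘ N = ∏ σ`, `(E_L)^G = E_K`, `base` injective).

Reusable: `idClass` (class of an idele in `C_{L,T}`), `idClass_eq_iff`, `idClass_smul`,
`idClass_surjective`, `exists_base_of_idClass_invariant`, `mem_normGroup_iff`, `baseAdd`.
-/
import Fermat.Agent.S55.CFT.H12_IdeleBase
import Fermat.Agent.S55.CFT.H12_H1Units
import Fermat.Agent.S55.CFT.H12_Cokernel

set_option autoImplicit false
set_option linter.unusedSectionVars false

namespace Fermat.Agent.S55.CFT.H12

open NumberField Module TensorProduct CategoryTheory CategoryTheory.Limits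

section classmap

variable (K L : Type) [Field K] [Field L] [NumberField K] [NumberField L] [Algebra K L]
  (T : Finset Nat.Primes)

/-- The class of an idele of `L` in `C_{L,T}`. -/
noncomputable def idClass (j : IdeleT L T) : (repC K L T).V :=
  (cokernel.π (diagRep K L T)).hom (Additive.ofMul j : Additive (IdeleT L T))

theorem idClass_mul (j j' : IdeleT L T) :
    idClass K L T (j * j') = idClass K L T j + idClass K L T j' := by
  unfold idClass
  rw [ofMul_mul]
  exact map_add _ _ _

theorem idClass_div (j j' : IdeleT L T) :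
    idClass K L T (j / j') = idClass K L T j - idClass K L T j' := by
  unfold idClass
  rw [ofMul_div]
  exact map_sub _ _ _

theorem idClass_diag (e : TUnits L T) : idClass K L T (diagIdele L T (e : Lˣ)) = 0 :=
  cokernel_π_comp_apply (diagRep K L T) (Additive.ofMul e : Additive (TUnits L T))

theorem idClass_eq_zero (j : IdeleT L T) (hj : idClass K L T j = 0) :
    ∃ e : TUnits L T, diagIdele L T (e : Lˣ) = j := by
  obtain ⟨x, hx⟩ := (cokernel_π_eq_zero_iff (diagRep K L T) _).mp hj
  exact ⟨Additive.toMul x, congrArg Additive.toMul hx⟩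

theorem idClass_eq_iff (j j' : IdeleT L T) :
    idClass K L T j = idClass K L T j' ↔ ∃ e : TUnits L T, j = j' * diagIdele L T (e : Lˣ) := by
  constructor
  · intro h
    have h0 : idClass K L T (j / j') = 0 := by rw [idClass_div, h, sub_self]
    obtain ⟨e, he⟩ := idClass_eq_zero K L T _ h0
    exact ⟨e, by rw [he, mul_div_cancel]⟩
  · rintro ⟨e, rfl⟩
    rw [idClass_mul, idClass_diag, add_zero]

theorem idClass_smul (σ : L ≃ₐ[K] L) (j : IdeleT L T) :
    idClass K L T (σ • j) = (repC K L T).ρ σ (idClass K L T j) :=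
  cokernel_π_ρ (diagRep K L T) σ _

theorem idClass_surjective (c : (repC K L T).V) : ∃ j : IdeleT L T, idClass K L T j = c := by
  obtain ⟨y, hy⟩ := cokernel_π_surjective (diagRep K L T) c
  exact ⟨Additive.toMul y, hy⟩

theorem repJ_norm_apply [Fintype (L ≃ₐ[K] L)] (j : IdeleT L T) :
    (repJ K L T).ρ.norm (Additive.ofMul j : Additive (IdeleT L T)) =
      (Additive.ofMul (∏ σ : L ≃ₐ[K] L, σ • j) : Additive (IdeleT L T)) := by
  refine (rep_norm_apply (repJ K L T) _).trans ?_
  exact (ofMul_prod Finset.univ (fun σ : L ≃ₐ[K] L => σ • j)).symm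

/-- **(C_L)^G = image of J_K**: an idele of `L` whose class is Galois invariant has the class
of an idele of `K` (`H¹(G, E_L) = 0` and descent). -/
theorem exists_base_of_idClass_invariant [IsGalois K L] (hunr : UnramifiedOutsideT K L T)
    (hcl : ClTrivial K T) (hT : T.Nonempty) (j : IdeleT L T)
    (hj : ∀ σ : L ≃ₐ[K] L, idClass K L T (σ • j) = idClass K L T j) :
    ∃ x : IdeleT K T, idClass K L T (baseIdele K L T x) = idClass K L T j := by
  have hex : ∀ σ : L ≃ₐ[K] L, ∃ e : TUnits L T, σ • j = j * diagIdele L T (e : Lˣ) :=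
    fun σ => (idClass_eq_iff K L T _ _).mp (hj σ)
  choose f hf using hex
  have hinj := diagIdele_injective L T hT
  have hcoc : groupCohomology.IsMulCocycle₁ f := by
    intro σ τ
    apply Subtype.ext
    apply hinj
    have h1 : (σ * τ) • j = j * diagIdele L T ((f (σ * τ) : TUnits L T) : Lˣ) := hf (σ * τ)
    have h2 : (σ * τ) • j = j * (diagIdele L T (σ • ((f τ : TUnits L T) : Lˣ)) *
        diagIdele L T ((f σ : TUnits L T) : Lˣ)) := by
      rw [mul_smul, hf τ, smul_mul', hf σ, diagIdele_smul K L T]
      rw [mul_assoc, mul_comm (diagIdele L T _) (σ • diagIdele L T _)]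
    have h3 := h1.symm.trans h2
    have h4 := mul_left_cancel h3
    rw [h4, ← map_mul]
    rfl
  obtain ⟨e, he⟩ := isMulCoboundary₁_tUnits K L T hunr hcl f hcoc
  have hinv : ∀ σ : L ≃ₐ[K] L, σ • (j / diagIdele L T (e : Lˣ)) = j / diagIdele L T (e : Lˣ) := by
    intro σ
    have he' : σ • (e : Lˣ) = (e : Lˣ) * ((f σ : TUnits L T) : Lˣ) := by
      have h := congrArg (fun u : TUnits L T => (u : Lˣ)) (he σ)
      have h' : σ • (e : Lˣ) / (e : Lˣ) = ((f σ : TUnits L T) : Lˣ) := h
      rw [← h', mul_div_cancel]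
    rw [smul_div', hf σ, ← diagIdele_smul K L T, he', map_mul, mul_div_mul_right_eq_div]
  obtain ⟨x, hx⟩ := exists_baseIdele_of_invariant K L T _ hinv
  refine ⟨x, ?_⟩
  rw [hx, idClass_div, idClass_diag, sub_zero]

/-- The norm group is the set of ideles of `K` whose class in `C_L` is a norm. -/
theorem mem_normGroup_iff [IsGalois K L] (hT : T.Nonempty) (a : IdeleT K T) :
    a ∈ normGroup K L T ↔
      ∃ j : IdeleT L T, idClass K L T (baseIdele K L T a) =
        idClass K L T (∏ σ : L ≃ₐ[K] L, σ • j) := by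
  constructor
  · intro ha
    rw [normGroup, Subgroup.mem_sup] at ha
    obtain ⟨u, hu, n, hn, rfl⟩ := ha
    obtain ⟨e, he, rfl⟩ := hu
    obtain ⟨y, rfl⟩ := hn
    refine ⟨y, ?_⟩
    rw [map_mul, idClass_mul, baseIdele_normLK, baseIdele_diagIdele]
    have h0 : idClass K L T (diagIdele L T (Units.map (algebraMap K L : K →* L) e)) = 0 :=
      idClass_diag K L T (iotaT K L T ⟨e, he⟩)
    rw [h0, zero_add]
  · rintro ⟨j, hj⟩
    rw [← baseIdele_normLK, idClass_eq_iff] at hj
    obtain ⟨e, he⟩ := hj
    have hinj := diagIdele_injective L T hT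
    have hbase : baseIdele K L T (a / normLK K L T j) = diagIdele L T (e : Lˣ) := by
      rw [map_div, he, mul_div_cancel_left]
    have hinv : ∀ σ : L ≃ₐ[K] L, σ • e = e := by
      intro σ
      apply Subtype.ext
      apply hinj
      change diagIdele L T (σ • (e : Lˣ)) = diagIdele L T (e : Lˣ)
      rw [diagIdele_smul K L T, ← hbase, smul_baseIdele]
    obtain ⟨e', he'⟩ := exists_iotaT_of_invariant K L T e hinv
    have h1 : baseIdele K L T (a / normLK K L T j) =
        baseIdele K L T (diagIdele K T (e' : Kˣ)) := by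
      rw [hbase, baseIdele_diagIdele, ← he']
      rfl
    have h2 := baseIdele_injective K L T h1
    rw [normGroup, Subgroup.mem_sup]
    refine ⟨diagIdele K T (e' : Kˣ), ⟨e', e'.2, rfl⟩, normLK K L T j, ⟨j, rfl⟩, ?_⟩
    rw [← h2, div_mul_cancel]

/-- The base change of ideles, additively, with values in the representation `repJ`. -/
noncomputable def baseAdd : Additive (IdeleT K T) →+ (repJ K L T).V :=
  (MonoidHom.toAdditive (baseIdele K L T) : Additive (IdeleT K T) →+ Additive (IdeleT L T))

theorem baseAdd_apply (a : Additive (IdeleT K T)) :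
    baseAdd K L T a =
      (Additive.ofMul (baseIdele K L T (Additive.toMul a)) : Additive (IdeleT L T)) := rfl

end classmap

/-- **H2I**: for `L/K` cyclic, admissible, `#H²(G, C_{L,T}) = [J_{K,T} : E_{K,T} N J_{L,T}]`. -/
theorem stmt_H2Index : Stmt_H2Index := by
  intro p K L _ _ _ _ _ T hadm hcyc
  have hgal := hadm.gal
  have hcl : ClTrivial K T := hadm.cl K
  have hunr := hadm.unr
  have hT : T.Nonempty := by
    obtain ⟨q, hq, _⟩ := hadm.pmem
    exact ⟨q, hq⟩
  obtain ⟨g, hg⟩ := hcyc.exists_generator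
  rw [← Subgroup.index_toAddSubgroup]
  refine card_H2_cokernel (diagRep K L T) g hg (A := Additive (IdeleT K T))
    (baseAdd K L T) (Subgroup.toAddSubgroup (normGroup K L T))
    ?_ ?_ ?_
  · intro a σ
    exact congrArg Additive.ofMul (smul_baseIdele K L T σ (Additive.toMul a))
  · intro j hj
    obtain ⟨x, hx⟩ := exists_base_of_idClass_invariant K L T hunr hcl hT (Additive.toMul j)
      (fun σ => hj σ)
    exact ⟨Additive.ofMul x, hx⟩
  · intro a
    have h := mem_normGroup_iff K L T hT (Additive.toMul a)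
    constructor
    · intro ha
      obtain ⟨j, hj⟩ := h.mp ha
      refine ⟨(Additive.ofMul j : Additive (IdeleT L T)), ?_⟩
      rw [repJ_norm_apply]
      exact hj
    · rintro ⟨j, hj⟩
      apply h.mpr
      refine ⟨Additive.toMul j, ?_⟩
      have hj' := hj
      have hn := repJ_norm_apply K L T (Additive.toMul j)
      exact hj'.trans (congrArg (cokernel.π (diagRep K L T)).hom hn)

end Fermat.Agent.S55.CFT.H12
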