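/-
S55 / E4 / CFT, package SI'' (helper12), part 2: generators of ideals up to `T`.

`cnt K v I`: multiplicity of the prime `v` in the ideal `I`.  `IsGenT K T g I`: `g ∈ Kˣ` has
`v(g) = v(I)` at all primes `v ∤ T` ("`g` generates `I` up to `T`").  If `Cl_T(K) = 1` every
nonzero ideal has such a generator (`exists_isGenT`), unique up to `T`-units (`IsGenT.div_mem`);
`exists_coprime_part`: the part of a nonzero ideal prime to `T`.
-/
import Fermat.Agent.S55.CFT.H12_H1Units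

set_option autoImplicit false
set_option linter.unusedSectionVars false

namespace Fermat.Agent.S55.CFT.H12

open NumberField IsDedekindDomain Module WithZero

section gen

variable (K : Type) [Field K] [NumberField K] (T : Finset Nat.Primes)

/-- The multiplicity of a prime in an ideal. -/
noncomputable def cnt (v : HeightOneSpectrum (𝓞 K)) (I : Ideal (𝓞 K)) : ℕ :=
  (Associates.mk v.asIdeal).count (Associates.mk I).factors

theorem cnt_mul (v : HeightOneSpectrum (𝓞 K)) {I I' : Ideal (𝓞 K)} (hI : I ≠ ⊥) (hI' : I' ≠ ⊥) :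
    cnt K v (I * I') = cnt K v I + cnt K v I' := by
  unfold cnt
  rw [← Associates.mk_mul_mk]
  exact Associates.count_mul (Associates.mk_ne_zero.mpr hI) (Associates.mk_ne_zero.mpr hI')
    v.associates_irreducible

theorem cnt_self (v : HeightOneSpectrum (𝓞 K)) : cnt K v v.asIdeal = 1 :=
  Associates.count_self v.associates_irreducible

theorem cnt_of_ne (v v' : HeightOneSpectrum (𝓞 K)) (h : v ≠ v') : cnt K v v'.asIdeal = 0 := by
  apply Associates.count_eq_zero_of_ne v.associates_irreducible v'.associates_irreducible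
  intro h'
  apply h
  apply HeightOneSpectrum.ext
  exact associated_iff_eq.mp (Associates.mk_eq_mk_iff_associated.mp h')

theorem cnt_eq_zero_of_dvd_prodT (v : HeightOneSpectrum (𝓞 K)) (hv : v ∉ primesT K T)
    {J : Ideal (𝓞 K)} {n : ℕ} (hJ : J ∣ Ideal.span {((prodT T : ℤ) : 𝓞 K)} ^ n) (hJ0 : J ≠ ⊥) :
    cnt K v J = 0 :=
  count_eq_zero_of_dvd_prodT K T v hv hJ hJ0

theorem cnt_ne_zero_iff (v : HeightOneSpectrum (𝓞 K)) {I : Ideal (𝓞 K)} (hI : I ≠ ⊥) :
    cnt K v I ≠ 0 ↔ I ≤ v.asIdeal := by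
  unfold cnt
  rw [Associates.count_ne_zero_iff_dvd hI v.irreducible, Ideal.dvd_iff_le]

theorem valuation_eq_exp_cnt (v : HeightOneSpectrum (𝓞 K)) (a : 𝓞 K) (ha : a ≠ 0) :
    v.valuation K (algebraMap (𝓞 K) K a) = exp (-(cnt K v (Ideal.span {a}) : ℤ)) := by
  rw [HeightOneSpectrum.valuation_of_algebraMap, v.intValuation_if_neg ha]
  rfl

/-- `g ∈ Kˣ` generates `I` up to `T`: `v(g) = v(I)` for all primes `v ∤ T`. -/
def IsGenT (g : Kˣ) (I : Ideal (𝓞 K)) : Prop :=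
  ∀ v : HeightOneSpectrum (𝓞 K), v ∉ primesT K T →
    v.valuation K (g : K) = exp (-(cnt K v I : ℤ))

variable {K T}

theorem isGenT_of_span_mul_eq {a b : 𝓞 K} {I J : Ideal (𝓞 K)} {n : ℕ} (ha : a ≠ 0) (hb : b ≠ 0)
    (hI : I ≠ ⊥) (hJ : J ∣ Ideal.span {((prodT T : ℤ) : 𝓞 K)} ^ n)
    (hab : Ideal.span {a} * I = Ideal.span {b} * J) (g : Kˣ)
    (hg : (g : K) = algebraMap (𝓞 K) K b / algebraMap (𝓞 K) K a) : IsGenT K T g I := by
  have hsa : Ideal.span {a} ≠ (⊥ : Ideal (𝓞 K)) := by simpa using ha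
  have hsb : Ideal.span {b} ≠ (⊥ : Ideal (𝓞 K)) := by simpa using hb
  have hJ0 : J ≠ ⊥ := by
    rintro rfl
    have h0 : Ideal.span {a} * I ≠ ⊥ := mul_ne_zero hsa hI
    rw [hab] at h0
    simp at h0
  intro v hv
  rw [hg, map_div₀, valuation_eq_exp_cnt K v a ha, valuation_eq_exp_cnt K v b hb, ← exp_sub]
  have hcount := congrArg (cnt K v) hab
  rw [cnt_mul K v hsa hI, cnt_mul K v hsb hJ0, cnt_eq_zero_of_dvd_prodT K T v hv hJ hJ0,
    add_zero] at hcount
  congr 1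
  rw [← hcount]
  push_cast
  ring

theorem exists_isGenT (hcl : ClTrivial K T) (I : Ideal (𝓞 K)) (hI : I ≠ ⊥) :
    ∃ g : Kˣ, IsGenT K T g I := by
  obtain ⟨a, b, J, n, ha, hb, hJ, hab⟩ := hcl I hI
  have hane : (algebraMap (𝓞 K) K a) ≠ 0 := by simpa using ha
  have hbne : (algebraMap (𝓞 K) K b) ≠ 0 := by simpa using hb
  exact ⟨Units.mk0 _ (div_ne_zero hbne hane),
    isGenT_of_span_mul_eq ha hb hI hJ hab _ (Units.val_mk0 _)⟩

theorem IsGenT.mul {g g' : Kˣ} {I I' : Ideal (𝓞 K)} (h : IsGenT K T g I) (h' : IsGenT K T g' I')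
    (hI : I ≠ ⊥) (hI' : I' ≠ ⊥) : IsGenT K T (g * g') (I * I') := by
  intro v hv
  rw [Units.val_mul, map_mul, h v hv, h' v hv, cnt_mul K v hI hI', ← exp_add]
  congr 1
  push_cast
  ring

theorem isGenT_span (a : 𝓞 K) (ha : a ≠ 0) (g : Kˣ) (hg : (g : K) = algebraMap (𝓞 K) K a) :
    IsGenT K T g (Ideal.span {a}) := by
  intro v _
  rw [hg, valuation_eq_exp_cnt K v a ha]

theorem IsGenT.div_mem {g g' : Kˣ} {I : Ideal (𝓞 K)} (h : IsGenT K T g I)
    (h' : IsGenT K T g' I) : g / g' ∈ TUnits K T := by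
  rw [mem_tUnits_iff]
  intro v hv
  rw [Units.val_div_eq_div_val, map_div₀, h v hv, h' v hv, div_self]
  exact exp_ne_zero

theorem IsGenT.congr {g : Kˣ} {I I' : Ideal (𝓞 K)} (h : IsGenT K T g I)
    (hII' : ∀ v : HeightOneSpectrum (𝓞 K), v ∉ primesT K T → cnt K v I' = cnt K v I) :
    IsGenT K T g I' := by
  intro v hv
  rw [h v hv, hII' v hv]

theorem IsGenT.mul_tUnit {g : Kˣ} {I : Ideal (𝓞 K)} (h : IsGenT K T g I) (e : Kˣ)
    (he : e ∈ TUnits K T) : IsGenT K T (g * e) I := by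
  intro v hv
  rw [Units.val_mul, map_mul, h v hv, (mem_tUnits_iff K T e).mp he v hv, mul_one]

variable (K T)

theorem cnt_top (v : HeightOneSpectrum (𝓞 K)) : cnt K v ⊤ = 0 := by
  unfold cnt
  have h : (Associates.mk (⊤ : Ideal (𝓞 K))) = 1 := by
    rw [Associates.mk_eq_one, Ideal.isUnit_iff]
  rw [h, Associates.factors_one]
  exact Associates.count_zero v.associates_irreducible

/-- The part of a nonzero ideal prime to `T`. -/
theorem exists_coprime_part (I : Ideal (𝓞 K)) (hI : I ≠ ⊥) :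
    ∃ 𝔞 : Ideal (𝓞 K), 𝔞 ≠ ⊥ ∧ IsCoprime 𝔞 (Ideal.span {((prodT T : ℕ) : 𝓞 K)}) ∧
      ∀ v : HeightOneSpectrum (𝓞 K), v ∉ primesT K T → cnt K v 𝔞 = cnt K v I := by
  induction I using UniqueFactorizationMonoid.induction_on_prime with
  | h₁ => exact absurd rfl hI
  | h₂ I hunit =>
    have hI1 : I = ⊤ := by simpa using hunit
    subst hI1
    refine ⟨⊤, hI, ?_, fun v _ => rfl⟩
    rw [Ideal.isCoprime_iff_sup_eq]
    exact top_sup_eq _
  | h₃ I P hI0 hP ih =>
    obtain ⟨𝔞, h𝔞0, h𝔞c, h𝔞⟩ := ih hI0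
    have hP0 : P ≠ ⊥ := hP.ne_zero
    have hPprime : P.IsPrime := (Ideal.prime_iff_isPrime hP0).mp hP
    let vP : HeightOneSpectrum (𝓞 K) := ⟨P, hPprime, hP0⟩
    by_cases hPT : vP ∈ primesT K T
    · refine ⟨𝔞, h𝔞0, h𝔞c, fun v hv => ?_⟩
      rw [h𝔞 v hv, cnt_mul K v hP0 hI0]
      have hne : v ≠ vP := by
        rintro rfl
        exact hv hPT
      have := cnt_of_ne K v vP hne
      change cnt K v P = 0 at this
      rw [this, zero_add]
    · refine ⟨P * 𝔞, mul_ne_zero hP0 h𝔞0, ?_, fun v hv => ?_⟩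
      · apply IsCoprime.mul_left _ h𝔞c
        rw [Ideal.isCoprime_iff_sup_eq]
        have hmax : P.IsMaximal := hPprime.isMaximal hP0
        by_contra hne
        have h1 : P = P ⊔ Ideal.span {((prodT T : ℕ) : 𝓞 K)} := hmax.eq_of_le hne le_sup_left
        have h2 : Ideal.span {((prodT T : ℕ) : 𝓞 K)} ≤ P := by
          rw [h1]; exact le_sup_right
        apply hPT
        rw [mem_primesT]
        exact h2 (Ideal.mem_span_singleton_self _)
      · rw [cnt_mul K v hP0 h𝔞0, cnt_mul K v hP0 hI0, h𝔞 v hv]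

end gen

end Fermat.Agent.S55.CFT.H12
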