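/-
S55-E4 package TN-2 (Tate's theorem, degree 3), helper12: the SPLITTING MODULE `C(γ)`.

For a finite group `G`, `C : Rep ℤ G` and a 2-cocycle `γ`, this file constructs
* `funRep G`  : the permutation representation on `G → ℤ`, `(σ x) g = x (σ⁻¹ g)`;
* `aug G`, `augI G`, `augRep G` : augmentation, augmentation ideal `I_G` and its representation;
* `phi C γ σ : (G → ℤ) → C`, `x ↦ ∑ τ, x τ • γ (σ, τ)` with the key identity `phi_mul`
  (`ρ φ_σ(x) + φ_ρ(σ x) = φ_{ρσ}(x) + ε(x) γ(ρ,σ)`; no normalisation of `γ` needed);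
* `splitRep C γ` : the representation of `G` on `C × I_G`, `σ (c, x) = (σ c + φ_σ x, σ x)`.

Plan for TN-2 (`Stmt_TwinVanishing → Stmt_TateH3`): exact sequences `0 → C → C(γ) → I_G → 0` and
`0 → I_G → Fun(G,ℤ) → ℤ → 0`; `δ₁ [h ↦ h - 1] = [res γ]` (`δ₁_apply` with lift `y h = (0, h - 1)`);
`H^n(H, Fun(G,ℤ)) = 0` for `n = 1, 2` (explicit homotopy
`(k f)(h₁..)(g) = f (s g⁻¹, h₁, ..)(s(g)⁻¹ g)` for an `H`-equivariant `s : G → H`), hence
`H¹(H, C(γ)) = H²(H, C(γ)) = 0`, twin vanishing gives `H³(H, C(γ)) = 0`, and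
`H²(H, I_G) ≅ H¹(H, ℤ) = 0`, so `H³(H, C) = 0`.
-/
import Mathlib
import Fermat.Agent.S55.CFT.Defs

set_option autoImplicit false
set_option linter.unusedSectionVars false

namespace Fermat.Agent.S55.CFT.H12

open CategoryTheory groupCohomology

section perm

variable (G : Type) [Group G] [Fintype G]

/-- The permutation representation of `G` on functions `G → ℤ`: `(σ • x) g = x (σ⁻¹ g)`. -/
noncomputable def funRep : Representation ℤ G (G → ℤ) where
  toFun σ := LinearMap.funLeft ℤ ℤ (fun g => σ⁻¹ * g)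
  map_one' := by ext x g; simp [LinearMap.funLeft]
  map_mul' σ τ := by ext x g; simp [LinearMap.funLeft, mul_assoc]

@[simp] theorem funRep_apply (σ : G) (x : G → ℤ) (g : G) : funRep G σ x g = x (σ⁻¹ * g) := rfl

/-- The augmentation `(G → ℤ) → ℤ`. -/
noncomputable def aug : (G → ℤ) →ₗ[ℤ] ℤ where
  toFun x := ∑ g, x g
  map_add' x y := by simp [Finset.sum_add_distrib]
  map_smul' n x := by simp [Finset.mul_sum]

theorem aug_apply (x : G → ℤ) : aug G x = ∑ g, x g := rfl

theorem aug_funRep (σ : G) (x : G → ℤ) : aug G (funRep G σ x) = aug G x := by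
  simp only [aug_apply, funRep_apply]
  exact Fintype.sum_equiv (Equiv.mulLeft σ⁻¹) _ _ (fun g => rfl)

/-- The augmentation ideal. -/
noncomputable def augI : Submodule ℤ (G → ℤ) := LinearMap.ker (aug G)

theorem mem_augI (x : G → ℤ) : x ∈ augI G ↔ ∑ g, x g = 0 := by
  simp [augI, LinearMap.mem_ker, aug_apply]

/-- The representation of `G` on the augmentation ideal. -/
noncomputable def augRep : Representation ℤ G (augI G) where
  toFun σ := (funRep G σ).restrict (p := augI G) (q := augI G) (fun x hx => by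
    rw [augI, LinearMap.mem_ker] at hx ⊢
    rw [aug_funRep, hx])
  map_one' := by ext x g; simp [LinearMap.restrict_apply]
  map_mul' σ τ := by ext x g; simp [LinearMap.restrict_apply]

@[simp] theorem augRep_apply_coe (σ : G) (x : augI G) :
    ((augRep G σ x : augI G) : G → ℤ) = funRep G σ x := rfl

end perm


section split

variable {G : Type} [Group G] [Fintype G] (C : Rep.{0} ℤ G) (γ : cocycles₂ C)

/-- The linear map `φ_σ : (G → ℤ) → C`, `x ↦ ∑ τ, x τ • γ (σ, τ)`. -/
noncomputable def phi (σ : G) : (G → ℤ) →ₗ[ℤ] C.V where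
  toFun x := ∑ τ, x τ • γ (σ, τ)
  map_add' x y := by simp [add_smul, Finset.sum_add_distrib]
  map_smul' n x := by simp [Finset.smul_sum, mul_smul]

theorem phi_apply (σ : G) (x : G → ℤ) : phi C γ σ x = ∑ τ, x τ • γ (σ, τ) := rfl

/-- The key identity: `ρ φ_σ(x) + φ_ρ(σ x) = φ_{ρσ}(x) + ε(x) γ(ρ, σ)`. -/
theorem phi_mul (ρ σ : G) (x : G → ℤ) :
    C.ρ ρ (phi C γ σ x) + phi C γ ρ (funRep G σ x) =
      phi C γ (ρ * σ) x + aug G x • γ (ρ, σ) := by
  have h2 : phi C γ ρ (funRep G σ x) = ∑ τ, x τ • γ (ρ, σ * τ) := by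
    simp only [phi_apply, funRep_apply]
    exact Fintype.sum_equiv (Equiv.mulLeft σ⁻¹) _ _ (fun g => by simp)
  rw [h2]
  simp only [phi_apply, map_sum, aug_apply, Finset.sum_smul, map_zsmul]
  rw [← Finset.sum_add_distrib, ← Finset.sum_add_distrib]
  refine Finset.sum_congr rfl (fun τ _ => ?_)
  have := (mem_cocycles₂_iff γ).1 γ.2 ρ σ τ
  rw [← smul_add, ← smul_add]
  congr 1
  rw [← this]

theorem phi_one (x : G → ℤ) : phi C γ 1 x = aug G x • γ (1, 1) := by
  simp only [phi_apply, aug_apply, Finset.sum_smul]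
  refine Finset.sum_congr rfl (fun τ _ => ?_)
  rw [cocycles₂_map_one_fst]

/-- The splitting module `C(γ) = C × I_G` with the twisted action. -/
noncomputable def splitRep : Representation ℤ G (C.V × augI G) where
  toFun σ :=
    { toFun := fun p => (C.ρ σ p.1 + phi C γ σ p.2, augRep G σ p.2)
      map_add' := fun p q => by
        ext
        · simp only [Prod.fst_add, Prod.snd_add, map_add, Submodule.coe_add]; abel
        · simp
      map_smul' := fun n p => by
        ext
        · simp only [Prod.smul_fst, Prod.smul_snd, map_smul, Submodule.coe_smul, smul_add,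
            RingHom.id_apply]
          rw [map_zsmul (C.ρ σ) n p.1]
        · simp }
  map_one' := by
    apply LinearMap.ext
    intro p
    have h0 : aug G (p.2 : G → ℤ) = 0 := p.2.2
    ext
    · simp only [LinearMap.coe_mk, AddHom.coe_mk, map_one, Module.End.one_apply, phi_one, h0,
        zero_smul, add_zero]
    · simp
  map_mul' ρ σ := by
    apply LinearMap.ext
    intro p
    have h0 : aug G (p.2 : G → ℤ) = 0 := p.2.2
    have := phi_mul C γ ρ σ (p.2 : G → ℤ)
    rw [h0, zero_smul, add_zero] at this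
    ext
    · simp only [LinearMap.coe_mk, AddHom.coe_mk, map_mul, Module.End.mul_apply, map_add,
        augRep_apply_coe]
      rw [← this]; abel
    · simp

@[simp] theorem splitRep_apply_fst (σ : G) (p : C.V × augI G) :
    (splitRep C γ σ p).1 = C.ρ σ p.1 + phi C γ σ p.2 := rfl

@[simp] theorem splitRep_apply_snd (σ : G) (p : C.V × augI G) :
    (splitRep C γ σ p).2 = augRep G σ p.2 := rfl

end split

end Fermat.Agent.S55.CFT.H12
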