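/-
S55 / E4 / CFT package CF-ind (helper13): transports of cohomology between `Gal(L/M)`-modules and
`H`-modules for `H ≅ Gal(L/M)` inside `Gal(L/F)`, and for quotients.
-/
import Fermat.Agent.S55.CFT.H13_FundInv

set_option autoImplicit false
set_option linter.unusedSectionVars false
open NumberField TensorProduct CategoryTheory CategoryTheory.Limits

noncomputable section
namespace Fermat.Agent.S55.CFT.H13

open Fermat.Agent.S55.CFT

attribute [local instance 1100] Rep.hV2

section Abstract

/-- Transport of cohomology along an isomorphism of pairs (group, module). -/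
def transportIso {G H : Type} [Group G] [Group H] (e : G ≃* H)
    (A : Rep.{0} ℤ H) (B : Rep.{0} ℤ G) (Ψ : B ⟶ Rep.res e.toMonoidHom A)
    (hΨ : Function.Bijective Ψ.hom) (n : ℕ) :
    groupCohomology B n ≅ groupCohomology A n :=
  groupCohomology.mapIso (A := A) (B := B) e
    (LinearEquiv.ofBijective Ψ.hom.toLinearMap hΨ)
    (fun g => LinearMap.ext fun c => Rep.hom_comm_apply Ψ g c) n

theorem subsingleton_of_iso {X Y : ModuleCat.{0} ℤ} (I : X ≅ Y) [Subsingleton Y] :
    Subsingleton X :=
  I.toLinearEquiv.toEquiv.subsingleton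

theorem finite_of_iso {X Y : ModuleCat.{0} ℤ} (I : X ≅ Y) [Finite Y] : Finite X :=
  Finite.of_equiv _ I.toLinearEquiv.toEquiv.symm

theorem card_eq_of_iso {X Y : ModuleCat.{0} ℤ} (I : X ≅ Y) : Nat.card X = Nat.card Y :=
  Nat.card_congr I.toLinearEquiv.toEquiv

end Abstract

section Sub
variable (F M L : Type) [Field F] [Field M] [Field L] [NumberField F] [NumberField M]
  [NumberField L] [Algebra F M] [Algebra M L] [Algebra F L] [IsScalarTower F M L]
  (T : Finset Nat.Primes) (H : Subgroup (L ≃ₐ[F] L)) (e : (L ≃ₐ[M] L) ≃* H)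
  (he : ∀ σ : L ≃ₐ[M] L, ((e σ : H) : L ≃ₐ[F] L) = σ.restrictScalars F)

/-- `J_L → C_L`, from `Gal(L/M)`-modules to `H`-modules (`H ≅ Gal(L/M)`). -/
def subJ : repJ M L T ⟶ Rep.res e.toMonoidHom (resSub (repC F L T) H) :=
  mkHomZ (A := repJ M L T) (B := Rep.res e.toMonoidHom (resSub (repC F L T) H))
    (H12.cokerAdd (diagRep F L T)) (fun σ j => by
      change H12.idClass F L T (σ • (Additive.toMul (j : Additive (IdeleT L T)) : IdeleT L T)) =
        (repC F L T).ρ ((e σ : H) : L ≃ₐ[F] L)
          (H12.idClass F L T (Additive.toMul (j : Additive (IdeleT L T)) : IdeleT L T))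
      rw [he σ, ← H12.idClass_smul, smul_restrictScalars])

theorem diag_subJ : diagRep M L T ≫ subJ F M L T H e he = 0 := by
  refine Rep.hom_ext (DFunLike.ext _ _ fun x => ?_)
  exact H12.idClass_diag F L T (Additive.toMul x)

/-- `C_L` as a `Gal(L/M)`-module → `C_L` as an `H`-module. -/
def subMap : repC M L T ⟶ Rep.res e.toMonoidHom (resSub (repC F L T) H) :=
  cokernel.desc (diagRep M L T) (subJ F M L T H e he) (diag_subJ F M L T H e he)

theorem subMap_idClass (j : IdeleT L T) :
    (subMap F M L T H e he).hom (H12.idClass M L T j) = H12.idClass F L T j := by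
  have h := cokernel.π_desc (diagRep M L T) (subJ F M L T H e he) (diag_subJ F M L T H e he)
  exact congrArg (fun f => f.hom (Additive.ofMul j : Additive (IdeleT L T))) h

theorem subMap_bijective : Function.Bijective (subMap F M L T H e he).hom := by
  constructor
  · intro c c' h
    obtain ⟨j, rfl⟩ := H12.idClass_surjective M L T c
    obtain ⟨j', rfl⟩ := H12.idClass_surjective M L T c'
    rw [subMap_idClass, subMap_idClass] at h
    exact (idClass_eq_iff_tower F M L T j j').1 h
  · intro b
    obtain ⟨j, rfl⟩ := H12.idClass_surjective F L T b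
    exact ⟨H12.idClass M L T j, subMap_idClass F M L T H e he j⟩

/-- `Hⁿ(Gal(L/M), C_L) ≅ Hⁿ(H, C_L)` for `H ≅ Gal(L/M)` inside `Gal(L/F)`. -/
def subIso (n : ℕ) :
    groupCohomology (repC M L T) n ≅ groupCohomology (resSub (repC F L T) H) n :=
  transportIso e (resSub (repC F L T) H) (repC M L T) (subMap F M L T H e he)
    (subMap_bijective F M L T H e he) n

end Sub

section Quot
variable (K L N : Type) [Field K] [Field L] [Field N] [NumberField K] [NumberField L]
  [NumberField N] [Algebra K L] [Algebra L N] [Algebra K N] [IsScalarTower K L N]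
  (T : Finset Nat.Primes) [IsGalois K L] [IsGalois K N]

/-- `Hⁿ(Gal(L/K), C_L) ≅ Hⁿ(Gal(N/K)/Gal(N/L), (C_N)^{Gal(N/L)})`. -/
def quotIso [IsGalois L N] (hunr : UnramifiedOutsideT L N T)
    (hcl : ClTrivial L T) (hT : T.Nonempty) (n : ℕ) :
    groupCohomology (repC K L T) n ≅ groupCohomology (quotC K L N T) n :=
  transportIso (galQuot K L N) (quotC K L N T) (repC K L T)
    (clsMap K L N T) ⟨clsMap_injective K L N T hT, clsMap_surjective K L N T hunr hcl hT⟩ n

end Quot

end Fermat.Agent.S55.CFT.H13
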