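/-
S55 package E4, island GLB, wave 2: T6 = ADM-SUB (requested by helper13 for FUND): admissibility
passes from `N/K` to a Galois subextension `F/K`.  Owner: helper56.

`unr`: for a prime `P` of `F` not above `T` take `Q ∣ P` in `N`; `#I_Q(N/K) = e(Q|𝔭) = 1`,
`e(P|𝔭) ∣ e(Q|𝔭)`, `#I_P(F/K) = e(P|𝔭)`.
-/
import Fermat.Agent.S55.CFT.Defs_CF

set_option autoImplicit false
set_option linter.style.haveILetI false

open NumberField TensorProduct

noncomputable section
namespace Fermat.Agent.S55.CFT.H56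

open Fermat.Agent.S55.CFT

/-- Trivial inertia in `Gal(N/K)` at `Q` gives trivial inertia in `Gal(F/K)` at `Q ∩ 𝓞 F`. -/
lemma inertia_under_eq_bot (K F N : Type) [Field K] [Field F] [Field N] [NumberField K]
    [NumberField F] [NumberField N] [Algebra K F] [Algebra F N] [Algebra K N]
    [IsScalarTower K F N] [IsGalois K F] [IsGalois K N] (Q : Ideal (𝓞 N)) [hQ : Q.IsPrime]
    (hin : Q.inertia (N ≃ₐ[K] N) = ⊥) :
    (Q.under (𝓞 F)).inertia (F ≃ₐ[K] F) = ⊥ := by
  set P : Ideal (𝓞 F) := Q.under (𝓞 F) with hP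
  haveI : Q.LiesOver P := ⟨rfl⟩
  haveI : P.LiesOver (P.under (𝓞 K)) := ⟨rfl⟩
  haveI : Q.LiesOver (P.under (𝓞 K)) := Ideal.LiesOver.trans Q P (P.under (𝓞 K))
  have hGN : IsGaloisGroup (N ≃ₐ[K] N) (𝓞 K) (𝓞 N) := IsGaloisGroup.of_isFractionRing _ _ _ K N
  have hGF : IsGaloisGroup (F ≃ₐ[K] F) (𝓞 K) (𝓞 F) := IsGaloisGroup.of_isFractionRing _ _ _ K F
  have key := Ideal.card_inertia_eq_ramificationIdxIn (G := N ≃ₐ[K] N) (P.under (𝓞 K)) Q
  rw [hin, Subgroup.card_bot,
    Ideal.ramificationIdxIn_eq_ramificationIdx (P.under (𝓞 K)) Q (N ≃ₐ[K] N)] at key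
  have h1 : P.ramificationIdx (𝓞 K) ∣ Q.ramificationIdx (𝓞 K) :=
    Ideal.ramificationIdx_below_dvd (R := 𝓞 K) (S := 𝓞 F) (T := 𝓞 N) P Q
  rw [← key, Nat.dvd_one] at h1
  have key2 := Ideal.card_inertia_eq_ramificationIdxIn (G := F ≃ₐ[K] F) (P.under (𝓞 K)) P
  rw [Ideal.ramificationIdxIn_eq_ramificationIdx (P.under (𝓞 K)) P (F ≃ₐ[K] F), h1] at key2
  exact Subgroup.card_eq_one.mp key2

/-- **T6 / ADM-SUB** (helper13): admissibility passes from `N/K` to `F/K` for an intermediate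
field `F`, Galois over `K`. -/
theorem admissible_sub (K F N : Type) [Field K] [Field F] [Field N] [NumberField K]
    [NumberField F] [NumberField N] [Algebra K F] [Algebra F N] [Algebra K N]
    [IsScalarTower K F N] (T : Finset Nat.Primes) (p : ℕ) [IsGalois K F]
    (h : Admissible K N T p) : Admissible K F T p := by
  haveI := h.gal
  refine ⟨inferInstance, h.cplx, h.pmem, ?_, ?_⟩
  · intro P hP hP0 hT
    -- a prime of `N` above `P`
    obtain ⟨Q, -, hQp, hQP⟩ := Ideal.exists_ideal_over_prime_of_isIntegral P (⊥ : Ideal (𝓞 N))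
      (by simp)
    have hQu : Q.under (𝓞 F) = P := hQP
    have hQ0 : Q ≠ ⊥ := by
      rintro rfl
      apply hP0
      rw [← hQu]
      exact Ideal.under_bot (𝓞 F) (𝓞 N)
    have hQT : ∀ q ∈ T, (((q : ℕ) : ℤ) : 𝓞 N) ∉ Q := by
      intro q hq hmem
      apply hT q hq
      rw [← hQu, Ideal.under_def, Ideal.mem_comap]
      simpa using hmem
    have := inertia_under_eq_bot K F N Q (h.unr Q hQp hQ0 hQT)
    rwa [hQu] at this
  · intro F' _ _ _ _ _
    letI : Algebra F' N := ((algebraMap F N).comp (algebraMap F' F)).toAlgebra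
    haveI : IsScalarTower K F' N := IsScalarTower.of_algebraMap_eq (fun x => by
      rw [RingHom.algebraMap_toAlgebra, RingHom.comp_apply,
        ← IsScalarTower.algebraMap_apply K F' F, ← IsScalarTower.algebraMap_apply K F N])
    exact h.cl F'

end Fermat.Agent.S55.CFT.H56
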