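import Fermat.Agent.S55.CFT.H58_TwinCyclic

/-!
# CFT (helper58): the layer lemma

For a normal subgroup `N` of `G` with finite cyclic quotient and a `G`-module `A` with
`H¹(N, A) = 0`:
`#H²(G, A)` divides `[A^G : N_{G/N} A^N] · #H²(N, A)` (`card_H2_dvd`).

The index is given in a flexible form: an additive map `ψ : P → A` with image `A^G` and an
additive map `π : P → Q` to a finite group `Q` such that `ψ (ker π)` consists of "norms", i.e.
of sums `∑ x, f x` of `G`-invariant functions `f : G ⧸ N → A` (such an `f` is `g N ↦ g a` for an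
`N`-invariant `a`).

Everything is stated for a generic commutative ring `k`.
-/

set_option autoImplicit false
set_option linter.unusedSectionVars false

noncomputable section

namespace Fermat.Agent.S55.CFT.H58

open CategoryTheory CategoryTheory.Limits groupCohomology Rep

/-! ## Counting lemmas -/

section Counting

variable {X₁ X₂ X₃ : Type*} [AddCommGroup X₁] [AddCommGroup X₂] [AddCommGroup X₃]

/-- If `X₁ → X₂ → X₃` is exact at `X₂` with `X₁`, `X₃` finite, then `X₂` is finite and its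
cardinality divides `#X₁ · #X₃`. -/
lemma card_dvd_of_exact_add (f : X₁ →+ X₂) (g : X₂ →+ X₃)
    (h : ∀ x, g x = 0 → ∃ y, f y = x) [Finite X₁] [Finite X₃] :
    Finite X₂ ∧ Nat.card X₂ ∣ Nat.card X₁ * Nat.card X₃ := by
  have hle : g.ker ≤ f.range := fun x hx => h x hx
  have hfin1 : Finite g.ker := by
    have : Finite f.range := Finite.of_surjective f.rangeRestrict f.rangeRestrict_surjective
    exact Finite.of_injective (AddSubgroup.inclusion hle) (AddSubgroup.inclusion_injective hle)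
  have e : (X₂ ⧸ g.ker) ≃+ g.range := QuotientAddGroup.quotientKerEquivRange g
  have hfin2 : Finite (X₂ ⧸ g.ker) := Finite.of_equiv _ e.symm.toEquiv
  have hfin : Finite X₂ := Finite.of_addSubgroup_quotient g.ker
  refine ⟨hfin, ?_⟩
  rw [AddSubgroup.card_eq_card_quotient_mul_card_addSubgroup g.ker, mul_comm]
  apply Nat.mul_dvd_mul
  · exact (AddSubgroup.card_dvd_of_le hle).trans (AddSubgroup.card_range_dvd f)
  · rw [Nat.card_congr e.toEquiv]
    exact AddSubgroup.card_addSubgroup_dvd_card g.range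

variable {M H Q : Type*} [AddCommGroup M] [AddCommGroup H] [AddCommGroup Q]

/-- If `Φ : M → H` is onto and `ker π ≤ ker Φ` for `π : M → Q` with `Q` finite, then `H` is
finite and `#H` divides `#Q`. -/
lemma card_dvd_of_surjective_of_ker_le (Φ : M →+ H) (π : M →+ Q) (hΦ : Function.Surjective Φ)
    (hker : ∀ a, π a = 0 → Φ a = 0) [Finite Q] :
    Finite H ∧ Nat.card H ∣ Nat.card Q := by
  have hle : π.ker ≤ Φ.ker := fun a ha => hker a ha
  let Ψ : M ⧸ π.ker →+ H := QuotientAddGroup.lift π.ker Φ hle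
  have hΨ : Function.Surjective Ψ := by
    intro y
    obtain ⟨a, rfl⟩ := hΦ y
    exact ⟨(a : M ⧸ π.ker), rfl⟩
  have e : (M ⧸ π.ker) ≃+ π.range := QuotientAddGroup.quotientKerEquivRange π
  have hfin2 : Finite (M ⧸ π.ker) := Finite.of_equiv _ e.symm.toEquiv
  have hfin : Finite H := Finite.of_surjective Ψ hΨ
  refine ⟨hfin, ?_⟩
  have h1 : Nat.card H ∣ Nat.card (M ⧸ π.ker) := AddSubgroup.card_dvd_of_surjective Ψ hΨ
  refine h1.trans ?_
  rw [Nat.card_congr e.toEquiv]
  exact AddSubgroup.card_addSubgroup_dvd_card π.range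

end Counting

/-! ## The layer lemma -/

section Layer

variable {k : Type} [CommRing k] {G : Type} [Group G]
variable (A : Rep.{0} k G) (N : Subgroup G) [N.Normal] [Fintype (G ⧸ N)]

/-- The connecting map of `0 → Ker → Fun(G ⧸ N, A) → A → 0` kills the sums of invariant
functions. -/
lemma delta_sum_eq_zero (a : A.ρ.invariants) (f : G ⧸ N → A.V)
    (hf : ∀ g, funRep A (G ⧸ N) g f = f) (ha : (a : A.V) = ∑ x, f x) :
    (δ (shortExact_two A N) 0 1 rfl).hom ((H0Iso A).inv.hom a) = 0 := by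
  have h0 : (ShortComplex.mk (inclK A N) (tauF A (G ⧸ N)) (inclK_tauF A N)).f.hom ∘
      (0 : G → (KerObj A N).V) = d₀₁ (FunObj A (G ⧸ N)) f := by
    funext g
    show (0 : G ⧸ N → A.V) = funRep A (G ⧸ N) g f - f
    rw [hf g, sub_self]
  have := δ₀_apply (shortExact_two A N) a f (by rw [ha]; rfl) 0 h0
  refine this.trans ?_
  have h1 : (⟨0, mem_cocycles₁_of_comp_eq_d₀₁ (shortExact_two A N) h0⟩ :
      cocycles₁ (KerObj A N)) = 0 := rfl
  rw [h1, map_zero]

/-- The map `A^G → H¹(G, Ker)` (connecting map), as an additive map. -/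
def deltaInv : A.ρ.invariants →+ groupCohomology (KerObj A N) 1 :=
  (δ (shortExact_two A N) 0 1 rfl).hom.toAddMonoidHom.comp (H0Iso A).inv.hom.toAddMonoidHom

lemma deltaInv_surjective (h1 : IsZero (groupCohomology (res N.subtype A) 1)) :
    Function.Surjective (deltaInv A N) := by
  have hepi : Epi (δ (shortExact_two A N) 0 1 rfl) :=
    epi_δ_of_isZero (shortExact_two A N) 0 (isZero_funObj A N 1 h1)
  have hsurj : Function.Surjective (δ (shortExact_two A N) 0 1 rfl).hom :=
    (ModuleCat.epi_iff_surjective _).1 hepi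
  intro y
  obtain ⟨x, rfl⟩ := hsurj y
  refine ⟨(H0Iso A).hom.hom x, ?_⟩
  show (δ (shortExact_two A N) 0 1 rfl).hom ((H0Iso A).inv.hom ((H0Iso A).hom.hom x)) = _
  have : (H0Iso A).inv.hom ((H0Iso A).hom.hom x) = x := by
    have := congrArg (fun φ => φ.hom x) (H0Iso A).hom_inv_id
    simp
  rw [this]

/-- `H¹(G, Ker)` is a quotient of `A^G` modulo norms: if `ψ : P → A` parametrises the invariants
and `π : P → Q` is a map to a finite group whose kernel maps to norms, then `#H¹(G, Ker)`
divides `#Q`. -/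
theorem card_H1_kerObj_dvd (h1 : IsZero (groupCohomology (res N.subtype A) 1))
    (P : Type) [AddCommGroup P] (ψ : P →+ A.V) (hψ : ∀ u g, A.ρ g (ψ u) = ψ u)
    (hψs : ∀ a : A.V, (∀ g, A.ρ g a = a) → ∃ u, ψ u = a)
    (Q : Type) [AddCommGroup Q] [Finite Q] (π : P →+ Q)
    (hπ : ∀ u : P, π u = 0 →
      ∃ f : G ⧸ N → A.V, (∀ g, funRep A (G ⧸ N) g f = f) ∧ ψ u = ∑ x, f x) :
    Finite (groupCohomology (KerObj A N) 1) ∧
      Nat.card (groupCohomology (KerObj A N) 1) ∣ Nat.card Q := by
  let ψ' : P →+ A.ρ.invariants :=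
    { toFun := fun u => ⟨ψ u, fun g => hψ u g⟩
      map_zero' := Subtype.ext (map_zero ψ)
      map_add' := fun u v => Subtype.ext (map_add ψ u v) }
  have hψ' : Function.Surjective ψ' := by
    intro a
    obtain ⟨u, hu⟩ := hψs a.1 (fun g => a.2 g)
    exact ⟨u, Subtype.ext hu⟩
  refine card_dvd_of_surjective_of_ker_le ((deltaInv A N).comp ψ') π
    ((deltaInv_surjective A N h1).comp hψ') ?_
  intro u hu
  obtain ⟨f, hf, hfa⟩ := hπ u hu
  exact delta_sum_eq_zero A N (ψ' u) f hf hfa

/-- **Layer lemma**: for `N` normal in `G` with finite cyclic quotient and `H¹(N, A) = 0`,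
`#H²(G, A)` divides `#Q · #H²(N, A)`, where `Q` is a finite quotient of (a group `P` mapping
onto) `A^G` by a subgroup of norms from `N`-invariants. -/
theorem card_H2_dvd (c : G ⧸ N) (hc : ∀ x, x ∈ Subgroup.zpowers c)
    (h1 : IsZero (groupCohomology (res N.subtype A) 1))
    [Finite (groupCohomology (res N.subtype A) 2)]
    (P : Type) [AddCommGroup P] (ψ : P →+ A.V) (hψ : ∀ u g, A.ρ g (ψ u) = ψ u)
    (hψs : ∀ a : A.V, (∀ g, A.ρ g a = a) → ∃ u, ψ u = a)
    (Q : Type) [AddCommGroup Q] [Finite Q] (π : P →+ Q)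
    (hπ : ∀ u : P, π u = 0 →
      ∃ f : G ⧸ N → A.V, (∀ g, funRep A (G ⧸ N) g f = f) ∧ ψ u = ∑ x, f x) :
    Finite (groupCohomology A 2) ∧
      Nat.card (groupCohomology A 2) ∣
        Nat.card Q * Nat.card (groupCohomology (res N.subtype A) 2) := by
  obtain ⟨hfinZ, hcardZ⟩ := card_H1_kerObj_dvd A N h1 P ψ hψ hψs Q π hπ
  have e : groupCohomology (FunObj A (G ⧸ N)) 2 ≃ₗ[k] groupCohomology (res N.subtype A) 2 :=
    (funObjShapiro A N 2).toLinearEquiv
  have hfinB : Finite (groupCohomology (FunObj A (G ⧸ N)) 2) := Finite.of_equiv _ e.symm.toEquiv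
  have hex := mapShortComplex₁_exact (shortExact_one A N c hc) (i := 1) (j := 2) rfl
  rw [ShortComplex.moduleCat_exact_iff] at hex
  have hX1 : Finite (mapShortComplex₁ (shortExact_one A N c hc) (i := 1) (j := 2) rfl).X₁ := hfinZ
  have hX3 : Finite (mapShortComplex₁ (shortExact_one A N c hc) (i := 1) (j := 2) rfl).X₃ := hfinB
  obtain ⟨hfin, hcard⟩ := card_dvd_of_exact_add
    (mapShortComplex₁ (shortExact_one A N c hc) (i := 1) (j := 2) rfl).f.hom.toAddMonoidHom
    (mapShortComplex₁ (shortExact_one A N c hc) (i := 1) (j := 2) rfl).g.hom.toAddMonoidHom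
    (fun x hx => hex x hx)
  refine ⟨hfin, hcard.trans ?_⟩
  have hB : Nat.card (groupCohomology (FunObj A (G ⧸ N)) 2) =
      Nat.card (groupCohomology (res N.subtype A) 2) := Nat.card_congr e.toEquiv
  exact Nat.mul_dvd_mul hcardZ (dvd_of_eq hB)

end Layer

end Fermat.Agent.S55.CFT.H58
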