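/-
S55 / E4 / CFT package CF-ind (helper13): `Stmt_CFind` from the cyclic layers `Stmt_CFcyc`,
by induction over the base field (normal subgroup of index `p`, inflation–restriction in
degrees 1 and 2, `C_M = (C_L)^{Gal(L/M)}`).
-/
import Fermat.Agent.S55.CFT.H13_CFindTr
import Fermat.Agent.S55.CFT.H58_Layer
import Fermat.Agent.S55.CFT.H24_InfRes2Z
import Fermat.Agent.S55.CFT.H56_AdmSub

set_option autoImplicit false
set_option linter.unusedSectionVars false
set_option linter.style.haveILetI false
open NumberField TensorProduct CategoryTheory CategoryTheory.Limits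

noncomputable section
namespace Fermat.Agent.S55.CFT.H13

open Fermat.Agent.S55.CFT

attribute [local instance 1100] Rep.hV2

section Layers
variable {Γ : Type} [Group Γ] (A : Rep.{0} ℤ Γ) (S : Subgroup Γ) [S.Normal]

/-- Inflation–restriction in degree 1: vanishing. -/
theorem subsingleton_H1_of_layers
    (h1 : Subsingleton (groupCohomology (A.quotientToInvariants S) 1))
    (h2 : Subsingleton (groupCohomology (resSub A S) 1)) :
    Subsingleton (groupCohomology A 1) := by
  have hex := groupCohomology.H1InfRes_exact A S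
  have hz1 : IsZero (groupCohomology.H1InfRes A S).X₁ :=
    (ModuleCat.isZero_iff_subsingleton).2 h1
  have hz3 : IsZero (groupCohomology.H1InfRes A S).X₃ :=
    (ModuleCat.isZero_iff_subsingleton).2 h2
  exact (ModuleCat.isZero_iff_subsingleton).1 (hex.isZero_of_both_isZero hz1 hz3)

/-- Inflation–restriction in degree 2: divisibility of orders. -/
theorem card_H2_dvd_of_layers
    (h1 : Subsingleton (groupCohomology (resSub A S) 1))
    [Finite (groupCohomology (A.quotientToInvariants S) 2)]
    [Finite (groupCohomology (resSub A S) 2)] :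
    Finite (groupCohomology A 2) ∧
      Nat.card (groupCohomology A 2) ∣
        Nat.card (groupCohomology (A.quotientToInvariants S) 2) *
          Nat.card (groupCohomology (resSub A S) 2) := by
  obtain ⟨-, hex, -⟩ := H24.stmt_ALG2 Γ A S h1
  exact H58.card_dvd_of_exact_add (infMap₂ A S).toAddMonoidHom (resMap A S 2).toAddMonoidHom
    (fun x hx => (hex x).1 hx)

end Layers

section Gal
variable (F M L : Type) [Field F] [Field M] [Field L] [Algebra F M] [Algebra M L] [Algebra F L]
  [IsScalarTower F M L]

/-- `Gal(L/M) ≃* ker(Gal(L/F) → Gal(M/F))`. -/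
def kerResMulEquiv [Normal F M] : (L ≃ₐ[M] L) ≃* kerRes F M L :=
  { kerResEquiv F M L with
    map_mul' := fun σ τ => Subtype.ext (by apply AlgEquiv.ext; intro x; rfl) }

theorem kerResMulEquiv_coe [Normal F M] (σ : L ≃ₐ[M] L) :
    ((kerResMulEquiv F M L σ : kerRes F M L) : L ≃ₐ[F] L) = σ.restrictScalars F := rfl

end Gal

section GalFix
variable {F L : Type} [Field F] [Field L] [Algebra F L] [FiniteDimensional F L]

/-- `Gal(L / L^H) ≃* H`. -/
def galFixEquiv (H : Subgroup (L ≃ₐ[F] L)) :
    (L ≃ₐ[IntermediateField.fixedField H] L) ≃* H :=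
  ((MulEquiv.subgroupCongr (IntermediateField.fixingSubgroup_fixedField H).symm).trans
    (IntermediateField.fixingSubgroupEquiv (IntermediateField.fixedField H))).symm

theorem galFixEquiv_coe (H : Subgroup (L ≃ₐ[F] L))
    (σ : L ≃ₐ[IntermediateField.fixedField H] L) :
    ((galFixEquiv H σ : H) : L ≃ₐ[F] L) = σ.restrictScalars F := by
  apply AlgEquiv.ext
  intro x
  rfl

end GalFix

section Induction

/-- The induction over the base field (`L` fixed): for `L/F` admissible of degree `p ^ n`,
`H¹(Gal(L/F), C_L) = 0` and `#H²(Gal(L/F), C_L)` divides `p ^ n`. -/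
theorem cfind_aux (hcyc : Stmt_CFcyc) (p : ℕ) (hp : p.Prime) (T : Finset Nat.Primes)
    (L : Type) [Field L] [NumberField L] (n : ℕ) :
    ∀ (F : Type) [Field F] [NumberField F] [Algebra F L], Admissible F L T p →
      Module.finrank F L = p ^ n →
      Subsingleton (groupCohomology (repC F L T) 1) ∧
        Finite (groupCohomology (repC F L T) 2) ∧
        Nat.card (groupCohomology (repC F L T) 2) ∣ p ^ n := by
  induction n with
  | zero =>
    intro F _ _ _ hadm hdeg
    haveI := hadm.gal
    have hcard : Nat.card (L ≃ₐ[F] L) = 1 := by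
      rw [IsGalois.card_aut_eq_finrank, hdeg, pow_zero]
    haveI : Subsingleton (L ≃ₐ[F] L) := (Nat.card_eq_one_iff_unique.mp hcard).1
    have hz1 : Subsingleton (groupCohomology (repC F L T) 1) :=
      ModuleCat.subsingleton_of_isZero (isZero_groupCohomology_succ_of_subsingleton _ 0)
    have hz2 : Subsingleton (groupCohomology (repC F L T) 2) :=
      ModuleCat.subsingleton_of_isZero (isZero_groupCohomology_succ_of_subsingleton _ 1)
    refine ⟨hz1, inferInstance, ?_⟩
    rw [Nat.card_unique]
    exact one_dvd _
  | succ n ih =>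
    intro F _ _ _ hadm hdeg
    haveI := hadm.gal
    haveI : Fact p.Prime := ⟨hp⟩
    have hcard : Nat.card (L ≃ₐ[F] L) = p ^ (n + 1) := by
      rw [IsGalois.card_aut_eq_finrank, hdeg]
    obtain ⟨S, hS⟩ := Sylow.exists_subgroup_card_pow_prime (G := (L ≃ₐ[F] L)) p (n := n)
      (by rw [hcard]; exact pow_dvd_pow p (Nat.le_succ n))
    have hidx : S.index = p := by
      have h1 := S.card_mul_index
      rw [hS, hcard, pow_succ] at h1
      exact Nat.eq_of_mul_eq_mul_left (pow_pos hp.pos n) h1
    haveI hnorm : S.Normal := by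
      apply Subgroup.normal_of_index_eq_minFac_card
      rw [hidx, hcard, hp.pow_minFac (Nat.succ_ne_zero n)]
    obtain ⟨M, hM⟩ : ∃ M : IntermediateField F L, M = IntermediateField.fixedField S :=
      ⟨_, rfl⟩
    haveI : IsGalois F M := by
      rw [hM]; exact IsGalois.of_fixedField_normal_subgroup S
    have hML : Module.finrank M L = p ^ n := by
      rw [hM, IntermediateField.finrank_fixedField_eq_card, hS]
    have hFM : Module.finrank F M = p := by
      have h := Module.finrank_mul_finrank F M L
      rw [hML, hdeg, pow_succ, mul_comm] at h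
      exact Nat.eq_of_mul_eq_mul_left (pow_pos hp.pos n) h
    have hadmM : Admissible M L T p := H56.admissible_up F M L T p hadm
    have hadmFM : Admissible F M T p := H56.admissible_sub F M L T p hadm
    obtain ⟨q, hqT, -⟩ := hadm.pmem
    have hT : T.Nonempty := ⟨q, hqT⟩
    obtain ⟨hc1, hc2⟩ := hcyc p F M T hp hFM hadmFM
    obtain ⟨hi1, hi2, hi3⟩ := ih M hadmM hML
    haveI := hadmM.gal
    -- the quotient layer
    have hq1 : Subsingleton (groupCohomology (quotC F M L T) 1) :=
      subsingleton_of_iso (quotIso F M L T hadmM.unr (hadmM.cl M) hT 1).symm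
    haveI hc2fin : Finite (groupCohomology (repC F M T) 2) :=
      Nat.finite_of_card_ne_zero (by rw [hc2]; exact hp.ne_zero)
    haveI hq2 : Finite (groupCohomology (quotC F M L T) 2) :=
      finite_of_iso (quotIso F M L T hadmM.unr (hadmM.cl M) hT 2).symm
    have hq3 : Nat.card (groupCohomology (quotC F M L T) 2) = p := by
      rw [card_eq_of_iso (quotIso F M L T hadmM.unr (hadmM.cl M) hT 2).symm, hc2]
    -- the subgroup layer
    have hs1 : Subsingleton (groupCohomology (resSub (repC F L T) (kerRes F M L)) 1) :=
      subsingleton_of_iso (subIso F M L T (kerRes F M L) (kerResMulEquiv F M L)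
        (kerResMulEquiv_coe F M L) 1).symm
    haveI hs2 : Finite (groupCohomology (resSub (repC F L T) (kerRes F M L)) 2) :=
      finite_of_iso (subIso F M L T (kerRes F M L) (kerResMulEquiv F M L)
        (kerResMulEquiv_coe F M L) 2).symm
    have hs3 : Nat.card (groupCohomology (resSub (repC F L T) (kerRes F M L)) 2) =
        Nat.card (groupCohomology (repC M L T) 2) :=
      card_eq_of_iso (subIso F M L T (kerRes F M L) (kerResMulEquiv F M L)
        (kerResMulEquiv_coe F M L) 2).symm
    refine ⟨subsingleton_H1_of_layers (repC F L T) (kerRes F M L) hq1 hs1, ?_⟩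
    obtain ⟨hfin, hdvd⟩ := card_H2_dvd_of_layers (repC F L T) (kerRes F M L) hs1
    refine ⟨hfin, hdvd.trans ?_⟩
    rw [hq3, hs3, pow_succ, mul_comm]
    exact Nat.mul_dvd_mul_right hi3 p

end Induction

/-- **CF-ind** (`Stmt_CFind`) from the cyclic layers (`Stmt_CFcyc`). -/
theorem stmt_CFind_of (hcyc : Stmt_CFcyc) : Stmt_CFind := by
  intro p m K L _ _ _ _ _ T hp hdeg hadm H
  haveI := hadm.gal
  have hcard : Nat.card (L ≃ₐ[K] L) = p ^ m := by
    rw [IsGalois.card_aut_eq_finrank, hdeg]
  obtain ⟨k, -, hHk⟩ := (Nat.dvd_prime_pow hp).1 (hcard ▸ Subgroup.card_subgroup_dvd_card H)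
  have hadmM : Admissible (IntermediateField.fixedField H) L T p :=
    H56.admissible_up K (IntermediateField.fixedField H) L T p hadm
  have hML : Module.finrank (IntermediateField.fixedField H) L = p ^ k := by
    rw [IntermediateField.finrank_fixedField_eq_card, hHk]
  obtain ⟨h1, h2, h3⟩ := cfind_aux hcyc p hp T L k (IntermediateField.fixedField H) hadmM hML
  have I := fun n => subIso K (IntermediateField.fixedField H) L T H (galFixEquiv H)
    (galFixEquiv_coe H) n
  refine ⟨subsingleton_of_iso (I 1).symm, finite_of_iso (I 2).symm, ?_⟩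
  rw [card_eq_of_iso (I 2).symm, hHk]
  exact h3

end Fermat.Agent.S55.CFT.H13
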