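/-
S55 / E4 / CFT, leaf FI-W (helper19), part 2: the first inequality `Stmt_FI`, `Stmt_SIidelic`,
`Stmt_CFcyc`.

* `card_cokernel_mul`: for `f : E ⟶ J` injective in `Rep ℤ G`, `G` finite cyclic, `H¹(G, J) = 0`:
  `#H²(coker f) · #H²(E) = #H¹(E) · #H²(J) · #H¹(coker f)`  (the Herbrand hexagon);
* `stmt_FI_of : Stmt_JCyclic → Stmt_EHerbrand → Stmt_Places → Stmt_FI`;
* `stmt_SIidelic_of : Stmt_H2Index → Stmt_SIindex → Stmt_SIidelic`;
* `stmt_CFcyc_of : Stmt_FI → Stmt_SIidelic → Stmt_CFcyc`.
-/
import Fermat.Agent.S55.CFT.H19_Hexagon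
import Fermat.Agent.S55.CFT.H12_H2Index
import Fermat.Agent.S55.CFT.H12_EHerbrand

set_option autoImplicit false
set_option linter.unusedSectionVars false

namespace Fermat.Agent.S55.CFT.H19

open CategoryTheory CategoryTheory.Limits NumberField Module Fermat.Agent.S55.CFT.H12

section RepLevel

variable {k G : Type} [CommRing k] [Group G] [Fintype G] {E J : Rep.{0} k G} (f : E ⟶ J)

theorem hom_norm_apply (x : E) : f.hom (E.ρ.norm x) = J.ρ.norm (f.hom x) := by
  simp only [Representation.norm, LinearMap.sum_apply, map_sum]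
  exact Finset.sum_congr rfl (fun σ _ => Rep.hom_comm_apply f σ x)

/-- **The Herbrand hexagon for a cokernel**, `G` finite cyclic, `H¹(G, J) = 0`. -/
theorem card_cokernel_mul (g : G) (hg : ∀ x, x ∈ Subgroup.zpowers g)
    (hf : Function.Injective f.hom) (hJ1 : Nat.card (groupCohomology J 1) = 1) :
    Nat.card (groupCohomology (cokernel f) 2) * Nat.card (groupCohomology E 2)
      = Nat.card (groupCohomology E 1) * Nat.card (groupCohomology J 2)
        * Nat.card (groupCohomology (cokernel f) 1) := by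
  have eJ1 := card_odd J g hg 1 (by decide)
  rw [hJ1] at eJ1
  have hJ : (LinearMap.ker J.ρ.norm).toAddSubgroup ≤ (LinearMap.range (J.ρ g - 1)).toAddSubgroup :=
    AddSubgroup.relIndex_eq_one.mp eJ1.symm
  rw [card_even (cokernel f) g hg 2 (by decide), card_even E g hg 2 (by decide),
    card_odd E g hg 1 (by decide), card_even J g hg 2 (by decide),
    card_odd (cokernel f) g hg 1 (by decide)]
  refine hexagon (f.hom.toLinearMap.toAddMonoidHom) (cokerAdd f) hf (cokernel_π_surjective f)
    (fun y => cokernel_π_eq_zero_iff f y)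
    (E.ρ g - 1).toAddMonoidHom E.ρ.norm.toAddMonoidHom
    (J.ρ g - 1).toAddMonoidHom J.ρ.norm.toAddMonoidHom
    ((cokernel f).ρ g - 1).toAddMonoidHom (cokernel f).ρ.norm.toAddMonoidHom
    ?_ ?_ ?_ ?_ ?_ ?_ hJ
  · intro x
    show f.hom (E.ρ g x - x) = J.ρ g (f.hom x) - f.hom x
    rw [map_sub, Rep.hom_comm_apply]
  · intro x
    exact hom_norm_apply f x
  · intro y
    show (cokernel.π f).hom (J.ρ g y - y)
      = (cokernel f).ρ g ((cokernel.π f).hom y) - (cokernel.π f).hom y
    rw [map_sub, cokernel_π_ρ]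
  · intro y
    exact cokernel_π_norm f y
  · intro y
    show J.ρ g (J.ρ.norm y) - J.ρ.norm y = 0
    rw [Representation.self_norm_apply, sub_self]
  · intro y
    show J.ρ.norm (J.ρ g y - y) = 0
    rw [map_sub, Representation.norm_self_apply, sub_self]

/-- `#H¹(coker f)` divides `#H²(E)`. -/
theorem card_cokernel_dvd (g : G) (hg : ∀ x, x ∈ Subgroup.zpowers g)
    (hf : Function.Injective f.hom) (hJ1 : Nat.card (groupCohomology J 1) = 1) :
    Nat.card (groupCohomology (cokernel f) 1) ∣ Nat.card (groupCohomology E 2) := by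
  have eJ1 := card_odd J g hg 1 (by decide)
  rw [hJ1] at eJ1
  have hJ : (LinearMap.ker J.ρ.norm).toAddSubgroup ≤ (LinearMap.range (J.ρ g - 1)).toAddSubgroup :=
    AddSubgroup.relIndex_eq_one.mp eJ1.symm
  rw [card_even E g hg 2 (by decide), card_odd (cokernel f) g hg 1 (by decide)]
  refine hexagon_dvd (f.hom.toLinearMap.toAddMonoidHom) (cokerAdd f) hf (cokernel_π_surjective f)
    (fun y => cokernel_π_eq_zero_iff f y)
    (E.ρ g - 1).toAddMonoidHom E.ρ.norm.toAddMonoidHom
    (J.ρ g - 1).toAddMonoidHom J.ρ.norm.toAddMonoidHom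
    ((cokernel f).ρ g - 1).toAddMonoidHom (cokernel f).ρ.norm.toAddMonoidHom
    ?_ ?_ ?_ ?_ ?_ ?_ hJ
  · intro x
    show f.hom (E.ρ g x - x) = J.ρ g (f.hom x) - f.hom x
    rw [map_sub, Rep.hom_comm_apply]
  · intro x
    exact hom_norm_apply f x
  · intro y
    show (cokernel.π f).hom (J.ρ g y - y)
      = (cokernel f).ρ g ((cokernel.π f).hom y) - (cokernel.π f).hom y
    rw [map_sub, cokernel_π_ρ]
  · intro y
    exact cokernel_π_norm f y
  · intro y
    show J.ρ g (J.ρ.norm y) - J.ρ.norm y = 0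
    rw [Representation.self_norm_apply, sub_self]
  · intro y
    show J.ρ.norm (J.ρ g y - y) = 0
    rw [map_sub, Representation.norm_self_apply, sub_self]

end RepLevel

/-! ### The statements -/

section Statements

theorem diagRep_injective (K L : Type) [Field K] [Field L] [NumberField K] [NumberField L]
    [Algebra K L] (T : Finset Nat.Primes) (hT : T.Nonempty) :
    Function.Injective (diagRep K L T).hom := by
  intro x y h
  have h' : diagIdele L T ((Additive.toMul x : TUnits L T) : Lˣ)
      = diagIdele L T ((Additive.toMul y : TUnits L T) : Lˣ) := congrArg Additive.toMul h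
  have h2 := H12.diagIdele_injective L T hT h'
  exact congrArg Additive.ofMul (Subtype.ext h2)

/-- **FI** (first inequality) from the cohomology of the ideles and of the units. -/
theorem stmt_FI_of (hJC : Stmt_JCyclic) (hEH : Stmt_EHerbrand) (hPl : Stmt_Places) : Stmt_FI := by
  intro p K L _ _ _ _ _ T hp hdeg hadm
  have hgal := hadm.gal
  have hcard : Nat.card (L ≃ₐ[K] L) = p := by
    rw [IsGalois.card_aut_eq_finrank, hdeg]
  have hpp : Fact p.Prime := ⟨hp⟩
  have hcyc : IsCyclic (L ≃ₐ[K] L) := isCyclic_of_prime_card hcard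
  obtain ⟨g, hg⟩ := hcyc.exists_generator
  have hfinG : Finite (L ≃ₐ[K] L) := inferInstance
  let _ : Fintype (L ≃ₐ[K] L) := Fintype.ofFinite _
  obtain ⟨hJ1, hJ2⟩ := hJC p K L T hp hdeg hgal
  obtain ⟨hE1, hE2, hEeq⟩ := hEH p K L T hp hdeg hgal hadm.cplx
  have hpl := hPl K L T
  have hTne : T.Nonempty := by
    obtain ⟨q, hq, -⟩ := hadm.pmem
    exact ⟨q, hq⟩
  have hinj := diagRep_injective K L T hTne
  have hJ1' : Nat.card (groupCohomology (repJ K L T) 1) = 1 := Nat.card_unique
  have key := card_cokernel_mul (diagRep K L T) g hg hinj hJ1'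
  have hdvd := card_cokernel_dvd (diagRep K L T) g hg hinj hJ1'
  have he1 : 0 < Nat.card (groupCohomology (repE K L T) 1) := Nat.card_pos
  have he2 : 0 < Nat.card (groupCohomology (repE K L T) 2) := Nat.card_pos
  have hc1 : Nat.card (groupCohomology (repC K L T) 1) ≠ 0 := fun h0 => by
    rw [h0] at hdvd
    exact he2.ne' (zero_dvd_iff.mp hdvd)
  rw [hJ2, hpl] at key
  have hmain : Nat.card (groupCohomology (repC K L T) 2)
      = p * Nat.card (groupCohomology (repC K L T) 1) := by
    have hpos : 0 < p ^ nonsplitCount K L T * Nat.card (groupCohomology (repE K L T) 1) :=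
      Nat.mul_pos (pow_pos hp.pos _) he1
    apply Nat.eq_of_mul_eq_mul_right hpos
    calc Nat.card (groupCohomology (repC K L T) 2)
          * (p ^ nonsplitCount K L T * Nat.card (groupCohomology (repE K L T) 1))
        = Nat.card (groupCohomology (repC K L T) 2)
          * (p * Nat.card (groupCohomology (repE K L T) 2)) := by rw [hEeq]
      _ = p * (Nat.card (groupCohomology (repC K L T) 2)
          * Nat.card (groupCohomology (repE K L T) 2)) := by ring
      _ = p * (Nat.card (groupCohomology (repE K L T) 1) * p ^ nonsplitCount K L T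
          * Nat.card (groupCohomology (repC K L T) 1)) := by rw [key]
      _ = p * Nat.card (groupCohomology (repC K L T) 1)
          * (p ^ nonsplitCount K L T * Nat.card (groupCohomology (repE K L T) 1)) := by ring
  refine ⟨Nat.finite_of_card_ne_zero hc1, Nat.finite_of_card_ne_zero ?_, hmain⟩
  rw [hmain]
  exact Nat.mul_ne_zero hp.ne_zero hc1

/-- **SI'** from the index form. -/
theorem stmt_SIidelic_of (hH2 : Stmt_H2Index) (hSI : Stmt_SIindex) : Stmt_SIidelic := by
  intro p K L _ _ _ _ _ T hp hdeg hadm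
  have hgal := hadm.gal
  have hcard : Nat.card (L ≃ₐ[K] L) = p := by
    rw [IsGalois.card_aut_eq_finrank, hdeg]
  have hpp : Fact p.Prime := ⟨hp⟩
  have hcyc : IsCyclic (L ≃ₐ[K] L) := isCyclic_of_prime_card hcard
  have h2 := hH2 p K L T hadm hcyc
  obtain ⟨hne, hle⟩ := hSI p K L T hadm
  rw [hdeg] at hle
  refine ⟨Nat.finite_of_card_ne_zero (by rw [h2]; exact hne), ?_⟩
  rw [h2]
  exact hle

/-- **CF-cyc** from the two inequalities. -/
theorem stmt_CFcyc_of (hFI : Stmt_FI) (hSI : Stmt_SIidelic) : Stmt_CFcyc := by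
  intro p K L _ _ _ _ _ T hp hdeg hadm
  obtain ⟨hf1, hf2, heq⟩ := hFI p K L T hp hdeg hadm
  obtain ⟨-, hle⟩ := hSI p K L T hp hdeg hadm
  have hc1 : 0 < Nat.card (groupCohomology (repC K L T) 1) := Nat.card_pos
  have h1 : Nat.card (groupCohomology (repC K L T) 1) = 1 := by
    rw [heq] at hle
    have : p * Nat.card (groupCohomology (repC K L T) 1) ≤ p * 1 := by rwa [mul_one]
    have := Nat.le_of_mul_le_mul_left this hp.pos
    omega
  refine ⟨(Nat.card_eq_one_iff_unique.mp h1).1, ?_⟩
  rw [heq, h1, mul_one]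

end Statements

end Fermat.Agent.S55.CFT.H19
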