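/-
S55 / E4 / CFT, leaf FI-W (helper19), part 3: the statements with the landed inputs discharged.

* `stmt_FI_of_JCyclic : Stmt_JCyclic → Stmt_FI`            (uses `H12.stmt_EHerbrand`, `stmt_Places`);
* `stmt_SIidelic_of_SIindex : Stmt_SIindex → Stmt_SIidelic` (uses `H12.stmt_H2Index`);
* `stmt_CFcyc_of_leaves : Stmt_JCyclic → Stmt_SIindex → Stmt_CFcyc`.
-/
import Fermat.Agent.S55.CFT.H19_FI
import Fermat.Agent.S55.CFT.H80_Places

set_option autoImplicit false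

namespace Fermat.Agent.S55.CFT.H19

theorem stmt_FI_of_JCyclic (hJC : Stmt_JCyclic) : Stmt_FI :=
  stmt_FI_of hJC Fermat.Agent.S55.CFT.H12.stmt_EHerbrand Fermat.Agent.S55.CFT.H80.stmt_Places

theorem stmt_SIidelic_of_SIindex (hSI : Stmt_SIindex) : Stmt_SIidelic :=
  stmt_SIidelic_of Fermat.Agent.S55.CFT.H12.stmt_H2Index hSI

theorem stmt_CFcyc_of_leaves (hJC : Stmt_JCyclic) (hSI : Stmt_SIindex) : Stmt_CFcyc :=
  stmt_CFcyc_of (stmt_FI_of_JCyclic hJC) (stmt_SIidelic_of_SIindex hSI)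

end Fermat.Agent.S55.CFT.H19
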