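/-
S55/E4, island GLB, package TH-2 (helper25): `Stmt_ThetaNorm`.
If the number field `L` contains a primitive `p^M`-th root of unity (`p` odd), then the
cyclotomic symbol `θ_L` is trivial on the `T`-ideles of `L`.
-/
import Fermat.Agent.S55.CFT.H25_ThetaP
import Fermat.Agent.S55.CFT.H56_NormTrans

set_option autoImplicit false
set_option linter.unusedSectionVars false
set_option linter.style.haveILetI false

namespace Fermat.Agent.S55.CFT.H25

open Fermat.Agent.S55.CFT
open NumberField TensorProduct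

/-- The local statement at `q` for a number field `L` containing a cyclotomic subfield `K₀`. -/
theorem thetaLoc_norm_of_tower (p : Nat.Primes) (M : ℕ) (hp2 : (p : ℕ) ≠ 2)
    (K₀ L : Type) [Field K₀] [Field L] [NumberField K₀] [NumberField L] [Algebra K₀ L]
    [IsCyclotomicExtension {(p : ℕ) ^ M} ℚ K₀] (q : Nat.Primes) (u : (SemiLocal L q)ˣ) :
    thetaLoc p M q (Units.map (Algebra.norm (Qp q) : SemiLocal L q →* Qp q) u) = 1 := by
  letI : Algebra (SemiLocal K₀ q) (SemiLocal L q) := (semiLocalMap K₀ L q).toRingHom.toAlgebra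
  set v : (SemiLocal K₀ q)ˣ :=
    Units.map (Algebra.norm (SemiLocal K₀ q) : SemiLocal L q →* SemiLocal K₀ q) u with hv
  have h1 : Units.map (Algebra.norm (Qp q) : SemiLocal L q →* Qp q) u =
      Units.map (Algebra.norm (Qp q) : SemiLocal K₀ q →* Qp q) v := by
    apply Units.ext
    exact (H56.semiLocal_norm_norm K₀ L q (u : SemiLocal L q)).symm
  rw [h1]
  by_cases hqp : q = p
  · subst hqp
    exact thetaLoc_norm_self q M K₀ hp2 v
  · exact thetaLoc_norm_of_ne p q M K₀ hqp v

/-- **TH-2**. -/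
theorem stmt_ThetaNorm : Stmt_ThetaNorm := by
  intro p M L _ _ T hp2 hζ y
  obtain ⟨ζ, hζ⟩ := hζ
  rw [cycloTheta, thetaQ]
  refine Finset.prod_eq_one (fun q _ => ?_)
  haveI : NeZero ((p : ℕ) ^ M) := neZero_pow p M
  haveI : IsCyclotomicExtension {(p : ℕ) ^ M} ℚ (IntermediateField.adjoin ℚ {ζ}) :=
    hζ.intermediateField_adjoin_isCyclotomicExtension ℚ
  exact thetaLoc_norm_of_tower p M hp2 (IntermediateField.adjoin ℚ {ζ}) L q.1 (y q)

end Fermat.Agent.S55.CFT.H25
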