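/-
S55 / E4 / CFT package CF-G' (helper13): `Stmt_CFp'` from CF-ind, FUND and COR (counting in a
cyclic group), and the wiring of CF-ind, FUND, CF-G' to the two open leaves `Stmt_JCyclic`
and `Stmt_SIindex`.
-/
import Fermat.Agent.S55.CFT.H13_CFind
import Fermat.Agent.S55.CFT.H13_Fund
import Fermat.Agent.S55.CFT.H58_CorRes
import Fermat.Agent.S55.CFT.H19_FIFinal
import Fermat.Agent.S55.CFT.H25_Theta
import Fermat.Agent.S55.CFT.H56_CycRec

set_option autoImplicit false
set_option linter.unusedSectionVars false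
set_option linter.style.haveILetI false
open NumberField TensorProduct CategoryTheory CategoryTheory.Limits

noncomputable section
namespace Fermat.Agent.S55.CFT.H13

open Fermat.Agent.S55.CFT

/-- Counting in a cyclic group: a class `γ` of order divisible by `#G`, together with
`#H²(H, C) ∣ #H` for all subgroups and corestriction, makes every `H²(H, C)` cyclic of order
`#H`, generated by `res γ`. -/
theorem cfp_abstract (hcor : Stmt_CorRes) {G : Type} [Group G] [Finite G] (C : Rep ℤ G)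
    (γ : groupCohomology C 2) (hγ : ∀ k : ℕ, k • γ = 0 → Nat.card G ∣ k)
    (hcard : ∀ H : Subgroup G, Finite (groupCohomology (resSub C H) 2) ∧
      Nat.card (groupCohomology (resSub C H) 2) ∣ Nat.card H) (H : Subgroup G) :
    Nat.card (groupCohomology (resSub C H) 2) = Nat.card H ∧
      ∀ x : groupCohomology (resSub C H) 2, ∃ n : ℤ, x = n • resMap C H 2 γ := by
  obtain ⟨hfin, hdvd⟩ := hcard H
  obtain ⟨cor, hcor'⟩ := hcor G C H 2
  set y := resMap C H 2 γ with hy
  have hr1 : addOrderOf y ∣ Nat.card (groupCohomology (resSub C H) 2) :=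
    addOrderOf_dvd_natCard y
  have hr2 : Nat.card H ∣ addOrderOf y := by
    have h0 : (addOrderOf y) • y = 0 := addOrderOf_nsmul_eq_zero y
    have h1 : cor ((addOrderOf y) • y) = 0 := by rw [h0, map_zero]
    rw [map_nsmul, hcor' γ, ← mul_nsmul'] at h1
    have h2 := hγ _ h1
    rw [← H.card_mul_index] at h2
    have hidx : 0 < H.index := Nat.pos_of_ne_zero Subgroup.index_ne_zero_of_finite
    exact Nat.dvd_of_mul_dvd_mul_right hidx h2
  have hr3 : addOrderOf y = Nat.card (groupCohomology (resSub C H) 2) :=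
    Nat.dvd_antisymm hr1 (hdvd.trans hr2)
  have hXH : Nat.card (groupCohomology (resSub C H) 2) = Nat.card H :=
    Nat.dvd_antisymm hdvd (hr3 ▸ hr2)
  refine ⟨hXH, fun x => ?_⟩
  have htop : AddSubgroup.zmultiples y = ⊤ := by
    apply AddSubgroup.eq_top_of_card_eq
    rw [Nat.card_zmultiples, hr3]
  have hx : x ∈ AddSubgroup.zmultiples y := by rw [htop]; trivial
  obtain ⟨n, hn⟩ := AddSubgroup.mem_zmultiples_iff.1 hx
  exact ⟨n, hn.symm⟩

/-- **CF-G'** (`Stmt_CFp'`) from CF-ind and FUND (COR is `H58.stmt_CorRes`). -/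
theorem stmt_CFp'_of (hCF : Stmt_CFind) (hF : Stmt_FundExists) : Stmt_CFp' := by
  intro p m M _ K L _ _ _ _ _ T hyp
  haveI := hyp.adm.gal
  obtain ⟨γ, hγ⟩ := hF p m M K L T hyp
  have hcard : Nat.card (L ≃ₐ[K] L) = p ^ m := by
    rw [IsGalois.card_aut_eq_finrank, hyp.deg]
  refine ⟨γ, fun H => (hCF p m K L T hyp.prime hyp.deg hyp.adm H).1, fun H => ?_⟩
  exact cfp_abstract H58.stmt_CorRes (repC K L T) γ (fun k hk => hcard ▸ hγ k hk)
    (fun H' => (hCF p m K L T hyp.prime hyp.deg hyp.adm H').2) H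

/-! ### Wiring to the two open leaves `Stmt_JCyclic` (GLB-3a) and `Stmt_SIindex` (SI'') -/

theorem stmt_CFind_of_leaves (hJC : Stmt_JCyclic) (hSI : Stmt_SIindex) : Stmt_CFind :=
  stmt_CFind_of (H19.stmt_CFcyc_of_leaves hJC hSI)

theorem stmt_FundExists_of_leaves (hJC : Stmt_JCyclic) (hSI : Stmt_SIindex) :
    Stmt_FundExists :=
  stmt_FundExists_of (stmt_CFind_of_leaves hJC hSI)
    (H56.stmt_CycRec H25.stmt_ThetaNorm hSI) H25.stmt_ThetaNorm

theorem stmt_CFp'_of_leaves (hJC : Stmt_JCyclic) (hSI : Stmt_SIindex) : Stmt_CFp' :=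
  stmt_CFp'_of (stmt_CFind_of_leaves hJC hSI) (stmt_FundExists_of_leaves hJC hSI)

end Fermat.Agent.S55.CFT.H13
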