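import Fermat.Agent.S55.CFT.H13_FundCyc

/-!
# S55-E4 package FUND (helper13), part 2: a group embedded in a finite cyclic group

If `π : S →* Δ'` is injective and `Δ'` is cyclic with generator `σ` and discrete logarithm `e'`,
then `S` is cyclic with a generator `τ` mapping to `σ ^ d`, `d = #Δ' / #S`, and the discrete
logarithms are related by `e' (π s) = d * e'' s`.
-/

set_option autoImplicit false
set_option linter.unusedSectionVars false
set_option linter.unusedVariables false
set_option linter.style.haveILetI false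

noncomputable section

namespace Fermat.Agent.S55.CFT.H13

variable {Δ' : Type} [Group Δ'] [Finite Δ'] {S : Type} [Group S] [Finite S]

theorem DLog.orderOf_eq {σ : Δ'} {n' : ℕ} {e' : Δ' → ℕ} (h : DLog Δ' σ n' e') :
    orderOf σ = n' := by
  rw [← h.card_eq]
  apply orderOf_eq_card_of_forall_mem_zpowers
  intro x
  exact ⟨(e' x : ℤ), by simpa using h.pow x⟩

theorem DLog.isCyclic {σ : Δ'} {n' : ℕ} {e' : Δ' → ℕ} (h : DLog Δ' σ n' e') : IsCyclic Δ' :=
  ⟨⟨σ, fun x => ⟨(e' x : ℤ), by simpa using h.pow x⟩⟩⟩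

/-- In a finite cyclic group, an element killed by the order of a subgroup lies in it. -/
theorem mem_range_of_pow_eq_one {σ : Δ'} {n' : ℕ} {e' : Δ' → ℕ} (h : DLog Δ' σ n' e')
    (π : S →* Δ') (hπ : Function.Injective π) (x : Δ') (hx : x ^ Nat.card S = 1) :
    ∃ s : S, π s = x := by
  classical
  letI : Fintype Δ' := Fintype.ofFinite Δ'
  letI : Fintype S := Fintype.ofFinite S
  haveI : IsCyclic Δ' := h.isCyclic
  have hpos : 0 < Nat.card S := Nat.card_pos
  have h1 := IsCyclic.card_pow_eq_one_le (α := Δ') hpos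
  have h2 : (Finset.univ.image π) ⊆ Finset.univ.filter (fun a : Δ' => a ^ Nat.card S = 1) := by
    intro y hy
    rw [Finset.mem_image] at hy
    obtain ⟨s, -, rfl⟩ := hy
    rw [Finset.mem_filter]
    refine ⟨Finset.mem_univ _, ?_⟩
    rw [← map_pow, pow_card_eq_one', map_one]
  have h3 : (Finset.univ.image π).card = Nat.card S := by
    rw [Finset.card_image_of_injective _ hπ, Finset.card_univ, Nat.card_eq_fintype_card]
  have h4 := Finset.eq_of_subset_of_card_le h2 (by rw [h3]; exact h1)
  have h5 : x ∈ Finset.univ.filter (fun a : Δ' => a ^ Nat.card S = 1) := by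
    rw [Finset.mem_filter]
    exact ⟨Finset.mem_univ _, hx⟩
  rw [← h4, Finset.mem_image] at h5
  obtain ⟨s, -, hs⟩ := h5
  exact ⟨s, hs⟩

/-- The cyclic structure induced on a group embedded in a finite cyclic group. -/
theorem exists_dlog_sub {σ : Δ'} {n' : ℕ} {e' : Δ' → ℕ} (h : DLog Δ' σ n' e')
    (π : S →* Δ') (hπ : Function.Injective π) :
    ∃ (τ : S) (e'' : S → ℕ) (d : ℕ), DLog S τ (Nat.card S) e'' ∧ n' = d * Nat.card S ∧
      ∀ s, e' (π s) = d * e'' s := by
  classical
  have hcard : Nat.card S ∣ n' := by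
    have h1 : Nat.card π.range = Nat.card S :=
      Nat.card_congr (MonoidHom.ofInjective hπ).symm.toEquiv
    rw [← h1, ← h.card_eq]
    exact Subgroup.card_subgroup_dvd_card _
  obtain ⟨d, hd⟩ := hcard
  have hpos : 0 < Nat.card S := Nat.card_pos
  have hd' : n' = d * Nat.card S := by rw [hd, mul_comm]
  have hd0 : d ≠ 0 := by
    rintro rfl
    rw [zero_mul] at hd'
    exact absurd hd' h.pos.ne'
  -- `σ ^ d` is in the image
  obtain ⟨τ, hτ⟩ := mem_range_of_pow_eq_one h π hπ (σ ^ d) (by
    rw [← pow_mul, ← hd', h.pow_n])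
  -- the order of `τ`
  have hord : orderOf τ = Nat.card S := by
    rw [← orderOf_injective π hπ τ, hτ,
      orderOf_pow_of_dvd hd0 (by rw [h.orderOf_eq]; exact ⟨_, hd'⟩), h.orderOf_eq, hd']
    exact Nat.mul_div_cancel_left _ (Nat.pos_of_ne_zero hd0)
  have hgen : ∀ s : S, s ∈ Subgroup.zpowers τ := by
    have : Subgroup.zpowers τ = ⊤ := by
      apply Subgroup.eq_top_of_card_eq
      rw [Nat.card_zpowers, hord]
    intro s
    rw [this]
    exact Subgroup.mem_top s
  obtain ⟨e'', he''⟩ := exists_dlog τ hgen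
  refine ⟨τ, e'', d, he'', hd', fun s => ?_⟩
  have h1 : π s = σ ^ (d * e'' s) := by
    conv_lhs => rw [← he''.pow s, map_pow, hτ, ← pow_mul]
  rw [h1]
  apply h.inj
  rw [hd']
  exact Nat.mul_lt_mul_of_pos_left (he''.lt s) (Nat.pos_of_ne_zero hd0)

end Fermat.Agent.S55.CFT.H13
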