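import Fermat.Agent.S55.CFT.H13_TateLES

/-!
# S55-E4 package TN-2 (helper13): Tate's theorem in degree 3 from twin vanishing

`stmt_TateH3_of : Stmt_TwinVanishing → Stmt_TateH3`, by the splitting module `C(γ)`
(`H12_SplitModule.lean`, helper12).
-/

set_option autoImplicit false
set_option linter.unusedSectionVars false
set_option linter.unusedVariables false
set_option linter.style.haveILetI false

noncomputable section

namespace Fermat.Agent.S55.CFT.H13

open CategoryTheory groupCohomology Limits Fermat.Agent.S55.CFT Fermat.Agent.S55.CFT.H12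

section Cyclic

variable {M : Type} [AddCommGroup M]

/-- In a finite group of order `c` generated by `r`, `n r = 0` only if `c ∣ n`. -/
theorem dvd_of_zsmul_eq_zero_of_gen (r : M) (c : ℕ) (hc : Nat.card M = c)
    (hgen : ∀ x : M, ∃ n : ℤ, x = n • r) (n : ℤ) (hn : n • r = 0) : (c : ℤ) ∣ n := by
  have h1 : addOrderOf r = Nat.card M := by
    apply addOrderOf_eq_card_of_forall_mem_zmultiples
    intro x
    obtain ⟨k, hk⟩ := hgen x
    exact AddSubgroup.mem_zmultiples_iff.mpr ⟨k, hk.symm⟩
  rw [← hc, ← h1]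
  exact addOrderOf_dvd_iff_zsmul_eq_zero.mpr hn

end Cyclic

section Main

variable {G : Type} [Group G] [Fintype G] (C : Rep.{0} ℤ G) (γ : cocycles₂ C) (H : Subgroup G)

/-- The connecting map `H¹(H, I_G) → H²(H, C)`, with explicit source and target. -/
def dlt : groupCohomology (resSub (augR G) H) 1 →ₗ[ℤ] groupCohomology (resSub C H) 2 :=
  (δ (seqA_shortExact C γ H) 1 2 rfl).hom

theorem dlt_uClass : dlt C γ H (uClass G H) = resMap C H 2 (H2π C γ) :=
  delta_uClass C γ H

/-- The connecting map `H¹(H, I_G) → H²(H, C)` is injective when `H²(H, C)` is cyclic of order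
`|H|`, generated by `res γ`. -/
theorem dlt_injective
    (hcard : Nat.card (groupCohomology (resSub C H) 2) = Nat.card H)
    (hgen : ∀ x : groupCohomology (resSub C H) 2, ∃ n : ℤ, x = n • resMap C H 2 (H2π C γ))
    (a : groupCohomology (resSub (augR G) H) 1)
    (ha : dlt C γ H a = 0) : a = 0 := by
  obtain ⟨n, rfl⟩ := H1_aug_gen G H a
  have h1 : n • resMap C H 2 (H2π C γ) = 0 := by
    have e1 : dlt C γ H (n • uClass G H) = n • dlt C γ H (uClass G H) :=
      map_zsmul (dlt C γ H) n (uClass G H)
    rw [← dlt_uClass C γ H, ← e1]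
    exact ha
  obtain ⟨m, rfl⟩ := dvd_of_zsmul_eq_zero_of_gen _ _ hcard hgen n h1
  rw [mul_comm, mul_smul, card_smul_uClass]
  exact zsmul_zero m

theorem dlt_surjective
    (hgen : ∀ x : groupCohomology (resSub C H) 2, ∃ n : ℤ, x = n • resMap C H 2 (H2π C γ))
    (x : groupCohomology (resSub C H) 2) :
    ∃ a : groupCohomology (resSub (augR G) H) 1, dlt C γ H a = x := by
  obtain ⟨n, rfl⟩ := hgen x
  refine ⟨n • uClass G H, ?_⟩
  have e1 : dlt C γ H (n • uClass G H) = n • dlt C γ H (uClass G H) :=
    map_zsmul (dlt C γ H) n (uClass G H)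
  rw [e1, dlt_uClass]

end Main

section Vanish

variable {G : Type} [Group G] [Fintype G] (C : Rep.{0} ℤ G) (γ : cocycles₂ C) (H : Subgroup G)

/-- `H¹(H, C(γ)) = 0`. -/
theorem subsingleton_H1_split
    (h1 : Subsingleton (groupCohomology (resSub C H) 1))
    (hcard : Nat.card (groupCohomology (resSub C H) 2) = Nat.card H)
    (hgen : ∀ x : groupCohomology (resSub C H) 2, ∃ n : ℤ, x = n • resMap C H 2 (H2π C γ)) :
    Subsingleton (groupCohomology (resSub (splitR C γ) H) 1) := by
  have hA := seqA_shortExact C γ H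
  have key : ∀ a : groupCohomology (resSub (splitR C γ) H) 1, a = 0 := by
    intro a
    -- the image `b` of `a` in `H¹(I_G)` is killed by `δ`, hence zero
    have hz := (mapShortComplex₃ hA (i := 1) (j := 2) rfl).zero
    have hb : dlt C γ H ((mapShortComplex₂ (seqA C γ H) 1).g a) = 0 := by
      have := congrArg (fun f => f a) (congrArg (fun f => (ModuleCat.Hom.hom f : _ → _)) hz)
      exact this
    have hb0 := dlt_injective C γ H hcard hgen _ hb
    -- exactness at `H¹(C(γ))`
    have hex := mapShortComplex₂_exact hA 1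
    rw [ShortComplex.moduleCat_exact_iff] at hex
    obtain ⟨c, hc⟩ := hex a hb0
    have hc0 : c = 0 := h1.elim _ _
    rw [← hc, hc0, map_zero]
    rfl
  exact ⟨fun a b => by rw [key a, key b]⟩

/-- `H²(H, C(γ)) = 0`. -/
theorem subsingleton_H2_split
    (hgen : ∀ x : groupCohomology (resSub C H) 2, ∃ n : ℤ, x = n • resMap C H 2 (H2π C γ)) :
    Subsingleton (groupCohomology (resSub (splitR C γ) H) 2) := by
  have hA := seqA_shortExact C γ H
  have key : ∀ a : groupCohomology (resSub (splitR C γ) H) 2, a = 0 := by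
    intro a
    -- the image of `a` in `H²(I_G) = 0` vanishes
    have ha : (mapShortComplex₂ (seqA C γ H) 2).g a = 0 :=
      (ModuleCat.isZero_iff_subsingleton.mp (isZero_H2_aug G H)).elim _ _
    have hex := mapShortComplex₂_exact hA 2
    rw [ShortComplex.moduleCat_exact_iff] at hex
    obtain ⟨c, hc⟩ := hex a ha
    -- `c = δ b`, and the composite `H¹(I_G) → H²(C) → H²(C(γ))` is zero
    obtain ⟨b, hb⟩ := dlt_surjective C γ H hgen c
    have hz := (mapShortComplex₁ hA (i := 1) (j := 2) rfl).zero
    have hz' : (mapShortComplex₂ (seqA C γ H) 2).f (dlt C γ H b) = 0 := by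
      have := congrArg (fun f => f b) (congrArg (fun f => (ModuleCat.Hom.hom f : _ → _)) hz)
      exact this
    rw [← hc, ← hb]
    exact hz'
  exact ⟨fun a b => by rw [key a, key b]⟩

/-- `H³(H, C) = 0` once `H³(H, C(γ)) = 0`. -/
theorem subsingleton_H3
    (h3 : Subsingleton (groupCohomology (resSub (splitR C γ) H) 3)) :
    Subsingleton (groupCohomology (resSub C H) 3) := by
  have hA := seqA_shortExact C γ H
  have hex := mapShortComplex₁_exact hA (i := 2) (j := 3) rfl
  have hz : IsZero (groupCohomology (resSub C H) 3) :=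
    hex.isZero_of_both_isZero (isZero_H2_aug G H) (ModuleCat.isZero_iff_subsingleton.mpr h3)
  exact ModuleCat.subsingleton_of_isZero hz

end Vanish

/-- **TN-2** from **TN-1**. -/
theorem stmt_TateH3_of (htv : Stmt_TwinVanishing) : Stmt_TateH3 := by
  intro G _ _ C γ h1 h2 H
  letI : Fintype G := Fintype.ofFinite G
  obtain ⟨γ₀, rfl⟩ : ∃ γ₀ : cocycles₂ C, H2π C γ₀ = γ :=
    (ModuleCat.epi_iff_surjective (H2π C)).1 inferInstance γ
  have hS1 : ∀ H' : Subgroup G, Subsingleton (groupCohomology (resSub (splitR C γ₀) H') 1) :=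
    fun H' => subsingleton_H1_split C γ₀ H' (h1 H') (h2 H').1 (h2 H').2
  have hS2 : ∀ H' : Subgroup G, Subsingleton (groupCohomology (resSub (splitR C γ₀) H') 2) :=
    fun H' => subsingleton_H2_split C γ₀ H' (h2 H').2
  have hS3 := htv G (splitR C γ₀) hS1 hS2 H 3 (by norm_num)
  exact subsingleton_H3 C γ₀ H hS3

end Fermat.Agent.S55.CFT.H13
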