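import Fermat.Agent.S55.CFT.H13_TateSeq

/-!
# S55-E4 package TN-2, helper13: `Hⁿ(H, Fun(G, ℤ)) = 0` for `n ≥ 1`

`Fun(G, ℤ)` restricted to `H` is coinduced from the trivial subgroup (choose a transversal), so
Shapiro's lemma (Mathlib) applies.  Also `H¹(H, ℤ) = 0` for finite `H`.
-/

set_option autoImplicit false
set_option linter.unusedSectionVars false
set_option linter.unusedVariables false
set_option linter.style.haveILetI false

noncomputable section

namespace Fermat.Agent.S55.CFT.H13

open CategoryTheory groupCohomology Limits Fermat.Agent.S55.CFT Fermat.Agent.S55.CFT.H12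

section Fun

variable {G : Type} [Group G] [Fintype G] (H : Subgroup G) (T : Set G)

/-- The trivial module `Fun(T, ℤ)` of the trivial subgroup of `H`. -/
abbrev botMod : Rep.{0} ℤ (⊥ : Subgroup H) := Rep.trivial ℤ (⊥ : Subgroup H) (T → ℤ)

/-- `x ↦ (h ↦ t ↦ x (h⁻¹ t))`. -/
def funToCoind :
    (G → ℤ) →ₗ[ℤ] Representation.coindV (⊥ : Subgroup H).subtype (botMod H T).ρ where
  toFun x := ⟨fun h t => x ((h : G)⁻¹ * (t : G)), by
    rw [Representation.mem_coindV]
    intro s h
    have hs : (s : H) = 1 := Subgroup.mem_bot.mp s.2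
    show (fun t : T => x ((((⊥ : Subgroup H).subtype s * h : H) : G)⁻¹ * (t : G))) =
      fun t : T => x ((h : G)⁻¹ * (t : G))
    rw [Subgroup.subtype_apply, hs, one_mul]⟩
  map_add' a b := rfl
  map_smul' c a := rfl

theorem funToCoind_apply (x : G → ℤ) (h : H) (t : T) :
    ((funToCoind H T x : Representation.coindV (⊥ : Subgroup H).subtype (botMod H T).ρ) :
      H → T → ℤ) h t = x ((h : G)⁻¹ * (t : G)) := rfl

variable {H T}

theorem funToCoind_bijective (hT : Subgroup.IsComplement (H : Set G) T) :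
    Function.Bijective (funToCoind H T) := by
  constructor
  · rw [← LinearMap.ker_eq_bot, LinearMap.ker_eq_bot']
    intro x hx
    funext g
    obtain ⟨⟨h, t⟩, hht, -⟩ := hT.existsUnique g
    have h1 := congrArg (fun u : Representation.coindV (⊥ : Subgroup H).subtype (botMod H T).ρ =>
      (u : H → T → ℤ) h⁻¹ t) hx
    have h2 : x (((h⁻¹ : H) : G)⁻¹ * (t : G)) = 0 := h1
    rw [Subgroup.coe_inv, inv_inv] at h2
    have h3 : (h : G) * (t : G) = g := hht
    rw [h3] at h2
    exact h2
  · intro f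
    refine ⟨fun g => (f : H → T → ℤ) ((hT.equiv g).1)⁻¹ (hT.equiv g).2, ?_⟩
    apply Subtype.ext
    funext h t
    rw [funToCoind_apply]
    have h1 : hT.equiv ((h : G)⁻¹ * (t : G)) = (h⁻¹, t) := by
      rw [← Equiv.eq_symm_apply]
      rfl
    show (f : H → T → ℤ) ((hT.equiv ((h : G)⁻¹ * (t : G))).1)⁻¹ (hT.equiv ((h : G)⁻¹ * (t : G))).2
      = (f : H → T → ℤ) h t
    rw [h1, inv_inv]

/-- `Fun(G, ℤ)` restricted to `H` is coinduced from the trivial subgroup. -/
theorem fun_iso_coind (hT : Subgroup.IsComplement (H : Set G) T) :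
    Nonempty (resSub (funR G) H ≅ Rep.coind (⊥ : Subgroup H).subtype (botMod H T)) := by
  refine ⟨Rep.mkIso (Representation.Equiv.mk
    (LinearEquiv.ofBijective (funToCoind H T) (funToCoind_bijective hT)) (fun g => ?_))⟩
  apply LinearMap.ext
  intro x
  apply Subtype.ext
  funext h t
  show (funRep G (g : G) x) ((h : G)⁻¹ * (t : G)) = x (((h * g : H) : G)⁻¹ * (t : G))
  rw [funRep_apply, Subgroup.coe_mul, mul_inv_rev, mul_assoc]

variable (H)

/-- `Hⁿ⁺¹(H, Fun(G, ℤ)) = 0`. -/
theorem isZero_fun (n : ℕ) : IsZero (groupCohomology (resSub (funR G) H) (n + 1)) := by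
  obtain ⟨T, hT, -⟩ := Subgroup.exists_isComplement_right H (1 : G)
  obtain ⟨e⟩ := fun_iso_coind hT
  have h0 : IsZero (groupCohomology (botMod H T) (n + 1)) :=
    isZero_groupCohomology_succ_of_subsingleton (botMod H T) n
  have h1 : IsZero (groupCohomology (Rep.coind (⊥ : Subgroup H).subtype (botMod H T)) (n + 1)) :=
    h0.of_iso (coindIso (botMod H T) (n + 1))
  exact h1.of_iso ((groupCohomology.functor ℤ H (n + 1)).mapIso e)

end Fun

end Fermat.Agent.S55.CFT.H13
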