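import Fermat.Agent.S55.CFT.H13_TateFun

/-!
# S55-E4 package TN-2, helper13: the long exact sequences

* `isZero_H1_trivZ`: `H¹(H, ℤ) = 0` for finite `H`;
* `isZero_H2_aug`: `H²(H, I_G) = 0`;
* `H1_aug_gen`: `H¹(H, I_G)` is generated by the class `u` of `h ↦ δ_h - δ_1`, and `|H| u = 0`;
* `delta_u`: `δ u = res γ` for `0 → C → C(γ) → I_G → 0`.
-/

set_option autoImplicit false
set_option linter.unusedSectionVars false
set_option linter.unusedVariables false
set_option linter.style.haveILetI false

noncomputable section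

namespace Fermat.Agent.S55.CFT.H13

open CategoryTheory groupCohomology Limits Fermat.Agent.S55.CFT Fermat.Agent.S55.CFT.H12

attribute [local instance 1100] Rep.hV2

section Triv

variable (Γ : Type) [Group Γ] [Finite Γ]

theorem cocycle_trivZ_eq_zero (x : cocycles₁ (trivZ Γ)) (g : Γ) : x g = 0 := by
  have hpow : ∀ n : ℕ, x (g ^ n) = n • x g := by
    intro n
    induction n with
    | zero => rw [pow_zero, cocycles₁_map_one, zero_smul]
    | succ n ih =>
      rw [pow_succ, cocycles₁_map_mul_of_isTrivial, ih, succ_nsmul]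
  have h1 := hpow (Nat.card Γ)
  rw [pow_card_eq_one', cocycles₁_map_one] at h1
  have h2 : (Nat.card Γ : ℤ) * x g = 0 := by
    rw [← nsmul_eq_mul]
    exact h1.symm
  rcases mul_eq_zero.mp h2 with h3 | h3
  · exact absurd (Nat.cast_eq_zero.mp h3) Nat.card_pos.ne'
  · exact h3

theorem isZero_H1_trivZ : IsZero (groupCohomology (trivZ Γ) 1) := by
  rw [ModuleCat.isZero_iff_subsingleton]
  have key : ∀ a : groupCohomology (trivZ Γ) 1, a = 0 := by
    intro a
    induction a using H1_induction_on with
    | h x =>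
      rw [H1π_eq_zero_iff]
      have hx : (x : Γ → ℤ) = 0 := by
        funext g
        exact cocycle_trivZ_eq_zero Γ x g
      rw [hx]
      exact Submodule.zero_mem _
  exact ⟨fun a b => by rw [key a, key b]⟩

end Triv

section Aug

variable (G : Type) [Group G] [Fintype G] (H : Subgroup G)

/-- `H²(H, I_G) = 0`. -/
theorem isZero_H2_aug : IsZero (groupCohomology (resSub (augR G) H) 2) := by
  have hB := seqB_shortExact G H
  have hex := mapShortComplex₁_exact hB (i := 1) (j := 2) rfl
  exact hex.isZero_of_both_isZero (isZero_H1_trivZ H) (isZero_fun H 1)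

end Aug

section Gen

variable (G : Type) [Group G] [Fintype G] (H : Subgroup G)

open Classical in
/-- The indicator of the identity. -/
def dOne : G → ℤ := Pi.single 1 1

theorem aug_dOne : aug G (dOne G) = 1 := by
  classical
  unfold dOne
  convert aug_single G (1 : G)

open Classical in
theorem funRep_dOne_apply (σ g : G) : funRep G σ (dOne G) g = if g = σ then 1 else 0 := by
  rw [funRep_apply]
  unfold dOne
  rw [Pi.single_apply]
  by_cases h : g = σ
  · rw [if_pos h, if_pos (by rw [h, inv_mul_cancel])]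
  · rw [if_neg h, if_neg (fun h' => h (by rw [inv_mul_eq_one] at h'; exact h'.symm))]

/-- The element `h δ - δ` of the augmentation ideal. -/
def zOneFun (h : H) : augI G := ⟨funRep G (h : G) (dOne G) - dOne G, by
  show aug G _ = 0
  rw [map_sub, aug_funRep, sub_self]⟩

theorem zOneFun_coe (h : H) :
    ((zOneFun G H h : augI G) : G → ℤ) = funRep G (h : G) (dOne G) - dOne G := rfl

/-- The cocycle `h ↦ h δ - δ` of `I_G`. -/
def zOne : cocycles₁ (resSub (augR G) H) := ⟨zOneFun G H, by
  rw [mem_cocycles₁_iff]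
  intro g h
  apply Subtype.ext
  show funRep G ((g * h : H) : G) (dOne G) - dOne G =
    funRep G (g : G) (funRep G (h : G) (dOne G) - dOne G) + (funRep G (g : G) (dOne G) - dOne G)
  rw [Subgroup.coe_mul, map_mul, map_sub, Module.End.mul_apply]
  abel⟩

theorem zOne_apply (h : H) : (zOne G H) h = zOneFun G H h := rfl

/-- The class `u` of `zOne`. -/
def uClass : groupCohomology (resSub (augR G) H) 1 := H1π (resSub (augR G) H) (zOne G H)

/-- `H¹(H, I_G)` is generated by `u`. -/
theorem H1_aug_gen (a : groupCohomology (resSub (augR G) H) 1) :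
    ∃ n : ℤ, a = n • uClass G H := by
  induction a using H1_induction_on with
  | h z =>
    -- `z` as a cocycle of `Fun(G, ℤ)`
    obtain ⟨zF, hzF⟩ : ∃ zF : cocycles₁ (resSub (funR G) H),
        ∀ h : H, zF h = ((z h : augI G) : G → ℤ) := by
      refine ⟨⟨fun h => ((z h : augI G) : G → ℤ), ?_⟩, fun h => rfl⟩
      rw [mem_cocycles₁_iff]
      intro g h
      have := (mem_cocycles₁_iff (A := resSub (augR G) H) z).1 z.2 g h
      exact congrArg (fun w : augI G => (w : G → ℤ)) this
    have h0 : H1π (resSub (funR G) H) zF = 0 :=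
      (ModuleCat.isZero_iff_subsingleton.mp (isZero_fun H 0)).elim _ _
    rw [H1π_eq_zero_iff] at h0
    obtain ⟨y, hy⟩ := h0
    have hy' : ∀ h : H, funRep G (h : G) y - y = ((z h : augI G) : G → ℤ) := by
      intro h
      rw [← hzF h]
      exact congrFun hy h
    refine ⟨aug G y, ?_⟩
    show H1π _ z = aug G y • H1π _ (zOne G H)
    rw [← map_zsmul, H1π_eq_iff]
    refine ⟨(⟨y - aug G y • dOne G, ?_⟩ : augI G), ?_⟩
    · show aug G _ = 0
      rw [map_sub, map_smul, aug_dOne, smul_eq_mul, mul_one, sub_self]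
    · funext h
      apply Subtype.ext
      show funRep G (h : G) (y - aug G y • dOne G) - (y - aug G y • dOne G) =
        ((z h : augI G) : G → ℤ) - aug G y • (funRep G (h : G) (dOne G) - dOne G)
      rw [← hy' h, map_sub, map_smul]
      simp only [smul_sub]
      abel

end Gen

section Card

variable (G : Type) [Group G] [Fintype G] (H : Subgroup G)

open Classical in
/-- The indicator function of `H`. -/
def indH : G → ℤ := fun g => if g ∈ H then 1 else 0

theorem funRep_indH (h : H) : funRep G (h : G) (indH G H) = indH G H := by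
  classical
  funext g
  rw [funRep_apply]
  unfold indH
  have : (h : G)⁻¹ * g ∈ H ↔ g ∈ H := H.mul_mem_cancel_left (H.inv_mem h.2)
  simp only [this]

theorem aug_indH : aug G (indH G H) = (Nat.card H : ℤ) := by
  classical
  rw [aug_apply]
  unfold indH
  rw [Finset.sum_boole, Nat.card_eq_fintype_card, Fintype.card_subtype]

/-- `|H| u = 0`. -/
theorem card_smul_uClass : (Nat.card H : ℤ) • uClass G H = 0 := by
  unfold uClass
  rw [← map_zsmul, H1π_eq_zero_iff]
  refine ⟨(⟨(Nat.card H : ℤ) • dOne G - indH G H, ?_⟩ : augI G), ?_⟩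
  · show aug G _ = 0
    rw [map_sub, map_smul, aug_dOne, aug_indH, smul_eq_mul, mul_one, sub_self]
  · funext h
    apply Subtype.ext
    show funRep G (h : G) ((Nat.card H : ℤ) • dOne G - indH G H) -
        ((Nat.card H : ℤ) • dOne G - indH G H) =
      (Nat.card H : ℤ) • (funRep G (h : G) (dOne G) - dOne G)
    rw [map_sub, map_smul, funRep_indH]
    simp only [smul_sub]
    abel

end Card

section Delta

variable {G : Type} [Group G] [Fintype G] (C : Rep.{0} ℤ G) (γ : cocycles₂ C) (H : Subgroup G)

theorem phi_funRep_dOne (g h : G) : phi C γ g (funRep G h (dOne G)) = γ (g, h) := by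
  classical
  rw [phi_apply]
  rw [Finset.sum_eq_single h]
  · rw [funRep_dOne_apply, if_pos rfl, one_smul]
  · intro τ _ hτ
    rw [funRep_dOne_apply, if_neg hτ, zero_smul]
  · intro hh
    exact absurd (Finset.mem_univ h) hh

theorem phi_dOne (g : G) : phi C γ g (dOne G) = γ (g, 1) := by
  have h := phi_funRep_dOne C γ g 1
  rw [map_one] at h
  exact h

theorem phi_zOne (g : G) (h : H) :
    phi C γ g ((zOneFun G H h : augI G) : G → ℤ) = γ (g, (h : G)) - γ (g, 1) := by
  rw [zOneFun_coe, map_sub, phi_funRep_dOne, phi_dOne]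

/-- The lift `h ↦ (0, h δ - δ)` of `zOne` to the splitting module. -/
def yLift : H → (C.V × augI G) := fun h => (0, zOneFun G H h)

/-- The 2-cochain `(g, h) ↦ γ (g, h) - γ (g, 1)`. -/
def xCoch : H × H → C.V := fun p => γ ((p.1 : G), (p.2 : G)) - γ ((p.1 : G), 1)

theorem xCoch_eq :
    (seqA C γ H).f.hom ∘ xCoch C γ H = d₁₂ (seqA C γ H).X₂ (yLift C H) := by
  funext p
  obtain ⟨g, h⟩ := p
  show ((xCoch C γ H (g, h), (0 : augI G)) : C.V × augI G) =
    splitRep C γ (g : G) (yLift C H h) - yLift C H (g * h) + yLift C H g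
  refine Prod.ext ?_ ?_
  · show xCoch C γ H (g, h) =
      (C.ρ (g : G) (0 : C.V) + phi C γ (g : G) ((zOneFun G H h : augI G) : G → ℤ)) - 0 + 0
    rw [map_zero, zero_add, sub_zero, add_zero, phi_zOne]
    rfl
  · show (0 : augI G) =
      augRep G (g : G) (zOneFun G H h) - zOneFun G H (g * h) + zOneFun G H g
    have := (mem_cocycles₁_iff (A := resSub (augR G) H) (zOne G H)).1 (zOne G H).2 g h
    have h2 : zOneFun G H (g * h) = augRep G (g : G) (zOneFun G H h) + zOneFun G H g := this
    rw [h2]
    abel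

/-- `δ u` is the class of `xCoch`. -/
theorem delta_uClass_aux :
    δ (seqA_shortExact C γ H) 1 2 rfl (uClass G H) =
      H2π (resSub C H) ⟨xCoch C γ H,
        mem_cocycles₂_of_comp_eq_d₁₂ (seqA_shortExact C γ H) (xCoch_eq C γ H)⟩ :=
  δ₁_apply (seqA_shortExact C γ H) (zOne G H) (yLift C H) rfl (xCoch C γ H) (xCoch_eq C γ H)

/-- `δ u = res γ`. -/
theorem delta_uClass :
    δ (seqA_shortExact C γ H) 1 2 rfl (uClass G H) = resMap C H 2 (H2π C γ) := by
  rw [delta_uClass_aux]
  have h1 : resMap C H 2 (H2π C γ) =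
      H2π (resSub C H) (mapCocycles₂ H.subtype (𝟙 (resSub C H)) γ) :=
    H2π_comp_map_apply H.subtype (𝟙 (resSub C H)) γ
  rw [h1]
  refine (H2π_eq_iff (A := resSub C H) _ _).mpr ⟨fun _ => - γ (1, 1), ?_⟩
  funext p
  obtain ⟨g, h⟩ := p
  show C.ρ (g : G) (- γ (1, 1)) - (- γ (1, 1)) + (- γ (1, 1)) =
    (γ ((g : G), (h : G)) - γ ((g : G), 1)) - γ ((g : G), (h : G))
  rw [cocycles₂_map_one_snd γ (g : G), map_neg]
  abel

end Delta

end Fermat.Agent.S55.CFT.H13
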