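/-
S55 / E4 / CFT, leaf CFG-W (helper19): the class formation on `p`-extensions, `Stmt_CFp'`, from
`Stmt_CFind` (induction from cyclic layers), `Stmt_FundExists` (a class of full order) and
`Stmt_CorRes` (corestriction).

Group theory: a finite abelian group `A` with `#A ∣ h` containing `y` with
`k • y = 0 → h ∣ k` has `#A = h` and is generated by `y`.
-/
import Fermat.Agent.S55.CFT.Defs_CF

set_option autoImplicit false

namespace Fermat.Agent.S55.CFT.H19

section Group

variable {A : Type*} [AddCommGroup A]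

/-- A finite abelian group of order dividing `h` with an element of order (at least) `h` is cyclic
of order `h`, generated by that element. -/
theorem card_eq_and_generated [Finite A] (h : ℕ) (hcard : Nat.card A ∣ h) (y : A)
    (hy : ∀ k : ℕ, k • y = 0 → h ∣ k) :
    Nat.card A = h ∧ ∀ x : A, ∃ n : ℤ, x = n • y := by
  have h1 : h ∣ addOrderOf y := hy _ (addOrderOf_nsmul_eq_zero y)
  have h2 : addOrderOf y ∣ Nat.card A := addOrderOf_dvd_natCard y
  have hA : Nat.card A = h := Nat.dvd_antisymm hcard (h1.trans h2)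
  have hord : addOrderOf y = Nat.card A := Nat.dvd_antisymm h2 (hA ▸ h1)
  refine ⟨hA, fun x => ?_⟩
  have htop : AddSubgroup.zmultiples y = ⊤ := by
    apply AddSubgroup.eq_top_of_card_eq
    rw [Nat.card_zmultiples, hord]
  have hx : x ∈ AddSubgroup.zmultiples y := htop ▸ AddSubgroup.mem_top x
  obtain ⟨n, hn⟩ := AddSubgroup.mem_zmultiples_iff.mp hx
  exact ⟨n, hn.symm⟩

end Group

/-- **CF-G'** from CF-ind, FUND and COR. -/
theorem stmt_CFp'_of (hind : Stmt_CFind) (hfund : Stmt_FundExists) (hcor : Stmt_CorRes) :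
    Stmt_CFp' := by
  intro p m M _ K L _ _ _ _ _ T hyp
  obtain ⟨γ, hγ⟩ := hfund p m M K L T hyp
  have hI := hind p m K L T hyp.prime hyp.deg hyp.adm
  have hgal := hyp.adm.gal
  have hfin : Finite (L ≃ₐ[K] L) := inferInstance
  have hG : Nat.card (L ≃ₐ[K] L) = p ^ m := by
    rw [IsGalois.card_aut_eq_finrank, hyp.deg]
  refine ⟨γ, fun H => (hI H).1, fun H => ?_⟩
  obtain ⟨-, hfinH, hdvd⟩ := hI H
  obtain ⟨cor, hcr⟩ := hcor (L ≃ₐ[K] L) (repC K L T) H 2
  have hidx : H.index * Nat.card H = p ^ m := by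
    rw [← hG, mul_comm]
    exact Subgroup.card_mul_index H
  have hHpos : 0 < H.index := Nat.pos_of_ne_zero (Subgroup.index_ne_zero_of_finite)
  have hy : ∀ k : ℕ, k • resMap (repC K L T) H 2 γ = 0 → Nat.card H ∣ k := by
    intro k hk
    have h1 : cor (k • resMap (repC K L T) H 2 γ) = 0 := by rw [hk, map_zero]
    rw [map_nsmul, hcr, ← mul_nsmul'] at h1
    have h2 := hγ _ h1
    rw [← hidx, mul_comm k] at h2
    exact Nat.dvd_of_mul_dvd_mul_left hHpos h2
  exact card_eq_and_generated (Nat.card H) hdvd _ hy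

end Fermat.Agent.S55.CFT.H19
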