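/-
S55 / E4 / CFT, leaf CFG-W (helper19): `Stmt_CFp'` with the landed inputs discharged.

`stmt_CFp'_of_leaves : Stmt_CFind → Stmt_SIindex → Stmt_CFp'`
(uses `H58.stmt_CorRes`, `H13.stmt_FundExists_of`, `H56.stmt_CycRec`, `H25.stmt_ThetaNorm`).
-/
import Fermat.Agent.S55.CFT.H19_CFG
import Fermat.Agent.S55.CFT.H13_Fund
import Fermat.Agent.S55.CFT.H25_Theta
import Fermat.Agent.S55.CFT.H56_CycRec
import Fermat.Agent.S55.CFT.H58_CorRes

set_option autoImplicit false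

namespace Fermat.Agent.S55.CFT.H19

theorem stmt_CFp'_of_leaves (hind : Stmt_CFind) (hSI : Stmt_SIindex) : Stmt_CFp' :=
  stmt_CFp'_of hind
    (Fermat.Agent.S55.CFT.H13.stmt_FundExists_of hind
      (Fermat.Agent.S55.CFT.H56.stmt_CycRec Fermat.Agent.S55.CFT.H25.stmt_ThetaNorm hSI)
      Fermat.Agent.S55.CFT.H25.stmt_ThetaNorm)
    Fermat.Agent.S55.CFT.H58.stmt_CorRes

end Fermat.Agent.S55.CFT.H19
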