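/-
S55 / E4 / CFT, leaf FI-W (helper19), part 1: the Herbrand hexagon as a counting identity.

For an exact sequence `0 → E → J → C → 0` of abelian groups with compatible pairs of endomorphisms
`(D, N)`, `D N = N D = 0`, and `ker N_J = range D_J` (`H¹(J) = 0`):
  `[ker D_C : N C] · [ker D_E : N E] = [ker N_E : D E] · [ker D_J : N J] · [ker N_C : D C]`
(all indices are `AddSubgroup.relIndex`, `0` if infinite; no finiteness hypothesis).
-/
import Mathlib

set_option autoImplicit false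

namespace Fermat.Agent.S55.CFT.H19

section Core

variable {J : Type*} [AddCommGroup J]

/-- The hexagon count inside `J`, for a subgroup `S` stable under `D` and `N`. -/
theorem hexagon_core (D N : J →+ J) (hDN : ∀ x, D (N x) = 0) (hND : ∀ x, N (D x) = 0)
    (hJ : N.ker ≤ D.range) (S : AddSubgroup J) (hDS : S.map D ≤ S) (hNS : S.map N ≤ S) :
    (N.range ⊔ S).relIndex (S.comap D) * (S.map N).relIndex (D.ker ⊓ S)
      = (S.map D).relIndex (N.ker ⊓ S) * N.range.relIndex D.ker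
        * (D.range ⊔ S).relIndex (S.comap N) := by
  have hNr : N.range ≤ D.ker := by
    rintro _ ⟨x, rfl⟩
    exact hDN x
  have hDr : D.range ≤ N.ker := by
    rintro _ ⟨x, rfl⟩
    exact hND x
  have hkN : N.ker = D.range := le_antisymm hJ hDr
  have hS_D : S ≤ S.comap D := fun x hx => hDS ⟨x, hx, rfl⟩
  have hS_N : S ≤ S.comap N := fun x hx => hNS ⟨x, hx, rfl⟩
  have hkD_le : D.ker ≤ S.comap D := fun x hx => by
    rw [AddSubgroup.mem_comap, AddMonoidHom.mem_ker.mp hx]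
    exact S.zero_mem
  have hkN_le : N.ker ≤ S.comap N := fun x hx => by
    rw [AddSubgroup.mem_comap, AddMonoidHom.mem_ker.mp hx]
    exact S.zero_mem
  -- (i)
  have bC : (D.range ⊔ S).relIndex (S.comap N) = (S.map N).relIndex (N.range ⊓ S) := by
    have h := AddSubgroup.relIndex_map_map N S (S.comap N)
    rw [AddSubgroup.map_comap_eq, sup_of_le_left hkN_le, hkN, sup_comm] at h
    exact h.symm
  -- (ii)
  have bE : (D.ker ⊔ S).relIndex (S.comap D) = (S.map D).relIndex (N.ker ⊓ S) := by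
    have h := AddSubgroup.relIndex_map_map D S (S.comap D)
    rw [AddSubgroup.map_comap_eq, sup_of_le_left hkD_le, ← hkN, sup_comm] at h
    exact h.symm
  -- (iii)
  have c1 : (N.range ⊔ S).relIndex (S.comap D)
      = (N.range ⊔ S).relIndex (D.ker ⊔ S) * (D.ker ⊔ S).relIndex (S.comap D) :=
    (AddSubgroup.relIndex_mul_relIndex _ _ _ (sup_le_sup_right hNr S) (sup_le hkD_le hS_D)).symm
  -- (iv)
  have c2 : (N.range ⊔ S).relIndex (D.ker ⊔ S) = (N.range ⊔ S ⊓ D.ker).relIndex D.ker := by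
    have e : D.ker ⊔ S = D.ker ⊔ (N.range ⊔ S) := by
      rw [← sup_assoc, sup_of_le_left hNr]
    rw [e, AddSubgroup.relIndex_sup_right, ← AddSubgroup.inf_relIndex_right,
      sup_inf_assoc_of_le S hNr]
  -- (v)
  have c3 : N.range.relIndex D.ker
      = N.range.relIndex (N.range ⊔ S ⊓ D.ker) * (N.range ⊔ S ⊓ D.ker).relIndex D.ker :=
    (AddSubgroup.relIndex_mul_relIndex _ _ _ le_sup_left (sup_le hNr inf_le_right)).symm
  have c4 : N.range.relIndex (N.range ⊔ S ⊓ D.ker) = (N.range ⊓ S).relIndex (D.ker ⊓ S) := by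
    rw [AddSubgroup.relIndex_sup_left, ← AddSubgroup.inf_relIndex_right]
    have e : N.range ⊓ (S ⊓ D.ker) = N.range ⊓ S := by
      rw [← inf_assoc]
      exact inf_of_le_left (inf_le_left.trans hNr)
    rw [e, inf_comm S]
  -- (vi)
  have c5 : (S.map N).relIndex (D.ker ⊓ S)
      = (S.map N).relIndex (N.range ⊓ S) * (N.range ⊓ S).relIndex (D.ker ⊓ S) := by
    refine (AddSubgroup.relIndex_mul_relIndex _ _ _ (le_inf ?_ hNS) (inf_le_inf_right S hNr)).symm
    rintro _ ⟨x, -, rfl⟩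
    exact ⟨x, rfl⟩
  rw [c1, c2, c5, bE, bC, c3, c4]
  ring

/-- `[ker N_C : D C]` divides `[ker D_E : N E]` (the connecting map `Ĥ¹(C) → Ĥ⁰(E)` is
injective). -/
theorem hexagon_core_dvd (D N : J →+ J) (hDN : ∀ x, D (N x) = 0) (hND : ∀ x, N (D x) = 0)
    (hJ : N.ker ≤ D.range) (S : AddSubgroup J) (hNS : S.map N ≤ S) :
    (D.range ⊔ S).relIndex (S.comap N) ∣ (S.map N).relIndex (D.ker ⊓ S) := by
  have hNr : N.range ≤ D.ker := by
    rintro _ ⟨x, rfl⟩
    exact hDN x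
  have hDr : D.range ≤ N.ker := by
    rintro _ ⟨x, rfl⟩
    exact hND x
  have hkN : N.ker = D.range := le_antisymm hJ hDr
  have hkN_le : N.ker ≤ S.comap N := fun x hx => by
    rw [AddSubgroup.mem_comap, AddMonoidHom.mem_ker.mp hx]
    exact S.zero_mem
  have bC : (D.range ⊔ S).relIndex (S.comap N) = (S.map N).relIndex (N.range ⊓ S) := by
    have h := AddSubgroup.relIndex_map_map N S (S.comap N)
    rw [AddSubgroup.map_comap_eq, sup_of_le_left hkN_le, hkN, sup_comm] at h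
    exact h.symm
  have c5 : (S.map N).relIndex (D.ker ⊓ S)
      = (S.map N).relIndex (N.range ⊓ S) * (N.range ⊓ S).relIndex (D.ker ⊓ S) := by
    refine (AddSubgroup.relIndex_mul_relIndex _ _ _ (le_inf ?_ hNS) (inf_le_inf_right S hNr)).symm
    rintro _ ⟨x, -, rfl⟩
    exact ⟨x, rfl⟩
  rw [bC, c5]
  exact dvd_mul_right _ _

end Core

section Three

variable {E J C : Type*} [AddCommGroup E] [AddCommGroup J] [AddCommGroup C]

/-- **The Herbrand hexagon, counting form.**  `0 → E → J → C → 0` exact, `(D, N)` compatible,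
`D_J N_J = N_J D_J = 0`, `ker N_J ≤ range D_J`. -/
theorem hexagon (f : E →+ J) (π : J →+ C) (hf : Function.Injective f)
    (hπ : Function.Surjective π) (hex : ∀ y, π y = 0 ↔ ∃ x, f x = y)
    (DE NE : E →+ E) (DJ NJ : J →+ J) (DC NC : C →+ C)
    (hfD : ∀ x, f (DE x) = DJ (f x)) (hfN : ∀ x, f (NE x) = NJ (f x))
    (hπD : ∀ y, π (DJ y) = DC (π y)) (hπN : ∀ y, π (NJ y) = NC (π y))
    (hDN : ∀ y, DJ (NJ y) = 0) (hND : ∀ y, NJ (DJ y) = 0) (hJ : NJ.ker ≤ DJ.range) :
    NC.range.relIndex DC.ker * NE.range.relIndex DE.ker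
      = DE.range.relIndex NE.ker * NJ.range.relIndex DJ.ker * DC.range.relIndex NC.ker := by
  set S : AddSubgroup J := f.range with hS
  have hDS : S.map DJ ≤ S := by
    rintro _ ⟨_, ⟨x, rfl⟩, rfl⟩
    exact ⟨DE x, hfD x⟩
  have hNS : S.map NJ ≤ S := by
    rintro _ ⟨_, ⟨x, rfl⟩, rfl⟩
    exact ⟨NE x, hfN x⟩
  have hker : π.ker = S := by
    ext y
    rw [AddMonoidHom.mem_ker, hex y]
    rfl
  -- `E`-side
  have mapRange : ∀ (φE : E →+ E) (φJ : J →+ J), (∀ x, f (φE x) = φJ (f x)) →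
      φE.range.map f = S.map φJ := by
    intro φE φJ h
    ext y
    constructor
    · rintro ⟨_, ⟨x, rfl⟩, rfl⟩
      exact ⟨f x, ⟨x, rfl⟩, (h x).symm⟩
    · rintro ⟨_, ⟨x, rfl⟩, rfl⟩
      exact ⟨φE x, ⟨x, rfl⟩, h x⟩
  have mapKer : ∀ (φE : E →+ E) (φJ : J →+ J), (∀ x, f (φE x) = φJ (f x)) →
      φE.ker.map f = φJ.ker ⊓ S := by
    intro φE φJ h
    ext y
    rw [AddSubgroup.mem_map, AddSubgroup.mem_inf]
    constructor
    · rintro ⟨x, hx, rfl⟩
      refine ⟨?_, ⟨x, rfl⟩⟩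
      rw [AddMonoidHom.mem_ker] at hx ⊢
      rw [← h x, hx, map_zero]
    · rintro ⟨hy, ⟨x, rfl⟩⟩
      refine ⟨x, ?_, rfl⟩
      rw [AddMonoidHom.mem_ker] at hy ⊢
      apply hf
      rw [h x, hy, map_zero]
  have aE : NE.range.relIndex DE.ker = (S.map NJ).relIndex (DJ.ker ⊓ S) := by
    rw [← AddSubgroup.relIndex_map_map_of_injective _ _ hf, mapRange NE NJ hfN, mapKer DE DJ hfD]
  have bE : DE.range.relIndex NE.ker = (S.map DJ).relIndex (NJ.ker ⊓ S) := by
    rw [← AddSubgroup.relIndex_map_map_of_injective _ _ hf, mapRange DE DJ hfD, mapKer NE NJ hfN]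
  -- `C`-side
  have comapRange : ∀ (φJ : J →+ J) (φC : C →+ C), (∀ y, π (φJ y) = φC (π y)) →
      φC.range.comap π = φJ.range ⊔ S := by
    intro φJ φC h
    ext y
    rw [AddSubgroup.mem_comap, AddSubgroup.mem_sup]
    constructor
    · rintro ⟨c, hc⟩
      obtain ⟨j, rfl⟩ := hπ c
      refine ⟨φJ j, ⟨j, rfl⟩, y - φJ j, ?_, by abel⟩
      rw [← hker, AddMonoidHom.mem_ker, map_sub, h j, hc, sub_self]
    · rintro ⟨_, ⟨j, rfl⟩, s, hs, rfl⟩
      rw [← hker, AddMonoidHom.mem_ker] at hs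
      exact ⟨π j, by rw [map_add, hs, add_zero, h j]⟩
  have comapKer : ∀ (φJ : J →+ J) (φC : C →+ C), (∀ y, π (φJ y) = φC (π y)) →
      φC.ker.comap π = S.comap φJ := by
    intro φJ φC h
    ext y
    rw [AddSubgroup.mem_comap, AddSubgroup.mem_comap, AddMonoidHom.mem_ker, ← h y, ← hker,
      AddMonoidHom.mem_ker]
  have relC : ∀ (H K : AddSubgroup C), H.relIndex K = (H.comap π).relIndex (K.comap π) := by
    intro H K
    rw [AddSubgroup.relIndex_comap, AddSubgroup.map_comap_eq_self_of_surjective hπ]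
  have aC : NC.range.relIndex DC.ker = (NJ.range ⊔ S).relIndex (S.comap DJ) := by
    rw [relC, comapRange NJ NC hπN, comapKer DJ DC hπD]
  have bC : DC.range.relIndex NC.ker = (DJ.range ⊔ S).relIndex (S.comap NJ) := by
    rw [relC, comapRange DJ DC hπD, comapKer NJ NC hπN]
  rw [aE, bE, aC, bC]
  exact hexagon_core DJ NJ hDN hND hJ S hDS hNS

/-- `[ker N_C : D C]` divides `[ker D_E : N E]`. -/
theorem hexagon_dvd (f : E →+ J) (π : J →+ C) (hf : Function.Injective f)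
    (hπ : Function.Surjective π) (hex : ∀ y, π y = 0 ↔ ∃ x, f x = y)
    (DE NE : E →+ E) (DJ NJ : J →+ J) (DC NC : C →+ C)
    (hfD : ∀ x, f (DE x) = DJ (f x)) (hfN : ∀ x, f (NE x) = NJ (f x))
    (hπD : ∀ y, π (DJ y) = DC (π y)) (hπN : ∀ y, π (NJ y) = NC (π y))
    (hDN : ∀ y, DJ (NJ y) = 0) (hND : ∀ y, NJ (DJ y) = 0) (hJ : NJ.ker ≤ DJ.range) :
    DC.range.relIndex NC.ker ∣ NE.range.relIndex DE.ker := by
  set S : AddSubgroup J := f.range with hS
  have hNS : S.map NJ ≤ S := by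
    rintro _ ⟨_, ⟨x, rfl⟩, rfl⟩
    exact ⟨NE x, hfN x⟩
  have hker : π.ker = S := by
    ext y
    rw [AddMonoidHom.mem_ker, hex y]
    rfl
  have aE : NE.range.relIndex DE.ker = (S.map NJ).relIndex (DJ.ker ⊓ S) := by
    rw [← AddSubgroup.relIndex_map_map_of_injective _ _ hf]
    congr 1
    · ext y
      constructor
      · rintro ⟨_, ⟨x, rfl⟩, rfl⟩
        exact ⟨f x, ⟨x, rfl⟩, (hfN x).symm⟩
      · rintro ⟨_, ⟨x, rfl⟩, rfl⟩
        exact ⟨NE x, ⟨x, rfl⟩, hfN x⟩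
    · ext y
      rw [AddSubgroup.mem_map, AddSubgroup.mem_inf]
      constructor
      · rintro ⟨x, hx, rfl⟩
        refine ⟨?_, ⟨x, rfl⟩⟩
        rw [AddMonoidHom.mem_ker] at hx ⊢
        rw [← hfD x, hx, map_zero]
      · rintro ⟨hy, ⟨x, rfl⟩⟩
        refine ⟨x, ?_, rfl⟩
        rw [AddMonoidHom.mem_ker] at hy ⊢
        apply hf
        rw [hfD x, hy, map_zero]
  have bC : DC.range.relIndex NC.ker = (DJ.range ⊔ S).relIndex (S.comap NJ) := by
    rw [← AddSubgroup.map_comap_eq_self_of_surjective hπ NC.ker, ← AddSubgroup.relIndex_comap]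
    congr 1
    · ext y
      rw [AddSubgroup.mem_comap, AddSubgroup.mem_sup]
      constructor
      · rintro ⟨c, hc⟩
        obtain ⟨j, rfl⟩ := hπ c
        refine ⟨DJ j, ⟨j, rfl⟩, y - DJ j, ?_, by abel⟩
        rw [← hker, AddMonoidHom.mem_ker, map_sub, hπD j, hc, sub_self]
      · rintro ⟨_, ⟨j, rfl⟩, s, hs, rfl⟩
        rw [← hker, AddMonoidHom.mem_ker] at hs
        exact ⟨π j, by rw [map_add, hs, add_zero, hπD j]⟩
    · ext y
      rw [AddSubgroup.mem_comap, AddSubgroup.mem_comap, AddMonoidHom.mem_ker, ← hπN y, ← hker,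
        AddMonoidHom.mem_ker]
  rw [aE, bC]
  exact hexagon_core_dvd DJ NJ hDN hND hJ S hNS

end Three

end Fermat.Agent.S55.CFT.H19
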