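import Fermat.Agent.S55.CFT.H12_SIDefs

/-!
# S55 / E4 / CFT, leaves SI-a, SI-b (helper20): basic facts on the balls `q ^ m · R_q`

`R_q = semiLocalInt K q ⊆ ℚ_q ⊗ K`, `semiLocalBall K q m = q ^ m · R_q`.
* `tmul_mem_ball` : `‖c‖ ≤ q ^ (-m)`, `z ∈ 𝓞 K` ⟹ `c ⊗ z ∈ q ^ m · R_q`;
* the balls are additive subgroups, stable under multiplication by `R_q`.
-/

set_option autoImplicit false

open NumberField TensorProduct

noncomputable section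

namespace Fermat.Agent.S55.CFT.H20

open Fermat.Agent.S55.CFT Fermat.Agent.S55.CFT.H12

variable {K : Type} [Field K] [NumberField K] (q : Nat.Primes)

instance instFactPrimes : Fact ((q : ℕ).Prime) := fact_primes q

theorem qNorm_def (c : Qp q) : qNorm q c = ‖(c : ℚ_[(q : ℕ)])‖ := rfl

theorem natCast_semiLocal (n : ℕ) :
    ((n : ℕ) : SemiLocal K q) = ((n : ℕ) : Qp q) ⊗ₜ[ℚ] (1 : K) := by
  rw [← map_natCast (algebraMap (Qp q) (SemiLocal K q))]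
  rfl

theorem natCast_pow_semiLocal (n m : ℕ) :
    ((n : ℕ) : SemiLocal K q) ^ m = (((n : ℕ) : Qp q) ^ m) ⊗ₜ[ℚ] (1 : K) := by
  rw [natCast_semiLocal, Algebra.TensorProduct.tmul_pow, one_pow]

theorem tmul_mem_semiLocalInt {c : Qp q} (hc : qNorm q c ≤ 1) (z : 𝓞 K) :
    c ⊗ₜ[ℚ] (z : K) ∈ semiLocalInt K q :=
  Subring.subset_closure ⟨c, z, hc, rfl⟩

theorem qNorm_q : qNorm q ((q : ℕ) : Qp q) = ((q : ℕ) : ℝ)⁻¹ := Padic.norm_p

theorem q_pos : (0 : ℝ) < ((q : ℕ) : ℝ) := by exact_mod_cast q.2.pos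

theorem q_ne_zero : ((q : ℕ) : Qp q) ≠ 0 := by
  intro h
  have := qNorm_q q
  rw [h, qNorm_def, norm_zero] at this
  exact (inv_pos.mpr (q_pos q)).ne this

/-- `‖c‖ ≤ q ^ (-m)`, `z ∈ 𝓞 K` ⟹ `c ⊗ z ∈ q ^ m · R_q`. -/
theorem tmul_mem_ball {c : Qp q} {m : ℕ} (hc : qNorm q c ≤ ((q : ℕ) : ℝ) ^ (-(m : ℤ)))
    (z : 𝓞 K) : c ⊗ₜ[ℚ] (z : K) ∈ semiLocalBall K q m := by
  have hq0 := q_ne_zero q
  have hqm : (((q : ℕ) : Qp q) ^ m) ≠ 0 := pow_ne_zero _ hq0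
  refine ⟨(c / ((q : ℕ) : Qp q) ^ m) ⊗ₜ[ℚ] (z : K), tmul_mem_semiLocalInt q ?_ z, ?_⟩
  · rw [qNorm_def, norm_div, norm_pow]
    have h1 : ‖(((q : ℕ) : Qp q) : ℚ_[(q : ℕ)])‖ = ((q : ℕ) : ℝ)⁻¹ := Padic.norm_p
    rw [h1, inv_pow, div_inv_eq_mul]
    have h2 : ((q : ℕ) : ℝ) ^ (-(m : ℤ)) * ((q : ℕ) : ℝ) ^ m = 1 := by
      rw [zpow_neg, zpow_natCast, inv_mul_cancel₀ (pow_ne_zero _ (q_pos q).ne')]
    calc ‖(c : ℚ_[(q : ℕ)])‖ * ((q : ℕ) : ℝ) ^ m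
        ≤ ((q : ℕ) : ℝ) ^ (-(m : ℤ)) * ((q : ℕ) : ℝ) ^ m :=
          mul_le_mul_of_nonneg_right hc (pow_nonneg (q_pos q).le _)
      _ = 1 := h2
  · rw [natCast_pow_semiLocal, Algebra.TensorProduct.tmul_mul_tmul, one_mul,
      mul_div_cancel₀ _ hqm]

theorem zero_mem_ball (m : ℕ) : (0 : SemiLocal K q) ∈ semiLocalBall K q m :=
  ⟨0, Subring.zero_mem _, by simp⟩

theorem add_mem_ball {m : ℕ} {x y : SemiLocal K q} (hx : x ∈ semiLocalBall K q m)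
    (hy : y ∈ semiLocalBall K q m) : x + y ∈ semiLocalBall K q m := by
  obtain ⟨r, hr, rfl⟩ := hx
  obtain ⟨s, hs, rfl⟩ := hy
  exact ⟨r + s, Subring.add_mem _ hr hs, by ring⟩

theorem neg_mem_ball {m : ℕ} {x : SemiLocal K q} (hx : x ∈ semiLocalBall K q m) :
    -x ∈ semiLocalBall K q m := by
  obtain ⟨r, hr, rfl⟩ := hx
  exact ⟨-r, Subring.neg_mem _ hr, by ring⟩

theorem sub_mem_ball {m : ℕ} {x y : SemiLocal K q} (hx : x ∈ semiLocalBall K q m)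
    (hy : y ∈ semiLocalBall K q m) : x - y ∈ semiLocalBall K q m := by
  rw [sub_eq_add_neg]
  exact add_mem_ball q hx (neg_mem_ball q hy)

theorem mul_mem_ball {m : ℕ} {x r : SemiLocal K q} (hx : x ∈ semiLocalBall K q m)
    (hr : r ∈ semiLocalInt K q) : x * r ∈ semiLocalBall K q m := by
  obtain ⟨s, hs, rfl⟩ := hx
  exact ⟨s * r, Subring.mul_mem _ hs hr, by ring⟩

theorem ball_mul_ball {m n : ℕ} {x y : SemiLocal K q} (hx : x ∈ semiLocalBall K q m)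
    (hy : y ∈ semiLocalBall K q n) : x * y ∈ semiLocalBall K q (m + n) := by
  obtain ⟨r, hr, rfl⟩ := hx
  obtain ⟨s, hs, rfl⟩ := hy
  exact ⟨r * s, Subring.mul_mem _ hr hs, by ring⟩

theorem ball_mono {m n : ℕ} (h : m ≤ n) {x : SemiLocal K q} (hx : x ∈ semiLocalBall K q n) :
    x ∈ semiLocalBall K q m := by
  obtain ⟨r, hr, rfl⟩ := hx
  obtain ⟨d, rfl⟩ := Nat.exists_eq_add_of_le h
  refine ⟨((q : ℕ) : SemiLocal K q) ^ d * r, Subring.mul_mem _ ?_ hr, by ring⟩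
  exact Subring.pow_mem _ (natCast_mem _ _) _

theorem mem_ball_zero_iff {x : SemiLocal K q} : x ∈ semiLocalBall K q 0 ↔ x ∈ semiLocalInt K q := by
  constructor
  · rintro ⟨r, hr, rfl⟩
    simpa using hr
  · intro h
    exact ⟨x, h, by simp⟩

end Fermat.Agent.S55.CFT.H20
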