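import Fermat.Agent.S55.CFT.Defs_BR3
import Fermat.Agent.S55.CFT.H72_LocInfImage
import Fermat.Agent.S55.CFT.H72_InfResL

/-!
# S55/E4 wave 3, leaf LSP (helper20): a local class of order `p` is split by a local degree
divisible by `p`

`stmt_LocSplit_of : Stmt_SHL → Stmt_InfJvInj → Stmt_LocSplit`.

Route: `X = H²(Gal(N/K), (K_v ⊗ N)ˣ)` is finite cyclic (SHL); the inflation from `L` is injective
(InfJvInj) with source of order `d` = the local degree of `L/K` at `v`, divisible by `p`; so the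
local component `b` of `x` (killed by `p`) is an inflation `inf b'`.  On cocycles: the restriction
to `Gal(N/L)` of an inflated cocycle is constant, with value fixed by `Gal(N/L)`, hence a
coboundary; and the `u`-component of `res x` is the image of `res (loc_v x)` under the projection
`K_v ⊗_K N → L_u ⊗_L N`.
-/

set_option autoImplicit false
set_option linter.unusedSectionVars false

open NumberField TensorProduct CategoryTheory

noncomputable section

namespace Fermat.Agent.S55.CFT.H20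

open CategoryTheory groupCohomology Rep

section tower

variable (K L N : Type) [Field K] [Field L] [Field N] [NumberField K] [NumberField L]
  [NumberField N] [Algebra K L] [Algebra K N] [Algebra L N] [IsScalarTower K L N]

/-- `𝔪_v (ℚ_q ⊗ N) ⊆ 𝔪_u (ℚ_q ⊗ N)` for `u ∣ v`. -/
lemma placeIdeal_le_of_over (q : Nat.Primes) (v : MaximalSpectrum (SemiLocal K q))
    (u : MaximalSpectrum (SemiLocal L q))
    (huv : u.asIdeal.comap (semiLocalMap K L q) = v.asIdeal) :
    placeIdeal K N ⟨q, v⟩ ≤ placeIdeal L N ⟨q, u⟩ := by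
  unfold placeIdeal
  rw [Ideal.map_le_iff_le_comap]
  intro x hx
  rw [Ideal.mem_comap]
  have h1 : semiLocalMap K N q x = semiLocalMap L N q (semiLocalMap K L q x) :=
    (semiLocalMap_comp K L N q x).symm
  change semiLocalMap K N q x ∈ _
  rw [h1]
  apply Ideal.mem_map_of_mem
  have h2 : x ∈ u.asIdeal.comap (semiLocalMap K L q) := by
    rw [huv]
    exact hx
  exact h2

/-- The projection `K_v ⊗_K N → L_u ⊗_L N` for `u ∣ v`. -/
def locProj (q : Nat.Primes) (v : MaximalSpectrum (SemiLocal K q))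
    (u : MaximalSpectrum (SemiLocal L q))
    (huv : u.asIdeal.comap (semiLocalMap K L q) = v.asIdeal) :
    LocAlg K N ⟨q, v⟩ →+* LocAlg L N ⟨q, u⟩ :=
  Ideal.Quotient.factor (placeIdeal_le_of_over K L N q v u huv)

lemma locProj_mk (q : Nat.Primes) (v : MaximalSpectrum (SemiLocal K q))
    (u : MaximalSpectrum (SemiLocal L q))
    (huv : u.asIdeal.comap (semiLocalMap K L q) = v.asIdeal) (x : SemiLocal N q) :
    locProj K L N q v u huv (Ideal.Quotient.mk _ x) = Ideal.Quotient.mk _ x := rfl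

lemma semiLocalEquiv_galRes (q : Nat.Primes) (s : N ≃ₐ[L] N) (x : SemiLocal N q) :
    semiLocalEquiv K N q (galRes K L N s) x = semiLocalEquiv L N q s x := by
  induction x using TensorProduct.induction_on with
  | zero => simp
  | tmul a b => simp
  | add a b ha hb => simp only [map_add, ha, hb]

/-- The projection is `Gal(N/L)`-equivariant. -/
lemma locProj_smul (q : Nat.Primes) (v : MaximalSpectrum (SemiLocal K q))
    (u : MaximalSpectrum (SemiLocal L q))
    (huv : u.asIdeal.comap (semiLocalMap K L q) = v.asIdeal) (s : N ≃ₐ[L] N)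
    (z : LocAlg K N ⟨q, v⟩) :
    locProj K L N q v u huv (locAlgMap K N ⟨q, v⟩ (galRes K L N s) z) =
      locAlgMap L N ⟨q, u⟩ s (locProj K L N q v u huv z) := by
  obtain ⟨y, rfl⟩ := Ideal.Quotient.mk_surjective z
  rw [locAlgMap_mk, locProj_mk, locProj_mk, locAlgMap_mk, semiLocalEquiv_galRes]

/-- The projection on units. -/
def locProjU (q : Nat.Primes) (v : MaximalSpectrum (SemiLocal K q))
    (u : MaximalSpectrum (SemiLocal L q))
    (huv : u.asIdeal.comap (semiLocalMap K L q) = v.asIdeal) :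
    (LocAlg K N ⟨q, v⟩)ˣ →* (LocAlg L N ⟨q, u⟩)ˣ :=
  Units.map (locProj K L N q v u huv : LocAlg K N ⟨q, v⟩ →* LocAlg L N ⟨q, u⟩)

lemma locProjU_smul (q : Nat.Primes) (v : MaximalSpectrum (SemiLocal K q))
    (u : MaximalSpectrum (SemiLocal L q))
    (huv : u.asIdeal.comap (semiLocalMap K L q) = v.asIdeal) (s : N ≃ₐ[L] N)
    (z : (LocAlg K N ⟨q, v⟩)ˣ) :
    locProjU K L N q v u huv
        (Units.map (locAlgMap K N ⟨q, v⟩ (galRes K L N s) :
          LocAlg K N ⟨q, v⟩ →* LocAlg K N ⟨q, v⟩) z) =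
      Units.map (locAlgMap L N ⟨q, u⟩ s : LocAlg L N ⟨q, u⟩ →* LocAlg L N ⟨q, u⟩)
        (locProjU K L N q v u huv z) :=
  Units.ext (locProj_smul K L N q v u huv s (z : LocAlg K N ⟨q, v⟩))

lemma locProjU_locHom (q : Nat.Primes) (v : MaximalSpectrum (SemiLocal K q))
    (u : MaximalSpectrum (SemiLocal L q))
    (huv : u.asIdeal.comap (semiLocalMap K L q) = v.asIdeal) (a : Nˣ) :
    locProjU K L N q v u huv (locHom K N ⟨q, v⟩ a) = locHom L N ⟨q, u⟩ a :=
  Units.ext rfl

variable [Normal K L]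

/-- Elements coming from `K_v ⊗_K L` are fixed by `Gal(N/L)`. -/
lemma galRes_smul_locAlgTower (v : Place K) (s : N ≃ₐ[L] N) (a : (LocAlg K L v)ˣ) :
    galRes K L N s • Units.map (locAlgTower K L N v : LocAlg K L v →* LocAlg K N v) a =
      Units.map (locAlgTower K L N v : LocAlg K L v →* LocAlg K N v) a := by
  apply Units.ext
  have h := locAlgTower_smul K L N v (galRes K L N s) (a : LocAlg K L v)
  have h1 : AlgEquiv.restrictNormalHom (F := K) (K₁ := N) L (galRes K L N s) = 1 :=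
    H72.restrictNormalHom_restrictScalars K L N s
  rw [h1, one_smul] at h
  exact h.symm

/-- The projection on units, additively. -/
def locProjA (q : Nat.Primes) (v : MaximalSpectrum (SemiLocal K q))
    (u : MaximalSpectrum (SemiLocal L q))
    (huv : u.asIdeal.comap (semiLocalMap K L q) = v.asIdeal) :
    (repJv K N ⟨q, v⟩) →+ (repJv L N ⟨q, u⟩) :=
  (locProjU K L N q v u huv).toAdditive

lemma locProjA_rho (q : Nat.Primes) (v : MaximalSpectrum (SemiLocal K q))
    (u : MaximalSpectrum (SemiLocal L q))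
    (huv : u.asIdeal.comap (semiLocalMap K L q) = v.asIdeal) (s : N ≃ₐ[L] N)
    (w : repJv K N ⟨q, v⟩) :
    locProjA K L N q v u huv ((repJv K N ⟨q, v⟩).ρ (galRes K L N s) w) =
      (repJv L N ⟨q, u⟩).ρ s (locProjA K L N q v u huv w) :=
  congrArg Additive.ofMul (locProjU_smul K L N q v u huv s (Additive.toMul w))

lemma locProjA_loc (q : Nat.Primes) (v : MaximalSpectrum (SemiLocal K q))
    (u : MaximalSpectrum (SemiLocal L q))
    (huv : u.asIdeal.comap (semiLocalMap K L q) = v.asIdeal) (a : repL K N) :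
    locProjA K L N q v u huv ((locRep K N ⟨q, v⟩).hom a) =
      (locRep L N ⟨q, u⟩).hom ((resRepL K L N).hom a) :=
  congrArg Additive.ofMul (locProjU_locHom K L N q v u huv (Additive.toMul a))

lemma rho_galRes_inf (v : Place K) (s : N ≃ₐ[L] N) (a : repJv K L v) :
    (repJv K N v).ρ (galRes K L N s) ((infRepJv K L N v).hom a) = (infRepJv K L N v).hom a :=
  congrArg Additive.ofMul (galRes_smul_locAlgTower K L N v s (Additive.toMul a))

lemma aux_abel2 {X : Type} [AddCommGroup X] (Pa R A B C Lf : X)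
    (h : A - B + C = Pa - Lf) (hR : R = Pa) :
    (R - A) - (Pa - B) + (Pa - C) = Lf := by
  rw [hR]
  have : Lf = Pa - (A - B + C) := by rw [h]; abel
  rw [this]
  abel

theorem locMap_eq_map (v : Place K) :
    locMap K N v 2 = (groupCohomology.map (MonoidHom.id (N ≃ₐ[K] N)) (locRep K N v) 2).hom := rfl

theorem locMap_H2π (v : Place K) (f : cocycles₂ (repL K N)) :
    locMap K N v 2 (H2π (repL K N) f) =
      H2π (repJv K N v) (mapCocycles₂ (MonoidHom.id (N ≃ₐ[K] N)) (locRep K N v) f) := by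
  rw [locMap_eq_map]
  exact H2π_comp_map_apply (A := repL K N) (B := repJv K N v) (MonoidHom.id (N ≃ₐ[K] N))
    (locRep K N v) f

/-- The cocycle-level core of LSP. -/
theorem locSplit_core (q : Nat.Primes) (v : MaximalSpectrum (SemiLocal K q))
    (u : MaximalSpectrum (SemiLocal L q))
    (huv : u.asIdeal.comap (semiLocalMap K L q) = v.asIdeal)
    (x : groupCohomology (repL K N) 2) (b' : groupCohomology (repJv K L ⟨q, v⟩) 2)
    (h : infJv K L N ⟨q, v⟩ 2 b' = locMap K N ⟨q, v⟩ 2 x) :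
    locMap L N ⟨q, u⟩ 2 (resL K L N 2 x) = 0 := by
  classical
  induction x using H2_induction_on with | @h f =>
  induction b' using H2_induction_on with | @h c =>
  let π : (N ≃ₐ[K] N) →* (L ≃ₐ[K] L) := AlgEquiv.restrictNormalHom (F := K) (K₁ := N) L
  have e1 : infJv K L N ⟨q, v⟩ 2 (H2π _ c) =
      H2π _ (mapCocycles₂ π (infRepJv K L N ⟨q, v⟩) c) :=
    H2π_comp_map_apply (A := repJv K L ⟨q, v⟩) (B := repJv K N ⟨q, v⟩) π
      (infRepJv K L N ⟨q, v⟩) c
  have e2 : locMap K N ⟨q, v⟩ 2 (H2π _ f) =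
      H2π _ (mapCocycles₂ (MonoidHom.id _) (locRep K N ⟨q, v⟩) f) :=
    locMap_H2π K N ⟨q, v⟩ f
  rw [e1, e2, H2π_eq_iff] at h
  obtain ⟨y, hy⟩ := h
  have hy' : ∀ g g' : N ≃ₐ[K] N,
      (repJv K N ⟨q, v⟩).ρ g (y g') - y (g * g') + y g =
        (infRepJv K L N ⟨q, v⟩).hom (c (π g, π g')) - (locRep K N ⟨q, v⟩).hom (f (g, g')) :=
    fun g g' => congrFun hy (g, g')
  have e3 : resL K L N 2 (H2π _ f) =
      H2π _ (mapCocycles₂ (galRes K L N) (resRepL K L N) f) :=
    H2π_comp_map_apply (A := repL K N) (B := repL L N) (galRes K L N) (resRepL K L N) f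
  rw [e3]
  have e4 : locMap L N ⟨q, u⟩ 2
      (H2π _ (mapCocycles₂ (galRes K L N) (resRepL K L N) f)) =
      H2π _ (mapCocycles₂ (MonoidHom.id _) (locRep L N ⟨q, u⟩)
        (mapCocycles₂ (galRes K L N) (resRepL K L N) f)) :=
    locMap_H2π L N ⟨q, u⟩ _
  rw [e4, H2π_eq_zero_iff]
  let P := locProjA K L N q v u huv
  let a₀ : repJv K N ⟨q, v⟩ := (infRepJv K L N ⟨q, v⟩).hom (c (1, 1))
  refine ⟨fun s => P a₀ - P (y (galRes K L N s)), ?_⟩
  funext ⟨s, t⟩
  have h1 := hy' (galRes K L N s) (galRes K L N t)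
  have hπs : π (galRes K L N s) = 1 := H72.restrictNormalHom_restrictScalars K L N s
  have hπt : π (galRes K L N t) = 1 := H72.restrictNormalHom_restrictScalars K L N t
  rw [hπs, hπt] at h1
  have h2 := congrArg P h1
  rw [map_sub, map_add, map_sub, locProjA_rho, locProjA_loc, ← map_mul] at h2
  have h3 : (repJv L N ⟨q, u⟩).ρ s (P a₀) = P a₀ := by
    rw [← locProjA_rho, rho_galRes_inf]
  show (repJv L N ⟨q, u⟩).ρ s (P a₀ - P (y (galRes K L N t)))
      - (P a₀ - P (y (galRes K L N (s * t)))) + (P a₀ - P (y (galRes K L N s))) = _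
  rw [map_sub]
  exact aux_abel2 _ _ _ _ _ _ h2 h3

end tower

/-- **LSP**: a local class killed by `p` dies under restriction to `L ⊆ N` when `p` divides the
local degree of `L/K` at `v`. -/
theorem stmt_LocSplit_of (hS : Stmt_SHL) (hI : Stmt_InfJvInj) : Stmt_LocSplit := by
  intro p m K L N _ _ _ _ _ _ _ _ _ _ hyp hKL q v u huv hdiv x hx
  have hN : IsGalois K N := hyp.gal
  have hnormal : Normal K L := hKL.to_normal
  obtain ⟨-, hfinX, -, hcycX, -⟩ := hS p m K N hyp ⟨q, v⟩
  -- `Hyp3` for `L`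
  have hdvd : Module.finrank K L ∣ p ^ m := by
    rw [← hyp.deg, ← Module.finrank_mul_finrank K L N]
    exact dvd_mul_right _ _
  obtain ⟨m', -, hm'⟩ := (Nat.dvd_prime_pow hyp.prime).1 hdvd
  have hyp' : Hyp3 K L p m' := ⟨hyp.prime, hyp.odd, hyp.zeta, hKL, hm'⟩
  obtain ⟨-, hfinY, hcardY, -, -⟩ := hS p m' K L hyp' ⟨q, v⟩
  -- `p` divides the order of `H²` at `L`
  have hpos : 0 < Module.finrank K L := Module.finrank_pos
  have hg0 : Nat.card (MaximalSpectrum (LocAlg K L ⟨q, v⟩)) ≠ 0 := by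
    intro h0
    rw [h0, mul_zero] at hcardY
    exact hpos.ne hcardY
  have hpd : p ∣ Nat.card (groupCohomology (repJv K L ⟨q, v⟩) 2) := by
    rw [← hcardY] at hdiv
    exact Nat.dvd_of_mul_dvd_mul_right (Nat.pos_of_ne_zero hg0) hdiv
  have hkill : Nat.card (groupCohomology (repJv K L ⟨q, v⟩) 2) • locMap K N ⟨q, v⟩ 2 x = 0 := by
    obtain ⟨e, he⟩ := hpd
    rw [he, mul_comm, mul_smul, hx, smul_zero]
  obtain ⟨b', hb'⟩ := H72.mem_range_of_card_nsmul_eq_zero hcycX
    (infJv K L N ⟨q, v⟩ 2).toAddMonoidHom (hI K L N hKL hN ⟨q, v⟩) _ hkill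
  exact locSplit_core K L N q v u huv x b' hb'

end Fermat.Agent.S55.CFT.H20
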