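import Fermat.Agent.S55.CFT.H20_Ball

/-!
# S55 / E4 / CFT, leaf SI-b (helper20): rational approximation

`exists_rat_approx`: for `q0 ∈ T`, `c ∈ ℚ_{q0}`, `m`, there are `b : ℤ`, `k` with
`|b / P ^ k - c|_{q0} ≤ q0 ^ (-m)` and `|b / P ^ k|_q ≤ q ^ (-m)` for the other `q ∈ T`
(`P = prodT T`).
-/

set_option autoImplicit false

open NumberField TensorProduct

noncomputable section

namespace Fermat.Agent.S55.CFT.H20

open Fermat.Agent.S55.CFT Fermat.Agent.S55.CFT.H12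

/-- Integer approximation of a `p`-adic integer, with a divisibility condition prime to `p`. -/
theorem exists_int_approx (p : ℕ) [hp : Fact p.Prime] (Q : ℕ) (hQ : Nat.Coprime p Q) (c : ℚ_[p])
    (hc : ‖c‖ ≤ 1) (M : ℕ) :
    ∃ b : ℤ, ‖(b : ℚ_[p]) - c‖ ≤ (p : ℝ) ^ (-(M : ℤ)) ∧ ((Q : ℤ) ^ M) ∣ b := by
  set c1 : ℤ_[p] := ⟨c, hc⟩ with hc1
  set n : ℕ := PadicInt.appr c1 M with hn
  have h1 : ‖c1 - (n : ℤ_[p])‖ ≤ (p : ℝ) ^ (-(M : ℤ)) :=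
    (PadicInt.norm_le_pow_iff_mem_span_pow _ _).mpr (PadicInt.appr_spec M c1)
  have h1' : ‖c - (n : ℚ_[p])‖ ≤ (p : ℝ) ^ (-(M : ℤ)) := by
    have : ((c1 - (n : ℤ_[p]) : ℤ_[p]) : ℚ_[p]) = c - (n : ℚ_[p]) := by
      rw [PadicInt.coe_sub, PadicInt.coe_natCast]
    rw [← this]
    exact h1
  have hcop : IsCoprime ((p : ℤ) ^ M) ((Q : ℤ) ^ M) :=
    IsCoprime.pow (Nat.isCoprime_iff_coprime.mpr hQ)
  obtain ⟨u, v, huv⟩ := hcop
  refine ⟨n * (v * (Q : ℤ) ^ M), ?_, ⟨n * v, by ring⟩⟩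
  have he : v * (Q : ℤ) ^ M = 1 - u * (p : ℤ) ^ M := by linarith
  rw [he]
  have h2 : ‖(((n : ℤ) * u * (p : ℤ) ^ M : ℤ) : ℚ_[p])‖ ≤ (p : ℝ) ^ (-(M : ℤ)) :=
    (Padic.norm_int_le_pow_iff_dvd _ _).mpr (Dvd.intro_left _ rfl)
  have h3 : (((n : ℤ) * (1 - u * (p : ℤ) ^ M) : ℤ) : ℚ_[p]) - c
      = -(c - (n : ℚ_[p])) + -(((n : ℤ) * u * (p : ℤ) ^ M : ℤ) : ℚ_[p]) := by
    push_cast
    ring
  rw [h3]
  refine (Padic.nonarchimedean _ _).trans (max_le ?_ ?_)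
  · rwa [norm_neg]
  · rwa [norm_neg]

/-- The product of the primes of `T` other than `q`. -/
def prodErase (T : Finset Nat.Primes) (q : Nat.Primes) : ℕ := ∏ q' ∈ T.erase q, (q' : ℕ)

theorem prodT_eq_mul {T : Finset Nat.Primes} {q : Nat.Primes} (hq : q ∈ T) :
    prodT T = (q : ℕ) * prodErase T q := by
  unfold prodT prodErase
  exact (Finset.mul_prod_erase T (fun q' : Nat.Primes => (q' : ℕ)) hq).symm

theorem coprime_prodErase (T : Finset Nat.Primes) (q : Nat.Primes) :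
    Nat.Coprime (q : ℕ) (prodErase T q) := by
  unfold prodErase
  refine Nat.Coprime.prod_right fun q' hq' => ?_
  refine (Nat.coprime_primes q.2 q'.2).mpr fun h => ?_
  exact (Finset.ne_of_mem_erase hq') (Subtype.ext h.symm)

theorem dvd_prodErase {T : Finset Nat.Primes} {q q' : Nat.Primes} (hq' : q' ∈ T) (hne : q' ≠ q) :
    (q' : ℕ) ∣ prodErase T q := by
  unfold prodErase
  exact Finset.dvd_prod_of_mem (fun q' : Nat.Primes => (q' : ℕ)) (Finset.mem_erase.mpr ⟨hne, hq'⟩)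

theorem prodT_pos (T : Finset Nat.Primes) : 0 < prodT T := by
  unfold prodT
  exact Finset.prod_pos fun q _ => q.2.pos

theorem norm_prodT {T : Finset Nat.Primes} {q : Nat.Primes} (hq : q ∈ T) :
    ‖((prodT T : ℕ) : ℚ_[(q : ℕ)])‖ = ((q : ℕ) : ℝ)⁻¹ := by
  rw [prodT_eq_mul hq, Nat.cast_mul, norm_mul, Padic.norm_p,
    Padic.norm_natCast_eq_one_iff.mpr (coprime_prodErase T q), mul_one]

theorem norm_prodT_pow {T : Finset Nat.Primes} {q : Nat.Primes} (hq : q ∈ T) (k : ℕ) :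
    ‖(((prodT T : ℕ) : ℚ_[(q : ℕ)]) ^ k)‖ = ((q : ℕ) : ℝ) ^ (-(k : ℤ)) := by
  rw [norm_pow, norm_prodT hq, inv_pow, zpow_neg, zpow_natCast]

/-- Rational approximation: a `T`-integer close to `c` at `q0` and close to `0` at the other
primes of `T`. -/
theorem exists_rat_approx (T : Finset Nat.Primes) {q0 : Nat.Primes} (hq0 : q0 ∈ T) (c : Qp q0)
    (m : ℕ) :
    ∃ (b : ℤ) (k : ℕ),
      qNorm q0 ((b : Qp q0) / ((prodT T : ℕ) : Qp q0) ^ k - c) ≤ ((q0 : ℕ) : ℝ) ^ (-(m : ℤ)) ∧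
      ∀ q ∈ T, q ≠ q0 →
        qNorm q ((b : Qp q) / ((prodT T : ℕ) : Qp q) ^ k) ≤ ((q : ℕ) : ℝ) ^ (-(m : ℤ)) := by
  have hq1 : (1 : ℝ) < ((q0 : ℕ) : ℝ) := by exact_mod_cast q0.2.one_lt
  obtain ⟨k, hk⟩ := pow_unbounded_of_one_lt ‖(c : ℚ_[(q0 : ℕ)])‖ hq1
  have hPk : ‖(((prodT T : ℕ) : ℚ_[(q0 : ℕ)]) ^ k)‖ = ((q0 : ℕ) : ℝ) ^ (-(k : ℤ)) :=
    norm_prodT_pow hq0 k
  have hPk0 : (((prodT T : ℕ) : ℚ_[(q0 : ℕ)]) ^ k) ≠ 0 := by
    intro h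
    rw [h, norm_zero] at hPk
    exact (zpow_pos (q_pos q0) _).ne hPk
  have hc1 : ‖((prodT T : ℕ) : ℚ_[(q0 : ℕ)]) ^ k * c‖ ≤ 1 := by
    rw [norm_mul, hPk, zpow_neg, zpow_natCast]
    rw [inv_mul_le_iff₀ (pow_pos (q_pos q0) _), mul_one]
    exact hk.le
  obtain ⟨b, hb1, hb2⟩ := exists_int_approx (q0 : ℕ) (prodErase T q0) (coprime_prodErase T q0)
    (((prodT T : ℕ) : ℚ_[(q0 : ℕ)]) ^ k * c) hc1 (m + k)
  refine ⟨b, k, ?_, ?_⟩
  · rw [qNorm_def]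
    have h1 : (b : ℚ_[(q0 : ℕ)]) / ((prodT T : ℕ) : ℚ_[(q0 : ℕ)]) ^ k - c
        = ((b : ℚ_[(q0 : ℕ)]) - ((prodT T : ℕ) : ℚ_[(q0 : ℕ)]) ^ k * c)
          / ((prodT T : ℕ) : ℚ_[(q0 : ℕ)]) ^ k := by
      field_simp
    rw [h1, norm_div, hPk, div_le_iff₀ (zpow_pos (q_pos q0) _)]
    refine hb1.trans (le_of_eq ?_)
    rw [← zpow_add₀ (q_pos q0).ne']
    congr 1
    push_cast
    ring
  · intro q hq hne
    rw [qNorm_def, norm_div, norm_prodT_pow hq, div_le_iff₀ (zpow_pos (q_pos q) _)]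
    have hdvd : ((q : ℕ) : ℤ) ^ (m + k) ∣ b := by
      refine dvd_trans (pow_dvd_pow_of_dvd ?_ _) hb2
      exact_mod_cast dvd_prodErase hq hne
    have := (Padic.norm_int_le_pow_iff_dvd (p := (q : ℕ)) b (m + k)).mpr hdvd
    refine this.trans (le_of_eq ?_)
    rw [← zpow_add₀ (q_pos q).ne']
    congr 1
    push_cast
    ring

end Fermat.Agent.S55.CFT.H20
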