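/-
S55/E4, island GLB, package TH-2 (helper25), part 2: the product formula over `ℚ_q`:
for `K/ℚ` Galois, `N_{(ℚ_q ⊗ K)/ℚ_q} y = ∏_{σ ∈ Gal(K/ℚ)} σ y`.
-/
import Fermat.Agent.S55.CFT.H12_Descent

set_option autoImplicit false
set_option linter.unusedSectionVars false
set_option linter.style.haveILetI false

namespace Fermat.Agent.S55.CFT.H25

open Fermat.Agent.S55.CFT NumberField Module TensorProduct

variable (K : Type) [Field K] [NumberField K] (q : Nat.Primes)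

/-- The product formula over `ℚ_q`. -/
theorem algebraMap_norm_eq_prod [IsGalois ℚ K] (y : SemiLocal K q) :
    algebraMap (Qp q) (SemiLocal K q) (Algebra.norm (Qp q) y) =
      ∏ σ : K ≃ₐ[ℚ] K, semiLocalEquiv ℚ K q σ y := by
  classical
  obtain ⟨b⟩ := H12.exists_basis_gal ℚ K
  let β : Basis (K ≃ₐ[ℚ] K) (Qp q) (SemiLocal K q) := Algebra.TensorProduct.basis (Qp q) b
  have hβ : ∀ τ, β τ = (1 : Qp q) ⊗ₜ[ℚ] b τ := fun τ => Algebra.TensorProduct.basis_apply b τ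
  have hdet : IsUnit (Matrix.det (Matrix.of fun (σ τ : K ≃ₐ[ℚ] K) =>
      ((semiLocalEquiv ℚ K q σ : SemiLocal K q →+* SemiLocal K q)) (β τ))) := by
    have h1 : (Matrix.of fun (σ τ : K ≃ₐ[ℚ] K) =>
        ((semiLocalEquiv ℚ K q σ : SemiLocal K q →+* SemiLocal K q)) (β τ)) =
        (Algebra.TensorProduct.includeRight : K →ₐ[ℚ] SemiLocal K q).toRingHom.mapMatrix
          (Matrix.of fun (σ τ : K ≃ₐ[ℚ] K) => σ (b τ)) := by
      ext σ τ
      simp only [Matrix.of_apply, RingHom.mapMatrix_apply, Matrix.map_apply]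
      rw [hβ]
      change semiLocalEquiv ℚ K q σ ((1 : Qp q) ⊗ₜ[ℚ] b τ) = (1 : Qp q) ⊗ₜ[ℚ] σ (b τ)
      rw [semiLocalEquiv_tmul]
    rw [h1, ← RingHom.map_det]
    exact (IsUnit.mk0 _ (H12.det_conj_ne_zero b)).map _
  exact H12.algebraMap_norm_eq_prod_of_conj β
    (fun σ => (semiLocalEquiv ℚ K q σ : SemiLocal K q →+* SemiLocal K q))
    (fun σ a => (semiLocalEquiv ℚ K q σ).commutes a) hdet y

end Fermat.Agent.S55.CFT.H25
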