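/-
S55/E4, island GLB, package TH-2 (helper25), part 1: the abstract local statement at `q ≠ p`.

`B` a finite free `ℚ_q`-algebra with a finite group `G` of automorphisms satisfying the product
formula `N_{B/ℚ_q} y = ∏_σ σ y`, `λ : B → E` into an unramified extension `E` of `ℚ_q`,
`τ ∈ Aut(E/ℚ_q)` and `s ∈ G` with `λ ∘ (σ s) = τ ∘ λ ∘ σ`.  Then the order of `s` divides the
valuation of the norm of every unit of `B`.
-/
import Fermat.Agent.S55.CFT.LOC.H25_Frob

set_option autoImplicit false
set_option linter.unusedSectionVars false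
set_option linter.style.haveILetI false

namespace Fermat.Agent.S55.CFT.H25

open Fermat.Agent.S55.CFT.LOC Fermat.Agent.S55.CFT.LOC.H25

section orbit

variable {G : Type*} [Group G] [Fintype G]

/-- A function on a finite group which is invariant under right multiplication by `s` has a sum
divisible by the order of `s`. -/
theorem orderOf_dvd_sum (s : G) (k : G → ℤ) (hk : ∀ σ, k (σ * s) = k σ) :
    (orderOf s : ℤ) ∣ ∑ σ, k σ := by
  classical
  let H : Subgroup G := Subgroup.zpowers s
  have hkz : ∀ (j : ℤ) (σ : G), k (σ * s ^ j) = k σ := by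
    intro j
    induction j using Int.induction_on with
    | zero => intro σ; simp
    | succ j ih =>
      intro σ
      rw [zpow_add, zpow_one, ← mul_assoc, hk, ih]
    | pred j ih =>
      intro σ
      rw [zpow_sub, zpow_one, ← mul_assoc]
      have := hk (σ * s ^ (-(j : ℤ)) * s⁻¹)
      rw [inv_mul_cancel_right] at this
      rw [← this, ih]
  have hkH : ∀ σ : G, ∀ h ∈ H, k (σ * h) = k σ := by
    intro σ h hh
    obtain ⟨j, rfl⟩ := Subgroup.mem_zpowers_iff.mp hh
    exact hkz j σ
  let e : (G ⧸ H) × H → G := fun x => Quotient.out x.1 * (x.2 : G)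
  have hmk : ∀ x : (G ⧸ H) × H, ((e x : G) : G ⧸ H) = x.1 := by
    intro x
    have h1 : ((Quotient.out x.1 * (x.2 : G) : G) : G ⧸ H) = ((Quotient.out x.1 : G) : G ⧸ H) := by
      rw [QuotientGroup.eq]
      simp
    change ((Quotient.out x.1 * (x.2 : G) : G) : G ⧸ H) = x.1
    rw [h1]
    exact Quotient.out_eq' x.1
  have hinj : Function.Injective e := by
    intro x y hxy
    have h1 : x.1 = y.1 := by rw [← hmk x, ← hmk y, hxy]
    have h2 : (x.2 : G) = y.2 := by
      have : Quotient.out x.1 * (x.2 : G) = Quotient.out y.1 * (y.2 : G) := hxy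
      rw [h1] at this
      exact mul_left_cancel this
    exact Prod.ext h1 (Subtype.ext h2)
  have hcard : Fintype.card ((G ⧸ H) × H) = Fintype.card G := by
    rw [Fintype.card_prod, ← Nat.card_eq_fintype_card, ← Nat.card_eq_fintype_card,
      ← Nat.card_eq_fintype_card]
    exact (Subgroup.card_eq_card_quotient_mul_card_subgroup H).symm
  have hbij : Function.Bijective e :=
    (Fintype.bijective_iff_injective_and_card e).mpr ⟨hinj, hcard⟩
  have hsum : ∑ σ, k σ = ∑ x : (G ⧸ H) × H, k (e x) :=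
    (Fintype.sum_bijective e hbij _ _ (fun _ => rfl)).symm
  rw [hsum, Fintype.sum_prod_type]
  have h3 : ∀ c : G ⧸ H, ∑ h : H, k (e (c, h)) = (orderOf s : ℤ) * k (Quotient.out c) := by
    intro c
    have : ∀ h : H, k (e (c, h)) = k (Quotient.out c) := fun h => hkH _ _ h.2
    rw [Finset.sum_congr rfl (fun h _ => this h), Finset.sum_const, Finset.card_univ,
      Fintype.card_zpowers, nsmul_eq_mul]
  rw [Finset.sum_congr rfl (fun c _ => h3 c), ← Finset.mul_sum]
  exact dvd_mul_right _ _

end orbit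

section local_q

variable (q : ℕ) [Fact q.Prime] (E : Type) [Field E] [Algebra ℚ_[q] E]
  [FiniteDimensional ℚ_[q] E]

variable {B : Type*} [CommRing B] [Algebra ℚ_[q] B]
  {G : Type*} [Group G] [Fintype G] (φ : G → (B →+* B))
  (hprod : ∀ y : B, algebraMap ℚ_[q] B (Algebra.norm ℚ_[q] y) = ∏ σ, φ σ y)
  (lam : B →ₐ[ℚ_[q]] E) (τ : E ≃ₐ[ℚ_[q]] E) (s : G)
  (hinv : ∀ σ y, lam (φ (σ * s) y) = τ (lam (φ σ y)))
  (hunr : IsUnram q ℚ_[q] E)

include hprod hinv hunr in
/-- The abstract local statement at `q ≠ p`. -/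
theorem orderOf_dvd_valuation_norm (y : B) (hy : IsUnit y) :
    (orderOf s : ℤ) ∣ Padic.valuation (Algebra.norm ℚ_[q] y) := by
  classical
  have hq1 : (1 : ℝ) < q := by exact_mod_cast (Fact.out : q.Prime).one_lt
  have hq0 : (0 : ℝ) < q := by linarith
  -- the values
  have hval : ∀ σ : G, ∃ k : ℤ, nrm q E (lam (φ σ y)) = (q : ℝ) ^ (-k) := by
    intro σ
    have hu : IsUnit (lam (φ σ y)) := (hy.map (φ σ)).map lam
    obtain ⟨x, hx⟩ := hunr (lam (φ σ y))
    have hx0 : x ≠ 0 := by
      rintro rfl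
      rw [nrm_zero] at hx
      exact hu.ne_zero ((nrm_eq_zero_iff q E).mp hx)
    refine ⟨Padic.valuation x, ?_⟩
    rw [hx, nrm_padic, Padic.norm_eq_zpow_neg_valuation hx0]
  choose k hk using hval
  have hkinv : ∀ σ, k (σ * s) = k σ := by
    intro σ
    have h1 : nrm q E (lam (φ (σ * s) y)) = nrm q E (lam (φ σ y)) := by
      rw [hinv]
      exact (spectralNorm_eq_of_equiv τ _).symm
    rw [hk, hk] at h1
    have := (zpow_right_inj₀ hq0 hq1.ne').mp h1
    omega
  have hdvd := orderOf_dvd_sum s k hkinv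
  -- the norm
  have hN0 : Algebra.norm ℚ_[q] y ≠ 0 := (hy.map (Algebra.norm ℚ_[q])).ne_zero
  have h2 : ‖Algebra.norm ℚ_[q] y‖ = (q : ℝ) ^ (-∑ σ, k σ) := by
    rw [← nrm_padic, ← nrm_algebraMap q ℚ_[q] E]
    have h3 : algebraMap ℚ_[q] E (Algebra.norm ℚ_[q] y) = ∏ σ, lam (φ σ y) := by
      rw [← lam.commutes, hprod, map_prod]
    rw [h3]
    have h4 : ∀ t : Finset G, nrm q E (∏ σ ∈ t, lam (φ σ y)) = (q : ℝ) ^ (-∑ σ ∈ t, k σ) := by
      intro t
      induction t using Finset.induction_on with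
      | empty => simp
      | insert a t ha ih =>
        rw [Finset.prod_insert ha, Finset.sum_insert ha, nrm_mul, ih, hk, ← zpow_add₀ hq0.ne']
        congr 1
        ring
    exact h4 Finset.univ
  rw [Padic.norm_eq_zpow_neg_valuation hN0] at h2
  have h5 := (zpow_right_inj₀ hq0 hq1.ne').mp h2
  have h6 : Padic.valuation (Algebra.norm ℚ_[q] y) = ∑ σ, k σ := by omega
  rw [h6]
  exact hdvd

end local_q

end Fermat.Agent.S55.CFT.H25
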