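/-
S55/E4, island GLB, package TH-2 (helper25), part 3: the local statement at `q ≠ p` for
`K₀ = ℚ(ζ_{p^M})`: the order of `q` in `(ℤ/p^M)ˣ` divides the valuation of the norm of every
unit of `ℚ_q ⊗ K₀`; hence `θ_q(N u) = 1`.
-/
import Fermat.Agent.S55.CFT.H25_ThetaProd
import Fermat.Agent.S55.CFT.H25_ThetaQ
import Fermat.Agent.S55.CFT.H56_ThetaUnits
import Fermat.Agent.S55.CFT.LOC.H25_UnramCyc

set_option autoImplicit false
set_option linter.unusedSectionVars false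
set_option linter.style.haveILetI false

namespace Fermat.Agent.S55.CFT.H25

open Fermat.Agent.S55.CFT Fermat.Agent.S55.CFT.LOC Fermat.Agent.S55.CFT.LOC.H25
open NumberField TensorProduct Polynomial

section

variable (p q : Nat.Primes) (M : ℕ)

theorem neZero_pow : NeZero ((p : ℕ) ^ M) := ⟨pow_ne_zero _ p.2.ne_zero⟩

theorem coe_primeUnit (hqp : q ≠ p) :
    ((primeUnit p q M hqp : (ZMod ((p : ℕ) ^ M))ˣ) : ZMod ((p : ℕ) ^ M)) =
      ((q : ℕ) : ZMod ((p : ℕ) ^ M)) := rfl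

/-- `q ^ f ≡ 1 mod p ^ M` for `f` the order of `q` in `(ℤ/p^M)ˣ`. -/
theorem pow_dvd_pow_orderOf_sub_one (hqp : q ≠ p) :
    (p : ℕ) ^ M ∣ (q : ℕ) ^ orderOf (primeUnit p q M hqp) - 1 := by
  have h1 : primeUnit p q M hqp ^ orderOf (primeUnit p q M hqp) = 1 := pow_orderOf_eq_one _
  have h2 := congrArg (fun u : (ZMod ((p : ℕ) ^ M))ˣ => (u : ZMod ((p : ℕ) ^ M))) h1
  simp only [Units.val_pow_eq_pow_val, Units.val_one] at h2
  rw [coe_primeUnit, ← Nat.cast_pow, ← Nat.cast_one (R := ZMod ((p : ℕ) ^ M)),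
    ZMod.natCast_eq_natCast_iff] at h2
  have h4 : 1 ≤ (q : ℕ) ^ orderOf (primeUnit p q M hqp) := Nat.one_le_pow _ _ q.2.pos
  exact (Nat.modEq_iff_dvd' h4).mp h2.symm

variable (K₀ : Type) [Field K₀] [NumberField K₀]
  [hcyc : IsCyclotomicExtension {(p : ℕ) ^ M} ℚ K₀]

/-- The local statement at `q ≠ p`, valuation form. -/
theorem orderOf_primeUnit_dvd_valuation (hqp : q ≠ p) (y : SemiLocal K₀ q) (hy : IsUnit y) :
    haveI := fact_primes q
    (orderOf (primeUnit p q M hqp) : ℤ) ∣ Padic.valuation (Algebra.norm (Qp q) y) := by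
  classical
  haveI := fact_primes q
  haveI : NeZero ((p : ℕ) ^ M) := neZero_pow p M
  haveI : IsGalois ℚ K₀ := IsCyclotomicExtension.isGalois {(p : ℕ) ^ M} ℚ K₀
  have hpM : 0 < (p : ℕ) ^ M := pow_pos p.2.pos M
  haveI : Finite (ZMod ((p : ℕ) ^ M))ˣ := inferInstance
  obtain ⟨E, τ, η, hfd, hunr, hη, hτ⟩ := exists_unram_cyc (q : ℕ)
    (f := orderOf (primeUnit p q M hqp)) (orderOf_pos _) (pow_dvd_pow_orderOf_sub_one p q M hqp)
  haveI := hfd
  haveI : CharZero E :=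
    charZero_of_injective_algebraMap (algebraMap ℚ_[(q : ℕ)] E).injective
  -- the embedding of `K₀`
  have hirr : Irreducible (cyclotomic ((p : ℕ) ^ M) ℚ) := cyclotomic.irreducible_rat hpM
  have hζ₀ := IsCyclotomicExtension.zeta_spec ((p : ℕ) ^ M) ℚ K₀
  set ζ₀ := IsCyclotomicExtension.zeta ((p : ℕ) ^ M) ℚ K₀ with hζ₀def
  let ψ : K₀ →ₐ[ℚ] E := (hζ₀.embeddingsEquivPrimitiveRoots E hirr).symm
    ⟨η, (mem_primitiveRoots hpM).mpr hη⟩
  have hψ : ψ ζ₀ = η := by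
    have h1 := (hζ₀.embeddingsEquivPrimitiveRoots E hirr).apply_symm_apply
      ⟨η, (mem_primitiveRoots hpM).mpr hη⟩
    have h2 := congrArg Subtype.val h1
    rwa [IsPrimitiveRoot.embeddingsEquivPrimitiveRoots_apply_coe] at h2
  -- the map `ℚ_q ⊗ K₀ → E`
  let lam : SemiLocal K₀ q →ₐ[Qp q] E :=
    Algebra.TensorProduct.lift (Algebra.ofId (Qp q) E) ψ (fun _ _ => Commute.all _ _)
  have hlam : ∀ (a : Qp q) (k : K₀), lam (a ⊗ₜ[ℚ] k) = algebraMap (Qp q) E a * ψ k := by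
    intro a k
    simp [lam, Algebra.ofId_apply]
  -- the Frobenius of `K₀`
  let χ := IsCyclotomicExtension.autEquivPow K₀ hirr
  let s : K₀ ≃ₐ[ℚ] K₀ := χ.symm (primeUnit p q M hqp)
  have hs_ord : orderOf s = orderOf (primeUnit p q M hqp) := χ.symm.orderOf_eq _
  have hsζ : s ζ₀ = ζ₀ ^ (q : ℕ) := by
    have h1 : χ s = primeUnit p q M hqp := χ.apply_symm_apply _
    have h2 := hζ₀.autToPow_spec ℚ s
    have h3 : hζ₀.autToPow ℚ s = χ s := rfl
    rw [h3, h1, coe_primeUnit, ZMod.val_natCast] at h2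
    rw [← h2]
    have hfin : IsOfFinOrder ζ₀ := isOfFinOrder_iff_pow_eq_one.mpr ⟨_, hpM, hζ₀.pow_eq_one⟩
    rw [hfin.pow_eq_pow_iff_modEq, ← hζ₀.eq_orderOf]
    exact Nat.mod_modEq _ _
  -- compatibility
  have hkey : ∀ (σ : K₀ ≃ₐ[ℚ] K₀) (k : K₀), ψ (σ (s k)) = τ (ψ (σ k)) := by
    intro σ
    have hE : ((ψ.comp (σ : K₀ →ₐ[ℚ] K₀)).comp (s : K₀ →ₐ[ℚ] K₀) : K₀ →+* E) =
        ((τ : E →+* E).comp ((ψ.comp (σ : K₀ →ₐ[ℚ] K₀) : K₀ →ₐ[ℚ] E) : K₀ →+* E)) := by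
      have hA : (ψ.comp (σ : K₀ →ₐ[ℚ] K₀)).comp (s : K₀ →ₐ[ℚ] K₀) =
          ((τ : E →+* E).comp
            ((ψ.comp (σ : K₀ →ₐ[ℚ] K₀) : K₀ →ₐ[ℚ] E) : K₀ →+* E)).toRatAlgHom := by
        apply (hζ₀.powerBasis ℚ).algHom_ext
        rw [hζ₀.powerBasis_gen ℚ]
        change ψ (σ (s ζ₀)) = τ (ψ (σ ζ₀))
        rw [hsζ, map_pow, map_pow]
        refine (hτ _ ?_).symm
        rw [← map_pow, ← map_pow, hζ₀.pow_eq_one, map_one, map_one]
      rw [hA]
      rfl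
    intro k
    exact DFunLike.congr_fun hE k
  have hinv : ∀ σ y, lam (semiLocalEquiv ℚ K₀ q (σ * s) y) =
      τ (lam (semiLocalEquiv ℚ K₀ q σ y)) := by
    intro σ y
    induction y using TensorProduct.induction_on with
    | zero => simp
    | tmul a k =>
      rw [semiLocalEquiv_tmul, semiLocalEquiv_tmul, hlam, hlam, map_mul, AlgEquiv.commutes]
      congr 1
      exact hkey σ k
    | add x y hx hy => simp only [map_add, hx, hy]
  have hmain := orderOf_dvd_valuation_norm (q : ℕ) E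
    (fun σ => ((semiLocalEquiv ℚ K₀ q σ : SemiLocal K₀ q ≃ₐ[Qp q] SemiLocal K₀ q) :
      SemiLocal K₀ q →+* SemiLocal K₀ q))
    (algebraMap_norm_eq_prod K₀ q) lam τ s hinv hunr y hy
  rwa [hs_ord] at hmain

/-- The local statement at `q ≠ p`: `θ_q (N u) = 1`. -/
theorem thetaLoc_norm_of_ne (hqp : q ≠ p) (u : (SemiLocal K₀ q)ˣ) :
    thetaLoc p M q (Units.map (Algebra.norm (Qp q) : SemiLocal K₀ q →* Qp q) u) = 1 := by
  haveI := fact_primes q
  rw [H56.thetaLoc_ne p M q hqp]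
  have h := orderOf_primeUnit_dvd_valuation p q M K₀ hqp (u : SemiLocal K₀ q) u.isUnit
  exact orderOf_dvd_iff_zpow_eq_one.mp h

end
end Fermat.Agent.S55.CFT.H25
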