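import Fermat.Agent.S55.CFT.H31_SIRay
import Fermat.Agent.S55.CFT.H12_SIDefs
import Fermat.Agent.S55.CFT.H56_IdeleBase

/-!
# S55/E4, package SI'' (helper31): openness of the norm group and integral representatives

From helper12's interfaces `H12.Stmt_SemiLocalPow` (SI-a) and `H12.Stmt_WeakApprox` (SI-b):

* `exists_pow_mul_mem`: `ℚ_q ⊗ K = R_q[1/q]` (`R_q = semiLocalInt K q`);
* `exists_ball_le_range`: `U_N = {u : u_q ≡ 1 mod q^N R_q} ⊆ N_{L/K} J_{L,T}` for `N` large;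
* `exists_ray_mem_range` (hd2): the integers `a ≡ 1 mod (∏ T)^N` are norms, diagonally;
* `exists_int_div_mem` (hd3): every class of `J_{K,T}` mod `E_K · N J_L` contains a nonzero
  integer of `K`.
-/

set_option autoImplicit false
set_option linter.unusedSectionVars false

open NumberField Ideal TensorProduct

noncomputable section

namespace Fermat.Agent.S55.CFT.H31

open Fermat.Agent.S55.CFT Fermat.Agent.Lib.SecondIneq

section lattice

variable (K : Type) [Field K] [NumberField K] (q : Nat.Primes)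

lemma tmul_mem_semiLocalInt {c : Qp q} (hc : H12.qNorm q c ≤ 1) (x : 𝓞 K) :
    c ⊗ₜ[ℚ] (x : K) ∈ H12.semiLocalInt K q :=
  Subring.subset_closure ⟨c, x, hc, rfl⟩

lemma ball_mul {m : ℕ} {y r : SemiLocal K q} (hy : y ∈ H12.semiLocalBall K q m)
    (hr : r ∈ H12.semiLocalInt K q) : y * r ∈ H12.semiLocalBall K q m := by
  obtain ⟨s, hs, rfl⟩ := hy
  exact ⟨s * r, Subring.mul_mem _ hs hr, by ring⟩

lemma ball_mono {m m' : ℕ} (h : m' ≤ m) {y : SemiLocal K q}
    (hy : y ∈ H12.semiLocalBall K q m) : y ∈ H12.semiLocalBall K q m' := by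
  obtain ⟨s, hs, rfl⟩ := hy
  refine ⟨((q : ℕ) : SemiLocal K q) ^ (m - m') * s,
    Subring.mul_mem _ (Subring.pow_mem _ (natCast_mem _ _) _) hs, ?_⟩
  rw [← mul_assoc, ← pow_add, Nat.add_sub_cancel' h]

lemma natCast_semiLocal (n : ℕ) : ((n : ℕ) : SemiLocal K q) = (n : Qp q) ⊗ₜ[ℚ] (1 : K) := by
  rw [← map_natCast (Algebra.TensorProduct.includeLeft : Qp q →ₐ[ℚ] SemiLocal K q)]
  rfl

lemma natCast_semiLocal' (n : ℕ) : ((n : ℕ) : SemiLocal K q) = (1 : Qp q) ⊗ₜ[ℚ] (n : K) := by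
  rw [← map_natCast (Algebra.TensorProduct.includeRight : K →ₐ[ℚ] SemiLocal K q)]
  rfl

lemma exists_pow_mul_qNorm_le (c : Qp q) :
    ∃ t : ℕ, H12.qNorm q (((q : ℕ) : Qp q) ^ t * c) ≤ 1 := by
  haveI := fact_primes q
  obtain ⟨t, ht⟩ := pow_unbounded_of_one_lt ‖(c : ℚ_[(q : ℕ)])‖
    (show (1 : ℝ) < ((q : ℕ) : ℝ) by exact_mod_cast q.2.one_lt)
  refine ⟨t, ?_⟩
  unfold H12.qNorm
  have hq : (0 : ℝ) < ((q : ℕ) : ℝ) := by exact_mod_cast q.2.pos
  rw [norm_mul, norm_pow, Padic.norm_p, inv_pow, inv_mul_le_iff₀ (by positivity), mul_one]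
  exact ht.le

lemma exists_pow_mul_mem (y : SemiLocal K q) :
    ∃ t : ℕ, ((q : ℕ) : SemiLocal K q) ^ t * y ∈ H12.semiLocalInt K q := by
  induction y using TensorProduct.induction_on with
  | zero => exact ⟨0, by simp⟩
  | tmul c x =>
    obtain ⟨x', M, hM, hx⟩ : ∃ (x' : 𝓞 K) (M : ℤ), M ≠ 0 ∧ x * (M : K) = (x' : K) := by
      haveI := IsLocalization.isAlgebraic ℚ (nonZeroDivisors ℤ)
      haveI : Algebra.IsAlgebraic ℤ K := Algebra.IsAlgebraic.trans ℤ ℚ K
      obtain ⟨M, hM, h⟩ := IsAlgebraic.exists_integral_multiple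
        (Algebra.IsAlgebraic.isAlgebraic (R := ℤ) x)
      refine ⟨⟨M • x, h⟩, M, hM, ?_⟩
      change x * (M : K) = M • x
      rw [zsmul_eq_mul, mul_comm]
    obtain ⟨t, ht⟩ := exists_pow_mul_qNorm_le q (c * ((M : ℚ) : Qp q)⁻¹)
    refine ⟨t, ?_⟩
    have hM' : ((M : ℚ) : K) ≠ 0 := by simpa using hM
    have hxx : x = ((M : ℚ)⁻¹ : ℚ) • (x' : K) := by
      rw [← hx, Algebra.smul_def, map_inv₀]
      have hM2 : (M : K) ≠ 0 := by exact_mod_cast hM
      simp only [eq_ratCast, Rat.cast_intCast]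
      field_simp
    have : ((q : ℕ) : SemiLocal K q) ^ t * (c ⊗ₜ[ℚ] x) =
        (((q : ℕ) : Qp q) ^ t * (c * ((M : ℚ) : Qp q)⁻¹)) ⊗ₜ[ℚ] (x' : K) := by
      rw [natCast_semiLocal, Algebra.TensorProduct.tmul_pow, one_pow,
        Algebra.TensorProduct.tmul_mul_tmul, one_mul, hxx, TensorProduct.tmul_smul,
        TensorProduct.smul_tmul', Algebra.smul_def, map_inv₀]
      congr 1
      simp
      ring
    rw [this]
    exact tmul_mem_semiLocalInt K q ht x'
  | add y y' hy hy' =>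
    obtain ⟨t, ht⟩ := hy
    obtain ⟨t', ht'⟩ := hy'
    refine ⟨t + t', ?_⟩
    have : ((q : ℕ) : SemiLocal K q) ^ (t + t') * (y + y') =
        ((q : ℕ) : SemiLocal K q) ^ t' * (((q : ℕ) : SemiLocal K q) ^ t * y) +
        ((q : ℕ) : SemiLocal K q) ^ t * (((q : ℕ) : SemiLocal K q) ^ t' * y') := by
      rw [pow_add]; ring
    rw [this]
    exact Subring.add_mem _ (Subring.mul_mem _ (Subring.pow_mem _ (natCast_mem _ _) _) ht)
      (Subring.mul_mem _ (Subring.pow_mem _ (natCast_mem _ _) _) ht')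

end lattice

section main

variable (K L : Type) [Field K] [Field L] [NumberField K] [NumberField L] [Algebra K L]
  (T : Finset Nat.Primes)

/-- Openness of the norm group: `U_N ⊆ N_{L/K} J_{L,T}` for `N` large. -/
theorem exists_ball_le_range (hPow : H12.Stmt_SemiLocalPow) :
    ∃ N : ℕ, ∀ u : IdeleT K T,
      (∀ q : T, ((u q : (SemiLocal K q.1)ˣ) : SemiLocal K q.1) - 1 ∈ H12.semiLocalBall K q.1 N) →
      u ∈ (normLK K L T).range := by
  haveI : FiniteDimensional K L := Module.Finite.of_restrictScalars_finite ℚ K L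
  have hn : 0 < Module.finrank K L := Module.finrank_pos
  choose m hm using fun q : T => hPow K q.1 (Module.finrank K L) hn
  refine ⟨∑ q, m q, fun u hu => ?_⟩
  have hw : ∀ q : T, ∃ w : (SemiLocal K q.1)ˣ, w ^ Module.finrank K L = u q := by
    intro q
    obtain ⟨w, hw⟩ := hm q (u q) (ball_mono K q.1
      (Finset.single_le_sum (fun _ _ => Nat.zero_le _) (Finset.mem_univ q)) (hu q))
    have hwu : IsUnit w := by
      have : IsUnit (w ^ Module.finrank K L) := hw ▸ (u q).isUnit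
      exact (isUnit_pow_iff hn.ne').1 this
    exact ⟨hwu.unit, Units.ext (by simpa using hw)⟩
  choose w hw using hw
  refine ⟨baseIdele K L T w, ?_⟩
  rw [H56.normLK_base]
  funext q
  exact hw q

lemma diag_sub_one_mem_ball (N : ℕ) (a : 𝓞 K) (h : a - 1 ∈ idealT K T ^ N) (q : T) :
    (1 : Qp q.1) ⊗ₜ[ℚ] (a : K) - 1 ∈ H12.semiLocalBall K q.1 N := by
  rw [idealT, Ideal.span_singleton_pow, Ideal.mem_span_singleton'] at h
  obtain ⟨c, hc⟩ := h
  obtain ⟨M', hM'⟩ : (q.1 : ℕ) ∣ prodT T := Finset.dvd_prod_of_mem _ q.2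
  have h1 : H12.qNorm q.1 1 ≤ 1 := by
    haveI := fact_primes q.1
    simp [H12.qNorm]
  refine ⟨((M' : ℕ) : SemiLocal K q.1) ^ N * ((1 : Qp q.1) ⊗ₜ[ℚ] (c : K)),
    Subring.mul_mem _ (Subring.pow_mem _ (natCast_mem _ _) _)
      (tmul_mem_semiLocalInt K q.1 h1 c), ?_⟩
  have h2 : (a : K) - 1 = (c : K) * (((q.1 : ℕ) : K) * ((M' : ℕ) : K)) ^ N := by
    have := congrArg (fun z : 𝓞 K => (z : K)) hc
    simp only [map_mul, map_pow, map_sub, map_one, map_intCast] at this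
    rw [← this, hM']
    push_cast
    ring
  have h3 : (1 : Qp q.1) ⊗ₜ[ℚ] (a : K) - 1 =
      (Algebra.TensorProduct.includeRight : K →ₐ[ℚ] SemiLocal K q.1) ((a : K) - 1) := by
    rw [map_sub, map_one]
    rfl
  have h4 : (1 : Qp q.1) ⊗ₜ[ℚ] (c : K) =
      (Algebra.TensorProduct.includeRight : K →ₐ[ℚ] SemiLocal K q.1) (c : K) := rfl
  rw [h3, h2, h4, map_mul, map_pow, map_mul, map_natCast, map_natCast]
  ring

/-- **hd2**: the integers `≡ 1 mod (∏ T)^N` are norms, diagonally. -/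
theorem exists_ray_mem_range (hPow : H12.Stmt_SemiLocalPow) :
    ∃ N : ℕ, ∀ (a : 𝓞 K) (ha : a ≠ 0), a - 1 ∈ idealT K T ^ N →
      diagIdele K T (intUnit a ha) ∈ (normLK K L T).range := by
  obtain ⟨N, hN⟩ := exists_ball_le_range K L T hPow
  exact ⟨N, fun a ha h => hN _ (fun q => diag_sub_one_mem_ball K T N a h q)⟩

lemma prodT_pow_mem_TUnits (k : ℕ) (e : Kˣ) (he : (e : K) = (prodT T : K) ^ k) :
    e ∈ TUnits K T := by
  refine ⟨k, ?_, ?_⟩
  · rw [he]
    exact ((isIntegral_natCast (prodT T)).pow k).mul ((isIntegral_natCast (prodT T)).pow k)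
  · rw [Units.val_inv_eq_inv_val, he, mul_inv_cancel₀ (pow_ne_zero _ (H12.prodT_cast_ne_zero K T))]
    exact isIntegral_one

/-- **hd3**: every class of `J_{K,T}` modulo the norm group is the class of a nonzero integer of
`K`. -/
theorem exists_int_div_mem (hPow : H12.Stmt_SemiLocalPow) (hWA : H12.Stmt_WeakApprox)
    (x : IdeleT K T) :
    ∃ (b : 𝓞 K) (hb : b ≠ 0), diagIdele K T (intUnit b hb) / x ∈ normGroup K L T := by
  obtain ⟨N, hN⟩ := exists_ball_le_range K L T hPow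
  choose t ht using fun q : T =>
    exists_pow_mul_mem K q.1 (((x q)⁻¹ : (SemiLocal K q.1)ˣ) : SemiLocal K q.1)
  obtain ⟨a₀, k, ha₀, hap⟩ := hWA K T (fun q => (x q : SemiLocal K q.1)) (N + ∑ q, t q)
  refine ⟨a₀, ha₀, ?_⟩
  let e : Kˣ := Units.mk0 ((prodT T : K) ^ k) (pow_ne_zero _ (H12.prodT_cast_ne_zero K T))
  have he : e ∈ TUnits K T := prodT_pow_mem_TUnits K T k e rfl
  have hu : diagIdele K T (intUnit a₀ ha₀ / e) / x ∈ (normLK K L T).range := by
    apply hN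
    intro q
    have h1 : (((diagIdele K T (intUnit a₀ ha₀ / e) / x) q : (SemiLocal K q.1)ˣ) :
          SemiLocal K q.1) - 1 =
        ((1 : Qp q.1) ⊗ₜ[ℚ] ((a₀ : K) / (prodT T : K) ^ k) - (x q : SemiLocal K q.1)) *
          (((x q)⁻¹ : (SemiLocal K q.1)ˣ) : SemiLocal K q.1) := by
      rw [sub_mul, Units.mul_inv]
      have h0 : (((diagIdele K T (intUnit a₀ ha₀ / e) / x) q : (SemiLocal K q.1)ˣ) :
          SemiLocal K q.1) = ((diagIdele K T (intUnit a₀ ha₀ / e) q : (SemiLocal K q.1)ˣ) :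
          SemiLocal K q.1) * (((x q)⁻¹ : (SemiLocal K q.1)ˣ) : SemiLocal K q.1) := by
        rw [← Units.val_mul, ← div_eq_mul_inv]
        rfl
      have h00 : ((diagIdele K T (intUnit a₀ ha₀ / e) q : (SemiLocal K q.1)ˣ) :
          SemiLocal K q.1) = (1 : Qp q.1) ⊗ₜ[ℚ] (((intUnit a₀ ha₀ / e : Kˣ)) : K) := rfl
      rw [h0, h00]
      congr 3
      rw [Units.val_div_eq_div_val]
      rfl
    rw [h1]
    obtain ⟨r, hr, hr'⟩ := hap q
    rw [hr']
    have hle : t q ≤ ∑ q, t q := Finset.single_le_sum (fun _ _ => Nat.zero_le _) (Finset.mem_univ q)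
    refine ⟨((q.1 : ℕ) : SemiLocal K q.1) ^ (∑ q, t q - t q) * r *
      (((q.1 : ℕ) : SemiLocal K q.1) ^ t q * (((x q)⁻¹ : (SemiLocal K q.1)ˣ) : SemiLocal K q.1)),
      Subring.mul_mem _ (Subring.mul_mem _ (Subring.pow_mem _ (natCast_mem _ _) _) hr) (ht q), ?_⟩
    have : N + ∑ q, t q = N + ((∑ q, t q - t q) + t q) := by rw [Nat.sub_add_cancel hle]
    rw [this, pow_add, pow_add]
    ring
  have h2 : diagIdele K T (intUnit a₀ ha₀) / x =
      (diagIdele K T (intUnit a₀ ha₀ / e) / x) * diagIdele K T e := by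
    rw [map_div]
    simp [div_eq_mul_inv, mul_comm, mul_left_comm]
  rw [h2]
  exact Subgroup.mul_mem _ (Subgroup.mem_sup_right hu)
    (Subgroup.mem_sup_left ⟨e, he, rfl⟩)

end main

end Fermat.Agent.S55.CFT.H31
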