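import Fermat.Agent.S55.CFT.Defs_CF
import Fermat.Agent.S55.CFT.H12_TUnits
import Fermat.Agent.Lib.SecondIneq.Defs

/-!
# S55/E4, package SI'' (helper31): the ray map attached to a homomorphism `d : Kˣ → G`

`K` a number field with `Cl_T(K) = 1`, `d : Kˣ →* G` trivial on the `T`-units.  Every nonzero ideal
`I` of `𝓞 K` is `(b/a) J` with `J` supported on `T`; `rayVal I := d (b/a)` is well defined and
multiplicative.  If `d` is trivial on the integers `≡ 1 mod (∏ T)^N` and every element of `G` is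
`d b` for some nonzero integer `b`, then `rayVal` is a ray class map mod `(∏ T)^N`
(`Fermat.Agent.Lib.SecondIneq.IsRayMap`).
-/

set_option autoImplicit false
set_option linter.unusedSectionVars false

open NumberField Ideal

noncomputable section

namespace Fermat.Agent.S55.CFT.H31

open Fermat.Agent.S55.CFT Fermat.Agent.Lib.SecondIneq

/-- Every nonzero ideal is the product of an ideal prime to `m` and an ideal dividing a power of
`m`. -/
theorem exists_coprime_mul_dvd_pow {R : Type*} [CommRing R] [IsDedekindDomain R]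
    (𝔪 : Ideal R) (𝔞 : Ideal R) (h𝔞 : 𝔞 ≠ ⊥) :
    ∃ (I J : Ideal R) (n : ℕ), 𝔞 = I * J ∧ IsCoprime I 𝔪 ∧ J ∣ 𝔪 ^ n := by
  induction 𝔞 using UniqueFactorizationMonoid.induction_on_prime with
  | h₁ => exact absurd rfl h𝔞
  | h₂ x hx =>
    have hx' : x = ⊤ := by
      rwa [Ideal.isUnit_iff] at hx
    subst hx'
    exact ⟨⊤, ⊤, 0, by simp, by rw [Ideal.isCoprime_iff_sup_eq]; simp, by simp⟩
  | h₃ a p ha0 hp ih =>
    obtain ⟨I, J, n, hIJ, hI, hJ⟩ := ih ha0
    by_cases hpm : p ∣ 𝔪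
    · refine ⟨I, p * J, n + 1, ?_, hI, ?_⟩
      · rw [hIJ]; ring
      · have := mul_dvd_mul hpm hJ
        rwa [← pow_succ'] at this
    · refine ⟨p * I, J, n, ?_, ?_, hJ⟩
      · rw [hIJ]; ring
      · refine IsCoprime.mul_left ?_ hI
        have hp' : p.IsPrime := Ideal.isPrime_of_prime hp
        have hpmax : p.IsMaximal := hp'.isMaximal hp.ne_zero
        rw [Ideal.isCoprime_iff_sup_eq]
        by_contra htop
        have h := hpmax.eq_of_le htop le_sup_left
        apply hpm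
        rw [Ideal.dvd_iff_le, h]
        exact le_sup_right

variable (K : Type) [Field K] [NumberField K] (T : Finset Nat.Primes)

/-- The ideal generated by `∏ T`. -/
abbrev idealT : Ideal (𝓞 K) := Ideal.span {((prodT T : ℤ) : 𝓞 K)}

/-- The unit `b / a` of `K`. -/
def fracUnit (a b : 𝓞 K) (ha : a ≠ 0) (hb : b ≠ 0) : Kˣ :=
  Units.mk0 ((b : K) / (a : K))
    (div_ne_zero (by simpa using hb) (by simpa using ha))

@[simp] lemma fracUnit_val (a b : 𝓞 K) (ha : a ≠ 0) (hb : b ≠ 0) :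
    ((fracUnit K a b ha hb : Kˣ) : K) = (b : K) / (a : K) := rfl

lemma prodT_mem_of_dvd {J : Ideal (𝓞 K)} {n : ℕ} (hJ : J ∣ idealT K T ^ n) :
    (((prodT T : ℤ) : 𝓞 K)) ^ n ∈ J := by
  have h1 : idealT K T ^ n ≤ J := Ideal.le_of_dvd hJ
  apply h1
  rw [idealT, Ideal.span_singleton_pow]
  exact Ideal.mem_span_singleton_self _

/-- Half of the comparison of two representations. -/
lemma isIntegral_of_rep {a b a' b' : 𝓞 K} {J J' : Ideal (𝓞 K)} {n : ℕ}
    (ha : a ≠ 0) (hb' : b' ≠ 0) (hJ : J ∣ idealT K T ^ n)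
    (h : Ideal.span {a' * b} * J = Ideal.span {a * b'} * J') :
    IsIntegral ℤ (((prodT T : ℕ) : K) ^ n * (((b : K) / (a : K)) / ((b' : K) / (a' : K)))) := by
  have hmem : a' * b * (((prodT T : ℤ) : 𝓞 K)) ^ n ∈ Ideal.span {a' * b} * J :=
    Ideal.mul_mem_mul (Ideal.mem_span_singleton_self _) (prodT_mem_of_dvd K T hJ)
  rw [h] at hmem
  have hmem' : a' * b * (((prodT T : ℤ) : 𝓞 K)) ^ n ∈ Ideal.span {a * b'} :=
    (Ideal.mul_le_left (I := Ideal.span {a * b'}) (J := J')) hmem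
  obtain ⟨c, hc⟩ := Ideal.mem_span_singleton'.mp hmem'
  have haK : (a : K) ≠ 0 := by simpa using ha
  have hbK : (b' : K) ≠ 0 := by simpa using hb'
  have hcK : (c : K) * ((a : K) * (b' : K)) = (a' : K) * (b : K) * ((prodT T : ℕ) : K) ^ n := by
    have := congrArg (fun z : 𝓞 K => (z : K)) hc
    simpa using this
  have heq : ((prodT T : ℕ) : K) ^ n * (((b : K) / (a : K)) / ((b' : K) / (a' : K))) = (c : K) := by
    rw [div_div_div_eq, ← mul_div_assoc, div_eq_iff (mul_ne_zero haK hbK), hcK]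
    ring
  rw [heq]
  exact c.isIntegral_coe

/-- Two representations `(a) I = (b) J`, `(a') I = (b') J'` differ by a `T`-unit. -/
lemma fracUnit_div_mem_TUnits {I : Ideal (𝓞 K)} {a b a' b' : 𝓞 K}
    {J J' : Ideal (𝓞 K)} {n n' : ℕ}
    (ha : a ≠ 0) (hb : b ≠ 0) (ha' : a' ≠ 0) (hb' : b' ≠ 0)
    (hJ : J ∣ idealT K T ^ n) (hJ' : J' ∣ idealT K T ^ n')
    (h : Ideal.span {a} * I = Ideal.span {b} * J)
    (h' : Ideal.span {a'} * I = Ideal.span {b'} * J') :
    fracUnit K a b ha hb / fracUnit K a' b' ha' hb' ∈ TUnits K T := by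
  have hkey : Ideal.span {a' * b} * J = Ideal.span {a * b'} * J' := by
    rw [← Ideal.span_singleton_mul_span_singleton, ← Ideal.span_singleton_mul_span_singleton,
      mul_assoc, ← h, mul_assoc, ← h']
    ring
  have h1 := isIntegral_of_rep K T ha hb' hJ hkey
  have h2 := isIntegral_of_rep K T ha' hb hJ' (a := a') (b := b') (a' := a) (b' := b) hkey.symm
  have hP : IsIntegral ℤ (((prodT T : ℕ) : K)) := by
    have h := isIntegral_algebraMap (R := ℤ) (A := K) (x := (prodT T : ℤ))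
    simpa using h
  have hx : ((fracUnit K a b ha hb / fracUnit K a' b' ha' hb' : Kˣ) : K) =
      ((b : K) / (a : K)) / ((b' : K) / (a' : K)) := by
    rw [Units.val_div_eq_div_val]
    rfl
  have hx' : (((fracUnit K a b ha hb / fracUnit K a' b' ha' hb')⁻¹ : Kˣ) : K) =
      ((b' : K) / (a' : K)) / ((b : K) / (a : K)) := by
    rw [inv_div, Units.val_div_eq_div_val]
    rfl
  refine ⟨n + n', ?_, ?_⟩
  · rw [hx, pow_add, mul_comm (((prodT T : ℕ) : K) ^ n), mul_assoc]
    exact (hP.pow n').mul h1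
  · rw [hx', pow_add, mul_assoc]
    exact (hP.pow n).mul h2

/-- A representation `(a) I = (b) J` with `J` supported on `T`. -/
structure IdRep (I : Ideal (𝓞 K)) where
  /-- denominator -/
  a : 𝓞 K
  /-- numerator -/
  b : 𝓞 K
  /-- the part supported on `T` -/
  J : Ideal (𝓞 K)
  /-- exponent -/
  n : ℕ
  ha : a ≠ 0
  hb : b ≠ 0
  hJ : J ∣ idealT K T ^ n
  h : Ideal.span {a} * I = Ideal.span {b} * J

variable {K T}

/-- The element `b / a` of a representation. -/
def IdRep.val {I : Ideal (𝓞 K)} (r : IdRep K T I) : Kˣ := fracUnit K r.a r.b r.ha r.hb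

lemma nonempty_idRep (hcl : ClTrivial K T) {I : Ideal (𝓞 K)} (hI : I ≠ ⊥) :
    Nonempty (IdRep K T I) := by
  obtain ⟨a, b, J, n, ha, hb, hJ, h⟩ := hcl I hI
  exact ⟨⟨a, b, J, n, ha, hb, hJ, h⟩⟩

lemma IdRep.val_div_mem {I : Ideal (𝓞 K)} (r r' : IdRep K T I) :
    r.val / r'.val ∈ TUnits K T :=
  fracUnit_div_mem_TUnits K T r.ha r.hb r'.ha r'.hb r.hJ r'.hJ r.h r'.h

/-- The unit of `K` attached to a nonzero integer. -/
def intUnit (a : 𝓞 K) (ha : a ≠ 0) : Kˣ := Units.mk0 (a : K) (by simpa using ha)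

/-- The product of two representations. -/
def IdRep.mul {I I' : Ideal (𝓞 K)} (r : IdRep K T I) (r' : IdRep K T I') :
    IdRep K T (I * I') where
  a := r.a * r'.a
  b := r.b * r'.b
  J := r.J * r'.J
  n := r.n + r'.n
  ha := mul_ne_zero r.ha r'.ha
  hb := mul_ne_zero r.hb r'.hb
  hJ := by
    rw [pow_add]
    exact mul_dvd_mul r.hJ r'.hJ
  h := by
    rw [← Ideal.span_singleton_mul_span_singleton, ← Ideal.span_singleton_mul_span_singleton,
      mul_mul_mul_comm, r.h, r'.h, mul_mul_mul_comm]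

lemma IdRep.mul_val {I I' : Ideal (𝓞 K)} (r : IdRep K T I) (r' : IdRep K T I') :
    (r.mul r').val = r.val * r'.val := by
  apply Units.ext
  simp only [IdRep.val, IdRep.mul, fracUnit_val, Units.val_mul, map_mul]
  rw [mul_div_mul_comm]

/-- The representation of a principal ideal. -/
def IdRep.principal (c : 𝓞 K) (hc : c ≠ 0) : IdRep K T (Ideal.span {c}) where
  a := 1
  b := c
  J := ⊤
  n := 0
  ha := one_ne_zero
  hb := hc
  hJ := by simp
  h := by simp

lemma IdRep.principal_val (c : 𝓞 K) (hc : c ≠ 0) :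
    (IdRep.principal (T := T) c hc).val = intUnit c hc := by
  apply Units.ext
  simp [IdRep.val, IdRep.principal, intUnit]

/-- The representation of an ideal supported on `T`. -/
def IdRep.ofDvd {J : Ideal (𝓞 K)} {n : ℕ} (hJ : J ∣ idealT K T ^ n) : IdRep K T J where
  a := 1
  b := 1
  J := J
  n := n
  ha := one_ne_zero
  hb := one_ne_zero
  hJ := hJ
  h := rfl

lemma IdRep.ofDvd_val {J : Ideal (𝓞 K)} {n : ℕ} (hJ : J ∣ idealT K T ^ n) :
    (IdRep.ofDvd hJ).val = 1 := by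
  apply Units.ext
  simp [IdRep.val, IdRep.ofDvd]

section rayVal

variable {G : Type} [CommGroup G] (hcl : ClTrivial K T) (d : Kˣ →* G)

open Classical in
/-- The ray map attached to `d`. -/
def rayVal (I : Ideal (𝓞 K)) : G :=
  if h : I ≠ ⊥ then d (Classical.choice (nonempty_idRep hcl h)).val else 1

variable {d} (hd1 : ∀ e ∈ TUnits K T, d e = 1)

include hd1

lemma rayVal_eq {I : Ideal (𝓞 K)} (hI : I ≠ ⊥) (r : IdRep K T I) :
    rayVal hcl d I = d r.val := by
  rw [rayVal, dif_pos hI]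
  have h := hd1 _ ((Classical.choice (nonempty_idRep hcl hI)).val_div_mem r)
  rw [map_div, div_eq_one] at h
  exact h

lemma rayVal_mul {I I' : Ideal (𝓞 K)} (hI : I ≠ ⊥) (hI' : I' ≠ ⊥) :
    rayVal hcl d (I * I') = rayVal hcl d I * rayVal hcl d I' := by
  obtain ⟨r⟩ := nonempty_idRep hcl hI
  obtain ⟨r'⟩ := nonempty_idRep hcl hI'
  rw [rayVal_eq hcl hd1 (mul_ne_zero hI hI') (r.mul r'), rayVal_eq hcl hd1 hI r,
    rayVal_eq hcl hd1 hI' r', IdRep.mul_val, map_mul]

lemma rayVal_span (c : 𝓞 K) (hc : c ≠ 0) :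
    rayVal hcl d (Ideal.span {c}) = d (intUnit c hc) := by
  have h0 : Ideal.span {c} ≠ (⊥ : Ideal (𝓞 K)) := by
    simpa [Ideal.span_singleton_eq_bot] using hc
  rw [rayVal_eq hcl hd1 h0 (IdRep.principal c hc), IdRep.principal_val]

lemma rayVal_of_dvd {J : Ideal (𝓞 K)} {n : ℕ} (hJ0 : J ≠ ⊥) (hJ : J ∣ idealT K T ^ n) :
    rayVal hcl d J = 1 := by
  rw [rayVal_eq hcl hd1 hJ0 (IdRep.ofDvd hJ), IdRep.ofDvd_val, map_one]

/-- `rayVal` is a ray class map mod `(∏ T)^N`. -/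
theorem isRayMap_rayVal (N : ℕ)
    (hd2 : ∀ (a : 𝓞 K) (ha : a ≠ 0), a - 1 ∈ idealT K T ^ N → d (intUnit a ha) = 1)
    (hd3 : ∀ g : G, ∃ (b : 𝓞 K) (hb : b ≠ 0), d (intUnit b hb) = g) :
    IsRayMap (idealT K T ^ N) (rayVal hcl d) where
  map_mul := fun 𝔞 𝔟 h𝔞 h𝔟 _ _ => rayVal_mul hcl hd1 h𝔞 h𝔟
  map_ray := fun a ha ha1 => by
    rw [rayVal_span hcl hd1 a ha]
    exact hd2 a ha ha1
  surj := fun g => by
    obtain ⟨b, hb, hbg⟩ := hd3 g
    have h0 : Ideal.span {b} ≠ (⊥ : Ideal (𝓞 K)) := by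
      simpa [Ideal.span_singleton_eq_bot] using hb
    obtain ⟨I, J, n, hIJ, hI, hJ⟩ := exists_coprime_mul_dvd_pow (idealT K T) (Ideal.span {b}) h0
    have hI0 : I ≠ ⊥ := by
      rintro rfl
      apply h0
      rw [hIJ]
      simp
    have hJ0 : J ≠ ⊥ := by
      rintro rfl
      apply h0
      rw [hIJ]
      simp
    refine ⟨I, hI0, hI.pow_right, ?_⟩
    have h1 := rayVal_span hcl hd1 b hb
    rw [hIJ, rayVal_mul hcl hd1 hI0 hJ0, rayVal_of_dvd hcl hd1 hJ0 hJ, mul_one] at h1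
    rw [h1, hbg]

end rayVal

end Fermat.Agent.S55.CFT.H31
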