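/-
S55/E4 island GLB, package VAL-c (helper45), part 1: the abstract vanishing theorem.

* `h2_subsingleton_of_cyclic`: for a finite cyclic group `D` and a `D`-module `A` all of whose
  invariants are norms, `H²(D, A) = 0` (Mathlib's periodic resolution).
* `map_eq_zero_of_factors`: let `G` act on `B`, `M` a maximal ideal whose conjugates intersect in
  `0`, `D` its stabiliser, `O ≤ (B ⧸ M)ˣ` a `D`-stable subgroup with `H²(D, O) = 0`.  Then every
  morphism `f : A ⟶ Bˣ` of `G`-modules all of whose values reduce into `O` induces `0` on `H²`.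
-/
import Fermat.Agent.S55.CFT.H58_SHLAbs

set_option autoImplicit false
set_option linter.unusedSectionVars false
set_option linter.style.haveILetI false

noncomputable section

namespace Fermat.Agent.S55.CFT.H45

open CategoryTheory groupCohomology Rep

/-! ### `H²` of a finite cyclic group -/

section cyclic

variable {D : Type} [Group D] [Finite D]

set_option backward.isDefEq.respectTransparency false in
attribute [local instance] IsCyclic.commGroup in
theorem h2_subsingleton_of_cyclic [IsCyclic D] {V : Type} [AddCommGroup V]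
    (ρ : Representation ℤ D V) (g : D) (hg : ∀ x : D, x ∈ Subgroup.zpowers g)
    (h : ∀ a : V, ρ g a = a → ∃ b : V, (∑ᶠ d : D, ρ d b) = a) :
    Subsingleton (groupCohomology (Rep.of ρ) 2) := by
  classical
  letI : Fintype D := Fintype.ofFinite D
  set A : Rep.{0} ℤ D := Rep.of ρ with hA
  let π := Rep.FiniteCyclicGroup.groupCohomologyπEven A g hg 2 even_two
  have hsurj : Function.Surjective π.hom := by
    rw [← ModuleCat.epi_iff_surjective]
    infer_instance
  refine ⟨fun x y => ?_⟩
  obtain ⟨x', rfl⟩ := hsurj x
  obtain ⟨y', rfl⟩ := hsurj y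
  have key : ∀ z, π.hom z = 0 := by
    intro z
    refine (Rep.FiniteCyclicGroup.groupCohomologyπEven_eq_zero_iff A g hg 2 even_two z).2 ?_
    have hz : ρ g z.1 = z.1 := by
      have h2 : ρ g z.1 - z.1 = 0 := z.2
      exact sub_eq_zero.1 h2
    obtain ⟨b, hb⟩ := h _ hz
    refine ⟨b, ?_⟩
    have h3 : (∑ d : D, ρ d) b = z.1 := by
      rw [← hb, finsum_eq_sum_of_fintype]
      exact LinearMap.sum_apply _ _ _
    exact h3
  rw [key x', key y']

end cyclic

/-! ### A stable subgroup of the residue units -/

section abs

open H58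

variable {G : Type} [Group G] {B : Type} [CommRing B] [MulSemiringAction G B]
  (M : Ideal B) (O : Subgroup (B ⧸ M)ˣ)
  (hO : ∀ (d : decomp G M) (u : (B ⧸ M)ˣ), u ∈ O → unitsSmul (decomp G M) (B ⧸ M) d u ∈ O)

/-- The action of an element of the stabiliser on `O`. -/
def subSmul (d : decomp G M) : O →* O where
  toFun u := ⟨unitsSmul (decomp G M) (B ⧸ M) d u.1, hO d u.1 u.2⟩
  map_one' := Subtype.ext (map_one _)
  map_mul' _ _ := Subtype.ext (map_mul _ _ _)

@[simp] lemma subSmul_coe (d : decomp G M) (u : O) :
    ((subSmul M O hO d u : O) : (B ⧸ M)ˣ) = unitsSmul (decomp G M) (B ⧸ M) d u.1 := rfl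

/-- `O` as a representation of the stabiliser. -/
def subRho : Representation ℤ (decomp G M) (Additive O) where
  toFun d := (subSmul M O hO d).toAdditive.toIntLinearMap
  map_one' := by
    ext a
    exact one_smul (decomp G M) (((a.toMul : O) : (B ⧸ M)ˣ) : B ⧸ M)
  map_mul' d e := by
    ext a
    exact mul_smul d e (((a.toMul : O) : (B ⧸ M)ˣ) : B ⧸ M)

lemma subRho_apply (d : decomp G M) (a : Additive O) :
    subRho M O hO d a = Additive.ofMul (subSmul M O hO d a.toMul) := rfl

/-- The inclusion `O → (B ⧸ M)ˣ` as an intertwining map. -/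
def subIncl : (subRho M O hO).IntertwiningMap (unitsRho (decomp G M) (B ⧸ M)) where
  toLinearMap := (O.subtype).toAdditive.toIntLinearMap
  isIntertwining' d := by
    ext a
    rfl

lemma subIncl_apply (a : Additive O) :
    subIncl M O hO a = Additive.ofMul ((a.toMul : O) : (B ⧸ M)ˣ) := rfl

variable {VA : Type} [AddCommGroup VA] {ρA : Representation ℤ G VA}
  (f : ρA.IntertwiningMap (unitsRho G B))

lemma intertwining_apply (g : G) (a : VA) :
    f (ρA g a) = Additive.ofMul (unitsSmul G B g (f a).toMul) := by
  have h := congrArg (fun l : VA →ₗ[ℤ] Additive Bˣ => l a) (f.isIntertwining' g)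
  exact h

variable (hf : ∀ a : VA, redUnits M (f a).toMul ∈ O)

/-- The comparison map `A → Coind_D^G O`, `a ↦ (g ↦ [f (g a)])`. -/
def toCoindSub : ρA.IntertwiningMap
    (Representation.coind (decomp G M).subtype (subRho M O hO)) where
  toLinearMap :=
    { toFun := fun a => ⟨fun g => Additive.ofMul ⟨redUnits M (f (ρA g a)).toMul, hf _⟩,
        fun d g => by
          show Additive.ofMul (⟨redUnits M (f (ρA ((d : G) * g) a)).toMul, hf _⟩ : O) =
            Additive.ofMul (subSmul M O hO d ⟨redUnits M (f (ρA g a)).toMul, hf _⟩)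
          apply congrArg Additive.ofMul
          apply Subtype.ext
          show redUnits M (f (ρA ((d : G) * g) a)).toMul =
            unitsSmul (decomp G M) (B ⧸ M) d (redUnits M (f (ρA g a)).toMul)
          rw [← redUnits_smul, map_mul, Module.End.mul_apply, intertwining_apply]
          rfl⟩
      map_add' := fun a b => by
        apply Subtype.ext
        funext g
        show Additive.ofMul (⟨redUnits M (f (ρA g (a + b))).toMul, hf _⟩ : O) =
          Additive.ofMul (⟨redUnits M (f (ρA g a)).toMul, hf _⟩ : O) +
            Additive.ofMul (⟨redUnits M (f (ρA g b)).toMul, hf _⟩ : O)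
        rw [← ofMul_mul]
        apply congrArg Additive.ofMul
        apply Subtype.ext
        show redUnits M (f (ρA g (a + b))).toMul =
          redUnits M (f (ρA g a)).toMul * redUnits M (f (ρA g b)).toMul
        rw [map_add, map_add, toMul_add, map_mul]
      map_smul' := fun n a => by
        apply Subtype.ext
        funext g
        show Additive.ofMul (⟨redUnits M (f (ρA g (n • a))).toMul, hf _⟩ : O) =
          n • Additive.ofMul (⟨redUnits M (f (ρA g a)).toMul, hf _⟩ : O)
        rw [← ofMul_zpow]
        apply congrArg Additive.ofMul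
        apply Subtype.ext
        show redUnits M (f (ρA g (n • a))).toMul = (redUnits M (f (ρA g a)).toMul) ^ n
        rw [map_zsmul, map_zsmul, toMul_zsmul, map_zpow] }
  isIntertwining' h := by
    ext a g
    have h1 : ρA g (ρA h a) = ρA (g * h) a := by rw [map_mul, Module.End.mul_apply]
    show ((redUnits M (f (ρA g (ρA h a))).toMul : (B ⧸ M)ˣ) : B ⧸ M) =
      ((redUnits M (f (ρA (g * h) a)).toMul : (B ⧸ M)ˣ) : B ⧸ M)
    rw [h1]

lemma toCoindSub_apply (a : VA) (g : G) :
    (toCoindSub M O hO f hf a).1 g = Additive.ofMul ⟨redUnits M (f (ρA g a)).toMul, hf _⟩ := rfl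

/-- The comparison map factors the Shapiro comparison map of `Bˣ`. -/
theorem coindMap_comp_toCoindSub :
    (Representation.coindMap (decomp G M).subtype (subIncl M O hO)).comp
        (toCoindSub M O hO f hf) = (toCoindUnits G M).comp f := by
  apply Representation.IntertwiningMap.ext
  ext a g
  have h1 : (((Representation.coindMap (decomp G M).subtype (subIncl M O hO))
      (toCoindSub M O hO f hf a)).1 g) = ((toCoindUnits G M (f a)).1 g) := by
    rw [Representation.coindMap_coe_apply_apply, toCoindSub_apply, subIncl_apply,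
      toCoindUnits_apply]
    show Additive.ofMul (redUnits M (f (ρA g a)).toMul) = _
    rw [intertwining_apply]
    rfl
  exact congrArg (fun x : Additive (B ⧸ M)ˣ => ((x.toMul : (B ⧸ M)ˣ) : B ⧸ M)) h1

/-- **The abstract vanishing theorem.**  If `H²(D, O) = 0`, every morphism `A ⟶ Bˣ` whose values
reduce into `O` induces `0` on `H²(G, -)`. -/
theorem map_eq_zero_of_factors [Finite G] [hM : M.IsMaximal] (hJ : OrbitSeparates G M)
    (hf : ∀ a : VA, redUnits M (f a).toMul ∈ O)
    (hH2 : Subsingleton (groupCohomology (Rep.of (subRho M O hO)) 2))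
    (x : groupCohomology (Rep.of ρA) 2) :
    ((groupCohomology.functor ℤ G 2).map (Rep.ofHom f : Rep.of ρA ⟶ unitsRepOf G B)).hom x
      = 0 := by
  have e1 : (Rep.ofHom f : Rep.of ρA ⟶ unitsRepOf G B) ≫ (unitsCoindIso hJ).hom =
      (Rep.ofHom (toCoindSub M O hO f hf) : Rep.of ρA ⟶
        Rep.coind (decomp G M).subtype (Rep.of (subRho M O hO))) ≫
      Rep.coindMap (decomp G M).subtype (Rep.ofHom (subIncl M O hO)) := by
    apply Rep.hom_ext
    exact (coindMap_comp_toCoindSub M O hO f hf).symm
  have hsub : Subsingleton (groupCohomology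
      (Rep.coind (decomp G M).subtype (Rep.of (subRho M O hO))) 2) :=
    (groupCohomology.coindIso (Rep.of (subRho M O hO)) 2).toLinearEquiv.toEquiv.subsingleton
  have e2 := congrArg (fun φ => ((groupCohomology.functor ℤ G 2).map φ).hom x) e1
  simp only [Functor.map_comp, ModuleCat.hom_comp] at e2
  have e3 : ((groupCohomology.functor ℤ G 2).map
      (Rep.ofHom (toCoindSub M O hO f hf) : Rep.of ρA ⟶
        Rep.coind (decomp G M).subtype (Rep.of (subRho M O hO)))).hom x = 0 :=
    hsub.elim _ _
  have e4 : ((groupCohomology.functor ℤ G 2).map (unitsCoindIso hJ).hom).hom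
      (((groupCohomology.functor ℤ G 2).map
        (Rep.ofHom f : Rep.of ρA ⟶ unitsRepOf G B)).hom x) =
      ((groupCohomology.functor ℤ G 2).map
        (Rep.coindMap (decomp G M).subtype (Rep.ofHom (subIncl M O hO)))).hom
      (((groupCohomology.functor ℤ G 2).map
        (Rep.ofHom (toCoindSub M O hO f hf) : Rep.of ρA ⟶
          Rep.coind (decomp G M).subtype (Rep.of (subRho M O hO)))).hom x) := e2
  rw [e3, map_zero] at e4
  have hinj : Function.Injective
      ((groupCohomology.functor ℤ G 2).map (unitsCoindIso hJ).hom).hom :=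
    ((groupCohomology.functor ℤ G 2).mapIso (unitsCoindIso hJ)).toLinearEquiv.injective
  apply hinj
  rw [e4, map_zero]

end abs

end Fermat.Agent.S55.CFT.H45
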