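/-
S55/E4 island GLB, package VAL-c (helper45), part 2: the field level.

A finite group `D` acts on a finite field extension `E` of `ℚ_q` (`ℚ_q`-linearly) with trivial
inertia (no nontrivial element acts trivially on the residue field).  Then `D` is cyclic and
every `D`-invariant unit is the norm `∏_d d w` of a unit `w`
(`LOC.H45I.cyclic_unram_of_inertia_trivial` + LOC-2b `LOC.H68.stmt_UnramNormUnits`).
-/
import Fermat.Agent.S55.CFT.H58_SHLField
import Fermat.Agent.S55.CFT.LOC.H68_UnramNorm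
import Fermat.Agent.S55.CFT.LOC.H45_Inertia

set_option autoImplicit false
set_option linter.unusedSectionVars false
set_option linter.style.haveILetI false

noncomputable section

namespace Fermat.Agent.S55.CFT.H45

open Fermat.Agent.S55.CFT.LOC H58

section field

variable (q : ℕ) [Fact q.Prime] (D : Type) [Group D] [Fintype D] (E : Type) [Field E]
  [MulSemiringAction D E] [Algebra ℚ_[q] E] [FiniteDimensional ℚ_[q] E]

theorem faithful_of_inertia
    (hin : ∀ d : D, (∀ x : E, nrm q E x ≤ 1 → nrm q E (d • x - x) < 1) → d = 1) :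
    FaithfulSMul D E := by
  refine ⟨fun {d₁ d₂} h => ?_⟩
  have h1 : d₂⁻¹ * d₁ = 1 := hin _ (fun x _ => by
    rw [mul_smul, h x, inv_smul_smul, sub_self, nrm_zero]
    exact zero_lt_one)
  exact (inv_mul_eq_one.1 h1).symm

/-- The absolute value is invariant under a `ℚ_q`-linear action. -/
theorem nrm_smul_eq
    (hk : ∀ (d : D) (c : ℚ_[q]), d • algebraMap ℚ_[q] E c = algebraMap ℚ_[q] E c)
    (d : D) (x : E) : nrm q E (d • x) = nrm q E x := by
  let σ : E ≃ₐ[ℚ_[q]] E :=
    AlgEquiv.ofRingEquiv (f := MulSemiringAction.toRingEquiv D E d) (hk d)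
  exact (spectralNorm_eq_of_equiv σ x).symm

theorem cyclic_and_norm_of_inertia
    (hk : ∀ (d : D) (c : ℚ_[q]), d • algebraMap ℚ_[q] E c = algebraMap ℚ_[q] E c)
    (hin : ∀ d : D, (∀ x : E, nrm q E x ≤ 1 → nrm q E (d • x - x) < 1) → d = 1) :
    IsCyclic D ∧ ∀ u : E, (∀ d : D, d • u = u) → nrm q E u = 1 →
      ∃ w : E, nrm q E w = 1 ∧ ∏ d : D, d • w = u := by
  classical
  haveI : FaithfulSMul D E := faithful_of_inertia q D E hin
  letI : Algebra ℚ_[q] (FixedPoints.subfield D E) := fixedAlgebra D E ℚ_[q] hk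
  haveI : FiniteDimensional ℚ_[q] (FixedPoints.subfield D E) :=
    fixed_finiteDimensional D E ℚ_[q] hk
  haveI : IsScalarTower ℚ_[q] (FixedPoints.subfield D E) E :=
    IsScalarTower.of_algebraMap_eq (fun _ => rfl)
  haveI : IsGalois (FixedPoints.subfield D E) E := ⟨⟩
  let e : D ≃* (E ≃ₐ[FixedPoints.subfield D E] E) := FixedPoints.toAlgAutMulEquiv D E
  have he : ∀ (d : D) (x : E), e d x = d • x := fun _ _ => rfl
  have hin' : ∀ σ : E ≃ₐ[FixedPoints.subfield D E] E,
      (∀ x : E, nrm q E x ≤ 1 → nrm q E (σ x - x) < 1) → σ = 1 := by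
    intro σ hσ
    obtain ⟨d, rfl⟩ := e.surjective σ
    have := hin d (fun x hx => by rw [← he]; exact hσ x hx)
    rw [this, map_one]
  obtain ⟨hcyc, hunr⟩ :=
    H45I.cyclic_unram_of_inertia_trivial q (FixedPoints.subfield D E) E hin'
  refine ⟨isCyclic_of_injective e.toMonoidHom e.injective, fun u hu hu1 => ?_⟩
  have hu' : nrm q (FixedPoints.subfield D E) ⟨u, hu⟩ = 1 := by
    rw [← nrm_algebraMap q (FixedPoints.subfield D E) E]
    exact hu1
  obtain ⟨w, hw1, hw⟩ := H68.stmt_UnramNormUnits q (FixedPoints.subfield D E) E hcyc hunr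
    ⟨u, hu⟩ hu'
  refine ⟨w, hw1, ?_⟩
  have h1 := Algebra.norm_eq_prod_automorphisms (FixedPoints.subfield D E) w
  rw [hw] at h1
  have h2 : ∏ d : D, d • w = ∏ σ : E ≃ₐ[FixedPoints.subfield D E] E, σ w :=
    Fintype.prod_equiv e.toEquiv _ _ (fun d => (he d w).symm)
  rw [h2, ← h1]
  rfl

end field

end Fermat.Agent.S55.CFT.H45
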