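/-
S55/E4 island GLB, package VAL-c (helper45), part 3: the semi-local vanishing theorem.

`G` finite acting `ℚ_q`-linearly on a finite commutative `ℚ_q`-algebra `B`, `M` a maximal ideal
whose conjugates intersect in `0`, with trivial inertia on the residue field `B ⧸ M`.  Then every
morphism of `G`-modules `A ⟶ Bˣ` whose values are units at `M` (absolute value `1` in `B ⧸ M`)
induces `0` on `H²(G, -)`.
-/
import Fermat.Agent.S55.CFT.H45_ValCAbs
import Fermat.Agent.S55.CFT.H45_ValCLoc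
import Fermat.Agent.S55.CFT.LOC.H72_PowIndexB

set_option autoImplicit false
set_option linter.unusedSectionVars false
set_option linter.style.haveILetI false

noncomputable section

namespace Fermat.Agent.S55.CFT.H45

open CategoryTheory groupCohomology Rep Fermat.Agent.S55.CFT.LOC H58

section semi

variable (q : ℕ) [Fact q.Prime] {G : Type} [Group G] [Finite G] {B : Type} [CommRing B]
  [MulSemiringAction G B] [Algebra ℚ_[q] B] [Module.Finite ℚ_[q] B] (M : Ideal B)
  [hM : M.IsMaximal]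

/-- The absolute value of the residue field `B ⧸ M`. -/
def qnrm (x : B ⧸ M) : ℝ :=
  letI : Field (B ⧸ M) := Ideal.Quotient.field M
  nrm q (B ⧸ M) x

theorem qnrm_nonneg (x : B ⧸ M) : 0 ≤ qnrm q M x := by
  letI : Field (B ⧸ M) := Ideal.Quotient.field M
  exact nrm_nonneg q (B ⧸ M) x

theorem qnrm_zero : qnrm q M 0 = 0 := by
  letI : Field (B ⧸ M) := Ideal.Quotient.field M
  exact nrm_zero q (B ⧸ M)

theorem qnrm_one : qnrm q M 1 = 1 := by
  letI : Field (B ⧸ M) := Ideal.Quotient.field M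
  exact nrm_one q (B ⧸ M)

theorem qnrm_mul (x y : B ⧸ M) : qnrm q M (x * y) = qnrm q M x * qnrm q M y := by
  letI : Field (B ⧸ M) := Ideal.Quotient.field M
  exact nrm_mul q (B ⧸ M) x y

theorem qnrm_pow (x : B ⧸ M) (n : ℕ) : qnrm q M (x ^ n) = qnrm q M x ^ n := by
  letI : Field (B ⧸ M) := Ideal.Quotient.field M
  exact nrm_pow q (B ⧸ M) x n

theorem qnrm_add_le_max (x y : B ⧸ M) : qnrm q M (x + y) ≤ max (qnrm q M x) (qnrm q M y) := by
  letI : Field (B ⧸ M) := Ideal.Quotient.field M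
  exact nrm_add_le_max q (B ⧸ M) x y

theorem qnrm_natCast_of_not_dvd {m : ℕ} (hm : ¬ q ∣ m) : qnrm q M (m : B ⧸ M) = 1 := by
  letI : Field (B ⧸ M) := Ideal.Quotient.field M
  exact H25.nrm_natCast_of_not_dvd q (B ⧸ M) hm

theorem qnrm_natCast_q : qnrm q M ((q : ℕ) : B ⧸ M) < 1 := by
  letI : Field (B ⧸ M) := Ideal.Quotient.field M
  show nrm q (B ⧸ M) ((q : ℕ) : B ⧸ M) < 1
  rw [nrm_natCast_q]
  have : (1 : ℝ) < (q : ℝ) := by exact_mod_cast (Fact.out : q.Prime).one_lt
  exact inv_lt_one_of_one_lt₀ this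

theorem qnrm_le_one_of_isIntegral {y : B ⧸ M} (hy : IsIntegral ℤ y) : qnrm q M y ≤ 1 := by
  letI : Field (B ⧸ M) := Ideal.Quotient.field M
  letI := H72.algZ q (B ⧸ M)
  show nrm q (B ⧸ M) y ≤ 1
  rw [← H72.isIntegral_iff_nrm_le_one]
  exact hy.tower_top

theorem valc_abstract (hJ : OrbitSeparates G M)
    (hk : ∀ (g : G) (c : ℚ_[q]), g • algebraMap ℚ_[q] B c = algebraMap ℚ_[q] B c)
    (hin : ∀ d : decomp G M,
      (∀ x : B ⧸ M, qnrm q M x ≤ 1 → qnrm q M (d • x - x) < 1) → d = 1)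
    {VA : Type} [AddCommGroup VA] {ρA : Representation ℤ G VA}
    (f : ρA.IntertwiningMap (unitsRho G B))
    (hf : ∀ a : VA, qnrm q M (Ideal.Quotient.mk M (((f a).toMul : Bˣ) : B)) = 1)
    (x : groupCohomology (Rep.of ρA) 2) :
    ((groupCohomology.functor ℤ G 2).map (Rep.ofHom f : Rep.of ρA ⟶ unitsRepOf G B)).hom x
      = 0 := by
  classical
  letI : Field (B ⧸ M) := Ideal.Quotient.field M
  letI : Fintype (decomp G M) := Fintype.ofFinite _
  have hk' : ∀ (d : decomp G M) (c : ℚ_[q]),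
      d • algebraMap ℚ_[q] (B ⧸ M) c = algebraMap ℚ_[q] (B ⧸ M) c := by
    intro d c
    have h1 : algebraMap ℚ_[q] (B ⧸ M) c = Ideal.Quotient.mk M (algebraMap ℚ_[q] B c) := rfl
    rw [h1, quot_smul_mk, hk]
  obtain ⟨hcyc, hnorm⟩ := cyclic_and_norm_of_inertia q (decomp G M) (B ⧸ M) hk' hin
  -- the units of absolute value `1`
  let O : Subgroup (B ⧸ M)ˣ :=
    { carrier := {u | nrm q (B ⧸ M) (u : B ⧸ M) = 1}
      one_mem' := by
        show nrm q (B ⧸ M) ((1 : (B ⧸ M)ˣ) : B ⧸ M) = 1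
        rw [Units.val_one, nrm_one]
      mul_mem' := by
        intro a b ha hb
        show nrm q (B ⧸ M) ((a * b : (B ⧸ M)ˣ) : B ⧸ M) = 1
        rw [Units.val_mul, nrm_mul, ha, hb, mul_one]
      inv_mem' := by
        intro a ha
        show nrm q (B ⧸ M) ((a⁻¹ : (B ⧸ M)ˣ) : B ⧸ M) = 1
        rw [Units.val_inv_eq_inv_val, nrm_inv, ha, inv_one] }
  have hO : ∀ (d : decomp G M) (u : (B ⧸ M)ˣ), u ∈ O →
      unitsSmul (decomp G M) (B ⧸ M) d u ∈ O := by
    intro d u hu
    show nrm q (B ⧸ M) (d • (u : B ⧸ M)) = 1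
    rw [nrm_smul_eq q (decomp G M) (B ⧸ M) hk' d]
    exact hu
  have hH2 : Subsingleton (groupCohomology (Rep.of (subRho M O hO)) 2) := by
    haveI := hcyc
    obtain ⟨g, hg⟩ := hcyc.exists_generator
    refine h2_subsingleton_of_cyclic (subRho M O hO) g hg (fun a ha => ?_)
    have hgu : g • (((a.toMul : O) : (B ⧸ M)ˣ) : B ⧸ M) = (((a.toMul : O) : (B ⧸ M)ˣ) : B ⧸ M) :=
      congrArg (fun z : Additive O => (((z.toMul : O) : (B ⧸ M)ˣ) : B ⧸ M)) ha
    have hall : ∀ d : decomp G M,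
        d • (((a.toMul : O) : (B ⧸ M)ˣ) : B ⧸ M) = (((a.toMul : O) : (B ⧸ M)ˣ) : B ⧸ M) := by
      intro d
      have h1 : Subgroup.zpowers g ≤
          MulAction.stabilizer (decomp G M) ((((a.toMul : O) : (B ⧸ M)ˣ) : B ⧸ M)) := by
        rw [Subgroup.zpowers_le]
        exact hgu
      exact h1 (hg d)
    obtain ⟨w, hw1, hw⟩ := hnorm _ hall (a.toMul.2)
    have hw0 : w ≠ 0 := by
      rintro rfl
      rw [nrm_zero] at hw1
      exact zero_ne_one hw1
    refine ⟨Additive.ofMul (⟨Units.mk0 w hw0, hw1⟩ : O), ?_⟩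
    rw [finsum_eq_sum_of_fintype]
    apply Additive.toMul.injective
    rw [toMul_sum]
    apply Subtype.ext
    rw [SubmonoidClass.coe_finsetProd]
    apply Units.ext
    rw [Units.coe_prod]
    exact hw
  exact map_eq_zero_of_factors M O hO f hJ (fun a => hf a) hH2 x

/-! ### The same for any compatible action on the units -/

section bridge

variable [MulDistribMulAction G Bˣ]

/-- `Rep.ofMulDistribMulAction G Bˣ → unitsRepOf G B`. -/
def bridgeHom (hc : ∀ (g : G) (u : Bˣ), ((g • u : Bˣ) : B) = g • (u : B)) :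
    Rep.ofMulDistribMulAction G Bˣ ⟶ unitsRepOf G B :=
  Rep.ofHom (LinearMap.intertwiningMap_of_isIntertwiningMap _ _
    (LinearMap.id : Additive Bˣ →ₗ[ℤ] Additive Bˣ)
    (fun g a => congrArg Additive.ofMul (Units.ext (hc g a.toMul))))

/-- `unitsRepOf G B → Rep.ofMulDistribMulAction G Bˣ`. -/
def bridgeInv (hc : ∀ (g : G) (u : Bˣ), ((g • u : Bˣ) : B) = g • (u : B)) :
    unitsRepOf G B ⟶ Rep.ofMulDistribMulAction G Bˣ :=
  Rep.ofHom (LinearMap.intertwiningMap_of_isIntertwiningMap _ _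
    (LinearMap.id : Additive Bˣ →ₗ[ℤ] Additive Bˣ)
    (fun g a => congrArg Additive.ofMul (Units.ext (hc g a.toMul).symm)))

theorem bridge_comp (hc : ∀ (g : G) (u : Bˣ), ((g • u : Bˣ) : B) = g • (u : B)) :
    bridgeHom hc ≫ bridgeInv hc = 𝟙 (Rep.ofMulDistribMulAction G Bˣ) := by
  apply Rep.hom_ext
  apply Representation.IntertwiningMap.ext
  rfl

theorem valc_abstract' (hc : ∀ (g : G) (u : Bˣ), ((g • u : Bˣ) : B) = g • (u : B))
    (hJ : OrbitSeparates G M)
    (hk : ∀ (g : G) (c : ℚ_[q]), g • algebraMap ℚ_[q] B c = algebraMap ℚ_[q] B c)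
    (hin : ∀ d : decomp G M,
      (∀ x : B ⧸ M, qnrm q M x ≤ 1 → qnrm q M (quotRingHom G M d x - x) < 1) → d = 1)
    {VA : Type} [AddCommGroup VA] {ρA : Representation ℤ G VA}
    (φ : Rep.of ρA ⟶ Rep.ofMulDistribMulAction G Bˣ)
    (hφ : ∀ a : VA, qnrm q M (Ideal.Quotient.mk M
      (((Rep.toAdditive (φ.hom a)).toMul : Bˣ) : B)) = 1)
    (x : groupCohomology (Rep.of ρA) 2) :
    ((groupCohomology.functor ℤ G 2).map φ).hom x = 0 := by
  have key := valc_abstract q M hJ hk hin (φ ≫ bridgeHom hc).hom (fun a => hφ a) x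
  have e1 : (Rep.ofHom (φ ≫ bridgeHom hc).hom : Rep.of ρA ⟶ unitsRepOf G B) =
      φ ≫ bridgeHom hc := rfl
  rw [e1] at key
  have e2 : ((groupCohomology.functor ℤ G 2).map (bridgeHom hc)).hom
      (((groupCohomology.functor ℤ G 2).map φ).hom x) = 0 := by
    rw [← key, Functor.map_comp]
    rfl
  have e3 := congrArg ((groupCohomology.functor ℤ G 2).map (bridgeInv hc)).hom e2
  rw [map_zero] at e3
  have e4 : ((groupCohomology.functor ℤ G 2).map (bridgeInv hc)).hom
      (((groupCohomology.functor ℤ G 2).map (bridgeHom hc)).hom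
        (((groupCohomology.functor ℤ G 2).map φ).hom x)) =
      ((groupCohomology.functor ℤ G 2).map φ).hom x := by
    have h5 : (groupCohomology.functor ℤ G 2).map (bridgeHom hc) ≫
        (groupCohomology.functor ℤ G 2).map (bridgeInv hc) = 𝟙 _ := by
      rw [← Functor.map_comp, bridge_comp]
      exact (groupCohomology.functor ℤ G 2).map_id _
    have h6 := congrArg (fun ψ => ψ.hom (((groupCohomology.functor ℤ G 2).map φ).hom x)) h5
    exact h6
  rw [e4] at e3
  exact e3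

end bridge

end semi

end Fermat.Agent.S55.CFT.H45
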