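import Fermat.Agent.S55.CFT.H58_CorBase

/-!
# CFT package COR (helper58), part 2: corestriction

For a subgroup `S` of finite index of `G` and a `G`-module `A` there are maps
`cor : Hⁿ(S, A) ⟶ Hⁿ(G, A)` with `res ≫ cor = [G : S]` (`exists_cor`), by dimension shifting
along `0 → A → Fun(G, A) → Q → 0` from the trace `A^S → A^G` in degree `0`.
-/

set_option autoImplicit false
set_option linter.unusedSectionVars false

noncomputable section

namespace Fermat.Agent.S55.CFT.H58

open CategoryTheory CategoryTheory.Limits groupCohomology Rep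

variable {k : Type} [CommRing k] {G : Type} [Group G]

/-! ## Degree `0`: the trace -/

section Degree0

variable (A : Rep.{0} k G) (S : Subgroup G)

/-- For `a ∈ A^S`, the function `g S ↦ g a`. -/
def orbitFun (a : A.V) : G ⧸ S → A.V := fun x => A.ρ x.out a

lemma orbitFun_mk (a : A.V) (ha : ∀ s : S, A.ρ (s : G) a = a) (g : G) :
    orbitFun A S a (g : G ⧸ S) = A.ρ g a := by
  obtain ⟨s, hs⟩ := QuotientGroup.mk_out_eq_mul S g
  show A.ρ ((g : G ⧸ S)).out a = A.ρ g a
  rw [hs, map_mul, Module.End.mul_apply, ha s]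

lemma smul_orbitFun (a : A.V) (ha : ∀ s : S, A.ρ (s : G) a = a) (g : G) (x : G ⧸ S) :
    A.ρ g (orbitFun A S a x) = orbitFun A S a (g • x) := by
  induction x using QuotientGroup.induction_on with
  | H g' =>
    rw [orbitFun_mk A S a ha]
    show _ = orbitFun A S a ((g * g' : G) : G ⧸ S)
    rw [orbitFun_mk A S a ha, map_mul]
    rfl

variable [Fintype (G ⧸ S)]

/-- The trace `A^S → A^G`, `a ↦ ∑_{g S} g a`. -/
def traceInv : (res S.subtype A).ρ.invariants →ₗ[k] A.ρ.invariants where
  toFun a := ⟨∑ x : G ⧸ S, orbitFun A S a.1 x, fun g => by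
    rw [map_sum]
    simp_rw [smul_orbitFun A S a.1 (fun s => a.2 s) g]
    exact Equiv.sum_comp (MulAction.toPerm g) (orbitFun A S a.1)⟩
  map_add' a b := by
    apply Subtype.ext
    show ∑ x : G ⧸ S, A.ρ x.out (a.1 + b.1) = ∑ x : G ⧸ S, A.ρ x.out a.1 + ∑ x : G ⧸ S, A.ρ x.out b.1
    simp [Finset.sum_add_distrib]
  map_smul' r a := by
    apply Subtype.ext
    show ∑ x : G ⧸ S, A.ρ x.out (r • a.1) = r • ∑ x : G ⧸ S, A.ρ x.out a.1
    simp [Finset.smul_sum]

lemma traceInv_coe (a : (res S.subtype A).ρ.invariants) :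
    ((traceInv A S a : A.ρ.invariants) : A.V) = ∑ x : G ⧸ S, A.ρ x.out a.1 := rfl

/-- Corestriction in degree `0`. -/
def cor0 : groupCohomology (res S.subtype A) 0 ⟶ groupCohomology A 0 :=
  (H0Iso (res S.subtype A)).hom ≫ ModuleCat.ofHom (traceInv A S) ≫ (H0Iso A).inv

/-- Restriction in degree `0` is the inclusion `A^G ⊆ A^S`. -/
lemma H0Iso_resH_coe (x : groupCohomology A 0) :
    (((H0Iso (res S.subtype A)).hom.hom ((resH A S 0).hom x) :
      (res S.subtype A).ρ.invariants) : A.V) = (((H0Iso A).hom.hom x : A.ρ.invariants) : A.V) := by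
  have h := map_H0Iso_hom_f (A := A) (B := res S.subtype A) S.subtype (𝟙 (res S.subtype A))
  have h2 := congrArg (fun f => f.hom x) h
  exact h2

lemma resH_cor0 : resH A S 0 ≫ cor0 A S = Fintype.card (G ⧸ S) • 𝟙 (groupCohomology A 0) := by
  apply ModuleCat.hom_ext
  apply LinearMap.ext
  intro x
  show (H0Iso A).inv.hom (traceInv A S ((H0Iso (res S.subtype A)).hom.hom ((resH A S 0).hom x))) =
    Fintype.card (G ⧸ S) • x
  have h1 : traceInv A S ((H0Iso (res S.subtype A)).hom.hom ((resH A S 0).hom x)) =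
      Fintype.card (G ⧸ S) • (H0Iso A).hom.hom x := by
    apply Subtype.ext
    rw [traceInv_coe, H0Iso_resH_coe]
    have h3 : ∀ y : G ⧸ S, A.ρ y.out (((H0Iso A).hom.hom x : A.ρ.invariants) : A.V) =
        (((H0Iso A).hom.hom x : A.ρ.invariants) : A.V) :=
      fun y => ((H0Iso A).hom.hom x).2 y.out
    rw [Finset.sum_congr rfl (fun y _ => h3 y), Finset.sum_const, Finset.card_univ]
    rfl
  rw [h1, map_nsmul]
  have h4 : (H0Iso A).inv.hom ((H0Iso A).hom.hom x) = x := by
    have := congrArg (fun φ => φ.hom x) (H0Iso A).hom_inv_id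
    simp
  rw [h4]

/-- Naturality of the corestriction in degree `0`. -/
lemma cor0_naturality {A A' : Rep.{0} k G} (u : A ⟶ A') (S : Subgroup G) [Fintype (G ⧸ S)] :
    groupCohomology.map (MonoidHom.id S) ((resFunctor S.subtype).map u) 0 ≫ cor0 A' S =
      cor0 A S ≫ groupCohomology.map (MonoidHom.id G) u 0 := by
  have h1 := map_id_comp_H0Iso_hom ((resFunctor S.subtype).map u)
  have h2 := map_id_comp_H0Iso_hom u
  have h3 : (H0Iso A).inv ≫ groupCohomology.map (MonoidHom.id G) u 0 =
      (invariantsFunctor k G).map u ≫ (H0Iso A').inv := by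
    rw [Iso.inv_comp_eq, ← Category.assoc, ← h2, Category.assoc, Iso.hom_inv_id, Category.comp_id]
  have h4 : (invariantsFunctor k S).map ((resFunctor S.subtype).map u) ≫
      ModuleCat.ofHom (traceInv A' S) =
      ModuleCat.ofHom (traceInv A S) ≫ (invariantsFunctor k G).map u := by
    apply ModuleCat.hom_ext
    apply LinearMap.ext
    intro a
    apply Subtype.ext
    show ∑ x : G ⧸ S, A'.ρ x.out (u.hom a.1) = u.hom (∑ x : G ⧸ S, A.ρ x.out a.1)
    rw [map_sum]
    exact Finset.sum_congr rfl (fun x _ => (hom_comm_apply u x.out a.1).symm)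
  unfold cor0
  rw [← Category.assoc, h1, Category.assoc, ← Category.assoc _ _ (H0Iso A').inv, h4,
    Category.assoc, Category.assoc, Category.assoc, h3]

end Degree0

/-! ## Dimension shifting -/

section Shift

variable (A : Rep.{0} k G) (S : Subgroup G)

/-- The short exact sequence `0 → A → Fun(G, A) → Q → 0`. -/
abbrev shiftSeq : ShortComplex (Rep.{0} k G) := ShortComplex.cokernelSequence (iotaF A G)

lemma shiftSeq_shortExact : (shiftSeq A).ShortExact := by
  have hmono : Mono (iotaF A G) :=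
    (Rep.mono_iff_injective _).2 (fun a b h => congrFun h 1)
  exact
    { exact := ShortComplex.cokernelSequence_exact _
      mono_f := hmono
      epi_g := inferInstance }

/-- The quotient `Q = Fun(G, A) / A`. -/
abbrev shiftObj : Rep.{0} k G := (shiftSeq A).X₃

lemma shiftSeq_res_shortExact : ((shiftSeq A).map (resFunctor S.subtype)).ShortExact :=
  (Rep.shortExact_res S.subtype).2 (shiftSeq_shortExact A)

/-- The projection `Fun(G, A) → Q`. -/
abbrev shiftProj : FunObj A G ⟶ shiftObj A := (shiftSeq A).g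

/-- The connecting map `Hⁿ(G, Q) ⟶ Hⁿ⁺¹(G, A)`. -/
def shiftDelta (n : ℕ) : groupCohomology (shiftObj A) n ⟶ groupCohomology A (n + 1) :=
  δ (shiftSeq_shortExact A) n (n + 1) rfl

/-- The connecting map `Hⁿ(S, Q) ⟶ Hⁿ⁺¹(S, A)`. -/
def shiftDeltaRes (n : ℕ) :
    groupCohomology (res S.subtype (shiftObj A)) n ⟶ groupCohomology (res S.subtype A) (n + 1) :=
  δ (shiftSeq_res_shortExact A S) n (n + 1) rfl

lemma epi_shiftDelta (n : ℕ) : Epi (shiftDelta A n) :=
  epi_δ_of_isZero (shiftSeq_shortExact A) n (isZero_funObj_self A n)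

lemma shiftDelta_resH (n : ℕ) :
    shiftDelta A n ≫ resH A S (n + 1) = resH (shiftObj A) S n ≫ shiftDeltaRes A S n :=
  delta_resH (shiftSeq_shortExact A) S (shiftSeq_res_shortExact A S) n (n + 1) rfl

lemma map_shiftProj_shiftDelta (n : ℕ) :
    groupCohomology.map (A := FunObj A G) (B := shiftObj A) (MonoidHom.id G) (shiftProj A) n ≫
      shiftDelta A n = 0 :=
  (mapShortComplex₃ (shiftSeq_shortExact A) (i := n) (j := n + 1) rfl).zero

/-- The restriction of the projection, on cohomology. -/
def shiftProjRes (n : ℕ) :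
    groupCohomology (res S.subtype (FunObj A G)) n ⟶
      groupCohomology (res S.subtype (shiftObj A)) n :=
  groupCohomology.map (A := res S.subtype (FunObj A G)) (B := res S.subtype (shiftObj A))
    (MonoidHom.id S) ((resFunctor S.subtype).map (shiftProj A)) n

lemma exists_desc_shiftDeltaRes (n : ℕ) {Z : ModuleCat.{0} k}
    (φ : groupCohomology (res S.subtype (shiftObj A)) n ⟶ Z)
    (hφ : shiftProjRes A S n ≫ φ = 0) :
    ∃ ψ : groupCohomology (res S.subtype A) (n + 1) ⟶ Z, shiftDeltaRes A S n ≫ ψ = φ := by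
  have hepiS : Epi (δ (shiftSeq_res_shortExact A S) n (n + 1) rfl) :=
    epi_δ_of_isZero (shiftSeq_res_shortExact A S) n (isZero_res_funObj_self A S n)
  have hex := mapShortComplex₃_exact (shiftSeq_res_shortExact A S) (i := n) (j := n + 1) rfl
  have hepi' : Epi (mapShortComplex₃ (shiftSeq_res_shortExact A S) (i := n) (j := n + 1) rfl).g :=
    hepiS
  exact hex.desc' φ hφ

/-- The step of the dimension shifting. -/
lemma exists_cor_succ (m : ℕ) (n : ℕ)
    (corQ : groupCohomology (res S.subtype (shiftObj A)) n ⟶ groupCohomology (shiftObj A) n)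
    (hres : resH (shiftObj A) S n ≫ corQ = m • 𝟙 _)
    (hzero : shiftProjRes A S n ≫ corQ ≫ shiftDelta A n = 0) :
    ∃ cor : groupCohomology (res S.subtype A) (n + 1) ⟶ groupCohomology A (n + 1),
      resH A S (n + 1) ≫ cor = m • 𝟙 _ := by
  have hepiG := epi_shiftDelta A n
  obtain ⟨cor, hcor⟩ := exists_desc_shiftDeltaRes A S n (corQ ≫ shiftDelta A n) hzero
  refine ⟨cor, ?_⟩
  rw [← cancel_epi (shiftDelta A n), ← Category.assoc, shiftDelta_resH, Category.assoc, hcor,
    ← Category.assoc, hres]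
  rw [Preadditive.nsmul_comp, Preadditive.comp_nsmul, Category.id_comp, Category.comp_id]

end Shift

/-! ## Corestriction -/

/-- **Corestriction**: for a subgroup `S` of finite index there are maps
`cor : Hⁿ(S, A) ⟶ Hⁿ(G, A)` with `res ≫ cor = [G : S]`. -/
theorem exists_cor (S : Subgroup G) [Fintype (G ⧸ S)] (n : ℕ) :
    ∀ A : Rep.{0} k G,
      ∃ cor : groupCohomology (res S.subtype A) n ⟶ groupCohomology A n,
        resH A S n ≫ cor = Fintype.card (G ⧸ S) • 𝟙 _ := by
  rcases n with _ | n
  · intro A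
    exact ⟨cor0 A S, resH_cor0 A S⟩
  · induction n with
    | zero =>
      intro A
      refine exists_cor_succ A S _ 0 (cor0 (shiftObj A) S) (resH_cor0 (shiftObj A) S) ?_
      have h1 : shiftProjRes A S 0 ≫ cor0 (shiftObj A) S =
          cor0 (FunObj A G) S ≫ groupCohomology.map (A := FunObj A G) (B := shiftObj A)
            (MonoidHom.id G) (shiftProj A) 0 :=
        cor0_naturality (shiftProj A) S
      rw [← Category.assoc, h1, Category.assoc, map_shiftProj_shiftDelta, comp_zero]
    | succ n ih =>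
      intro A
      obtain ⟨corQ, hQ⟩ := ih (shiftObj A)
      refine exists_cor_succ A S _ (n + 1) corQ hQ ?_
      exact (isZero_res_funObj_self A S n).eq_of_src _ _

end Fermat.Agent.S55.CFT.H58
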