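import Fermat.Agent.S55.CFT.H58_TwinBase

/-!
# CFT package COR (helper58), part 1: restriction and connecting maps; acyclic modules

* `resH A S n : Hⁿ(G, A) ⟶ Hⁿ(S, A)` : restriction; `resH_naturality`, `delta_resH` (restriction
  commutes with the connecting maps);
* `isZero_of_coindLike` : a module of the form `Fun(Γ, W)` with translation action is acyclic;
* `isZero_funObj_self`, `isZero_res_funObj_self` : `Fun(G, A)` is acyclic for `G` and for every
  subgroup.
-/

set_option autoImplicit false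
set_option linter.unusedSectionVars false

noncomputable section

namespace Fermat.Agent.S55.CFT.H58

open CategoryTheory CategoryTheory.Limits groupCohomology Rep

variable {k : Type} [CommRing k] {G : Type} [Group G]

/-! ## Restriction -/

/-- The restriction map `Hⁿ(G, A) ⟶ Hⁿ(S, A)`. -/
abbrev resH (A : Rep.{0} k G) (S : Subgroup G) (n : ℕ) :
    groupCohomology A n ⟶ groupCohomology (res S.subtype A) n :=
  groupCohomology.map S.subtype (𝟙 (res S.subtype A)) n

lemma resH_naturality {A A' : Rep.{0} k G} (u : A ⟶ A') (S : Subgroup G) (n : ℕ) :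
    groupCohomology.map (MonoidHom.id G) u n ≫ resH A' S n =
      resH A S n ≫ groupCohomology.map (MonoidHom.id S) ((resFunctor S.subtype).map u) n := by
  show HomologicalComplex.homologyMap _ n ≫ HomologicalComplex.homologyMap _ n =
    HomologicalComplex.homologyMap _ n ≫ HomologicalComplex.homologyMap _ n
  rw [← HomologicalComplex.homologyMap_comp, ← HomologicalComplex.homologyMap_comp]
  rfl

/-- The morphism of short complexes of cochain complexes given by restriction. -/
def resShortComplexHom (X : ShortComplex (Rep.{0} k G)) (S : Subgroup G) :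
    X.map (cochainsFunctor k G) ⟶ (X.map (resFunctor S.subtype)).map (cochainsFunctor k S) where
  τ₁ := cochainsMap S.subtype (𝟙 (res S.subtype X.X₁))
  τ₂ := cochainsMap S.subtype (𝟙 (res S.subtype X.X₂))
  τ₃ := cochainsMap S.subtype (𝟙 (res S.subtype X.X₃))
  comm₁₂ := rfl
  comm₂₃ := rfl

/-- Restriction commutes with the connecting maps. -/
lemma delta_resH {X : ShortComplex (Rep.{0} k G)} (hX : X.ShortExact) (S : Subgroup G)
    (hX' : (X.map (resFunctor S.subtype)).ShortExact) (i j : ℕ) (hij : i + 1 = j) :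
    δ hX i j hij ≫ resH X.X₁ S j = resH X.X₃ S i ≫ δ hX' i j hij :=
  HomologicalComplex.HomologySequence.δ_naturality (resShortComplexHom X S)
    (map_cochainsFunctor_shortExact hX) (map_cochainsFunctor_shortExact hX') i j hij

/-! ## Acyclic modules -/

section CoindLike

variable {Γ : Type} [Group Γ] (B : Rep.{0} k Γ) (W : Type) [AddCommGroup W] [Module k W]

/-- The trivial module `W` of the trivial subgroup of `Γ`. -/
abbrev botTriv (Γ : Type) [Group Γ] (W : Type) [AddCommGroup W] [Module k W] :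
    Rep.{0} k (⊥ : Subgroup Γ) :=
  Rep.trivial k (⊥ : Subgroup Γ) W

variable {W}

/-- The comparison map with the module coinduced from the trivial subgroup. -/
def coindLikeMap (Θ : B.V ≃ₗ[k] (Γ → W))
    (hΘ : ∀ (h : Γ) (b : B.V) (γ : Γ), Θ (B.ρ h b) γ = Θ b (γ * h)) :
    B.ρ.IntertwiningMap
      (Representation.coind (⊥ : Subgroup Γ).subtype (botTriv (k := k) Γ W).ρ) where
  toLinearMap :=
    { toFun := fun b => ⟨Θ b, fun s h => by
        have hs : (s : Γ) = 1 := Subgroup.mem_bot.mp s.2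
        show Θ b ((⊥ : Subgroup Γ).subtype s * h) = Θ b h
        rw [Subgroup.subtype_apply, hs, one_mul]⟩
      map_add' := fun a b => Subtype.ext (map_add Θ a b)
      map_smul' := fun r a => Subtype.ext (map_smul Θ r a) }
  isIntertwining' h := by
    ext b γ
    exact hΘ h b γ

lemma coindLikeMap_bijective (Θ : B.V ≃ₗ[k] (Γ → W))
    (hΘ : ∀ (h : Γ) (b : B.V) (γ : Γ), Θ (B.ρ h b) γ = Θ b (γ * h)) :
    Function.Bijective (coindLikeMap B Θ hΘ) := by
  constructor
  · intro a b h
    exact Θ.injective (congrArg Subtype.val h)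
  · intro f
    exact ⟨Θ.symm f.1, Subtype.ext (Θ.apply_symm_apply f.1)⟩

/-- A representation of the form `Fun(Γ, W)` with the translation action is acyclic. -/
lemma isZero_of_coindLike (Θ : B.V ≃ₗ[k] (Γ → W))
    (hΘ : ∀ (h : Γ) (b : B.V) (γ : Γ), Θ (B.ρ h b) γ = Θ b (γ * h)) (n : ℕ) :
    IsZero (groupCohomology B (n + 1)) := by
  have e : B ≅ coind (⊥ : Subgroup Γ).subtype (botTriv (k := k) Γ W) :=
    Rep.mkIso ((coindLikeMap B Θ hΘ).ofBijective (coindLikeMap_bijective B Θ hΘ))
  have h0 : IsZero (groupCohomology (botTriv (k := k) Γ W) (n + 1)) :=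
    isZero_groupCohomology_succ_of_subsingleton _ n
  have h1 : IsZero (groupCohomology (coind (⊥ : Subgroup Γ).subtype (botTriv (k := k) Γ W))
      (n + 1)) := h0.of_iso (coindIso _ (n + 1))
  exact h1.of_iso ((functor k Γ (n + 1)).mapIso e)

end CoindLike

section Regular

variable (A : Rep.{0} k G)

/-- The untwisting map on `Fun(G, A)`: `φ ↦ (γ ↦ ρ γ (φ γ⁻¹))`. -/
def thetaSelf : (G → A.V) ≃ₗ[k] (G → A.V) where
  toFun φ γ := A.ρ γ (φ γ⁻¹)
  invFun F x := A.ρ x (F x⁻¹)
  map_add' φ ψ := by funext γ; simp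
  map_smul' r φ := by funext γ; simp
  left_inv φ := by
    funext x
    show A.ρ x (A.ρ x⁻¹ (φ (x⁻¹)⁻¹)) = φ x
    rw [← Module.End.mul_apply, ← map_mul, mul_inv_cancel, map_one, inv_inv]
    rfl
  right_inv F := by
    funext x
    show A.ρ x (A.ρ x⁻¹ (F (x⁻¹)⁻¹)) = F x
    rw [← Module.End.mul_apply, ← map_mul, mul_inv_cancel, map_one, inv_inv]
    rfl

/-- `Fun(G, A)` is acyclic for `G`. -/
lemma isZero_funObj_self (n : ℕ) : IsZero (groupCohomology (FunObj A G) (n + 1)) := by
  refine isZero_of_coindLike (FunObj A G) (W := A.V) (thetaSelf A) (fun h b γ => ?_) n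
  show A.ρ γ (A.ρ h (b (h⁻¹ • γ⁻¹))) = A.ρ (γ * h) (b (γ * h)⁻¹)
  rw [map_mul, Module.End.mul_apply, mul_inv_rev]
  rfl

variable (S : Subgroup G) (T : Set G)

/-- The untwisting map on `Fun(G, A)` for a subgroup `S` with right transversal `T`:
`φ ↦ (σ ↦ t ↦ ρ σ (φ (σ⁻¹ t)))`. -/
def thetaSub (hT : Subgroup.IsComplement (S : Set G) T) : (G → A.V) ≃ₗ[k] (S → (T → A.V)) where
  toFun φ σ t := A.ρ (σ : G) (φ ((σ : G)⁻¹ * (t : G)))
  invFun F g := A.ρ ((hT.equiv g).1 : G) (F ((hT.equiv g).1)⁻¹ (hT.equiv g).2)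
  map_add' φ ψ := by funext σ t; simp
  map_smul' r φ := by funext σ t; simp
  left_inv φ := by
    funext g
    show A.ρ ((hT.equiv g).1 : G) (A.ρ ((((hT.equiv g).1)⁻¹ : S) : G)
      (φ (((((hT.equiv g).1)⁻¹ : S) : G)⁻¹ * ((hT.equiv g).2 : G)))) = φ g
    rw [← Module.End.mul_apply, ← map_mul, Subgroup.coe_inv, mul_inv_cancel, map_one, inv_inv]
    have := hT.equiv_fst_mul_equiv_snd g
    rw [this]
    rfl
  right_inv F := by
    funext σ t
    have h1 : hT.equiv ((σ : G)⁻¹ * (t : G)) = (σ⁻¹, t) := by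
      rw [← Equiv.eq_symm_apply]
      rfl
    show A.ρ (σ : G) (A.ρ ((hT.equiv ((σ : G)⁻¹ * (t : G))).1 : G)
      (F ((hT.equiv ((σ : G)⁻¹ * (t : G))).1)⁻¹ (hT.equiv ((σ : G)⁻¹ * (t : G))).2)) = F σ t
    rw [h1]
    show A.ρ (σ : G) (A.ρ ((σ⁻¹ : S) : G) (F (σ⁻¹)⁻¹ t)) = F σ t
    rw [← Module.End.mul_apply, ← map_mul, Subgroup.coe_inv, mul_inv_cancel, map_one, inv_inv]
    rfl

/-- `Fun(G, A)` is acyclic for every subgroup of `G`. -/
lemma isZero_res_funObj_self (n : ℕ) :
    IsZero (groupCohomology (res S.subtype (FunObj A G)) (n + 1)) := by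
  obtain ⟨T, hT, -⟩ := Subgroup.exists_isComplement_right S (1 : G)
  refine isZero_of_coindLike (res S.subtype (FunObj A G)) (W := T → A.V) (thetaSub A S T hT)
    (fun h b γ => ?_) n
  funext t
  show A.ρ (γ : G) (A.ρ (h : G) (b ((h : G)⁻¹ • ((γ : G)⁻¹ * (t : G))))) =
    A.ρ ((γ * h : S) : G) (b (((γ * h : S) : G)⁻¹ * (t : G)))
  rw [Subgroup.coe_mul, map_mul, Module.End.mul_apply, mul_inv_rev, smul_eq_mul, mul_assoc]

end Regular

end Fermat.Agent.S55.CFT.H58
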