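import Fermat.Agent.S55.CFT.H58_SHLAbs

/-!
# CFT package SHL (helper58), part 3: orbit separation from norms

For a finite group `G` acting on a reduced Artinian commutative ring `B` and a maximal ideal `M`:
if every element of every maximal ideal has a conjugate in `M` (e.g. because its norm vanishes),
then the conjugates of `M` are all the maximal ideals and their intersection is `0`.
-/

set_option autoImplicit false
set_option linter.unusedSectionVars false

noncomputable section

namespace Fermat.Agent.S55.CFT.H58

section Sep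

variable {G : Type} [Group G] {B : Type} [CommRing B] [MulSemiringAction G B] {M : Ideal B}

lemma conjIdeal_isPrime [hM : M.IsPrime] (g : G) : (conjIdeal G M g).IsPrime :=
  Ideal.comap_isPrime _ M

/-- If every element of the maximal ideal `P` has a conjugate in `M`, then `P` is a conjugate
of `M`. -/
lemma exists_conjIdeal_eq_of_forall [Finite G] [hM : M.IsMaximal] (P : Ideal B) (hP : P.IsMaximal)
    (h : ∀ b ∈ P, ∃ g : G, g • b ∈ M) : ∃ g : G, P = conjIdeal G M g := by
  classical
  let _ : Fintype G := Fintype.ofFinite G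
  have hsub : (P : Set B) ⊆ ⋃ g ∈ ((Finset.univ : Finset G) : Set G), (conjIdeal G M g : Set B) := by
    intro b hb
    obtain ⟨g, hg⟩ := h b hb
    exact Set.mem_biUnion (Finset.mem_coe.2 (Finset.mem_univ g)) hg
  have hpr : ∀ g ∈ (Finset.univ : Finset G), g ≠ 1 → g ≠ 1 → (conjIdeal G M g).IsPrime :=
    fun g _ _ _ => conjIdeal_isPrime (hM := hM.isPrime) g
  obtain ⟨g, -, hg⟩ := (Ideal.subset_union_prime (s := (Finset.univ : Finset G))
    (f := conjIdeal G M) 1 1 hpr).1 hsub
  exact ⟨g, hP.eq_of_le (conjIdeal_isMaximal G M g).ne_top hg⟩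

/-- Orbit separation for a reduced Artinian ring on whose maximal ideals `G` acts transitively. -/
theorem orbitSeparates_of_forall [Finite G] [IsArtinianRing B] [IsReduced B] [hM : M.IsMaximal]
    (h : ∀ P : Ideal B, P.IsMaximal → ∀ b ∈ P, ∃ g : G, g • b ∈ M) : OrbitSeparates G M := by
  intro b hb
  have h1 : b ∈ (⊥ : Ideal B).jacobson := by
    rw [Ideal.jacobson, Ideal.mem_sInf]
    rintro P ⟨-, hP⟩
    obtain ⟨g, rfl⟩ := exists_conjIdeal_eq_of_forall P hP (h P hP)
    exact hb g
  rw [IsArtinianRing.jacobson_eq_radical] at h1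
  have h2 : IsNilpotent b := by
    rw [← mem_nilradical, nilradical]
    exact h1
  exact h2.eq_zero

end Sep

end Fermat.Agent.S55.CFT.H58
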