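import Fermat.Agent.S55.CFT.H58_TwinBase

/-!
# CFT package TN-1 (twin vanishing), part 2 (helper58): periodicity for a cyclic quotient

For a normal subgroup `N` of `G` with cyclic quotient generated by `c`, the four-term exact
sequence `0 → A → Fun(G ⧸ N, A) → Fun(G ⧸ N, A) → A → 0` (constants, difference operator
`φ ↦ φ (· * c) - φ`, sum) and Shapiro's lemma give: if `Hʲ(N, A) = 0` for `j = n + 1, n + 2`
then `Hⁿ(G, A) = 0 → Hⁿ⁺²(G, A) = 0` (`isZero_add_two_of_cyclic`).
-/

set_option autoImplicit false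
set_option linter.unusedSectionVars false

noncomputable section

namespace Fermat.Agent.S55.CFT.H58

open CategoryTheory CategoryTheory.Limits groupCohomology Rep

variable {k : Type} [CommRing k] {G : Type} [Group G]

/-! ## The four-term sequence for a normal subgroup with cyclic quotient -/

section Cyclic

variable (A : Rep.{0} k G) (N : Subgroup G) [N.Normal]

lemma smul_mul_quot (g : G) (x y : G ⧸ N) : g • (x * y) = (g • x) * y := by
  induction x using QuotientGroup.induction_on with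
  | H a =>
    induction y using QuotientGroup.induction_on with
    | H b =>
      show ((g * (a * b) : G) : G ⧸ N) = ((g * a : G) : G ⧸ N) * ((b : G) : G ⧸ N)
      rw [← QuotientGroup.mk_mul, mul_assoc]

/-- The difference operator `φ ↦ (x ↦ φ (x * c) - φ x)`. -/
def diffF (c : G ⧸ N) : FunObj A (G ⧸ N) ⟶ FunObj A (G ⧸ N) :=
  Rep.ofHom (ρ := funRep A (G ⧸ N)) (σ := funRep A (G ⧸ N))
    ⟨{ toFun := fun φ x => φ (x * c) - φ x
       map_add' := fun φ ψ => by ext x; simp; abel
       map_smul' := fun r φ => by ext x; simp [smul_sub] }, fun h => by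
      ext φ x
      simp only [LinearMap.coe_comp, LinearMap.coe_mk, AddHom.coe_mk, Function.comp_apply,
        funRep_apply, map_sub, smul_mul_quot]⟩

@[simp] lemma diffF_apply (c : G ⧸ N) (φ : G ⧸ N → A.V) (x : G ⧸ N) :
    (diffF A N c).hom φ x = φ (x * c) - φ x := rfl

variable [Fintype (G ⧸ N)]

lemma tauF_diffF (c : G ⧸ N) (φ : G ⧸ N → A.V) :
    (tauF A (G ⧸ N)).hom ((diffF A N c).hom φ) = 0 := by
  show ∑ x : G ⧸ N, (φ (x * c) - φ x) = 0
  rw [Finset.sum_sub_distrib, sub_eq_zero]
  exact Equiv.sum_comp (Equiv.mulRight c) φ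

/-- The kernel of the sum map, as a submodule. -/
def kerTau : Submodule k (G ⧸ N → A.V) := LinearMap.ker (tauF A (G ⧸ N)).hom.toLinearMap

lemma mem_kerTau (φ : G ⧸ N → A.V) : φ ∈ kerTau A N ↔ ∑ x, φ x = 0 := Iff.rfl

lemma kerTau_le_comap (g : G) :
    kerTau A N ≤ (kerTau A N).comap ((FunObj A (G ⧸ N)).ρ g) := by
  intro φ hφ
  rw [Submodule.mem_comap]
  show (tauF A (G ⧸ N)).hom ((FunObj A (G ⧸ N)).ρ g φ) = 0
  rw [hom_comm_apply]
  have : (tauF A (G ⧸ N)).hom φ = 0 := hφ
  rw [this, map_zero]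

/-- The kernel of the sum map, as a representation. -/
abbrev KerObj : Rep.{0} k G :=
  Rep.subrepresentation (FunObj A (G ⧸ N)) (kerTau A N) (kerTau_le_comap A N)

/-- The difference operator, with values in the kernel of the sum map. -/
def diffK (c : G ⧸ N) : FunObj A (G ⧸ N) ⟶ KerObj A N :=
  Rep.ofHom (ρ := funRep A (G ⧸ N))
    (σ := (FunObj A (G ⧸ N)).ρ.subrepresentation (kerTau A N) (kerTau_le_comap A N))
    ⟨LinearMap.codRestrict (kerTau A N) (diffF A N c).hom.toLinearMap
      (fun φ => tauF_diffF A N c φ), fun h => by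
      ext φ x
      have := hom_comm_apply (diffF A N c) h φ
      exact congrFun this x⟩

lemma diffK_apply_coe (c : G ⧸ N) (φ : G ⧸ N → A.V) :
    ((diffK A N c).hom φ : G ⧸ N → A.V) = (diffF A N c).hom φ := rfl

/-- The inclusion of the kernel. -/
abbrev inclK : KerObj A N ⟶ FunObj A (G ⧸ N) :=
  Rep.subtype (FunObj A (G ⧸ N)) (kerTau A N) (kerTau_le_comap A N)

lemma iotaF_diffK (c : G ⧸ N) : iotaF A (G ⧸ N) ≫ diffK A N c = 0 := by
  ext a x
  show a - a = 0
  exact sub_self a

lemma inclK_tauF : inclK A N ≫ tauF A (G ⧸ N) = 0 := by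
  ext φ
  exact φ.2

/-- The first short exact sequence `0 → A → Fun(G ⧸ N, A) → Ker → 0`. -/
lemma shortExact_one (c : G ⧸ N) (hc : ∀ x, x ∈ Subgroup.zpowers c) :
    (ShortComplex.mk (iotaF A (G ⧸ N)) (diffK A N c) (iotaF_diffK A N c)).ShortExact := by
  apply shortExact_of_concrete
  · intro a b h
    exact congrFun h 1
  · intro ψ
    obtain ⟨φ, hφ⟩ := exists_telescope c hc ψ.1 ψ.2
    refine ⟨φ, Subtype.ext ?_⟩
    funext x
    exact hφ x
  · intro φ hφ
    refine ⟨φ 1, ?_⟩
    funext x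
    have h1 : ∀ y, φ (y * c) = φ y := by
      intro y
      have := congrFun (congrArg Subtype.val hφ) y
      exact sub_eq_zero.mp this
    exact (eq_const_of_mul_gen c hc φ h1 x).symm

/-- The second short exact sequence `0 → Ker → Fun(G ⧸ N, A) → A → 0`. -/
lemma shortExact_two :
    (ShortComplex.mk (inclK A N) (tauF A (G ⧸ N)) (inclK_tauF A N)).ShortExact := by
  classical
  apply shortExact_of_concrete
  · intro a b h
    exact Subtype.ext h
  · intro a
    refine ⟨Pi.single 1 a, ?_⟩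
    show ∑ x : G ⧸ N, (Pi.single 1 a : G ⧸ N → A.V) x = a
    rw [Finset.sum_pi_single']
    simp
  · intro φ hφ
    exact ⟨⟨φ, hφ⟩, rfl⟩

/-- **Periodicity**: if `N` is normal with cyclic quotient and `Hʲ(N, A) = 0` for
`j = n + 1, n + 2`, then `Hⁿ(G, A) = 0` implies `Hⁿ⁺²(G, A) = 0`. -/
theorem isZero_add_two_of_cyclic (c : G ⧸ N) (hc : ∀ x, x ∈ Subgroup.zpowers c) (n : ℕ)
    (h1 : IsZero (groupCohomology (res N.subtype A) (n + 1)))
    (h2 : IsZero (groupCohomology (res N.subtype A) (n + 2)))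
    (hA : IsZero (groupCohomology A n)) : IsZero (groupCohomology A (n + 2)) :=
  isZero_add_two (shortExact_one A N c hc) (shortExact_two A N) n
    (isZero_funObj A N _ h1) (isZero_funObj A N _ h2) hA

end Cyclic

end Fermat.Agent.S55.CFT.H58
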