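/-
S55/E4 island GLB, package THL (helper72), part 0 (pure algebra): the norm of an element which is
`1` away from one factor of a finite algebra over a field.
`A` a finite `R`-algebra, `I` an ideal, `e` with `1 - e ∈ I` and `I · e = 0` (so `A = A/I × A/(e)`),
`x` with `(x - 1)(1 - e) = 0`: then `N_{A/R}(x) = N_{(A/I)/R}(x mod I)`.
-/
import Mathlib

set_option autoImplicit false

namespace Fermat.Agent.S55.CFT.H72

section idem

variable {R A : Type*} [Field R] [CommRing A] [Algebra R A]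

/-- The map `A → A/I × A/(e)`. -/
def idemSplit (I : Ideal A) (e : A) : A →ₗ[R] (A ⧸ I) × (A ⧸ Ideal.span {e}) :=
  LinearMap.prod ((Ideal.Quotient.mkₐ R I).toLinearMap)
    ((Ideal.Quotient.mkₐ R (Ideal.span {e})).toLinearMap)

lemma idemSplit_apply (I : Ideal A) (e : A) (a : A) :
    idemSplit (R := R) I e a = (Ideal.Quotient.mk I a, Ideal.Quotient.mk (Ideal.span {e}) a) :=
  rfl

lemma idem_of_mem (I : Ideal A) (e : A) (he1 : 1 - e ∈ I) (he0 : ∀ i ∈ I, i * e = 0) :
    e * e = e := by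
  have h := he0 _ he1
  rw [sub_mul, one_mul, sub_eq_zero] at h
  exact h.symm

lemma idemSplit_bijective (I : Ideal A) (e : A) (he1 : 1 - e ∈ I) (he0 : ∀ i ∈ I, i * e = 0) :
    Function.Bijective (idemSplit (R := R) I e) := by
  have hee := idem_of_mem I e he1 he0
  constructor
  · rw [← LinearMap.ker_eq_bot, LinearMap.ker_eq_bot']
    intro a ha
    rw [idemSplit_apply, Prod.mk_eq_zero, Ideal.Quotient.eq_zero_iff_mem,
      Ideal.Quotient.eq_zero_iff_mem, Ideal.mem_span_singleton'] at ha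
    obtain ⟨haI, b, hb⟩ := ha
    have h1 := he0 a haI
    rw [← hb, mul_assoc, hee, hb] at h1
    exact h1
  · rintro ⟨a, b⟩
    obtain ⟨a, rfl⟩ := Ideal.Quotient.mk_surjective a
    obtain ⟨b, rfl⟩ := Ideal.Quotient.mk_surjective b
    refine ⟨a * e + b * (1 - e), ?_⟩
    rw [idemSplit_apply, Prod.mk.injEq]
    constructor
    · rw [Ideal.Quotient.eq]
      have : a * e + b * (1 - e) - a = (b - a) * (1 - e) := by ring
      rw [this]
      exact I.mul_mem_left _ he1
    · rw [Ideal.Quotient.eq, Ideal.mem_span_singleton']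
      exact ⟨a - b, by ring⟩

/-- `A ≃ A/I × A/(e)`. -/
noncomputable def idemEquiv (I : Ideal A) (e : A) (he1 : 1 - e ∈ I)
    (he0 : ∀ i ∈ I, i * e = 0) : A ≃ₗ[R] (A ⧸ I) × (A ⧸ Ideal.span {e}) :=
  LinearEquiv.ofBijective (idemSplit (R := R) I e) (idemSplit_bijective I e he1 he0)

/-- The norm of an element which is `1` away from the factor `A/I`. -/
theorem norm_eq_norm_quot [Module.Finite R A] (I : Ideal A) (e : A) (he1 : 1 - e ∈ I)
    (he0 : ∀ i ∈ I, i * e = 0) (x : A) (hx : (x - 1) * (1 - e) = 0) :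
    Algebra.norm R x = Algebra.norm R (Ideal.Quotient.mk I x) := by
  classical
  have hxJ : Ideal.Quotient.mk (Ideal.span {e}) x = 1 := by
    rw [← map_one (Ideal.Quotient.mk (Ideal.span {e})), Ideal.Quotient.eq,
      Ideal.mem_span_singleton']
    refine ⟨x - 1, ?_⟩
    have : (x - 1) * e = (x - 1) - (x - 1) * (1 - e) := by ring
    rw [this, hx, sub_zero]
  set φ := idemEquiv (R := R) I e he1 he0 with hφ
  have hconj : (φ : A →ₗ[R] (A ⧸ I) × (A ⧸ Ideal.span {e})) ∘ₗ (Algebra.lmul R A x) ∘ₗ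
      (φ.symm : ((A ⧸ I) × (A ⧸ Ideal.span {e})) →ₗ[R] A) =
      LinearMap.prodMap (Algebra.lmul R (A ⧸ I) (Ideal.Quotient.mk I x))
        (LinearMap.id : (A ⧸ Ideal.span {e}) →ₗ[R] (A ⧸ Ideal.span {e})) := by
    apply LinearMap.ext
    intro y
    obtain ⟨a, rfl⟩ := φ.surjective y
    simp only [LinearMap.comp_apply, LinearEquiv.coe_coe, LinearEquiv.symm_apply_apply]
    show idemSplit (R := R) I e (x * a) = _
    rw [idemSplit_apply, map_mul, map_mul, hxJ, one_mul]
    rfl
  rw [Algebra.norm_apply, Algebra.norm_apply, ← LinearMap.det_conj (Algebra.lmul R A x) φ, hconj,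
    LinearMap.det_prodMap, LinearMap.det_id, mul_one]

end idem

end Fermat.Agent.S55.CFT.H72
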