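/-
S55/E4 island GLB, package THL (helper72), parts THL-I and THL-N:
* ideles of `K` supported at one place `ω` are `H80.secHom K K T ω β`, and the cyclotomic symbol
  of such an idele is the local symbol `thetaAlg` of `β` (`cycloTheta_secHom`);
* the local symbol is trivial on local norms from `L ∋ ζ_{p^M}` (`thetaAlg_of_isLocNorm`):
  DESC + NT + TH-2.
-/
import Fermat.Agent.S55.CFT.Defs_THL
import Fermat.Agent.S55.CFT.H72_THLNormIdem
import Fermat.Agent.S55.CFT.H80_SLD
import Fermat.Agent.S55.CFT.H12_IdeleBase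
import Fermat.Agent.S55.CFT.H56_IdeleBase
import Fermat.Agent.S55.CFT.H56_ThetaOnto
import Fermat.Agent.S55.CFT.H25_Theta

set_option autoImplicit false
set_option linter.unusedSectionVars false
set_option linter.style.haveILetI false

open NumberField TensorProduct CategoryTheory

noncomputable section

namespace Fermat.Agent.S55.CFT.H72

variable (K L : Type) [Field K] [Field L] [NumberField K] [NumberField L] [Algebra K L]
  (T : Finset Nat.Primes)

/-! ### Ideles supported at one place -/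

/-- An idele which is `1` at all places but `ω` is the section of its component at `ω`. -/
theorem eq_secHom_of_supported (ω : H80.PlaceT K T) (x : IdeleT K T)
    (hx : ∀ (q : T) (v : MaximalSpectrum (SemiLocal K q.1)),
      (⟨q, v⟩ : (q : T) × MaximalSpectrum (SemiLocal K q.1)) ≠ ω → projIdele K K T q v x = 1) :
    x = H80.secHom K K T ω (projIdele K K T ω.1 ω.2 x) := by
  apply H80.compHom_injective K K T
  funext ω'
  rw [H80.compHom_apply, H80.compHom_apply]
  by_cases h : ω' = ω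
  · subst h
    rw [H80.proj_secHom_self]
  · rw [H80.proj_secHom_ne K K T ω ω' h]
    exact hx ω'.1 ω'.2 h

/-- The section is supported at `ω`. -/
theorem secHom_supported (ω : H80.PlaceT K T) (β : (LocAlg K K ⟨ω.1.1, ω.2⟩)ˣ)
    (q : T) (v : MaximalSpectrum (SemiLocal K q.1))
    (h : (⟨q, v⟩ : (q : T) × MaximalSpectrum (SemiLocal K q.1)) ≠ ω) :
    projIdele K K T q v (H80.secHom K K T ω β) = 1 :=
  H80.proj_secHom_ne K K T ω ⟨q, v⟩ h β

/-- The components of the section at the primes `q ≠ ω.1` are `1`. -/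
theorem secHom_apply_of_ne (ω : H80.PlaceT K T) (β : (LocAlg K K ⟨ω.1.1, ω.2⟩)ˣ)
    (q : T) (h : q ≠ ω.1) : H80.secHom K K T ω β q = 1 := by
  apply Units.ext
  apply (H80.crt_bijective K K q.1).1
  funext v
  have h1 : (⟨q, v⟩ : H80.PlaceT K T) ≠ ω := fun e => h (congrArg Sigma.fst e)
  have h2 := H80.proj_secHom_ne K K T ω ⟨q, v⟩ h1 β
  have h3 := congrArg (fun u : (LocAlg K K ⟨q.1, v⟩)ˣ => (u : LocAlg K K ⟨q.1, v⟩)) h2
  rw [H80.crtMap_apply]
  simp only [Units.val_one, map_one]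
  exact h3

/-- The component of the section at the prime `ω.1`, reduced modulo the place. -/
theorem mk_secHom_self (ω : H80.PlaceT K T) (β : (LocAlg K K ⟨ω.1.1, ω.2⟩)ˣ) :
    Ideal.Quotient.mk (placeIdeal K K ⟨ω.1.1, ω.2⟩)
      ((H80.secHom K K T ω β ω.1 : (SemiLocal K ω.1.1)ˣ) : SemiLocal K ω.1.1) = (β : _) := by
  have h2 := H80.proj_secHom_self K K T ω β
  exact congrArg (fun u : (LocAlg K K ⟨ω.1.1, ω.2⟩)ˣ => (u : LocAlg K K ⟨ω.1.1, ω.2⟩)) h2

/-- The component of the section at the prime `ω.1` is `1` modulo the other places. -/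
theorem secHom_sub_one_mem (ω : H80.PlaceT K T) (β : (LocAlg K K ⟨ω.1.1, ω.2⟩)ˣ)
    (v : MaximalSpectrum (SemiLocal K ω.1.1)) (hv : v ≠ ω.2) :
    ((H80.secHom K K T ω β ω.1 : (SemiLocal K ω.1.1)ˣ) : SemiLocal K ω.1.1) - 1 ∈
      placeIdeal K K ⟨ω.1.1, v⟩ := by
  have h1 : (⟨ω.1, v⟩ : H80.PlaceT K T) ≠ ω := by
    intro e
    apply hv
    obtain ⟨q, w⟩ := ω
    simpa using e
  have h2 := H80.proj_secHom_ne K K T ω ⟨ω.1, v⟩ h1 β
  have h3 := congrArg (fun u : (LocAlg K K ⟨ω.1.1, v⟩)ˣ => (u : LocAlg K K ⟨ω.1.1, v⟩)) h2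
  rw [← Ideal.Quotient.eq_zero_iff_mem, map_sub, map_one, sub_eq_zero]
  exact h3

/-- The norm of the component at `ω.1` of the section is the norm of `β`. -/
theorem norm_secHom_self (ω : H80.PlaceT K T) (β : (LocAlg K K ⟨ω.1.1, ω.2⟩)ˣ) :
    Algebra.norm (Qp ω.1.1)
      ((H80.secHom K K T ω β ω.1 : (SemiLocal K ω.1.1)ˣ) : SemiLocal K ω.1.1) =
    Algebra.norm (Qp ω.1.1) (β : LocAlg K K ⟨ω.1.1, ω.2⟩) := by
  classical
  haveI : Fintype (MaximalSpectrum (SemiLocal K ω.1.1)) := Fintype.ofFinite _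
  set x : SemiLocal K ω.1.1 :=
    ((H80.secHom K K T ω β ω.1 : (SemiLocal K ω.1.1)ˣ) : SemiLocal K ω.1.1) with hx
  set e : SemiLocal K ω.1.1 := H80.wIdem K K ω.1.1 ω.2 with he
  have hee : e * e = e := ((H80.wIdem_complete K K ω.1.1).idem ω.2).eq
  have hspan : placeIdeal K K ⟨ω.1.1, ω.2⟩ = Ideal.span {1 - e} :=
    H80.placeIdeal_eq_span K K ω.1.1 ω.2
  have he1 : 1 - e ∈ placeIdeal K K ⟨ω.1.1, ω.2⟩ := by
    rw [hspan]
    exact Ideal.subset_span rfl
  have he0 : ∀ i ∈ placeIdeal K K ⟨ω.1.1, ω.2⟩, i * e = 0 := by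
    intro i hi
    rw [hspan, Ideal.mem_span_singleton'] at hi
    obtain ⟨a, rfl⟩ := hi
    rw [mul_assoc, sub_mul, one_mul, hee, sub_self, mul_zero]
  have h0 : (x - 1) * (1 - e) = 0 := by
    apply (H80.crt_bijective K K ω.1.1).1
    funext v
    rw [H80.crtMap_apply, map_zero, Pi.zero_apply, map_mul]
    by_cases hv : v = ω.2
    · subst hv
      rw [Ideal.Quotient.eq_zero_iff_mem.mpr he1, mul_zero]
    · rw [Ideal.Quotient.eq_zero_iff_mem.mpr (secHom_sub_one_mem K T ω β v hv), zero_mul]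
  rw [norm_eq_norm_quot (R := Qp ω.1.1) (placeIdeal K K ⟨ω.1.1, ω.2⟩) e he1 he0 x h0, hx,
    mk_secHom_self]

/-- **THL-I**: the cyclotomic symbol of an idele supported at `ω` is the local symbol of its
component. -/
theorem cycloTheta_secHom (p : Nat.Primes) (M : ℕ) (ω : H80.PlaceT K T)
    (β : (LocAlg K K ⟨ω.1.1, ω.2⟩)ˣ) :
    cycloTheta K p M T (H80.secHom K K T ω β) =
      thetaAlg p M ω.1.1 (LocAlg K K ⟨ω.1.1, ω.2⟩) β := by
  rw [H56.cycloTheta_eq, Finset.prod_eq_single ω.1]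
  · unfold thetaAlg
    congr 1
    apply Units.ext
    exact norm_secHom_self K T ω β
  · intro q _ hq
    have h1 : normToQ K T (H80.secHom K K T ω β) q = 1 := by
      show Units.map _ (H80.secHom K K T ω β q) = 1
      rw [secHom_apply_of_ne K T ω β q hq, map_one]
    rw [h1]
    exact (H56.thetaLocHom p M q.1).map_one
  · intro h
    exact absurd (Finset.mem_univ _) h

/-! ### Local norms are in the kernel of the local symbol -/

/-- The components of a base-changed idele. -/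
theorem projIdele_baseIdele (q : T) (v : MaximalSpectrum (SemiLocal K q.1)) (x : IdeleT K T) :
    projIdele K L T q v (baseIdele K L T x) =
      Units.map (locAlgTower K K L ⟨q.1, v⟩ : LocAlg K K ⟨q.1, v⟩ →* LocAlg K L ⟨q.1, v⟩)
        (projIdele K K T q v x) := by
  apply Units.ext
  rfl

/-- The base change of a section is the section of the base change. -/
theorem baseIdele_secHom (ω : H80.PlaceT K T) (β : (LocAlg K K ⟨ω.1.1, ω.2⟩)ˣ) :
    baseIdele K L T (H80.secHom K K T ω β) =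
      H80.secHom K L T ω
        (Units.map (locAlgTower K K L ⟨ω.1.1, ω.2⟩ :
          LocAlg K K ⟨ω.1.1, ω.2⟩ →* LocAlg K L ⟨ω.1.1, ω.2⟩) β) := by
  apply H80.compHom_injective K L T
  funext ω'
  rw [H80.compHom_apply, H80.compHom_apply, projIdele_baseIdele]
  by_cases h : ω' = ω
  · subst h
    rw [H80.proj_secHom_self, H80.proj_secHom_self]
  · rw [H80.proj_secHom_ne K K T ω ω' h, H80.proj_secHom_ne K L T ω ω' h, map_one]

/-- The symbol of an idele supported at `ω` whose component is a local norm from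
`L ∋ ζ_{p^M}` is trivial. -/
theorem cycloTheta_secHom_of_isLocNorm [IsGalois K L] (p : Nat.Primes) (M : ℕ)
    (hp2 : (p : ℕ) ≠ 2) (hζ : ∃ ζ : L, IsPrimitiveRoot ζ ((p : ℕ) ^ M))
    (ω : H80.PlaceT K T) (β : (LocAlg K K ⟨ω.1.1, ω.2⟩)ˣ)
    (h : IsLocNorm K L ⟨ω.1.1, ω.2⟩ β) :
    cycloTheta K p M T (H80.secHom K K T ω β) = 1 := by
  classical
  obtain ⟨y, hy⟩ := h
  rw [finprod_eq_prod_of_fintype] at hy
  set Y : IdeleT L T := H80.secHom K L T ω y with hY
  have h1 : ∏ σ : L ≃ₐ[K] L, σ • Y = H80.secHom K L T ω (∏ σ : L ≃ₐ[K] L, σ • y) := by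
    rw [map_prod]
    refine Finset.prod_congr rfl (fun σ _ => ?_)
    rw [hY, H80.secHom_smul]
  have h2 : baseIdele K L T (normLK K L T Y) =
      baseIdele K L T (H80.secHom K K T ω β) := by
    rw [H12.baseIdele_normLK, h1, hy, baseIdele_secHom]
  have h3 := H12.baseIdele_injective K L T h2
  rw [← h3, H56.cycloTheta_normLK]
  exact H25.stmt_ThetaNorm p M L T hp2 hζ Y

/-- **THL-N**: the local symbol is trivial on local norms from `L ∋ ζ_{p^M}`. -/
theorem thetaAlg_of_isLocNorm [IsGalois K L] (p : Nat.Primes) (M : ℕ)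
    (hp2 : (p : ℕ) ≠ 2) (hζ : ∃ ζ : L, IsPrimitiveRoot ζ ((p : ℕ) ^ M))
    (v : Place K) (β : (LocAlg K K v)ˣ) (h : IsLocNorm K L v β) :
    thetaAlg p M v.1 (LocAlg K K v) β = 1 := by
  have hmem : v.1 ∈ ({v.1} : Finset Nat.Primes) := Finset.mem_singleton_self _
  have h1 := cycloTheta_secHom_of_isLocNorm K L {v.1} p M hp2 hζ ⟨⟨v.1, hmem⟩, v.2⟩ β h
  rw [cycloTheta_secHom] at h1
  exact h1

end Fermat.Agent.S55.CFT.H72
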