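/-
S55/E4 island GLB, package THL (helper72): assembly `Stmt_THL_Ord → Stmt_THL`.
(a) local norms are in the kernel of the local symbol (`thetaAlg_of_isLocNorm`);
(b) `K_vˣ / local norms ≅ H²(G, (K_v ⊗ L)ˣ)` (`H19.stmt_CycClass`) has order `d` (`H58.stmt_SHL`);
(c) some value of the local symbol has order at least `d` (`Stmt_THL_Ord`);
counting (`thl_counting`).
-/
import Fermat.Agent.S55.CFT.H72_THLIdele
import Fermat.Agent.S55.CFT.H72_THLCount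
import Fermat.Agent.S55.CFT.H19_Cyc
import Fermat.Agent.S55.CFT.H58_SHL
import Fermat.Agent.S55.CFT.H13_FundCyclo

set_option autoImplicit false
set_option linter.unusedSectionVars false
set_option linter.style.haveILetI false

open NumberField TensorProduct CategoryTheory

noncomputable section

namespace Fermat.Agent.S55.CFT.H72

/-- The local symbol as a homomorphism. -/
def thetaAlgHom (p : Nat.Primes) (M : ℕ) (q : Nat.Primes) (A : Type) [CommRing A]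
    [Algebra (Qp q) A] : Aˣ →* (ZMod ((p : ℕ) ^ M))ˣ :=
  (H56.thetaLocHom p M q).comp (Units.map (Algebra.norm (Qp q) : A →* Qp q))

lemma thetaAlgHom_apply (p : Nat.Primes) (M : ℕ) (q : Nat.Primes) (A : Type) [CommRing A]
    [Algebra (Qp q) A] (β : Aˣ) : thetaAlgHom p M q A β = thetaAlg p M q A β := rfl

/-- **THL** from the order statement `Stmt_THL_Ord`. -/
theorem stmt_THL_of (hOrd : Stmt_THL_Ord) : Stmt_THL := by
  intro p M K L _ _ _ _ _ T hp2 hζK hcyc q₀ v₀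
  classical
  haveI : NeZero ((p : ℕ) ^ M) := ⟨pow_ne_zero _ p.2.ne_zero⟩
  haveI hgal : IsGalois K L := IsCyclotomicExtension.isGalois {(p : ℕ) ^ M} K L
  haveI : FiniteDimensional K L := IsCyclotomicExtension.finiteDimensional {(p : ℕ) ^ M} K L
  have hζL := IsCyclotomicExtension.zeta_spec ((p : ℕ) ^ M) K L
  haveI hcycC : IsCyclic (ZMod ((p : ℕ) ^ M))ˣ := ZMod.isCyclic_units_of_prime_pow p p.2 hp2 M
  have hcycG : IsCyclic (L ≃ₐ[K] L) :=
    isCyclic_of_injective (hζL.autToPow K) (hζL.autToPow_injective K)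
  have hpg : IsPGroup (p : ℕ) (L ≃ₐ[K] L) := H13.isPGroup_gal_cyclotomic K L p M p.2 hζK
  haveI : Fact (p : ℕ).Prime := ⟨p.2⟩
  obtain ⟨m, hm⟩ := hpg.exists_card_eq
  have hdeg : Module.finrank K L = (p : ℕ) ^ m := by
    rw [← IsGalois.card_aut_eq_finrank]
    exact hm
  have hyp3 : Hyp3 K L p m := ⟨p.2, hp2, hζK, hgal, hdeg⟩
  obtain ⟨-, hfin, hcard, -, -⟩ := H58.stmt_SHL p m K L hyp3 ⟨q₀.1, v₀⟩
  obtain ⟨cyc, cycv, -, -, hv, -⟩ := H19.stmt_CycClass K L hgal hcycG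
  obtain ⟨hmul, -, hker⟩ := hv ⟨q₀.1, v₀⟩
  haveI := hfin
  have hpos : 0 < Nat.card (MaximalSpectrum (LocAlg K L ⟨q₀.1, v₀⟩)) := by
    rcases Nat.eq_zero_or_pos (Nat.card (MaximalSpectrum (LocAlg K L ⟨q₀.1, v₀⟩))) with h0 | h0
    · exfalso
      rw [h0, mul_zero] at hcard
      exact Module.finrank_pos.ne hcard
    · exact h0
  have key : ∀ d : ℕ,
      d * Nat.card (MaximalSpectrum (LocAlg K L ⟨q₀.1, v₀⟩)) = Module.finrank K L →
      (∀ β : (LocAlg K K ⟨q₀.1, v₀⟩)ˣ,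
        thetaAlg p M q₀.1 (LocAlg K K ⟨q₀.1, v₀⟩) β = 1 → IsLocNorm K L ⟨q₀.1, v₀⟩ β) ∧
      ∀ t : (ZMod ((p : ℕ) ^ M))ˣ, t ^ d = 1 →
        ∃ β : (LocAlg K K ⟨q₀.1, v₀⟩)ˣ, thetaAlg p M q₀.1 (LocAlg K K ⟨q₀.1, v₀⟩) β = t := by
    intro d hd
    obtain ⟨β₀, hβ₀⟩ := hOrd p M K L hp2 hζK hcyc ⟨q₀.1, v₀⟩ d hd
    have hcardH : Nat.card (groupCohomology (repJv K L ⟨q₀.1, v₀⟩) 2) = d :=
      Nat.eq_of_mul_eq_mul_right hpos (hcard.trans hd.symm)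
    exact thl_counting (cycv ⟨q₀.1, v₀⟩) hmul (IsLocNorm K L ⟨q₀.1, v₀⟩) hker
      (thetaAlgHom p M q₀.1 (LocAlg K K ⟨q₀.1, v₀⟩))
      (fun β hβ => thetaAlg_of_isLocNorm K L p M hp2 ⟨_, hζL⟩ ⟨q₀.1, v₀⟩ β hβ) d hcardH β₀ hβ₀
  constructor
  · intro x hx hθx
    apply (key _ hcard).1
    rw [← cycloTheta_secHom K T p M ⟨q₀, v₀⟩, ← eq_secHom_of_supported K T ⟨q₀, v₀⟩ x hx]
    exact hθx
  · intro d t hd ht
    obtain ⟨β, hβ⟩ := (key d hd).2 t ht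
    refine ⟨H80.secHom K K T ⟨q₀, v₀⟩ β,
      fun q v h => secHom_supported K T ⟨q₀, v₀⟩ β q v h, ?_⟩
    rw [cycloTheta_secHom]
    exact hβ

end Fermat.Agent.S55.CFT.H72
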