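/-
S55/E4 island GLB, package THL (helper72), pure group theory: the counting argument.
-/
import Mathlib

set_option autoImplicit false
set_option linter.style.haveILetI false

namespace Fermat.Agent.S55.CFT.H72

/-- In a finite cyclic group, an element killed by `d` is a power of any element of order `d`. -/
theorem mem_zpowers_of_pow_eq_one {C : Type*} [CommGroup C] [Finite C] [IsCyclic C]
    (t₀ t : C) (d : ℕ) (hd : 0 < d) (h₀ : orderOf t₀ = d) (ht : t ^ d = 1) :
    t ∈ Subgroup.zpowers t₀ := by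
  classical
  letI : Fintype C := Fintype.ofFinite C
  have hle : Subgroup.zpowers t₀ ≤ (powMonoidHom d : C →* C).ker := by
    rw [Subgroup.zpowers_le, MonoidHom.mem_ker, powMonoidHom_apply, ← h₀, pow_orderOf_eq_one]
  have hcard : Nat.card (powMonoidHom d : C →* C).ker ≤ Nat.card (Subgroup.zpowers t₀) := by
    rw [Nat.card_zpowers, h₀, Nat.card_eq_fintype_card, Fintype.card_subtype]
    refine le_trans (le_of_eq ?_) (IsCyclic.card_pow_eq_one_le (α := C) hd)
    congr 1
    ext x
    simp [MonoidHom.mem_ker, powMonoidHom_apply]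
  have heq := Subgroup.eq_of_le_of_card_ge hle hcard
  rw [heq, MonoidHom.mem_ker, powMonoidHom_apply]
  exact ht

/-- The counting argument: `c : G ↠ H` with kernel `N`, `#H = d`, `θ` trivial on `N` with a value
of order at least `d`.  Then `ker θ = N` and the image of `θ` is the `d`-torsion of the cyclic
group `C`. -/
theorem thl_counting {G H C : Type*} [CommGroup G] [AddCommGroup H] [Finite H] [CommGroup C]
    [Finite C] [IsCyclic C]
    (c : G → H) (hc_mul : ∀ a b, c (a * b) = c a + c b)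
    (N : G → Prop) (hN : ∀ β, c β = 0 ↔ N β)
    (θ : G →* C) (hθ : ∀ β, N β → θ β = 1) (d : ℕ) (hd : Nat.card H = d) (β₀ : G)
    (h₀ : d ≤ orderOf (θ β₀)) :
    (∀ β, θ β = 1 → N β) ∧ (∀ t : C, t ^ d = 1 → ∃ β, θ β = t) := by
  classical
  let cH : G →* Multiplicative H :=
    MonoidHom.mk' (fun g => Multiplicative.ofAdd (c g)) (fun a b => by
      show Multiplicative.ofAdd (c (a * b)) = Multiplicative.ofAdd (c a) * Multiplicative.ofAdd (c b)
      rw [hc_mul]; rfl)
  have hcz : ∀ (g : G) (k : ℤ), c (g ^ k) = k • c g := fun g k => by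
    have h := map_zpow cH g k
    exact congrArg Multiplicative.toAdd h
  have hcn : ∀ (g : G) (k : ℕ), c (g ^ k) = k • c g := fun g k => by
    have h := map_pow cH g k
    exact congrArg Multiplicative.toAdd h
  have hdpos : 0 < d := hd ▸ Nat.card_pos
  have hn₀d : addOrderOf (c β₀) ∣ d := hd ▸ addOrderOf_dvd_natCard (c β₀)
  have hθn₀ : orderOf (θ β₀) ∣ addOrderOf (c β₀) := by
    apply orderOf_dvd_of_pow_eq_one
    rw [← map_pow]
    apply hθ
    rw [← hN, hcn, addOrderOf_nsmul_eq_zero]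
  have hn₀pos : 0 < addOrderOf (c β₀) := Nat.pos_of_dvd_of_pos hn₀d hdpos
  have hle1 : orderOf (θ β₀) ≤ addOrderOf (c β₀) := Nat.le_of_dvd hn₀pos hθn₀
  have hle2 : addOrderOf (c β₀) ≤ d := Nat.le_of_dvd hdpos hn₀d
  have hn₀ : addOrderOf (c β₀) = d := le_antisymm hle2 (h₀.trans hle1)
  have hord : orderOf (θ β₀) = d := le_antisymm (hle1.trans hle2) h₀
  have hgen : ∀ h : H, ∃ k : ℤ, k • c β₀ = h := by
    have htop : AddSubgroup.zmultiples (c β₀) = ⊤ := by
      apply AddSubgroup.eq_top_of_card_eq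
      rw [Nat.card_zmultiples, hd, hn₀]
    intro h
    have hmem : h ∈ AddSubgroup.zmultiples (c β₀) := htop ▸ AddSubgroup.mem_top h
    exact AddSubgroup.mem_zmultiples_iff.mp hmem
  constructor
  · intro β hβ
    obtain ⟨k, hk⟩ := hgen (c β)
    have h1 : N (β * (β₀ ^ k)⁻¹) := by
      rw [← hN, hc_mul, ← zpow_neg, hcz, neg_smul, hk, add_neg_cancel]
    have h2 := hθ _ h1
    rw [map_mul, hβ, one_mul, map_inv, inv_eq_one, map_zpow] at h2
    have h3 : (d : ℤ) ∣ k := by
      rw [← hord]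
      exact orderOf_dvd_iff_zpow_eq_one.mpr h2
    rw [← hN, ← hk]
    obtain ⟨j, rfl⟩ := h3
    rw [mul_comm, mul_smul, natCast_zsmul, ← hn₀, addOrderOf_nsmul_eq_zero, smul_zero]
  · intro t ht
    have hmem := mem_zpowers_of_pow_eq_one (θ β₀) t d hdpos hord ht
    obtain ⟨k, hk⟩ := Subgroup.mem_zpowers_iff.mp hmem
    exact ⟨β₀ ^ k, by rw [map_zpow, hk]⟩

end Fermat.Agent.S55.CFT.H72
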