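/-
S55/E4 island GLB, package THL (helper72), part THL-W: `Stmt_THL_Gen → Stmt_THL_Ord`.
`B = LocAlg K L v`, `𝔐` a maximal ideal of `B`, `D = H58.decomp G 𝔐` its decomposition group,
`E = B ⧸ 𝔐`, `F = LocAlg K K v`.  `#D = d`; every `σ ∈ D` is an `F`-automorphism of `E`, and it
is determined by its cyclotomic character, which is a power of `θ(β)` by `Stmt_THL_Gen`.
The argument is done for an abstract `G`-ring `B` (fast instance search), then specialised.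
-/
import Fermat.Agent.S55.CFT.Defs_THL
import Fermat.Agent.S55.CFT.H58_SHLLoc
import Fermat.Agent.S55.CFT.H19_CycLoc

set_option autoImplicit false
set_option linter.unusedSectionVars false
set_option linter.style.haveILetI false

open NumberField TensorProduct CategoryTheory

noncomputable section

namespace Fermat.Agent.S55.CFT.H72

/-- THL-Q and THL-P give the general abstract statement. -/
theorem stmt_THL_Gen_of (hQ : Stmt_THL_GenQ) (hP : Stmt_THL_GenP) : Stmt_THL_Gen := by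
  intro p M q F E _ _ _ _ _ _ hp2 hη ζ hζ
  by_cases hqp : q = p
  · subst hqp
    exact hP q M F E hp2 hη ζ hζ
  · exact hQ p M q F E hqp ζ hζ

/-- A finite group which embeds into the powers of `t` has at most `orderOf t` elements. -/
theorem card_le_orderOf_of_char {D C : Type*} [Group C] [Finite C] (a : D → C)
    (ha : Function.Injective a) (t : C) (h : ∀ σ, ∃ j : ℕ, a σ = t ^ j) :
    Nat.card D ≤ orderOf t := by
  have hmem : ∀ σ, a σ ∈ Subgroup.zpowers t := fun σ => by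
    obtain ⟨j, hj⟩ := h σ
    exact ⟨(j : ℤ), by rw [hj]; simp⟩
  calc Nat.card D ≤ Nat.card (Subgroup.zpowers t) :=
        Nat.card_le_card_of_injective (fun σ => (⟨a σ, hmem σ⟩ : Subgroup.zpowers t))
          (fun x y hxy => ha (congrArg Subtype.val hxy))
    _ = orderOf t := Nat.card_zpowers t

section Abs

variable (p : Nat.Primes) (M : ℕ) (q : Nat.Primes)
  {G : Type} [Group G] {F₀ B : Type} [CommRing F₀] [CommRing B] [MulSemiringAction G B]
  [Algebra (Qp q) F₀] [Module.Finite (Qp q) F₀] [Algebra (Qp q) B] [Module.Finite (Qp q) B]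
  (𝔐 : Ideal B) [h𝔐 : 𝔐.IsMaximal]

/-- The abstract form of THL-W. -/
theorem card_decomp_le (hGen : Stmt_THL_Gen) (hp2 : (p : ℕ) ≠ 2) (hF : IsField F₀)
    {K' L' : Type} [Field K'] [Field L'] (ι₀ : K' →+* F₀) (η : K')
    (hη : IsPrimitiveRoot η (p : ℕ))
    (φ : F₀ →+* B) (hφc : ∀ c : Qp q, φ (algebraMap (Qp q) F₀ c) = algebraMap (Qp q) B c)
    (hφ : ∀ (g : G) (z : F₀), g • φ z = φ z)
    (ι : L' →+* B) (ζ : L') (hζ : IsPrimitiveRoot ζ ((p : ℕ) ^ M))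
    (a : G → (ZMod ((p : ℕ) ^ M))ˣ) (ha : Function.Injective a)
    (haζ : ∀ g : G, g • ι ζ = ι ζ ^ ((a g : (ZMod ((p : ℕ) ^ M))ˣ) : ZMod ((p : ℕ) ^ M)).val) :
    ∃ β : F₀ˣ, Nat.card (H58.decomp G 𝔐) ≤ orderOf (thetaAlg p M q F₀ β) := by
  classical
  haveI : NeZero ((p : ℕ) ^ M) := ⟨pow_ne_zero _ p.2.ne_zero⟩
  letI : Field F₀ := hF.toField
  letI : Field (B ⧸ 𝔐) := Ideal.Quotient.field 𝔐
  letI : Algebra F₀ (B ⧸ 𝔐) := ((Ideal.Quotient.mk 𝔐).comp φ).toAlgebra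
  have halg : ∀ z : F₀, algebraMap F₀ (B ⧸ 𝔐) z = Ideal.Quotient.mk 𝔐 (φ z) := fun _ => rfl
  haveI : IsScalarTower (Qp q) F₀ (B ⧸ 𝔐) := by
    apply IsScalarTower.of_algebraMap_eq
    intro c
    rw [halg, hφc]
    rfl
  haveI : FiniteDimensional F₀ (B ⧸ 𝔐) :=
    Module.Finite.of_restrictScalars_finite (Qp q) F₀ (B ⧸ 𝔐)
  have hηF : ∃ η' : F₀, IsPrimitiveRoot η' (p : ℕ) :=
    ⟨ι₀ η, hη.map_of_injective (RingHom.injective ι₀)⟩
  have hζE : IsPrimitiveRoot (Ideal.Quotient.mk 𝔐 (ι ζ)) ((p : ℕ) ^ M) :=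
    hζ.map_of_injective (f := (Ideal.Quotient.mk 𝔐).comp ι) (RingHom.injective _)
  obtain ⟨β, hβ⟩ := hGen p M q F₀ (B ⧸ 𝔐) hp2 hηF (Ideal.Quotient.mk 𝔐 (ι ζ)) hζE
  refine ⟨β, ?_⟩
  refine card_le_orderOf_of_char (fun σ : H58.decomp G 𝔐 => a (σ : G))
    (ha.comp Subtype.val_injective) _ (fun σ => ?_)
  let τ : (B ⧸ 𝔐) ≃ₐ[F₀] (B ⧸ 𝔐) :=
    AlgEquiv.ofRingEquiv (f := MulSemiringAction.toRingEquiv (H58.decomp G 𝔐) (B ⧸ 𝔐) σ)
      (fun z => by
        show σ • (Ideal.Quotient.mk 𝔐 (φ z)) = Ideal.Quotient.mk 𝔐 (φ z)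
        rw [H58.quot_smul_mk, hφ])
  obtain ⟨j, hj⟩ := hβ τ
  refine ⟨j, ?_⟩
  have h1 : τ (Ideal.Quotient.mk 𝔐 (ι ζ)) =
      (Ideal.Quotient.mk 𝔐 (ι ζ)) ^
        ((a (σ : G) : (ZMod ((p : ℕ) ^ M))ˣ) : ZMod ((p : ℕ) ^ M)).val := by
    show σ • (Ideal.Quotient.mk 𝔐 (ι ζ)) = _
    rw [H58.quot_smul_mk, haζ, map_pow]
  rw [h1] at hj
  have h2 := hζE.pow_inj (ZMod.val_lt _) (ZMod.val_lt _) hj
  exact Units.ext (ZMod.val_injective _ h2)

end Abs

/-- **THL-W**: `Stmt_THL_Gen → Stmt_THL_Ord`. -/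
theorem stmt_THL_Ord_of (hGen : Stmt_THL_Gen) : Stmt_THL_Ord := by
  intro p M K L _ _ _ _ _ hp2 hζK hcyc v d hd
  classical
  haveI : NeZero ((p : ℕ) ^ M) := ⟨pow_ne_zero _ p.2.ne_zero⟩
  haveI hgal : IsGalois K L := IsCyclotomicExtension.isGalois {(p : ℕ) ^ M} K L
  haveI : FiniteDimensional K L := IsCyclotomicExtension.finiteDimensional {(p : ℕ) ^ M} K L
  have hζL := IsCyclotomicExtension.zeta_spec ((p : ℕ) ^ M) K L
  obtain ⟨𝔐, h𝔐⟩ := Ideal.exists_maximal (LocAlg K L v)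
  haveI := h𝔐
  have hcardD := H58.card_maximalSpectrum_mul (G := L ≃ₐ[K] L) (M := 𝔐)
    (H58.locAlg_orbitSeparates K L v 𝔐)
  rw [IsGalois.card_aut_eq_finrank] at hcardD
  have hpos : 0 < Nat.card (MaximalSpectrum (LocAlg K L v)) := by
    rcases Nat.eq_zero_or_pos (Nat.card (MaximalSpectrum (LocAlg K L v))) with h0 | h0
    · exfalso
      rw [h0, zero_mul] at hcardD
      exact Module.finrank_pos.ne hcardD
    · exact h0
  have hdD : d = Nat.card (H58.decomp (L ≃ₐ[K] L) 𝔐) := by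
    apply Nat.eq_of_mul_eq_mul_right hpos
    rw [hd, mul_comm, hcardD]
  obtain ⟨η, hη⟩ := hζK
  have hφc : ∀ c : Qp v.1, locAlgTower K K L v (algebraMap (Qp v.1) (LocAlg K K v) c) =
      algebraMap (Qp v.1) (LocAlg K L v) c := by
    intro c
    show locAlgTower K K L v (Ideal.Quotient.mk (placeIdeal K K v)
      (algebraMap (Qp v.1) (SemiLocal K v.1) c)) = _
    rw [H19.locAlgTower_mk, AlgHom.commutes]
    rfl
  have haζ : ∀ g : L ≃ₐ[K] L, g • H58.locIncl K L v (IsCyclotomicExtension.zeta ((p : ℕ) ^ M) K L) =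
      H58.locIncl K L v (IsCyclotomicExtension.zeta ((p : ℕ) ^ M) K L) ^
        ((hζL.autToPow K g : (ZMod ((p : ℕ) ^ M))ˣ) : ZMod ((p : ℕ) ^ M)).val := by
    intro g
    rw [H58.locIncl_smul, ← map_pow, hζL.autToPow_spec K g]
  obtain ⟨β, hβ⟩ := card_decomp_le p M v.1 𝔐 hGen hp2 (H19.isField_locAlg_self K v)
    (H58.locIncl K K v) η hη (locAlgTower K K L v) hφc
    (fun g z => H19.smul_locAlgTower K L v g z)
    (H58.locIncl K L v) (IsCyclotomicExtension.zeta ((p : ℕ) ^ M) K L) hζL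
    (hζL.autToPow K) (hζL.autToPow_injective K) haζ
  exact ⟨β, hdD ▸ hβ⟩

end Fermat.Agent.S55.CFT.H72
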