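/-
S55/E4 island GLB, package THL (helper72): `Stmt_THL`, unconditional.
THL-Q (helper41) + THL-P (helper25, with `Stmt_LocalThetaOnto`) + THL-W + assembly.
-/
import Fermat.Agent.S55.CFT.H72_THL
import Fermat.Agent.S55.CFT.H72_THLW
import Fermat.Agent.S55.CFT.LOC.H41_THLQ
import Fermat.Agent.S55.CFT.LOC.H25_THLP

set_option autoImplicit false

namespace Fermat.Agent.S55.CFT.H72

/-- The abstract local statement, unconditional. -/
theorem stmt_THL_Gen : Stmt_THL_Gen :=
  stmt_THL_Gen_of LOC.H41.stmt_THL_GenQ LOC.H25.stmt_THL_GenP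

/-- The local degree is at most the order of a value of the local symbol. -/
theorem stmt_THL_Ord : Stmt_THL_Ord := stmt_THL_Ord_of stmt_THL_Gen

/-- **THL** (the local cyclotomic symbol), unconditional. -/
theorem stmt_THL : Stmt_THL := stmt_THL_of stmt_THL_Ord

end Fermat.Agent.S55.CFT.H72
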