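/-
S55 package E4, island GLB, package GLB-3a (`Stmt_JCyclic`), part 1: abstract algebra.

* `SplitIdem`: a ring `C` with an action of `g` (`g ^ p = 1`) and an idempotent `e` whose
  translates `g ^ i • e`, `i < p`, are orthogonal with sum `1` (`C = ∏_{i<p} C e_i`, "induced"):
  invariant units are norms (`SplitIdem.norm_surj`), Hilbert 90 (`SplitIdem.h90`).
* `field_or_split`: a nontrivial reduced Artinian ring with an action of `g`, `g ^ p = 1`, `p`
  prime, without nontrivial invariant idempotents, is a field or has a `SplitIdem`.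
Owner: helper80.
-/
import Mathlib

set_option autoImplicit false

namespace Fermat.Agent.S55.CFT.H80

open Finset

section Split

variable {G C : Type*} [Group G] [CommRing C] [MulSemiringAction G C]

/-- The translates `g ^ i • e`, `i < p`, are orthogonal with sum `1`. -/
structure SplitIdem (g : G) (p : ℕ) (e : C) : Prop where
  orth : ∀ i j, i < p → j < p → i ≠ j → (g ^ i • e) * (g ^ j • e) = 0
  sum : ∑ i ∈ range p, g ^ i • e = 1

variable {g : G} {p : ℕ} {e : C}

lemma SplitIdem.idem (h : SplitIdem g p e) (i : ℕ) (hi : i < p) :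
    (g ^ i • e) * (g ^ i • e) = g ^ i • e := by
  have h1 := congrArg (fun x => (g ^ i • e) * x) h.sum
  simp only [Finset.mul_sum, mul_one] at h1
  rw [Finset.sum_eq_single_of_mem i (Finset.mem_range.mpr hi)
    (fun j hj hji => h.orth i j hi (Finset.mem_range.mp hj) (Ne.symm hji))] at h1
  exact h1

lemma SplitIdem.idem_zero (h : SplitIdem g p e) (hp : 0 < p) : e * e = e := by
  have := h.idem 0 hp
  simpa using this

lemma smul_pow_fixed (u : C) (hu : g • u = u) (i : ℕ) : g ^ i • u = u := by
  induction i with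
  | zero => simp
  | succ i ih => rw [pow_succ, mul_smul, hu, ih]

/-- In the split case every invariant unit is a norm. -/
theorem SplitIdem.norm_surj (h : SplitIdem g p e) (hp : 0 < p) (u : Cˣ)
    (hu : g • (u : C) = u) : ∃ y : Cˣ, ∏ i ∈ range p, g ^ i • (y : C) = u := by
  have he := h.idem_zero hp
  have hy : (1 + ((u : C) - 1) * e) * (1 + (((u⁻¹ : Cˣ) : C) - 1) * e) = 1 := by
    have huu : (u : C) * ((u⁻¹ : Cˣ) : C) = 1 := Units.mul_inv u
    have : (1 + ((u : C) - 1) * e) * (1 + (((u⁻¹ : Cˣ) : C) - 1) * e) =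
        1 + (((u : C) - 1) + ((((u⁻¹ : Cˣ) : C)) - 1)) * e +
          ((u : C) - 1) * ((((u⁻¹ : Cˣ) : C)) - 1) * (e * e) := by ring
    rw [this, he]
    have h2 : ((u : C) - 1) * ((((u⁻¹ : Cˣ) : C)) - 1) =
        (u : C) * ((u⁻¹ : Cˣ) : C) - (u : C) - ((u⁻¹ : Cˣ) : C) + 1 := by ring
    rw [h2, huu]
    ring
  refine ⟨⟨1 + ((u : C) - 1) * e, 1 + (((u⁻¹ : Cˣ) : C) - 1) * e, hy, by rw [mul_comm]; exact hy⟩,
    ?_⟩
  change ∏ i ∈ range p, g ^ i • (1 + ((u : C) - 1) * e) = u
  have hterm : ∀ i, g ^ i • (1 + ((u : C) - 1) * e) = 1 + ((u : C) - 1) * (g ^ i • e) := by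
    intro i
    rw [smul_add, smul_one, smul_mul', smul_sub, smul_one, smul_pow_fixed (u : C) hu i]
  simp only [hterm]
  have hind : ∀ n, n ≤ p → ∏ i ∈ range n, (1 + ((u : C) - 1) * (g ^ i • e)) =
      1 + ((u : C) - 1) * ∑ i ∈ range n, g ^ i • e := by
    intro n
    induction n with
    | zero => intro _; simp
    | succ n ih =>
      intro hn
      rw [Finset.prod_range_succ, Finset.sum_range_succ, ih (Nat.le_of_succ_le hn)]
      have hz : (∑ i ∈ range n, g ^ i • e) * (g ^ n • e) = 0 := by
        rw [Finset.sum_mul]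
        apply Finset.sum_eq_zero
        intro i hi
        have hin : i < n := Finset.mem_range.mp hi
        exact h.orth i n (lt_of_lt_of_le hin (Nat.le_of_succ_le hn)) hn (Nat.ne_of_lt hin)
      have : (1 + ((u : C) - 1) * ∑ i ∈ range n, g ^ i • e) * (1 + ((u : C) - 1) * (g ^ n • e)) =
          1 + ((u : C) - 1) * (∑ i ∈ range n, g ^ i • e + g ^ n • e) +
            ((u : C) - 1) * ((u : C) - 1) * ((∑ i ∈ range n, g ^ i • e) * (g ^ n • e)) := by ring
      rw [this, hz]
      ring
  rw [hind p le_rfl, h.sum]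
  ring

/-- Hilbert 90 in the split case. -/
theorem SplitIdem.h90 (h : SplitIdem g p e) (hg : g ^ p = 1) (u : Cˣ)
    (hu : ∏ i ∈ range p, g ^ i • (u : C) = 1) : ∃ w : Cˣ, (u : C) * g • (w : C) = w := by
  set a : ℕ → C := fun i => ∏ j ∈ range i, g ^ j • (u : C) with ha
  set a' : ℕ → C := fun i => ∏ j ∈ range i, g ^ j • ((u⁻¹ : Cˣ) : C) with ha'
  have haa' : ∀ i, a i * a' i = 1 := by
    intro i
    simp only [ha, ha']
    rw [← Finset.prod_mul_distrib]
    apply Finset.prod_eq_one
    intro j _
    rw [← smul_mul', Units.mul_inv, smul_one]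
  have hasucc : ∀ i, a (i + 1) = (u : C) * g • a i := by
    intro i
    simp only [ha]
    rw [Finset.prod_range_succ', pow_zero, one_smul, mul_comm, Finset.smul_prod']
    congr 1
    apply Finset.prod_congr rfl
    intro j _
    rw [pow_succ', mul_smul]
  have hap : a p = 1 := hu
  have ha0 : a 0 = 1 := by simp [ha]
  have hsumcross : ∀ (x y : ℕ → C), (∑ i ∈ range p, x i * (g ^ i • e)) *
      (∑ i ∈ range p, y i * (g ^ i • e)) = ∑ i ∈ range p, (x i * y i) * (g ^ i • e) := by
    intro x y
    rw [Finset.sum_mul]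
    apply Finset.sum_congr rfl
    intro i hi
    rw [Finset.mul_sum, Finset.sum_eq_single_of_mem i hi]
    · have := h.idem i (Finset.mem_range.mp hi)
      calc x i * (g ^ i • e) * (y i * (g ^ i • e))
          = (x i * y i) * ((g ^ i • e) * (g ^ i • e)) := by ring
        _ = _ := by rw [this]
    · intro j hj hji
      have := h.orth i j (Finset.mem_range.mp hi) (Finset.mem_range.mp hj) (Ne.symm hji)
      calc x i * (g ^ i • e) * (y j * (g ^ j • e))
          = (x i * y j) * ((g ^ i • e) * (g ^ j • e)) := by ring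
        _ = 0 := by rw [this, mul_zero]
  have hww' : (∑ i ∈ range p, a i * (g ^ i • e)) * (∑ i ∈ range p, a' i * (g ^ i • e)) = 1 := by
    rw [hsumcross]
    simp only [haa', one_mul]
    exact h.sum
  refine ⟨⟨∑ i ∈ range p, a i * (g ^ i • e), ∑ i ∈ range p, a' i * (g ^ i • e), hww',
    by rw [mul_comm]; exact hww'⟩, ?_⟩
  change (u : C) * g • (∑ i ∈ range p, a i * (g ^ i • e)) = ∑ i ∈ range p, a i * (g ^ i • e)
  rw [Finset.smul_sum, Finset.mul_sum]
  have hstep : ∀ i, (u : C) * g • (a i * (g ^ i • e)) = a (i + 1) * (g ^ (i + 1) • e) := by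
    intro i
    rw [smul_mul', hasucc, ← mul_smul, ← pow_succ', mul_assoc]
  simp only [hstep]
  have h1 := Finset.sum_range_succ (fun i => a i * (g ^ i • e)) p
  have h2 := Finset.sum_range_succ' (fun i => a i * (g ^ i • e)) p
  rw [h1] at h2
  simp only [hap, ha0, hg, pow_zero, one_smul, one_mul] at h2
  exact (add_right_cancel h2).symm

end Split

section Dichotomy

variable {G C : Type*} [Group G] [CommRing C] [MulSemiringAction G C]

/-- Primitive idempotents. -/
def IsPrimIdem (e : C) : Prop :=
  IsIdempotentElem e ∧ e ≠ 0 ∧ ∀ f : C, IsIdempotentElem f → e * f = 0 ∨ e * f = e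

lemma IsPrimIdem.smul {e : C} (h : IsPrimIdem e) (σ : G) : IsPrimIdem (σ • e) := by
  obtain ⟨h1, h2, h3⟩ := h
  refine ⟨?_, ?_, ?_⟩
  · change σ • e * σ • e = σ • e
    rw [← smul_mul', h1.eq]
  · intro h0
    apply h2
    have := congrArg (fun x => σ⁻¹ • x) h0
    simpa using this
  · intro f hf
    have hf' : IsIdempotentElem (σ⁻¹ • f) := by
      change σ⁻¹ • f * σ⁻¹ • f = σ⁻¹ • f
      rw [← smul_mul', hf.eq]
    have hef : σ • e * f = σ • (e * σ⁻¹ • f) := by
      rw [smul_mul', smul_inv_smul]
    rcases h3 _ hf' with h | h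
    · left
      rw [hef, h, smul_zero]
    · right
      rw [hef, h]

lemma IsPrimIdem.mul_eq_zero {e f : C} (he : IsPrimIdem e) (hf : IsPrimIdem f) (hne : e ≠ f) :
    e * f = 0 := by
  rcases he.2.2 f hf.1 with h | h
  · exact h
  · rcases hf.2.2 e he.1 with h' | h'
    · rw [mul_comm] at h'
      exact h'
    · exfalso
      apply hne
      rw [← h, mul_comm, h']

theorem exists_primIdem (C : Type*) [CommRing C] [Nontrivial C] [IsArtinianRing C]
    [IsReduced C] : ∃ e : C, IsPrimIdem e ∧ (e = 1 → IsField C) := by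
  classical
  obtain ⟨I, hI⟩ := Ideal.exists_maximal C
  set 𝔐₀ : MaximalSpectrum C := ⟨I, hI⟩ with h𝔐₀
  set e : C := (IsArtinianRing.equivPi C).symm (Pi.single 𝔐₀ 1) with he
  have hee : IsArtinianRing.equivPi C e = Pi.single 𝔐₀ 1 :=
    (IsArtinianRing.equivPi C).apply_symm_apply _
  have hne1 : (1 : C ⧸ 𝔐₀.asIdeal) ≠ 0 := by
    have : Nontrivial (C ⧸ 𝔐₀.asIdeal) := Ideal.Quotient.nontrivial_iff.mpr hI.ne_top
    exact one_ne_zero
  refine ⟨e, ⟨?_, ?_, ?_⟩, ?_⟩
  · apply (IsArtinianRing.equivPi C).injective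
    rw [map_mul, hee, ← Pi.single_mul, mul_one]
  · intro h0
    rw [h0, map_zero] at hee
    have := congrFun hee 𝔐₀
    rw [Pi.single_eq_same] at this
    exact hne1 this.symm
  · intro f hf
    have hfm : IsIdempotentElem (Ideal.Quotient.mk 𝔐₀.asIdeal f) := by
      change _ * _ = _
      rw [← map_mul, hf.eq]
    have : IsDomain (C ⧸ 𝔐₀.asIdeal) := Ideal.Quotient.isDomain _
    have hef : IsArtinianRing.equivPi C (e * f) =
        Pi.single 𝔐₀ (Ideal.Quotient.mk 𝔐₀.asIdeal f) := by
      rw [map_mul, hee]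
      funext 𝔐
      by_cases h𝔐 : 𝔐 = 𝔐₀
      · subst h𝔐
        simp
      · simp [h𝔐]
    rcases IsIdempotentElem.iff_eq_zero_or_one.mp hfm with h | h
    · left
      apply (IsArtinianRing.equivPi C).injective
      rw [hef, h, Pi.single_zero, map_zero]
    · right
      apply (IsArtinianRing.equivPi C).injective
      rw [hef, h, hee]
  · intro h1
    rw [h1, map_one] at hee
    have huniq : ∀ J : Ideal C, J.IsMaximal → J = I := by
      intro J hJ
      by_contra hne
      have hJne : (⟨J, hJ⟩ : MaximalSpectrum C) ≠ 𝔐₀ := by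
        intro h
        exact hne (congrArg MaximalSpectrum.asIdeal h)
      have h10 := congrFun hee ⟨J, hJ⟩
      rw [Pi.single_eq_of_ne hJne] at h10
      have : Nontrivial (C ⧸ J) := Ideal.Quotient.nontrivial_iff.mpr hJ.ne_top
      exact one_ne_zero h10
    have : IsLocalRing C := IsLocalRing.of_unique_max_ideal ⟨I, hI, huniq⟩
    exact IsArtinianRing.isField_of_isReduced_of_isLocalRing C

/-- A nontrivial reduced Artinian ring with an automorphism `g` of prime order dividing `p`,
without nontrivial invariant idempotents, is a field or "induced". -/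
theorem field_or_split [Nontrivial C] [IsArtinianRing C] [IsReduced C] (g : G) (p : ℕ)
    (hp : p.Prime) (hg : g ^ p = 1)
    (hinv : ∀ c : C, IsIdempotentElem c → g • c = c → c = 0 ∨ c = 1) :
    IsField C ∨ ∃ e : C, SplitIdem g p e := by
  obtain ⟨e, he, hfield⟩ := exists_primIdem C
  by_cases hge : g • e = e
  · left
    rcases hinv e he.1 hge with h | h
    · exact absurd h he.2.1
    · exact hfield h
  · right
    have hpow_fix : ∀ k, 0 < k → k < p → g ^ k • e ≠ e := by
      intro k hk0 hkp hk
      apply hge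
      have hcop : Nat.Coprime k p :=
        Nat.coprime_comm.mp ((Nat.Prime.coprime_iff_not_dvd hp).mpr
          (Nat.not_dvd_of_pos_of_lt hk0 hkp))
      obtain ⟨m, -, hm⟩ := Nat.exists_mul_mod_eq_one_of_coprime hcop hp.one_lt
      have h1 : g ^ (k * m) = g := by
        rw [pow_eq_pow_mod (k * m) hg, hm, pow_one]
      have h2 : ∀ m : ℕ, (g ^ k) ^ m • e = e := fun m => smul_pow_fixed e hk m
      rw [← h1, pow_mul]
      exact h2 m
    have hdist : ∀ i j, i < p → j < p → i < j → g ^ i • e ≠ g ^ j • e := by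
      intro i j _ hj hij h
      apply hpow_fix (j - i) (Nat.sub_pos_of_lt hij) (lt_of_le_of_lt (Nat.sub_le j i) hj)
      have h3 : g ^ j = g ^ i * g ^ (j - i) := by
        rw [← pow_add, Nat.add_sub_cancel' hij.le]
      rw [h3, mul_smul] at h
      have := congrArg (fun x => (g ^ i)⁻¹ • x) h
      simp only [inv_smul_smul] at this
      exact this.symm
    have horth : ∀ i j, i < p → j < p → i ≠ j → (g ^ i • e) * (g ^ j • e) = 0 := by
      intro i j hi hj hij
      apply IsPrimIdem.mul_eq_zero (he.smul _) (he.smul _)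
      rcases Nat.lt_or_gt_of_ne hij with h | h
      · exact hdist i j hi hj h
      · exact (hdist j i hj hi h).symm
    refine ⟨e, horth, ?_⟩
    set s := ∑ i ∈ range p, g ^ i • e with hs
    have hidem : ∀ i, (g ^ i • e) * (g ^ i • e) = g ^ i • e := fun i => (he.smul (g ^ i)).1.eq
    have hs_idem : IsIdempotentElem s := by
      change s * s = s
      rw [hs, Finset.sum_mul]
      apply Finset.sum_congr rfl
      intro i hi
      rw [Finset.mul_sum, Finset.sum_eq_single_of_mem i hi, hidem]
      intro j hj hji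
      exact horth i j (Finset.mem_range.mp hi) (Finset.mem_range.mp hj) (Ne.symm hji)
    have hs_inv : g • s = s := by
      rw [hs, Finset.smul_sum]
      have h1 := Finset.sum_range_succ (fun i => g ^ i • e) p
      have h2 := Finset.sum_range_succ' (fun i => g ^ i • e) p
      rw [h1] at h2
      simp only [hg, pow_zero] at h2
      have h3 := add_right_cancel h2
      rw [h3]
      apply Finset.sum_congr rfl
      intro i _
      rw [← mul_smul, ← pow_succ']
    have hs_ne : s ≠ 0 := by
      intro h0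
      have h1 : s * e = e := by
        rw [hs, Finset.sum_mul, Finset.sum_eq_single_of_mem 0 (Finset.mem_range.mpr hp.pos)]
        · simpa using he.1.eq
        · intro j hj hj0
          have := horth j 0 (Finset.mem_range.mp hj) hp.pos hj0
          simpa using this
      rw [h0, zero_mul] at h1
      exact he.2.1 h1.symm
    rcases hinv s hs_idem hs_inv with h | h
    · exact absurd h hs_ne
    · exact h

end Dichotomy

end Fermat.Agent.S55.CFT.H80
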