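/-
S55 package E4, island GLB, package GLB-3a (`Stmt_JCyclic`), part 4: the split case and
the dichotomy, cohomologically.  `C` a ring with an action of a cyclic group `G` of order `p`
(generator `g`), with a compatible action on `Cˣ`:
* `split_h1`, `split_card_h2`: if `C` has a `SplitIdem`, `H¹(G, Cˣ) = 0` and `#H²(G, Cˣ) = 1`;
* `SplitIdem.not_isField`;
* `isReduced_quotient_idem`: `R ⧸ (1 - w)` is reduced for `R` reduced and `w` idempotent.
Owner: helper80.
-/
import Mathlib
import Fermat.Agent.S55.CFT.H80_JCycAlg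
import Fermat.Agent.S55.CFT.H80_JCycCoh

set_option autoImplicit false

open CategoryTheory groupCohomology

namespace Fermat.Agent.S55.CFT.H80

section Gen

lemma smul_eq_of_gen {G X : Type*} [Group G] [MulAction G X] (g : G)
    (hg : ∀ x, x ∈ Subgroup.zpowers g) (x : X) (hx : g • x = x) (σ : G) : σ • x = x := by
  obtain ⟨n, rfl⟩ := Subgroup.mem_zpowers_iff.mp (hg σ)
  have h1 : ∀ m : ℕ, g ^ m • x = x := by
    intro m
    induction m with
    | zero => simp
    | succ m ih => rw [pow_succ, mul_smul, hx, ih]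
  rcases Int.eq_nat_or_neg n with ⟨m, rfl | rfl⟩
  · rw [zpow_natCast]
    exact h1 m
  · rw [zpow_neg, zpow_natCast, inv_smul_eq_iff]
    exact (h1 m).symm

lemma isReduced_quotient_idem {R : Type*} [CommRing R] [IsReduced R] (w : R)
    (hw : IsIdempotentElem w) : IsReduced (R ⧸ Ideal.span {1 - w}) := by
  constructor
  rintro x ⟨n, hn⟩
  obtain ⟨y, rfl⟩ := Ideal.Quotient.mk_surjective x
  rw [← map_pow, Ideal.Quotient.eq_zero_iff_mem, Ideal.mem_span_singleton'] at hn
  obtain ⟨z, hz⟩ := hn
  have hw1 : w * (1 - w) = 0 := by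
    rw [mul_sub, mul_one, hw.eq, sub_self]
  have hnil : IsNilpotent (w * y) := by
    refine ⟨n + 1, ?_⟩
    rw [mul_pow, pow_succ y, ← hz, hw.pow_succ_eq]
    calc w * (z * (1 - w) * y) = (w * (1 - w)) * (z * y) := by ring
      _ = 0 := by rw [hw1, zero_mul]
  have h0 : w * y = 0 := hnil.eq_zero
  rw [Ideal.Quotient.eq_zero_iff_mem, Ideal.mem_span_singleton']
  refine ⟨y, ?_⟩
  rw [mul_sub, mul_one, mul_comm y w, h0, sub_zero]

end Gen

section SplitCoh

variable {G C : Type} [Group G] [Fintype G] [CommRing C] [MulSemiringAction G C]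
  [MulDistribMulAction G Cˣ]
  (hcompat : ∀ (σ : G) (u : Cˣ), ((σ • u : Cˣ) : C) = σ • (u : C))
  (g : G) (hg : ∀ x, x ∈ Subgroup.zpowers g) (p : ℕ) (hp : Nat.card G = p)

include hcompat in
omit [Fintype G] in
lemma coe_nmHom (u : Cˣ) :
    ((nmHom g p u : Cˣ) : C) = ∏ i ∈ Finset.range p, g ^ i • (u : C) := by
  rw [nmHom_apply, Units.coe_prod]
  exact Finset.prod_congr rfl (fun i _ => hcompat _ _)

include hcompat hg hp in
theorem split_h1 (e : C) (h : SplitIdem g p e) :
    Subsingleton (groupCohomology (Rep.ofMulDistribMulAction G Cˣ) 1) := by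
  apply h1_subsingleton g hg p hp
  intro u hu
  have hgp : g ^ p = 1 := by
    rw [← hp]
    exact pow_card_eq_one'
  have hu' : ∏ i ∈ Finset.range p, g ^ i • (u : C) = 1 := by
    rw [← coe_nmHom hcompat, hu, Units.val_one]
  obtain ⟨w, hw⟩ := h.h90 hgp u hu'
  refine ⟨w, ?_⟩
  apply Units.ext
  rw [Units.val_mul, hcompat]
  exact hw

include hcompat hg hp in
theorem split_card_h2 (e : C) (h : SplitIdem g p e) (hp0 : 0 < p) :
    Nat.card (groupCohomology (Rep.ofMulDistribMulAction G Cˣ) 2) = 1 := by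
  apply card_h2_eq_one g hg p hp
  intro u hu
  have hu' : g • (u : C) = u := by
    rw [← hcompat, hu]
  obtain ⟨y, hy⟩ := h.norm_surj hp0 u hu'
  refine ⟨y, ?_⟩
  apply Units.ext
  rw [coe_nmHom hcompat]
  exact hy

end SplitCoh

section NotField

variable {G C : Type*} [Group G] [CommRing C] [MulSemiringAction G C]

lemma SplitIdem.not_isField [Nontrivial C] (g : G) (p : ℕ) (hp : 2 ≤ p) (e : C)
    (h : SplitIdem g p e) : ¬ IsField C := by
  intro hC
  have h01 := h.orth 0 1 (by omega) (by omega) (by omega)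
  rw [pow_zero, one_smul, pow_one] at h01
  have hdom : IsDomain C := hC.isDomain
  have he0 : e = 0 := by
    rcases mul_eq_zero.mp h01 with h0 | h0
    · exact h0
    · have := congrArg (fun x => g⁻¹ • x) h0
      simpa using this
  have hsum := h.sum
  rw [he0] at hsum
  simp only [smul_zero, Finset.sum_const_zero] at hsum
  exact zero_ne_one hsum

end NotField

end Fermat.Agent.S55.CFT.H80
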