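/-
S55 / E4 / CFT, leaf UNN (helper96), part 2: principal units are norms (Hensel).

* `isAdicComplete_of_le_of_pow_le`: completeness for `I` gives completeness for `J`, if
  `I ≤ J` and `J ^ m ≤ I`;
* `exists_poly_one_add`: `∏ σ, (1 + σ(t) X)` has coefficients in the invariants;
* `exists_prod_smul_one_add`: if `g(X) = ∏ σ, (1 + σ(t) X)` comes from `R[X]`, `R` complete for
  `J`, and the trace `g'(0)` of `t` is `≡ 1 mod J`, then every `u ≡ 1 mod J` of `R` is
  `g(x) = ∏ σ, σ (1 + x t)` for some `x ∈ J`.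
-/
import Mathlib
import Fermat.Agent.S55.CFT.H96_Newton

set_option autoImplicit false
set_option linter.unusedSectionVars false

open Polynomial

namespace Fermat.Agent.S55.CFT.H96

/-- Completeness passes to an ideal with the same topology. -/
theorem isAdicComplete_of_le_of_pow_le {R : Type*} [CommRing R] (I J : Ideal R)
    [hI : IsAdicComplete I R] (hIJ : I ≤ J) (m : ℕ) (hJ : J ^ m ≤ I) : IsAdicComplete J R := by
  have hJ' : J ^ (m + 1) ≤ I := (Ideal.pow_le_pow_right (Nat.le_succ m)).trans hJ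
  have hpow : ∀ n : ℕ, J ^ ((m + 1) * n) ≤ I ^ n := by
    intro n
    rw [pow_mul]
    exact Ideal.pow_right_mono hJ' n
  have hle : ∀ n : ℕ, n ≤ (m + 1) * n := fun n => Nat.le_mul_of_pos_left n (Nat.succ_pos m)
  refine { haus' := fun x hx => ?_, prec' := fun f hf => ?_ }
  · refine IsHausdorff.haus' (I := I) x (fun n => ?_)
    have := hx ((m + 1) * n)
    rw [SModEq.zero, ← Ideal.one_eq_top, Ideal.smul_eq_mul, mul_one] at this ⊢
    exact hpow n this
  · have hf' : ∀ {a b : ℕ}, a ≤ b → f a - f b ∈ J ^ a := by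
      intro a b hab
      have := hf hab
      rw [SModEq.sub_mem, ← Ideal.one_eq_top, Ideal.smul_eq_mul, mul_one] at this
      exact this
    obtain ⟨L, hL⟩ := IsPrecomplete.prec' (I := I) (fun n => f ((m + 1) * n)) (by
      intro a b hab
      rw [SModEq.sub_mem, ← Ideal.one_eq_top, Ideal.smul_eq_mul, mul_one]
      exact hpow a (hf' (Nat.mul_le_mul_left _ hab)))
    refine ⟨L, fun n => ?_⟩
    have h1 := hL n
    rw [SModEq.sub_mem, ← Ideal.one_eq_top, Ideal.smul_eq_mul, mul_one] at h1 ⊢
    have h2 : f n - L = (f n - f ((m + 1) * n)) + (f ((m + 1) * n) - L) := by ring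
    rw [h2]
    exact Ideal.add_mem _ (hf' (hle n)) (Ideal.pow_right_mono hIJ n h1)

section poly

variable {A B : Type*} [CommRing A] [CommRing B] [Algebra A B]
  {G : Type*} [Group G] [Fintype G] [MulSemiringAction G B] [SMulCommClass G A B]

/-- The value at `0` of `∏ σ, (1 + c σ X)`. -/
theorem eval_zero_prod_one_add {S : Type*} [CommRing S] {ι : Type*} (s : Finset ι) (c : ι → S) :
    (∏ i ∈ s, (1 + C (c i) * X : S[X])).eval 0 = 1 := by
  rw [eval_prod]
  exact Finset.prod_eq_one (fun i _ => by simp)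

/-- The derivative at `0` of `∏ σ, (1 + c σ X)`. -/
theorem eval_zero_derivative_prod_one_add {S : Type*} [CommRing S] {ι : Type*} [DecidableEq ι]
    (s : Finset ι) (c : ι → S) :
    (derivative (∏ i ∈ s, (1 + C (c i) * X : S[X]))).eval 0 = ∑ i ∈ s, c i := by
  rw [derivative_prod_finset, eval_finsetSum]
  refine Finset.sum_congr rfl (fun i _ => ?_)
  rw [eval_mul, eval_zero_prod_one_add, one_mul, derivative_add, derivative_one, zero_add,
    derivative_C_mul, derivative_X, mul_one, eval_C]

variable [Algebra.IsInvariant A B G]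

variable (A G) in
/-- `∏ σ, (1 + σ(t) X)` has coefficients in `A`. -/
theorem exists_poly_one_add (t : B) :
    ∃ g : A[X], g.map (algebraMap A B) = ∏ σ : G, (1 + C (σ • t) * X) := by
  have h1 : (∏ σ : G, (1 + C (σ • t) * X) : B[X]) = ∏ σ : G, σ • (1 + C t * X : B[X]) := by
    refine Finset.prod_congr rfl (fun σ _ => ?_)
    rw [smul_add, smul_one, smul_mul', smul_C, smul_X]
  have h2 : (∏ σ : G, (1 + C (σ • t) * X) : B[X]) ∈ Polynomial.lifts (algebraMap A B) := by
    rw [Polynomial.lifts_iff_coeff_lifts]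
    intro n
    refine Algebra.IsInvariant.isInvariant (A := A) (G := G) _ (fun g => ?_)
    rw [← coeff_smul, h1, Finset.smul_prod_perm]
  obtain ⟨g, hg⟩ := (Polynomial.mem_lifts _).mp h2
  exact ⟨g, hg⟩

end poly

section hensel

variable {R S : Type*} [CommRing R] [CommRing S] (φ : R →+* S)
  {G : Type*} [Group G] [Fintype G] [MulSemiringAction G S]

/-- **Principal units are norms.** -/
theorem exists_prod_smul_one_add (hφ : ∀ (σ : G) (r : R), σ • φ r = φ r) (J : Ideal R)
    [IsAdicComplete J R] (t : S) (g : R[X])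
    (hg : g.map φ = ∏ σ : G, (1 + C (σ • t) * X)) (hg0 : g.eval 0 = 1)
    (hg1 : g.derivative.eval 0 - 1 ∈ J) (u : R) (hu : u - 1 ∈ J) :
    ∃ x : R, x ∈ J ∧ ∏ σ : G, σ • (1 + φ x * t) = φ u := by
  have h1 : (g - C u).eval 0 ∈ J := by
    rw [eval_sub, eval_C, hg0]
    have : (1 : R) - u = -(u - 1) := by ring
    rw [this]
    exact J.neg_mem hu
  have h2 : IsUnit (Ideal.Quotient.mk J ((g - C u).derivative.eval 0)) := by
    rw [derivative_sub, derivative_C, sub_zero]
    have : Ideal.Quotient.mk J (g.derivative.eval 0) = 1 := by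
      rw [← map_one (Ideal.Quotient.mk J), Ideal.Quotient.eq]
      exact hg1
    rw [this]
    exact isUnit_one
  obtain ⟨x, hx, hxJ⟩ := exists_root_of_adicComplete J (g - C u) 0 h1 h2
  rw [sub_zero] at hxJ
  refine ⟨x, hxJ, ?_⟩
  have hx' : g.eval x = u := by
    have := hx.eq_zero
    rw [eval_sub, eval_C, sub_eq_zero] at this
    exact this
  have h3 : ∏ σ : G, σ • (1 + φ x * t) = (∏ σ : G, (1 + C (σ • t) * X : S[X])).eval (φ x) := by
    rw [eval_prod]
    refine Finset.prod_congr rfl (fun σ _ => ?_)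
    rw [smul_add, smul_one, smul_mul', hφ, eval_add, eval_one, eval_mul, eval_C, eval_X,
      mul_comm]
  rw [h3, ← hg, eval_map, eval₂_at_apply, hx']

end hensel

end Fermat.Agent.S55.CFT.H96
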